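import Fermat.Agent.TW.Aut.ChiAbsMat
import Fermat.Agent.TW.Def.SeamA

/-!
# Project ONE MACHINE, E/Chi: bridge to the `[A] → [C]` seam (helper28)

helper21's `twc_chiSub χ` (`TW/Def/SeamA.lean`) IS the `𝒪`-restriction of `twe_chi_sub G χ Mb`
(`TW/Aut/ChiAbsMod.lean`), so `Mb ⧸ twc_chiSub χ ≃ₗ[𝒪] twe_chi_M G χ Mb`, and it is a finite free
`𝒪`-module as soon as `Mb` is finite free over `𝒪[G × H]` (`G` finite).
-/

set_option autoImplicit false

open MonoidAlgebra CuspForm IsLocalRing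

namespace Fermat.Agent.TW

noncomputable section

section

variable {𝒪 : Type} [CommRing 𝒪] {G H : Type} [CommGroup G] [CommGroup H]
variable (χ : H →* 𝒪ˣ) {Mb : Type} [AddCommGroup Mb] [Module 𝒪 Mb]
  [Module (MonoidAlgebra 𝒪 (G × H)) Mb] [IsScalarTower 𝒪 (MonoidAlgebra 𝒪 (G × H)) Mb]

/-- `twc_chiSub χ` is `ker (ev χ) • Mb`, seen as an `𝒪`-submodule. -/
theorem twe_chi_twc_eq :
    twc_chiSub (G := G) (Mb := Mb) χ = (twe_chi_sub G χ Mb).restrictScalars 𝒪 :=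
  (twe_chi_sub_eq_span G χ Mb).symm

theorem twe_chi_twc_mem_iff (m : Mb) :
    m ∈ twc_chiSub (G := G) (Mb := Mb) χ ↔ m ∈ twe_chi_sub G χ Mb := by
  rw [twe_chi_twc_eq, Submodule.restrictScalars_mem]

/-- `twc_chiSub χ` is stable under the whole group algebra. -/
theorem twe_chi_twc_smul_mem (r : MonoidAlgebra 𝒪 (G × H)) {m : Mb}
    (hm : m ∈ twc_chiSub (G := G) (Mb := Mb) χ) : r • m ∈ twc_chiSub (G := G) (Mb := Mb) χ := by
  rw [twe_chi_twc_mem_iff] at hm ⊢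
  exact Submodule.smul_mem _ r hm

/-- elements of `ker (ev χ)` push everything into `twc_chiSub χ`. -/
theorem twe_chi_twc_ker_smul_mem {r : MonoidAlgebra 𝒪 (G × H)} (hr : twe_chi_ev χ r = 0)
    (m : Mb) : r • m ∈ twc_chiSub (G := G) (Mb := Mb) χ := by
  rw [twe_chi_twc_mem_iff]
  exact twe_chi_smul_mem_sub χ hr m

/-- `twc_chiSub χ` is stable under every endomorphism commuting with the group algebra. -/
theorem twe_chi_twc_map_mem (f : Module.End (MonoidAlgebra 𝒪 (G × H)) Mb) {m : Mb}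
    (hm : m ∈ twc_chiSub (G := G) (Mb := Mb) χ) : f m ∈ twc_chiSub (G := G) (Mb := Mb) χ := by
  rw [twe_chi_twc_mem_iff] at hm ⊢
  rw [← twe_chi_mk_eq_zero_iff] at hm ⊢
  rw [← twe_chi_map_mk, hm, map_zero]

/-- `Mb ⧸ twc_chiSub χ` is the `χ`-coinvariant module `twe_chi_M G χ Mb`. -/
def twe_chi_twc_equiv :
    (Mb ⧸ twc_chiSub (G := G) (Mb := Mb) χ) ≃ₗ[𝒪] twe_chi_M G χ Mb :=
  (Submodule.quotEquivOfEq _ _ (twe_chi_twc_eq χ)).trans
    (Submodule.Quotient.restrictScalarsEquiv 𝒪 (twe_chi_sub G χ Mb))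

@[simp]
theorem twe_chi_twc_equiv_mk (m : Mb) :
    twe_chi_twc_equiv χ (Submodule.Quotient.mk m) = twe_chi_mk G χ Mb m := rfl

/-- a basis of `Mb` over `𝒪[G × H]` gives the `𝒪`-basis `(i, g) ↦ [(g, 1) • b i]` of
`Mb ⧸ twc_chiSub χ`. -/
def twe_chi_twc_basis {ι : Type} (b : Module.Basis ι (MonoidAlgebra 𝒪 (G × H)) Mb) :
    Module.Basis (G × ι) 𝒪 (Mb ⧸ twc_chiSub (G := G) (Mb := Mb) χ) :=
  (((MonoidAlgebra.basis G 𝒪).smulTower (twe_chi_basis χ b)).map (twe_chi_twc_equiv χ).symm)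

theorem twe_chi_twc_basis_apply {ι : Type} (b : Module.Basis ι (MonoidAlgebra 𝒪 (G × H)) Mb)
    (g : G) (i : ι) :
    twe_chi_twc_basis χ b (g, i) =
      Submodule.Quotient.mk (of 𝒪 (G × H) (g, 1) • b i) := by
  rw [twe_chi_twc_basis, Module.Basis.map_apply, Module.Basis.smulTower_apply,
    LinearEquiv.symm_apply_eq, twe_chi_twc_equiv_mk, twe_chi_basis_apply]
  show (of 𝒪 G) g • (twe_chi_mk G χ Mb) (b i) = _
  rw [twe_chi_mk_of_smul, map_one, Units.val_one, one_smul]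

instance twe_chi_twc_free [Module.Free (MonoidAlgebra 𝒪 (G × H)) Mb] :
    Module.Free 𝒪 (Mb ⧸ twc_chiSub (G := G) (Mb := Mb) χ) :=
  Module.Free.of_basis (twe_chi_twc_basis χ (Module.Free.chooseBasis (MonoidAlgebra 𝒪 (G × H)) Mb))

instance twe_chi_twc_finite [Finite G] [Finite H]
    [Module.Finite (MonoidAlgebra 𝒪 (G × H)) Mb] :
    Module.Finite 𝒪 (Mb ⧸ twc_chiSub (G := G) (Mb := Mb) χ) := by
  have : Module.Finite 𝒪 Mb := Module.Finite.trans (MonoidAlgebra 𝒪 (G × H)) Mb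
  infer_instance

end

section concrete

theorem twe_chi_ord_ne_zero (p t : ℕ) : twe_ord p t ≠ 0 := by
  unfold twe_ord
  by_cases hp : p = 0
  · subst hp
    have : padicValNat 0 (t - 1) = 0 := by
      unfold padicValNat
      simp
    rw [this, pow_zero]
    exact one_ne_zero
  · exact pow_ne_zero _ hp

instance twe_chi_ord_neZero (p t : ℕ) : NeZero (twe_ord p t) := ⟨twe_chi_ord_ne_zero p t⟩

instance twe_chi_delta_finite (p : ℕ) (P : Finset ℕ) : Finite (twe_Delta p P) :=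
  inferInstanceAs (Finite (Multiplicative ((t : ↥P) → ZMod (twe_ord p (t : ℕ)))))

variable {𝒪 : Type} [CommRing 𝒪] [IsDomain 𝒪] [IsDiscreteValuationRing 𝒪]
  [IsAdicComplete (IsLocalRing.maximalIdeal 𝒪) 𝒪]
  {N : ℕ} [NeZero N] {S : Finset ℕ}
  {θ : heckeAlgebra N 2 (↑S : Set ℕ) →+* IsLocalRing.ResidueField 𝒪}
  {B : twe_Base 𝒪 N S θ} {p : ℕ} {Q : Finset ℕ} [NeZero (twe_Nbal N Q ∅)]
  {L : twe_Level B p Q} {Th : Finset ℕ} [NeZero (twe_Nbal N Q Th)]

/-- for a big system: `M^χ = Mb ⧸ twc_chiSub χ` is a free `𝒪`-module ... -/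
theorem twe_chi_big_free (Bg : twe_Big L Th) (χ : twe_Delta p Th →* 𝒪ˣ) :
    Module.Free 𝒪 (Bg.Mb ⧸ twc_chiSub (G := twe_Delta p Q) (Mb := Bg.Mb) χ) :=
  inferInstance

/-- ... of finite type. -/
theorem twe_chi_big_finite (Bg : twe_Big L Th) (χ : twe_Delta p Th →* 𝒪ˣ) :
    Module.Finite 𝒪 (Bg.Mb ⧸ twc_chiSub (G := twe_Delta p Q) (Mb := Bg.Mb) χ) :=
  inferInstance

/-- the Hecke algebra `T''` preserves `twc_chiSub χ`. -/
theorem twe_chi_big_smul_mem (Bg : twe_Big L Th) (χ : twe_Delta p Th →* 𝒪ˣ) (x : Bg.T'')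
    {m : Bg.Mb} (hm : m ∈ twc_chiSub (G := twe_Delta p Q) (Mb := Bg.Mb) χ) :
    x • m ∈ twc_chiSub (G := twe_Delta p Q) (Mb := Bg.Mb) χ := by
  have h := twe_chi_twc_map_mem χ
    ({ toFun := fun m => x • m
       map_add' := smul_add x
       map_smul' := fun r m => smul_comm x r m } :
      Module.End (MonoidAlgebra 𝒪 (twe_Delta p Q × twe_Delta p Th)) Bg.Mb) hm
  exact h

end concrete

end

end Fermat.Agent.TW
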