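import Mathlib

/-!
# TW / Aut : the `χ`-specialisation of an `𝒪[G × H]`-module (cell E/Chi, abstract part)

`𝒪` a commutative ring, `G`, `H` commutative groups, `χ : H →* 𝒪ˣ`.

* `twe_chi_ev χ : 𝒪[G × H] →ₐ[𝒪] 𝒪[G]`, `(g, δ) ↦ χ δ • g`; `twe_chi_sec : 𝒪[G] →ₐ[𝒪] 𝒪[G × H]`,
  `g ↦ (g, 1)`, a section; `twe_chi_ev_surjective`; `twe_chi_ker_ev` : the kernel is generated by
  the `(1, δ) - χ δ`.
* `twe_chi_ev_congr` : characters congruent modulo `lam` give evaluations congruent modulo `lam`.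
* `twe_chi_sub χ Mb`, `twe_chi_M χ Mb := Mb ⧸ twe_chi_sub χ Mb` : the `χ`-coinvariants of an
  `𝒪[G × H]`-module, an `𝒪[G]`-module; `twe_chi_sub_eq_span` : it is the `𝒪`-span of the
  `(1, δ) • m - χ δ • m`.
* `twe_chi_map χ` : descent of `𝒪[G × H]`-linear endomorphisms (a ring homomorphism).
* `twe_chi_basis χ b` : a basis over `𝒪[G × H]` induces a basis of the `χ`-coinvariants over
  `𝒪[G]`; `twe_chi_toMatrix` : matrices are mapped entrywise by `twe_chi_ev χ`;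
  `twe_chi_toMatrix_congr` : the congruence modulo `lam` of the matrices for `χ ≡ χ'`.
-/

namespace Fermat.Agent.TW

open MonoidAlgebra

noncomputable section

variable {𝒪 : Type*} [CommRing 𝒪] {G H : Type*} [CommGroup G] [CommGroup H]

/-- the monoid homomorphism `(g, δ) ↦ χ δ • g`. -/
def twe_chi_hom (χ : H →* 𝒪ˣ) : G × H →* MonoidAlgebra 𝒪 G :=
  MonoidHom.coprod (of 𝒪 G)
    (((algebraMap 𝒪 (MonoidAlgebra 𝒪 G) : 𝒪 →* MonoidAlgebra 𝒪 G).comp (Units.coeHom 𝒪)).comp χ)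

theorem twe_chi_hom_apply (χ : H →* 𝒪ˣ) (g : G) (δ : H) :
    twe_chi_hom (G := G) χ (g, δ) = of 𝒪 G g * algebraMap 𝒪 (MonoidAlgebra 𝒪 G) (χ δ : 𝒪) := rfl

/-- **the evaluation at `χ`**: `𝒪[G × H] → 𝒪[G]`, `(g, δ) ↦ χ δ • g`. -/
def twe_chi_ev (χ : H →* 𝒪ˣ) : MonoidAlgebra 𝒪 (G × H) →ₐ[𝒪] MonoidAlgebra 𝒪 G :=
  lift 𝒪 (MonoidAlgebra 𝒪 G) (G × H) (twe_chi_hom χ)

theorem twe_chi_ev_of (χ : H →* 𝒪ˣ) (g : G) (δ : H) :
    twe_chi_ev χ (of 𝒪 (G × H) (g, δ)) =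
      of 𝒪 G g * algebraMap 𝒪 (MonoidAlgebra 𝒪 G) (χ δ : 𝒪) := by
  rw [twe_chi_ev, lift_of, twe_chi_hom_apply]

theorem twe_chi_ev_of' (χ : H →* 𝒪ˣ) (g : G) (δ : H) :
    twe_chi_ev χ (of 𝒪 (G × H) (g, δ)) = (χ δ : 𝒪) • of 𝒪 G g := by
  rw [twe_chi_ev_of, Algebra.smul_def, mul_comm]

/-- the section `g ↦ (g, 1)`. -/
def twe_chi_sec : MonoidAlgebra 𝒪 G →ₐ[𝒪] MonoidAlgebra 𝒪 (G × H) :=
  mapDomainAlgHom 𝒪 𝒪 (MonoidHom.inl G H)

theorem twe_chi_sec_of (g : G) :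
    twe_chi_sec (H := H) (of 𝒪 G g) = of 𝒪 (G × H) (g, 1) := by
  rw [twe_chi_sec, mapDomainAlgHom_apply, of_apply, mapDomain_single, of_apply]
  rfl

theorem twe_chi_ev_sec (χ : H →* 𝒪ˣ) (a : MonoidAlgebra 𝒪 G) :
    twe_chi_ev χ (twe_chi_sec a) = a := by
  induction a using MonoidAlgebra.induction_on with
  | of g => rw [twe_chi_sec_of, twe_chi_ev_of', map_one, Units.val_one, one_smul]
  | add x y hx hy => rw [map_add, map_add, hx, hy]
  | smul r x hx => rw [map_smul, map_smul, hx]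

theorem twe_chi_ev_surjective (χ : H →* 𝒪ˣ) :
    Function.Surjective (twe_chi_ev (G := G) χ) :=
  fun a => ⟨twe_chi_sec a, twe_chi_ev_sec χ a⟩

/-- the generators of the kernel of `twe_chi_ev χ`. -/
def twe_chi_gen (χ : H →* 𝒪ˣ) (δ : H) : MonoidAlgebra 𝒪 (G × H) :=
  of 𝒪 (G × H) (1, δ) - algebraMap 𝒪 (MonoidAlgebra 𝒪 (G × H)) (χ δ : 𝒪)

theorem twe_chi_ev_gen (χ : H →* 𝒪ˣ) (δ : H) :
    twe_chi_ev (G := G) χ (twe_chi_gen χ δ) = 0 := by
  rw [twe_chi_gen, map_sub, twe_chi_ev_of, AlgHom.commutes, of_apply, ← one_def, one_mul,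
    sub_self]

/-- `x - sec (ev x)` lies in the ideal generated by the `(1, δ) - χ δ`. -/
theorem twe_chi_sub_sec_ev_mem (χ : H →* 𝒪ˣ) (x : MonoidAlgebra 𝒪 (G × H)) :
    x - twe_chi_sec (twe_chi_ev χ x) ∈
      Ideal.span (Set.range (twe_chi_gen (G := G) χ)) := by
  induction x using MonoidAlgebra.induction_on with
  | of m =>
    obtain ⟨g, δ⟩ := m
    have h : of 𝒪 (G × H) (g, δ) - twe_chi_sec (twe_chi_ev χ (of 𝒪 (G × H) (g, δ))) =
        of 𝒪 (G × H) (g, 1) * twe_chi_gen χ δ := by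
      rw [twe_chi_ev_of', map_smul, twe_chi_sec_of, twe_chi_gen, mul_sub, ← map_mul,
        Algebra.smul_def, mul_comm (of 𝒪 (G × H) (g, 1))]
      congr 2
      simp
    rw [h]
    exact Ideal.mul_mem_left _ _ (Ideal.subset_span ⟨δ, rfl⟩)
  | add x y hx hy =>
    rw [map_add, map_add, add_sub_add_comm]
    exact Ideal.add_mem _ hx hy
  | smul r x hx =>
    rw [map_smul, map_smul, ← smul_sub, Algebra.smul_def]
    exact Ideal.mul_mem_left _ _ hx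

/-- **the kernel of the evaluation at `χ`** is generated by the `(1, δ) - χ δ`. -/
theorem twe_chi_ker_ev (χ : H →* 𝒪ˣ) :
    RingHom.ker (twe_chi_ev (G := G) χ) = Ideal.span (Set.range (twe_chi_gen (G := G) χ)) := by
  apply le_antisymm
  · intro x hx
    rw [RingHom.mem_ker] at hx
    have h := twe_chi_sub_sec_ev_mem χ x
    rwa [hx, map_zero, sub_zero] at h
  · rw [Ideal.span_le]
    rintro _ ⟨δ, rfl⟩
    exact twe_chi_ev_gen χ δ

/-- **congruent characters give congruent evaluations.** -/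
theorem twe_chi_ev_congr (χ χ' : H →* 𝒪ˣ) (lam : 𝒪)
    (h : ∀ δ, (χ δ : 𝒪) - (χ' δ : 𝒪) ∈ Ideal.span {lam}) (x : MonoidAlgebra 𝒪 (G × H)) :
    twe_chi_ev χ x - twe_chi_ev χ' x ∈
      Ideal.span {algebraMap 𝒪 (MonoidAlgebra 𝒪 G) lam} := by
  induction x using MonoidAlgebra.induction_on with
  | of m =>
    obtain ⟨g, δ⟩ := m
    obtain ⟨c, hc⟩ := Ideal.mem_span_singleton'.mp (h δ)
    rw [twe_chi_ev_of', twe_chi_ev_of', ← sub_smul, ← hc, Algebra.smul_def, map_mul, mul_assoc,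
      mul_comm (algebraMap 𝒪 (MonoidAlgebra 𝒪 G) c)]
    rw [mul_assoc]
    exact Ideal.mul_mem_right _ _ (Ideal.subset_span rfl)
  | add x y hx hy =>
    rw [map_add, map_add, add_sub_add_comm]
    exact Ideal.add_mem _ hx hy
  | smul r x hx =>
    rw [map_smul, map_smul, ← smul_sub, Algebra.smul_def]
    exact Ideal.mul_mem_left _ _ hx

end

end Fermat.Agent.TW
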