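import Mathlib
import Fermat.Agent.TW.Top.MachineSeam
import Fermat.Agent.JT3.T2.Faithful
import Fermat.Prelude.Def_CuspForm_HeckeGaloisRepDatum

/-!
# Project ONE MACHINE, block [E] AUT: the seams (M1) [E-base] and (M2) [E-TW] (helper3)

Namespace `Fermat.Agent.TW`, prefix `twe_`.  Statements only (structures + `Prop`s); the proofs
are the cells of the [E] table (E/Defs … E/Seam).

DESIGN (OPTION (H), chief's decision (Δ1)):  the Taylor–Wiles modules are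
`M(P) := W(Γ_H(P), 𝒪)_𝔪` (parabolic–elliptic-killing characters of `Γ_H = Γ₀(N ∏ t) ∩ {d ∈ H}`,
`TW/Aut/Defs.lean`), with the FIXED-DETERMINANT Hecke operators `T'_ℓ = ⟨ℓ⟩^{-1/2} T_ℓ`, so that
the Hecke algebra acting on `M(P)` is a quotient of the Hecke algebra of the BALANCED `Γ₀`-level
`N ∏_{t ∈ Q} t² ∏_{ℓ ∈ Th} ℓ` (`Q` = Taylor–Wiles primes, prime to `N`; `Th` = hard primes, `ℓ ∥ N`)
and its Galois representation is the push-forward of ONE `HeckeGaloisRepDatum` at that level.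
NO `U_t`: the coinvariants are `M_∅^{2^{|Q|}}`.

* `twe_Base`  (M1): `T_∅`, `H_∅ : HeckeGaloisRepDatum N ↑S 𝒪 θ T_∅`, `M_∅ = 𝒪^d ≠ 0` a faithful
  `T_∅`-module, realised inside `Hom(H₁(X₀(N)), 𝒪)` compatibly with the Hecke operators.
* `twe_Level` (M2, unipotent system): level `N ∏ t²`; `M¹_Q` finite free over `𝒪[Δ_Q]` (diamonds),
  a module over the Hecke algebra `T'` of a `HeckeGaloisRepDatum` of the balanced level,
  with coinvariants `M_∅^{2^{|Q|}}`, compatibly with `T' → T_∅`.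
* `twe_Big`   (M2, big system): level `N ∏ t² ∏_{Th} ℓ`; `M^{big}_Q` finite free over
  `𝒪[Δ_Q × Δ_Th]` with `Δ_Th`-coinvariants `M¹_Q`, compatibly with `T'' → T'`.
  (`M^χ := M^{big} ⊗_{𝒪[Δ_Th], χ} 𝒪`, `M^χ/λ = M¹/λ` is then a tautology.)
-/

set_option autoImplicit false
set_option linter.unusedSectionVars false

namespace Fermat.Agent.TW

open Polynomial CuspForm IsLocalRing Fermat.Agent.JT3

noncomputable section

/-- the order `p ^ v_p(t - 1)` of the `p`-Sylow subgroup of `(ℤ/t)ˣ` (`t` prime). -/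
def twe_ord (p t : ℕ) : ℕ := p ^ padicValNat p (t - 1)

/-- `Δ_P = ∏_{t ∈ P} (p-Sylow quotient of (ℤ/t)ˣ)`, with chosen generators:
`∏_{t ∈ P} ℤ/p^{v_p(t-1)}`, written multiplicatively. -/
abbrev twe_Delta (p : ℕ) (P : Finset ℕ) : Type :=
  Multiplicative ((t : ↥P) → ZMod (twe_ord p (t : ℕ)))

/-- the balanced level `N · ∏_{t ∈ Q} t² · ∏_{ℓ ∈ Th} ℓ`. -/
def twe_Nbal (N : ℕ) (Q Th : Finset ℕ) : ℕ := N * (∏ t ∈ Q, t ^ 2) * ∏ ℓ ∈ Th, ℓ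

section structures

variable (𝒪 : Type) [CommRing 𝒪] [IsDomain 𝒪] [IsDiscreteValuationRing 𝒪]
  [IsAdicComplete (maximalIdeal 𝒪) 𝒪]

/-- **(M1) [E-base]**: the base Hecke algebra with its Galois representation and its faithful
module `M_∅ = Hom(H₁(X₀(N)), 𝒪)_𝔪 ≅ 𝒪^d`. -/
structure twe_Base (N : ℕ) [NeZero N] (S : Finset ℕ)
    (θ : heckeAlgebra N 2 (↑S : Set ℕ) →+* ResidueField 𝒪) : Type 1 where
  /-- `T_∅` -/
  T : Type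
  [instCommRing : CommRing T]
  [instIsLocalRing : IsLocalRing T]
  [instIsNoetherianRing : IsNoetherianRing T]
  [instIsAdicComplete : IsAdicComplete (maximalIdeal T) T]
  [instAlgebra : Algebra 𝒪 T]
  [instIsLocalHom : IsLocalHom (algebraMap 𝒪 T)]
  [instFinite : Module.Finite 𝒪 T]
  [instFree : Module.Free 𝒪 T]
  /-- `H_∅` -/
  H : HeckeGaloisRepDatum N (↑S : Set ℕ) 𝒪 θ T
  /-- the `𝒪`-rank of `M_∅` -/
  d : ℕ
  d_pos : 0 < d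
  /-- the action of `T_∅` on `M_∅ = 𝒪^d` -/
  j : T →ₐ[𝒪] Matrix (Fin d) (Fin d) 𝒪
  j_injective : Function.Injective j
  /-- `M_∅ ⊆ Hom(H₁(X₀(N)), 𝒪)` -/
  ι : (Fin d → 𝒪) →ₗ[𝒪] (gh_H N →+ 𝒪)
  ι_injective : Function.Injective ι
  ι_hecke : ∀ (ℓ : ℕ) (hℓ : ℓ.Prime) (hℓN : ¬ ℓ ∣ N) (hℓS : ℓ ∉ (↑S : Set ℕ)) (v : Fin d → 𝒪),
    ι ((j (H.π (heckeAlgebra.T hℓ hℓN hℓS))).mulVec v) =
      (ι v).comp (t2f_TH N ℓ).toAddMonoidHom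

attribute [instance] twe_Base.instCommRing twe_Base.instIsLocalRing
  twe_Base.instIsNoetherianRing twe_Base.instIsAdicComplete twe_Base.instAlgebra
  twe_Base.instIsLocalHom twe_Base.instFinite twe_Base.instFree

variable {𝒪}
variable {N : ℕ} [NeZero N] {S : Finset ℕ} {θ : heckeAlgebra N 2 (↑S : Set ℕ) →+* ResidueField 𝒪}

/-- **(M2) [E-TW], the unipotent system** at the Taylor–Wiles set `Q` (level `Γ₀` at the hard
primes): balanced level `N ∏_{t ∈ Q} t²`. -/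
structure twe_Level (B : twe_Base 𝒪 N S θ) (p : ℕ) (Q : Finset ℕ)
    [NeZero (twe_Nbal N Q ∅)] : Type 1 where
  /-- the eigensystem `θ` at the balanced level -/
  θ' : heckeAlgebra (twe_Nbal N Q ∅) 2 (↑(S ∪ Q) : Set ℕ) →+* ResidueField 𝒪
  θ'_eq : ∀ (ℓ : ℕ) (hℓ : ℓ.Prime) (h1 : ¬ ℓ ∣ twe_Nbal N Q ∅) (h2 : ℓ ∉ (↑(S ∪ Q) : Set ℕ))
    (h3 : ¬ ℓ ∣ N) (h4 : ℓ ∉ (↑S : Set ℕ)),
    θ' (heckeAlgebra.T hℓ h1 h2) = θ (heckeAlgebra.T hℓ h3 h4)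
  /-- the Hecke algebra of the balanced level, localised at `θ'` -/
  T' : Type
  [instCommRing : CommRing T']
  [instIsLocalRing : IsLocalRing T']
  [instIsNoetherianRing : IsNoetherianRing T']
  [instIsAdicComplete : IsAdicComplete (maximalIdeal T') T']
  [instAlgebra : Algebra 𝒪 T']
  [instIsLocalHom : IsLocalHom (algebraMap 𝒪 T')]
  [instFinite : Module.Finite 𝒪 T']
  [instFree : Module.Free 𝒪 T']
  H' : HeckeGaloisRepDatum (twe_Nbal N Q ∅) (↑(S ∪ Q) : Set ℕ) 𝒪 θ' T'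
  /-- `T' → T_∅`, `T_ℓ ↦ T_ℓ` -/
  π0 : T' →ₐ[𝒪] B.T
  π0_T : ∀ (ℓ : ℕ) (hℓ : ℓ.Prime) (h1 : ¬ ℓ ∣ twe_Nbal N Q ∅) (h2 : ℓ ∉ (↑(S ∪ Q) : Set ℕ))
    (h3 : ¬ ℓ ∣ N) (h4 : ℓ ∉ (↑S : Set ℕ)),
    π0 (H'.π (heckeAlgebra.T hℓ h1 h2)) = B.H.π (heckeAlgebra.T hℓ h3 h4)
  /-- `M¹_Q = W(Γ_H(Q), 𝒪)_𝔪` -/
  M : Type
  [instAddCommGroup : AddCommGroup M]
  [instModuleO : Module 𝒪 M]
  [instModuleT : Module T' M]
  [instTowerT : IsScalarTower 𝒪 T' M]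
  [instModuleΔ : Module (MonoidAlgebra 𝒪 (twe_Delta p Q)) M]
  [instTowerΔ : IsScalarTower 𝒪 (MonoidAlgebra 𝒪 (twe_Delta p Q)) M]
  [instCommΔ : SMulCommClass T' (MonoidAlgebra 𝒪 (twe_Delta p Q)) M]
  [instFiniteΔ : Module.Finite (MonoidAlgebra 𝒪 (twe_Delta p Q)) M]
  [instFreeΔ : Module.Free (MonoidAlgebra 𝒪 (twe_Delta p Q)) M]
  /-- the coinvariants: `M¹_Q / I_Δ M¹_Q ≅ M_∅^{2^{|Q|}}` -/
  c : M →ₗ[𝒪] (Fin (2 ^ Q.card) → Fin B.d → 𝒪)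
  c_surjective : Function.Surjective c
  c_ker : LinearMap.ker c = Submodule.span 𝒪
    {x : M | ∃ (δ : twe_Delta p Q) (m : M), x = MonoidAlgebra.of 𝒪 (twe_Delta p Q) δ • m - m}
  c_hecke : ∀ (x : T') (m : M) (i : Fin (2 ^ Q.card)),
    c (x • m) i = (B.j (π0 x)).mulVec (c m i)

attribute [instance] twe_Level.instCommRing twe_Level.instIsLocalRing
  twe_Level.instIsNoetherianRing twe_Level.instIsAdicComplete twe_Level.instAlgebra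
  twe_Level.instIsLocalHom twe_Level.instFinite twe_Level.instFree
  twe_Level.instAddCommGroup twe_Level.instModuleO twe_Level.instModuleT twe_Level.instTowerT
  twe_Level.instModuleΔ twe_Level.instTowerΔ twe_Level.instCommΔ twe_Level.instFiniteΔ
  twe_Level.instFreeΔ

/-- **(M2) [E-TW], the big system** at `Q` and the hard primes `Th`: balanced level
`N ∏_{t ∈ Q} t² ∏_{ℓ ∈ Th} ℓ`; `M^{big}` is free over `𝒪[Δ_Q × Δ_Th]` with `Δ_Th`-coinvariants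
`M¹_Q`. -/
structure twe_Big {B : twe_Base 𝒪 N S θ} {p : ℕ} {Q : Finset ℕ} [NeZero (twe_Nbal N Q ∅)]
    (L : twe_Level B p Q) (Th : Finset ℕ) [NeZero (twe_Nbal N Q Th)] : Type 1 where
  θ'' : heckeAlgebra (twe_Nbal N Q Th) 2 (↑(S ∪ Q) : Set ℕ) →+* ResidueField 𝒪
  θ''_eq : ∀ (ℓ : ℕ) (hℓ : ℓ.Prime) (h1 : ¬ ℓ ∣ twe_Nbal N Q Th) (h2 : ℓ ∉ (↑(S ∪ Q) : Set ℕ))
    (h3 : ¬ ℓ ∣ N) (h4 : ℓ ∉ (↑S : Set ℕ)),
    θ'' (heckeAlgebra.T hℓ h1 h2) = θ (heckeAlgebra.T hℓ h3 h4)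
  /-- the Hecke algebra of the balanced level, localised at `θ''` -/
  T'' : Type
  [instCommRing : CommRing T'']
  [instIsLocalRing : IsLocalRing T'']
  [instIsNoetherianRing : IsNoetherianRing T'']
  [instIsAdicComplete : IsAdicComplete (maximalIdeal T'') T'']
  [instAlgebra : Algebra 𝒪 T'']
  [instIsLocalHom : IsLocalHom (algebraMap 𝒪 T'')]
  [instFinite : Module.Finite 𝒪 T'']
  [instFree : Module.Free 𝒪 T'']
  H'' : HeckeGaloisRepDatum (twe_Nbal N Q Th) (↑(S ∪ Q) : Set ℕ) 𝒪 θ'' T''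
  /-- `T'' → T'`, `T_ℓ ↦ T_ℓ` -/
  π1 : T'' →ₐ[𝒪] L.T'
  π1_T : ∀ (ℓ : ℕ) (hℓ : ℓ.Prime) (h1 : ¬ ℓ ∣ twe_Nbal N Q Th) (h2 : ℓ ∉ (↑(S ∪ Q) : Set ℕ))
    (h3 : ¬ ℓ ∣ twe_Nbal N Q ∅),
    π1 (H''.π (heckeAlgebra.T hℓ h1 h2)) = L.H'.π (heckeAlgebra.T hℓ h3 h2)
  /-- `M^{big}_Q = W(Γ_H(Q ∪ Th), 𝒪)_𝔪` -/
  Mb : Type
  [instAddCommGroup : AddCommGroup Mb]
  [instModuleO : Module 𝒪 Mb]
  [instModuleT : Module T'' Mb]
  [instTowerT : IsScalarTower 𝒪 T'' Mb]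
  [instModuleΔ : Module (MonoidAlgebra 𝒪 (twe_Delta p Q × twe_Delta p Th)) Mb]
  [instTowerΔ : IsScalarTower 𝒪 (MonoidAlgebra 𝒪 (twe_Delta p Q × twe_Delta p Th)) Mb]
  [instCommΔ : SMulCommClass T'' (MonoidAlgebra 𝒪 (twe_Delta p Q × twe_Delta p Th)) Mb]
  [instFiniteΔ : Module.Finite (MonoidAlgebra 𝒪 (twe_Delta p Q × twe_Delta p Th)) Mb]
  [instFreeΔ : Module.Free (MonoidAlgebra 𝒪 (twe_Delta p Q × twe_Delta p Th)) Mb]
  /-- the `Δ_Th`-coinvariants: `M^{big} / I_{Δ_Th} M^{big} ≅ M¹_Q` -/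
  c1 : Mb →ₗ[𝒪] L.M
  c1_surjective : Function.Surjective c1
  c1_ker : LinearMap.ker c1 = Submodule.span 𝒪
    {x : Mb | ∃ (δ : twe_Delta p Th) (m : Mb),
      x = MonoidAlgebra.of 𝒪 (twe_Delta p Q × twe_Delta p Th) (1, δ) • m - m}
  c1_hecke : ∀ (x : T'') (m : Mb), c1 (x • m) = π1 x • c1 m
  c1_diamond : ∀ (δ : twe_Delta p Q) (m : Mb),
    c1 (MonoidAlgebra.of 𝒪 (twe_Delta p Q × twe_Delta p Th) (δ, 1) • m) =
      MonoidAlgebra.of 𝒪 (twe_Delta p Q) δ • c1 m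

attribute [instance] twe_Big.instCommRing twe_Big.instIsLocalRing
  twe_Big.instIsNoetherianRing twe_Big.instIsAdicComplete twe_Big.instAlgebra
  twe_Big.instIsLocalHom twe_Big.instFinite twe_Big.instFree
  twe_Big.instAddCommGroup twe_Big.instModuleO twe_Big.instModuleT twe_Big.instTowerT
  twe_Big.instModuleΔ twe_Big.instTowerΔ twe_Big.instCommΔ twe_Big.instFiniteΔ
  twe_Big.instFreeΔ

end structures

section stmts

/-- **(M1) [E-base]**. -/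
def twe_M1_stmt : Prop :=
  ∀ (p : ℕ) [Fact p.Prime], 5 ≤ p →
  ∀ (𝒪 : Type) [CommRing 𝒪] [IsDomain 𝒪] [IsDiscreteValuationRing 𝒪]
    [IsAdicComplete (maximalIdeal 𝒪) 𝒪] [Finite (ResidueField 𝒪)] [CharZero 𝒪],
    (p : 𝒪) ∈ maximalIdeal 𝒪 →
  ∀ (N : ℕ) [NeZero N], ¬ p ∣ N →
  ∀ (S : Finset ℕ), p ∈ S → (∀ ℓ : ℕ, ℓ.Prime → ℓ ∣ N → ℓ ∈ S) →
  ∀ (θ : heckeAlgebra N 2 (↑S : Set ℕ) →+* ResidueField 𝒪)
    (ρbar : ResidualGaloisRep (ResidueField 𝒪)),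
    twt_Compat θ ρbar → ρbar.IsAbsolutelyIrreducible →
    Nonempty (twe_Base 𝒪 N S θ)

/-- the conditions on a Taylor–Wiles set `Q`: primes `t ∉ S`, `t ≡ 1 mod p`, with
`ρ̄(Frob_t)` of distinct eigenvalues (`θ(T_t)² ≠ 4`). -/
def twe_IsTWSet {k : Type} [Field k] {N : ℕ} [NeZero N] {S : Finset ℕ}
    (θ : heckeAlgebra N 2 (↑S : Set ℕ) →+* k) (p : ℕ) (Q : Finset ℕ) : Prop :=
  ∀ t ∈ Q, t.Prime ∧ t % p = 1 ∧
    ∀ (ht : t.Prime) (htN : ¬ t ∣ N) (htS : t ∉ (↑S : Set ℕ)),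
      θ (heckeAlgebra.T ht htN htS) ^ 2 ≠ 4

/-- **(M2) [E-TW]**: ONE base package, and over it, for every Taylor–Wiles set `Q` and every set
`Th` of hard primes, the unipotent system and the big system. -/
def twe_M2_stmt : Prop :=
  ∀ (p : ℕ) [Fact p.Prime], 5 ≤ p →
  ∀ (𝒪 : Type) [CommRing 𝒪] [IsDomain 𝒪] [IsDiscreteValuationRing 𝒪]
    [IsAdicComplete (maximalIdeal 𝒪) 𝒪] [Finite (ResidueField 𝒪)] [CharZero 𝒪],
    (p : 𝒪) ∈ maximalIdeal 𝒪 →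
  ∀ (N : ℕ) [NeZero N], Squarefree N → ¬ p ∣ N →
  ∀ (S : Finset ℕ), p ∈ S → (∀ ℓ : ℕ, ℓ.Prime → ℓ ∣ N → ℓ ∈ S) →
  ∀ (θ : heckeAlgebra N 2 (↑S : Set ℕ) →+* ResidueField 𝒪)
    (ρbar : ResidualGaloisRep (ResidueField 𝒪)),
    twt_Compat θ ρbar → ρbar.IsAbsolutelyIrreducible →
    ∃ B : twe_Base 𝒪 N S θ,
      ∀ (Q : Finset ℕ) [NeZero (twe_Nbal N Q ∅)], (∀ t ∈ Q, t ∉ S) → twe_IsTWSet θ p Q →
        ∃ L : twe_Level B p Q,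
          ∀ (Th : Finset ℕ) [NeZero (twe_Nbal N Q Th)],
            (∀ ℓ ∈ Th, ℓ.Prime ∧ ℓ ∣ N ∧ ℓ ≠ 2) → Nonempty (twe_Big L Th)

end stmts

end

end Fermat.Agent.TW
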