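import Mathlib
import Fermat.Agent.TW.Aut.Seams
import Fermat.Agent.TW.LG.GatewayDegVer

/-!
# Project ONE MACHINE, block [E] AUT: the [E] → [A] seam (helper3; shapes of helper29's table v2)

On top of `TW/Aut/Seams.lean` (frozen): for a Hecke ring `T_X` with datum `H_X` of the balanced
level `Nb`, acting on a module `M_X`, and the diamond generator `δ_t` at a prime `t ∈ Q ∪ Th`:

* `twe_OldAt H_X δ_t t`  **(E→A ii) OLD-AT-`t`**: a Hecke ring `T_t` with a `HeckeGaloisRepDatum`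
  of level `Nb / t` (`t` EXACTLY once), `π_t : T_X → T_t` compatible on all `T_ℓ`, and the
  `T_X`-action on `M_X / (δ_t - 1)` factors through `π_t`.
* `twe_NewAt H_X δ_t t`  **(E→A iii) NEW-AT-`t`** (= E/New): a common eigenvector of
  `K ⊗ M_X` whose `δ_t`-eigenvalue is `≠ 1` gives a NONZERO class `c : H₁(X₀(N' t t)) → K` with the
  same Hecke eigenvalues which is killed by the two transfers `VA`, `VB` from level `N' t`.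
* `twe_RedAct T_X M_X`: an element of `T_X` killed by all characters `T_X → K̄` acts as `0`.
* `twe_M2LG_stmt`: `twe_M2_stmt` with these clauses for the unipotent and the big system.
-/

set_option autoImplicit false
set_option linter.unusedSectionVars false

namespace Fermat.Agent.TW

open Polynomial CuspForm IsLocalRing Fermat.Agent.JT3
open scoped TensorProduct

noncomputable section

section seam

variable {𝒪 : Type} [CommRing 𝒪] [IsDomain 𝒪] [IsDiscreteValuationRing 𝒪]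
  [IsAdicComplete (maximalIdeal 𝒪) 𝒪]
  {Nb : ℕ} [NeZero Nb] {S' : Finset ℕ}
  {θX : heckeAlgebra Nb 2 (↑S' : Set ℕ) →+* ResidueField 𝒪}
  {TX : Type} [CommRing TX] [IsLocalRing TX] [IsNoetherianRing TX]
  [IsAdicComplete (maximalIdeal TX) TX] [Algebra 𝒪 TX] [IsLocalHom (algebraMap 𝒪 TX)]
  [Module.Finite 𝒪 TX] [Module.Free 𝒪 TX]

/-- the `𝒪`-linear endomorphism `m ↦ x • m` of a `T_X`-module. -/
def twe_act {MX : Type} [AddCommGroup MX] [Module 𝒪 MX] [Module TX MX] [IsScalarTower 𝒪 TX MX]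
    (x : TX) : MX →ₗ[𝒪] MX where
  toFun m := x • m
  map_add' := smul_add x
  map_smul' a m := by
    simp only [RingHom.id_apply]
    rw [← algebraMap_smul TX a m, ← algebraMap_smul TX a (x • m), smul_smul, smul_smul, mul_comm]

/-- **(E→A ii) OLD-AT-`t`**. -/
structure twe_OldAt (HX : HeckeGaloisRepDatum Nb (↑S' : Set ℕ) 𝒪 θX TX)
    {MX : Type} [AddCommGroup MX] [Module 𝒪 MX] [Module TX MX]
    (δ : MX →ₗ[𝒪] MX) (t : ℕ) [NeZero (Nb / t)] : Type 1 where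
  θt : heckeAlgebra (Nb / t) 2 (↑S' : Set ℕ) →+* ResidueField 𝒪
  /-- the Hecke algebra of level `Nb / t` -/
  Tt : Type
  [instCommRing : CommRing Tt]
  [instIsLocalRing : IsLocalRing Tt]
  [instIsNoetherianRing : IsNoetherianRing Tt]
  [instIsAdicComplete : IsAdicComplete (maximalIdeal Tt) Tt]
  [instAlgebra : Algebra 𝒪 Tt]
  [instIsLocalHom : IsLocalHom (algebraMap 𝒪 Tt)]
  [instFinite : Module.Finite 𝒪 Tt]
  [instFree : Module.Free 𝒪 Tt]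
  Ht : HeckeGaloisRepDatum (Nb / t) (↑S' : Set ℕ) 𝒪 θt Tt
  πt : TX →ₐ[𝒪] Tt
  πt_T : ∀ (ℓ : ℕ) (hℓ : ℓ.Prime) (h1 : ¬ ℓ ∣ Nb) (h2 : ℓ ∉ (↑S' : Set ℕ)) (h3 : ¬ ℓ ∣ Nb / t),
    πt (HX.π (heckeAlgebra.T hℓ h1 h2)) = Ht.π (heckeAlgebra.T hℓ h3 h2)
  /-- the action on `M_X / (δ_t - 1) M_X` factors through `π_t` -/
  kills : ∀ x : TX, πt x = 0 → ∀ m : MX, ∃ m' : MX, x • m = δ m' - m'

/-- **(E→A iii) NEW-AT-`t`** (cell E/New). -/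
def twe_NewAt (HX : HeckeGaloisRepDatum Nb (↑S' : Set ℕ) 𝒪 θX TX)
    {MX : Type} [AddCommGroup MX] [Module 𝒪 MX] [Module TX MX] [IsScalarTower 𝒪 TX MX]
    (δ : MX →ₗ[𝒪] MX) (t : ℕ) : Prop :=
  ∀ (K : Type) [Field K] [IsAlgClosed K] [Algebra 𝒪 K], Function.Injective (algebraMap 𝒪 K) →
  ∀ (χ : TX →ₐ[𝒪] K) (v : K ⊗[𝒪] MX), v ≠ 0 →
    (∀ x : TX, (twe_act (MX := MX) x).baseChange K v = χ x • v) →
    ∀ z : K, z ≠ 1 → δ.baseChange K v = z • v →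
    ∃ (N' : ℕ) (_ : NeZero N') (_ : NeZero t), Nb = N' * t * t ∧ ¬ t ∣ N' ∧
      ∃ c : gh_H (N' * t * t) →+ K, c ≠ 0 ∧
        (∀ (ℓ : ℕ) (hℓ : ℓ.Prime) (h1 : ¬ ℓ ∣ Nb) (h2 : ℓ ∉ (↑S' : Set ℕ))
          (h : gh_H (N' * t * t)),
          c (t2f_TH (N' * t * t) ℓ h) = χ (HX.π (heckeAlgebra.T hℓ h1 h2)) * c h) ∧
        (∀ h : gh_H (N' * t), c (twlg_gd_VA (N' * t) t (dvd_mul_left t N') h) = 0) ∧
        (∀ h : gh_H (N' * t), c (twlg_gd_VB (N' * t) t (dvd_mul_left t N') h) = 0)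

/-- an element of `T_X` killed by every character `T_X → K̄` acts as `0` on `M_X`. -/
def twe_RedAct (TX : Type) [CommRing TX] [Algebra 𝒪 TX]
    (MX : Type) [AddCommGroup MX] [Module TX MX] : Prop :=
  ∀ x : TX,
    (∀ (K : Type) [Field K] [IsAlgClosed K] [Algebra 𝒪 K], Function.Injective (algebraMap 𝒪 K) →
      ∀ χ : TX →ₐ[𝒪] K, χ x = 0) →
    ∀ m : MX, x • m = 0

end seam

section levels

variable {𝒪 : Type} [CommRing 𝒪] [IsDomain 𝒪] [IsDiscreteValuationRing 𝒪]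
  [IsAdicComplete (maximalIdeal 𝒪) 𝒪]
  {N : ℕ} [NeZero N] {S : Finset ℕ} {θ : heckeAlgebra N 2 (↑S : Set ℕ) →+* ResidueField 𝒪}
  {B : twe_Base 𝒪 N S θ} {p : ℕ} {Q : Finset ℕ} [NeZero (twe_Nbal N Q ∅)]

/-- the generator of the `t`-factor of `Δ_P`. -/
def twe_gen (p : ℕ) (P : Finset ℕ) (t : ℕ) (ht : t ∈ P) : twe_Delta p P :=
  Multiplicative.ofAdd (Pi.single (⟨t, ht⟩ : ↥P) 1)

/-- the diamond generator `δ_t` on `M¹_Q`, `t ∈ Q`. -/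
def twe_Level.dia (L : twe_Level B p Q) (t : ℕ) (ht : t ∈ Q) : L.M →ₗ[𝒪] L.M :=
  (Algebra.lsmul 𝒪 𝒪 L.M (MonoidAlgebra.of 𝒪 (twe_Delta p Q) (twe_gen p Q t ht)))

/-- the diamond generator `δ_t` on `M^{big}`, `t ∈ Q`. -/
def twe_Big.diaQ {L : twe_Level B p Q} {Th : Finset ℕ} [NeZero (twe_Nbal N Q Th)]
    (Bg : twe_Big L Th) (t : ℕ) (ht : t ∈ Q) : Bg.Mb →ₗ[𝒪] Bg.Mb :=
  (Algebra.lsmul 𝒪 𝒪 Bg.Mb (MonoidAlgebra.of 𝒪 (twe_Delta p Q × twe_Delta p Th)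
    (twe_gen p Q t ht, 1)))

/-- the diamond generator `δ_ℓ` on `M^{big}`, `ℓ ∈ Th`. -/
def twe_Big.diaTh {L : twe_Level B p Q} {Th : Finset ℕ} [NeZero (twe_Nbal N Q Th)]
    (Bg : twe_Big L Th) (t : ℕ) (ht : t ∈ Th) : Bg.Mb →ₗ[𝒪] Bg.Mb :=
  (Algebra.lsmul 𝒪 𝒪 Bg.Mb (MonoidAlgebra.of 𝒪 (twe_Delta p Q × twe_Delta p Th)
    (1, twe_gen p Th t ht)))

/-- the [E] → [A] clauses for the unipotent system. -/
def twe_Level.IsLG (L : twe_Level B p Q) : Prop :=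
  twe_RedAct (𝒪 := 𝒪) L.T' L.M ∧
  ∀ (t : ℕ) (ht : t ∈ Q),
    (∃ _ : NeZero (twe_Nbal N Q ∅ / t), Nonempty (twe_OldAt L.H' (L.dia t ht) t)) ∧
    twe_NewAt L.H' (L.dia t ht) t

/-- the [E] → [A] clauses for the big system. -/
def twe_Big.IsLG {L : twe_Level B p Q} {Th : Finset ℕ} [NeZero (twe_Nbal N Q Th)]
    (Bg : twe_Big L Th) : Prop :=
  twe_RedAct (𝒪 := 𝒪) Bg.T'' Bg.Mb ∧
  (∀ (t : ℕ) (ht : t ∈ Q),
    (∃ _ : NeZero (twe_Nbal N Q Th / t), Nonempty (twe_OldAt Bg.H'' (Bg.diaQ t ht) t)) ∧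
    twe_NewAt Bg.H'' (Bg.diaQ t ht) t) ∧
  ∀ (t : ℕ) (ht : t ∈ Th),
    (∃ _ : NeZero (twe_Nbal N Q Th / t), Nonempty (twe_OldAt Bg.H'' (Bg.diaTh t ht) t)) ∧
    twe_NewAt Bg.H'' (Bg.diaTh t ht) t

end levels

/-- **(M2) with the [E] → [A] seam**: the statement block [E] proves. -/
def twe_M2LG_stmt : Prop :=
  ∀ (p : ℕ) [Fact p.Prime], 5 ≤ p →
  ∀ (𝒪 : Type) [CommRing 𝒪] [IsDomain 𝒪] [IsDiscreteValuationRing 𝒪]
    [IsAdicComplete (maximalIdeal 𝒪) 𝒪] [Finite (ResidueField 𝒪)] [CharZero 𝒪],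
    (p : 𝒪) ∈ maximalIdeal 𝒪 →
  ∀ (N : ℕ) [NeZero N], Squarefree N → ¬ p ∣ N →
  ∀ (S : Finset ℕ), p ∈ S → (∀ ℓ : ℕ, ℓ.Prime → ℓ ∣ N → ℓ ∈ S) →
  ∀ (θ : heckeAlgebra N 2 (↑S : Set ℕ) →+* ResidueField 𝒪)
    (ρbar : ResidualGaloisRep (ResidueField 𝒪)),
    twt_Compat θ ρbar → ρbar.IsAbsolutelyIrreducible →
    ∃ B : twe_Base 𝒪 N S θ,
      ∀ (Q : Finset ℕ) [NeZero (twe_Nbal N Q ∅)], (∀ t ∈ Q, t ∉ S) → twe_IsTWSet θ p Q →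
        ∃ L : twe_Level B p Q, L.IsLG ∧
          ∀ (Th : Finset ℕ) [NeZero (twe_Nbal N Q Th)],
            (∀ ℓ ∈ Th, ℓ.Prime ∧ ℓ ∣ N ∧ ℓ ≠ 2) → ∃ Bg : twe_Big L Th, Bg.IsLG

theorem twe_m2_of_m2lg (h : twe_M2LG_stmt) : twe_M2_stmt := by
  intro p _ hp5 𝒪 _ _ _ _ _ _ hp𝒪 N _ hsq hpN S hpS hNS θ ρbar hc hirr
  obtain ⟨B, hB⟩ := h p hp5 𝒪 hp𝒪 N hsq hpN S hpS hNS θ ρbar hc hirr
  refine ⟨B, fun Q _ hQS hQ => ?_⟩
  obtain ⟨L, -, hL⟩ := hB Q hQS hQ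
  refine ⟨L, fun Th _ hTh => ?_⟩
  obtain ⟨Bg, -⟩ := hL Th hTh
  exact ⟨Bg⟩

end

end Fermat.Agent.TW
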