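import Mathlib
import Fermat.Agent.TW.Aut.SeamsLG

/-!
# Project ONE MACHINE, block [E] AUT: the [E] → [A] seam, VERSION 2 (helper3)

Flag (G4): reducedness of Hecke rings is NOT available, so the clause `twe_RedAct` of
`twe_Level.IsLG` / `twe_Big.IsLG` (`SeamsLG.lean`, frozen) has no proof; nobody consumes it.
Version 2 = the same seam WITHOUT that clause:

* `twe_Level.IsLG2`, `twe_Big.IsLG2` : OLD-AT-`t` + NEW-AT-`t` at every `t ∈ Q` (and `t ∈ Th`);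
* `twe_Level.IsLG.isLG2`, `twe_Big.IsLG.isLG2` : version 1 implies version 2;
* `twe_M2LG2_stmt` : the statement block [E] proves;  `twe_m2lg2_of_m2lg`, `twe_m2_of_m2lg2`.
-/

set_option autoImplicit false
set_option linter.unusedSectionVars false

namespace Fermat.Agent.TW

open Polynomial CuspForm IsLocalRing Fermat.Agent.JT3
open scoped TensorProduct

noncomputable section

section levels

variable {𝒪 : Type} [CommRing 𝒪] [IsDomain 𝒪] [IsDiscreteValuationRing 𝒪]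
  [IsAdicComplete (maximalIdeal 𝒪) 𝒪]
  {N : ℕ} [NeZero N] {S : Finset ℕ} {θ : heckeAlgebra N 2 (↑S : Set ℕ) →+* ResidueField 𝒪}
  {B : twe_Base 𝒪 N S θ} {p : ℕ} {Q : Finset ℕ} [NeZero (twe_Nbal N Q ∅)]

/-- the [E] → [A] clauses for the unipotent system, version 2 (no reducedness clause). -/
def twe_Level.IsLG2 (L : twe_Level B p Q) : Prop :=
  ∀ (t : ℕ) (ht : t ∈ Q),
    (∃ _ : NeZero (twe_Nbal N Q ∅ / t), Nonempty (twe_OldAt L.H' (L.dia t ht) t)) ∧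
    twe_NewAt L.H' (L.dia t ht) t

/-- the [E] → [A] clauses for the big system, version 2 (no reducedness clause). -/
def twe_Big.IsLG2 {L : twe_Level B p Q} {Th : Finset ℕ} [NeZero (twe_Nbal N Q Th)]
    (Bg : twe_Big L Th) : Prop :=
  (∀ (t : ℕ) (ht : t ∈ Q),
    (∃ _ : NeZero (twe_Nbal N Q Th / t), Nonempty (twe_OldAt Bg.H'' (Bg.diaQ t ht) t)) ∧
    twe_NewAt Bg.H'' (Bg.diaQ t ht) t) ∧
  ∀ (t : ℕ) (ht : t ∈ Th),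
    (∃ _ : NeZero (twe_Nbal N Q Th / t), Nonempty (twe_OldAt Bg.H'' (Bg.diaTh t ht) t)) ∧
    twe_NewAt Bg.H'' (Bg.diaTh t ht) t

theorem twe_Level.IsLG.isLG2 {L : twe_Level B p Q} (h : L.IsLG) : L.IsLG2 := h.2

theorem twe_Big.IsLG.isLG2 {L : twe_Level B p Q} {Th : Finset ℕ} [NeZero (twe_Nbal N Q Th)]
    {Bg : twe_Big L Th} (h : Bg.IsLG) : Bg.IsLG2 := h.2

end levels

/-- **(M2) with the [E] → [A] seam, version 2**: the statement block [E] proves. -/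
def twe_M2LG2_stmt : Prop :=
  ∀ (p : ℕ) [Fact p.Prime], 5 ≤ p →
  ∀ (𝒪 : Type) [CommRing 𝒪] [IsDomain 𝒪] [IsDiscreteValuationRing 𝒪]
    [IsAdicComplete (maximalIdeal 𝒪) 𝒪] [Finite (ResidueField 𝒪)] [CharZero 𝒪],
    (p : 𝒪) ∈ maximalIdeal 𝒪 →
  ∀ (N : ℕ) [NeZero N], Squarefree N → ¬ p ∣ N →
  ∀ (S : Finset ℕ), p ∈ S → (∀ ℓ : ℕ, ℓ.Prime → ℓ ∣ N → ℓ ∈ S) →
  ∀ (θ : heckeAlgebra N 2 (↑S : Set ℕ) →+* ResidueField 𝒪)
    (ρbar : ResidualGaloisRep (ResidueField 𝒪)),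
    twt_Compat θ ρbar → ρbar.IsAbsolutelyIrreducible →
    ∃ B : twe_Base 𝒪 N S θ,
      ∀ (Q : Finset ℕ) [NeZero (twe_Nbal N Q ∅)], (∀ t ∈ Q, t ∉ S) → twe_IsTWSet θ p Q →
        ∃ L : twe_Level B p Q, L.IsLG2 ∧
          ∀ (Th : Finset ℕ) [NeZero (twe_Nbal N Q Th)],
            (∀ ℓ ∈ Th, ℓ.Prime ∧ ℓ ∣ N ∧ ℓ ≠ 2) → ∃ Bg : twe_Big L Th, Bg.IsLG2

theorem twe_m2lg2_of_m2lg (h : twe_M2LG_stmt) : twe_M2LG2_stmt := by
  intro p _ hp5 𝒪 _ _ _ _ _ _ hp𝒪 N _ hsq hpN S hpS hNS θ ρbar hc hirr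
  obtain ⟨B, hB⟩ := h p hp5 𝒪 hp𝒪 N hsq hpN S hpS hNS θ ρbar hc hirr
  refine ⟨B, fun Q _ hQS hQ => ?_⟩
  obtain ⟨L, hLG, hL⟩ := hB Q hQS hQ
  refine ⟨L, hLG.isLG2, fun Th _ hTh => ?_⟩
  obtain ⟨Bg, hBg⟩ := hL Th hTh
  exact ⟨Bg, hBg.isLG2⟩

theorem twe_m2_of_m2lg2 (h : twe_M2LG2_stmt) : twe_M2_stmt := by
  intro p _ hp5 𝒪 _ _ _ _ _ _ hp𝒪 N _ hsq hpN S hpS hNS θ ρbar hc hirr
  obtain ⟨B, hB⟩ := h p hp5 𝒪 hp𝒪 N hsq hpN S hpS hNS θ ρbar hc hirr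
  refine ⟨B, fun Q _ hQS hQ => ?_⟩
  obtain ⟨L, -, hL⟩ := hB Q hQS hQ
  refine ⟨L, fun Th _ hTh => ?_⟩
  obtain ⟨Bg, -⟩ := hL Th hTh
  exact ⟨Bg⟩

end

end Fermat.Agent.TW
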