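/-
ONE MACHINE / block [E] AUT, LAYER 1 (abstract), cell E/FreeCrit (helper5).
Namespace `Fermat.Agent.TW`, prefix `twe_fc_`.  Mathlib only.

Freeness of modules over the group algebra `O[Δ]` of a finite commutative `p`-group, in the concrete
"orbit basis" form (no `MonoidAlgebra` in the statements):  `(δ, i) ↦ ρ(δ) vᵢ` is an `O`-basis of `M`.

* §1 `twe_fc_algebraMap_mem_jacobson`, `twe_fc_sub_one_mem_jacobson` : the radical of `O[Δ]`.
* §2 `twe_fc_nakayama` : a `ρ`-stable `S ≤ M` with `S + rad(O) M + I_Δ M = M` is `M`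
  (`Δ` finite commutative of exponent `p ^ n`, `p ∈ rad(O)`, `M` finite over `O`).
* §3 `twe_fc_span_orbit_eq_top`, `twe_fc_linearIndependent_orbit`, `twe_fc_orbitBasis` :
  **freeness by counting**: generators `v : Fin r → M` of `M / (rad(O), I_Δ) M` and
  `rank_O M = r |Δ|` give the orbit basis.
* §4 `twe_fc_aug`, `twe_fc_ker_aug`, `twe_fc_aug_surjective` : coinvariants, `M / I_Δ M ≅ O^r`.
* §5 `twe_fc_finrank_eq_mul_ker` (linear algebra), `twe_fc_sub_one_pow`, `twe_fc_sub_one_pow_pred`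
  (`N = (g - 1)^(p^n - 1)` in characteristic `p`), **`twe_fc_cyclic_step`** : for `g` of order `p^n`
  on `V`, `cor : V ↠ W`, `res : W ↪ V`, `res ∘ cor = N_g`, `V^g ⊆ res W`:
  `dim V = p^n dim W` and `ker cor = (g - 1) V`.
* §6 `twe_fc_iSup_range_cyclic`, `twe_fc_sum_rho_cyclic`, **`twe_fc_cyclic_free`** : the same for a
  representation of a cyclic group of order `p ^ n`, with the orbit basis.
* §7 `twe_fc_lift_orbit` : lifting an orbit basis along `π : M ↠ V`, `ker π ⊆ rad(O) M`.
-/
import Mathlib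

set_option autoImplicit false

noncomputable section

namespace Fermat.Agent.TW

open Module

/-! ### 1. The Jacobson radical of a group algebra of a commutative `p`-group -/

theorem twe_fc_algebraMap_mem_jacobson {O A : Type*} [CommRing O] [CommRing A] [Algebra O A]
    [Algebra.IsIntegral O A] {a : O} (ha : a ∈ Ideal.jacobson (⊥ : Ideal O)) :
    algebraMap O A a ∈ Ideal.jacobson (⊥ : Ideal A) := by
  rw [Ideal.jacobson, Ideal.mem_sInf]
  rintro 𝔐 ⟨-, h𝔐⟩
  have hmax : (𝔐.comap (algebraMap O A)).IsMaximal :=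
    Ideal.isMaximal_comap_of_isIntegral_of_isMaximal (R := O) 𝔐
  have : a ∈ 𝔐.comap (algebraMap O A) := by
    rw [Ideal.jacobson, Ideal.mem_sInf] at ha
    exact ha ⟨bot_le, hmax⟩
  exact this

theorem twe_fc_mem_jacobson_of_pow {A : Type*} [CommRing A] {x : A} {m : ℕ}
    (h : x ^ m ∈ Ideal.jacobson (⊥ : Ideal A)) : x ∈ Ideal.jacobson (⊥ : Ideal A) := by
  have h1 : x ∈ (Ideal.jacobson (⊥ : Ideal A)).radical := ⟨m, h⟩
  have h2 := Ideal.radical_le_jacobson h1
  rwa [Ideal.jacobson_idem] at h2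

theorem twe_fc_sub_one_mem_jacobson {A : Type*} [CommRing A] {p n : ℕ} (hp : p.Prime)
    (hpA : (p : A) ∈ Ideal.jacobson (⊥ : Ideal A)) {u : A} (hu : u ^ (p ^ n) = 1) :
    u - 1 ∈ Ideal.jacobson (⊥ : Ideal A) := by
  apply twe_fc_mem_jacobson_of_pow (m := p ^ n)
  obtain ⟨r, hr⟩ := exists_add_pow_prime_pow_eq hp (u - 1) 1 n
  rw [sub_add_cancel, hu, one_pow] at hr
  have : (u - 1) ^ p ^ n = (p : A) * (-((u - 1) * 1 * r)) := by linear_combination -hr
  rw [this]
  exact Ideal.mul_mem_right _ _ hpA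


section rep

variable {O M Δ : Type*} [CommRing O] [AddCommGroup M] [Module O M] [CommGroup Δ]

/-! ### 2. Nakayama for a representation of a finite commutative `p`-group -/


/-- a `ρ`-stable `O`-submodule, as a submodule over the group algebra. -/
def twe_fc_asSub (ρ : Representation O Δ M) (S : Submodule O M)
    (hS : ∀ δ, ∀ m ∈ S, ρ δ m ∈ S) : Submodule (MonoidAlgebra O Δ) ρ.asModule where
  carrier := {m | ρ.asModuleEquiv m ∈ S}
  add_mem' := by
    intro a b ha hb
    simp only [Set.mem_ofPred_eq, map_add] at ha hb ⊢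
    exact S.add_mem ha hb
  zero_mem' := by simp
  smul_mem' := by
    intro a m hm
    simp only [Set.mem_ofPred_eq] at hm ⊢
    rw [Representation.asModuleEquiv_map_smul]
    induction a using MonoidAlgebra.induction_on with
    | of δ =>
      rw [Representation.asAlgebraHom_of]
      exact hS δ _ hm
    | add a b ha hb =>
      rw [map_add, LinearMap.add_apply]
      exact S.add_mem ha hb
    | smul c a ha =>
      rw [map_smul, LinearMap.smul_apply]
      exact S.smul_mem c ha

theorem twe_fc_mem_asSub (ρ : Representation O Δ M) (S : Submodule O M)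
    (hS : ∀ δ, ∀ m ∈ S, ρ δ m ∈ S) (m : ρ.asModule) :
    m ∈ twe_fc_asSub ρ S hS ↔ ρ.asModuleEquiv m ∈ S := Iff.rfl

/-- **Nakayama** for a finite commutative group of exponent `p ^ n` acting on a finite module over a
ring in whose radical `p` lies: a stable submodule `S` with `S + rad(O) M + I_Δ M = M` is `M`. -/
theorem twe_fc_nakayama [Module.Finite O M] [Finite Δ] {p n : ℕ} (hp : p.Prime)
    (hpO : (p : O) ∈ Ideal.jacobson (⊥ : Ideal O)) (hΔ : ∀ δ : Δ, δ ^ (p ^ n) = 1)
    (ρ : Representation O Δ M) (S : Submodule O M) (hS : ∀ δ, ∀ m ∈ S, ρ δ m ∈ S)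
    (h : ⊤ ≤ S ⊔ (Ideal.jacobson (⊥ : Ideal O)) • (⊤ : Submodule O M) ⊔
      ⨆ δ : Δ, LinearMap.range (ρ δ - 1)) : S = ⊤ := by
  classical
  set A := MonoidAlgebra O Δ
  have hint : Algebra.IsIntegral O A := Algebra.IsIntegral.of_finite O A
  have hfin : Module.Finite A ρ.asModule := Module.Finite.of_restrictScalars_finite O A ρ.asModule
  set J : Ideal A := Ideal.jacobson ⊥ with hJ
  have hpA : ((p : ℕ) : A) ∈ J := by
    have := twe_fc_algebraMap_mem_jacobson (A := A) hpO
    rwa [map_natCast] at this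
  have hof : ∀ δ : Δ, MonoidAlgebra.of O Δ δ - 1 ∈ J := by
    intro δ
    refine twe_fc_sub_one_mem_jacobson hp hpA (n := n) ?_
    rw [← map_pow, hΔ δ, map_one]
  -- the `O`-submodule of `M` corresponding to `J • ⊤`
  have key : ∀ m : ρ.asModule, m ∈ twe_fc_asSub ρ S hS ⊔ J • (⊤ : Submodule A ρ.asModule) := by
    intro m
    have hm : ρ.asModuleEquiv m ∈ S ⊔ (Ideal.jacobson (⊥ : Ideal O)) • (⊤ : Submodule O M) ⊔
      ⨆ δ : Δ, LinearMap.range (ρ δ - 1) := h Submodule.mem_top
    obtain ⟨st, hst, u, hu, hstu⟩ := Submodule.mem_sup.1 hm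
    obtain ⟨s, hs, t, ht, hst'⟩ := Submodule.mem_sup.1 hst
    have hm' : m = ρ.asModuleEquiv.symm s + (ρ.asModuleEquiv.symm t + ρ.asModuleEquiv.symm u) := by
      rw [← map_add, ← map_add, ← add_assoc, hst', hstu, LinearEquiv.symm_apply_apply]
    rw [hm']
    refine Submodule.add_mem_sup ?_ (Submodule.add_mem _ ?_ ?_)
    · rw [twe_fc_mem_asSub, LinearEquiv.apply_symm_apply]
      exact hs
    · -- `t ∈ rad(O) • ⊤`
      refine Submodule.smul_induction_on ht ?_ ?_
      · intro a ha x _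
        rw [Representation.asModuleEquiv_symm_map_smul]
        exact Submodule.smul_mem_smul (twe_fc_algebraMap_mem_jacobson (A := A) ha)
          Submodule.mem_top
      · intro x y hx hy
        rw [map_add]
        exact Submodule.add_mem _ hx hy
    · -- `u ∈ ⨆ range (ρ δ - 1)`
      refine Submodule.iSup_induction (p := fun δ : Δ => LinearMap.range (ρ δ - 1))
        (motive := fun u => ρ.asModuleEquiv.symm u ∈ J • (⊤ : Submodule A ρ.asModule)) hu ?_ ?_ ?_
      · rintro δ _ ⟨x, rfl⟩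
        rw [LinearMap.sub_apply, Module.End.one_apply, map_sub,
          Representation.asModuleEquiv_symm_map_rho]
        have : MonoidAlgebra.of O Δ δ • ρ.asModuleEquiv.symm x - ρ.asModuleEquiv.symm x =
            (MonoidAlgebra.of O Δ δ - 1) • ρ.asModuleEquiv.symm x := by
          rw [sub_smul, one_smul]
        rw [this]
        exact Submodule.smul_mem_smul (hof δ) Submodule.mem_top
      · simp
      · intro x y hx hy
        rw [map_add]
        exact Submodule.add_mem _ hx hy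
  have htop : (⊤ : Submodule A ρ.asModule) ≤ twe_fc_asSub ρ S hS :=
    Submodule.le_of_le_smul_of_le_jacobson_bot (I := J) Module.Finite.fg_top le_rfl
      (fun m _ => key m)
  refine eq_top_iff.2 fun m _ => ?_
  have := htop (Submodule.mem_top (x := ρ.asModuleEquiv.symm m))
  rwa [twe_fc_mem_asSub, LinearEquiv.apply_symm_apply] at this

/-! ### 3. Freeness by counting: the orbit basis -/

/-- the family `(δ, i) ↦ ρ(δ) vᵢ`. -/
def twe_fc_orbit (ρ : Representation O Δ M) {r : ℕ} (v : Fin r → M) : Δ × Fin r → M :=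
  fun x => ρ x.1 (v x.2)

theorem twe_fc_orbit_apply (ρ : Representation O Δ M) {r : ℕ} (v : Fin r → M) (δ : Δ) (i : Fin r) :
    twe_fc_orbit ρ v (δ, i) = ρ δ (v i) := rfl

theorem twe_fc_span_orbit_stable (ρ : Representation O Δ M) {r : ℕ} (v : Fin r → M) (δ : Δ) :
    ∀ m ∈ Submodule.span O (Set.range (twe_fc_orbit ρ v)),
      ρ δ m ∈ Submodule.span O (Set.range (twe_fc_orbit ρ v)) := by
  intro m hm
  refine Submodule.span_induction ?_ ?_ ?_ ?_ hm
  · rintro _ ⟨⟨δ', i⟩, rfl⟩
    refine Submodule.subset_span ⟨(δ * δ', i), ?_⟩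
    rw [twe_fc_orbit_apply, twe_fc_orbit_apply, map_mul, Module.End.mul_apply]
  · rw [map_zero]
    exact Submodule.zero_mem _
  · intro x y _ _ hx hy
    rw [map_add]
    exact Submodule.add_mem _ hx hy
  · intro a x _ hx
    rw [map_smul]
    exact Submodule.smul_mem _ a hx

theorem twe_fc_span_le_span_orbit (ρ : Representation O Δ M) {r : ℕ} (v : Fin r → M) :
    Submodule.span O (Set.range v) ≤ Submodule.span O (Set.range (twe_fc_orbit ρ v)) := by
  refine Submodule.span_le.2 ?_
  rintro _ ⟨i, rfl⟩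
  refine Submodule.subset_span ⟨(1, i), ?_⟩
  rw [twe_fc_orbit_apply, map_one, Module.End.one_apply]

/-- **generation**: if `v` generates `M / (rad(O), I_Δ) M`, the orbit family spans `M` over `O`. -/
theorem twe_fc_span_orbit_eq_top [Module.Finite O M] [Finite Δ] {p n : ℕ} (hp : p.Prime)
    (hpO : (p : O) ∈ Ideal.jacobson (⊥ : Ideal O)) (hΔ : ∀ δ : Δ, δ ^ (p ^ n) = 1)
    (ρ : Representation O Δ M) {r : ℕ} (v : Fin r → M)
    (h : ⊤ ≤ Submodule.span O (Set.range v) ⊔
      (Ideal.jacobson (⊥ : Ideal O)) • (⊤ : Submodule O M) ⊔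
      ⨆ δ : Δ, LinearMap.range (ρ δ - 1)) :
    Submodule.span O (Set.range (twe_fc_orbit ρ v)) = ⊤ := by
  refine twe_fc_nakayama hp hpO hΔ ρ _ (fun δ => twe_fc_span_orbit_stable ρ v δ) ?_
  refine h.trans ?_
  exact sup_le_sup_right (sup_le_sup_right (twe_fc_span_le_span_orbit ρ v) _) _

/-- **freeness by counting**: if moreover `rank_O M = r |Δ|`, the orbit family is `O`-free. -/
theorem twe_fc_linearIndependent_orbit [Module.Finite O M] [Fintype Δ] {p n : ℕ} (hp : p.Prime)
    (hpO : (p : O) ∈ Ideal.jacobson (⊥ : Ideal O)) (hΔ : ∀ δ : Δ, δ ^ (p ^ n) = 1)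
    (ρ : Representation O Δ M) {r : ℕ} (v : Fin r → M)
    (h : ⊤ ≤ Submodule.span O (Set.range v) ⊔
      (Ideal.jacobson (⊥ : Ideal O)) • (⊤ : Submodule O M) ⊔
      ⨆ δ : Δ, LinearMap.range (ρ δ - 1))
    (hrank : finrank O M = r * Fintype.card Δ) :
    LinearIndependent O (twe_fc_orbit ρ v) := by
  refine linearIndependent_of_top_le_span_of_card_eq_finrank
    (twe_fc_span_orbit_eq_top hp hpO hΔ ρ v h).ge ?_
  rw [Fintype.card_prod, Fintype.card_fin, hrank, mul_comm]

/-- the orbit basis of `M` over `O`: `M ≅ O[Δ]^r`. -/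
def twe_fc_orbitBasis [Module.Finite O M] [Fintype Δ] {p n : ℕ} (hp : p.Prime)
    (hpO : (p : O) ∈ Ideal.jacobson (⊥ : Ideal O)) (hΔ : ∀ δ : Δ, δ ^ (p ^ n) = 1)
    (ρ : Representation O Δ M) {r : ℕ} (v : Fin r → M)
    (h : ⊤ ≤ Submodule.span O (Set.range v) ⊔
      (Ideal.jacobson (⊥ : Ideal O)) • (⊤ : Submodule O M) ⊔
      ⨆ δ : Δ, LinearMap.range (ρ δ - 1))
    (hrank : finrank O M = r * Fintype.card Δ) : Basis (Δ × Fin r) O M :=
  Basis.mk (twe_fc_linearIndependent_orbit hp hpO hΔ ρ v h hrank)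
    (twe_fc_span_orbit_eq_top hp hpO hΔ ρ v h).ge

theorem twe_fc_orbitBasis_apply [Module.Finite O M] [Fintype Δ] {p n : ℕ} (hp : p.Prime)
    (hpO : (p : O) ∈ Ideal.jacobson (⊥ : Ideal O)) (hΔ : ∀ δ : Δ, δ ^ (p ^ n) = 1)
    (ρ : Representation O Δ M) {r : ℕ} (v : Fin r → M)
    (h : ⊤ ≤ Submodule.span O (Set.range v) ⊔
      (Ideal.jacobson (⊥ : Ideal O)) • (⊤ : Submodule O M) ⊔
      ⨆ δ : Δ, LinearMap.range (ρ δ - 1))
    (hrank : finrank O M = r * Fintype.card Δ) (δ : Δ) (i : Fin r) :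
    twe_fc_orbitBasis hp hpO hΔ ρ v h hrank (δ, i) = ρ δ (v i) := by
  rw [twe_fc_orbitBasis, Basis.mk_apply, twe_fc_orbit_apply]

/-! ### 4. Coinvariants of a module with an orbit basis -/

/-- the augmentation `M → O^r`, `ρ(δ) vᵢ ↦ eᵢ`, attached to a basis indexed by `Δ × Fin r`. -/
def twe_fc_aug {r : ℕ} (b : Basis (Δ × Fin r) O M) : M →ₗ[O] (Fin r → O) :=
  b.constr O (fun x : Δ × Fin r => Pi.single x.2 (1 : O))

omit [CommGroup Δ] in
theorem twe_fc_aug_basis {r : ℕ} (b : Basis (Δ × Fin r) O M) (δ : Δ) (i : Fin r) :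
    twe_fc_aug b (b (δ, i)) = Pi.single i (1 : O) := by
  rw [twe_fc_aug, Basis.constr_basis]

/-- the section `O^r → M`, `eᵢ ↦ b(1, i)`. -/
def twe_fc_sec {r : ℕ} (b : Basis (Δ × Fin r) O M) : (Fin r → O) →ₗ[O] M :=
  (Pi.basisFun O (Fin r)).constr O (fun i => b (1, i))

theorem twe_fc_sec_single {r : ℕ} (b : Basis (Δ × Fin r) O M) (i : Fin r) :
    twe_fc_sec b (Pi.single i (1 : O)) = b (1, i) := by
  have := (Pi.basisFun O (Fin r)).constr_basis O (fun i => b (1, i)) i
  rwa [Pi.basisFun_apply] at this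

theorem twe_fc_aug_sec {r : ℕ} (b : Basis (Δ × Fin r) O M) (f : Fin r → O) :
    twe_fc_aug b (twe_fc_sec b f) = f := by
  have : (twe_fc_aug b) ∘ₗ (twe_fc_sec b) = LinearMap.id := by
    refine (Pi.basisFun O (Fin r)).ext fun i => ?_
    rw [Pi.basisFun_apply, LinearMap.comp_apply, twe_fc_sec_single, twe_fc_aug_basis,
      LinearMap.id_apply]
  exact LinearMap.congr_fun this f

theorem twe_fc_aug_surjective {r : ℕ} (b : Basis (Δ × Fin r) O M) :
    Function.Surjective (twe_fc_aug b) := fun f => ⟨_, twe_fc_aug_sec b f⟩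

/-- **coinvariants**: for an orbit basis, `ker (M → O^r) = I_Δ M`; so `M_Δ ≅ O^r`. -/
theorem twe_fc_ker_aug (ρ : Representation O Δ M) {r : ℕ} (b : Basis (Δ × Fin r) O M)
    (hb : ∀ δ i, b (δ, i) = ρ δ (b (1, i))) :
    LinearMap.ker (twe_fc_aug b) = ⨆ δ : Δ, LinearMap.range (ρ δ - 1) := by
  apply le_antisymm
  · intro m hm
    have key : ∀ m : M, m - twe_fc_sec b (twe_fc_aug b m) ∈ ⨆ δ : Δ, LinearMap.range (ρ δ - 1) := by
      intro m
      have : m ∈ (⨆ δ : Δ, LinearMap.range (ρ δ - 1)).comap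
          (LinearMap.id - (twe_fc_sec b) ∘ₗ (twe_fc_aug b)) := by
        have hspan : Submodule.span O (Set.range b) ≤ (⨆ δ : Δ, LinearMap.range (ρ δ - 1)).comap
            (LinearMap.id - (twe_fc_sec b) ∘ₗ (twe_fc_aug b)) := by
          refine Submodule.span_le.2 ?_
          rintro _ ⟨⟨δ, i⟩, rfl⟩
          rw [SetLike.mem_coe, Submodule.mem_comap, LinearMap.sub_apply, LinearMap.id_apply,
            LinearMap.comp_apply, twe_fc_aug_basis, twe_fc_sec_single, hb δ i]
          refine Submodule.mem_iSup_of_mem δ ⟨b (1, i), ?_⟩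
          rw [LinearMap.sub_apply, Module.End.one_apply]
        exact hspan (by rw [b.span_eq]; exact Submodule.mem_top)
      simpa using this
    have h1 := key m
    rw [LinearMap.mem_ker.1 hm, map_zero, sub_zero] at h1
    exact h1
  · refine iSup_le fun δ => ?_
    rintro _ ⟨m, rfl⟩
    rw [LinearMap.mem_ker]
    have : (twe_fc_aug b) ∘ₗ (ρ δ - 1) = 0 := by
      refine b.ext fun x => ?_
      obtain ⟨δ', i⟩ := x
      rw [LinearMap.comp_apply, LinearMap.sub_apply, Module.End.one_apply, map_sub,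
        hb δ' i, ← Module.End.mul_apply, ← map_mul, ← hb (δ * δ') i, ← hb δ' i,
        twe_fc_aug_basis, twe_fc_aug_basis, sub_self, LinearMap.zero_apply]
    exact LinearMap.congr_fun this m

/-! ### 6. Cyclic groups -/

/-- for a cyclic group with generator `δ₀`: `I_Δ M = (δ₀ - 1) M`. -/
theorem twe_fc_iSup_range_cyclic [Finite Δ] (ρ : Representation O Δ M) (δ₀ : Δ)
    (hgen : ∀ δ : Δ, δ ∈ Subgroup.zpowers δ₀) :
    (⨆ δ : Δ, LinearMap.range (ρ δ - 1)) = LinearMap.range (ρ δ₀ - 1) := by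
  apply le_antisymm
  · refine iSup_le fun δ => ?_
    have h1 : δ ∈ Submonoid.powers δ₀ :=
      (isOfFinOrder_of_finite δ₀).mem_powers_iff_mem_zpowers.2 (hgen δ)
    obtain ⟨j, rfl⟩ := h1
    have h2 : ρ (δ₀ ^ j) - 1 = (ρ δ₀ - 1) * ∑ i ∈ Finset.range j, (ρ δ₀) ^ i := by
      rw [map_pow, mul_geom_sum]
    rw [h2, Module.End.mul_eq_comp]
    exact LinearMap.range_comp_le_range _ _
  · exact le_iSup (fun δ : Δ => LinearMap.range (ρ δ - 1)) δ₀

/-- for a cyclic group with generator `δ₀`: the norm is `1 + g + ⋯ + g^(|Δ|-1)`, `g = ρ δ₀`. -/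
theorem twe_fc_sum_rho_cyclic [Fintype Δ] (ρ : Representation O Δ M) (δ₀ : Δ)
    (hgen : ∀ δ : Δ, δ ∈ Subgroup.zpowers δ₀) :
    ∑ δ : Δ, ρ δ = ∑ j ∈ Finset.range (Fintype.card Δ), (ρ δ₀) ^ j := by
  classical
  have himg : Finset.image (fun j : ℕ => δ₀ ^ j) (Finset.range (Nat.card Δ)) = Finset.univ :=
    IsCyclic.image_range_card hgen
  have hord : orderOf δ₀ = Nat.card Δ := orderOf_eq_card_of_forall_mem_zpowers hgen
  rw [← Nat.card_eq_fintype_card, ← himg, Finset.sum_image]
  · refine Finset.sum_congr rfl fun j _ => ?_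
    rw [map_pow]
  · intro i hi j hj hij
    rw [Finset.coe_range, Set.mem_Iio, ← hord] at hi hj
    exact pow_injOn_Iio_orderOf hi hj hij

end rep

/-! ### 5. The cyclic criterion (linear algebra over a field) -/

section cyclic

variable {k V : Type*} [Field k] [AddCommGroup V] [Module k V] [FiniteDimensional k V]

theorem twe_fc_finrank_range_pow (x : Module.End k V) (i : ℕ)
    (h : LinearMap.ker x ≤ LinearMap.range (x ^ i)) :
    finrank k (LinearMap.range (x ^ i)) =
      finrank k (LinearMap.range (x ^ (i + 1))) + finrank k (LinearMap.ker x) := by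
  set R := LinearMap.range (x ^ i) with hR
  have h1 := LinearMap.finrank_range_add_finrank_ker (x.domRestrict R)
  rw [LinearMap.range_domRestrict, LinearMap.ker_domRestrict] at h1
  have h2 : R.map x = LinearMap.range (x ^ (i + 1)) := by
    rw [pow_succ', Module.End.mul_eq_comp, LinearMap.range_comp]
  have h3 : finrank k ((LinearMap.ker x).comap R.subtype) = finrank k (LinearMap.ker x) :=
    LinearEquiv.finrank_eq (Submodule.comapSubtypeEquivOfLe h)
  rw [h2, h3] at h1
  exact h1.symm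

/-- **cyclic count**: `x ^ q = 0` and `ker x ≤ range x ^ (q - 1)` force `dim V = q · dim ker x`. -/
theorem twe_fc_finrank_eq_mul_ker (x : Module.End k V) (q : ℕ) (hx : x ^ q = 0)
    (hker : LinearMap.ker x ≤ LinearMap.range (x ^ (q - 1))) :
    finrank k V = q * finrank k (LinearMap.ker x) := by
  have key : ∀ i : ℕ, i ≤ q →
      finrank k V = finrank k (LinearMap.range (x ^ i)) + i * finrank k (LinearMap.ker x) := by
    intro i
    induction i with
    | zero =>
      intro _
      rw [pow_zero, Module.End.one_eq_id, LinearMap.range_id, finrank_top, zero_mul, add_zero]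
    | succ i ih =>
      intro hi
      have hle : LinearMap.ker x ≤ LinearMap.range (x ^ i) := by
        refine hker.trans ?_
        have : x ^ (q - 1) = x ^ i * x ^ (q - 1 - i) := by
          rw [← pow_add]
          congr 1
          omega
        rw [this, Module.End.mul_eq_comp]
        exact LinearMap.range_comp_le_range _ _
      rw [ih (by omega), twe_fc_finrank_range_pow x i hle]
      ring
  have := key q le_rfl
  rw [hx, LinearMap.range_zero, finrank_bot, zero_add] at this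
  exact this

open Polynomial in
/-- in characteristic `p`: `(X - 1) ^ (p ^ n - 1) = 1 + X + ⋯ + X ^ (p ^ n - 1)`. -/
theorem twe_fc_poly_geom (p n : ℕ) [Fact p.Prime] [CharP k p] :
    ((X : k[X]) - 1) ^ (p ^ n - 1) = ∑ j ∈ Finset.range (p ^ n), (X : k[X]) ^ j := by
  have hq : 0 < p ^ n := pow_pos (Fact.out : p.Prime).pos n
  have h1 : ((X : k[X]) - 1) * ((X : k[X]) - 1) ^ (p ^ n - 1) =
      ((X : k[X]) - 1) * ∑ j ∈ Finset.range (p ^ n), (X : k[X]) ^ j := by
    rw [mul_geom_sum, ← pow_succ', Nat.sub_add_cancel hq, sub_pow_char_pow, one_pow]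
  have hne : (X : k[X]) - 1 ≠ 0 := by
    have := X_sub_C_ne_zero (1 : k)
    rwa [map_one] at this
  exact mul_left_cancel₀ hne h1

open Polynomial in
theorem twe_fc_poly_pow (p n : ℕ) [Fact p.Prime] [CharP k p] :
    ((X : k[X]) - 1) ^ (p ^ n) = (X : k[X]) ^ (p ^ n) - 1 := by
  rw [sub_pow_char_pow, one_pow]

omit [FiniteDimensional k V] in
/-- operators of `p`-power order in characteristic `p`: `(g - 1)^(p^n) = 0`. -/
theorem twe_fc_sub_one_pow (p n : ℕ) [Fact p.Prime] [CharP k p] (g : Module.End k V)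
    (hg : g ^ (p ^ n) = 1) : (g - 1) ^ (p ^ n) = 0 := by
  have := congrArg (Polynomial.aeval g) (twe_fc_poly_pow (k := k) p n)
  simpa [hg] using this

omit [FiniteDimensional k V] in
/-- operators of `p`-power order in characteristic `p`: the norm is `(g - 1)^(p^n - 1)`. -/
theorem twe_fc_sub_one_pow_pred (p n : ℕ) [Fact p.Prime] [CharP k p] (g : Module.End k V) :
    (g - 1) ^ (p ^ n - 1) = ∑ j ∈ Finset.range (p ^ n), g ^ j := by
  have := congrArg (Polynomial.aeval g) (twe_fc_poly_geom (k := k) p n)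
  simpa using this

/-- **the cyclic step**: `g` of order dividing `q = p ^ n` on `V`, `cor : V → W` surjective,
`res : W → V` injective, `res ∘ cor = 1 + g + ⋯ + g^(q-1)`, and `V^g ⊆ res W`.
Then `dim V = q · dim W` and `ker cor = (g - 1) V`. -/
theorem twe_fc_cyclic_step {W : Type*} [AddCommGroup W] [Module k W] (p n : ℕ) [Fact p.Prime]
    [CharP k p] (g : Module.End k V) (hg : g ^ (p ^ n) = 1) (cor : V →ₗ[k] W) (res : W →ₗ[k] V)
    (hrc : res ∘ₗ cor = ∑ j ∈ Finset.range (p ^ n), g ^ j)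
    (hcor : Function.Surjective cor) (hres : Function.Injective res)
    (hinv : LinearMap.ker (g - 1) ≤ LinearMap.range res) :
    finrank k V = p ^ n * finrank k W ∧ LinearMap.ker cor = LinearMap.range (g - 1) := by
  have hq : 0 < p ^ n := pow_pos (Fact.out : p.Prime).pos n
  set x : Module.End k V := g - 1 with hx
  have hxq : x ^ (p ^ n) = 0 := twe_fc_sub_one_pow p n g hg
  have hN : x ^ (p ^ n - 1) = res ∘ₗ cor := by rw [hrc]; exact twe_fc_sub_one_pow_pred p n g
  have hrange : LinearMap.range (x ^ (p ^ n - 1)) = LinearMap.range res := by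
    rw [hN, LinearMap.range_comp, LinearMap.range_eq_top.2 hcor, Submodule.map_top]
  have hker : LinearMap.ker x ≤ LinearMap.range (x ^ (p ^ n - 1)) := by rw [hrange]; exact hinv
  have hcount := twe_fc_finrank_eq_mul_ker x (p ^ n) hxq hker
  -- `range (x^(q-1)) ≤ ker x`
  have hle : LinearMap.range (x ^ (p ^ n - 1)) ≤ LinearMap.ker x := by
    rintro _ ⟨v, rfl⟩
    rw [LinearMap.mem_ker, ← Module.End.mul_apply, ← pow_succ', Nat.sub_add_cancel hq, hxq,
      LinearMap.zero_apply]
  have heq : LinearMap.range res = LinearMap.ker x := by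
    rw [← hrange]; exact le_antisymm hle hker
  have hW : finrank k W = finrank k (LinearMap.ker x) := by
    rw [← heq]
    exact (LinearMap.finrank_range_of_inj hres).symm
  refine ⟨by rw [hcount, hW], ?_⟩
  -- `ker cor = ker (x^(q-1)) = range x`
  have hkc : LinearMap.ker cor = LinearMap.ker (x ^ (p ^ n - 1)) := by
    rw [hN, LinearMap.ker_comp, LinearMap.ker_eq_bot.2 hres, Submodule.comap_bot]
  rw [hkc]
  symm
  refine Submodule.eq_of_le_of_finrank_eq ?_ ?_
  · rintro _ ⟨v, rfl⟩
    rw [LinearMap.mem_ker, ← Module.End.mul_apply, ← pow_succ, Nat.sub_add_cancel hq, hxq,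
      LinearMap.zero_apply]
  · have h1 := LinearMap.finrank_range_add_finrank_ker x
    have h2 := LinearMap.finrank_range_add_finrank_ker (x ^ (p ^ n - 1))
    rw [hrange, heq] at h2
    omega

end cyclic

/-! ### 6'. One cyclic step, with the orbit basis -/

section cyclicFree

variable {k V W Δ : Type*} [Field k] [AddCommGroup V] [Module k V] [FiniteDimensional k V]
  [AddCommGroup W] [Module k W] [CommGroup Δ] [Fintype Δ]

/-- **the cyclic step for a representation**: `Δ = ⟨δ₀⟩` of order `p ^ n`, `char k = p`,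
`cor : V → W` surjective, `res : W → V` injective, `res ∘ cor = N_Δ`, `V^Δ ⊆ res W`.  Then
`dim V = |Δ| dim W`, `ker cor = I_Δ V`, and the orbit of any lift of a basis of `W` is a basis of
`V` (`V ≅ k[Δ]^r`). -/
theorem twe_fc_cyclic_free (p n : ℕ) [Fact p.Prime] [CharP k p] (ρ : Representation k Δ V)
    (δ₀ : Δ) (hgen : ∀ δ : Δ, δ ∈ Subgroup.zpowers δ₀) (hcard : Fintype.card Δ = p ^ n)
    (cor : V →ₗ[k] W) (res : W →ₗ[k] V) (hrc : res ∘ₗ cor = ∑ δ : Δ, ρ δ)
    (hcor : Function.Surjective cor) (hres : Function.Injective res)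
    (hinv : ∀ v : V, (∀ δ : Δ, ρ δ v = v) → v ∈ LinearMap.range res) :
    finrank k V = Fintype.card Δ * finrank k W ∧
      LinearMap.ker cor = (⨆ δ : Δ, LinearMap.range (ρ δ - 1)) ∧
      ∀ {r : ℕ} (v : Fin r → V), LinearIndependent k (cor ∘ v) →
        ⊤ ≤ Submodule.span k (Set.range (cor ∘ v)) →
        LinearIndependent k (twe_fc_orbit ρ v) ∧
          ⊤ ≤ Submodule.span k (Set.range (twe_fc_orbit ρ v)) := by
  have hp : p.Prime := Fact.out
  have hpow : ∀ δ : Δ, δ ^ (p ^ n) = 1 := by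
    intro δ
    rw [← hcard]
    exact pow_card_eq_one
  have hg : (ρ δ₀) ^ (p ^ n) = 1 := by rw [← map_pow, hpow, map_one]
  have hrc' : res ∘ₗ cor = ∑ j ∈ Finset.range (p ^ n), (ρ δ₀) ^ j := by
    rw [hrc, twe_fc_sum_rho_cyclic ρ δ₀ hgen, hcard]
  have hinv' : LinearMap.ker (ρ δ₀ - 1) ≤ LinearMap.range res := by
    intro v hv
    rw [LinearMap.mem_ker, LinearMap.sub_apply, Module.End.one_apply, sub_eq_zero] at hv
    refine hinv v fun δ => ?_
    have h1 : δ ∈ Submonoid.powers δ₀ :=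
      (isOfFinOrder_of_finite δ₀).mem_powers_iff_mem_zpowers.2 (hgen δ)
    obtain ⟨j, rfl⟩ := h1
    rw [map_pow]
    induction j with
    | zero => rw [pow_zero, Module.End.one_apply]
    | succ j ih => rw [pow_succ, Module.End.mul_apply, hv, ih]
  obtain ⟨h1, h2⟩ := twe_fc_cyclic_step p n (ρ δ₀) hg cor res hrc' hcor hres hinv'
  have h2' : LinearMap.ker cor = ⨆ δ : Δ, LinearMap.range (ρ δ - 1) := by
    rw [h2, twe_fc_iSup_range_cyclic ρ δ₀ hgen]
  refine ⟨by rw [h1, hcard], h2', ?_⟩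
  intro r v hli hsp
  have hW : finrank k W = r := by
    have b : Basis (Fin r) k W := Basis.mk hli hsp
    rw [finrank_eq_card_basis b, Fintype.card_fin]
  have hpk : ((p : ℕ) : k) ∈ Ideal.jacobson (⊥ : Ideal k) := by
    rw [CharP.cast_eq_zero k p]
    exact Submodule.zero_mem _
  have hsup : ⊤ ≤ Submodule.span k (Set.range v) ⊔
      (Ideal.jacobson (⊥ : Ideal k)) • (⊤ : Submodule k V) ⊔
      ⨆ δ : Δ, LinearMap.range (ρ δ - 1) := by
    intro m _
    have hm : cor m ∈ (Submodule.span k (Set.range v)).map cor := by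
      rw [Submodule.map_span, ← Set.range_comp]
      exact hsp Submodule.mem_top
    obtain ⟨s, hs, hsm⟩ := hm
    have h3 : m - s ∈ LinearMap.ker cor := by rw [LinearMap.mem_ker, map_sub, hsm, sub_self]
    have h4 : m = s + (m - s) := by abel
    rw [h4]
    refine Submodule.add_mem_sup (Submodule.mem_sup_left hs) ?_
    rw [← h2']
    exact h3
  have hrank : finrank k V = r * Fintype.card Δ := by rw [h1, hW, hcard, mul_comm]
  exact ⟨twe_fc_linearIndependent_orbit hp hpk hpow ρ v hsup hrank,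
    (twe_fc_span_orbit_eq_top hp hpk hpow ρ v hsup).ge⟩

end cyclicFree

/-! ### 7. Lifting an orbit basis from a residual module (Nakayama over the base only) -/

section lift

variable {O M V Δ : Type*} [CommRing O] [AddCommGroup M] [Module O M] [AddCommGroup V]
  [Module O V] [CommGroup Δ]

/-- `π : M → V` surjective, equivariant, `ker π ⊆ rad(O) M`, `rank_O M = r |Δ|`; if the orbit of
`w : Fin r → V` spans `V`, every lift `v` of `w` has an orbit which is an `O`-basis of `M`. -/
theorem twe_fc_lift_orbit [Module.Finite O M] [Fintype Δ] (ρ : Representation O Δ M)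
    (ρV : Representation O Δ V) (π : M →ₗ[O] V)
    (hker : LinearMap.ker π ≤ (Ideal.jacobson (⊥ : Ideal O)) • (⊤ : Submodule O M))
    (hequiv : ∀ δ m, π (ρ δ m) = ρV δ (π m)) {r : ℕ} (w : Fin r → V)
    (hw : ⊤ ≤ Submodule.span O (Set.range (twe_fc_orbit ρV w)))
    (hrank : finrank O M = r * Fintype.card Δ) (v : Fin r → M) (hv : ∀ i, π (v i) = w i) :
    LinearIndependent O (twe_fc_orbit ρ v) ∧
      ⊤ ≤ Submodule.span O (Set.range (twe_fc_orbit ρ v)) := by
  set S := Submodule.span O (Set.range (twe_fc_orbit ρ v)) with hS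
  have hmap : S.map π = ⊤ := by
    rw [hS, Submodule.map_span, ← Set.range_comp]
    have : π ∘ twe_fc_orbit ρ v = twe_fc_orbit ρV w := by
      funext x
      obtain ⟨δ, i⟩ := x
      rw [Function.comp_apply, twe_fc_orbit_apply, twe_fc_orbit_apply, hequiv, hv]
    rw [this]
    exact top_le_iff.1 hw
  have hsup : (⊤ : Submodule O M) ≤ S ⊔ (Ideal.jacobson (⊥ : Ideal O)) • (⊤ : Submodule O M) := by
    intro m _
    have : π m ∈ S.map π := by rw [hmap]; exact Submodule.mem_top
    obtain ⟨s, hs, hsm⟩ := this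
    have h1 : m - s ∈ LinearMap.ker π := by rw [LinearMap.mem_ker, map_sub, hsm, sub_self]
    have h2 : m = s + (m - s) := by abel
    rw [h2]
    exact Submodule.add_mem_sup hs (hker h1)
  have htop : (⊤ : Submodule O M) ≤ S :=
    Submodule.le_of_le_smul_of_le_jacobson_bot Module.Finite.fg_top le_rfl hsup
  refine ⟨?_, htop⟩
  refine linearIndependent_of_top_le_span_of_card_eq_finrank htop ?_
  rw [Fintype.card_prod, Fintype.card_fin, hrank, mul_comm]

end lift

end Fermat.Agent.TW
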