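/-
# E/FreeMA: from an orbit basis over `𝒪` to `Module.Free (MonoidAlgebra 𝒪 Δ) M`

The bridge between `twe_fc_orbitBasis` (FreeCrit.lean: an `𝒪`-basis `(δ, i) ↦ ρ δ (v i)`) and the
fields `instFiniteΔ`, `instFreeΔ` of `twe_Level` / `twe_Big` (TW/Aut/Seams.lean).
-/
import Mathlib
import Fermat.Agent.TW.Aut.FreeCrit

set_option autoImplicit false

noncomputable section

namespace Fermat.Agent.TW

open Module

section general

variable {O : Type*} [CommRing O] {Δ : Type*} [Monoid Δ] [Finite Δ]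
  {M : Type*} [AddCommGroup M] [Module O M]
  [Module (MonoidAlgebra O Δ) M] [IsScalarTower O (MonoidAlgebra O Δ) M] {ι : Type*}

omit [Finite Δ] in
/-- an element of the monoid algebra of a finite monoid is the sum of its coefficients. -/
theorem twe_fm_expand [Fintype Δ] (a : MonoidAlgebra O Δ) :
    a = ∑ δ : Δ, a.coeff δ • MonoidAlgebra.of O Δ δ := by
  have h := (MonoidAlgebra.basis Δ O).sum_repr a
  conv_lhs => rw [← h]
  rfl

/-- **linear independence over the group algebra**: if `(δ, i) ↦ of δ • v i` is an `O`-basis of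
`M`, the family `v` is linearly independent over `O[Δ]`. -/
theorem twe_fm_linearIndependent (v : ι → M) (b : Basis (Δ × ι) O M)
    (hb : ∀ δ i, b (δ, i) = MonoidAlgebra.of O Δ δ • v i) :
    LinearIndependent (MonoidAlgebra O Δ) v := by
  classical
  cases nonempty_fintype Δ
  rw [linearIndependent_iff']
  intro s g hg i hi
  have h1 : ∑ x ∈ (Finset.univ : Finset Δ) ×ˢ s, (g x.2).coeff x.1 • b x = 0 := by
    rw [Finset.sum_product' (f := fun δ j => (g j).coeff δ • b (δ, j)), Finset.sum_comm, ← hg]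
    refine Finset.sum_congr rfl fun j _ => ?_
    conv_rhs => rw [twe_fm_expand (g j), Finset.sum_smul]
    refine Finset.sum_congr rfl fun δ _ => ?_
    rw [hb, smul_assoc]
  have h2 := linearIndependent_iff'.1 b.linearIndependent _ _ h1
  apply MonoidAlgebra.coeff_injective
  ext δ
  exact h2 (δ, i) (Finset.mem_product.2 ⟨Finset.mem_univ δ, hi⟩)

omit [Finite Δ] in
/-- **generation over the group algebra**. -/
theorem twe_fm_span (v : ι → M) (b : Basis (Δ × ι) O M)
    (hb : ∀ δ i, b (δ, i) = MonoidAlgebra.of O Δ δ • v i) :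
    ⊤ ≤ Submodule.span (MonoidAlgebra O Δ) (Set.range v) := by
  have h1 : Submodule.span O (Set.range b) ≤
      (Submodule.span (MonoidAlgebra O Δ) (Set.range v)).restrictScalars O := by
    refine Submodule.span_le.2 ?_
    rintro _ ⟨⟨δ, i⟩, rfl⟩
    rw [hb]
    exact Submodule.smul_mem (Submodule.span (MonoidAlgebra O Δ) (Set.range v)) _
      (Submodule.subset_span (Set.mem_range_self i))
  rw [b.span_eq] at h1
  intro m _
  exact h1 (Submodule.mem_top (x := m))

/-- the `O[Δ]`-basis `v` attached to an orbit basis. -/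
def twe_fm_basis (v : ι → M) (b : Basis (Δ × ι) O M)
    (hb : ∀ δ i, b (δ, i) = MonoidAlgebra.of O Δ δ • v i) : Basis ι (MonoidAlgebra O Δ) M :=
  Basis.mk (twe_fm_linearIndependent v b hb) (twe_fm_span v b hb)

theorem twe_fm_basis_apply (v : ι → M) (b : Basis (Δ × ι) O M)
    (hb : ∀ δ i, b (δ, i) = MonoidAlgebra.of O Δ δ • v i) (i : ι) :
    twe_fm_basis v b hb i = v i := by
  rw [twe_fm_basis, Basis.mk_apply]

/-- **the bridge**: an orbit basis makes `M` free (and finite, if `ι` is finite) over `O[Δ]`. -/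
theorem twe_fm_free (v : ι → M) (b : Basis (Δ × ι) O M)
    (hb : ∀ δ i, b (δ, i) = MonoidAlgebra.of O Δ δ • v i) :
    Module.Free (MonoidAlgebra O Δ) M :=
  Module.Free.of_basis (twe_fm_basis v b hb)

theorem twe_fm_finite [Finite ι] (v : ι → M) (b : Basis (Δ × ι) O M)
    (hb : ∀ δ i, b (δ, i) = MonoidAlgebra.of O Δ δ • v i) :
    Module.Finite (MonoidAlgebra O Δ) M :=
  Module.Finite.of_basis (twe_fm_basis v b hb)

end general

/-! ### the representation form: `M := ρ.asModule` -/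

section rep

variable {O : Type*} [CommRing O] {Δ : Type*} [Monoid Δ] [Finite Δ]
  {M : Type*} [AddCommGroup M] [Module O M] {ι : Type*}

/-- transport of an `O`-basis of `M` to the type synonym `ρ.asModule`. -/
def twe_fm_asBasis (ρ : Representation O Δ M) (b : Basis (Δ × ι) O M) :
    Basis (Δ × ι) O ρ.asModule :=
  b.map ρ.asModuleEquiv.symm

omit [Finite Δ] in
theorem twe_fm_asBasis_apply (ρ : Representation O Δ M) (v : ι → M) (b : Basis (Δ × ι) O M)
    (hb : ∀ δ i, b (δ, i) = ρ δ (v i)) (δ : Δ) (i : ι) :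
    twe_fm_asBasis ρ b (δ, i) = MonoidAlgebra.of O Δ δ • ρ.asModuleEquiv.symm (v i) := by
  rw [twe_fm_asBasis, Basis.map_apply, hb, Representation.asModuleEquiv_symm_map_rho]

/-- **the bridge, representation form**: if `(δ, i) ↦ ρ δ (v i)` is an `O`-basis of `M`
(e.g. `twe_fc_orbitBasis`), then `ρ.asModule` is free over `O[Δ]` on the `v i`. -/
theorem twe_fm_free_rep (ρ : Representation O Δ M) (v : ι → M) (b : Basis (Δ × ι) O M)
    (hb : ∀ δ i, b (δ, i) = ρ δ (v i)) : Module.Free (MonoidAlgebra O Δ) ρ.asModule :=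
  twe_fm_free (fun i => ρ.asModuleEquiv.symm (v i)) (twe_fm_asBasis ρ b)
    (twe_fm_asBasis_apply ρ v b hb)

theorem twe_fm_finite_rep [Finite ι] (ρ : Representation O Δ M) (v : ι → M)
    (b : Basis (Δ × ι) O M) (hb : ∀ δ i, b (δ, i) = ρ δ (v i)) :
    Module.Finite (MonoidAlgebra O Δ) ρ.asModule :=
  twe_fm_finite (fun i => ρ.asModuleEquiv.symm (v i)) (twe_fm_asBasis ρ b)
    (twe_fm_asBasis_apply ρ v b hb)

omit [Finite Δ] in
/-- the action of `of δ` on `ρ.asModule`. -/
theorem twe_fm_of_smul (ρ : Representation O Δ M) (δ : Δ) (m : ρ.asModule) :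
    ρ.asModuleEquiv (MonoidAlgebra.of O Δ δ • m) = ρ δ (ρ.asModuleEquiv m) := by
  rw [Representation.asModuleEquiv_map_smul, MonoidAlgebra.of_apply,
    Representation.asAlgebraHom_single, one_smul]

omit [Finite Δ] in
/-- operators commuting with the representation commute with the `O[Δ]`-action. -/
theorem twe_fm_smul_comm (ρ : Representation O Δ M) (f : M →ₗ[O] M)
    (hf : ∀ δ m, f (ρ δ m) = ρ δ (f m)) (a : MonoidAlgebra O Δ) (m : ρ.asModule) :
    ρ.asModuleEquiv.symm (f (ρ.asModuleEquiv (a • m))) =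
      a • ρ.asModuleEquiv.symm (f (ρ.asModuleEquiv m)) := by
  induction a using MonoidAlgebra.induction_on with
  | of δ =>
    rw [twe_fm_of_smul, hf, Representation.asModuleEquiv_symm_map_rho]
  | add a a' ha ha' =>
    rw [add_smul, map_add, map_add, map_add, ha, ha', add_smul]
  | smul c a ha =>
    rw [smul_assoc, map_smul, map_smul, map_smul, ha, smul_assoc]

end rep

/-! ### coinvariants over `O`: the transfer has kernel `I_Δ M` -/

section coinv

variable {O : Type*} [CommRing O] {Δ : Type*} [Group Δ]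
  {M : Type*} [AddCommGroup M] [Module O M] {ι : Type*}

/-- the augmentation `M → O^(ι)`, `b (δ, i) ↦ e_i`. -/
def twe_fm_aug (b : Basis (Δ × ι) O M) : M →ₗ[O] (ι →₀ O) :=
  b.constr O fun x : Δ × ι => Finsupp.single x.2 (1 : O)

omit [Group Δ] in
theorem twe_fm_aug_basis (b : Basis (Δ × ι) O M) (δ : Δ) (i : ι) :
    twe_fm_aug b (b (δ, i)) = Finsupp.single i (1 : O) := by
  rw [twe_fm_aug, Basis.constr_basis]

/-- the section `O^(ι) → M`, `e_i ↦ b (1, i)`. -/
def twe_fm_sec (b : Basis (Δ × ι) O M) : (ι →₀ O) →ₗ[O] M :=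
  Finsupp.linearCombination O fun i => b (1, i)

theorem twe_fm_sec_single (b : Basis (Δ × ι) O M) (i : ι) :
    twe_fm_sec b (Finsupp.single i (1 : O)) = b (1, i) := by
  rw [twe_fm_sec, Finsupp.linearCombination_single, one_smul]

/-- `m - sec (aug m) ∈ I_Δ M`. -/
theorem twe_fm_sub_sec_aug (ρ : Representation O Δ M) (b : Basis (Δ × ι) O M)
    (hb : ∀ δ i, b (δ, i) = ρ δ (b (1, i))) (m : M) :
    m - twe_fm_sec b (twe_fm_aug b m) ∈ ⨆ δ : Δ, LinearMap.range (ρ δ - 1) := by
  have hspan : Submodule.span O (Set.range b) ≤ (⨆ δ : Δ, LinearMap.range (ρ δ - 1)).comap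
      (LinearMap.id - (twe_fm_sec b) ∘ₗ (twe_fm_aug b)) := by
    refine Submodule.span_le.2 ?_
    rintro _ ⟨⟨δ, i⟩, rfl⟩
    rw [SetLike.mem_coe, Submodule.mem_comap, LinearMap.sub_apply, LinearMap.id_apply,
      LinearMap.comp_apply, twe_fm_aug_basis, twe_fm_sec_single, hb δ i]
    refine Submodule.mem_iSup_of_mem δ ⟨b (1, i), ?_⟩
    rw [LinearMap.sub_apply, Module.End.one_apply]
  have : m ∈ (⨆ δ : Δ, LinearMap.range (ρ δ - 1)).comap
      (LinearMap.id - (twe_fm_sec b) ∘ₗ (twe_fm_aug b)) :=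
    hspan (by rw [b.span_eq]; exact Submodule.mem_top)
  simpa using this

/-- **coinvariants over `O`**: `M` with an orbit basis `b (δ, i) = ρ δ (b (1, i))`, and
`c : M → M0` onto a free module with a basis indexed by the same `ι` (finite), constant on orbits.
Then `ker c = I_Δ M`. -/
theorem twe_fm_ker_eq [Finite ι] (ρ : Representation O Δ M) (b : Basis (Δ × ι) O M)
    (hb : ∀ δ i, b (δ, i) = ρ δ (b (1, i))) {M0 : Type*} [AddCommGroup M0] [Module O M0]
    (b0 : Basis ι O M0) (c : M →ₗ[O] M0) (hc : ∀ δ m, c (ρ δ m) = c m)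
    (hsurj : Function.Surjective c) :
    LinearMap.ker c = ⨆ δ : Δ, LinearMap.range (ρ δ - 1) := by
  have : Module.Finite O M0 := Module.Finite.of_basis b0
  have hkill : (⨆ δ : Δ, LinearMap.range (ρ δ - 1)) ≤ LinearMap.ker c := by
    refine iSup_le fun δ => ?_
    rintro _ ⟨m, rfl⟩
    rw [LinearMap.mem_ker, LinearMap.sub_apply, Module.End.one_apply, map_sub, hc, sub_self]
  refine le_antisymm ?_ hkill
  -- `c = c̄ ∘ aug` with `c̄ = c ∘ sec`
  have hfac : ∀ m, c m = c (twe_fm_sec b (twe_fm_aug b m)) := by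
    intro m
    have := hkill (twe_fm_sub_sec_aug ρ b hb m)
    rw [LinearMap.mem_ker, map_sub, sub_eq_zero] at this
    exact this
  have hcbar_surj : Function.Surjective (c ∘ₗ twe_fm_sec b) := by
    intro y
    obtain ⟨m, rfl⟩ := hsurj y
    exact ⟨twe_fm_aug b m, (hfac m).symm⟩
  have hcbar_inj : Function.Injective (c ∘ₗ twe_fm_sec b) :=
    OrzechProperty.injective_of_surjective_of_injective b0.repr.symm.toLinearMap _
      b0.repr.symm.injective hcbar_surj
  intro m hm
  have h1 : (c ∘ₗ twe_fm_sec b) (twe_fm_aug b m) = 0 := by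
    rw [LinearMap.comp_apply, ← hfac]
    exact hm
  have h2 : twe_fm_aug b m = 0 := hcbar_inj (h1.trans (map_zero _).symm)
  have h3 := twe_fm_sub_sec_aug ρ b hb m
  rwa [h2, map_zero, sub_zero] at h3

/-- **partial coinvariants**: `M` with an orbit basis for `Δ₁ × Δ₂`, `c : M → M'` onto a module
with a basis indexed by `Δ₁ × ι`, constant on the `Δ₂`-orbits. Then `ker c = I_{Δ₂} M`. -/
theorem twe_fm_ker_partial {Δ₁ Δ₂ : Type*} [Group Δ₁] [Group Δ₂] [Finite Δ₁] [Finite ι]
    (ρ : Representation O (Δ₁ × Δ₂) M) (b : Basis ((Δ₁ × Δ₂) × ι) O M)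
    (hb : ∀ δ i, b (δ, i) = ρ δ (b (1, i))) {M' : Type*} [AddCommGroup M'] [Module O M']
    (b' : Basis (Δ₁ × ι) O M') (c : M →ₗ[O] M') (hc : ∀ (δ₂ : Δ₂) m, c (ρ (1, δ₂) m) = c m)
    (hsurj : Function.Surjective c) :
    LinearMap.ker c = ⨆ δ₂ : Δ₂, LinearMap.range (ρ (1, δ₂) - 1) := by
  let e : (Δ₁ × Δ₂) × ι ≃ Δ₂ × (Δ₁ × ι) :=
    { toFun := fun x => (x.1.2, (x.1.1, x.2))
      invFun := fun y => ((y.2.1, y.1), y.2.2)
      left_inv := fun _ => rfl
      right_inv := fun _ => rfl }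
  have hbe : ∀ (δ₂ : Δ₂) (j : Δ₁ × ι), b.reindex e (δ₂, j) = b ((j.1, δ₂), j.2) := by
    intro δ₂ j
    rw [Basis.reindex_apply]
    rfl
  have h := twe_fm_ker_eq (ρ.comp (MonoidHom.inr Δ₁ Δ₂)) (b.reindex e) (by
    intro δ₂ j
    rw [hbe, hbe, hb (j.1, δ₂), hb (j.1, 1), MonoidHom.comp_apply, MonoidHom.inr_apply,
      ← Module.End.mul_apply, ← map_mul, Prod.mk_mul_mk, one_mul, mul_one]) b' c
    (fun δ₂ m => hc δ₂ m) hsurj
  exact h

end coinv

end Fermat.Agent.TW
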