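import Mathlib
import Fermat.Agent.TW.Aut.SeamsLG2
import Fermat.Agent.TW.Aut.ChiBridge
import Fermat.Agent.TW.Aut.FreeMA

/-!
# Project ONE MACHINE, block [E] AUT: smart constructors for `twe_Level` / `twe_Big` (helper3)

Prefix `twe_mk_`.  Pure plumbing: from a representation `ρ` of `Δ` on an `𝒪`-module `P` with an
orbit basis, a commuting action `ψ : R →ₐ[𝒪] End_𝒪 P` of a Hecke ring and the coinvariant map,
build the module `ρ.asModule` with all the instances of the structures of `Seams.lean`.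
-/

set_option autoImplicit false
set_option linter.unusedSectionVars false

namespace Fermat.Agent.TW

open Polynomial CuspForm IsLocalRing Fermat.Agent.JT3

noncomputable section

section act

variable {𝒪 : Type*} [CommRing 𝒪] {R : Type*} [CommRing R] [Algebra 𝒪 R]
  {Δ : Type*} [Monoid Δ] {P : Type*} [AddCommGroup P] [Module 𝒪 P]

/-- the action `ψ` transported to the type synonym `ρ.asModule`. -/
def twe_mk_psi (ρ : Representation 𝒪 Δ P) (ψ : R →ₐ[𝒪] Module.End 𝒪 P) :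
    R →ₐ[𝒪] Module.End 𝒪 ρ.asModule :=
  ((ρ.asModuleEquiv.symm.conjAlgEquiv 𝒪 :
    Module.End 𝒪 P ≃ₐ[𝒪] Module.End 𝒪 ρ.asModule) : Module.End 𝒪 P →ₐ[𝒪] _).comp ψ

theorem twe_mk_psi_apply (ρ : Representation 𝒪 Δ P) (ψ : R →ₐ[𝒪] Module.End 𝒪 P) (x : R)
    (m : ρ.asModule) :
    twe_mk_psi ρ ψ x m = ρ.asModuleEquiv.symm (ψ x (ρ.asModuleEquiv m)) := by
  unfold twe_mk_psi
  rw [AlgHom.comp_apply]
  change (ρ.asModuleEquiv.symm.conjAlgEquiv 𝒪) (ψ x) m = _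
  rw [LinearEquiv.conjAlgEquiv_apply_apply]
  rfl

/-- the `R`-module structure on `ρ.asModule`. -/
@[reducible] def twe_mk_module (ρ : Representation 𝒪 Δ P) (ψ : R →ₐ[𝒪] Module.End 𝒪 P) :
    Module R ρ.asModule :=
  Module.compHom ρ.asModule (twe_mk_psi ρ ψ : R →+* Module.End 𝒪 ρ.asModule)

theorem twe_mk_smul (ρ : Representation 𝒪 Δ P) (ψ : R →ₐ[𝒪] Module.End 𝒪 P) (x : R)
    (m : ρ.asModule) :
    letI := twe_mk_module ρ ψ
    x • m = ρ.asModuleEquiv.symm (ψ x (ρ.asModuleEquiv m)) :=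
  twe_mk_psi_apply ρ ψ x m

theorem twe_mk_tower (ρ : Representation 𝒪 Δ P) (ψ : R →ₐ[𝒪] Module.End 𝒪 P) :
    letI := twe_mk_module ρ ψ
    IsScalarTower 𝒪 R ρ.asModule := by
  letI := twe_mk_module ρ ψ
  refine ⟨fun c x m => ?_⟩
  change twe_mk_psi ρ ψ (c • x) m = c • twe_mk_psi ρ ψ x m
  rw [map_smul, LinearMap.smul_apply]

theorem twe_mk_comm (ρ : Representation 𝒪 Δ P) (ψ : R →ₐ[𝒪] Module.End 𝒪 P)
    (hcomm : ∀ x δ m, ψ x (ρ δ m) = ρ δ (ψ x m)) :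
    letI := twe_mk_module ρ ψ
    SMulCommClass R (MonoidAlgebra 𝒪 Δ) ρ.asModule := by
  letI := twe_mk_module ρ ψ
  refine ⟨fun x a m => ?_⟩
  change twe_mk_psi ρ ψ x (a • m) = a • twe_mk_psi ρ ψ x m
  rw [twe_mk_psi_apply, twe_mk_psi_apply]
  exact twe_fm_smul_comm ρ (ψ x) (hcomm x) a m

/-- the augmentation submodule in the two languages. -/
theorem twe_mk_aug (ρ : Representation 𝒪 Δ P) :
    (⨆ δ : Δ, LinearMap.range (ρ δ - 1)).map (ρ.asModuleEquiv.symm : P →ₗ[𝒪] ρ.asModule) =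
      Submodule.span 𝒪 {x : ρ.asModule | ∃ (δ : Δ) (m : ρ.asModule),
        x = MonoidAlgebra.of 𝒪 Δ δ • m - m} := by
  apply le_antisymm
  · rw [Submodule.map_le_iff_le_comap]
    refine iSup_le fun δ => ?_
    rintro _ ⟨m, rfl⟩
    rw [Submodule.mem_comap]
    refine Submodule.subset_span ⟨δ, ρ.asModuleEquiv.symm m, ?_⟩
    rw [LinearMap.sub_apply, Module.End.one_apply, LinearEquiv.coe_coe, map_sub,
      Representation.asModuleEquiv_symm_map_rho]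
  · rw [Submodule.span_le]
    rintro _ ⟨δ, m, rfl⟩
    refine ⟨ρ δ (ρ.asModuleEquiv m) - ρ.asModuleEquiv m, ?_, ?_⟩
    · refine Submodule.mem_iSup_of_mem δ ⟨ρ.asModuleEquiv m, ?_⟩
      rw [LinearMap.sub_apply, Module.End.one_apply]
    · rw [LinearEquiv.coe_coe, map_sub, Representation.asModuleEquiv_symm_map_rho,
        LinearEquiv.symm_apply_apply]

end act

section level

variable {𝒪 : Type} [CommRing 𝒪] [IsDomain 𝒪] [IsDiscreteValuationRing 𝒪]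
  [IsAdicComplete (maximalIdeal 𝒪) 𝒪]
  {N : ℕ} [NeZero N] {S : Finset ℕ} {θ : heckeAlgebra N 2 (↑S : Set ℕ) →+* ResidueField 𝒪}

/-- the data from which a unipotent system `twe_Level B p Q` is built. -/
structure twe_mk_LevelData (B : twe_Base 𝒪 N S θ) (p : ℕ) (Q : Finset ℕ)
    [NeZero (twe_Nbal N Q ∅)] : Type 1 where
  θ' : heckeAlgebra (twe_Nbal N Q ∅) 2 (↑(S ∪ Q) : Set ℕ) →+* ResidueField 𝒪
  θ'_eq : ∀ (ℓ : ℕ) (hℓ : ℓ.Prime) (h1 : ¬ ℓ ∣ twe_Nbal N Q ∅) (h2 : ℓ ∉ (↑(S ∪ Q) : Set ℕ))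
    (h3 : ¬ ℓ ∣ N) (h4 : ℓ ∉ (↑S : Set ℕ)),
    θ' (heckeAlgebra.T hℓ h1 h2) = θ (heckeAlgebra.T hℓ h3 h4)
  /-- the base package of the balanced level -/
  B' : twe_Base 𝒪 (twe_Nbal N Q ∅) (S ∪ Q) θ'
  π0 : B'.T →ₐ[𝒪] B.T
  π0_T : ∀ (ℓ : ℕ) (hℓ : ℓ.Prime) (h1 : ¬ ℓ ∣ twe_Nbal N Q ∅) (h2 : ℓ ∉ (↑(S ∪ Q) : Set ℕ))
    (h3 : ¬ ℓ ∣ N) (h4 : ℓ ∉ (↑S : Set ℕ)),
    π0 (B'.H.π (heckeAlgebra.T hℓ h1 h2)) = B.H.π (heckeAlgebra.T hℓ h3 h4)
  /-- the `θ`-primary part of `W(Γ_H(Q), 𝒪)` -/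
  P : Type
  [instAddCommGroup : AddCommGroup P]
  [instModule : Module 𝒪 P]
  ψ : B'.T →ₐ[𝒪] Module.End 𝒪 P
  ρ : Representation 𝒪 (twe_Delta p Q) P
  comm : ∀ x δ m, ψ x (ρ δ m) = ρ δ (ψ x m)
  r : ℕ
  v : Fin r → P
  b : Module.Basis (twe_Delta p Q × Fin r) 𝒪 P
  hb : ∀ δ i, b (δ, i) = ρ δ (v i)
  c : P →ₗ[𝒪] (Fin (2 ^ Q.card) → Fin B.d → 𝒪)
  c_surjective : Function.Surjective c
  c_ker : LinearMap.ker c = ⨆ δ : twe_Delta p Q, LinearMap.range (ρ δ - 1)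
  c_hecke : ∀ (x : B'.T) (m : P) (i : Fin (2 ^ Q.card)),
    c (ψ x m) i = (B.j (π0 x)).mulVec (c m i)

attribute [instance] twe_mk_LevelData.instAddCommGroup twe_mk_LevelData.instModule

variable {B : twe_Base 𝒪 N S θ} {p : ℕ} {Q : Finset ℕ} [NeZero (twe_Nbal N Q ∅)]

/-- the unipotent system built from the data. -/
def twe_mk_LevelData.toLevel (D : twe_mk_LevelData B p Q) : twe_Level B p Q :=
  letI : Module D.B'.T D.ρ.asModule := twe_mk_module D.ρ D.ψ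
  haveI : IsScalarTower 𝒪 D.B'.T D.ρ.asModule := twe_mk_tower D.ρ D.ψ
  haveI : SMulCommClass D.B'.T (MonoidAlgebra 𝒪 (twe_Delta p Q)) D.ρ.asModule :=
    twe_mk_comm D.ρ D.ψ D.comm
  haveI : Module.Free (MonoidAlgebra 𝒪 (twe_Delta p Q)) D.ρ.asModule :=
    twe_fm_free_rep D.ρ D.v D.b D.hb
  haveI : Module.Finite (MonoidAlgebra 𝒪 (twe_Delta p Q)) D.ρ.asModule :=
    twe_fm_finite_rep D.ρ D.v D.b D.hb
  { θ' := D.θ'
    θ'_eq := D.θ'_eq
    T' := D.B'.T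
    H' := D.B'.H
    π0 := D.π0
    π0_T := D.π0_T
    M := D.ρ.asModule
    c := D.c.comp (D.ρ.asModuleEquiv : D.ρ.asModule →ₗ[𝒪] D.P)
    c_surjective := D.c_surjective.comp D.ρ.asModuleEquiv.surjective
    c_ker := by
      rw [← twe_mk_aug D.ρ, ← D.c_ker]
      ext m
      rw [LinearMap.mem_ker, Submodule.mem_map]
      constructor
      · intro hm
        exact ⟨D.ρ.asModuleEquiv m, hm, D.ρ.asModuleEquiv.symm_apply_apply m⟩
      · rintro ⟨y, hy, rfl⟩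
        rw [LinearMap.comp_apply, LinearEquiv.coe_coe, LinearEquiv.coe_coe,
          LinearEquiv.apply_symm_apply]
        exact hy
    c_hecke := by
      intro x m i
      rw [LinearMap.comp_apply, LinearEquiv.coe_coe, twe_mk_smul, LinearEquiv.apply_symm_apply]
      exact D.c_hecke x _ i }

theorem twe_mk_toLevel_smul (D : twe_mk_LevelData B p Q) (x : D.toLevel.T') (m : D.toLevel.M) :
    x • m = D.ρ.asModuleEquiv.symm (D.ψ x (D.ρ.asModuleEquiv m)) :=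
  twe_mk_smul D.ρ D.ψ x m

theorem twe_mk_toLevel_dia (D : twe_mk_LevelData B p Q) (t : ℕ) (ht : t ∈ Q)
    (m : D.toLevel.M) :
    D.toLevel.dia t ht m =
      D.ρ.asModuleEquiv.symm (D.ρ (twe_gen p Q t ht) (D.ρ.asModuleEquiv m)) := by
  rw [Representation.asModuleEquiv_symm_map_rho, LinearEquiv.symm_apply_apply]
  rfl

end level

section big

variable {𝒪 : Type} [CommRing 𝒪] [IsDomain 𝒪] [IsDiscreteValuationRing 𝒪]
  [IsAdicComplete (maximalIdeal 𝒪) 𝒪]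
  {N : ℕ} [NeZero N] {S : Finset ℕ} {θ : heckeAlgebra N 2 (↑S : Set ℕ) →+* ResidueField 𝒪}
  {B : twe_Base 𝒪 N S θ} {p : ℕ} {Q : Finset ℕ} [NeZero (twe_Nbal N Q ∅)]

/-- the data from which a big system `twe_Big L Th` is built. -/
structure twe_mk_BigData (L : twe_Level B p Q) (Th : Finset ℕ)
    [NeZero (twe_Nbal N Q Th)] : Type 1 where
  θ'' : heckeAlgebra (twe_Nbal N Q Th) 2 (↑(S ∪ Q) : Set ℕ) →+* ResidueField 𝒪
  θ''_eq : ∀ (ℓ : ℕ) (hℓ : ℓ.Prime) (h1 : ¬ ℓ ∣ twe_Nbal N Q Th) (h2 : ℓ ∉ (↑(S ∪ Q) : Set ℕ))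
    (h3 : ¬ ℓ ∣ N) (h4 : ℓ ∉ (↑S : Set ℕ)),
    θ'' (heckeAlgebra.T hℓ h1 h2) = θ (heckeAlgebra.T hℓ h3 h4)
  /-- the base package of the balanced level -/
  B'' : twe_Base 𝒪 (twe_Nbal N Q Th) (S ∪ Q) θ''
  π1 : B''.T →ₐ[𝒪] L.T'
  π1_T : ∀ (ℓ : ℕ) (hℓ : ℓ.Prime) (h1 : ¬ ℓ ∣ twe_Nbal N Q Th) (h2 : ℓ ∉ (↑(S ∪ Q) : Set ℕ))
    (h3 : ¬ ℓ ∣ twe_Nbal N Q ∅),
    π1 (B''.H.π (heckeAlgebra.T hℓ h1 h2)) = L.H'.π (heckeAlgebra.T hℓ h3 h2)
  /-- the `θ`-primary part of `W(Γ_H(Q ∪ Th), 𝒪)` -/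
  P : Type
  [instAddCommGroup : AddCommGroup P]
  [instModule : Module 𝒪 P]
  ψ : B''.T →ₐ[𝒪] Module.End 𝒪 P
  ρ : Representation 𝒪 (twe_Delta p Q × twe_Delta p Th) P
  comm : ∀ x δ m, ψ x (ρ δ m) = ρ δ (ψ x m)
  r : ℕ
  v : Fin r → P
  b : Module.Basis ((twe_Delta p Q × twe_Delta p Th) × Fin r) 𝒪 P
  hb : ∀ δ i, b (δ, i) = ρ δ (v i)
  c1 : P →ₗ[𝒪] L.M
  c1_surjective : Function.Surjective c1
  c1_ker : LinearMap.ker c1 = ⨆ δ : twe_Delta p Th, LinearMap.range (ρ (1, δ) - 1)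
  c1_hecke : ∀ (x : B''.T) (m : P), c1 (ψ x m) = π1 x • c1 m
  c1_diamond : ∀ (δ : twe_Delta p Q) (m : P),
    c1 (ρ (δ, 1) m) = MonoidAlgebra.of 𝒪 (twe_Delta p Q) δ • c1 m

attribute [instance] twe_mk_BigData.instAddCommGroup twe_mk_BigData.instModule

variable {L : twe_Level B p Q} {Th : Finset ℕ} [NeZero (twe_Nbal N Q Th)]

/-- the partial augmentation submodule in the two languages. -/
theorem twe_mk_aug2 {𝒪 : Type*} [CommRing 𝒪] {Δ₁ Δ₂ : Type*} [Monoid Δ₁] [Monoid Δ₂]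
    {P : Type*} [AddCommGroup P] [Module 𝒪 P] (ρ : Representation 𝒪 (Δ₁ × Δ₂) P) :
    (⨆ δ : Δ₂, LinearMap.range (ρ (1, δ) - 1)).map
        (ρ.asModuleEquiv.symm : P →ₗ[𝒪] ρ.asModule) =
      Submodule.span 𝒪 {x : ρ.asModule | ∃ (δ : Δ₂) (m : ρ.asModule),
        x = MonoidAlgebra.of 𝒪 (Δ₁ × Δ₂) (1, δ) • m - m} := by
  apply le_antisymm
  · rw [Submodule.map_le_iff_le_comap]
    refine iSup_le fun δ => ?_
    rintro _ ⟨m, rfl⟩
    rw [Submodule.mem_comap]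
    refine Submodule.subset_span ⟨δ, ρ.asModuleEquiv.symm m, ?_⟩
    rw [LinearMap.sub_apply, Module.End.one_apply, LinearEquiv.coe_coe, map_sub,
      Representation.asModuleEquiv_symm_map_rho]
  · rw [Submodule.span_le]
    rintro _ ⟨δ, m, rfl⟩
    refine ⟨ρ (1, δ) (ρ.asModuleEquiv m) - ρ.asModuleEquiv m, ?_, ?_⟩
    · refine Submodule.mem_iSup_of_mem δ ⟨ρ.asModuleEquiv m, ?_⟩
      rw [LinearMap.sub_apply, Module.End.one_apply]
    · rw [LinearEquiv.coe_coe, map_sub, Representation.asModuleEquiv_symm_map_rho,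
        LinearEquiv.symm_apply_apply]

/-- the big system built from the data. -/
def twe_mk_BigData.toBig (D : twe_mk_BigData L Th) : twe_Big L Th :=
  letI : Module D.B''.T D.ρ.asModule := twe_mk_module D.ρ D.ψ
  haveI : IsScalarTower 𝒪 D.B''.T D.ρ.asModule := twe_mk_tower D.ρ D.ψ
  haveI : SMulCommClass D.B''.T (MonoidAlgebra 𝒪 (twe_Delta p Q × twe_Delta p Th)) D.ρ.asModule :=
    twe_mk_comm D.ρ D.ψ D.comm
  haveI : Module.Free (MonoidAlgebra 𝒪 (twe_Delta p Q × twe_Delta p Th)) D.ρ.asModule :=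
    twe_fm_free_rep D.ρ D.v D.b D.hb
  haveI : Module.Finite (MonoidAlgebra 𝒪 (twe_Delta p Q × twe_Delta p Th)) D.ρ.asModule :=
    twe_fm_finite_rep D.ρ D.v D.b D.hb
  { θ'' := D.θ''
    θ''_eq := D.θ''_eq
    T'' := D.B''.T
    H'' := D.B''.H
    π1 := D.π1
    π1_T := D.π1_T
    Mb := D.ρ.asModule
    c1 := D.c1.comp (D.ρ.asModuleEquiv : D.ρ.asModule →ₗ[𝒪] D.P)
    c1_surjective := D.c1_surjective.comp D.ρ.asModuleEquiv.surjective
    c1_ker := by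
      rw [← twe_mk_aug2 D.ρ, ← D.c1_ker]
      ext m
      rw [LinearMap.mem_ker, Submodule.mem_map]
      constructor
      · intro hm
        exact ⟨D.ρ.asModuleEquiv m, hm, D.ρ.asModuleEquiv.symm_apply_apply m⟩
      · rintro ⟨y, hy, rfl⟩
        rw [LinearMap.comp_apply, LinearEquiv.coe_coe, LinearEquiv.coe_coe,
          LinearEquiv.apply_symm_apply]
        exact hy
    c1_hecke := by
      intro x m
      rw [LinearMap.comp_apply, LinearEquiv.coe_coe, twe_mk_smul, LinearEquiv.apply_symm_apply]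
      exact D.c1_hecke x _
    c1_diamond := by
      intro δ m
      rw [LinearMap.comp_apply, LinearEquiv.coe_coe, LinearMap.comp_apply, LinearEquiv.coe_coe,
        twe_fm_of_smul]
      exact D.c1_diamond δ _ }

theorem twe_mk_toBig_smul (D : twe_mk_BigData L Th) (x : D.toBig.T'') (m : D.toBig.Mb) :
    x • m = D.ρ.asModuleEquiv.symm (D.ψ x (D.ρ.asModuleEquiv m)) :=
  twe_mk_smul D.ρ D.ψ x m

theorem twe_mk_toBig_diaQ (D : twe_mk_BigData L Th) (t : ℕ) (ht : t ∈ Q) (m : D.toBig.Mb) :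
    D.toBig.diaQ t ht m =
      D.ρ.asModuleEquiv.symm (D.ρ (twe_gen p Q t ht, 1) (D.ρ.asModuleEquiv m)) := by
  rw [Representation.asModuleEquiv_symm_map_rho, LinearEquiv.symm_apply_apply]
  rfl

theorem twe_mk_toBig_diaTh (D : twe_mk_BigData L Th) (t : ℕ) (ht : t ∈ Th) (m : D.toBig.Mb) :
    D.toBig.diaTh t ht m =
      D.ρ.asModuleEquiv.symm (D.ρ (1, twe_gen p Th t ht) (D.ρ.asModuleEquiv m)) := by
  rw [Representation.asModuleEquiv_symm_map_rho, LinearEquiv.symm_apply_apply]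
  rfl

end big

end

end Fermat.Agent.TW
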