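/-
Project ONE MACHINE, block [E] AUT, option (H): THE DEFINITIONS (helper3, block architect).
Prefix `twe_`, namespace `Fermat.Agent.TW`.

The automorphic modules of the machine are spaces of PARABOLIC-ELLIPTIC-KILLING characters of
congruence subgroups `Γ_H ≤ Γ₀(M)`, in the general-`Γ` vocabulary of LR/PD (`lrpd_PE`, `lrpd_pull`,
`lrpd_IsCores`, `lrpd_OmS`).

* `twe_dUnit M`        : `Γ₀(M) →* (ZMod M)ˣ`, the lower right entry;
* `twe_GamH' M H`      : `{γ ∈ Γ₀(M) | d_γ ∈ H}` as a (normal) subgroup of `Γ₀(M)`;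
* `twe_GamH M H`       : the same as a subgroup of `SL(2, ℤ)` (`= Γ_H`); `≤ Γ₀(M)`, `≥ Γ(M)`, of finite
                         index, contains `-1` iff `-1 ∈ H`;
* `twe_parEll_mem`     : `γ ∈ Γ₀(M)` with `tr² ≤ 4` lies in `Γ_H` as soon as `H` contains the units of
                         order dividing `12 M` (e.g. `(ZMod M)ˣ / H` a `p`-group, `p ∤ 6 M`):
                         this is "the cover `X_H → X₀(M)` is unramified";
* `twe_conjHom g`      : conjugation `γ ↦ g⁻¹ γ g` of `Γ_H` by `g ∈ Γ₀(M)`;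
* `twe_conj g x`       : the action of `g ∈ Γ₀(M)` on characters of `Γ_H`; trivial for `g ∈ Γ_H`,
                         multiplicative in `g`, preserves `lrpd_PE` (so `Γ₀(M) / Γ_H` acts on
                         `W(Γ_H, A)`);
* `twe_W Γ A`          : the additive group of characters `x : Additive Γ →+ A` with `lrpd_PE Γ x`
                         (`= H¹` of the compact curve `X_Γ` with coefficients in `A`);
* `twe_res`            : restriction `W(Γ, A) → W(Γ', A)` for `Γ' ≤ Γ`.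
-/
import Mathlib
import Fermat.Agent.LR.PD.SLevel

set_option autoImplicit false

open CongruenceSubgroup Matrix.SpecialLinearGroup
open scoped MatrixGroups

namespace Fermat.Agent.TW

open Fermat.Agent.LR

/-! ### The groups `Γ_H` -/

/-- the lower right entry `Γ₀(M) →* (ZMod M)ˣ`. -/
def twe_dUnit (M : ℕ) : Gamma0 M →* (ZMod M)ˣ := (Gamma0Map M).toHomUnits

@[simp] theorem twe_dUnit_coe (M : ℕ) (γ : Gamma0 M) :
    ((twe_dUnit M γ : (ZMod M)ˣ) : ZMod M) = (((γ : SL(2, ℤ)) 1 1 : ℤ) : ZMod M) := rfl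

/-- `{γ ∈ Γ₀(M) | d_γ ∈ H}` as a subgroup of `Γ₀(M)`. -/
def twe_GamH' (M : ℕ) (H : Subgroup (ZMod M)ˣ) : Subgroup (Gamma0 M) := H.comap (twe_dUnit M)

instance twe_GamH'_normal (M : ℕ) (H : Subgroup (ZMod M)ˣ) : (twe_GamH' M H).Normal := by
  unfold twe_GamH'
  infer_instance

/-- **`Γ_H`** `= {γ ∈ Γ₀(M) | d_γ ∈ H}` as a subgroup of `SL(2, ℤ)`. -/
def twe_GamH (M : ℕ) (H : Subgroup (ZMod M)ˣ) : Subgroup SL(2, ℤ) :=
  (twe_GamH' M H).map (Gamma0 M).subtype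

theorem twe_mem_GamH {M : ℕ} {H : Subgroup (ZMod M)ˣ} {γ : SL(2, ℤ)} :
    γ ∈ twe_GamH M H ↔ ∃ h : γ ∈ Gamma0 M, twe_dUnit M ⟨γ, h⟩ ∈ H := by
  constructor
  · rintro ⟨g, hg, rfl⟩
    exact ⟨g.2, hg⟩
  · rintro ⟨h, hH⟩
    exact ⟨⟨γ, h⟩, hH, rfl⟩

theorem twe_GamH_le (M : ℕ) (H : Subgroup (ZMod M)ˣ) : twe_GamH M H ≤ Gamma0 M := by
  intro γ hγ
  exact (twe_mem_GamH.mp hγ).1

theorem twe_GamH_mono {M : ℕ} {H H' : Subgroup (ZMod M)ˣ} (h : H ≤ H') :
    twe_GamH M H ≤ twe_GamH M H' := by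
  intro γ hγ
  obtain ⟨h0, h1⟩ := twe_mem_GamH.mp hγ
  exact twe_mem_GamH.mpr ⟨h0, h h1⟩

theorem twe_GamH_top (M : ℕ) : twe_GamH M ⊤ = Gamma0 M := by
  ext γ
  rw [twe_mem_GamH]
  exact ⟨fun h => h.1, fun h => ⟨h, Subgroup.mem_top _⟩⟩

theorem twe_Gamma_le_GamH (M : ℕ) (H : Subgroup (ZMod M)ˣ) : Gamma M ≤ twe_GamH M H := by
  intro γ hγ
  rw [Gamma_mem] at hγ
  have h0 : γ ∈ Gamma0 M := Gamma0_mem.mpr hγ.2.2.1
  refine twe_mem_GamH.mpr ⟨h0, ?_⟩
  have : twe_dUnit M ⟨γ, h0⟩ = 1 := by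
    apply Units.ext
    rw [twe_dUnit_coe]
    exact hγ.2.2.2
  rw [this]
  exact one_mem H

instance twe_GamH_finiteIndex (M : ℕ) [NeZero M] (H : Subgroup (ZMod M)ˣ) :
    (twe_GamH M H).FiniteIndex :=
  Subgroup.finiteIndex_of_le (twe_Gamma_le_GamH M H)

theorem twe_neg_one_mem {M : ℕ} {H : Subgroup (ZMod M)ˣ} (hH : (-1 : (ZMod M)ˣ) ∈ H) :
    (-1 : SL(2, ℤ)) ∈ twe_GamH M H := by
  have h0 : (-1 : SL(2, ℤ)) ∈ Gamma0 M := by
    rw [Gamma0_mem]
    simp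
  refine twe_mem_GamH.mpr ⟨h0, ?_⟩
  have : twe_dUnit M ⟨-1, h0⟩ = -1 := by
    apply Units.ext
    rw [twe_dUnit_coe]
    simp
  rw [this]
  exact hH

/-! ### Parabolic and elliptic elements of `Γ₀(M)` lie in `Γ_H` -/

/-- `(1 + n)^k = 1 + k n` when `n² = 0`. -/
theorem twe_one_add_pow {R : Type*} [CommRing R] (n : R) (hn : n * n = 0) (k : ℕ) :
    (1 + n) ^ k = 1 + k * n := by
  induction k with
  | zero => simp
  | succ k ih =>
    rw [pow_succ, ih]
    push_cast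
    linear_combination (k : R) * hn

/-- in `ZMod M`: `d² - t d + 1 = 0` with `t² ≤ 4` forces `d ^ (12 M) = 1`. -/
theorem twe_pow_eq_one_of_quad (M : ℕ) (d : ZMod M) (t : ℤ) (ht : t ^ 2 ≤ 4)
    (hd : d * d - (t : ZMod M) * d + 1 = 0) : d ^ (12 * M) = 1 := by
  have hM : ((M : ℕ) : ZMod M) = 0 := ZMod.natCast_self M
  have ht' : t = 0 ∨ t = 1 ∨ t = -1 ∨ t = 2 ∨ t = -2 := by
    have h1 : -2 ≤ t := by nlinarith
    have h2 : t ≤ 2 := by nlinarith
    omega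
  rcases ht' with rfl | rfl | rfl | rfl | rfl
  · -- d² = -1
    have h2 : d ^ 2 = -1 := by
      have : d * d + 1 = 0 := by simpa using hd
      linear_combination this
    have h4 : d ^ 4 = 1 := by
      calc d ^ 4 = (d ^ 2) ^ 2 := by ring
        _ = 1 := by rw [h2]; ring
    calc d ^ (12 * M) = (d ^ 4) ^ (3 * M) := by rw [← pow_mul]; congr 1; ring
      _ = 1 := by rw [h4, one_pow]
  · -- d² = d - 1, d³ = -1
    have h2 : d * d - d + 1 = 0 := by simpa using hd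
    have h3 : d ^ 3 = -1 := by linear_combination (d + 1) * h2
    have h6 : d ^ 6 = 1 := by
      calc d ^ 6 = (d ^ 3) ^ 2 := by ring
        _ = 1 := by rw [h3]; ring
    calc d ^ (12 * M) = (d ^ 6) ^ (2 * M) := by rw [← pow_mul]; congr 1; ring
      _ = 1 := by rw [h6, one_pow]
  · -- d² = -d - 1, d³ = 1
    have h2 : d * d + d + 1 = 0 := by
      have : d * d - ((-1 : ℤ) : ZMod M) * d + 1 = 0 := hd
      push_cast at this
      linear_combination this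
    have h3 : d ^ 3 = 1 := by linear_combination (d - 1) * h2
    calc d ^ (12 * M) = (d ^ 3) ^ (4 * M) := by rw [← pow_mul]; congr 1; ring
      _ = 1 := by rw [h3, one_pow]
  · -- (d - 1)² = 0
    have h2 : (d - 1) * (d - 1) = 0 := by
      have : d * d - ((2 : ℤ) : ZMod M) * d + 1 = 0 := hd
      push_cast at this
      linear_combination this
    have hdM : d ^ M = 1 := by
      have := twe_one_add_pow (d - 1) h2 M
      rw [hM, zero_mul, add_zero] at this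
      rwa [show (1 : ZMod M) + (d - 1) = d by ring] at this
    calc d ^ (12 * M) = (d ^ M) ^ 12 := by rw [← pow_mul]; congr 1; ring
      _ = 1 := by rw [hdM, one_pow]
  · -- (d + 1)² = 0
    have h2 : (d + 1) * (d + 1) = 0 := by
      have : d * d - ((-2 : ℤ) : ZMod M) * d + 1 = 0 := hd
      push_cast at this
      linear_combination this
    have hsq : d ^ 2 = 1 + (-2 * (d + 1)) := by linear_combination h2
    have hn : (-2 * (d + 1)) * (-2 * (d + 1)) = 0 := by linear_combination 4 * h2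
    have hdM : (d ^ 2) ^ M = 1 := by
      rw [hsq, twe_one_add_pow _ hn M, hM, zero_mul, add_zero]
    calc d ^ (12 * M) = ((d ^ 2) ^ M) ^ 6 := by rw [← pow_mul, ← pow_mul]; congr 1; ring
      _ = 1 := by rw [hdM, one_pow]

/-- **The cover `X_H → X₀(M)` is unramified**: an element of `Γ₀(M)` with `tr² ≤ 4` (parabolic,
elliptic or `±1`) lies in `Γ_H`, provided `H` contains every unit of order dividing `12 M`. -/
theorem twe_parEll_mem {M : ℕ} {H : Subgroup (ZMod M)ˣ}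
    (hH : ∀ u : (ZMod M)ˣ, u ^ (12 * M) = 1 → u ∈ H) {γ : SL(2, ℤ)} (hγ : γ ∈ Gamma0 M)
    (htr : lrpd_tr γ ^ 2 ≤ 4) : γ ∈ twe_GamH M H := by
  refine twe_mem_GamH.mpr ⟨hγ, hH _ ?_⟩
  apply Units.ext
  rw [Units.val_pow_eq_pow_val, twe_dUnit_coe, Units.val_one]
  apply twe_pow_eq_one_of_quad M _ (lrpd_tr γ) htr
  have hc : ((γ 1 0 : ℤ) : ZMod M) = 0 := Gamma0_mem.mp hγ
  have hdet : γ 0 0 * γ 1 1 - γ 0 1 * γ 1 0 = 1 := by
    have := γ.det_coe
    rw [Matrix.det_fin_two] at this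
    exact this
  have hdet' : ((γ 0 0 : ℤ) : ZMod M) * ((γ 1 1 : ℤ) : ZMod M) = 1 := by
    have := congrArg (Int.cast : ℤ → ZMod M) hdet
    push_cast at this
    rw [hc, mul_zero, sub_zero] at this
    exact this
  unfold lrpd_tr
  push_cast
  linear_combination (-1 : ZMod M) * hdet'

/-! ### Conjugation by `Γ₀(M)` -/

/-- conjugation `γ ↦ g⁻¹ γ g` of `Γ_H` by `g ∈ Γ₀(M)`. -/
def twe_conjHom {M : ℕ} (H : Subgroup (ZMod M)ˣ) (g : Gamma0 M) :
    ↥(twe_GamH M H) →* ↥(twe_GamH M H) where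
  toFun γ := ⟨(g : SL(2, ℤ))⁻¹ * γ * g, by
    obtain ⟨h0, h1⟩ := twe_mem_GamH.mp γ.2
    have hm : (g : SL(2, ℤ))⁻¹ * γ * g ∈ Gamma0 M :=
      mul_mem (mul_mem (inv_mem g.2) h0) g.2
    refine twe_mem_GamH.mpr ⟨hm, ?_⟩
    have : (⟨(g : SL(2, ℤ))⁻¹ * γ * g, hm⟩ : Gamma0 M) = g⁻¹ * ⟨γ, h0⟩ * g := rfl
    rw [this, map_mul, map_mul, map_inv, mul_comm, ← mul_assoc, mul_inv_cancel, one_mul]
    exact h1⟩
  map_one' := by
    apply Subtype.ext
    simp
  map_mul' a b := by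
    apply Subtype.ext
    simp only [Subgroup.coe_mul]
    group

@[simp] theorem twe_conjHom_coe {M : ℕ} (H : Subgroup (ZMod M)ˣ) (g : Gamma0 M)
    (γ : ↥(twe_GamH M H)) :
    ((twe_conjHom H g γ : ↥(twe_GamH M H)) : SL(2, ℤ)) = (g : SL(2, ℤ))⁻¹ * γ * g := rfl

/-- the action of `g ∈ Γ₀(M)` on the characters of `Γ_H`: `(g • x)(γ) = x (g⁻¹ γ g)`. -/
def twe_conj {M : ℕ} (H : Subgroup (ZMod M)ˣ) {A : Type*} [AddCommGroup A] (g : Gamma0 M)
    (x : Additive ↥(twe_GamH M H) →+ A) : Additive ↥(twe_GamH M H) →+ A :=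
  lrpd_pull (twe_conjHom H g) x

@[simp] theorem twe_conj_apply {M : ℕ} (H : Subgroup (ZMod M)ˣ) {A : Type*} [AddCommGroup A]
    (g : Gamma0 M) (x : Additive ↥(twe_GamH M H) →+ A) (γ : ↥(twe_GamH M H)) :
    twe_conj H g x (Additive.ofMul γ) = x (Additive.ofMul (twe_conjHom H g γ)) := rfl

theorem twe_conj_one {M : ℕ} (H : Subgroup (ZMod M)ˣ) {A : Type*} [AddCommGroup A]
    (x : Additive ↥(twe_GamH M H) →+ A) : twe_conj H 1 x = x := by
  refine AddMonoidHom.ext fun γ => ?_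
  obtain ⟨γ, rfl⟩ := Additive.ofMul.surjective γ
  rw [twe_conj_apply]
  congr 2
  apply Subtype.ext
  simp

theorem twe_conj_mul {M : ℕ} (H : Subgroup (ZMod M)ˣ) {A : Type*} [AddCommGroup A]
    (g h : Gamma0 M) (x : Additive ↥(twe_GamH M H) →+ A) :
    twe_conj H (g * h) x = twe_conj H g (twe_conj H h x) := by
  refine AddMonoidHom.ext fun γ => ?_
  obtain ⟨γ, rfl⟩ := Additive.ofMul.surjective γ
  rw [twe_conj_apply, twe_conj_apply, twe_conj_apply]
  have : twe_conjHom H (g * h) γ = twe_conjHom H h (twe_conjHom H g γ) := by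
    apply Subtype.ext
    rw [twe_conjHom_coe, twe_conjHom_coe, twe_conjHom_coe, Subgroup.coe_mul, mul_inv_rev]
    simp only [mul_assoc]
  rw [this]

/-- inner automorphisms act trivially on characters. -/
theorem twe_conj_of_mem {M : ℕ} (H : Subgroup (ZMod M)ˣ) {A : Type*} [AddCommGroup A]
    (g : Gamma0 M) (hg : (g : SL(2, ℤ)) ∈ twe_GamH M H) (x : Additive ↥(twe_GamH M H) →+ A) :
    twe_conj H g x = x := by
  refine AddMonoidHom.ext fun γ => ?_
  obtain ⟨γ, rfl⟩ := Additive.ofMul.surjective γ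
  rw [twe_conj_apply]
  have : twe_conjHom H g γ = (⟨g, hg⟩ : ↥(twe_GamH M H))⁻¹ * γ * ⟨g, hg⟩ := by
    apply Subtype.ext
    simp
  rw [this, ofMul_mul, ofMul_mul, ofMul_inv, map_add, map_add, map_neg]
  abel

theorem twe_conj_add {M : ℕ} (H : Subgroup (ZMod M)ˣ) {A : Type*} [AddCommGroup A]
    (g : Gamma0 M) (x y : Additive ↥(twe_GamH M H) →+ A) :
    twe_conj H g (x + y) = twe_conj H g x + twe_conj H g y := rfl

/-- conjugation preserves the parabolic-elliptic-killing characters. -/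
theorem twe_conj_PE {M : ℕ} (H : Subgroup (ZMod M)ˣ) {A : Type*} [AddCommGroup A]
    (g : Gamma0 M) {x : Additive ↥(twe_GamH M H) →+ A} (hx : lrpd_PE (twe_GamH M H) x) :
    lrpd_PE (twe_GamH M H) (twe_conj H g x) := by
  intro γ hγ
  rw [twe_conj_apply]
  apply hx
  rw [twe_conjHom_coe]
  have h1 : lrpd_tr ((g : SL(2, ℤ))⁻¹ * γ * g) = lrpd_tr (γ : SL(2, ℤ)) := by
    unfold lrpd_tr
    have hg : (g : SL(2, ℤ)) 0 0 * (g : SL(2, ℤ)) 1 1 - (g : SL(2, ℤ)) 0 1 * (g : SL(2, ℤ)) 1 0 = 1 := by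
      have := (g : SL(2, ℤ)).det_coe
      rw [Matrix.det_fin_two] at this
      exact this
    simp only [Matrix.SpecialLinearGroup.coe_mul, Matrix.SpecialLinearGroup.SL2_inv_expl,
      Matrix.mul_apply, Fin.sum_univ_two, Matrix.cons_val', Matrix.cons_val_zero,
      Matrix.cons_val_one, Matrix.empty_val', Matrix.cons_val_fin_one]
    linear_combination ((γ : SL(2, ℤ)) 0 0 + (γ : SL(2, ℤ)) 1 1) * hg
  rw [h1]
  exact hγ

/-! ### The modules `W(Γ, A)` -/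

/-- **`W(Γ, A)`**: the characters of `Γ` with values in `A` killing the elements with `tr² ≤ 4`. -/
def twe_W (Γ : Subgroup SL(2, ℤ)) (A : Type*) [AddCommGroup A] :
    AddSubgroup (Additive Γ →+ A) where
  carrier := {x | lrpd_PE Γ x}
  zero_mem' := fun _ _ => rfl
  add_mem' {x y} hx hy := fun γ hγ => by
    rw [AddMonoidHom.add_apply, hx γ hγ, hy γ hγ, add_zero]
  neg_mem' {x} hx := fun γ hγ => by
    rw [AddMonoidHom.neg_apply, hx γ hγ, neg_zero]

@[simp] theorem twe_mem_W {Γ : Subgroup SL(2, ℤ)} {A : Type*} [AddCommGroup A]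
    {x : Additive Γ →+ A} : x ∈ twe_W Γ A ↔ lrpd_PE Γ x := Iff.rfl

/-- restriction of characters to a subgroup preserves `lrpd_PE`. -/
theorem twe_res_PE {Γ Γ' : Subgroup SL(2, ℤ)} (hle : Γ' ≤ Γ) {A : Type*} [AddCommGroup A]
    {x : Additive Γ →+ A} (hx : lrpd_PE Γ x) :
    lrpd_PE Γ' (lrpd_pull (Subgroup.inclusion hle) x) := by
  intro γ hγ
  rw [lrpd_pull_apply]
  exact hx (Subgroup.inclusion hle γ) hγ

/-- **restriction** `W(Γ, A) → W(Γ', A)` for `Γ' ≤ Γ`. -/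
def twe_res {Γ Γ' : Subgroup SL(2, ℤ)} (hle : Γ' ≤ Γ) (A : Type*) [AddCommGroup A] :
    twe_W Γ A →+ twe_W Γ' A where
  toFun x := ⟨lrpd_pull (Subgroup.inclusion hle) x.1, twe_res_PE hle x.2⟩
  map_zero' := rfl
  map_add' _ _ := rfl

@[simp] theorem twe_res_apply {Γ Γ' : Subgroup SL(2, ℤ)} (hle : Γ' ≤ Γ) (A : Type*)
    [AddCommGroup A] (x : twe_W Γ A) (γ : Γ') :
    (twe_res hle A x).1 (Additive.ofMul γ) = x.1 (Additive.ofMul (Subgroup.inclusion hle γ)) :=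
  rfl

/-- a character of `Γ₀(M)` trivial on `Γ_H` (i.e. a character of `Δ = Γ₀(M)/Γ_H`) kills the
parabolic and elliptic elements, when the cover is unramified: `Hom(Δ, A) ⊆ W(Γ₀(M), A)`. -/
theorem twe_PE_of_trivial_on_GamH {M : ℕ} {H : Subgroup (ZMod M)ˣ}
    (hH : ∀ u : (ZMod M)ˣ, u ^ (12 * M) = 1 → u ∈ H) {A : Type*} [AddCommGroup A]
    (x : Additive ↥(Gamma0 M) →+ A)
    (hx : ∀ γ : Gamma0 M, (γ : SL(2, ℤ)) ∈ twe_GamH M H → x (Additive.ofMul γ) = 0) :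
    lrpd_PE (Gamma0 M) x :=
  fun γ hγ => hx γ (twe_parEll_mem hH γ.2 hγ)

end Fermat.Agent.TW
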