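/-
Project ONE MACHINE, block [E] AUT, option (H), cell E/Hecke, part 1 (helper22).
Prefix `twe_hk_`, namespace `Fermat.Agent.TW`.

The FIXED-DETERMINANT Hecke operator `T'_ℓ` on `Hom(Γ_H, A)` (`ℓ ∤ M` prime, `Γ_H ≤ Γ₀(M)`).

`heckeRep ℓ x · γ = c_x(γ) · heckeRep ℓ (x ⋆ γ)` (`t2c_coc`) gives, on lower right entries mod `M`,
`d(c_x(γ)) = e(x) · d(γ) · e(x ⋆ γ)⁻¹` with `e(∞) = 1`, `e(j) = ℓ`.  For `s ∈ Γ₀(M)` with
`d(s)² ≡ ℓ` modulo `H` put `s_∞ = s⁻¹`, `s_j = s` and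

  `c'_x(γ) := s_x⁻¹ · c_x(γ) · s_{x ⋆ γ}`      (`twe_hk_coc`),

a cocycle on ALL of `Γ₀(M)` (for the action `t2c_act` on `ℙ¹(𝔽_ℓ)`) with

  (C)  `d(c'_x(γ)) · d(γ)⁻¹ ∈ H`               (`twe_hk_coc_class`),

so `c'` maps `Γ_H` to `Γ_H`; `twe_hk_data` is the resulting `lrt_Data` on `Γ_H` and
`twe_hk_T := lrt_T` of it:   `(T' z)(γ) = ∑_x z (c'_x(γ))`.
-/
import Mathlib
import Fermat.Agent.TW.Aut.Defs
import Fermat.Agent.JT3.T2.ParEll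
import Fermat.Agent.LR.MTX.Transfer

set_option autoImplicit false

noncomputable section

open CongruenceSubgroup Matrix.SpecialLinearGroup
open P2MW.S_ModularForm_heckeT_slash_eq_self_of_mem_Gamma0.ModularForm.HeckeSlashInvariance
open P2MW.S_ModularForm_heckeT_slash_eq_self_of_mem_Gamma0.ModularForm
open scoped MatrixGroups OnePoint

namespace Fermat.Agent.TW

open Fermat.Agent.JT3 Fermat.Agent.LR

variable {M ℓ : ℕ} [Fact ℓ.Prime]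

/-! ### The lower row of `heckeRep` -/

/-- the lower right entry of `heckeRep ℓ x`: `1` at `∞`, `ℓ` at the finite points. -/
def twe_hk_e (ℓ : ℕ) (x : OnePoint (ZMod ℓ)) : ℕ := x.elim 1 (fun _ => ℓ)

/-- the upper right entry of `heckeRep ℓ x`: `0` at `∞`, `j.val` at `j`. -/
def twe_hk_b (ℓ : ℕ) (x : OnePoint (ZMod ℓ)) : ℕ := x.elim 0 (fun j => j.val)

theorem twe_hk_rep_10 (x : OnePoint (ZMod ℓ)) :
    ((heckeRep ℓ x : GL (Fin 2) ℝ) : Matrix (Fin 2) (Fin 2) ℝ) 1 0 = 0 := by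
  have hℓ : ℓ ≠ 0 := (Fact.out : ℓ.Prime).ne_zero
  induction x using OnePoint.rec with
  | infty => rw [heckeRep_infty, ModularForm.val_heckeDiagMatrix hℓ]; simp
  | coe j => rw [heckeRep_coe, ModularForm.val_heckeMatrix hℓ]; simp

theorem twe_hk_rep_11 (x : OnePoint (ZMod ℓ)) :
    ((heckeRep ℓ x : GL (Fin 2) ℝ) : Matrix (Fin 2) (Fin 2) ℝ) 1 1 = (twe_hk_e ℓ x : ℝ) := by
  have hℓ : ℓ ≠ 0 := (Fact.out : ℓ.Prime).ne_zero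
  induction x using OnePoint.rec with
  | infty => rw [heckeRep_infty, ModularForm.val_heckeDiagMatrix hℓ]; simp [twe_hk_e]
  | coe j => rw [heckeRep_coe, ModularForm.val_heckeMatrix hℓ]; simp [twe_hk_e]

theorem twe_hk_rep_01 (x : OnePoint (ZMod ℓ)) :
    ((heckeRep ℓ x : GL (Fin 2) ℝ) : Matrix (Fin 2) (Fin 2) ℝ) 0 1 = (twe_hk_b ℓ x : ℝ) := by
  have hℓ : ℓ ≠ 0 := (Fact.out : ℓ.Prime).ne_zero
  induction x using OnePoint.rec with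
  | infty => rw [heckeRep_infty, ModularForm.val_heckeDiagMatrix hℓ]; simp [twe_hk_b]
  | coe j => rw [heckeRep_coe, ModularForm.val_heckeMatrix hℓ]; simp [twe_hk_b]

/-- the integer identity behind `d(c_x(γ)) e(x ⋆ γ) = e(x) d(γ)`. -/
theorem twe_hk_int_coc (hℓM : ¬ ℓ ∣ M) (x : OnePoint (ZMod ℓ)) (γ : Gamma0 M) :
    (twe_hk_e ℓ x : ℤ) * (γ : SL(2, ℤ)) 1 1 =
      ((t2c_coc hℓM x γ : Gamma0 M) : SL(2, ℤ)) 1 0 * (twe_hk_b ℓ (t2c_act (γ : SL(2, ℤ)) x) : ℤ) +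
        ((t2c_coc hℓM x γ : Gamma0 M) : SL(2, ℤ)) 1 1 *
          (twe_hk_e ℓ (t2c_act (γ : SL(2, ℤ)) x) : ℤ) := by
  have h := t2c_coc_spec hℓM x γ
  have h2 := congrArg (fun g : GL (Fin 2) ℝ => (g : Matrix (Fin 2) (Fin 2) ℝ) 1 1) h
  simp only [Units.val_mul, Matrix.mul_apply, Fin.sum_univ_two] at h2
  rw [twe_hk_rep_10, twe_hk_rep_11, twe_hk_rep_01, twe_hk_rep_11] at h2
  simp only [mapGL_apply] at h2
  have h3 : (((twe_hk_e ℓ x : ℤ) * (γ : SL(2, ℤ)) 1 1 : ℤ) : ℝ) =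
      ((((t2c_coc hℓM x γ : Gamma0 M) : SL(2, ℤ)) 1 0 *
          (twe_hk_b ℓ (t2c_act (γ : SL(2, ℤ)) x) : ℤ) +
        ((t2c_coc hℓM x γ : Gamma0 M) : SL(2, ℤ)) 1 1 *
          (twe_hk_e ℓ (t2c_act (γ : SL(2, ℤ)) x) : ℤ) : ℤ) : ℝ) := by
    push_cast
    linear_combination h2
  exact_mod_cast h3

/-! ### In the unit group of `ZMod M` -/

theorem twe_hk_coprime (hℓM : ¬ ℓ ∣ M) : Nat.Coprime ℓ M :=
  (Nat.Prime.coprime_iff_not_dvd Fact.out).mpr hℓM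

/-- `ℓ` as a unit of `ZMod M`. -/
def twe_hk_lU (hℓM : ¬ ℓ ∣ M) : (ZMod M)ˣ := ZMod.unitOfCoprime ℓ (twe_hk_coprime hℓM)

/-- `e(x)` as a unit of `ZMod M`. -/
def twe_hk_eU (hℓM : ¬ ℓ ∣ M) (x : OnePoint (ZMod ℓ)) : (ZMod M)ˣ :=
  x.elim 1 (fun _ => twe_hk_lU hℓM)

theorem twe_hk_eU_coe (hℓM : ¬ ℓ ∣ M) (x : OnePoint (ZMod ℓ)) :
    ((twe_hk_eU hℓM x : (ZMod M)ˣ) : ZMod M) = ((twe_hk_e ℓ x : ℕ) : ZMod M) := by
  induction x using OnePoint.rec with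
  | infty => simp [twe_hk_eU, twe_hk_e]
  | coe j => simp [twe_hk_eU, twe_hk_e, twe_hk_lU]

/-- `d(c_x(γ)) = e(x) d(γ) e(x ⋆ γ)⁻¹` in `(ZMod M)ˣ`. -/
theorem twe_hk_dUnit_coc (hℓM : ¬ ℓ ∣ M) (x : OnePoint (ZMod ℓ)) (γ : Gamma0 M) :
    twe_dUnit M (t2c_coc hℓM x γ) =
      twe_hk_eU hℓM x * twe_dUnit M γ * (twe_hk_eU hℓM (t2c_act (γ : SL(2, ℤ)) x))⁻¹ := by
  rw [eq_mul_inv_iff_mul_eq]
  apply Units.ext
  rw [Units.val_mul, Units.val_mul, twe_dUnit_coe, twe_dUnit_coe, twe_hk_eU_coe, twe_hk_eU_coe]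
  have h := congrArg (Int.cast : ℤ → ZMod M) (twe_hk_int_coc hℓM x γ)
  have hc : ((((t2c_coc hℓM x γ : Gamma0 M) : SL(2, ℤ)) 1 0 : ℤ) : ZMod M) = 0 :=
    Gamma0_mem.mp (t2c_coc hℓM x γ).2
  push_cast at h
  rw [hc, zero_mul, zero_add] at h
  exact h.symm

/-! ### The corrected cocycle -/

/-- `s_∞ = s⁻¹`, `s_j = s`. -/
def twe_hk_sx (s : Gamma0 M) (x : OnePoint (ZMod ℓ)) : Gamma0 M := x.elim s⁻¹ (fun _ => s)

/-- **the corrected cocycle** `c'_x(γ) = s_x⁻¹ c_x(γ) s_{x ⋆ γ}` on `Γ₀(M)`. -/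
def twe_hk_coc (hℓM : ¬ ℓ ∣ M) (s : Gamma0 M) (x : OnePoint (ZMod ℓ)) (γ : Gamma0 M) : Gamma0 M :=
  (twe_hk_sx s x)⁻¹ * t2c_coc hℓM x γ * twe_hk_sx s (t2c_act (γ : SL(2, ℤ)) x)

theorem twe_hk_coc_one (hℓM : ¬ ℓ ∣ M) (s : Gamma0 M) (x : OnePoint (ZMod ℓ)) :
    twe_hk_coc hℓM s x 1 = 1 := by
  unfold twe_hk_coc
  rw [t2c_coc_one, Subgroup.coe_one, t2c_act_one, mul_one, inv_mul_cancel]

theorem twe_hk_coc_mul (hℓM : ¬ ℓ ∣ M) (s : Gamma0 M) (x : OnePoint (ZMod ℓ)) (γ γ' : Gamma0 M) :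
    twe_hk_coc hℓM s x (γ * γ') =
      twe_hk_coc hℓM s x γ * twe_hk_coc hℓM s (t2c_act (γ : SL(2, ℤ)) x) γ' := by
  unfold twe_hk_coc
  rw [t2c_coc_mul, Subgroup.coe_mul, t2c_act_mul]
  group

/-- `f(x) = d(s_x)⁻¹ e(x)`: then `d(c'_x(γ)) = f(x) d(γ) f(x ⋆ γ)⁻¹`. -/
def twe_hk_f (hℓM : ¬ ℓ ∣ M) (s : Gamma0 M) (x : OnePoint (ZMod ℓ)) : (ZMod M)ˣ :=
  (twe_dUnit M (twe_hk_sx s x))⁻¹ * twe_hk_eU hℓM x

theorem twe_hk_dUnit_coc' (hℓM : ¬ ℓ ∣ M) (s : Gamma0 M) (x : OnePoint (ZMod ℓ)) (γ : Gamma0 M) :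
    twe_dUnit M (twe_hk_coc hℓM s x γ) =
      twe_hk_f hℓM s x * twe_dUnit M γ * (twe_hk_f hℓM s (t2c_act (γ : SL(2, ℤ)) x))⁻¹ := by
  unfold twe_hk_coc twe_hk_f
  rw [map_mul, map_mul, map_inv, twe_hk_dUnit_coc, mul_inv_rev, inv_inv]
  simp only [mul_assoc, mul_comm, mul_left_comm]

/-- `f(x) f(y)⁻¹ ∈ H` when `d(s)² ℓ⁻¹ ∈ H`. -/
theorem twe_hk_f_div_mem (hℓM : ¬ ℓ ∣ M) {H : Subgroup (ZMod M)ˣ} (s : Gamma0 M)
    (hs : twe_dUnit M s * twe_dUnit M s * (twe_hk_lU hℓM)⁻¹ ∈ H) (x y : OnePoint (ZMod ℓ)) :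
    twe_hk_f hℓM s x * (twe_hk_f hℓM s y)⁻¹ ∈ H := by
  induction x using OnePoint.rec with
  | infty =>
    induction y using OnePoint.rec with
    | infty => rw [mul_inv_cancel]; exact one_mem H
    | coe j =>
      have : twe_hk_f hℓM s (∞ : OnePoint (ZMod ℓ)) * (twe_hk_f hℓM s (j : OnePoint (ZMod ℓ)))⁻¹ =
          twe_dUnit M s * twe_dUnit M s * (twe_hk_lU hℓM)⁻¹ := by
        simp only [twe_hk_f, twe_hk_sx, twe_hk_eU, OnePoint.elim_infty, OnePoint.elim_some, map_inv,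
          inv_inv, mul_one, mul_inv_rev]
        simp only [mul_assoc, mul_comm, mul_left_comm]
      rw [this]
      exact hs
  | coe i =>
    induction y using OnePoint.rec with
    | infty =>
      have : twe_hk_f hℓM s (i : OnePoint (ZMod ℓ)) * (twe_hk_f hℓM s (∞ : OnePoint (ZMod ℓ)))⁻¹ =
          (twe_dUnit M s * twe_dUnit M s * (twe_hk_lU hℓM)⁻¹)⁻¹ := by
        simp only [twe_hk_f, twe_hk_sx, twe_hk_eU, OnePoint.elim_infty, OnePoint.elim_some, map_inv,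
          inv_inv, mul_one, mul_inv_rev]
        simp only [mul_assoc, mul_comm, mul_left_comm]
      rw [this]
      exact inv_mem hs
    | coe j =>
      have : twe_hk_f hℓM s (i : OnePoint (ZMod ℓ)) * (twe_hk_f hℓM s (j : OnePoint (ZMod ℓ)))⁻¹ =
          1 := by
        simp only [twe_hk_f, twe_hk_sx, twe_hk_eU, OnePoint.elim_some]
        rw [mul_inv_cancel]
      rw [this]
      exact one_mem H

/-- **(C)**: `c'_x(γ)` has the class of `γ` in `Δ = (ZMod M)ˣ / H`, for every `γ ∈ Γ₀(M)`. -/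
theorem twe_hk_coc_class (hℓM : ¬ ℓ ∣ M) {H : Subgroup (ZMod M)ˣ} (s : Gamma0 M)
    (hs : twe_dUnit M s * twe_dUnit M s * (twe_hk_lU hℓM)⁻¹ ∈ H) (x : OnePoint (ZMod ℓ))
    (γ : Gamma0 M) :
    twe_dUnit M (twe_hk_coc hℓM s x γ) * (twe_dUnit M γ)⁻¹ ∈ H := by
  rw [twe_hk_dUnit_coc']
  have : twe_hk_f hℓM s x * twe_dUnit M γ * (twe_hk_f hℓM s (t2c_act (γ : SL(2, ℤ)) x))⁻¹ *
      (twe_dUnit M γ)⁻¹ =
      twe_hk_f hℓM s x * (twe_hk_f hℓM s (t2c_act (γ : SL(2, ℤ)) x))⁻¹ := by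
    rw [mul_assoc (twe_hk_f hℓM s x), mul_comm (twe_dUnit M γ), ← mul_assoc, mul_assoc,
      mul_inv_cancel, mul_one]
  rw [this]
  exact twe_hk_f_div_mem hℓM s hs _ _

/-- `c'_x` maps `Γ_H` to `Γ_H`. -/
theorem twe_hk_coc_mem (hℓM : ¬ ℓ ∣ M) {H : Subgroup (ZMod M)ˣ} (s : Gamma0 M)
    (hs : twe_dUnit M s * twe_dUnit M s * (twe_hk_lU hℓM)⁻¹ ∈ H) (x : OnePoint (ZMod ℓ))
    (γ : Gamma0 M) (hγ : (γ : SL(2, ℤ)) ∈ twe_GamH M H) :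
    ((twe_hk_coc hℓM s x γ : Gamma0 M) : SL(2, ℤ)) ∈ twe_GamH M H := by
  obtain ⟨h0, h1⟩ := twe_mem_GamH.mp hγ
  refine twe_mem_GamH.mpr ⟨(twe_hk_coc hℓM s x γ).2, ?_⟩
  have h2 := twe_hk_coc_class hℓM s hs x γ
  have h3 : twe_dUnit M (twe_hk_coc hℓM s x γ) =
      twe_dUnit M (twe_hk_coc hℓM s x γ) * (twe_dUnit M γ)⁻¹ * twe_dUnit M γ := by
    rw [inv_mul_cancel_right]
  have h4 : (⟨((twe_hk_coc hℓM s x γ : Gamma0 M) : SL(2, ℤ)), (twe_hk_coc hℓM s x γ).2⟩ : Gamma0 M) =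
      twe_hk_coc hℓM s x γ := rfl
  rw [h4, h3]
  exact mul_mem h2 h1

/-- `c'_x(g) ∈ g · Γ_H` for every `g ∈ Γ₀(M)`. -/
theorem twe_hk_inv_mul_coc_mem (hℓM : ¬ ℓ ∣ M) {H : Subgroup (ZMod M)ˣ} (s : Gamma0 M)
    (hs : twe_dUnit M s * twe_dUnit M s * (twe_hk_lU hℓM)⁻¹ ∈ H) (x : OnePoint (ZMod ℓ))
    (g : Gamma0 M) :
    ((g⁻¹ * twe_hk_coc hℓM s x g : Gamma0 M) : SL(2, ℤ)) ∈ twe_GamH M H := by
  refine twe_mem_GamH.mpr ⟨(g⁻¹ * twe_hk_coc hℓM s x g).2, ?_⟩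
  have h4 : (⟨((g⁻¹ * twe_hk_coc hℓM s x g : Gamma0 M) : SL(2, ℤ)),
      (g⁻¹ * twe_hk_coc hℓM s x g).2⟩ : Gamma0 M) = g⁻¹ * twe_hk_coc hℓM s x g := rfl
  rw [h4, map_mul, map_inv, mul_comm]
  exact twe_hk_coc_class hℓM s hs x g

/-! ### The `lrt_Data` on `Γ_H` and the operator `T'` -/

/-- the inclusion `Γ_H → Γ₀(M)`. -/
def twe_hk_up (H : Subgroup (ZMod M)ˣ) : ↥(twe_GamH M H) →* Gamma0 M :=
  Subgroup.inclusion (twe_GamH_le M H)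

@[simp] theorem twe_hk_up_coe (H : Subgroup (ZMod M)ˣ) (γ : ↥(twe_GamH M H)) :
    ((twe_hk_up H γ : Gamma0 M) : SL(2, ℤ)) = (γ : SL(2, ℤ)) := rfl

/-- the Hecke datum at `ℓ` on `Γ_H`: the action on `ℙ¹(𝔽_ℓ)` and the corrected cocycle. -/
def twe_hk_data (hℓM : ¬ ℓ ∣ M) (H : Subgroup (ZMod M)ˣ) (s : Gamma0 M)
    (hs : twe_dUnit M s * twe_dUnit M s * (twe_hk_lU hℓM)⁻¹ ∈ H) :
    lrt_Data ↥(twe_GamH M H) (OnePoint (ZMod ℓ)) where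
  act γ x := t2c_act (γ : SL(2, ℤ)) x
  act_one x := by rw [Subgroup.coe_one, t2c_act_one]
  act_mul g h x := by rw [Subgroup.coe_mul, t2c_act_mul]
  coc x γ := ⟨((twe_hk_coc hℓM s x (twe_hk_up H γ) : Gamma0 M) : SL(2, ℤ)),
    twe_hk_coc_mem hℓM s hs x (twe_hk_up H γ) γ.2⟩
  coc_one x := by
    apply Subtype.ext
    show ((twe_hk_coc hℓM s x (twe_hk_up H 1) : Gamma0 M) : SL(2, ℤ)) = 1
    rw [map_one, twe_hk_coc_one]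
    rfl
  coc_mul x g h := by
    apply Subtype.ext
    show ((twe_hk_coc hℓM s x (twe_hk_up H (g * h)) : Gamma0 M) : SL(2, ℤ)) =
      ((twe_hk_coc hℓM s x (twe_hk_up H g) : Gamma0 M) : SL(2, ℤ)) *
        ((twe_hk_coc hℓM s (t2c_act (g : SL(2, ℤ)) x) (twe_hk_up H h) : Gamma0 M) : SL(2, ℤ))
    rw [map_mul, twe_hk_coc_mul]
    rfl

variable {A : Type*} [AddCommGroup A]

/-- **the fixed-determinant Hecke operator `T'_ℓ`** on `Hom(Γ_H, A)`. -/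
def twe_hk_T (hℓM : ¬ ℓ ∣ M) (H : Subgroup (ZMod M)ˣ) (s : Gamma0 M)
    (hs : twe_dUnit M s * twe_dUnit M s * (twe_hk_lU hℓM)⁻¹ ∈ H) :
    (Additive ↥(twe_GamH M H) →+ A) →+ (Additive ↥(twe_GamH M H) →+ A) where
  toFun z := lrt_T (twe_hk_data hℓM H s hs) z
  map_zero' := by
    refine lrt_ext fun g => ?_
    rw [lrt_T_ev]
    simp [lrt_ev]
  map_add' z z' := by
    refine lrt_ext fun g => ?_
    show lrt_ev (lrt_T (twe_hk_data hℓM H s hs) (z + z')) g =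
      lrt_ev (lrt_T (twe_hk_data hℓM H s hs) z) g + lrt_ev (lrt_T (twe_hk_data hℓM H s hs) z') g
    rw [lrt_T_ev, lrt_T_ev, lrt_T_ev]
    simp only [lrt_ev, AddMonoidHom.add_apply, Finset.sum_add_distrib]

theorem twe_hk_T_apply (hℓM : ¬ ℓ ∣ M) (H : Subgroup (ZMod M)ˣ) (s : Gamma0 M)
    (hs : twe_dUnit M s * twe_dUnit M s * (twe_hk_lU hℓM)⁻¹ ∈ H)
    (z : Additive ↥(twe_GamH M H) →+ A) (γ : ↥(twe_GamH M H)) :
    twe_hk_T hℓM H s hs z (Additive.ofMul γ) =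
      ∑ x : OnePoint (ZMod ℓ), z (Additive.ofMul ((twe_hk_data hℓM H s hs).coc x γ)) := by
  show lrt_ev (lrt_T (twe_hk_data hℓM H s hs) z) γ = _
  rw [lrt_T_ev]
  rfl

/-- naturality in the coefficients. -/
theorem twe_hk_T_comp {A' : Type*} [AddCommGroup A'] (hℓM : ¬ ℓ ∣ M) (H : Subgroup (ZMod M)ˣ)
    (s : Gamma0 M) (hs : twe_dUnit M s * twe_dUnit M s * (twe_hk_lU hℓM)⁻¹ ∈ H) (φ : A →+ A')
    (z : Additive ↥(twe_GamH M H) →+ A) :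
    twe_hk_T hℓM H s hs (φ.comp z) = φ.comp (twe_hk_T hℓM H s hs z) := by
  refine AddMonoidHom.ext fun γ => ?_
  obtain ⟨γ, rfl⟩ := Additive.ofMul.surjective γ
  rw [AddMonoidHom.comp_apply, twe_hk_T_apply, twe_hk_T_apply, map_sum]
  rfl

end Fermat.Agent.TW
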