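/-
Project ONE MACHINE, block [E] AUT, cell E/Hecke, part 2 (helper22): THE FIXED-DETERMINANT HECKE
OPERATOR `T'_ℓ` PRESERVES THE PARABOLIC-ELLIPTIC-KILLING CHARACTERS, so it acts on `W(Γ_H, A)`.
Prefix `twe_hk_`, namespace `Fermat.Agent.TW`.

* `twe_hk_ev_coc_pow` : for any `lrt_Data`, the cocycle along the powers of an element is the sum over
  the orbit;
* `twe_hk_tr_coc`     : at a fixed point `x ⋆ γ = x` the corrected cocycle `c'_x(γ)` is conjugate to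
  `γ` (same trace);
* `twe_hk_T_PE`       : `lrpd_PE Γ_H z → lrpd_PE Γ_H (T' z)`;
* `twe_hk_TW`         : `T'` as an endomorphism of `twe_W (twe_GamH M H) A`.
-/
import Mathlib
import Fermat.Agent.TW.Aut.HeckeDef
import Fermat.Agent.LR.MTX.Homology

set_option autoImplicit false

noncomputable section

open CongruenceSubgroup Matrix.SpecialLinearGroup
open scoped MatrixGroups OnePoint

namespace Fermat.Agent.TW

open Fermat.Agent.JT3 Fermat.Agent.LR

variable {M ℓ : ℕ} [Fact ℓ.Prime]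

/-- the cocycle of an `lrt_Data` along the powers of an element. -/
theorem twe_hk_ev_coc_pow {G X A : Type*} [Group G] [AddCommGroup A] (D : lrt_Data G X)
    (χ : Additive G →+ A) (x : X) (g : G) (n : ℕ) :
    lrt_ev χ (D.coc x (g ^ n)) =
      ∑ i ∈ Finset.range n, lrt_ev χ (D.coc (((lrt_perm D g) ^ i) x) g) := by
  induction n with
  | zero => simp [D.coc_one, lrt_ev_one]
  | succ n ih =>
    rw [pow_succ, D.coc_mul, lrt_ev_mul, ih, Finset.sum_range_succ, lrh_perm_pow]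

/-- conjugation preserves the trace. -/
theorem twe_hk_tr_conj (a b : SL(2, ℤ)) : lrpd_tr (a⁻¹ * b * a) = lrpd_tr b := by
  unfold lrpd_tr
  have hg : a 0 0 * a 1 1 - a 0 1 * a 1 0 = 1 := by
    have := a.det_coe
    rw [Matrix.det_fin_two] at this
    exact this
  simp only [Matrix.SpecialLinearGroup.coe_mul, Matrix.SpecialLinearGroup.SL2_inv_expl,
    Matrix.mul_apply, Fin.sum_univ_two, Matrix.cons_val', Matrix.cons_val_zero,
    Matrix.cons_val_one, Matrix.empty_val', Matrix.cons_val_fin_one]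
  linear_combination (b 0 0 + b 1 1) * hg

/-- at a fixed point the corrected cocycle has the trace of the element. -/
theorem twe_hk_tr_coc (hℓM : ¬ ℓ ∣ M) (s : Gamma0 M) (x : OnePoint (ZMod ℓ)) (γ : Gamma0 M)
    (hfix : t2c_act (γ : SL(2, ℤ)) x = x) :
    lrpd_tr ((twe_hk_coc hℓM s x γ : Gamma0 M) : SL(2, ℤ)) = lrpd_tr (γ : SL(2, ℤ)) := by
  unfold twe_hk_coc
  rw [hfix, Subgroup.coe_mul, Subgroup.coe_mul, Subgroup.coe_inv, twe_hk_tr_conj]
  have h := t2e_trace_coc hℓM x γ hfix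
  rw [Matrix.trace_fin_two, Matrix.trace_fin_two] at h
  exact h

variable {A : Type*} [AddCommGroup A]

/-- **`T'_ℓ` preserves the parabolic-elliptic-killing characters of `Γ_H`.** -/
theorem twe_hk_T_PE (hℓM : ¬ ℓ ∣ M) (H : Subgroup (ZMod M)ˣ) (s : Gamma0 M)
    (hs : twe_dUnit M s * twe_dUnit M s * (twe_hk_lU hℓM)⁻¹ ∈ H)
    {z : Additive ↥(twe_GamH M H) →+ A} (hz : lrpd_PE (twe_GamH M H) z) :
    lrpd_PE (twe_GamH M H) (twe_hk_T hℓM H s hs z) := by
  intro γ hγ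
  rw [twe_hk_T_apply]
  refine lrh_sum_eq_zero_of_orbits (lrt_perm (twe_hk_data hℓM H s hs) γ)
    (fun x => z (Additive.ofMul ((twe_hk_data hℓM H s hs).coc x γ))) ?_
  intro x n _ hx
  have h1 := twe_hk_ev_coc_pow (twe_hk_data hℓM H s hs) z x γ n
  simp only [lrt_ev] at h1
  rw [← h1]
  apply hz
  have hfix : t2c_act (((twe_hk_up H (γ ^ n) : Gamma0 M)) : SL(2, ℤ)) x = x := by
    have h2 := hx
    rw [lrh_perm_pow] at h2
    exact h2
  have h3 : lrpd_tr ((((twe_hk_data hℓM H s hs).coc x (γ ^ n) : ↥(twe_GamH M H))) : SL(2, ℤ)) =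
      lrpd_tr (((γ ^ n : ↥(twe_GamH M H))) : SL(2, ℤ)) :=
    twe_hk_tr_coc hℓM s x (twe_hk_up H (γ ^ n)) hfix
  rw [h3, SubgroupClass.coe_pow]
  have h4 := t2e_trace_pow_sq_le (γ : SL(2, ℤ)) (by rw [Matrix.trace_fin_two]; exact hγ) n
  rw [Matrix.trace_fin_two] at h4
  exact h4

/-- **`T'_ℓ` on `W(Γ_H, A)`.** -/
def twe_hk_TW (hℓM : ¬ ℓ ∣ M) (H : Subgroup (ZMod M)ˣ) (s : Gamma0 M)
    (hs : twe_dUnit M s * twe_dUnit M s * (twe_hk_lU hℓM)⁻¹ ∈ H) :
    twe_W (twe_GamH M H) A →+ twe_W (twe_GamH M H) A where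
  toFun z := ⟨twe_hk_T hℓM H s hs z.1, twe_hk_T_PE hℓM H s hs z.2⟩
  map_zero' := by
    apply Subtype.ext
    show twe_hk_T hℓM H s hs (0 : Additive ↥(twe_GamH M H) →+ A) = 0
    rw [map_zero]
  map_add' z z' := by
    apply Subtype.ext
    show twe_hk_T hℓM H s hs (z.1 + z'.1) = twe_hk_T hℓM H s hs z.1 + twe_hk_T hℓM H s hs z'.1
    rw [map_add]

@[simp] theorem twe_hk_TW_coe (hℓM : ¬ ℓ ∣ M) (H : Subgroup (ZMod M)ˣ) (s : Gamma0 M)
    (hs : twe_dUnit M s * twe_dUnit M s * (twe_hk_lU hℓM)⁻¹ ∈ H) (z : twe_W (twe_GamH M H) A) :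
    (twe_hk_TW hℓM H s hs z).1 = twe_hk_T hℓM H s hs z.1 := rfl

end Fermat.Agent.TW
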