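/-
Project ONE MACHINE, block [E] AUT, cell E/HeckeComm (helper26): THE FIXED-DETERMINANT HECKE
OPERATORS `T'_p`, `T'_q` ON `Hom(Γ_H, A)` COMMUTE (`p ≠ q` primes not dividing `M`).
Prefix `twe_hc_`, namespace `Fermat.Agent.TW`.

* `twe_hc_T_indep`      : (i) `T'_ℓ` only depends on the class of `d(s)` modulo `H`;
* `twe_hc_exists_nice`  : (ii) every `s ∈ Γ₀(M)` has a companion `s' ∈ Γ₀(M)` with `d(s') = d(s)` in
                          `(ZMod M)ˣ` and `s' ≡ 1` modulo a given prime `q ∤ M`;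
* `twe_hc_comm_nice`    : (iii) commutation for nice `s` (`≡ 1 mod q`), `t` (`≡ 1 mod p`), through
                          `JT3.t2k_prod_eq` applied to the twisted product systems
                          `β'_y α'_x`, `α'_x β'_y` (`α'_x = s_x⁻¹ α_x`, `β'_y = t_y⁻¹ β_y`);
* **`twe_hc_comm`**     : `T'_p (T'_q z) = T'_q (T'_p z)` for `p ≠ q`, any `s`, `t`;
* `twe_hc_commute`      : for a family of primes with chosen `s`: pairwise commutation.
-/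
import Mathlib
import Fermat.Agent.TW.Aut.HeckeDef
import Fermat.Agent.TW.Aut.HeckePE
import Fermat.Agent.JT3.T2.Comm

set_option autoImplicit false
set_option linter.unusedSectionVars false

noncomputable section

open CongruenceSubgroup Matrix.SpecialLinearGroup
open P2MW.S_ModularForm_heckeT_slash_eq_self_of_mem_Gamma0.ModularForm.HeckeSlashInvariance
open P2MW.S_ModularForm_heckeT_slash_eq_self_of_mem_Gamma0.ModularForm
open scoped MatrixGroups OnePoint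

namespace Fermat.Agent.TW

open Fermat.Agent.JT3 Fermat.Agent.LR

/-! ### (i) independence of `s` -/

section indep

variable {M ℓ : ℕ} [Fact ℓ.Prime] {A : Type*} [AddCommGroup A]

/-- `s_x⁻¹ s'_x ∈ Γ_H` when `d(s) d(s')⁻¹ ∈ H`. -/
theorem twe_hc_k_mem {H : Subgroup (ZMod M)ˣ} (s s' : Gamma0 M)
    (h : twe_dUnit M s * (twe_dUnit M s')⁻¹ ∈ H) (x : OnePoint (ZMod ℓ)) :
    (((twe_hk_sx s x)⁻¹ * twe_hk_sx s' x : Gamma0 M) : SL(2, ℤ)) ∈ twe_GamH M H := by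
  refine twe_mem_GamH.mpr ⟨((twe_hk_sx s x)⁻¹ * twe_hk_sx s' x).2, ?_⟩
  have h4 : (⟨(((twe_hk_sx s x)⁻¹ * twe_hk_sx s' x : Gamma0 M) : SL(2, ℤ)),
      ((twe_hk_sx s x)⁻¹ * twe_hk_sx s' x).2⟩ : Gamma0 M) = (twe_hk_sx s x)⁻¹ * twe_hk_sx s' x := rfl
  rw [h4, map_mul, map_inv]
  induction x using OnePoint.rec with
  | infty =>
    simp only [twe_hk_sx, OnePoint.elim_infty, map_inv, inv_inv]
    exact h
  | coe j =>
    simp only [twe_hk_sx, OnePoint.elim_some]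
    have := inv_mem h
    rwa [mul_inv_rev, inv_inv, mul_comm] at this

/-- **(i)** `T'_ℓ` only depends on the class of `d(s)` modulo `H`. -/
theorem twe_hc_T_indep (hℓM : ¬ ℓ ∣ M) (H : Subgroup (ZMod M)ˣ) (s s' : Gamma0 M)
    (hs : twe_dUnit M s * twe_dUnit M s * (twe_hk_lU hℓM)⁻¹ ∈ H)
    (hs' : twe_dUnit M s' * twe_dUnit M s' * (twe_hk_lU hℓM)⁻¹ ∈ H)
    (h : twe_dUnit M s * (twe_dUnit M s')⁻¹ ∈ H)
    (z : Additive ↥(twe_GamH M H) →+ A) :
    twe_hk_T hℓM H s hs z = twe_hk_T hℓM H s' hs' z := by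
  refine AddMonoidHom.ext fun γ => ?_
  obtain ⟨γ, rfl⟩ := Additive.ofMul.surjective γ
  rw [twe_hk_T_apply, twe_hk_T_apply]
  -- the elements `k_x = s_x⁻¹ s'_x` of `Γ_H`
  set k : OnePoint (ZMod ℓ) → ↥(twe_GamH M H) := fun x =>
    ⟨(((twe_hk_sx s x)⁻¹ * twe_hk_sx s' x : Gamma0 M) : SL(2, ℤ)), twe_hc_k_mem s s' h x⟩ with hk
  have h1 : ∀ y : OnePoint (ZMod ℓ),
      z (Additive.ofMul ((twe_hk_data hℓM H s' hs').coc y γ)) =
        - z (Additive.ofMul (k y)) + z (Additive.ofMul ((twe_hk_data hℓM H s hs).coc y γ)) +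
          z (Additive.ofMul (k (t2c_act ((γ : ↥(twe_GamH M H)) : SL(2, ℤ)) y))) := by
    intro y
    have h2 : (twe_hk_data hℓM H s' hs').coc y γ =
        (k y)⁻¹ * (twe_hk_data hℓM H s hs).coc y γ *
          k (t2c_act ((γ : ↥(twe_GamH M H)) : SL(2, ℤ)) y) := by
      apply Subtype.ext
      show ((twe_hk_coc hℓM s' y (twe_hk_up H γ) : Gamma0 M) : SL(2, ℤ)) =
        ((((twe_hk_sx s y)⁻¹ * twe_hk_sx s' y : Gamma0 M) : SL(2, ℤ)))⁻¹ *
          ((twe_hk_coc hℓM s y (twe_hk_up H γ) : Gamma0 M) : SL(2, ℤ)) *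
          (((twe_hk_sx s (t2c_act ((γ : ↥(twe_GamH M H)) : SL(2, ℤ)) y))⁻¹ *
            twe_hk_sx s' (t2c_act ((γ : ↥(twe_GamH M H)) : SL(2, ℤ)) y) : Gamma0 M) : SL(2, ℤ))
      unfold twe_hk_coc
      simp only [Subgroup.coe_mul, Subgroup.coe_inv, twe_hk_up_coe]
      group
    rw [h2, ofMul_mul, ofMul_mul, ofMul_inv, map_add, map_add, map_neg]
  simp only [h1]
  rw [Finset.sum_add_distrib, Finset.sum_add_distrib, Finset.sum_neg_distrib]
  have h3 := Equiv.sum_comp (t2c_perm ((γ : ↥(twe_GamH M H)) : SL(2, ℤ)))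
    (fun y : OnePoint (ZMod ℓ) => z (Additive.ofMul (k y)))
  simp only [t2c_perm_apply] at h3
  rw [h3]
  abel

end indep

/-! ### (ii) nice representatives -/

section nice

variable {M q : ℕ} [Fact q.Prime]

/-- `g ≡ 1` modulo `q` (in the form used by the action on `ℙ¹(𝔽_q)`). -/
def twe_hc_Nice (q : ℕ) [Fact q.Prime] (g : SL(2, ℤ)) : Prop := redMatrix q g = 1

theorem twe_hc_nice_act {g : SL(2, ℤ)} (hg : twe_hc_Nice q g) (y : OnePoint (ZMod q)) :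
    t2c_act g y = y := by
  rw [t2c_act, hg, one_smul]

theorem twe_hc_nice_inv {g : SL(2, ℤ)} (hg : twe_hc_Nice q g) : twe_hc_Nice q g⁻¹ := by
  have h := t2c_redMatrix_mul (p := q) g g⁻¹
  rw [mul_inv_cancel, t2c_redMatrix_one, hg, mul_one] at h
  exact h.symm

theorem twe_hc_nice_sx {s : Gamma0 M} (hs : twe_hc_Nice q (s : SL(2, ℤ))) {ℓ : ℕ}
    (x : OnePoint (ZMod ℓ)) : twe_hc_Nice q ((twe_hk_sx s x : Gamma0 M) : SL(2, ℤ)) := by
  induction x using OnePoint.rec with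
  | infty =>
    simp only [twe_hk_sx, OnePoint.elim_infty, Subgroup.coe_inv]
    exact twe_hc_nice_inv hs
  | coe j =>
    simp only [twe_hk_sx, OnePoint.elim_some]
    exact hs

/-- **(ii)** a companion of `s` with the same lower right entry modulo `M` which is `≡ 1` modulo
the prime `q ∤ M`. -/
theorem twe_hc_exists_nice (hqM : ¬ q ∣ M) (s : Gamma0 M) :
    ∃ s' : Gamma0 M, twe_dUnit M s' = twe_dUnit M s ∧ twe_hc_Nice q (s' : SL(2, ℤ)) := by
  have hq : q.Prime := Fact.out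
  have hcop : IsCoprime (M : ℤ) (q : ℤ) := by
    have : Nat.Coprime M q := ((Nat.Prime.coprime_iff_not_dvd hq).mpr hqM).symm
    exact Nat.isCoprime_iff_coprime.mpr this
  obtain ⟨u, v, huv⟩ := hcop
  -- entries of `s`
  set a₀ : ℤ := (s : SL(2, ℤ)) 0 0 with ha₀
  set b₀ : ℤ := (s : SL(2, ℤ)) 0 1 with hb₀
  set c₀ : ℤ := (s : SL(2, ℤ)) 1 0 with hc₀
  set d₀ : ℤ := (s : SL(2, ℤ)) 1 1 with hd₀
  have hdet : a₀ * d₀ - b₀ * c₀ = 1 := det_eq (s : SL(2, ℤ))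
  obtain ⟨c₁, hc₁⟩ : (M : ℤ) ∣ c₀ := t2c_dvd_of_mem s.2
  -- the new lower right entry
  set d : ℤ := d₀ * (v * q) + u * M with hd
  have hdM : d - d₀ = (M : ℤ) * (u * (1 - d₀)) := by
    rw [hd]; linear_combination d₀ * huv
  have hdq : d - 1 = (q : ℤ) * (v * (d₀ - 1)) := by
    rw [hd]; linear_combination huv
  have hcopM : IsCoprime d (M : ℤ) :=
    ⟨a₀, -(b₀ * c₁) - a₀ * (u * (1 - d₀)), by
      rw [hc₁] at hdet
      linear_combination hdet + a₀ * hdM⟩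
  have hcopq : IsCoprime d (q : ℤ) := ⟨1, -(v * (d₀ - 1)), by linear_combination hdq⟩
  have hcop2 : IsCoprime d ((M : ℤ) * q * q) := (hcopM.mul_right hcopq).mul_right hcopq
  obtain ⟨a, k, hak⟩ := hcop2
  -- the matrix
  have hdet' : Matrix.det !![a, -(k * q); (M : ℤ) * q, d] = 1 := by
    rw [Matrix.det_fin_two_of]
    linear_combination hak
  set g : SL(2, ℤ) := ⟨!![a, -(k * q); (M : ℤ) * q, d], hdet'⟩ with hg
  have hg00 : g 0 0 = a := rfl
  have hg01 : g 0 1 = -(k * q) := rfl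
  have hg10 : g 1 0 = (M : ℤ) * q := rfl
  have hg11 : g 1 1 = d := rfl
  have hmem : g ∈ Gamma0 M := t2c_mem_of_dvd ⟨q, by rw [hg10]⟩
  refine ⟨⟨g, hmem⟩, ?_, ?_⟩
  · apply Units.ext
    rw [twe_dUnit_coe, twe_dUnit_coe]
    show ((g 1 1 : ℤ) : ZMod M) = ((d₀ : ℤ) : ZMod M)
    rw [hg11, ← sub_eq_zero, ← Int.cast_sub, hdM]
    push_cast
    simp
  · show redMatrix q g = 1
    have hqz : ((q : ℤ) : ZMod q) = 0 := by simp
    have hd1 : ((d : ℤ) : ZMod q) = 1 := by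
      have := congrArg (Int.cast : ℤ → ZMod q) hdq
      push_cast at this
      have h2 : ((d : ℤ) : ZMod q) - 1 = 0 := by
        rw [this]; simp
      exact sub_eq_zero.mp h2
    have ha1 : ((a : ℤ) : ZMod q) = 1 := by
      have := congrArg (Int.cast : ℤ → ZMod q) hak
      push_cast at this
      rw [hd1] at this
      simpa using this
    apply Matrix.GeneralLinearGroup.ext
    intro i j
    fin_cases i <;> fin_cases j
    · show redMatrix q g 0 0 = (1 : Matrix (Fin 2) (Fin 2) (ZMod q)) 0 0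
      rw [redMatrix_apply_zero_zero, hg11, hd1]; rfl
    · show redMatrix q g 0 1 = (1 : Matrix (Fin 2) (Fin 2) (ZMod q)) 0 1
      rw [redMatrix_apply_zero_one, hg01]
      push_cast
      simp
    · show redMatrix q g 1 0 = (1 : Matrix (Fin 2) (Fin 2) (ZMod q)) 1 0
      rw [redMatrix_apply_one_zero, hg10]
      push_cast
      simp
    · show redMatrix q g 1 1 = (1 : Matrix (Fin 2) (Fin 2) (ZMod q)) 1 1
      rw [redMatrix_apply_one_one, hg00, ha1]; rfl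

end nice

/-! ### (iii) the twisted product systems -/

section sys

variable {M : ℕ}

/-- the embedding `Γ_H → GL₂(ℝ)`. -/
def twe_hc_iota (H : Subgroup (ZMod M)ˣ) : ↥(twe_GamH M H) →* GL (Fin 2) ℝ :=
  (mapGL ℝ).comp (twe_GamH M H).subtype

theorem twe_hc_iota_apply (H : Subgroup (ZMod M)ˣ) (γ : ↥(twe_GamH M H)) :
    twe_hc_iota H γ = mapGL ℝ (γ : SL(2, ℤ)) := rfl

theorem twe_hc_iota_injective (H : Subgroup (ZMod M)ˣ) : Function.Injective (twe_hc_iota H) := by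
  intro γ γ' h
  exact Subtype.ext (mapGL_injective h)

/-- the twisted representative `α'_x = s_x⁻¹ α_x`. -/
def twe_hc_rep {ℓ : ℕ} (s : Gamma0 M) (x : OnePoint (ZMod ℓ)) : GL (Fin 2) ℝ :=
  (mapGL ℝ ((twe_hk_sx s x : Gamma0 M) : SL(2, ℤ)))⁻¹ * heckeRep ℓ x

/-- `α'_x γ = c'_x(γ) α'_{x ⋆ γ}` for every `γ ∈ Γ₀(M)`. -/
theorem twe_hc_rep_spec {ℓ : ℕ} [Fact ℓ.Prime] (hℓM : ¬ ℓ ∣ M) (s : Gamma0 M)
    (x : OnePoint (ZMod ℓ)) (γ : Gamma0 M) :
    twe_hc_rep s x * mapGL ℝ (γ : SL(2, ℤ)) =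
      mapGL ℝ ((twe_hk_coc hℓM s x γ : Gamma0 M) : SL(2, ℤ)) *
        twe_hc_rep s (t2c_act (γ : SL(2, ℤ)) x) := by
  unfold twe_hc_rep twe_hk_coc
  rw [mul_assoc, t2c_coc_spec hℓM x γ]
  simp only [Subgroup.coe_mul, Subgroup.coe_inv, map_mul, map_inv]
  group

/-- `h_{y,x} = (s₁)_y⁻¹ c_y((s₂)_x⁻¹)`. -/
def twe_hc_h {ℓ₁ ℓ₂ : ℕ} [Fact ℓ₁.Prime] (hℓ₁M : ¬ ℓ₁ ∣ M) (s₁ s₂ : Gamma0 M)
    (y : OnePoint (ZMod ℓ₁)) (x : OnePoint (ZMod ℓ₂)) : Gamma0 M :=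
  (twe_hk_sx s₁ y)⁻¹ * t2c_coc hℓ₁M y (twe_hk_sx s₂ x)⁻¹

/-- moving the inner twist to the left: `β'_y α'_x = h_{y,x} β_y α_x` when `s₂ ≡ 1` mod `ℓ₁`. -/
theorem twe_hc_rep_mul {ℓ₁ ℓ₂ : ℕ} [Fact ℓ₁.Prime] (hℓ₁M : ¬ ℓ₁ ∣ M) (s₁ s₂ : Gamma0 M)
    (hnice : twe_hc_Nice ℓ₁ (s₂ : SL(2, ℤ))) (y : OnePoint (ZMod ℓ₁)) (x : OnePoint (ZMod ℓ₂)) :
    twe_hc_rep s₁ y * twe_hc_rep s₂ x =
      mapGL ℝ ((twe_hc_h hℓ₁M s₁ s₂ y x : Gamma0 M) : SL(2, ℤ)) *
        (heckeRep ℓ₁ y * heckeRep ℓ₂ x) := by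
  have hact : t2c_act (((twe_hk_sx s₂ x)⁻¹ : Gamma0 M) : SL(2, ℤ)) y = y := by
    rw [Subgroup.coe_inv]
    exact twe_hc_nice_act (twe_hc_nice_inv (twe_hc_nice_sx hnice x)) y
  have key := t2c_coc_spec hℓ₁M y (twe_hk_sx s₂ x)⁻¹
  rw [hact, Subgroup.coe_inv, map_inv] at key
  unfold twe_hc_rep twe_hc_h
  rw [Subgroup.coe_mul, Subgroup.coe_inv, map_mul, map_inv]
  calc (mapGL ℝ ((twe_hk_sx s₁ y : Gamma0 M) : SL(2, ℤ)))⁻¹ * heckeRep ℓ₁ y *
        ((mapGL ℝ ((twe_hk_sx s₂ x : Gamma0 M) : SL(2, ℤ)))⁻¹ * heckeRep ℓ₂ x)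
      = (mapGL ℝ ((twe_hk_sx s₁ y : Gamma0 M) : SL(2, ℤ)))⁻¹ *
          (heckeRep ℓ₁ y * (mapGL ℝ ((twe_hk_sx s₂ x : Gamma0 M) : SL(2, ℤ)))⁻¹) *
            heckeRep ℓ₂ x := by group
    _ = _ := by rw [key]; group

/-- the class of `h_{y,x}` in `(ZMod M)ˣ`. -/
theorem twe_hc_dUnit_h {ℓ₁ ℓ₂ : ℕ} [Fact ℓ₁.Prime] (hℓ₁M : ¬ ℓ₁ ∣ M) (s₁ s₂ : Gamma0 M)
    (hnice : twe_hc_Nice ℓ₁ (s₂ : SL(2, ℤ))) (y : OnePoint (ZMod ℓ₁)) (x : OnePoint (ZMod ℓ₂)) :
    twe_dUnit M (twe_hc_h hℓ₁M s₁ s₂ y x) =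
      (twe_dUnit M (twe_hk_sx s₁ y))⁻¹ * (twe_dUnit M (twe_hk_sx s₂ x))⁻¹ := by
  have hact : t2c_act (((twe_hk_sx s₂ x)⁻¹ : Gamma0 M) : SL(2, ℤ)) y = y := by
    rw [Subgroup.coe_inv]
    exact twe_hc_nice_act (twe_hc_nice_inv (twe_hc_nice_sx hnice x)) y
  unfold twe_hc_h
  rw [map_mul, map_inv, twe_hk_dUnit_coc, hact, map_inv]
  rw [mul_comm (twe_hk_eU hℓ₁M y), mul_assoc, mul_inv_cancel, mul_one]

/-- **separation** of the twisted product system. -/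
theorem twe_hc_sep {ℓ₁ ℓ₂ : ℕ} [Fact ℓ₁.Prime] [Fact ℓ₂.Prime] (h12 : ℓ₂ ≠ ℓ₁)
    (hℓ₁M : ¬ ℓ₁ ∣ M) (s₁ s₂ : Gamma0 M) (hnice : twe_hc_Nice ℓ₁ (s₂ : SL(2, ℤ)))
    (y y' : OnePoint (ZMod ℓ₁)) (x x' : OnePoint (ZMod ℓ₂)) (δ : SL(2, ℤ))
    (h : twe_hc_rep s₁ y * twe_hc_rep s₂ x =
      mapGL ℝ δ * (twe_hc_rep s₁ y' * twe_hc_rep s₂ x')) : x = x' ∧ y = y' := by
  rw [twe_hc_rep_mul hℓ₁M s₁ s₂ hnice, twe_hc_rep_mul hℓ₁M s₁ s₂ hnice] at h
  refine t2k_sep (p := ℓ₂) (q := ℓ₁) h12 x x' y y'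
    (((twe_hc_h hℓ₁M s₁ s₂ y x : Gamma0 M) : SL(2, ℤ))⁻¹ * δ *
      ((twe_hc_h hℓ₁M s₁ s₂ y' x' : Gamma0 M) : SL(2, ℤ))) ?_
  rw [map_mul, map_mul, map_inv, mul_assoc, mul_assoc, ← h]
  group

theorem twe_hc_sx_congr {ℓ : ℕ} (s : Gamma0 M) {x x' : OnePoint (ZMod ℓ)}
    (h : x = ∞ ↔ x' = ∞) : twe_hk_sx s x = twe_hk_sx s x' := by
  induction x using OnePoint.rec with
  | infty => rw [h.mp rfl]
  | coe j =>
    induction x' using OnePoint.rec with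
    | infty => exact absurd (h.mpr rfl) (OnePoint.coe_ne_infty j)
    | coe j' => rfl

end sys

/-! ### The matching preserves `= ∞` -/

section matching

variable {p q : ℕ} [Fact p.Prime] [Fact q.Prime]

/-- `t2k_match` together with the fact that the matching preserves `= ∞` in both coordinates. -/
theorem twe_hc_match (hpq : p ≠ q) (x : OnePoint (ZMod p)) (y : OnePoint (ZMod q)) :
    ∃ (x' : OnePoint (ZMod p)) (y' : OnePoint (ZMod q)) (m : ℤ),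
      heckeRep q y * heckeRep p x =
        mapGL ℝ (t2k_trans m) * (heckeRep p x' * heckeRep q y') ∧
      (x = ∞ ↔ x' = ∞) ∧ (y = ∞ ↔ y' = ∞) := by
  have hp : p.Prime := Fact.out
  have hq : q.Prime := Fact.out
  have hp2 := hp.two_le
  have hq2 := hq.two_le
  obtain ⟨x', y', m, hm⟩ := t2k_match hpq x y
  refine ⟨x', y', m, hm, ?_⟩
  have hapos : ∀ (x : OnePoint (ZMod p)) (y : OnePoint (ZMod q)), 0 < t2k_a q y * t2k_a p x := by
    intro x y
    induction x using OnePoint.rec <;> induction y using OnePoint.rec <;> simp <;> omega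
  have hapos' : ∀ (x : OnePoint (ZMod p)) (y : OnePoint (ZMod q)), 0 < t2k_a p x * t2k_a q y := by
    intro x y
    rw [mul_comm]; exact hapos x y
  have hdpos' : ∀ (x : OnePoint (ZMod p)) (y : OnePoint (ZMod q)), 0 < t2k_d p x * t2k_d q y := by
    intro x y
    induction x using OnePoint.rec <;> induction y using OnePoint.rec <;> simp <;> omega
  obtain ⟨hA, -, -⟩ := t2k_tri_sep (hapos x y) (hapos' x' y') (hdpos' x' y') (t2k_trans m) _ _
    (t2k_val_mul hp.ne_zero hq.ne_zero x y) (t2k_val_mul hq.ne_zero hp.ne_zero y' x') hm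
  have h1 : 2 * q ≤ q * p := by nlinarith
  have h2 : 2 * p ≤ q * p := by nlinarith
  have h3 : p * q = q * p := mul_comm p q
  induction x using OnePoint.rec with
  | infty =>
    induction x' using OnePoint.rec with
    | infty =>
      induction y using OnePoint.rec with
      | infty =>
        induction y' using OnePoint.rec with
        | infty => simp
        | coe j' => exfalso; simp at hA; omega
      | coe j =>
        induction y' using OnePoint.rec with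
        | infty => exfalso; simp at hA; omega
        | coe j' => simp
    | coe i' =>
      exfalso
      induction y using OnePoint.rec <;> induction y' using OnePoint.rec <;> simp at hA <;> omega
  | coe i =>
    induction x' using OnePoint.rec with
    | infty =>
      exfalso
      induction y using OnePoint.rec <;> induction y' using OnePoint.rec <;> simp at hA <;> omega
    | coe i' =>
      induction y using OnePoint.rec with
      | infty =>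
        induction y' using OnePoint.rec with
        | infty => simp
        | coe j' => exfalso; simp at hA; omega
      | coe j =>
        induction y' using OnePoint.rec with
        | infty => exfalso; simp at hA; omega
        | coe j' => simp

end matching

/-! ### Commutation -/

section comm

variable {M : ℕ}

/-- the twisted product system: `β'_y α'_x γ = c'_y(c'_x γ) β'_{y'} α'_{x'}`. -/
theorem twe_hc_sys_spec {ℓ₁ ℓ₂ : ℕ} [Fact ℓ₁.Prime] [Fact ℓ₂.Prime] (hℓ₁M : ¬ ℓ₁ ∣ M)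
    (hℓ₂M : ¬ ℓ₂ ∣ M) (H : Subgroup (ZMod M)ˣ) (s₁ s₂ : Gamma0 M)
    (hs₁ : twe_dUnit M s₁ * twe_dUnit M s₁ * (twe_hk_lU hℓ₁M)⁻¹ ∈ H)
    (hs₂ : twe_dUnit M s₂ * twe_dUnit M s₂ * (twe_hk_lU hℓ₂M)⁻¹ ∈ H)
    (y : OnePoint (ZMod ℓ₁)) (x : OnePoint (ZMod ℓ₂)) (γ : ↥(twe_GamH M H)) :
    twe_hc_rep s₁ y * twe_hc_rep s₂ x * twe_hc_iota H γ =
      twe_hc_iota H ((twe_hk_data hℓ₁M H s₁ hs₁).coc y ((twe_hk_data hℓ₂M H s₂ hs₂).coc x γ)) *
        (twe_hc_rep s₁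
            (t2c_act ((((twe_hk_data hℓ₂M H s₂ hs₂).coc x γ : ↥(twe_GamH M H)) : SL(2, ℤ))) y) *
          twe_hc_rep s₂ (t2c_act ((γ : ↥(twe_GamH M H)) : SL(2, ℤ)) x)) := by
  have e1 := twe_hc_rep_spec hℓ₂M s₂ x (twe_hk_up H γ)
  have e2 := twe_hc_rep_spec hℓ₁M s₁ y (twe_hk_coc hℓ₂M s₂ x (twe_hk_up H γ))
  rw [twe_hk_up_coe] at e1
  rw [twe_hc_iota_apply, twe_hc_iota_apply, mul_assoc, e1, ← mul_assoc, e2, mul_assoc]
  rfl

variable {p q : ℕ} [Fact p.Prime] [Fact q.Prime]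

/-- **(iii), multiplicative form**: the two double products agree (nice `s`, `t`). -/
theorem twe_hc_prod_eq (hpq : p ≠ q) (hpM : ¬ p ∣ M) (hqM : ¬ q ∣ M) (H : Subgroup (ZMod M)ˣ)
    (s t : Gamma0 M)
    (hs : twe_dUnit M s * twe_dUnit M s * (twe_hk_lU hpM)⁻¹ ∈ H)
    (ht : twe_dUnit M t * twe_dUnit M t * (twe_hk_lU hqM)⁻¹ ∈ H)
    (hsn : twe_hc_Nice q (s : SL(2, ℤ))) (htn : twe_hc_Nice p (t : SL(2, ℤ)))
    {Mo : Type*} [CommMonoid Mo] (χ : ↥(twe_GamH M H) →* Mo) (γ : ↥(twe_GamH M H)) :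
    ∏ z : OnePoint (ZMod p) × OnePoint (ZMod q),
        χ ((twe_hk_data hqM H t ht).coc z.2 ((twe_hk_data hpM H s hs).coc z.1 γ)) =
      ∏ w : OnePoint (ZMod q) × OnePoint (ZMod p),
        χ ((twe_hk_data hpM H s hs).coc w.2 ((twe_hk_data hqM H t ht).coc w.1 γ)) := by
  classical
  -- the matching
  choose fx fy fm hf using fun z : OnePoint (ZMod p) × OnePoint (ZMod q) => twe_hc_match hpq z.1 z.2
  set σ : OnePoint (ZMod p) × OnePoint (ZMod q) → OnePoint (ZMod q) × OnePoint (ZMod p) :=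
    fun z => (fy z, fx z) with hσ
  -- the connecting elements, first in `Γ₀(M)`
  set τ₀ : OnePoint (ZMod p) × OnePoint (ZMod q) → Gamma0 M := fun z =>
    twe_hc_h hqM t s z.2 z.1 * ⟨t2k_trans (fm z), t2k_trans_mem M (fm z)⟩ *
      (twe_hc_h hpM s t (fx z) (fy z))⁻¹ with hτ₀
  have hτmem : ∀ z, ((τ₀ z : Gamma0 M) : SL(2, ℤ)) ∈ twe_GamH M H := by
    intro z
    refine twe_mem_GamH.mpr ⟨(τ₀ z).2, ?_⟩
    have h4 : (⟨((τ₀ z : Gamma0 M) : SL(2, ℤ)), (τ₀ z).2⟩ : Gamma0 M) = τ₀ z := rfl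
    have htr : twe_dUnit M ⟨t2k_trans (fm z), t2k_trans_mem M (fm z)⟩ = 1 := by
      apply Units.ext
      rw [twe_dUnit_coe]
      show (((t2k_trans (fm z)) 1 1 : ℤ) : ZMod M) = ((1 : (ZMod M)ˣ) : ZMod M)
      rw [t2k_trans_11]
      simp
    have hd : twe_dUnit M (τ₀ z) = 1 := by
      rw [hτ₀]
      simp only [map_mul, map_inv]
      rw [twe_hc_dUnit_h hqM t s hsn, twe_hc_dUnit_h hpM s t htn, htr,
        twe_hc_sx_congr s (hf z).2.1, twe_hc_sx_congr t (hf z).2.2]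
      simp only [mul_one, mul_inv_rev, inv_inv]
      rw [mul_comm ((twe_dUnit M) (twe_hk_sx t (fy z)))⁻¹, mul_assoc,
        ← mul_assoc ((twe_dUnit M) (twe_hk_sx t (fy z)))⁻¹, inv_mul_cancel, one_mul, inv_mul_cancel]
    rw [h4, hd]
    exact one_mem H
  set τ : OnePoint (ZMod p) × OnePoint (ZMod q) → ↥(twe_GamH M H) :=
    fun z => ⟨((τ₀ z : Gamma0 M) : SL(2, ℤ)), hτmem z⟩ with hτ
  have hmatch : ∀ z : OnePoint (ZMod p) × OnePoint (ZMod q),
      twe_hc_rep t z.2 * twe_hc_rep s z.1 =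
        twe_hc_iota H (τ z) * (twe_hc_rep s (σ z).2 * twe_hc_rep t (σ z).1) := by
    intro z
    have e1 : (σ z).2 = fx z := rfl
    have e2 : (σ z).1 = fy z := rfl
    rw [e1, e2, twe_hc_rep_mul hqM t s hsn, twe_hc_rep_mul hpM s t htn, (hf z).1, twe_hc_iota_apply]
    show _ = mapGL ℝ ((τ₀ z : Gamma0 M) : SL(2, ℤ)) * _
    rw [hτ₀]
    simp only [Subgroup.coe_mul, Subgroup.coe_inv, map_mul, map_inv]
    group
  have hsepr : ∀ (z z' : OnePoint (ZMod p) × OnePoint (ZMod q)) (δ : ↥(twe_GamH M H)),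
      twe_hc_rep t z.2 * twe_hc_rep s z.1 =
        twe_hc_iota H δ * (twe_hc_rep t z'.2 * twe_hc_rep s z'.1) → z = z' := by
    intro z z' δ h
    obtain ⟨h1, h2⟩ := twe_hc_sep (ℓ₁ := q) (ℓ₂ := p) hpq hqM t s hsn z.2 z'.2 z.1 z'.1
      (δ : SL(2, ℤ)) h
    exact Prod.ext h1 h2
  have hseps : ∀ (w w' : OnePoint (ZMod q) × OnePoint (ZMod p)) (δ : ↥(twe_GamH M H)),
      twe_hc_rep s w.2 * twe_hc_rep t w.1 =
        twe_hc_iota H δ * (twe_hc_rep s w'.2 * twe_hc_rep t w'.1) → w = w' := by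
    intro w w' δ h
    obtain ⟨h1, h2⟩ := twe_hc_sep (ℓ₁ := p) (ℓ₂ := q) hpq.symm hpM s t htn w.2 w'.2 w.1 w'.1
      (δ : SL(2, ℤ)) h
    exact Prod.ext h1 h2
  have hinj : Function.Injective σ :=
    t2k_match_injective (twe_hc_iota H)
      (fun z : OnePoint (ZMod p) × OnePoint (ZMod q) => twe_hc_rep t z.2 * twe_hc_rep s z.1)
      (fun w : OnePoint (ZMod q) × OnePoint (ZMod p) => twe_hc_rep s w.2 * twe_hc_rep t w.1)
      hsepr σ τ hmatch
  have hbij : Function.Bijective σ := by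
    rw [Fintype.bijective_iff_injective_and_card]
    exact ⟨hinj, by rw [Fintype.card_prod, Fintype.card_prod, mul_comm]⟩
  exact t2k_prod_eq (twe_hc_iota H)
    (fun z : OnePoint (ZMod p) × OnePoint (ZMod q) => twe_hc_rep t z.2 * twe_hc_rep s z.1)
    (fun w : OnePoint (ZMod q) × OnePoint (ZMod p) => twe_hc_rep s w.2 * twe_hc_rep t w.1)
    (fun γ => Equiv.prodShear (t2c_perm ((γ : ↥(twe_GamH M H)) : SL(2, ℤ)))
      fun x => t2c_perm ((((twe_hk_data hpM H s hs).coc x γ : ↥(twe_GamH M H)) : SL(2, ℤ))))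
    (fun γ w => (t2c_act ((γ : ↥(twe_GamH M H)) : SL(2, ℤ)) w.1,
      t2c_act ((((twe_hk_data hqM H t ht).coc w.1 γ : ↥(twe_GamH M H)) : SL(2, ℤ))) w.2))
    (fun z γ => (twe_hk_data hqM H t ht).coc z.2 ((twe_hk_data hpM H s hs).coc z.1 γ))
    (fun w γ => (twe_hk_data hpM H s hs).coc w.2 ((twe_hk_data hqM H t ht).coc w.1 γ))
    (fun z γ => twe_hc_sys_spec hqM hpM H t s ht hs z.2 z.1 γ)
    (fun w γ => twe_hc_sys_spec hpM hqM H s t hs ht w.2 w.1 γ)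
    (twe_hc_iota_injective H) hseps σ hbij τ hmatch χ γ

end comm

/-! ### The theorems -/

section main

variable {M p q : ℕ} [Fact p.Prime] [Fact q.Prime] {A : Type*} [AddCommGroup A]

/-- **(iii)** commutation for nice `s` (`≡ 1` mod `q`) and `t` (`≡ 1` mod `p`). -/
theorem twe_hc_comm_nice (hpq : p ≠ q) (hpM : ¬ p ∣ M) (hqM : ¬ q ∣ M) (H : Subgroup (ZMod M)ˣ)
    (s t : Gamma0 M)
    (hs : twe_dUnit M s * twe_dUnit M s * (twe_hk_lU hpM)⁻¹ ∈ H)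
    (ht : twe_dUnit M t * twe_dUnit M t * (twe_hk_lU hqM)⁻¹ ∈ H)
    (hsn : twe_hc_Nice q (s : SL(2, ℤ))) (htn : twe_hc_Nice p (t : SL(2, ℤ)))
    (z : Additive ↥(twe_GamH M H) →+ A) :
    twe_hk_T hpM H s hs (twe_hk_T hqM H t ht z) = twe_hk_T hqM H t ht (twe_hk_T hpM H s hs z) := by
  refine AddMonoidHom.ext fun γ => ?_
  obtain ⟨γ, rfl⟩ := Additive.ofMul.surjective γ
  have h := congrArg Multiplicative.toAdd
    (twe_hc_prod_eq hpq hpM hqM H s t hs ht hsn htn (AddMonoidHom.toMultiplicativeRight z) γ)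
  simp only [toAdd_prod] at h
  rw [twe_hk_T_apply, twe_hk_T_apply]
  simp only [twe_hk_T_apply]
  rw [← Fintype.sum_prod_type' (f := fun x y =>
      z (Additive.ofMul ((twe_hk_data hqM H t ht).coc y ((twe_hk_data hpM H s hs).coc x γ)))),
    ← Fintype.sum_prod_type' (f := fun y x =>
      z (Additive.ofMul ((twe_hk_data hpM H s hs).coc x ((twe_hk_data hqM H t ht).coc y γ))))]
  exact h

/-- **E/HeckeComm**: the fixed-determinant Hecke operators at two different primes commute, for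
ANY choice of the twisting elements `s`, `t`. -/
theorem twe_hc_comm (hpq : p ≠ q) (hpM : ¬ p ∣ M) (hqM : ¬ q ∣ M) (H : Subgroup (ZMod M)ˣ)
    (s t : Gamma0 M)
    (hs : twe_dUnit M s * twe_dUnit M s * (twe_hk_lU hpM)⁻¹ ∈ H)
    (ht : twe_dUnit M t * twe_dUnit M t * (twe_hk_lU hqM)⁻¹ ∈ H)
    (z : Additive ↥(twe_GamH M H) →+ A) :
    twe_hk_T hpM H s hs (twe_hk_T hqM H t ht z) = twe_hk_T hqM H t ht (twe_hk_T hpM H s hs z) := by
  obtain ⟨s', hds, hsn⟩ := twe_hc_exists_nice (q := q) hqM s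
  obtain ⟨t', hdt, htn⟩ := twe_hc_exists_nice (q := p) hpM t
  have hs' : twe_dUnit M s' * twe_dUnit M s' * (twe_hk_lU hpM)⁻¹ ∈ H := by rw [hds]; exact hs
  have ht' : twe_dUnit M t' * twe_dUnit M t' * (twe_hk_lU hqM)⁻¹ ∈ H := by rw [hdt]; exact ht
  have hcs : twe_dUnit M s * (twe_dUnit M s')⁻¹ ∈ H := by
    rw [hds, mul_inv_cancel]; exact one_mem H
  have hct : twe_dUnit M t * (twe_dUnit M t')⁻¹ ∈ H := by
    rw [hdt, mul_inv_cancel]; exact one_mem H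
  have es : ∀ w : Additive ↥(twe_GamH M H) →+ A,
      twe_hk_T hpM H s hs w = twe_hk_T hpM H s' hs' w :=
    fun w => twe_hc_T_indep hpM H s s' hs hs' hcs w
  have et : ∀ w : Additive ↥(twe_GamH M H) →+ A,
      twe_hk_T hqM H t ht w = twe_hk_T hqM H t' ht' w :=
    fun w => twe_hc_T_indep hqM H t t' ht ht' hct w
  rw [es, et, es, et]
  exact twe_hc_comm_nice hpq hpM hqM H s' t' hs' ht' hsn htn z

/-- the same on `W(Γ_H, A)`. -/
theorem twe_hc_comm_W (hpq : p ≠ q) (hpM : ¬ p ∣ M) (hqM : ¬ q ∣ M) (H : Subgroup (ZMod M)ˣ)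
    (s t : Gamma0 M)
    (hs : twe_dUnit M s * twe_dUnit M s * (twe_hk_lU hpM)⁻¹ ∈ H)
    (ht : twe_dUnit M t * twe_dUnit M t * (twe_hk_lU hqM)⁻¹ ∈ H)
    (z : twe_W (twe_GamH M H) A) :
    twe_hk_TW hpM H s hs (twe_hk_TW hqM H t ht z) =
      twe_hk_TW hqM H t ht (twe_hk_TW hpM H s hs z) := by
  apply Subtype.ext
  rw [twe_hk_TW_coe, twe_hk_TW_coe, twe_hk_TW_coe, twe_hk_TW_coe]
  exact twe_hc_comm hpq hpM hqM H s t hs ht z.1

end main

/-! ### A family of primes with chosen twists -/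

section family

variable {M : ℕ} {A : Type*} [AddCommGroup A]

/-- for a family of primes `ℓ i ∤ M` with chosen twists `s i`, the operators `T'_{ℓ i}` commute
pairwise (equal primes with the same `s`: trivial; different primes: `twe_hc_comm`). -/
theorem twe_hc_commute {L : Type*} (ℓ : L → ℕ) [hℓ : ∀ i, Fact (ℓ i).Prime]
    (hM : ∀ i, ¬ ℓ i ∣ M) (hinj : Function.Injective ℓ) (H : Subgroup (ZMod M)ˣ)
    (s : L → Gamma0 M)
    (hs : ∀ i, twe_dUnit M (s i) * twe_dUnit M (s i) * (twe_hk_lU (hM i))⁻¹ ∈ H)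
    (i j : L) (z : Additive ↥(twe_GamH M H) →+ A) :
    twe_hk_T (hM i) H (s i) (hs i) (twe_hk_T (hM j) H (s j) (hs j) z) =
      twe_hk_T (hM j) H (s j) (hs j) (twe_hk_T (hM i) H (s i) (hs i) z) := by
  by_cases hij : i = j
  · subst hij
    rfl
  · exact twe_hc_comm (fun h => hij (hinj h)) (hM i) (hM j) H (s i) (s j) (hs i) (hs j) z

end family

end Fermat.Agent.TW
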