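/-
Project ONE MACHINE, block [E] AUT, cell E/Hecke, part 3 (helper22): THE FIXED-DETERMINANT HECKE
OPERATOR `T'_ℓ` COMMUTES WITH THE DIAMOND ACTION of `Γ₀(M)` on the characters of `Γ_H`.
Prefix `twe_hk_`, namespace `Fermat.Agent.TW`.

For `g ∈ Γ₀(M)`, `γ ∈ Γ_H` and `y ∈ ℙ¹(𝔽_ℓ)` the cocycle identity on `Γ₀(M)` gives
`c'_{y ⋆ g}(g⁻¹ γ g) = c'_y(g)⁻¹ c'_y(γ) c'_{y ⋆ γ}(g)`, and `c'_y(g) = g h_y` with `h_y ∈ Γ_H`
(`twe_hk_inv_mul_coc_mem`, property (C)); hence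
`c'_{y ⋆ g}(g⁻¹ γ g) = h_y⁻¹ (g⁻¹ c'_y(γ) g) h_{y ⋆ γ}` in `Γ_H`, and the `h`-terms telescope.

* `twe_hk_coc_inv`, `twe_hk_coc_conj` : the identities on `Γ₀(M)`;
* `twe_hk_hh`, `twe_hk_data_coc_conj` : the identity in `Γ_H`;
* **`twe_hk_T_conj`** : `T' (twe_conj H g z) = twe_conj H g (T' z)`.
-/
import Mathlib
import Fermat.Agent.TW.Aut.HeckeDef

set_option autoImplicit false

noncomputable section

open CongruenceSubgroup Matrix.SpecialLinearGroup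
open scoped MatrixGroups OnePoint

namespace Fermat.Agent.TW

open Fermat.Agent.JT3 Fermat.Agent.LR

variable {M ℓ : ℕ} [Fact ℓ.Prime]

theorem twe_hk_act_inv (g : Gamma0 M) (y : OnePoint (ZMod ℓ)) :
    t2c_act ((g⁻¹ : Gamma0 M) : SL(2, ℤ)) (t2c_act (g : SL(2, ℤ)) y) = y := by
  rw [← t2c_act_mul, ← Subgroup.coe_mul, mul_inv_cancel, Subgroup.coe_one, t2c_act_one]

/-- `c'_{y ⋆ g}(g⁻¹) = c'_y(g)⁻¹`. -/
theorem twe_hk_coc_inv (hℓM : ¬ ℓ ∣ M) (s g : Gamma0 M) (y : OnePoint (ZMod ℓ)) :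
    twe_hk_coc hℓM s (t2c_act (g : SL(2, ℤ)) y) g⁻¹ = (twe_hk_coc hℓM s y g)⁻¹ := by
  have h := twe_hk_coc_mul hℓM s y g g⁻¹
  rw [mul_inv_cancel, twe_hk_coc_one] at h
  exact eq_inv_of_mul_eq_one_right h.symm

/-- `c'_{y ⋆ g}(g⁻¹ γ g) = c'_y(g)⁻¹ c'_y(γ) c'_{y ⋆ γ}(g)`. -/
theorem twe_hk_coc_conj (hℓM : ¬ ℓ ∣ M) (s g γ : Gamma0 M) (y : OnePoint (ZMod ℓ)) :
    twe_hk_coc hℓM s (t2c_act (g : SL(2, ℤ)) y) (g⁻¹ * γ * g) =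
      (twe_hk_coc hℓM s y g)⁻¹ * twe_hk_coc hℓM s y γ *
        twe_hk_coc hℓM s (t2c_act (γ : SL(2, ℤ)) y) g := by
  rw [mul_assoc, twe_hk_coc_mul, twe_hk_coc_inv, twe_hk_act_inv, twe_hk_coc_mul, mul_assoc]

/-- `h_y = g⁻¹ c'_y(g) ∈ Γ_H`. -/
def twe_hk_hh (hℓM : ¬ ℓ ∣ M) {H : Subgroup (ZMod M)ˣ} (s : Gamma0 M)
    (hs : twe_dUnit M s * twe_dUnit M s * (twe_hk_lU hℓM)⁻¹ ∈ H) (g : Gamma0 M)
    (y : OnePoint (ZMod ℓ)) : ↥(twe_GamH M H) :=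
  ⟨((g⁻¹ * twe_hk_coc hℓM s y g : Gamma0 M) : SL(2, ℤ)), twe_hk_inv_mul_coc_mem hℓM s hs y g⟩

theorem twe_hk_up_conjHom (H : Subgroup (ZMod M)ˣ) (g : Gamma0 M) (γ : ↥(twe_GamH M H)) :
    twe_hk_up H (twe_conjHom H g γ) = g⁻¹ * twe_hk_up H γ * g := by
  apply Subtype.ext
  rfl

/-- the identity in `Γ_H`:
`c'_{y ⋆ g}(g⁻¹ γ g) = h_y⁻¹ (g⁻¹ c'_y(γ) g) h_{y ⋆ γ}`. -/
theorem twe_hk_data_coc_conj (hℓM : ¬ ℓ ∣ M) (H : Subgroup (ZMod M)ˣ) (s : Gamma0 M)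
    (hs : twe_dUnit M s * twe_dUnit M s * (twe_hk_lU hℓM)⁻¹ ∈ H) (g : Gamma0 M)
    (γ : ↥(twe_GamH M H)) (y : OnePoint (ZMod ℓ)) :
    (twe_hk_data hℓM H s hs).coc (t2c_act (g : SL(2, ℤ)) y) (twe_conjHom H g γ) =
      (twe_hk_hh hℓM s hs g y)⁻¹ * twe_conjHom H g ((twe_hk_data hℓM H s hs).coc y γ) *
        twe_hk_hh hℓM s hs g (t2c_act (γ : SL(2, ℤ)) y) := by
  apply Subtype.ext
  show ((twe_hk_coc hℓM s (t2c_act (g : SL(2, ℤ)) y) (twe_hk_up H (twe_conjHom H g γ)) :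
      Gamma0 M) : SL(2, ℤ)) =
    (((g⁻¹ * twe_hk_coc hℓM s y g : Gamma0 M) : SL(2, ℤ)))⁻¹ *
      ((g : SL(2, ℤ))⁻¹ * ((twe_hk_coc hℓM s y (twe_hk_up H γ) : Gamma0 M) : SL(2, ℤ)) * g) *
      ((g⁻¹ * twe_hk_coc hℓM s (t2c_act (γ : SL(2, ℤ)) y) g : Gamma0 M) : SL(2, ℤ))
  rw [twe_hk_up_conjHom, twe_hk_coc_conj]
  have hup : ((twe_hk_up H γ : Gamma0 M) : SL(2, ℤ)) = (γ : SL(2, ℤ)) := rfl
  rw [hup]
  simp only [Subgroup.coe_mul, Subgroup.coe_inv]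
  group

variable {A : Type*} [AddCommGroup A]

/-- **`T'_ℓ` commutes with the action of `Γ₀(M)`** on the characters of `Γ_H`. -/
theorem twe_hk_T_conj (hℓM : ¬ ℓ ∣ M) (H : Subgroup (ZMod M)ˣ) (s : Gamma0 M)
    (hs : twe_dUnit M s * twe_dUnit M s * (twe_hk_lU hℓM)⁻¹ ∈ H) (g : Gamma0 M)
    (z : Additive ↥(twe_GamH M H) →+ A) :
    twe_hk_T hℓM H s hs (twe_conj H g z) = twe_conj H g (twe_hk_T hℓM H s hs z) := by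
  refine AddMonoidHom.ext fun γ => ?_
  obtain ⟨γ, rfl⟩ := Additive.ofMul.surjective γ
  rw [twe_conj_apply, twe_hk_T_apply, twe_hk_T_apply]
  simp only [twe_conj_apply]
  rw [← Equiv.sum_comp (t2c_perm (g : SL(2, ℤ))) (fun x : OnePoint (ZMod ℓ) =>
    z (Additive.ofMul ((twe_hk_data hℓM H s hs).coc x (twe_conjHom H g γ))))]
  simp only [t2c_perm_apply, twe_hk_data_coc_conj, ofMul_mul, ofMul_inv, map_add, map_neg]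
  rw [Finset.sum_add_distrib, Finset.sum_add_distrib, Finset.sum_neg_distrib]
  have h1 := Equiv.sum_comp (t2c_perm ((γ : ↥(twe_GamH M H)) : SL(2, ℤ)))
    (fun y : OnePoint (ZMod ℓ) => z (Additive.ofMul (twe_hk_hh hℓM s hs g y)))
  simp only [t2c_perm_apply] at h1
  rw [h1]
  abel

/-- `T'` on `W(Γ_H, A)` is equivariant for the diamond action. -/
theorem twe_hk_T_conj_PE (hℓM : ¬ ℓ ∣ M) (H : Subgroup (ZMod M)ˣ) (s : Gamma0 M)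
    (hs : twe_dUnit M s * twe_dUnit M s * (twe_hk_lU hℓM)⁻¹ ∈ H) (g : Gamma0 M)
    (z : Additive ↥(twe_GamH M H) →+ A) (n : ℕ) :
    twe_hk_T hℓM H s hs (((fun w => twe_conj H g w)^[n]) z) =
      ((fun w => twe_conj H g w)^[n]) (twe_hk_T hℓM H s hs z) := by
  induction n generalizing z with
  | zero => rfl
  | succ n ih =>
    rw [Function.iterate_succ_apply, Function.iterate_succ_apply, ih, twe_hk_T_conj]

end Fermat.Agent.TW
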