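/-
Project ONE MACHINE, block [E] AUT, cell E/Hecke, part 4 (helper22): THE FIXED-DETERMINANT HECKE
OPERATOR `T'_ℓ` AND RESTRICTION; THE EISENSTEIN PROPERTY (a).
Prefix `twe_hk_`, namespace `Fermat.Agent.TW`.

* `twe_hk_hs_mono`    : the hypothesis `d(s)² ℓ⁻¹ ∈ H` passes to every `H' ≥ H`;
* `twe_hk_T_res`      : for `H ≤ H'` (same `s`): `res ∘ T'_{H'} = T'_H ∘ res`;
* `twe_hk_T_res_top`  : `res ∘ T_ℓ = T'_H ∘ res` for the restriction from `Γ₀(M)` (where `T_ℓ` is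
  `t2c_Tadd hℓM`, the operator of JT3/T2);
* `twe_hk_T_eis`      : a character of `Γ_{H'}` that is trivial on `Γ_H` (`H ≤ H'`) satisfies
  `T'_{H'} χ = (ℓ + 1) • χ`   [(a) of the freeness proof at every intermediate level];
* `twe_hk_T_eis_top`  : the same at the top level: a character of `Γ₀(M)` trivial on `Γ_H` has
  `T_ℓ χ = (ℓ + 1) • χ`.
-/
import Mathlib
import Fermat.Agent.TW.Aut.HeckeDef

set_option autoImplicit false

noncomputable section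

open CongruenceSubgroup Matrix.SpecialLinearGroup
open scoped MatrixGroups OnePoint

namespace Fermat.Agent.TW

open Fermat.Agent.JT3 Fermat.Agent.LR

variable {M ℓ : ℕ} [Fact ℓ.Prime] {A : Type*} [AddCommGroup A]

theorem twe_hk_hs_mono (hℓM : ¬ ℓ ∣ M) {H H' : Subgroup (ZMod M)ˣ} (h : H ≤ H') (s : Gamma0 M)
    (hs : twe_dUnit M s * twe_dUnit M s * (twe_hk_lU hℓM)⁻¹ ∈ H) :
    twe_dUnit M s * twe_dUnit M s * (twe_hk_lU hℓM)⁻¹ ∈ H' := h hs

/-- **restriction commutes with `T'`** (`H ≤ H'`, the same `s`). -/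
theorem twe_hk_T_res (hℓM : ¬ ℓ ∣ M) {H H' : Subgroup (ZMod M)ˣ} (h : H ≤ H') (s : Gamma0 M)
    (hs : twe_dUnit M s * twe_dUnit M s * (twe_hk_lU hℓM)⁻¹ ∈ H)
    (z : Additive ↥(twe_GamH M H') →+ A) :
    lrpd_pull (Subgroup.inclusion (twe_GamH_mono h)) (twe_hk_T hℓM H' s (h hs) z) =
      twe_hk_T hℓM H s hs (lrpd_pull (Subgroup.inclusion (twe_GamH_mono h)) z) := by
  refine AddMonoidHom.ext fun γ => ?_
  obtain ⟨γ, rfl⟩ := Additive.ofMul.surjective γ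
  rw [lrpd_pull_apply, twe_hk_T_apply, twe_hk_T_apply]
  refine Finset.sum_congr rfl fun x _ => ?_
  rw [lrpd_pull_apply]
  rfl

/-- **restriction from `Γ₀(M)` intertwines `T_ℓ` and `T'_ℓ`.** -/
theorem twe_hk_T_res_top (hℓM : ¬ ℓ ∣ M) (H : Subgroup (ZMod M)ˣ) (s : Gamma0 M)
    (hs : twe_dUnit M s * twe_dUnit M s * (twe_hk_lU hℓM)⁻¹ ∈ H)
    (x : Additive ↥(Gamma0 M) →+ A) :
    lrpd_pull (twe_hk_up H) (t2c_Tadd hℓM x) =
      twe_hk_T hℓM H s hs (lrpd_pull (twe_hk_up H) x) := by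
  refine AddMonoidHom.ext fun γ => ?_
  obtain ⟨γ, rfl⟩ := Additive.ofMul.surjective γ
  rw [lrpd_pull_apply, twe_hk_T_apply, t2c_Tadd_apply]
  have h1 : ∀ y : OnePoint (ZMod ℓ),
      lrpd_pull (twe_hk_up H) x (Additive.ofMul ((twe_hk_data hℓM H s hs).coc y γ)) =
        - x (Additive.ofMul (twe_hk_sx s y)) +
          x (Additive.ofMul (t2c_coc hℓM y (twe_hk_up H γ))) +
          x (Additive.ofMul (twe_hk_sx s (t2c_act ((γ : ↥(twe_GamH M H)) : SL(2, ℤ)) y))) := by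
    intro y
    rw [lrpd_pull_apply]
    have h2 : twe_hk_up H ((twe_hk_data hℓM H s hs).coc y γ) =
        (twe_hk_sx s y)⁻¹ * t2c_coc hℓM y (twe_hk_up H γ) *
          twe_hk_sx s (t2c_act ((γ : ↥(twe_GamH M H)) : SL(2, ℤ)) y) := by
      apply Subtype.ext
      rfl
    rw [h2, ofMul_mul, ofMul_mul, ofMul_inv, map_add, map_add, map_neg]
  simp only [h1]
  rw [Finset.sum_add_distrib, Finset.sum_add_distrib, Finset.sum_neg_distrib]
  have h3 := Equiv.sum_comp (t2c_perm ((γ : ↥(twe_GamH M H)) : SL(2, ℤ)))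
    (fun y : OnePoint (ZMod ℓ) => x (Additive.ofMul (twe_hk_sx s y)))
  simp only [t2c_perm_apply] at h3
  rw [h3]
  abel

theorem twe_hk_card_P1 : Fintype.card (OnePoint (ZMod ℓ)) = ℓ + 1 := by
  have : NeZero ℓ := ⟨(Fact.out : ℓ.Prime).ne_zero⟩
  show Fintype.card (Option (ZMod ℓ)) = ℓ + 1
  rw [Fintype.card_option, ZMod.card]

/-- **(a), the Eisenstein property**: a character of `Γ_{H'}` trivial on `Γ_H` (`H ≤ H'`) is an
eigenvector of `T'_ℓ` with eigenvalue `ℓ + 1`. -/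
theorem twe_hk_T_eis (hℓM : ¬ ℓ ∣ M) {H H' : Subgroup (ZMod M)ˣ} (h : H ≤ H') (s : Gamma0 M)
    (hs : twe_dUnit M s * twe_dUnit M s * (twe_hk_lU hℓM)⁻¹ ∈ H)
    (χ : Additive ↥(twe_GamH M H') →+ A)
    (hχ : ∀ γ : ↥(twe_GamH M H'), (γ : SL(2, ℤ)) ∈ twe_GamH M H → χ (Additive.ofMul γ) = 0) :
    twe_hk_T hℓM H' s (h hs) χ = (ℓ + 1) • χ := by
  refine AddMonoidHom.ext fun γ => ?_
  obtain ⟨γ, rfl⟩ := Additive.ofMul.surjective γ
  rw [twe_hk_T_apply, AddMonoidHom.smul_apply]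
  have h1 : ∀ y : OnePoint (ZMod ℓ),
      χ (Additive.ofMul ((twe_hk_data hℓM H' s (h hs)).coc y γ)) = χ (Additive.ofMul γ) := by
    intro y
    have h2 : (twe_hk_data hℓM H' s (h hs)).coc y γ =
        γ * (γ⁻¹ * (twe_hk_data hℓM H' s (h hs)).coc y γ) := by group
    rw [h2, ofMul_mul, map_add]
    have h3 : χ (Additive.ofMul (γ⁻¹ * (twe_hk_data hℓM H' s (h hs)).coc y γ)) = 0 := by
      apply hχ
      have := twe_hk_inv_mul_coc_mem hℓM s hs y (twe_hk_up H' γ)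
      exact this
    rw [h3, add_zero]
  simp only [h1]
  rw [Finset.sum_const, Finset.card_univ, twe_hk_card_P1]

/-- **(a) at the top level**: a character of `Γ₀(M)` trivial on `Γ_H` has `T_ℓ χ = (ℓ + 1) χ`. -/
theorem twe_hk_T_eis_top (hℓM : ¬ ℓ ∣ M) (H : Subgroup (ZMod M)ˣ) (s : Gamma0 M)
    (hs : twe_dUnit M s * twe_dUnit M s * (twe_hk_lU hℓM)⁻¹ ∈ H)
    (χ : Additive ↥(Gamma0 M) →+ A)
    (hχ : ∀ γ : Gamma0 M, (γ : SL(2, ℤ)) ∈ twe_GamH M H → χ (Additive.ofMul γ) = 0) :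
    t2c_Tadd hℓM χ = (ℓ + 1) • χ := by
  refine AddMonoidHom.ext fun γ => ?_
  obtain ⟨γ, rfl⟩ := Additive.ofMul.surjective γ
  rw [t2c_Tadd_apply, AddMonoidHom.smul_apply]
  have h1 : ∀ y : OnePoint (ZMod ℓ),
      χ (Additive.ofMul (t2c_coc hℓM y γ)) =
        χ (Additive.ofMul (twe_hk_sx s y)) + χ (Additive.ofMul γ) -
          χ (Additive.ofMul (twe_hk_sx s (t2c_act (γ : SL(2, ℤ)) y))) := by
    intro y
    have h2 : t2c_coc hℓM y γ =
        twe_hk_sx s y * (γ * (γ⁻¹ * twe_hk_coc hℓM s y γ)) *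
          (twe_hk_sx s (t2c_act (γ : SL(2, ℤ)) y))⁻¹ := by
      unfold twe_hk_coc
      group
    have h3 : χ (Additive.ofMul (γ⁻¹ * twe_hk_coc hℓM s y γ)) = 0 :=
      hχ _ (twe_hk_inv_mul_coc_mem hℓM s hs y γ)
    rw [h2, ofMul_mul, ofMul_mul, ofMul_mul, ofMul_inv, map_add, map_add, map_add, map_neg, h3]
    abel
  simp only [h1]
  rw [Finset.sum_sub_distrib, Finset.sum_add_distrib]
  have h4 := Equiv.sum_comp (t2c_perm ((γ : Gamma0 M) : SL(2, ℤ)))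
    (fun y : OnePoint (ZMod ℓ) => χ (Additive.ofMul (twe_hk_sx s y)))
  simp only [t2c_perm_apply] at h4
  rw [h4, Finset.sum_const, Finset.card_univ, twe_hk_card_P1]
  abel

end Fermat.Agent.TW
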