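/-
ONE MACHINE / block [E] AUT, LAYER 1 (abstract), cell E/ResCor (helper5).
Namespace `Fermat.Agent.TW`, prefix `twe_rc_`.

The transfer (corestriction) `Hom(Γ', A) → Hom(Γ, A)` for subgroups `Γ' ≤ Γ` of an arbitrary group
`𝔾`, attached to a complete irredundant system `ρ : ι → 𝔾` of LEFT coset representatives
(`hρ : ∀ i, ρ i ∈ Γ`, `hbij : ∀ γ ∈ Γ, ∃! i, (ρ i)⁻¹ * γ ∈ Γ'` : exactly the hypotheses of
`lrpd_IsCores` / (S5) `lrpdm_cores_adj` of LR/PD), and its formal properties.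

* §1 `twe_rc_sig` (`σ_γ`), `twe_rc_perm`, `twe_rc_term γ i = ρ_{σ_γ i}⁻¹ γ ρ_i ∈ Γ'` (cocycle rules);
* §2 `twe_rc_cor hρ hbij : (Additive Γ' →+ A) →+ (Additive Γ →+ A)`, `twe_rc_cor_apply`,
  `twe_rc_cor_double` (the double-sum formula of `lrpd_IsCores`);
* §3 **`twe_rc_cor_res`** : `cor (x|Γ') = |ι| • x`;  **`twe_rc_cor_kills`** : the transfer of a
  character killing a class `P` (stable under powers and conjugation) kills `P`;
* §4 (`Γ` normalises `Γ'`: `hnorm : ∀ g ∈ Γ, ∀ n ∈ Γ', g⁻¹ * n * g ∈ Γ'`)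
  `twe_rc_conjHom`, `twe_rc_conj g z = z (g⁻¹ · g)`, `twe_rc_conj_res` (restrictions are invariant),
  **`twe_rc_res_cor`** : `(cor z)|Γ' = ∑ᵢ conj(ρᵢ) z` (the norm of `Γ/Γ'`),
  **`twe_rc_cor_conj`** : `cor (conj g z) = cor z`;
* §5 (`𝔾 = SL(2, ℤ)`) `twe_rc_cor_PE`, `twe_rc_conj_PE` (both preserve `lrpd_PE`),
  `twe_rc_isCores : lrpd_IsCores Γ Γ' ρ z (twe_rc_cor hρ hbij z)`, `twe_rc_eq_of_isCores`.
-/
import Mathlib
import Fermat.Agent.LR.PD.SLevel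
import Fermat.Agent.LR.MTX.Homology

set_option autoImplicit false

noncomputable section

namespace Fermat.Agent.TW

open Fermat.Agent.LR

/-! ### 1. Coset systems, the permutation `σ_γ` and the transfer cocycle -/

section sys

variable {𝔾 : Type*} [Group 𝔾] {Γ Γ' : Subgroup 𝔾} {ι : Type*} {ρ : ι → 𝔾}

/-- the index `i` of the left coset `ρ i Γ'` containing `γ ∈ Γ`. -/
def twe_rc_idx (hbij : ∀ γ ∈ Γ, ∃! i, (ρ i)⁻¹ * γ ∈ Γ') (γ : 𝔾) (hγ : γ ∈ Γ) : ι :=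
  Classical.choose (hbij γ hγ).exists

theorem twe_rc_idx_spec (hbij : ∀ γ ∈ Γ, ∃! i, (ρ i)⁻¹ * γ ∈ Γ') (γ : 𝔾) (hγ : γ ∈ Γ) :
    (ρ (twe_rc_idx hbij γ hγ))⁻¹ * γ ∈ Γ' :=
  Classical.choose_spec (hbij γ hγ).exists

theorem twe_rc_idx_unique (hbij : ∀ γ ∈ Γ, ∃! i, (ρ i)⁻¹ * γ ∈ Γ') (γ : 𝔾) (hγ : γ ∈ Γ) {j : ι}
    (h : (ρ j)⁻¹ * γ ∈ Γ') : j = twe_rc_idx hbij γ hγ :=
  (hbij γ hγ).unique h (twe_rc_idx_spec hbij γ hγ)

variable (hρ : ∀ i, ρ i ∈ Γ) (hbij : ∀ γ ∈ Γ, ∃! i, (ρ i)⁻¹ * γ ∈ Γ')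

/-- `σ_γ(i)` : the index with `γ ρ_i ∈ ρ_{σ_γ(i)} Γ'`. -/
def twe_rc_sig (γ : Γ) (i : ι) : ι :=
  twe_rc_idx hbij ((γ : 𝔾) * ρ i) (mul_mem γ.2 (hρ i))

theorem twe_rc_sig_spec (γ : Γ) (i : ι) :
    (ρ (twe_rc_sig hρ hbij γ i))⁻¹ * (γ : 𝔾) * ρ i ∈ Γ' := by
  have := twe_rc_idx_spec hbij ((γ : 𝔾) * ρ i) (mul_mem γ.2 (hρ i))
  rwa [← mul_assoc] at this

theorem twe_rc_sig_unique (γ : Γ) (i : ι) {j : ι} (h : (ρ j)⁻¹ * (γ : 𝔾) * ρ i ∈ Γ') :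
    j = twe_rc_sig hρ hbij γ i := by
  refine twe_rc_idx_unique hbij _ _ ?_
  rwa [← mul_assoc]

theorem twe_rc_sig_one (i : ι) : twe_rc_sig hρ hbij 1 i = i := by
  symm
  refine twe_rc_sig_unique hρ hbij 1 i ?_
  rw [Subgroup.coe_one, mul_one, inv_mul_cancel]
  exact one_mem _

theorem twe_rc_sig_mul (γ γ' : Γ) (i : ι) :
    twe_rc_sig hρ hbij (γ * γ') i = twe_rc_sig hρ hbij γ (twe_rc_sig hρ hbij γ' i) := by
  symm
  refine twe_rc_sig_unique hρ hbij (γ * γ') i ?_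
  have h1 := twe_rc_sig_spec hρ hbij γ (twe_rc_sig hρ hbij γ' i)
  have h2 := twe_rc_sig_spec hρ hbij γ' i
  have h3 := mul_mem h1 h2
  have h4 : (ρ (twe_rc_sig hρ hbij γ (twe_rc_sig hρ hbij γ' i)))⁻¹ * (γ : 𝔾) *
      ρ (twe_rc_sig hρ hbij γ' i) * ((ρ (twe_rc_sig hρ hbij γ' i))⁻¹ * (γ' : 𝔾) * ρ i) =
      (ρ (twe_rc_sig hρ hbij γ (twe_rc_sig hρ hbij γ' i)))⁻¹ * ((γ * γ' : Γ) : 𝔾) * ρ i := by
    rw [Subgroup.coe_mul]
    group
  rwa [h4] at h3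

/-- `σ_γ` as a permutation. -/
def twe_rc_perm (γ : Γ) : Equiv.Perm ι where
  toFun := twe_rc_sig hρ hbij γ
  invFun := twe_rc_sig hρ hbij γ⁻¹
  left_inv i := by rw [← twe_rc_sig_mul, inv_mul_cancel, twe_rc_sig_one]
  right_inv i := by rw [← twe_rc_sig_mul, mul_inv_cancel, twe_rc_sig_one]

theorem twe_rc_perm_apply (γ : Γ) (i : ι) :
    twe_rc_perm hρ hbij γ i = twe_rc_sig hρ hbij γ i := rfl

/-- the transfer cocycle `ρ_{σ_γ(i)}⁻¹ γ ρ_i ∈ Γ'`. -/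
def twe_rc_term (γ : Γ) (i : ι) : Γ' :=
  ⟨(ρ (twe_rc_sig hρ hbij γ i))⁻¹ * (γ : 𝔾) * ρ i, twe_rc_sig_spec hρ hbij γ i⟩

theorem twe_rc_term_coe (γ : Γ) (i : ι) :
    ((twe_rc_term hρ hbij γ i : Γ') : 𝔾) = (ρ (twe_rc_sig hρ hbij γ i))⁻¹ * (γ : 𝔾) * ρ i := rfl

theorem twe_rc_term_one (i : ι) : twe_rc_term hρ hbij 1 i = 1 := by
  apply Subtype.ext
  rw [twe_rc_term_coe, twe_rc_sig_one, Subgroup.coe_one, mul_one, inv_mul_cancel]
  rfl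

theorem twe_rc_term_mul (γ γ' : Γ) (i : ι) :
    twe_rc_term hρ hbij (γ * γ') i =
      twe_rc_term hρ hbij γ (twe_rc_sig hρ hbij γ' i) * twe_rc_term hρ hbij γ' i := by
  apply Subtype.ext
  rw [Subgroup.coe_mul, twe_rc_term_coe, twe_rc_term_coe, twe_rc_term_coe, twe_rc_sig_mul,
    Subgroup.coe_mul]
  group

end sys

/-! ### 2. The transfer -/

section cor

variable {𝔾 : Type*} [Group 𝔾] {Γ Γ' : Subgroup 𝔾} {ι : Type*} [Fintype ι] {ρ : ι → 𝔾}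
  {A : Type*} [AddCommGroup A]
  (hρ : ∀ i, ρ i ∈ Γ) (hbij : ∀ γ ∈ Γ, ∃! i, (ρ i)⁻¹ * γ ∈ Γ')

/-- the transfer `Hom(Γ', A) → Hom(Γ, A)` attached to a system `ρ` of left coset representatives. -/
def twe_rc_corFun (z : Additive Γ' →+ A) : Additive Γ →+ A where
  toFun g := ∑ i : ι, z (Additive.ofMul (twe_rc_term hρ hbij (Additive.toMul g) i))
  map_zero' := by
    simp only [toMul_zero, twe_rc_term_one, ofMul_one, map_zero, Finset.sum_const_zero]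
  map_add' g h := by
    simp only [toMul_add, twe_rc_term_mul, ofMul_mul, map_add, Finset.sum_add_distrib]
    congr 1
    exact Equiv.sum_comp (twe_rc_perm hρ hbij (Additive.toMul h))
      fun i => z (Additive.ofMul (twe_rc_term hρ hbij (Additive.toMul g) i))

theorem twe_rc_corFun_apply (z : Additive Γ' →+ A) (γ : Γ) :
    twe_rc_corFun hρ hbij z (Additive.ofMul γ) =
      ∑ i : ι, z (Additive.ofMul (twe_rc_term hρ hbij γ i)) := rfl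

/-- the transfer, additive in the character. -/
def twe_rc_cor : (Additive Γ' →+ A) →+ (Additive Γ →+ A) where
  toFun := twe_rc_corFun hρ hbij
  map_zero' := by
    refine AddMonoidHom.ext fun g => ?_
    obtain ⟨g, rfl⟩ := Additive.ofMul.surjective g
    rw [twe_rc_corFun_apply]
    simp
  map_add' z z' := by
    refine AddMonoidHom.ext fun g => ?_
    obtain ⟨g, rfl⟩ := Additive.ofMul.surjective g
    rw [AddMonoidHom.add_apply, twe_rc_corFun_apply, twe_rc_corFun_apply, twe_rc_corFun_apply,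
      ← Finset.sum_add_distrib]
    rfl

theorem twe_rc_cor_apply (z : Additive Γ' →+ A) (γ : Γ) :
    twe_rc_cor hρ hbij z (Additive.ofMul γ) =
      ∑ i : ι, z (Additive.ofMul (twe_rc_term hρ hbij γ i)) := rfl

/-- the transfer formula in the double-sum form of `lrpd_IsCores`. -/
theorem twe_rc_cor_double (z : Additive Γ' →+ A) (γ : Γ) :
    twe_rc_cor hρ hbij z (Additive.ofMul γ) = ∑ i : ι, ∑ j : ι,
      (open Classical in
        if h : (ρ j)⁻¹ * (γ : 𝔾) * ρ i ∈ Γ' then z (Additive.ofMul ⟨_, h⟩) else 0) := by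
  classical
  rw [twe_rc_cor_apply]
  refine Finset.sum_congr rfl fun i _ => ?_
  rw [Finset.sum_eq_single (twe_rc_sig hρ hbij γ i)]
  · rw [dif_pos (twe_rc_sig_spec hρ hbij γ i)]
    rfl
  · intro j _ hj
    rw [dif_neg]
    intro hcon
    exact hj (twe_rc_sig_unique hρ hbij γ i hcon)
  · intro hcon
    exact absurd (Finset.mem_univ _) hcon

end cor

/-! ### 3. `cor ∘ res = [Γ : Γ']` and the transfer kills what the character kills -/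

section general

variable {𝔾 : Type*} [Group 𝔾] {Γ Γ' : Subgroup 𝔾} {ι : Type*} [Fintype ι] {ρ : ι → 𝔾}
  {A : Type*} [AddCommGroup A]
  (hρ : ∀ i, ρ i ∈ Γ) (hbij : ∀ γ ∈ Γ, ∃! i, (ρ i)⁻¹ * γ ∈ Γ')

/-- **`cor ∘ res = [Γ : Γ']`**. -/
theorem twe_rc_cor_res (hle : Γ' ≤ Γ) (x : Additive Γ →+ A) :
    twe_rc_cor hρ hbij (lrpd_pull (Subgroup.inclusion hle) x) = Fintype.card ι • x := by
  refine AddMonoidHom.ext fun g => ?_
  obtain ⟨γ, rfl⟩ := Additive.ofMul.surjective g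
  rw [twe_rc_cor_apply]
  have h : ∀ i : ι, lrpd_pull (Subgroup.inclusion hle) x
      (Additive.ofMul (twe_rc_term hρ hbij γ i)) =
      - x (Additive.ofMul ⟨ρ (twe_rc_sig hρ hbij γ i), hρ _⟩) + x (Additive.ofMul γ) +
        x (Additive.ofMul ⟨ρ i, hρ i⟩) := by
    intro i
    rw [lrpd_pull_apply]
    have : Subgroup.inclusion hle (twe_rc_term hρ hbij γ i) =
        (⟨ρ (twe_rc_sig hρ hbij γ i), hρ _⟩ : Γ)⁻¹ * γ * ⟨ρ i, hρ i⟩ := by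
      apply Subtype.ext
      rfl
    rw [this, ofMul_mul, ofMul_mul, ofMul_inv, map_add, map_add, map_neg]
  rw [Finset.sum_congr rfl fun i _ => h i, Finset.sum_add_distrib, Finset.sum_add_distrib,
    Finset.sum_neg_distrib]
  have h2 : ∑ i : ι, x (Additive.ofMul (⟨ρ (twe_rc_sig hρ hbij γ i), hρ _⟩ : Γ)) =
      ∑ i : ι, x (Additive.ofMul (⟨ρ i, hρ i⟩ : Γ)) :=
    Equiv.sum_comp (twe_rc_perm hρ hbij γ) fun i => x (Additive.ofMul (⟨ρ i, hρ i⟩ : Γ))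
  rw [h2, Finset.sum_const, Finset.card_univ, AddMonoidHom.smul_apply]
  abel

omit [Fintype ι] in
theorem twe_rc_perm_pow (γ : Γ) (n : ℕ) :
    (twe_rc_perm hρ hbij γ) ^ n = twe_rc_perm hρ hbij (γ ^ n) := by
  induction n with
  | zero =>
    ext i
    rw [pow_zero, pow_zero, Equiv.Perm.one_apply, twe_rc_perm_apply, twe_rc_sig_one]
  | succ n ih =>
    ext i
    rw [pow_succ, Equiv.Perm.mul_apply, ih, twe_rc_perm_apply, twe_rc_perm_apply, pow_succ,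
      twe_rc_perm_apply, twe_rc_sig_mul]

omit [Fintype ι] in
theorem twe_rc_term_pow (z : Additive Γ' →+ A) (γ : Γ) (n : ℕ) (i : ι) :
    z (Additive.ofMul (twe_rc_term hρ hbij (γ ^ n) i)) =
      ∑ k ∈ Finset.range n,
        z (Additive.ofMul (twe_rc_term hρ hbij γ (((twe_rc_perm hρ hbij γ) ^ k) i))) := by
  induction n generalizing i with
  | zero => simp [twe_rc_term_one]
  | succ n ih =>
    rw [pow_succ, twe_rc_term_mul, ofMul_mul, map_add, ih, Finset.sum_range_succ', pow_zero,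
      Equiv.Perm.one_apply]
    congr 1

/-- the transfer of a character killing a class `P` of elements (stable under powers and
conjugation) kills `P`. -/
theorem twe_rc_cor_kills (P : 𝔾 → Prop) (hpow : ∀ g (n : ℕ), P g → P (g ^ n))
    (hconj : ∀ g h, P g → P (h⁻¹ * g * h)) (z : Additive Γ' →+ A)
    (hz : ∀ n : Γ', P (n : 𝔾) → z (Additive.ofMul n) = 0) (γ : Γ) (hγ : P (γ : 𝔾)) :
    twe_rc_cor hρ hbij z (Additive.ofMul γ) = 0 := by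
  rw [twe_rc_cor_apply]
  refine lrh_sum_eq_zero_of_orbits (twe_rc_perm hρ hbij γ)
    (fun i => z (Additive.ofMul (twe_rc_term hρ hbij γ i))) ?_
  intro i n _ hi
  rw [← twe_rc_term_pow]
  apply hz
  rw [twe_rc_perm_pow, twe_rc_perm_apply] at hi
  rw [twe_rc_term_coe, hi, Subgroup.coe_pow]
  exact hconj _ _ (hpow _ n hγ)

end general

/-! ### 4. The normal case: `res ∘ cor = N_{Γ/Γ'}` and `cor ∘ conj = cor` -/

section normal

variable {𝔾 : Type*} [Group 𝔾] {Γ Γ' : Subgroup 𝔾} {A : Type*} [AddCommGroup A]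
  (hnorm : ∀ g ∈ Γ, ∀ n ∈ Γ', g⁻¹ * n * g ∈ Γ')

/-- conjugation `n ↦ g⁻¹ n g` of `Γ'` by `g ∈ Γ` (`Γ` normalises `Γ'`). -/
def twe_rc_conjHom (g : Γ) : Γ' →* Γ' where
  toFun n := ⟨(g : 𝔾)⁻¹ * n * g, hnorm g g.2 n n.2⟩
  map_one' := by
    apply Subtype.ext
    simp
  map_mul' a b := by
    apply Subtype.ext
    simp only [Subgroup.coe_mul]
    group

theorem twe_rc_conjHom_coe (g : Γ) (n : Γ') :
    ((twe_rc_conjHom hnorm g n : Γ') : 𝔾) = (g : 𝔾)⁻¹ * n * g := rfl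

/-- the action of `g ∈ Γ` on the characters of `Γ'`: `(g • z)(n) = z (g⁻¹ n g)`. -/
def twe_rc_conj (g : Γ) (z : Additive Γ' →+ A) : Additive Γ' →+ A :=
  lrpd_pull (twe_rc_conjHom hnorm g) z

theorem twe_rc_conj_apply (g : Γ) (z : Additive Γ' →+ A) (n : Γ') :
    twe_rc_conj hnorm g z (Additive.ofMul n) = z (Additive.ofMul (twe_rc_conjHom hnorm g n)) :=
  rfl

/-- restrictions from `Γ` are invariant. -/
theorem twe_rc_conj_res (hle : Γ' ≤ Γ) (g : Γ) (x : Additive Γ →+ A) :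
    twe_rc_conj hnorm g (lrpd_pull (Subgroup.inclusion hle) x) =
      lrpd_pull (Subgroup.inclusion hle) x := by
  refine AddMonoidHom.ext fun n => ?_
  obtain ⟨n, rfl⟩ := Additive.ofMul.surjective n
  rw [twe_rc_conj_apply, lrpd_pull_apply, lrpd_pull_apply]
  have : Subgroup.inclusion hle (twe_rc_conjHom hnorm g n) = g⁻¹ * Subgroup.inclusion hle n * g := by
    apply Subtype.ext
    rfl
  rw [this, ofMul_mul, ofMul_mul, ofMul_inv, map_add, map_add, map_neg]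
  abel

variable {ι : Type*} [Fintype ι] {ρ : ι → 𝔾}
  (hρ : ∀ i, ρ i ∈ Γ) (hbij : ∀ γ ∈ Γ, ∃! i, (ρ i)⁻¹ * γ ∈ Γ')

omit [Fintype ι] in
include hnorm in
theorem twe_rc_sig_of_mem (hle : Γ' ≤ Γ) (n : Γ') (i : ι) :
    twe_rc_sig hρ hbij (Subgroup.inclusion hle n) i = i := by
  symm
  refine twe_rc_sig_unique hρ hbij _ i ?_
  exact hnorm (ρ i) (hρ i) n n.2

/-- **`res ∘ cor = ∑ᵢ conj(ρᵢ)`** (the norm of `Γ / Γ'`). -/
theorem twe_rc_res_cor (hle : Γ' ≤ Γ) (z : Additive Γ' →+ A) :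
    lrpd_pull (Subgroup.inclusion hle) (twe_rc_cor hρ hbij z) =
      ∑ i : ι, twe_rc_conj hnorm ⟨ρ i, hρ i⟩ z := by
  refine AddMonoidHom.ext fun n => ?_
  obtain ⟨n, rfl⟩ := Additive.ofMul.surjective n
  rw [lrpd_pull_apply, twe_rc_cor_apply, AddMonoidHom.finsetSum_apply]
  refine Finset.sum_congr rfl fun i _ => ?_
  rw [twe_rc_conj_apply]
  congr 2
  apply Subtype.ext
  rw [twe_rc_term_coe, twe_rc_sig_of_mem hnorm hρ hbij hle n i]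
  rfl

/-! #### `cor ∘ conj(g) = cor` (independence of the representatives) -/

/-- `τ_g(i)` : the index with `ρ_i g ∈ ρ_{τ_g(i)} Γ'`. -/
def twe_rc_tau (g : Γ) (i : ι) : ι :=
  twe_rc_idx hbij (ρ i * (g : 𝔾)) (mul_mem (hρ i) g.2)

omit [Fintype ι] in
theorem twe_rc_tau_spec (g : Γ) (i : ι) :
    (ρ (twe_rc_tau hρ hbij g i))⁻¹ * ρ i * (g : 𝔾) ∈ Γ' := by
  have := twe_rc_idx_spec hbij (ρ i * (g : 𝔾)) (mul_mem (hρ i) g.2)
  rwa [← mul_assoc] at this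

omit [Fintype ι] in
theorem twe_rc_tau_unique (g : Γ) (i : ι) {j : ι} (h : (ρ j)⁻¹ * ρ i * (g : 𝔾) ∈ Γ') :
    j = twe_rc_tau hρ hbij g i := by
  refine twe_rc_idx_unique hbij _ _ ?_
  rwa [← mul_assoc]

omit [Fintype ι] in
include hnorm in
theorem twe_rc_tau_inv (g : Γ) (i : ι) :
    twe_rc_tau hρ hbij g⁻¹ (twe_rc_tau hρ hbij g i) = i := by
  symm
  refine twe_rc_tau_unique hρ hbij g⁻¹ _ ?_
  have h1 := inv_mem (twe_rc_tau_spec hρ hbij g i)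
  have h2 := hnorm (g⁻¹ : Γ) (g⁻¹ : Γ).2 _ h1
  have h3 : ((g⁻¹ : Γ) : 𝔾)⁻¹ * ((ρ (twe_rc_tau hρ hbij g i))⁻¹ * ρ i * (g : 𝔾))⁻¹ *
      ((g⁻¹ : Γ) : 𝔾) = (ρ i)⁻¹ * ρ (twe_rc_tau hρ hbij g i) * ((g⁻¹ : Γ) : 𝔾) := by
    rw [Subgroup.coe_inv]
    group
  rwa [h3] at h2

/-- `τ_g` as a permutation. -/
def twe_rc_tauPerm (g : Γ) : Equiv.Perm ι where
  toFun := twe_rc_tau hρ hbij g
  invFun := twe_rc_tau hρ hbij g⁻¹
  left_inv i := twe_rc_tau_inv hnorm hρ hbij g i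
  right_inv i := by
    have := twe_rc_tau_inv hnorm hρ hbij g⁻¹ i
    rwa [inv_inv] at this

/-- `ν_g(i) = ρ_{τ_g(i)}⁻¹ ρ_i g ∈ Γ'`. -/
def twe_rc_nu (g : Γ) (i : ι) : Γ' :=
  ⟨(ρ (twe_rc_tau hρ hbij g i))⁻¹ * ρ i * (g : 𝔾), twe_rc_tau_spec hρ hbij g i⟩

omit [Fintype ι] in
include hnorm in
theorem twe_rc_tau_sig (g γ : Γ) (i : ι) :
    twe_rc_tau hρ hbij g (twe_rc_sig hρ hbij γ i) =
      twe_rc_sig hρ hbij γ (twe_rc_tau hρ hbij g i) := by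
  refine twe_rc_sig_unique hρ hbij γ _ ?_
  have h1 := twe_rc_tau_spec hρ hbij g (twe_rc_sig hρ hbij γ i)
  have h2 := hnorm g g.2 _ (twe_rc_sig_spec hρ hbij γ i)
  have h3 := inv_mem (twe_rc_tau_spec hρ hbij g i)
  have h4 := mul_mem (mul_mem h1 h2) h3
  have h5 : (ρ (twe_rc_tau hρ hbij g (twe_rc_sig hρ hbij γ i)))⁻¹ * ρ (twe_rc_sig hρ hbij γ i) *
      (g : 𝔾) * ((g : 𝔾)⁻¹ * ((ρ (twe_rc_sig hρ hbij γ i))⁻¹ * (γ : 𝔾) * ρ i) * (g : 𝔾)) *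
      ((ρ (twe_rc_tau hρ hbij g i))⁻¹ * ρ i * (g : 𝔾))⁻¹ =
      (ρ (twe_rc_tau hρ hbij g (twe_rc_sig hρ hbij γ i)))⁻¹ * (γ : 𝔾) *
        ρ (twe_rc_tau hρ hbij g i) := by
    group
  rwa [h5] at h4

omit [Fintype ι] in
theorem twe_rc_term_tau (g γ : Γ) (i : ι) :
    twe_rc_term hρ hbij γ (twe_rc_tau hρ hbij g i) =
      twe_rc_nu hρ hbij g (twe_rc_sig hρ hbij γ i) *
        twe_rc_conjHom hnorm g (twe_rc_term hρ hbij γ i) * (twe_rc_nu hρ hbij g i)⁻¹ := by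
  apply Subtype.ext
  rw [Subgroup.coe_mul, Subgroup.coe_mul, Subgroup.coe_inv, twe_rc_term_coe, twe_rc_conjHom_coe,
    twe_rc_term_coe, ← twe_rc_tau_sig hnorm hρ hbij g γ i]
  show _ = (ρ (twe_rc_tau hρ hbij g (twe_rc_sig hρ hbij γ i)))⁻¹ * ρ (twe_rc_sig hρ hbij γ i) *
      (g : 𝔾) * ((g : 𝔾)⁻¹ * ((ρ (twe_rc_sig hρ hbij γ i))⁻¹ * (γ : 𝔾) * ρ i) * (g : 𝔾)) *
      ((ρ (twe_rc_tau hρ hbij g i))⁻¹ * ρ i * (g : 𝔾))⁻¹
  group

/-- **`cor ∘ conj(g) = cor`** for `g ∈ Γ`. -/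
theorem twe_rc_cor_conj (g : Γ) (z : Additive Γ' →+ A) :
    twe_rc_cor hρ hbij (twe_rc_conj hnorm g z) = twe_rc_cor hρ hbij z := by
  refine AddMonoidHom.ext fun γ => ?_
  obtain ⟨γ, rfl⟩ := Additive.ofMul.surjective γ
  rw [twe_rc_cor_apply, twe_rc_cor_apply]
  have h : ∀ i : ι, twe_rc_conj hnorm g z (Additive.ofMul (twe_rc_term hρ hbij γ i)) =
      z (Additive.ofMul (twe_rc_term hρ hbij γ (twe_rc_tau hρ hbij g i))) -
        z (Additive.ofMul (twe_rc_nu hρ hbij g (twe_rc_sig hρ hbij γ i))) +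
        z (Additive.ofMul (twe_rc_nu hρ hbij g i)) := by
    intro i
    rw [twe_rc_conj_apply, twe_rc_term_tau hnorm hρ hbij g γ i, ofMul_mul, ofMul_mul, ofMul_inv,
      map_add, map_add, map_neg]
    abel
  rw [Finset.sum_congr rfl fun i _ => h i, Finset.sum_add_distrib, Finset.sum_sub_distrib]
  have h1 : ∑ i : ι, z (Additive.ofMul (twe_rc_nu hρ hbij g (twe_rc_sig hρ hbij γ i))) =
      ∑ i : ι, z (Additive.ofMul (twe_rc_nu hρ hbij g i)) :=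
    Equiv.sum_comp (twe_rc_perm hρ hbij γ) fun i => z (Additive.ofMul (twe_rc_nu hρ hbij g i))
  have h2 : ∑ i : ι, z (Additive.ofMul (twe_rc_term hρ hbij γ (twe_rc_tau hρ hbij g i))) =
      ∑ i : ι, z (Additive.ofMul (twe_rc_term hρ hbij γ i)) :=
    Equiv.sum_comp (twe_rc_tauPerm hnorm hρ hbij g)
      fun i => z (Additive.ofMul (twe_rc_term hρ hbij γ i))
  rw [h1, h2]
  abel

end normal

/-! ### 5. Subgroups of `SL(2, ℤ)`: the transfer on `PE` characters -/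

section SL2

open scoped MatrixGroups

theorem twe_rc_tr_conj (h γ : SL(2, ℤ)) : lrpd_tr (h⁻¹ * γ * h) = lrpd_tr γ := by
  have h1 : ∀ g : SL(2, ℤ), lrpd_tr g = (g : Matrix (Fin 2) (Fin 2) ℤ).trace :=
    fun g => (Matrix.trace_fin_two _).symm
  rw [h1, h1, Matrix.SpecialLinearGroup.coe_mul, Matrix.SpecialLinearGroup.coe_mul,
    Matrix.trace_mul_comm, ← Matrix.mul_assoc, ← Matrix.SpecialLinearGroup.coe_mul,
    mul_inv_cancel, Matrix.SpecialLinearGroup.coe_one, Matrix.one_mul]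

theorem twe_rc_tr_pow (γ : SL(2, ℤ)) (h : lrpd_tr γ ^ 2 ≤ 4) (n : ℕ) :
    lrpd_tr (γ ^ n) ^ 2 ≤ 4 := by
  have h1 : ∀ g : SL(2, ℤ), lrpd_tr g = (g : Matrix (Fin 2) (Fin 2) ℤ).trace :=
    fun g => (Matrix.trace_fin_two _).symm
  rw [h1] at h ⊢
  exact Fermat.Agent.JT3.t2e_trace_pow_sq_le γ h n

variable {Γ Γ' : Subgroup SL(2, ℤ)} {ι : Type*} [Fintype ι] {ρ : ι → SL(2, ℤ)}
  {A : Type*} [AddCommGroup A]
  (hρ : ∀ i, ρ i ∈ Γ) (hbij : ∀ γ ∈ Γ, ∃! i, (ρ i)⁻¹ * γ ∈ Γ')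

/-- the transfer preserves the parabolic-elliptic-killing characters. -/
theorem twe_rc_cor_PE {z : Additive Γ' →+ A} (hz : lrpd_PE Γ' z) :
    lrpd_PE Γ (twe_rc_cor hρ hbij z) := by
  intro γ hγ
  exact twe_rc_cor_kills hρ hbij (fun g : SL(2, ℤ) => lrpd_tr g ^ 2 ≤ 4)
    (fun g n hg => twe_rc_tr_pow g hg n) (fun g h hg => by rw [twe_rc_tr_conj]; exact hg)
    z (fun n hn => hz n hn) γ hγ

/-- `twe_rc_cor` satisfies the transfer formula `lrpd_IsCores` of LR/PD. -/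
theorem twe_rc_isCores (z : Additive Γ' →+ A) :
    lrpd_IsCores Γ Γ' ρ z (twe_rc_cor hρ hbij z) :=
  fun γ => twe_rc_cor_double hρ hbij z γ

/-- `lrpd_IsCores` determines the transfer. -/
theorem twe_rc_eq_of_isCores {z : Additive Γ' →+ A} {c : Additive Γ →+ A}
    (hc : lrpd_IsCores Γ Γ' ρ z c) : c = twe_rc_cor hρ hbij z := by
  refine AddMonoidHom.ext fun γ => ?_
  obtain ⟨γ, rfl⟩ := Additive.ofMul.surjective γ
  rw [hc γ, twe_rc_cor_double]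

/-- conjugation preserves `PE`. -/
theorem twe_rc_conj_PE (hnorm : ∀ g ∈ Γ, ∀ n ∈ Γ', g⁻¹ * n * g ∈ Γ') (g : Γ)
    {z : Additive Γ' →+ A} (hz : lrpd_PE Γ' z) : lrpd_PE Γ' (twe_rc_conj hnorm g z) := by
  intro n hn
  rw [twe_rc_conj_apply]
  apply hz
  rw [twe_rc_conjHom_coe, twe_rc_tr_conj]
  exact hn

end SL2

end Fermat.Agent.TW
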