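/-
Project ONE MACHINE, block [E] AUT, infrastructure for E/Free (helper22): THE MODULES `W(Γ, A)` AS
`R`-MODULES AND THEIR OPERATORS AS `R`-LINEAR MAPS.  Prefix `twe_wl_`, namespace `Fermat.Agent.TW`.

`R` a commutative ring, `A` an `R`-module (`R = A = k` for the freeness argument, `R = A = 𝒪` for the
lift):
* `twe_wl_V R A Γ : Submodule R (Additive Γ →+ A)` : the `lrpd_PE` characters (`= twe_W Γ A`);
* `twe_wl_finite`, `twe_wl_finite_V` : finiteness for `Γ` of finite index (`SL(2, ℤ) = ⟨S, T⟩`);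
* `twe_wl_T`   : `T'_ℓ` (`twe_hk_T`) on `V(Γ_H)`;   `twe_wl_T0` : `T_ℓ` (`t2c_Tadd`) on `V(Γ₀(M))`;
* `twe_wl_conj`: the diamond action (`twe_conj`) on `V(Γ_H)`;
* `twe_wl_res` : restriction `V(Γ) → V(Γ')`;   `twe_wl_cor` : the transfer (`twe_rc_cor`) `V(Γ') → V(Γ)`;
* `twe_wl_map` : change of coefficients `V(Γ, A) → V(Γ, A')` along an `R`-linear map.
Each comes with a `_coe` lemma reducing to the additive statement, so that the landed identities
(`twe_hk_T_conj`, `twe_hk_T_res`, `twe_hk_T_res_top`, `twe_hc_comm`, `twe_rc_res_cor`, `twe_eis_*`, …)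
transfer by `Subtype.ext`.
-/
import Mathlib
import Fermat.Agent.TW.Aut.HeckePE
import Fermat.Agent.TW.Aut.HeckeConj
import Fermat.Agent.TW.Aut.HeckeRes
import Fermat.Agent.TW.Aut.ResCor

set_option autoImplicit false

noncomputable section

open CongruenceSubgroup Matrix.SpecialLinearGroup ModularGroup
open scoped MatrixGroups

namespace Fermat.Agent.TW

open Fermat.Agent.JT3 Fermat.Agent.LR

section general

variable (R : Type*) [CommRing R] (A : Type*) [AddCommGroup A] [Module R A]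

/-- **`W(Γ, A)` as an `R`-submodule** of `Hom(Γ, A)`. -/
def twe_wl_V (Γ : Subgroup SL(2, ℤ)) : Submodule R (Additive Γ →+ A) where
  carrier := {x | lrpd_PE Γ x}
  zero_mem' := fun _ _ => rfl
  add_mem' {x y} hx hy := fun γ hγ => by
    rw [AddMonoidHom.add_apply, hx γ hγ, hy γ hγ, add_zero]
  smul_mem' a x hx := fun γ hγ => by
    rw [AddMonoidHom.smul_apply, hx γ hγ, smul_zero]

variable {R A}

@[simp] theorem twe_wl_mem_V {Γ : Subgroup SL(2, ℤ)} {x : Additive Γ →+ A} :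
    x ∈ twe_wl_V R A Γ ↔ lrpd_PE Γ x := Iff.rfl

/-- scalar multiplication of a character is post-composition. -/
theorem twe_wl_smul_eq_comp {G : Type*} [Group G] (a : R) (z : Additive G →+ A) :
    a • z = (DistribSMul.toAddMonoidHom A a).comp z := rfl

/-! ### Finiteness -/

theorem twe_wl_fg_SL2 : Group.FG SL(2, ℤ) := by
  rw [Group.fg_iff]
  exact ⟨{S, T}, SpecialLinearGroup.SL2Z_generators, Set.toFinite _⟩

/-- `Hom(G, A)` is a finite `R`-module for a finitely generated group `G`. -/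
theorem twe_wl_finite_hom [IsNoetherianRing R] [Module.Finite R A] (G : Type*) [Group G]
    [hG : Group.FG G] : Module.Finite R (Additive G →+ A) := by
  classical
  obtain ⟨Sg, hSg, hfin⟩ := Group.fg_iff.1 hG
  haveI : Finite Sg := hfin
  let ev : (Additive G →+ A) →ₗ[R] (Sg → A) :=
    { toFun := fun x s => x (Additive.ofMul (s : G))
      map_add' := fun x y => rfl
      map_smul' := fun a x => rfl }
  have hinj : Function.Injective ev := by
    intro x y hxy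
    have h1 : AddMonoidHom.toMultiplicativeRight x = AddMonoidHom.toMultiplicativeRight y := by
      refine MonoidHom.eq_of_eqOn_dense hSg ?_
      intro s hs
      have := congrFun hxy ⟨s, hs⟩
      show Multiplicative.ofAdd (x (Additive.ofMul s)) = Multiplicative.ofAdd (y (Additive.ofMul s))
      rw [show x (Additive.ofMul s) = y (Additive.ofMul s) from this]
    refine AddMonoidHom.ext fun g => ?_
    have h2 := DFunLike.congr_fun h1 (Additive.toMul g)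
    exact Multiplicative.ofAdd.injective h2
  haveI : IsNoetherian R (Sg → A) := isNoetherian_of_isNoetherianRing_of_finite R _
  exact Module.Finite.of_injective ev hinj

theorem twe_wl_finite [IsNoetherianRing R] [Module.Finite R A] (Γ : Subgroup SL(2, ℤ))
    [Γ.FiniteIndex] : Module.Finite R (Additive Γ →+ A) := by
  haveI := twe_wl_fg_SL2
  haveI : Group.FG Γ := Subgroup.fg_of_index_ne_zero Γ
  exact twe_wl_finite_hom Γ

theorem twe_wl_finite_V [IsNoetherianRing R] [Module.Finite R A] (Γ : Subgroup SL(2, ℤ))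
    [Γ.FiniteIndex] : Module.Finite R ↥(twe_wl_V R A Γ) := by
  haveI := twe_wl_finite (R := R) (A := A) Γ
  haveI : IsNoetherian R (Additive Γ →+ A) := isNoetherian_of_isNoetherianRing_of_finite R _
  infer_instance

/-! ### Restriction, transfer, change of coefficients -/

/-- restriction `V(Γ) → V(Γ')`. -/
def twe_wl_res {Γ Γ' : Subgroup SL(2, ℤ)} (hle : Γ' ≤ Γ) :
    ↥(twe_wl_V R A Γ) →ₗ[R] ↥(twe_wl_V R A Γ') where
  toFun x := ⟨lrpd_pull (Subgroup.inclusion hle) x.1, twe_res_PE hle x.2⟩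
  map_add' _ _ := rfl
  map_smul' _ _ := rfl

@[simp] theorem twe_wl_res_coe {Γ Γ' : Subgroup SL(2, ℤ)} (hle : Γ' ≤ Γ)
    (x : ↥(twe_wl_V R A Γ)) :
    (twe_wl_res hle x : Additive Γ' →+ A) = lrpd_pull (Subgroup.inclusion hle) x.1 := rfl

/-- naturality of the transfer in the coefficients. -/
theorem twe_wl_cor_comp {𝔾 : Type*} [Group 𝔾] {Γ Γ' : Subgroup 𝔾} {ι : Type*} [Fintype ι]
    {ρ : ι → 𝔾} (hρ : ∀ i, ρ i ∈ Γ) (hbij : ∀ γ ∈ Γ, ∃! i, (ρ i)⁻¹ * γ ∈ Γ')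
    {A' : Type*} [AddCommGroup A'] (φ : A →+ A') (z : Additive Γ' →+ A) :
    twe_rc_cor hρ hbij (φ.comp z) = φ.comp (twe_rc_cor hρ hbij z) := by
  refine AddMonoidHom.ext fun γ => ?_
  obtain ⟨γ, rfl⟩ := Additive.ofMul.surjective γ
  rw [AddMonoidHom.comp_apply, twe_rc_cor_apply, twe_rc_cor_apply, map_sum]
  rfl

/-- the transfer `V(Γ') → V(Γ)` attached to a system of left coset representatives. -/
def twe_wl_cor {Γ Γ' : Subgroup SL(2, ℤ)} {ι : Type*} [Fintype ι] {ρ : ι → SL(2, ℤ)}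
    (hρ : ∀ i, ρ i ∈ Γ) (hbij : ∀ γ ∈ Γ, ∃! i, (ρ i)⁻¹ * γ ∈ Γ') :
    ↥(twe_wl_V R A Γ') →ₗ[R] ↥(twe_wl_V R A Γ) where
  toFun z := ⟨twe_rc_cor hρ hbij z.1, twe_rc_cor_PE hρ hbij z.2⟩
  map_add' z z' := by
    apply Subtype.ext
    show twe_rc_cor hρ hbij (z.1 + z'.1) = twe_rc_cor hρ hbij z.1 + twe_rc_cor hρ hbij z'.1
    rw [map_add]
  map_smul' a z := by
    apply Subtype.ext
    show twe_rc_cor hρ hbij (a • z.1) = a • twe_rc_cor hρ hbij z.1
    rw [twe_wl_smul_eq_comp, twe_wl_cor_comp, ← twe_wl_smul_eq_comp]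

@[simp] theorem twe_wl_cor_coe {Γ Γ' : Subgroup SL(2, ℤ)} {ι : Type*} [Fintype ι]
    {ρ : ι → SL(2, ℤ)} (hρ : ∀ i, ρ i ∈ Γ) (hbij : ∀ γ ∈ Γ, ∃! i, (ρ i)⁻¹ * γ ∈ Γ')
    (z : ↥(twe_wl_V R A Γ')) :
    (twe_wl_cor hρ hbij z : Additive Γ →+ A) = twe_rc_cor hρ hbij z.1 := rfl

/-- change of coefficients along an `R`-linear map. -/
def twe_wl_map {A' : Type*} [AddCommGroup A'] [Module R A'] (φ : A →ₗ[R] A')
    (Γ : Subgroup SL(2, ℤ)) : ↥(twe_wl_V R A Γ) →ₗ[R] ↥(twe_wl_V R A' Γ) where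
  toFun x := ⟨φ.toAddMonoidHom.comp x.1, fun γ hγ => by
    rw [AddMonoidHom.comp_apply, x.2 γ hγ, map_zero]⟩
  map_add' x y := by
    apply Subtype.ext
    refine AddMonoidHom.ext fun γ => ?_
    show φ (x.1 γ + y.1 γ) = φ (x.1 γ) + φ (y.1 γ)
    rw [map_add]
  map_smul' a x := by
    apply Subtype.ext
    refine AddMonoidHom.ext fun γ => ?_
    show φ (a • x.1 γ) = a • φ (x.1 γ)
    rw [map_smul]

@[simp] theorem twe_wl_map_coe {A' : Type*} [AddCommGroup A'] [Module R A'] (φ : A →ₗ[R] A')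
    (Γ : Subgroup SL(2, ℤ)) (x : ↥(twe_wl_V R A Γ)) :
    (twe_wl_map φ Γ x : Additive Γ →+ A') = φ.toAddMonoidHom.comp x.1 := rfl

end general

/-! ### The Hecke operators and the diamonds -/

section hecke

variable {R : Type*} [CommRing R] {A : Type*} [AddCommGroup A] [Module R A]
variable {M ℓ : ℕ} [Fact ℓ.Prime]

/-- **`T'_ℓ` as an `R`-linear endomorphism of `V(Γ_H)`.** -/
def twe_wl_T (hℓM : ¬ ℓ ∣ M) (H : Subgroup (ZMod M)ˣ) (s : Gamma0 M)
    (hs : twe_dUnit M s * twe_dUnit M s * (twe_hk_lU hℓM)⁻¹ ∈ H) :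
    Module.End R ↥(twe_wl_V R A (twe_GamH M H)) where
  toFun z := ⟨twe_hk_T hℓM H s hs z.1, twe_hk_T_PE hℓM H s hs z.2⟩
  map_add' z z' := by
    apply Subtype.ext
    show twe_hk_T hℓM H s hs (z.1 + z'.1) = twe_hk_T hℓM H s hs z.1 + twe_hk_T hℓM H s hs z'.1
    rw [map_add]
  map_smul' a z := by
    apply Subtype.ext
    show twe_hk_T hℓM H s hs (a • z.1) = a • twe_hk_T hℓM H s hs z.1
    rw [twe_wl_smul_eq_comp, twe_hk_T_comp, ← twe_wl_smul_eq_comp]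

@[simp] theorem twe_wl_T_coe (hℓM : ¬ ℓ ∣ M) (H : Subgroup (ZMod M)ˣ) (s : Gamma0 M)
    (hs : twe_dUnit M s * twe_dUnit M s * (twe_hk_lU hℓM)⁻¹ ∈ H)
    (z : ↥(twe_wl_V R A (twe_GamH M H))) :
    (twe_wl_T (R := R) hℓM H s hs z : Additive ↥(twe_GamH M H) →+ A) =
      twe_hk_T hℓM H s hs z.1 := rfl

theorem twe_wl_PE_iff_parEll (x : Additive ↥(Gamma0 M) →+ A) :
    lrpd_PE (Gamma0 M) x ↔ x ∈ gh_parEllHoms M A := by
  constructor
  · intro hx γ hγ
    refine hx γ ?_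
    unfold gh_IsParEll at hγ
    rw [Matrix.trace_fin_two] at hγ
    exact hγ
  · intro hx γ hγ
    refine hx γ ?_
    unfold gh_IsParEll
    rw [Matrix.trace_fin_two]
    exact hγ

/-- **`T_ℓ` as an `R`-linear endomorphism of `V(Γ₀(M))`.** -/
def twe_wl_T0 (hℓM : ¬ ℓ ∣ M) : Module.End R ↥(twe_wl_V R A (Gamma0 M)) where
  toFun x := ⟨t2c_Tadd hℓM x.1, (twe_wl_PE_iff_parEll _).2
    (t2e_Tadd_mem_parEllHoms hℓM ((twe_wl_PE_iff_parEll _).1 x.2))⟩
  map_add' x y := by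
    apply Subtype.ext
    show t2c_Tadd hℓM (x.1 + y.1) = t2c_Tadd hℓM x.1 + t2c_Tadd hℓM y.1
    rw [map_add]
  map_smul' a x := by
    apply Subtype.ext
    show t2c_Tadd hℓM (a • x.1) = a • t2c_Tadd hℓM x.1
    rw [twe_wl_smul_eq_comp, t2c_Tadd_comp, ← twe_wl_smul_eq_comp]

@[simp] theorem twe_wl_T0_coe (hℓM : ¬ ℓ ∣ M) (x : ↥(twe_wl_V R A (Gamma0 M))) :
    (twe_wl_T0 (R := R) hℓM x : Additive ↥(Gamma0 M) →+ A) = t2c_Tadd hℓM x.1 := rfl

/-- **the diamond action** of `g ∈ Γ₀(M)` on `V(Γ_H)`. -/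
def twe_wl_conj (H : Subgroup (ZMod M)ˣ) (g : Gamma0 M) :
    Module.End R ↥(twe_wl_V R A (twe_GamH M H)) where
  toFun z := ⟨twe_conj H g z.1, twe_conj_PE H g z.2⟩
  map_add' _ _ := rfl
  map_smul' _ _ := rfl

@[simp] theorem twe_wl_conj_coe (H : Subgroup (ZMod M)ˣ) (g : Gamma0 M)
    (z : ↥(twe_wl_V R A (twe_GamH M H))) :
    (twe_wl_conj (R := R) H g z : Additive ↥(twe_GamH M H) →+ A) = twe_conj H g z.1 := rfl

theorem twe_wl_conj_one (H : Subgroup (ZMod M)ˣ) :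
    twe_wl_conj (R := R) (A := A) H 1 = 1 := by
  refine LinearMap.ext fun z => Subtype.ext ?_
  rw [twe_wl_conj_coe, twe_conj_one]
  rfl

theorem twe_wl_conj_mul (H : Subgroup (ZMod M)ˣ) (g h : Gamma0 M) :
    twe_wl_conj (R := R) (A := A) H (g * h) = twe_wl_conj H g * twe_wl_conj H h := by
  refine LinearMap.ext fun z => Subtype.ext ?_
  rw [twe_wl_conj_coe, twe_conj_mul]
  rfl

theorem twe_wl_conj_of_mem (H : Subgroup (ZMod M)ˣ) (g : Gamma0 M)
    (hg : (g : SL(2, ℤ)) ∈ twe_GamH M H) : twe_wl_conj (R := R) (A := A) H g = 1 := by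
  refine LinearMap.ext fun z => Subtype.ext ?_
  rw [twe_wl_conj_coe, twe_conj_of_mem H g hg]
  rfl

/-- `T'` commutes with the diamonds. -/
theorem twe_wl_T_conj (hℓM : ¬ ℓ ∣ M) (H : Subgroup (ZMod M)ˣ) (s : Gamma0 M)
    (hs : twe_dUnit M s * twe_dUnit M s * (twe_hk_lU hℓM)⁻¹ ∈ H) (g : Gamma0 M)
    (z : ↥(twe_wl_V R A (twe_GamH M H))) :
    twe_wl_conj (R := R) H g (twe_wl_T hℓM H s hs z) = twe_wl_T hℓM H s hs (twe_wl_conj H g z) := by
  apply Subtype.ext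
  rw [twe_wl_conj_coe, twe_wl_T_coe, twe_wl_T_coe, twe_wl_conj_coe]
  exact (twe_hk_T_conj hℓM H s hs g z.1).symm

/-- restriction commutes with `T'` (`H ≤ H'`, the same `s`). -/
theorem twe_wl_T_res (hℓM : ¬ ℓ ∣ M) {H H' : Subgroup (ZMod M)ˣ} (h : H ≤ H') (s : Gamma0 M)
    (hs : twe_dUnit M s * twe_dUnit M s * (twe_hk_lU hℓM)⁻¹ ∈ H)
    (z : ↥(twe_wl_V R A (twe_GamH M H'))) :
    twe_wl_res (twe_GamH_mono h) (twe_wl_T (R := R) hℓM H' s (h hs) z) =
      twe_wl_T hℓM H s hs (twe_wl_res (twe_GamH_mono h) z) := by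
  apply Subtype.ext
  rw [twe_wl_res_coe, twe_wl_T_coe, twe_wl_T_coe, twe_wl_res_coe]
  exact twe_hk_T_res hℓM h s hs z.1

/-- restriction from `Γ₀(M)` intertwines `T_ℓ` and `T'_ℓ`. -/
theorem twe_wl_T_res_top (hℓM : ¬ ℓ ∣ M) (H : Subgroup (ZMod M)ˣ) (s : Gamma0 M)
    (hs : twe_dUnit M s * twe_dUnit M s * (twe_hk_lU hℓM)⁻¹ ∈ H)
    (x : ↥(twe_wl_V R A (Gamma0 M))) :
    twe_wl_res (twe_GamH_le M H) (twe_wl_T0 (R := R) hℓM x) =
      twe_wl_T hℓM H s hs (twe_wl_res (twe_GamH_le M H) x) := by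
  apply Subtype.ext
  rw [twe_wl_res_coe, twe_wl_T0_coe, twe_wl_T_coe, twe_wl_res_coe]
  exact twe_hk_T_res_top hℓM H s hs x.1

end hecke

end Fermat.Agent.TW
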