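/-
ONE MACHINE / block [E] AUT, LAYER 4 (concrete half), cell E/Full, part 2 (helper24).
Namespace `Fermat.Agent.TW`, prefix `twe_bl_`.

CONJUGATION BY `diag(m, 1)`.  For `m * B ∣ A` the map

    `twe_bl_cj m A B h : Γ₀(A) →* Γ₀(B)`,   `[[a, b], [c, d]] ↦ [[a, m b], [c / m, d]]`

(`= δ γ δ⁻¹`, `δ = diag(m, 1)`): `twe_bl_cj_apply` (entries), `twe_bl_cj_GL` (the identity
`δ · γ = (cj γ) · δ` in `GL(2, ℝ)`), `twe_bl_cj_injective`, `twe_bl_cj_tr` (the trace is preserved),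
`twe_bl_mem_range` (the image: `m ∣ b` and `B ∣ c`, `m B ... ` see the statement).
-/
import Mathlib
import Fermat.Agent.JT3.T2.Comm

set_option autoImplicit false

noncomputable section

open CongruenceSubgroup Matrix.SpecialLinearGroup
open P2MW.S_ModularForm_heckeT_slash_eq_self_of_mem_Gamma0.ModularForm.HeckeSlashInvariance
open scoped MatrixGroups

namespace Fermat.Agent.TW

open Fermat.Agent.JT3

/-- the matrix `[[a, m b], [c / m, d]]`. -/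
def twe_bl_cjMat (m : ℕ) (γ : SL(2, ℤ)) (h : (m : ℤ) ∣ γ 1 0) : SL(2, ℤ) :=
  ⟨!![γ 0 0, (m : ℤ) * γ 0 1; γ 1 0 / (m : ℤ), γ 1 1], by
    rw [Matrix.det_fin_two_of]
    have h1 : (m : ℤ) * γ 0 1 * (γ 1 0 / (m : ℤ)) = γ 0 1 * γ 1 0 := by
      obtain ⟨c, hc⟩ := h
      rw [hc]
      by_cases hm : (m : ℤ) = 0
      · rw [hm]; simp
      · rw [Int.mul_ediv_cancel_left _ hm]; ring
    rw [h1]
    exact det_eq γ⟩

theorem twe_bl_cjMat_00 (m : ℕ) (γ : SL(2, ℤ)) (h : (m : ℤ) ∣ γ 1 0) :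
    twe_bl_cjMat m γ h 0 0 = γ 0 0 := rfl

theorem twe_bl_cjMat_01 (m : ℕ) (γ : SL(2, ℤ)) (h : (m : ℤ) ∣ γ 1 0) :
    twe_bl_cjMat m γ h 0 1 = (m : ℤ) * γ 0 1 := rfl

theorem twe_bl_cjMat_10 (m : ℕ) (γ : SL(2, ℤ)) (h : (m : ℤ) ∣ γ 1 0) :
    twe_bl_cjMat m γ h 1 0 = γ 1 0 / (m : ℤ) := rfl

theorem twe_bl_cjMat_11 (m : ℕ) (γ : SL(2, ℤ)) (h : (m : ℤ) ∣ γ 1 0) :
    twe_bl_cjMat m γ h 1 1 = γ 1 1 := rfl

theorem twe_bl_cjMat_10_mul (m : ℕ) (γ : SL(2, ℤ)) (h : (m : ℤ) ∣ γ 1 0) :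
    (m : ℤ) * twe_bl_cjMat m γ h 1 0 = γ 1 0 := by
  rw [twe_bl_cjMat_10]
  exact Int.mul_ediv_cancel' h

theorem twe_bl_mul_apply (g h : SL(2, ℤ)) (i j : Fin 2) :
    (g * h) i j = g i 0 * h 0 j + g i 1 * h 1 j := by
  rw [Matrix.SpecialLinearGroup.coe_mul, Matrix.mul_apply, Fin.sum_univ_two]

variable {m A B : ℕ}

theorem twe_bl_dvd_entry (h : m * B ∣ A) (γ : Gamma0 A) : (m : ℤ) ∣ (γ : SL(2, ℤ)) 1 0 := by
  have h1 : ((m * B : ℕ) : ℤ) ∣ (γ : SL(2, ℤ)) 1 0 :=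
    (Int.natCast_dvd_natCast.mpr h).trans (t2c_dvd_of_mem γ.2)
  exact (Dvd.intro _ (by push_cast; rfl)).trans h1

theorem twe_bl_cjMat_mem (hm : m ≠ 0) (h : m * B ∣ A) (γ : Gamma0 A) :
    twe_bl_cjMat m (γ : SL(2, ℤ)) (twe_bl_dvd_entry h γ) ∈ Gamma0 B := by
  apply t2c_mem_of_dvd
  rw [twe_bl_cjMat_10]
  have h1 : ((m * B : ℕ) : ℤ) ∣ (γ : SL(2, ℤ)) 1 0 :=
    (Int.natCast_dvd_natCast.mpr h).trans (t2c_dvd_of_mem γ.2)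
  obtain ⟨c, hc⟩ := h1
  rw [hc]
  push_cast
  rw [mul_assoc, Int.mul_ediv_cancel_left _ (by exact_mod_cast hm)]
  exact Dvd.intro _ rfl

/-- **conjugation by `diag(m, 1)`** as a homomorphism `Γ₀(A) →* Γ₀(B)` (`m * B ∣ A`). -/
def twe_bl_cj (m A B : ℕ) (hm : m ≠ 0) (h : m * B ∣ A) : Gamma0 A →* Gamma0 B where
  toFun γ := ⟨twe_bl_cjMat m (γ : SL(2, ℤ)) (twe_bl_dvd_entry h γ), twe_bl_cjMat_mem hm h γ⟩
  map_one' := by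
    apply Subtype.ext
    ext i j
    fin_cases i <;> fin_cases j <;> simp [twe_bl_cjMat]
  map_mul' γ γ' := by
    apply Subtype.ext
    have hm' : (m : ℤ) ≠ 0 := by exact_mod_cast hm
    have e1 := twe_bl_cjMat_10_mul m (γ : SL(2, ℤ)) (twe_bl_dvd_entry h γ)
    have e2 := twe_bl_cjMat_10_mul m (γ' : SL(2, ℤ)) (twe_bl_dvd_entry h γ')
    have e3 := twe_bl_cjMat_10_mul m ((γ * γ' : Gamma0 A) : SL(2, ℤ)) (twe_bl_dvd_entry h (γ * γ'))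
    have hmul : ∀ i j : Fin 2, ((γ * γ' : Gamma0 A) : SL(2, ℤ)) i j =
        (γ : SL(2, ℤ)) i 0 * (γ' : SL(2, ℤ)) 0 j + (γ : SL(2, ℤ)) i 1 * (γ' : SL(2, ℤ)) 1 j := by
      intro i j
      rw [Subgroup.coe_mul]
      exact twe_bl_mul_apply _ _ i j
    rw [hmul] at e3
    ext i j
    show twe_bl_cjMat m ((γ * γ' : Gamma0 A) : SL(2, ℤ)) (twe_bl_dvd_entry h (γ * γ')) i j =
        (twe_bl_cjMat m (γ : SL(2, ℤ)) (twe_bl_dvd_entry h γ) *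
          twe_bl_cjMat m (γ' : SL(2, ℤ)) (twe_bl_dvd_entry h γ')) i j
    rw [twe_bl_mul_apply]
    fin_cases i <;> fin_cases j
    · show twe_bl_cjMat m ((γ * γ' : Gamma0 A) : SL(2, ℤ)) (twe_bl_dvd_entry h (γ * γ')) 0 0 =
        twe_bl_cjMat m (γ : SL(2, ℤ)) (twe_bl_dvd_entry h γ) 0 0 *
          twe_bl_cjMat m (γ' : SL(2, ℤ)) (twe_bl_dvd_entry h γ') 0 0 +
        twe_bl_cjMat m (γ : SL(2, ℤ)) (twe_bl_dvd_entry h γ) 0 1 *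
          twe_bl_cjMat m (γ' : SL(2, ℤ)) (twe_bl_dvd_entry h γ') 1 0
      rw [twe_bl_cjMat_00, twe_bl_cjMat_00, twe_bl_cjMat_00, twe_bl_cjMat_01, hmul]
      linear_combination (-(γ : SL(2, ℤ)) 0 1) * e2
    · show twe_bl_cjMat m ((γ * γ' : Gamma0 A) : SL(2, ℤ)) (twe_bl_dvd_entry h (γ * γ')) 0 1 =
        twe_bl_cjMat m (γ : SL(2, ℤ)) (twe_bl_dvd_entry h γ) 0 0 *
          twe_bl_cjMat m (γ' : SL(2, ℤ)) (twe_bl_dvd_entry h γ') 0 1 +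
        twe_bl_cjMat m (γ : SL(2, ℤ)) (twe_bl_dvd_entry h γ) 0 1 *
          twe_bl_cjMat m (γ' : SL(2, ℤ)) (twe_bl_dvd_entry h γ') 1 1
      rw [twe_bl_cjMat_01, twe_bl_cjMat_00, twe_bl_cjMat_01, twe_bl_cjMat_01, twe_bl_cjMat_11, hmul]
      ring
    · show twe_bl_cjMat m ((γ * γ' : Gamma0 A) : SL(2, ℤ)) (twe_bl_dvd_entry h (γ * γ')) 1 0 =
        twe_bl_cjMat m (γ : SL(2, ℤ)) (twe_bl_dvd_entry h γ) 1 0 *
          twe_bl_cjMat m (γ' : SL(2, ℤ)) (twe_bl_dvd_entry h γ') 0 0 +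
        twe_bl_cjMat m (γ : SL(2, ℤ)) (twe_bl_dvd_entry h γ) 1 1 *
          twe_bl_cjMat m (γ' : SL(2, ℤ)) (twe_bl_dvd_entry h γ') 1 0
      apply mul_left_cancel₀ hm'
      rw [twe_bl_cjMat_00, twe_bl_cjMat_11]
      linear_combination e3 - (γ' : SL(2, ℤ)) 0 0 * e1 - (γ : SL(2, ℤ)) 1 1 * e2
    · show twe_bl_cjMat m ((γ * γ' : Gamma0 A) : SL(2, ℤ)) (twe_bl_dvd_entry h (γ * γ')) 1 1 =
        twe_bl_cjMat m (γ : SL(2, ℤ)) (twe_bl_dvd_entry h γ) 1 0 *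
          twe_bl_cjMat m (γ' : SL(2, ℤ)) (twe_bl_dvd_entry h γ') 0 1 +
        twe_bl_cjMat m (γ : SL(2, ℤ)) (twe_bl_dvd_entry h γ) 1 1 *
          twe_bl_cjMat m (γ' : SL(2, ℤ)) (twe_bl_dvd_entry h γ') 1 1
      rw [twe_bl_cjMat_11, twe_bl_cjMat_01, twe_bl_cjMat_11, twe_bl_cjMat_11, hmul]
      linear_combination (-(γ' : SL(2, ℤ)) 0 1) * e1

theorem twe_bl_cj_coe (hm : m ≠ 0) (h : m * B ∣ A) (γ : Gamma0 A) :
    ((twe_bl_cj m A B hm h γ : Gamma0 B) : SL(2, ℤ)) =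
      twe_bl_cjMat m (γ : SL(2, ℤ)) (twe_bl_dvd_entry h γ) := rfl

theorem twe_bl_cj_00 (hm : m ≠ 0) (h : m * B ∣ A) (γ : Gamma0 A) :
    ((twe_bl_cj m A B hm h γ : Gamma0 B) : SL(2, ℤ)) 0 0 = (γ : SL(2, ℤ)) 0 0 := rfl

theorem twe_bl_cj_01 (hm : m ≠ 0) (h : m * B ∣ A) (γ : Gamma0 A) :
    ((twe_bl_cj m A B hm h γ : Gamma0 B) : SL(2, ℤ)) 0 1 = (m : ℤ) * (γ : SL(2, ℤ)) 0 1 := rfl

theorem twe_bl_cj_10 (hm : m ≠ 0) (h : m * B ∣ A) (γ : Gamma0 A) :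
    (m : ℤ) * ((twe_bl_cj m A B hm h γ : Gamma0 B) : SL(2, ℤ)) 1 0 = (γ : SL(2, ℤ)) 1 0 :=
  twe_bl_cjMat_10_mul m (γ : SL(2, ℤ)) (twe_bl_dvd_entry h γ)

theorem twe_bl_cj_11 (hm : m ≠ 0) (h : m * B ∣ A) (γ : Gamma0 A) :
    ((twe_bl_cj m A B hm h γ : Gamma0 B) : SL(2, ℤ)) 1 1 = (γ : SL(2, ℤ)) 1 1 := rfl

theorem twe_bl_cj_injective (hm : m ≠ 0) (h : m * B ∣ A) :
    Function.Injective (twe_bl_cj m A B hm h) := by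
  intro γ γ' hγ
  have hm' : (m : ℤ) ≠ 0 := by exact_mod_cast hm
  apply Subtype.ext
  ext i j
  have h00 := congrArg (fun g : Gamma0 B => (g : SL(2, ℤ)) 0 0) hγ
  have h01 := congrArg (fun g : Gamma0 B => (g : SL(2, ℤ)) 0 1) hγ
  have h10 := congrArg (fun g : Gamma0 B => (m : ℤ) * (g : SL(2, ℤ)) 1 0) hγ
  have h11 := congrArg (fun g : Gamma0 B => (g : SL(2, ℤ)) 1 1) hγ
  simp only [twe_bl_cj_00, twe_bl_cj_01, twe_bl_cj_10, twe_bl_cj_11] at h00 h01 h10 h11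
  fin_cases i <;> fin_cases j
  · exact h00
  · exact mul_left_cancel₀ hm' h01
  · exact h10
  · exact h11

/-- the diagonal matrix `diag(m, 1)` in `GL(2, ℝ)`. -/
def twe_bl_delta (m : ℕ) (hm : m ≠ 0) : GL (Fin 2) ℝ :=
  Matrix.GeneralLinearGroup.mkOfDetNeZero !![(m : ℝ), 0; 0, 1] (by
    rw [Matrix.det_fin_two_of]
    simpa using hm)

theorem twe_bl_delta_val (m : ℕ) (hm : m ≠ 0) :
    ((twe_bl_delta m hm : GL (Fin 2) ℝ) : Matrix (Fin 2) (Fin 2) ℝ) = !![(m : ℝ), 0; 0, 1] := rfl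

/-- **`δ · γ = (cj γ) · δ`** in `GL(2, ℝ)`, `δ = diag(m, 1)`. -/
theorem twe_bl_cj_GL (hm : m ≠ 0) (h : m * B ∣ A) (γ : Gamma0 A) :
    twe_bl_delta m hm * mapGL ℝ (γ : SL(2, ℤ)) =
      mapGL ℝ ((twe_bl_cj m A B hm h γ : Gamma0 B) : SL(2, ℤ)) * twe_bl_delta m hm := by
  apply Matrix.GeneralLinearGroup.ext
  intro i j
  have e := twe_bl_cj_10 hm h γ
  have e' : (m : ℝ) * ((((twe_bl_cj m A B hm h γ : Gamma0 B) : SL(2, ℤ)) 1 0 : ℤ) : ℝ) =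
      (((γ : SL(2, ℤ)) 1 0 : ℤ) : ℝ) := by exact_mod_cast e
  simp only [Matrix.GeneralLinearGroup.coe_mul, twe_bl_delta_val, Matrix.mul_apply,
    Fin.sum_univ_two, mapGL_apply]
  fin_cases i <;> fin_cases j
  · simp [twe_bl_cj_00]; ring
  · simp [twe_bl_cj_01]
  · simp; linarith [e']
  · simp [twe_bl_cj_11]

/-- conjugation preserves the trace. -/
theorem twe_bl_cj_trace (hm : m ≠ 0) (h : m * B ∣ A) (γ : Gamma0 A) :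
    (((twe_bl_cj m A B hm h γ : Gamma0 B) : SL(2, ℤ)) : Matrix (Fin 2) (Fin 2) ℤ).trace =
      ((γ : SL(2, ℤ)) : Matrix (Fin 2) (Fin 2) ℤ).trace := by
  rw [Matrix.trace_fin_two, Matrix.trace_fin_two]
  rfl

/-- the image of `twe_bl_cj`: the elements of `Γ₀(B)` with `m ∣ b` and `A ∣ m c`. -/
theorem twe_bl_mem_range (hm : m ≠ 0) (h : m * B ∣ A) (g : Gamma0 B) :
    g ∈ (twe_bl_cj m A B hm h).range ↔
      (m : ℤ) ∣ (g : SL(2, ℤ)) 0 1 ∧ (A : ℤ) ∣ (m : ℤ) * (g : SL(2, ℤ)) 1 0 := by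
  have hm' : (m : ℤ) ≠ 0 := by exact_mod_cast hm
  constructor
  · rintro ⟨γ, rfl⟩
    refine ⟨⟨_, twe_bl_cj_01 hm h γ⟩, ?_⟩
    rw [twe_bl_cj_10]
    exact t2c_dvd_of_mem γ.2
  · rintro ⟨⟨b, hb⟩, hc⟩
    have hdet := det_eq (g : SL(2, ℤ))
    let γ₀ : SL(2, ℤ) := ⟨!![(g : SL(2, ℤ)) 0 0, b; (m : ℤ) * (g : SL(2, ℤ)) 1 0,
      (g : SL(2, ℤ)) 1 1], by
      rw [Matrix.det_fin_two_of]
      rw [hb] at hdet
      linear_combination hdet⟩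
    have hγ₀ : γ₀ ∈ Gamma0 A := t2c_mem_of_dvd hc
    refine ⟨⟨γ₀, hγ₀⟩, ?_⟩
    apply Subtype.ext
    ext i j
    fin_cases i <;> fin_cases j
    · rfl
    · show (m : ℤ) * b = (g : SL(2, ℤ)) 0 1
      rw [hb]
    · show (m : ℤ) * (g : SL(2, ℤ)) 1 0 / (m : ℤ) = (g : SL(2, ℤ)) 1 0
      exact Int.mul_ediv_cancel_left _ hm'
    · rfl

end Fermat.Agent.TW
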