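/-
ONE MACHINE / block [E] AUT, LAYER 4 (abstract half), cell E/Full (helper24).
Namespace `Fermat.Agent.TW`, prefix `twe_fl_`.

THE ABSTRACT FULL-LEVEL DATUM.  `π : Γ₁ →* G` a group homomorphism (in use: `Γ₁ = Γ0(N')`,
`G = SL(2, 𝔽_t)` or a product of such, `π` = reduction, so that `π.ker = Γ0(N') ∩ Γ(t)`),
`D : lrt_Data Γ₁ X` a cocycle datum on `Γ₁` (in use: `X = ℙ¹(𝔽_ℓ)`, the Hecke cocycle for
representatives `≡ diag(1, ℓ)` modulo `t`) and `τ : G →* G` with
`twe_fl_Compat π D τ : ∀ x g, π (D.coc x g) = τ (π g)`.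

* §1 `twe_fl_restr D Γ' h` : the datum restricted to a cocycle-stable subgroup; `twe_fl_res_T`
  (`res ∘ T = T ∘ res`); `twe_fl_T_telescope` (cocycles differing by a coboundary give the same `T`);
* §2 the levels `S.comap π` (`S ≤ G`, `τ S ≤ S`) and `π.ker`; `twe_fl_TK` : the operator on
  `V := (Additive π.ker →+ A)` as a `k`-linear endomorphism;
* §3 the conjugation action `twe_fl_rho0 : Γ₁ →* Module.End k V`, `(g • φ)(n) = φ (g⁻¹ n g)`,
  trivial on `π.ker`; its descent `twe_fl_rho hπ : G →* Module.End k V` (`π` onto);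
* §4 **twisted commutation** `twe_fl_comm` : `π g'' = τ (π g) ⟹ ρ₀ g ∘ T = T ∘ ρ₀ g''`, and
  `twe_fl_rho_comm` : `ρ γ ∘ T = T ∘ ρ (τ γ)`;
* §5 restrictions from level `S` are `S`-invariant (`twe_fl_res_inv`), restriction is injective
  up to `|S|`-torsion (`twe_fl_res_inj`);
* §6 `twe_fl_res_cor` : `res_{π.ker} ∘ cor_{Γ' → Γ} = ∑ᵢ ρ₀(ρᵢ) ∘ res_{π.ker}` for ANY system of left
  coset representatives (vocabulary of `TW/Aut/ResCor.lean`), `twe_fl_sum_reps` : for an
  `S`-invariant vector the sum `∑ᵢ ρ(aᵢ) w` over left coset representatives of `S` in `S'`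
  does not depend on the representatives.
-/
import Mathlib
import Fermat.Agent.LR.MTX.Transfer
import Fermat.Agent.LR.PD.SLevel
import Fermat.Agent.TW.Aut.ResCor

set_option autoImplicit false

noncomputable section

namespace Fermat.Agent.TW

open Fermat.Agent.LR

/-! ### 1. Restriction of a cocycle datum to a stable subgroup -/

section restr

variable {Γ₁ : Type*} {X : Type*} [Group Γ₁] (D : lrt_Data Γ₁ X)

/-- the cocycle datum restricted to a subgroup which is stable under the cocycle. -/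
def twe_fl_restr (Γ' : Subgroup Γ₁) (h : ∀ x, ∀ g ∈ Γ', D.coc x g ∈ Γ') : lrt_Data Γ' X where
  act g x := D.act (g : Γ₁) x
  act_one x := D.act_one x
  act_mul g h' x := D.act_mul (g : Γ₁) (h' : Γ₁) x
  coc x g := ⟨D.coc x (g : Γ₁), h x g g.2⟩
  coc_one x := Subtype.ext (D.coc_one x)
  coc_mul x g h' := Subtype.ext (D.coc_mul x (g : Γ₁) (h' : Γ₁))

theorem twe_fl_restr_act (Γ' : Subgroup Γ₁) (h : ∀ x, ∀ g ∈ Γ', D.coc x g ∈ Γ') (g : Γ') (x : X) :
    (twe_fl_restr D Γ' h).act g x = D.act (g : Γ₁) x := rfl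

theorem twe_fl_restr_coc (Γ' : Subgroup Γ₁) (h : ∀ x, ∀ g ∈ Γ', D.coc x g ∈ Γ') (g : Γ') (x : X) :
    (((twe_fl_restr D Γ' h).coc x g : Γ') : Γ₁) = D.coc x (g : Γ₁) := rfl

variable {A : Type*} [AddCommGroup A] [Fintype X]

/-- **`res ∘ T = T ∘ res`**. -/
theorem twe_fl_res_T {Γ' Γ'' : Subgroup Γ₁} (h' : ∀ x, ∀ g ∈ Γ', D.coc x g ∈ Γ')
    (h'' : ∀ x, ∀ g ∈ Γ'', D.coc x g ∈ Γ'') (hle : Γ'' ≤ Γ') (φ : Additive Γ' →+ A) :
    lrpd_pull (Subgroup.inclusion hle) (lrt_T (twe_fl_restr D Γ' h') φ) =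
      lrt_T (twe_fl_restr D Γ'' h'') (lrpd_pull (Subgroup.inclusion hle) φ) := by
  refine lrt_ext fun g => ?_
  rw [lrt_T_ev]
  show lrt_ev (lrt_T (twe_fl_restr D Γ' h') φ) (Subgroup.inclusion hle g) = _
  rw [lrt_T_ev]
  rfl

theorem twe_fl_T_add (E : lrt_Data Γ₁ X) (φ φ' : Additive Γ₁ →+ A) :
    lrt_T E (φ + φ') = lrt_T E φ + lrt_T E φ' := by
  refine lrt_ext fun g => ?_
  show lrt_ev (lrt_T E (φ + φ')) g = lrt_ev (lrt_T E φ) g + lrt_ev (lrt_T E φ') g
  rw [lrt_T_ev, lrt_T_ev, lrt_T_ev, ← Finset.sum_add_distrib]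
  rfl

theorem twe_fl_T_smul {k : Type*} [Semiring k] [Module k A] (E : lrt_Data Γ₁ X) (c : k)
    (φ : Additive Γ₁ →+ A) : lrt_T E (c • φ) = c • lrt_T E φ := by
  refine lrt_ext fun g => ?_
  show lrt_ev (lrt_T E (c • φ)) g = c • lrt_ev (lrt_T E φ) g
  rw [lrt_T_ev, lrt_T_ev, Finset.smul_sum]
  rfl

/-- two data with the same action whose cocycles differ by a coboundary `σ` give the same
operator: `coc' x g = σ x * coc x g * (σ (x ⋆ g))⁻¹`. -/
theorem twe_fl_T_telescope (E E' : lrt_Data Γ₁ X) (_hact : ∀ g x, E'.act g x = E.act g x)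
    (σ : X → Γ₁) (hcoc : ∀ x g, E'.coc x g = σ x * E.coc x g * (σ (E.act g x))⁻¹)
    (φ : Additive Γ₁ →+ A) : lrt_T E' φ = lrt_T E φ := by
  refine lrt_ext fun g => ?_
  rw [lrt_T_ev, lrt_T_ev]
  have h : ∀ x : X, lrt_ev φ (E'.coc x g) =
      lrt_ev φ (σ x) + lrt_ev φ (E.coc x g) - lrt_ev φ (σ (E.act g x)) := by
    intro x
    rw [hcoc, lrt_ev_mul, lrt_ev_mul, lrt_ev_inv, sub_eq_add_neg]
  rw [Finset.sum_congr rfl fun x _ => h x, Finset.sum_sub_distrib, Finset.sum_add_distrib]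
  have h2 : ∑ x : X, lrt_ev φ (σ (E.act g x)) = ∑ x : X, lrt_ev φ (σ x) :=
    Equiv.sum_comp (lrt_perm E g) fun x => lrt_ev φ (σ x)
  rw [h2]
  abel

end restr

/-! ### 2. The abstract full-level datum -/

section datum

variable {Γ₁ G X : Type*} [Group Γ₁] [Group G] (π : Γ₁ →* G) (D : lrt_Data Γ₁ X) (τ : G →* G)

/-- the cocycle covers the endomorphism `τ` of `G`. -/
def twe_fl_Compat : Prop := ∀ x g, π (D.coc x g) = τ (π g)

variable {π D τ}

theorem twe_fl_stable_comap (hc : twe_fl_Compat π D τ) (S : Subgroup G) (hS : ∀ s ∈ S, τ s ∈ S) :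
    ∀ x, ∀ g ∈ S.comap π, D.coc x g ∈ S.comap π := by
  intro x g hg
  rw [Subgroup.mem_comap] at hg ⊢
  rw [hc x g]
  exact hS _ hg

theorem twe_fl_stable_ker (hc : twe_fl_Compat π D τ) : ∀ x, ∀ g ∈ π.ker, D.coc x g ∈ π.ker := by
  intro x g hg
  rw [MonoidHom.mem_ker] at hg ⊢
  rw [hc x g, hg, map_one]

theorem twe_fl_coc_inv (x : X) (g : Γ₁) : D.coc (D.act g x) g⁻¹ = (D.coc x g)⁻¹ := by
  have h := D.coc_mul x g g⁻¹
  rw [mul_inv_cancel, D.coc_one] at h
  exact eq_inv_of_mul_eq_one_right h.symm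

/-- the datum at level `S ≤ G` (`τ S ≤ S`). -/
def twe_fl_dataS (hc : twe_fl_Compat π D τ) (S : Subgroup G) (hS : ∀ s ∈ S, τ s ∈ S) :
    lrt_Data (S.comap π) X :=
  twe_fl_restr D (S.comap π) (twe_fl_stable_comap hc S hS)

/-- the datum at the full level `π.ker`. -/
def twe_fl_dataK (hc : twe_fl_Compat π D τ) : lrt_Data π.ker X :=
  twe_fl_restr D π.ker (twe_fl_stable_ker hc)

variable {k : Type*} [CommRing k] {A : Type*} [AddCommGroup A] [Module k A] [Fintype X]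

variable (k) in
/-- the operator at full level, as a `k`-linear endomorphism of `V = (Additive π.ker →+ A)`. -/
def twe_fl_TK (hc : twe_fl_Compat π D τ) : Module.End k (Additive π.ker →+ A) where
  toFun φ := lrt_T (twe_fl_dataK hc) φ
  map_add' φ φ' := twe_fl_T_add _ φ φ'
  map_smul' c φ := twe_fl_T_smul _ c φ

theorem twe_fl_TK_apply (hc : twe_fl_Compat π D τ) (φ : Additive π.ker →+ A) :
    twe_fl_TK k hc φ = lrt_T (twe_fl_dataK hc) φ := rfl

theorem twe_fl_ker_le_comap (S : Subgroup G) : π.ker ≤ S.comap π := by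
  intro g hg
  rw [Subgroup.mem_comap, MonoidHom.mem_ker.mp hg]
  exact one_mem S

/-- restriction of a character of level `S` to the full level. -/
def twe_fl_resK (S : Subgroup G) (φ : Additive (S.comap π) →+ A) : Additive π.ker →+ A :=
  lrpd_pull (Subgroup.inclusion (twe_fl_ker_le_comap S)) φ

theorem twe_fl_resK_apply (S : Subgroup G) (φ : Additive (S.comap π) →+ A) (n : π.ker) :
    twe_fl_resK S φ (Additive.ofMul n) =
      φ (Additive.ofMul (Subgroup.inclusion (twe_fl_ker_le_comap S) n)) := rfl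

/-- **`res_{π.ker} ∘ T_S = T ∘ res_{π.ker}`**. -/
theorem twe_fl_resK_T (hc : twe_fl_Compat π D τ) (S : Subgroup G) (hS : ∀ s ∈ S, τ s ∈ S)
    (φ : Additive (S.comap π) →+ A) :
    twe_fl_resK S (lrt_T (twe_fl_dataS hc S hS) φ) = twe_fl_TK k hc (twe_fl_resK S φ) :=
  twe_fl_res_T D _ _ (twe_fl_ker_le_comap S) φ

/-! ### 3. The conjugation action on `V` -/

variable (π) in
/-- conjugation `n ↦ g⁻¹ n g` of `π.ker` by `g : Γ₁`. -/
def twe_fl_conjHom (g : Γ₁) : π.ker →* π.ker where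
  toFun n := ⟨g⁻¹ * (n : Γ₁) * g, by
    rw [MonoidHom.mem_ker, map_mul, map_mul, map_inv, MonoidHom.mem_ker.mp n.2, mul_one,
      inv_mul_cancel]⟩
  map_one' := by
    apply Subtype.ext
    simp
  map_mul' a b := by
    apply Subtype.ext
    simp only [Subgroup.coe_mul]
    group

theorem twe_fl_conjHom_coe (g : Γ₁) (n : π.ker) :
    ((twe_fl_conjHom π g n : π.ker) : Γ₁) = g⁻¹ * (n : Γ₁) * g := rfl

variable (π k A) in
/-- **the conjugation action** of `Γ₁` on `V`: `(g • φ)(n) = φ (g⁻¹ n g)`. -/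
def twe_fl_rho0 : Γ₁ →* Module.End k (Additive π.ker →+ A) where
  toFun g :=
    { toFun := fun φ => lrpd_pull (twe_fl_conjHom π g) φ
      map_add' := fun φ φ' => rfl
      map_smul' := fun c φ => rfl }
  map_one' := by
    refine LinearMap.ext fun φ => AddMonoidHom.ext fun n => ?_
    obtain ⟨n, rfl⟩ := Additive.ofMul.surjective n
    show φ (Additive.ofMul (twe_fl_conjHom π 1 n)) = φ (Additive.ofMul n)
    congr 2
    apply Subtype.ext
    rw [twe_fl_conjHom_coe, inv_one, one_mul, mul_one]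
  map_mul' g h := by
    refine LinearMap.ext fun φ => AddMonoidHom.ext fun n => ?_
    obtain ⟨n, rfl⟩ := Additive.ofMul.surjective n
    show φ (Additive.ofMul (twe_fl_conjHom π (g * h) n)) =
      φ (Additive.ofMul (twe_fl_conjHom π h (twe_fl_conjHom π g n)))
    congr 2
    apply Subtype.ext
    rw [twe_fl_conjHom_coe, twe_fl_conjHom_coe, twe_fl_conjHom_coe]
    group

theorem twe_fl_rho0_apply (g : Γ₁) (φ : Additive π.ker →+ A) (n : π.ker) :
    twe_fl_rho0 π k A g φ (Additive.ofMul n) = φ (Additive.ofMul (twe_fl_conjHom π g n)) := rfl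

theorem twe_fl_rho0_ev (g : Γ₁) (φ : Additive π.ker →+ A) (n : π.ker) :
    lrt_ev (twe_fl_rho0 π k A g φ) n = lrt_ev φ (twe_fl_conjHom π g n) := rfl

/-- `π.ker` acts trivially. -/
theorem twe_fl_rho0_of_mem_ker {g : Γ₁} (hg : g ∈ π.ker) : twe_fl_rho0 π k A g = 1 := by
  refine LinearMap.ext fun φ => AddMonoidHom.ext fun n => ?_
  obtain ⟨n, rfl⟩ := Additive.ofMul.surjective n
  rw [twe_fl_rho0_apply, Module.End.one_apply]
  have h : twe_fl_conjHom π g n = (⟨g, hg⟩ : π.ker)⁻¹ * n * ⟨g, hg⟩ := by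
    apply Subtype.ext
    rfl
  rw [h, ofMul_mul, ofMul_mul, ofMul_inv, map_add, map_add, map_neg]
  abel

/-- `ρ₀ g` only depends on `π g`. -/
theorem twe_fl_rho0_congr {g g' : Γ₁} (h : π g = π g') :
    twe_fl_rho0 π k A g = twe_fl_rho0 π k A g' := by
  have h1 : g⁻¹ * g' ∈ π.ker := by
    rw [MonoidHom.mem_ker, map_mul, map_inv, h, inv_mul_cancel]
  have h2 : g' = g * (g⁻¹ * g') := by group
  rw [h2, map_mul, twe_fl_rho0_of_mem_ker h1, mul_one]

variable (k A) in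
/-- the action of `G` on `V` (`π` onto). -/
def twe_fl_rho (hπ : Function.Surjective π) : G →* Module.End k (Additive π.ker →+ A) where
  toFun γ := twe_fl_rho0 π k A (Function.surjInv hπ γ)
  map_one' := by
    rw [← map_one (twe_fl_rho0 π k A)]
    exact twe_fl_rho0_congr (by rw [Function.surjInv_eq hπ, map_one])
  map_mul' γ γ' := by
    rw [← map_mul (twe_fl_rho0 π k A)]
    exact twe_fl_rho0_congr (by rw [Function.surjInv_eq hπ, map_mul, Function.surjInv_eq hπ,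
      Function.surjInv_eq hπ])

theorem twe_fl_rho_pi (hπ : Function.Surjective π) (g : Γ₁) :
    twe_fl_rho k A hπ (π g) = twe_fl_rho0 π k A g :=
  twe_fl_rho0_congr (Function.surjInv_eq hπ (π g))

/-! ### 4. Twisted commutation -/

/-- **twisted commutation**: if `π g'' = τ (π g)` then `ρ₀ g ∘ T = T ∘ ρ₀ g''`. -/
theorem twe_fl_comm (hc : twe_fl_Compat π D τ) {g g'' : Γ₁} (hg : π g'' = τ (π g))
    (φ : Additive π.ker →+ A) :
    twe_fl_rho0 π k A g (twe_fl_TK k hc φ) = twe_fl_TK k hc (twe_fl_rho0 π k A g'' φ) := by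
  refine lrt_ext fun n => ?_
  rw [twe_fl_rho0_ev, twe_fl_TK_apply, twe_fl_TK_apply, lrt_T_ev, lrt_T_ev]
  -- the correction terms `κ z = g''⁻¹ * coc z g ∈ π.ker`
  have hκ : ∀ z : X, g''⁻¹ * D.coc z g ∈ π.ker := by
    intro z
    rw [MonoidHom.mem_ker, map_mul, map_inv, hc z g, hg, inv_mul_cancel]
  set κ : X → π.ker := fun z => ⟨g''⁻¹ * D.coc z g, hκ z⟩ with hκdef
  have key : ∀ y : X, (twe_fl_dataK hc).coc (D.act g y) (twe_fl_conjHom π g n) =
      (κ y)⁻¹ * twe_fl_conjHom π g'' ((twe_fl_dataK hc).coc y n) * κ (D.act (n : Γ₁) y) := by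
    intro y
    apply Subtype.ext
    rw [Subgroup.coe_mul, Subgroup.coe_mul, Subgroup.coe_inv, twe_fl_conjHom_coe]
    show D.coc (D.act g y) (g⁻¹ * (n : Γ₁) * g) =
      (g''⁻¹ * D.coc y g)⁻¹ * (g''⁻¹ * D.coc y (n : Γ₁) * g'') *
        (g''⁻¹ * D.coc (D.act (n : Γ₁) y) g)
    have e1 : D.act (g⁻¹ * (n : Γ₁)) (D.act g y) = D.act (n : Γ₁) y := by
      rw [D.act_mul, lrt_act_inv]
    rw [D.coc_mul, D.coc_mul, twe_fl_coc_inv, lrt_act_inv, e1]
    group
  rw [← Equiv.sum_comp (lrt_perm D g)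
    (fun x => lrt_ev φ ((twe_fl_dataK hc).coc x (twe_fl_conjHom π g n)))]
  have h : ∀ y : X, lrt_ev φ ((twe_fl_dataK hc).coc (lrt_perm D g y) (twe_fl_conjHom π g n)) =
      lrt_ev (twe_fl_rho0 π k A g'' φ) ((twe_fl_dataK hc).coc y n) +
        lrt_ev φ (κ (D.act (n : Γ₁) y)) - lrt_ev φ (κ y) := by
    intro y
    rw [lrt_perm_apply, key y, lrt_ev_mul, lrt_ev_mul, lrt_ev_inv, twe_fl_rho0_ev]
    abel
  rw [Finset.sum_congr rfl fun y _ => h y, Finset.sum_sub_distrib, Finset.sum_add_distrib]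
  have h2 : ∑ y : X, lrt_ev φ (κ (D.act (n : Γ₁) y)) = ∑ y : X, lrt_ev φ (κ y) :=
    Equiv.sum_comp (lrt_perm D (n : Γ₁)) fun y => lrt_ev φ (κ y)
  rw [h2]
  abel

/-- **twisted commutation on `G`**: `ρ γ ∘ T = T ∘ ρ (τ γ)`. -/
theorem twe_fl_rho_comm (hc : twe_fl_Compat π D τ) (hπ : Function.Surjective π) (γ : G)
    (φ : Additive π.ker →+ A) :
    twe_fl_rho k A hπ γ (twe_fl_TK k hc φ) = twe_fl_TK k hc (twe_fl_rho k A hπ (τ γ) φ) := by
  obtain ⟨g, rfl⟩ := hπ γ
  obtain ⟨g'', hg''⟩ := hπ (τ (π g))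
  rw [← hg'', twe_fl_rho_pi, twe_fl_rho_pi]
  exact twe_fl_comm hc hg'' φ

/-! ### 5. Restrictions are invariant; restriction is injective up to torsion -/

/-- the restriction of a character of level `S` is fixed by `g` with `π g ∈ S`. -/
theorem twe_fl_res_inv (S : Subgroup G) {g : Γ₁} (hg : π g ∈ S) (φ : Additive (S.comap π) →+ A) :
    twe_fl_rho0 π k A g (twe_fl_resK S φ) = twe_fl_resK S φ := by
  refine AddMonoidHom.ext fun n => ?_
  obtain ⟨n, rfl⟩ := Additive.ofMul.surjective n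
  rw [twe_fl_rho0_apply, twe_fl_resK_apply, twe_fl_resK_apply]
  have h : Subgroup.inclusion (twe_fl_ker_le_comap S) (twe_fl_conjHom π g n) =
      (⟨g, hg⟩ : S.comap π)⁻¹ * Subgroup.inclusion (twe_fl_ker_le_comap S) n * ⟨g, hg⟩ := by
    apply Subtype.ext
    rfl
  rw [h, ofMul_mul, ofMul_mul, ofMul_inv, map_add, map_add, map_neg]
  abel

theorem twe_fl_rho_res_inv (hπ : Function.Surjective π) (S : Subgroup G) {s : G} (hs : s ∈ S)
    (φ : Additive (S.comap π) →+ A) :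
    twe_fl_rho k A hπ s (twe_fl_resK S φ) = twe_fl_resK S φ := by
  obtain ⟨g, rfl⟩ := hπ s
  rw [twe_fl_rho_pi]
  exact twe_fl_res_inv S hs φ

/-- restriction to the full level is injective up to `|S|`-torsion. -/
theorem twe_fl_res_inj (S : Subgroup G) [Finite S] (φ : Additive (S.comap π) →+ A)
    (h : twe_fl_resK S φ = 0) : Nat.card S • φ = 0 := by
  refine AddMonoidHom.ext fun g => ?_
  obtain ⟨g, rfl⟩ := Additive.ofMul.surjective g
  rw [AddMonoidHom.smul_apply, AddMonoidHom.zero_apply]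
  have h1 : (⟨π (g : Γ₁), g.2⟩ : S) ^ Nat.card S = 1 := pow_card_eq_one'
  have h2 : ((g ^ Nat.card S : S.comap π) : Γ₁) ∈ π.ker := by
    rw [MonoidHom.mem_ker, Subgroup.coe_pow, map_pow]
    have := congrArg (Subtype.val) h1
    rwa [Subgroup.coe_pow, Subgroup.coe_one] at this
  have h3 : twe_fl_resK S φ (Additive.ofMul ⟨_, h2⟩) = 0 := by rw [h]; rfl
  rw [twe_fl_resK_apply] at h3
  have h4 : Subgroup.inclusion (twe_fl_ker_le_comap S) ⟨_, h2⟩ = g ^ Nat.card S := by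
    apply Subtype.ext
    rfl
  rw [h4, ofMul_pow, map_nsmul] at h3
  exact h3

end datum

/-! ### 6. Restriction of a transfer to the full level; independence of the representatives -/

section cor

variable {Γ₁ G : Type*} [Group Γ₁] [Group G] {π : Γ₁ →* G}
  {A : Type*} [AddCommGroup A] {k : Type*} [CommRing k] [Module k A]

/-- **`res_{π.ker} ∘ cor_{Γ' → Γ} = ∑ᵢ ρ₀(ρᵢ) ∘ res_{π.ker}`** for `π.ker ≤ Γ' ≤ Γ ≤ Γ₁` and any
system `ρ` of left coset representatives. -/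
theorem twe_fl_res_cor {Γ Γ' : Subgroup Γ₁} {ι : Type*} [Fintype ι] {ρ : ι → Γ₁}
    (hρ : ∀ i, ρ i ∈ Γ) (hbij : ∀ γ ∈ Γ, ∃! i, (ρ i)⁻¹ * γ ∈ Γ') (hK' : π.ker ≤ Γ')
    (hK : π.ker ≤ Γ) (z : Additive Γ' →+ A) :
    lrpd_pull (Subgroup.inclusion hK) (twe_rc_cor hρ hbij z) =
      ∑ i : ι, twe_fl_rho0 π k A (ρ i) (lrpd_pull (Subgroup.inclusion hK') z) := by
  refine AddMonoidHom.ext fun n => ?_
  obtain ⟨n, rfl⟩ := Additive.ofMul.surjective n
  rw [lrpd_pull_apply, twe_rc_cor_apply, AddMonoidHom.finsetSum_apply]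
  refine Finset.sum_congr rfl fun i _ => ?_
  rw [twe_fl_rho0_apply, lrpd_pull_apply]
  have hmem : (ρ i)⁻¹ * ((Subgroup.inclusion hK n : Γ) : Γ₁) * ρ i ∈ Γ' :=
    hK' (twe_fl_conjHom π (ρ i) n).2
  have hsig : twe_rc_sig hρ hbij (Subgroup.inclusion hK n) i = i :=
    (twe_rc_sig_unique hρ hbij _ i hmem).symm
  congr 2
  apply Subtype.ext
  rw [twe_rc_term_coe, hsig]
  rfl

/-- for an `S`-invariant vector `w`, the sum `∑ᵢ ρ(aᵢ) w` over a system of left coset
representatives of `S` in `S'` does not depend on the system. -/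
theorem twe_fl_sum_reps {V : Type*} [AddCommGroup V] [Module k V] (ρ : G →* Module.End k V)
    (S S' : Subgroup G) (w : V) (hw : ∀ s ∈ S, ρ s w = w)
    {ι ι' : Type*} [Fintype ι] [Fintype ι'] (a : ι → G) (b : ι' → G)
    (ha : ∀ i, a i ∈ S') (hb : ∀ j, b j ∈ S')
    (habij : ∀ g ∈ S', ∃! i, (a i)⁻¹ * g ∈ S) (hbbij : ∀ g ∈ S', ∃! j, (b j)⁻¹ * g ∈ S) :
    ∑ i : ι, ρ (a i) w = ∑ j : ι', ρ (b j) w := by
  classical
  let f : ι → ι' := fun i => Classical.choose (hbbij (a i) (ha i)).exists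
  have hf : ∀ i, (b (f i))⁻¹ * a i ∈ S := fun i => Classical.choose_spec (hbbij (a i) (ha i)).exists
  have hfu : ∀ i j, (b j)⁻¹ * a i ∈ S → j = f i := fun i j hj =>
    (hbbij (a i) (ha i)).unique hj (hf i)
  have hinj : Function.Injective f := by
    intro i i' hii
    have h1 := hf i
    have h2 := hf i'
    rw [← hii] at h2
    have h3 : (a i)⁻¹ * a i' ∈ S := by
      have := mul_mem (inv_mem h1) h2
      have e : ((b (f i))⁻¹ * a i)⁻¹ * ((b (f i))⁻¹ * a i') = (a i)⁻¹ * a i' := by group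
      rwa [e] at this
    have h4 : (a i')⁻¹ * a i' ∈ S := by rw [inv_mul_cancel]; exact one_mem S
    exact (habij (a i') (ha i')).unique h3 h4
  have hsurj : Function.Surjective f := by
    intro j
    obtain ⟨i, hi⟩ := (habij (b j) (hb j)).exists
    refine ⟨i, (hfu i j ?_).symm⟩
    have := inv_mem hi
    have e : ((a i)⁻¹ * b j)⁻¹ = (b j)⁻¹ * a i := by group
    rwa [e] at this
  refine Fintype.sum_bijective f ⟨hinj, hsurj⟩ _ _ fun i => ?_
  have e : a i = b (f i) * ((b (f i))⁻¹ * a i) := by group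
  conv_lhs => rw [e, map_mul, Module.End.mul_apply, hw _ (hf i)]

end cor

/-! ### 7. The transfer from the full level to level `S`, and the dictionary
`S`-invariant eigenvectors of `V` ⟷ eigen-characters of level `S` -/

section dict

variable {Γ₁ G X : Type*} [Group Γ₁] [Group G] {π : Γ₁ →* G} {D : lrt_Data Γ₁ X} {τ : G →* G}
  {k : Type*} [Field k] [CharZero k] {A : Type*} [AddCommGroup A] [Module k A]

theorem twe_fl_surjInv_mem (hπ : Function.Surjective π) (S : Subgroup G) (s : S) :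
    Function.surjInv hπ (s : G) ∈ S.comap π := by
  rw [Subgroup.mem_comap, Function.surjInv_eq hπ]
  exact s.2

theorem twe_fl_surjInv_bij (hπ : Function.Surjective π) (S : Subgroup G) :
    ∀ γ ∈ S.comap π, ∃! s : S, (Function.surjInv hπ (s : G))⁻¹ * γ ∈ π.ker := by
  intro γ hγ
  refine ⟨⟨π γ, hγ⟩, ?_, ?_⟩
  · show (Function.surjInv hπ (π γ))⁻¹ * γ ∈ π.ker
    rw [MonoidHom.mem_ker, map_mul, map_inv, Function.surjInv_eq hπ, inv_mul_cancel]
  · intro s hs
    rw [MonoidHom.mem_ker, map_mul, map_inv, Function.surjInv_eq hπ] at hs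
    apply Subtype.ext
    show (s : G) = π γ
    exact inv_mul_eq_one.mp hs

/-- the transfer `Hom(π.ker, A) → Hom(Γ_S, A)`, `Γ_S = S.comap π` (representatives: a section of
`π` over `S`). -/
def twe_fl_corK (hπ : Function.Surjective π) (S : Subgroup G) [Fintype S] :
    (Additive π.ker →+ A) →+ (Additive (S.comap π) →+ A) :=
  twe_rc_cor (Γ := S.comap π) (Γ' := π.ker) (ρ := fun s : S => Function.surjInv hπ (s : G))
    (twe_fl_surjInv_mem hπ S) (twe_fl_surjInv_bij hπ S)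

omit [CharZero k] in
/-- **`res ∘ cor = ∑_{s ∈ S} ρ(s)`**. -/
theorem twe_fl_resK_corK (hπ : Function.Surjective π) (S : Subgroup G) [Fintype S]
    (w : Additive π.ker →+ A) :
    twe_fl_resK S (twe_fl_corK hπ S w) = ∑ s : S, twe_fl_rho k A hπ (s : G) w := by
  have h := twe_fl_res_cor (k := k) (twe_fl_surjInv_mem hπ S) (twe_fl_surjInv_bij hπ S)
    (le_refl π.ker) (twe_fl_ker_le_comap S) w
  refine h.trans (Finset.sum_congr rfl fun s _ => ?_)
  rfl

omit [CharZero k] in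
/-- on `S`-invariant vectors `res ∘ cor = |S|`. -/
theorem twe_fl_resK_corK_inv (hπ : Function.Surjective π) (S : Subgroup G) [Fintype S]
    (w : Additive π.ker →+ A) (hw : ∀ s ∈ S, twe_fl_rho k A hπ s w = w) :
    twe_fl_resK S (twe_fl_corK hπ S w) = Fintype.card S • w := by
  rw [twe_fl_resK_corK (k := k)]
  rw [Finset.sum_congr rfl fun (s : S) _ => hw (s : G) s.2, Finset.sum_const, Finset.card_univ]

omit [CharZero k] in
theorem twe_fl_resK_smul (S : Subgroup G) (c : k) (φ : Additive (S.comap π) →+ A) :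
    twe_fl_resK S (c • φ) = c • twe_fl_resK S φ := rfl

omit [Field k] [CharZero k] [Module k A] in
theorem twe_fl_resK_sub (S : Subgroup G) (φ φ' : Additive (S.comap π) →+ A) :
    twe_fl_resK S (φ - φ') = twe_fl_resK S φ - twe_fl_resK S φ' := rfl

include k in
/-- restriction to the full level is injective (characteristic zero). -/
theorem twe_fl_resK_injective (S : Subgroup G) [Fintype S] {φ φ' : Additive (S.comap π) →+ A}
    (h : twe_fl_resK S φ = twe_fl_resK S φ') : φ = φ' := by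
  have h0 : twe_fl_resK S (φ - φ') = 0 := by rw [twe_fl_resK_sub, h, sub_self]
  have h1 := twe_fl_res_inj S (φ - φ') h0
  rw [← sub_eq_zero]
  refine AddMonoidHom.ext fun g => ?_
  have h2 : (Nat.card S • (φ - φ')) g = 0 := by rw [h1]; rfl
  rw [AddMonoidHom.smul_apply, ← Nat.cast_smul_eq_nsmul k, smul_eq_zero] at h2
  rcases h2 with h2 | h2
  · exact absurd h2 (Nat.cast_ne_zero.mpr Nat.card_pos.ne')
  · exact h2

variable [Fintype X]

/-- **the dictionary**: an `S`-invariant `T`-eigenvector `w` of `V` gives the eigen-character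
`cor w` of level `S`, with `res (cor w) = |S| • w`. -/
theorem twe_fl_corK_eigen (hc : twe_fl_Compat π D τ) (hπ : Function.Surjective π)
    (S : Subgroup G) [Fintype S] (hS : ∀ s ∈ S, τ s ∈ S) (w : Additive π.ker →+ A)
    (hw : ∀ s ∈ S, twe_fl_rho k A hπ s w = w) (a : k) (ha : twe_fl_TK k hc w = a • w) :
    lrt_T (twe_fl_dataS hc S hS) (twe_fl_corK hπ S w) = a • twe_fl_corK hπ S w := by
  refine twe_fl_resK_injective (k := k) S ?_
  rw [twe_fl_resK_T (k := k), twe_fl_resK_smul, twe_fl_resK_corK_inv hπ S w hw, map_nsmul, ha,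
    smul_comm]

/-- `cor w ≠ 0` for an `S`-invariant `w ≠ 0`. -/
theorem twe_fl_corK_ne_zero (hπ : Function.Surjective π) (S : Subgroup G) [Fintype S]
    (w : Additive π.ker →+ A) (hw : ∀ s ∈ S, twe_fl_rho k A hπ s w = w) (hw0 : w ≠ 0) :
    twe_fl_corK hπ S w ≠ 0 := by
  intro h0
  have h1 := twe_fl_resK_corK_inv hπ S w hw
  rw [h0] at h1
  have h2 : twe_fl_resK S (0 : Additive (S.comap π) →+ A) = 0 := rfl
  rw [h2] at h1
  apply hw0
  refine AddMonoidHom.ext fun g => ?_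
  have h3 : (Fintype.card S • w) g = 0 := by rw [← h1]; rfl
  rw [AddMonoidHom.smul_apply, ← Nat.cast_smul_eq_nsmul k, smul_eq_zero] at h3
  rcases h3 with h3 | h3
  · exact absurd h3 (Nat.cast_ne_zero.mpr Fintype.card_pos.ne')
  · exact h3

/-- **the transfers of `cor w` vanish** as soon as ONE sum `∑ⱼ ρ(bⱼ) w` over left coset
representatives of `S` in `S'` vanishes; `ρ` is ANY system of left coset representatives of
`Γ_S` in `Γ_{S'}` (vocabulary of `TW/Aut/ResCor.lean`). -/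
theorem twe_fl_cor_corK_eq_zero (hπ : Function.Surjective π) (S S' : Subgroup G) [Fintype S]
    [Fintype S'] (w : Additive π.ker →+ A) (hw : ∀ s ∈ S, twe_fl_rho k A hπ s w = w)
    {ι' : Type*} [Fintype ι'] (b : ι' → G) (hb : ∀ j, b j ∈ S')
    (hbbij : ∀ g ∈ S', ∃! j, (b j)⁻¹ * g ∈ S) (hsum : ∑ j : ι', twe_fl_rho k A hπ (b j) w = 0)
    {ι : Type*} [Fintype ι] {ρ : ι → Γ₁} (hρ : ∀ i, ρ i ∈ S'.comap π)
    (hbij : ∀ γ ∈ S'.comap π, ∃! i, (ρ i)⁻¹ * γ ∈ S.comap π) :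
    twe_rc_cor hρ hbij (twe_fl_corK hπ S w) = 0 := by
  refine twe_fl_resK_injective (k := k) S' ?_
  have h0 : twe_fl_resK S' (0 : Additive (S'.comap π) →+ A) = 0 := rfl
  rw [h0]
  have h1 := twe_fl_res_cor (k := k) hρ hbij (twe_fl_ker_le_comap S) (twe_fl_ker_le_comap S')
    (twe_fl_corK hπ S w)
  have h2 : lrpd_pull (Subgroup.inclusion (twe_fl_ker_le_comap S)) (twe_fl_corK hπ S w) =
      Fintype.card S • w := twe_fl_resK_corK_inv hπ S w hw
  rw [h2] at h1
  refine h1.trans ?_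
  have h3 : ∀ i : ι, twe_fl_rho0 π k A (ρ i) (Fintype.card S • w) =
      Fintype.card S • twe_fl_rho k A hπ (π (ρ i)) w := by
    intro i
    rw [map_nsmul, twe_fl_rho_pi]
  rw [Finset.sum_congr rfl fun i _ => h3 i, ← Finset.smul_sum]
  have h4 : ∑ i : ι, twe_fl_rho k A hπ (π (ρ i)) w = ∑ j : ι', twe_fl_rho k A hπ (b j) w := by
    refine twe_fl_sum_reps (twe_fl_rho k A hπ) S S' w hw (fun i => π (ρ i)) b
      (fun i => hρ i) hb ?_ hbbij
    intro g hg
    obtain ⟨γ, rfl⟩ := hπ g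
    obtain ⟨i, hi, hu⟩ := hbij γ hg
    refine ⟨i, ?_, ?_⟩
    · show (π (ρ i))⁻¹ * π γ ∈ S
      rw [← map_inv, ← map_mul]
      exact hi
    · intro i' hi'
      apply hu
      show π ((ρ i')⁻¹ * γ) ∈ S
      rw [map_mul, map_inv]
      exact hi'
  rw [h4, hsum, smul_zero]

end dict

/-! ### 8. Characters killing a class of elements (in use: parabolic and elliptic elements) -/

section kill

variable {Γ₁ G : Type*} [Group Γ₁] [Group G] {π : Γ₁ →* G}
  {k : Type*} [CommRing k] {A : Type*} [AddCommGroup A] [Module k A]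

variable (π k A) in
/-- the characters of the full level killing a class `P` of elements of `Γ₁`. -/
def twe_fl_kill (P : Γ₁ → Prop) : Submodule k (Additive π.ker →+ A) where
  carrier := {φ | ∀ n : π.ker, P (n : Γ₁) → φ (Additive.ofMul n) = 0}
  add_mem' := by
    intro φ φ' hφ hφ' n hn
    rw [AddMonoidHom.add_apply, hφ n hn, hφ' n hn, add_zero]
  zero_mem' := fun _ _ => rfl
  smul_mem' := by
    intro c φ hφ n hn
    rw [AddMonoidHom.smul_apply, hφ n hn, smul_zero]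

theorem twe_fl_mem_kill {P : Γ₁ → Prop} {φ : Additive π.ker →+ A} :
    φ ∈ twe_fl_kill π k A P ↔ ∀ n : π.ker, P (n : Γ₁) → φ (Additive.ofMul n) = 0 := Iff.rfl

theorem twe_fl_kill_rho0 {P : Γ₁ → Prop} (hconj : ∀ g h, P g → P (h⁻¹ * g * h)) (g : Γ₁)
    {φ : Additive π.ker →+ A} (hφ : φ ∈ twe_fl_kill π k A P) :
    twe_fl_rho0 π k A g φ ∈ twe_fl_kill π k A P := by
  intro n hn
  rw [twe_fl_rho0_apply]
  exact hφ _ (hconj _ g hn)

theorem twe_fl_kill_rho {P : Γ₁ → Prop} (hconj : ∀ g h, P g → P (h⁻¹ * g * h))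
    (hπ : Function.Surjective π) (γ : G) {φ : Additive π.ker →+ A}
    (hφ : φ ∈ twe_fl_kill π k A P) : twe_fl_rho k A hπ γ φ ∈ twe_fl_kill π k A P :=
  twe_fl_kill_rho0 hconj _ hφ

/-- the restriction of a character of level `S` killing `P` kills `P`. -/
theorem twe_fl_resK_mem_kill {P : Γ₁ → Prop} (S : Subgroup G) (φ : Additive (S.comap π) →+ A)
    (hφ : ∀ g : S.comap π, P (g : Γ₁) → φ (Additive.ofMul g) = 0) :
    twe_fl_resK S φ ∈ twe_fl_kill π k A P := by
  intro n hn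
  rw [twe_fl_resK_apply]
  exact hφ _ hn

/-- the transfer of a character killing `P` kills `P` (`P` stable under powers and conjugation). -/
theorem twe_fl_corK_kills {P : Γ₁ → Prop} (hpow : ∀ g (n : ℕ), P g → P (g ^ n))
    (hconj : ∀ g h, P g → P (h⁻¹ * g * h)) (hπ : Function.Surjective π) (S : Subgroup G)
    [Fintype S] {w : Additive π.ker →+ A} (hw : w ∈ twe_fl_kill π k A P) (γ : S.comap π)
    (hγ : P (γ : Γ₁)) : twe_fl_corK hπ S w (Additive.ofMul γ) = 0 :=
  twe_rc_cor_kills _ _ P hpow hconj w hw γ hγ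

end kill

end Fermat.Agent.TW
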