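/-
ONE MACHINE / block [E] AUT, LAYER 4 (concrete half), cell E/Full, part 1 (helper24).
Namespace `Fermat.Agent.TW`, prefix `twe_sj_`.

STRONG APPROXIMATION FOR `Γ₀(N₀)`.  `P` a finite set of primes not dividing `N₀`;
`twe_sj_G P = ∏_{t ∈ P} SL(2, ZMod t)`, `twe_sj_pi N₀ P : Γ₀(N₀) →* twe_sj_G P` the reduction.

* `twe_sj_gen`       : `SL(2, F)` (`F` a field) is generated by the elementary matrices
                        `[[1,x],[0,1]]`, `[[1,0],[x,1]]`;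
* **`twe_sj_surj`**  : `twe_sj_pi N₀ P` is onto;
* `twe_sj_mem_ker`   : the kernel is `Γ₀(N₀) ∩ Γ(∏ P)`, entrywise;
* `twe_sj_iota t`    : the embedding of the factor at `t`; `twe_sj_iota_commute`.
-/
import Mathlib
import Fermat.Agent.TW.LG.BorelKillSL2

set_option autoImplicit false

open CongruenceSubgroup Matrix.SpecialLinearGroup
open scoped MatrixGroups

namespace Fermat.Agent.TW

/-! ### 1. Generation of `SL(2, F)` by elementary matrices -/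

section gen

variable {F : Type*} [Field F]

theorem twe_sj_ULU (g : SL(2, F)) (hc : (g : Matrix (Fin 2) (Fin 2) F) 1 0 ≠ 0) :
    g = twlg_bk_Umat (((g : Matrix (Fin 2) (Fin 2) F) 0 0 - 1) /
          (g : Matrix (Fin 2) (Fin 2) F) 1 0) *
        twlg_bk_L ((g : Matrix (Fin 2) (Fin 2) F) 1 0) *
        twlg_bk_Umat (((g : Matrix (Fin 2) (Fin 2) F) 1 1 - 1) /
          (g : Matrix (Fin 2) (Fin 2) F) 1 0) := by
  have hdet : (g : Matrix (Fin 2) (Fin 2) F) 0 0 * (g : Matrix (Fin 2) (Fin 2) F) 1 1 -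
      (g : Matrix (Fin 2) (Fin 2) F) 0 1 * (g : Matrix (Fin 2) (Fin 2) F) 1 0 = 1 := by
    have := g.2
    rwa [Matrix.det_fin_two] at this
  set a := (g : Matrix (Fin 2) (Fin 2) F) 0 0 with ha
  set b := (g : Matrix (Fin 2) (Fin 2) F) 0 1 with hb
  set c := (g : Matrix (Fin 2) (Fin 2) F) 1 0 with hc'
  set d := (g : Matrix (Fin 2) (Fin 2) F) 1 1 with hd
  ext i j
  fin_cases i <;> fin_cases j <;>
    simp [Matrix.SpecialLinearGroup.coe_mul, Matrix.mul_apply, Fin.sum_univ_two, ← ha, ← hb,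
      ← hc', ← hd]
  · field_simp
    ring
  · field_simp
    linear_combination (-1 : F) * hdet
  · field_simp
    ring

/-- `SL(2, F)` is generated by the elementary matrices. -/
theorem twe_sj_gen (K : Subgroup SL(2, F)) (hU : ∀ x : F, twlg_bk_Umat x ∈ K)
    (hL : ∀ x : F, twlg_bk_L x ∈ K) : K = ⊤ := by
  have key : ∀ g : SL(2, F), (g : Matrix (Fin 2) (Fin 2) F) 1 0 ≠ 0 → g ∈ K := by
    intro g hc
    rw [twe_sj_ULU g hc]
    exact mul_mem (mul_mem (hU _) (hL _)) (hU _)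
  rw [eq_top_iff]
  intro g _
  by_cases hc : (g : Matrix (Fin 2) (Fin 2) F) 1 0 = 0
  · have hdet : (g : Matrix (Fin 2) (Fin 2) F) 0 0 * (g : Matrix (Fin 2) (Fin 2) F) 1 1 -
        (g : Matrix (Fin 2) (Fin 2) F) 0 1 * (g : Matrix (Fin 2) (Fin 2) F) 1 0 = 1 := by
      have := g.2
      rwa [Matrix.det_fin_two] at this
    rw [hc, mul_zero, sub_zero] at hdet
    have ha0 : (g : Matrix (Fin 2) (Fin 2) F) 0 0 ≠ 0 := left_ne_zero_of_mul_eq_one hdet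
    have h1 : twlg_bk_L (1 : F) * g ∈ K := by
      apply key
      simp [Matrix.SpecialLinearGroup.coe_mul, Matrix.mul_apply, Fin.sum_univ_two, hc, ha0]
    have h2 : g = (twlg_bk_L (1 : F))⁻¹ * (twlg_bk_L (1 : F) * g) := by group
    rw [h2]
    exact mul_mem (inv_mem (hL 1)) h1
  · exact key g hc

end gen

/-! ### 2. The reduction map and its surjectivity -/

/-- `∏_{t ∈ P} SL(2, ZMod t)`. -/
abbrev twe_sj_G (P : Finset ℕ) : Type := (t : ↥P) → SL(2, ZMod (t : ℕ))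

/-- the reduction `Γ₀(N₀) → ∏_{t ∈ P} SL(2, ZMod t)`. -/
def twe_sj_pi (N₀ : ℕ) (P : Finset ℕ) : Gamma0 N₀ →* twe_sj_G P :=
  MonoidHom.pi fun t : ↥P =>
    (Matrix.SpecialLinearGroup.map (Int.castRingHom (ZMod (t : ℕ)))).comp (Gamma0 N₀).subtype

theorem twe_sj_pi_apply (N₀ : ℕ) (P : Finset ℕ) (γ : Gamma0 N₀) (t : ↥P) (i j : Fin 2) :
    (twe_sj_pi N₀ P γ t : Matrix (Fin 2) (Fin 2) (ZMod (t : ℕ))) i j =
      (((γ : SL(2, ℤ)) i j : ℤ) : ZMod (t : ℕ)) := rfl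

/-- the kernel of the reduction, entrywise. -/
theorem twe_sj_mem_ker (N₀ : ℕ) (P : Finset ℕ) (γ : Gamma0 N₀) :
    γ ∈ (twe_sj_pi N₀ P).ker ↔ ∀ t : ↥P, ∀ i j : Fin 2,
      (((γ : SL(2, ℤ)) i j : ℤ) : ZMod (t : ℕ)) = (1 : Matrix (Fin 2) (Fin 2) (ZMod (t : ℕ))) i j := by
  rw [MonoidHom.mem_ker]
  constructor
  · intro h t i j
    rw [← twe_sj_pi_apply, h]
    rfl
  · intro h
    funext t
    ext i j
    rw [twe_sj_pi_apply, h t i j]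
    rfl

variable {P : Finset ℕ} [hP : ∀ t : ↥P, Fact (Nat.Prime (t : ℕ))]

/-- the embedding of the factor at `t`. -/
def twe_sj_iota (t : ↥P) : SL(2, ZMod (t : ℕ)) →* twe_sj_G P :=
  MonoidHom.mulSingle (fun t : ↥P => SL(2, ZMod (t : ℕ))) t

omit hP in
theorem twe_sj_iota_same (t : ↥P) (g : SL(2, ZMod (t : ℕ))) : twe_sj_iota t g t = g :=
  @Pi.mulSingle_eq_same ↥P (fun t : ↥P => SL(2, ZMod (t : ℕ))) _ _ t g

omit hP in
theorem twe_sj_iota_ne {t s : ↥P} (h : s ≠ t) (g : SL(2, ZMod (t : ℕ))) : twe_sj_iota t g s = 1 :=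
  @Pi.mulSingle_eq_of_ne ↥P (fun t : ↥P => SL(2, ZMod (t : ℕ))) _ _ t s h g

omit hP in
theorem twe_sj_iota_commute {t s : ↥P} (h : t ≠ s) (x : SL(2, ZMod (t : ℕ)))
    (y : SL(2, ZMod (s : ℕ))) : Commute (twe_sj_iota t x) (twe_sj_iota s y) :=
  @Pi.mulSingle_commute ↥P (fun t : ↥P => SL(2, ZMod (t : ℕ))) _ _ t s h x y

/-- the product of the other primes is a unit modulo `t`. -/
theorem twe_sj_erase_unit (N₀ : ℕ) (hN : ∀ t : ↥P, ¬ (t : ℕ) ∣ N₀) (t : ↥P) :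
    ((N₀ * ∏ s ∈ P.erase (t : ℕ), s : ℕ) : ZMod (t : ℕ)) ≠ 0 := by
  rw [Ne, ZMod.natCast_eq_zero_iff]
  intro hdvd
  have ht : (t : ℕ).Prime := (hP t).out
  rcases (Nat.Prime.dvd_mul ht).mp hdvd with h | h
  · exact hN t h
  · rw [Prime.dvd_finsetProd_iff ht.prime] at h
    obtain ⟨s, hs, hts⟩ := h
    have hsP : s ∈ P := Finset.mem_of_mem_erase hs
    have hsp : s.Prime := (hP ⟨s, hsP⟩).out
    have : (t : ℕ) = s := (Nat.prime_dvd_prime_iff_eq ht hsp).mp hts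
    exact (Finset.ne_of_mem_erase hs) this.symm

/-- an integer `≡ x` modulo `t`, `≡ 0` modulo the other primes of `P` and modulo `N₀`. -/
theorem twe_sj_crt (N₀ : ℕ) (hN : ∀ t : ↥P, ¬ (t : ℕ) ∣ N₀) (t : ↥P) (x : ZMod (t : ℕ)) :
    ∃ z : ℤ, ((z : ℤ) : ZMod (t : ℕ)) = x ∧ (N₀ : ℤ) ∣ z ∧
      ∀ s : ↥P, s ≠ t → ((z : ℤ) : ZMod (s : ℕ)) = 0 := by
  set e : ℕ := N₀ * ∏ s ∈ P.erase (t : ℕ), s with he
  have heu := twe_sj_erase_unit N₀ hN t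
  refine ⟨(e : ℤ) * ((((e : ℕ) : ZMod (t : ℕ))⁻¹ * x).val : ℤ), ?_, ?_, ?_⟩
  · push_cast
    rw [ZMod.natCast_zmod_val, ← mul_assoc, mul_inv_cancel₀ heu, one_mul]
  · refine Dvd.dvd.mul_right ?_ _
    rw [he]
    push_cast
    exact Dvd.intro _ rfl
  · intro s hs
    have h0 : ((e : ℕ) : ZMod (s : ℕ)) = 0 := by
      rw [ZMod.natCast_eq_zero_iff, he]
      refine Dvd.dvd.mul_left (Finset.dvd_prod_of_mem _ ?_) _
      refine Finset.mem_erase.mpr ⟨?_, s.2⟩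
      intro h
      exact hs (Subtype.ext h)
    push_cast
    rw [h0, zero_mul]

/-- the integral matrix `[[1, z], [0, 1]]`. -/
def twe_sj_UzMat (z : ℤ) : SL(2, ℤ) := ⟨!![1, z; 0, 1], by simp [Matrix.det_fin_two]⟩

/-- the integral matrix `[[1, 0], [z, 1]]`. -/
def twe_sj_LzMat (z : ℤ) : SL(2, ℤ) := ⟨!![1, 0; z, 1], by simp [Matrix.det_fin_two]⟩

@[simp] theorem twe_sj_UzMat_coe (z : ℤ) :
    ((twe_sj_UzMat z : SL(2, ℤ)) : Matrix (Fin 2) (Fin 2) ℤ) = !![1, z; 0, 1] := rfl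

@[simp] theorem twe_sj_LzMat_coe (z : ℤ) :
    ((twe_sj_LzMat z : SL(2, ℤ)) : Matrix (Fin 2) (Fin 2) ℤ) = !![1, 0; z, 1] := rfl

/-- the upper unipotent lift. -/
def twe_sj_Uz (N₀ : ℕ) (z : ℤ) : Gamma0 N₀ :=
  ⟨twe_sj_UzMat z, by
    rw [Gamma0_mem]
    simp⟩

/-- the lower unipotent lift. -/
def twe_sj_Lz (N₀ : ℕ) (z : ℤ) (hz : (N₀ : ℤ) ∣ z) : Gamma0 N₀ :=
  ⟨twe_sj_LzMat z, by
    rw [Gamma0_mem]
    simpa using (ZMod.intCast_zmod_eq_zero_iff_dvd z N₀).mpr hz⟩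

theorem twe_sj_pi_Uz (N₀ : ℕ) (z : ℤ) (t : ↥P) :
    (twe_sj_pi N₀ P (twe_sj_Uz N₀ z) t : Matrix (Fin 2) (Fin 2) (ZMod (t : ℕ))) =
      !![1, (z : ZMod (t : ℕ)); 0, 1] := by
  ext i j
  rw [twe_sj_pi_apply]
  fin_cases i <;> fin_cases j <;> simp [twe_sj_Uz]

theorem twe_sj_pi_Lz (N₀ : ℕ) (z : ℤ) (hz : (N₀ : ℤ) ∣ z) (t : ↥P) :
    (twe_sj_pi N₀ P (twe_sj_Lz N₀ z hz) t : Matrix (Fin 2) (Fin 2) (ZMod (t : ℕ))) =
      !![1, 0; (z : ZMod (t : ℕ)), 1] := by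
  ext i j
  rw [twe_sj_pi_apply]
  fin_cases i <;> fin_cases j <;> simp [twe_sj_Lz]

theorem twe_sj_iota_U_mem_range (N₀ : ℕ) (hN : ∀ t : ↥P, ¬ (t : ℕ) ∣ N₀) (t : ↥P)
    (x : ZMod (t : ℕ)) : twe_sj_iota t (twlg_bk_Umat x) ∈ (twe_sj_pi N₀ P).range := by
  obtain ⟨z, hz1, -, hz3⟩ := twe_sj_crt N₀ hN t x
  refine ⟨twe_sj_Uz N₀ z, ?_⟩
  funext s
  apply Subtype.ext
  rw [twe_sj_pi_Uz]
  by_cases hs : s = t
  · subst hs
    rw [twe_sj_iota_same, hz1]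
    rfl
  · rw [twe_sj_iota_ne hs, hz3 s hs]
    ext i j
    fin_cases i <;> fin_cases j <;> simp

theorem twe_sj_iota_L_mem_range (N₀ : ℕ) (hN : ∀ t : ↥P, ¬ (t : ℕ) ∣ N₀) (t : ↥P)
    (x : ZMod (t : ℕ)) : twe_sj_iota t (twlg_bk_L x) ∈ (twe_sj_pi N₀ P).range := by
  obtain ⟨z, hz1, hz2, hz3⟩ := twe_sj_crt N₀ hN t x
  refine ⟨twe_sj_Lz N₀ z hz2, ?_⟩
  funext s
  apply Subtype.ext
  rw [twe_sj_pi_Lz]
  by_cases hs : s = t
  · subst hs
    rw [twe_sj_iota_same, hz1]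
    rfl
  · rw [twe_sj_iota_ne hs, hz3 s hs]
    ext i j
    fin_cases i <;> fin_cases j <;> simp

/-- **strong approximation**: the reduction `Γ₀(N₀) → ∏_{t ∈ P} SL(2, ZMod t)` is onto. -/
theorem twe_sj_surj (N₀ : ℕ) (hN : ∀ t : ↥P, ¬ (t : ℕ) ∣ N₀) :
    Function.Surjective (twe_sj_pi N₀ P) := by
  classical
  have hmem : ∀ (t : ↥P) (g : SL(2, ZMod (t : ℕ))), twe_sj_iota t g ∈ (twe_sj_pi N₀ P).range := by
    intro t g
    have h := twe_sj_gen (((twe_sj_pi N₀ P).range).comap (twe_sj_iota t))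
      (fun x => twe_sj_iota_U_mem_range N₀ hN t x) (fun x => twe_sj_iota_L_mem_range N₀ hN t x)
    have hg : g ∈ ((twe_sj_pi N₀ P).range).comap (twe_sj_iota t) := by
      rw [h]
      exact Subgroup.mem_top g
    exact hg
  intro f
  rw [← MonoidHom.mem_range, ← Finset.noncommProd_mulSingle f]
  exact Subgroup.noncommProd_mem _ _ fun t _ => hmem t (f t)

end Fermat.Agent.TW
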