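/-
ONE MACHINE / block [E] AUT, LAYER 4 (concrete half), cell E/Full, part 3 (helper24).
Namespace `Fermat.Agent.TW`, prefix `twe_fh_`.

THE HECKE DATUM AT FULL LEVEL.  `P` a finite set of primes not dividing `N₀`, `ℓ ∉ P` a prime with
`ℓ ∤ N₀`.  On `Γ₁ = Γ₀(N₀)` with `π = twe_sj_pi N₀ P : Γ₀(N₀) → ∏_{t ∈ P} SL(2, ZMod t)`:

* `twe_fh_tau1 u` : conjugation by `diag(1, u)` on `SL(2, F)`:
  `[[a, b], [c, d]] ↦ [[a, u⁻¹ b], [u c, d]]`; `twe_fh_tau` : the product over `t ∈ P` with `u = ℓ`;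
* `twe_fh_s x : Γ₀(N₀)` (`x ∈ ℙ¹(𝔽_ℓ)`) with `π (s x) · (heckeRep ℓ x mod t) = diag(1, ℓ)` for all `t`
  (strong approximation `twe_sj_surj`);
* `twe_fh_data : lrt_Data (Γ₀(N₀)) ℙ¹(𝔽_ℓ)` : the action `t2c_act` and the cocycle
  `s x · t2c_coc x γ · (s (x ⋆ γ))⁻¹`;
* **`twe_fh_compat : twe_fl_Compat π twe_fh_data twe_fh_tau`** : `π (coc x γ) = τ (π γ)`,
  the hypothesis of the abstract full-level theory `TW/Aut/Full.lean`.
-/
import Mathlib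
import Fermat.Agent.TW.Aut.Full
import Fermat.Agent.TW.Aut.SurjSL2
import Fermat.Agent.JT3.T2.Comm

set_option autoImplicit false

noncomputable section

open CongruenceSubgroup Matrix.SpecialLinearGroup
open P2MW.S_ModularForm_heckeT_slash_eq_self_of_mem_Gamma0.ModularForm.HeckeSlashInvariance
open scoped MatrixGroups OnePoint

namespace Fermat.Agent.TW

open Fermat.Agent.JT3 Fermat.Agent.LR

/-! ### 1. Conjugation by `diag(1, u)` on `SL(2, F)` -/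

section tau1

variable {F : Type*} [Field F]

/-- `[[a, b], [c, d]] ↦ [[a, u⁻¹ b], [u c, d]]`. -/
def twe_fh_tau1Fun (u : Fˣ) (g : SL(2, F)) : SL(2, F) :=
  ⟨!![(g : Matrix (Fin 2) (Fin 2) F) 0 0, ((u⁻¹ : Fˣ) : F) * (g : Matrix (Fin 2) (Fin 2) F) 0 1;
      (u : F) * (g : Matrix (Fin 2) (Fin 2) F) 1 0, (g : Matrix (Fin 2) (Fin 2) F) 1 1], by
    have hdet : (g : Matrix (Fin 2) (Fin 2) F) 0 0 * (g : Matrix (Fin 2) (Fin 2) F) 1 1 -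
        (g : Matrix (Fin 2) (Fin 2) F) 0 1 * (g : Matrix (Fin 2) (Fin 2) F) 1 0 = 1 := by
      have := g.2
      rwa [Matrix.det_fin_two] at this
    have hu : ((u⁻¹ : Fˣ) : F) * (u : F) = 1 := by rw [← Units.val_mul, inv_mul_cancel, Units.val_one]
    rw [Matrix.det_fin_two_of]
    linear_combination hdet - (g : Matrix (Fin 2) (Fin 2) F) 0 1 *
      (g : Matrix (Fin 2) (Fin 2) F) 1 0 * hu⟩

@[simp] theorem twe_fh_tau1Fun_coe (u : Fˣ) (g : SL(2, F)) :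
    ((twe_fh_tau1Fun u g : SL(2, F)) : Matrix (Fin 2) (Fin 2) F) =
      !![(g : Matrix (Fin 2) (Fin 2) F) 0 0, ((u⁻¹ : Fˣ) : F) * (g : Matrix (Fin 2) (Fin 2) F) 0 1;
        (u : F) * (g : Matrix (Fin 2) (Fin 2) F) 1 0, (g : Matrix (Fin 2) (Fin 2) F) 1 1] := rfl

/-- conjugation by `diag(1, u)` as an endomorphism of `SL(2, F)`. -/
def twe_fh_tau1 (u : Fˣ) : SL(2, F) →* SL(2, F) where
  toFun := twe_fh_tau1Fun u
  map_one' := by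
    ext i j
    fin_cases i <;> fin_cases j <;> simp
  map_mul' g h := by
    have hu : (u : F)⁻¹ * (u : F) = 1 := inv_mul_cancel₀ (Units.ne_zero u)
    ext i j
    fin_cases i <;> fin_cases j <;>
      simp [Matrix.SpecialLinearGroup.coe_mul, Matrix.mul_apply, Fin.sum_univ_two,
        Units.val_inv_eq_inv_val]
    · linear_combination (-(g : Matrix (Fin 2) (Fin 2) F) 0 1 *
        (h : Matrix (Fin 2) (Fin 2) F) 1 0) * hu
    · ring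
    · ring
    · linear_combination (-(g : Matrix (Fin 2) (Fin 2) F) 1 0 *
        (h : Matrix (Fin 2) (Fin 2) F) 0 1) * hu

@[simp] theorem twe_fh_tau1_coe (u : Fˣ) (g : SL(2, F)) :
    ((twe_fh_tau1 u g : SL(2, F)) : Matrix (Fin 2) (Fin 2) F) =
      !![(g : Matrix (Fin 2) (Fin 2) F) 0 0, ((u⁻¹ : Fˣ) : F) * (g : Matrix (Fin 2) (Fin 2) F) 0 1;
        (u : F) * (g : Matrix (Fin 2) (Fin 2) F) 1 0, (g : Matrix (Fin 2) (Fin 2) F) 1 1] := rfl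

theorem twe_fh_tau1_L (u : Fˣ) (c : F) : twe_fh_tau1 u (twlg_bk_L c) = twlg_bk_L ((u : F) * c) := by
  ext i j
  fin_cases i <;> fin_cases j <;> simp

theorem twe_fh_tau1_U (u : Fˣ) (x : F) :
    twe_fh_tau1 u (twlg_bk_Umat x) = twlg_bk_Umat (((u⁻¹ : Fˣ) : F) * x) := by
  ext i j
  fin_cases i <;> fin_cases j <;> simp

theorem twe_fh_tau1_D (u a : Fˣ) : twe_fh_tau1 u (twlg_bk_Dmat a) = twlg_bk_Dmat a := by
  ext i j
  fin_cases i <;> fin_cases j <;> simp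

/-- `τ(g) · diag(1, u) = diag(1, u) · g`. -/
theorem twe_fh_tau1_mul_delta (u : Fˣ) (g : SL(2, F)) :
    ((twe_fh_tau1 u g : SL(2, F)) : Matrix (Fin 2) (Fin 2) F) * !![1, 0; 0, (u : F)] =
      !![1, 0; 0, (u : F)] * (g : Matrix (Fin 2) (Fin 2) F) := by
  have hu : (u : F)⁻¹ * (u : F) = 1 := inv_mul_cancel₀ (Units.ne_zero u)
  ext i j
  fin_cases i <;> fin_cases j <;>
    simp [Matrix.mul_apply, Fin.sum_univ_two, Units.val_inv_eq_inv_val]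
  · linear_combination (g : Matrix (Fin 2) (Fin 2) F) 0 1 * hu
  · ring

/-- right cancellation of `diag(1, u)`. -/
theorem twe_fh_delta_cancel (u : Fˣ) {X Y : Matrix (Fin 2) (Fin 2) F}
    (h : X * !![1, 0; 0, (u : F)] = Y * !![1, 0; 0, (u : F)]) : X = Y := by
  have hu : (u : F) * (u : F)⁻¹ = 1 := mul_inv_cancel₀ (Units.ne_zero u)
  have hd : (!![1, 0; 0, (u : F)] : Matrix (Fin 2) (Fin 2) F) * !![1, 0; 0, (u : F)⁻¹] = 1 := by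
    ext i j
    fin_cases i <;> fin_cases j <;> simp [Matrix.mul_apply, Fin.sum_univ_two]
  have := congrArg (fun Z => Z * (!![1, 0; 0, (u : F)⁻¹] : Matrix (Fin 2) (Fin 2) F)) h
  simpa only [Matrix.mul_assoc, hd, Matrix.mul_one] using this

end tau1

/-! ### 2. The integral Hecke representatives and the cocycle relation over `ℤ` -/

section intspec

variable {N₀ ℓ : ℕ} [Fact ℓ.Prime]

/-- the integral matrix of `heckeRep ℓ x`. -/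
def twe_fh_R (ℓ : ℕ) (x : OnePoint (ZMod ℓ)) : Matrix (Fin 2) (Fin 2) ℤ :=
  !![(t2k_a ℓ x : ℤ), (t2k_b ℓ x : ℤ); 0, (t2k_d ℓ x : ℤ)]

/-- **`heckeRep ℓ x · γ = c_x(γ) · heckeRep ℓ (x ⋆ γ)` over `ℤ`**. -/
theorem twe_fh_int_spec (hℓN : ¬ ℓ ∣ N₀) (x : OnePoint (ZMod ℓ)) (γ : Gamma0 N₀) :
    twe_fh_R ℓ x * ((γ : SL(2, ℤ)) : Matrix (Fin 2) (Fin 2) ℤ) =
      (((t2c_coc hℓN x γ : Gamma0 N₀) : SL(2, ℤ)) : Matrix (Fin 2) (Fin 2) ℤ) *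
        twe_fh_R ℓ (t2c_act (γ : SL(2, ℤ)) x) := by
  have hℓ0 : ℓ ≠ 0 := (Fact.out : ℓ.Prime).ne_zero
  have h := t2c_coc_spec hℓN x γ
  have h2 : ∀ i j : Fin 2, ((heckeRep ℓ x * mapGL ℝ (γ : SL(2, ℤ)) : GL (Fin 2) ℝ) :
      Matrix (Fin 2) (Fin 2) ℝ) i j =
      ((mapGL ℝ ((t2c_coc hℓN x γ : Gamma0 N₀) : SL(2, ℤ)) *
        heckeRep ℓ (t2c_act (γ : SL(2, ℤ)) x) : GL (Fin 2) ℝ) : Matrix (Fin 2) (Fin 2) ℝ) i j := by
    intro i j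
    rw [h]
  ext i j
  have h3 := h2 i j
  simp only [Matrix.GeneralLinearGroup.coe_mul, t2k_val_heckeRep hℓ0, Matrix.mul_apply,
    Fin.sum_univ_two, mapGL_apply] at h3
  simp only [twe_fh_R, Matrix.mul_apply, Fin.sum_univ_two]
  fin_cases i <;> fin_cases j <;> simp at h3 ⊢ <;> exact_mod_cast h3

end intspec

/-! ### 3. The datum -/

section datum

variable (N₀ : ℕ) (P : Finset ℕ) [hP : ∀ t : ↥P, Fact (Nat.Prime (t : ℕ))]
  (hN : ∀ t : ↥P, ¬ (t : ℕ) ∣ N₀) {ℓ : ℕ} [Fact ℓ.Prime] (hℓN : ¬ ℓ ∣ N₀)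
  (hℓP : ∀ t : ↥P, (t : ℕ) ≠ ℓ)

include hℓP in
/-- `ℓ` as a unit of `ZMod t`. -/
def twe_fh_lU (t : ↥P) : (ZMod (t : ℕ))ˣ :=
  ZMod.unitOfCoprime ℓ ((Nat.coprime_primes Fact.out (hP t).out).mpr (hℓP t).symm)

theorem twe_fh_lU_coe (t : ↥P) : ((twe_fh_lU P hℓP t : (ZMod (t : ℕ))ˣ) : ZMod (t : ℕ)) = (ℓ : ZMod (t : ℕ)) :=
  rfl

/-- the endomorphism `τ` of `∏ SL(2, ZMod t)`: conjugation by `diag(1, ℓ)` in each factor. -/
def twe_fh_tau : twe_sj_G P →* twe_sj_G P :=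
  MonoidHom.pi fun t : ↥P =>
    (twe_fh_tau1 (twe_fh_lU P hℓP t)).comp (Pi.evalMonoidHom (fun t : ↥P => SL(2, ZMod (t : ℕ))) t)

theorem twe_fh_tau_apply (g : twe_sj_G P) (t : ↥P) :
    twe_fh_tau P hℓP g t = twe_fh_tau1 (twe_fh_lU P hℓP t) (g t) := rfl

theorem twe_fh_tau_iota (t : ↥P) (g : SL(2, ZMod (t : ℕ))) :
    twe_fh_tau P hℓP (twe_sj_iota t g) = twe_sj_iota t (twe_fh_tau1 (twe_fh_lU P hℓP t) g) := by
  funext s
  rw [twe_fh_tau_apply]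
  by_cases hs : s = t
  · subst hs
    rw [twe_sj_iota_same, twe_sj_iota_same]
  · rw [twe_sj_iota_ne hs, twe_sj_iota_ne hs, map_one]

/-- the target of `s x` in `∏ SL(2, ZMod t)`: `diag(1, ℓ) · (heckeRep ℓ x)⁻¹`. -/
def twe_fh_g (x : OnePoint (ZMod ℓ)) : twe_sj_G P := fun t =>
  x.elim (twlg_bk_Dmat (twe_fh_lU P hℓP t)⁻¹)
    (fun j => twlg_bk_Umat (-((j.val : ℕ) : ZMod (t : ℕ)) * (((twe_fh_lU P hℓP t)⁻¹ : (ZMod (t : ℕ))ˣ) :
      ZMod (t : ℕ))))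

/-- `g_x · (heckeRep ℓ x mod t) = diag(1, ℓ)`. -/
theorem twe_fh_g_mul_R (x : OnePoint (ZMod ℓ)) (t : ↥P) :
    ((twe_fh_g P hℓP x t : SL(2, ZMod (t : ℕ))) : Matrix (Fin 2) (Fin 2) (ZMod (t : ℕ))) *
        (twe_fh_R ℓ x).map (Int.castRingHom (ZMod (t : ℕ))) =
      !![1, 0; 0, ((twe_fh_lU P hℓP t : (ZMod (t : ℕ))ˣ) : ZMod (t : ℕ))] := by
  have hℓ0 : ((ℓ : ℕ) : ZMod (t : ℕ)) ≠ 0 := by
    rw [← twe_fh_lU_coe P hℓP t]
    exact Units.ne_zero _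
  have hu : ((ℓ : ℕ) : ZMod (t : ℕ))⁻¹ * ((ℓ : ℕ) : ZMod (t : ℕ)) = 1 := inv_mul_cancel₀ hℓ0
  induction x using OnePoint.rec with
  | infty =>
    ext i j
    fin_cases i <;> fin_cases j <;>
      simp [twe_fh_g, twe_fh_R, Matrix.mul_apply, Fin.sum_univ_two, twe_fh_lU_coe,
        Units.val_inv_eq_inv_val, hu]
  | coe j =>
    ext i k
    fin_cases i <;> fin_cases k <;>
      simp [-ZMod.natCast_val, twe_fh_g, twe_fh_R, Matrix.mul_apply, Fin.sum_univ_two,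
        twe_fh_lU_coe, Units.val_inv_eq_inv_val]
    linear_combination (-((j.val : ℕ) : ZMod (t : ℕ))) * hu

include hN in
/-- the elements `s x ∈ Γ₀(N₀)` with `π (s x) = g_x`. -/
def twe_fh_s (x : OnePoint (ZMod ℓ)) : Gamma0 N₀ :=
  Function.surjInv (twe_sj_surj N₀ hN) (twe_fh_g P hℓP x)

theorem twe_fh_pi_s (x : OnePoint (ZMod ℓ)) :
    twe_sj_pi N₀ P (twe_fh_s N₀ P hN hℓP x) = twe_fh_g P hℓP x :=
  Function.surjInv_eq (twe_sj_surj N₀ hN) _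

/-- the Hecke cocycle at full level: `s x · c_x(γ) · (s (x ⋆ γ))⁻¹`. -/
def twe_fh_coc (x : OnePoint (ZMod ℓ)) (γ : Gamma0 N₀) : Gamma0 N₀ :=
  twe_fh_s N₀ P hN hℓP x * t2c_coc hℓN x γ *
    (twe_fh_s N₀ P hN hℓP (t2c_act (γ : SL(2, ℤ)) x))⁻¹

/-- **the Hecke datum at full level**. -/
def twe_fh_data : lrt_Data (Gamma0 N₀) (OnePoint (ZMod ℓ)) where
  act γ x := t2c_act (γ : SL(2, ℤ)) x
  act_one x := by rw [Subgroup.coe_one, t2c_act_one]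
  act_mul g h x := by rw [Subgroup.coe_mul, t2c_act_mul]
  coc := twe_fh_coc N₀ P hN hℓN hℓP
  coc_one x := by
    unfold twe_fh_coc
    rw [t2c_coc_one, Subgroup.coe_one, t2c_act_one, mul_one, mul_inv_cancel]
  coc_mul x g h := by
    unfold twe_fh_coc
    rw [t2c_coc_mul, Subgroup.coe_mul, t2c_act_mul]
    group

theorem twe_fh_data_act (γ : Gamma0 N₀) (x : OnePoint (ZMod ℓ)) :
    (twe_fh_data N₀ P hN hℓN hℓP).act γ x = t2c_act (γ : SL(2, ℤ)) x := rfl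

theorem twe_fh_data_coc (γ : Gamma0 N₀) (x : OnePoint (ZMod ℓ)) :
    (twe_fh_data N₀ P hN hℓN hℓP).coc x γ = twe_fh_coc N₀ P hN hℓN hℓP x γ := rfl

omit hP in
/-- the reduction of an element of `Γ₀(N₀)` as a mapped matrix. -/
theorem twe_fh_pi_coe (γ : Gamma0 N₀) (t : ↥P) :
    ((twe_sj_pi N₀ P γ t : SL(2, ZMod (t : ℕ))) : Matrix (Fin 2) (Fin 2) (ZMod (t : ℕ))) =
      ((γ : SL(2, ℤ)) : Matrix (Fin 2) (Fin 2) ℤ).map (Int.castRingHom (ZMod (t : ℕ))) := by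
  ext i j
  rfl

/-- **the compatibility**: `π (coc x γ) = τ (π γ)`. -/
theorem twe_fh_compat :
    twe_fl_Compat (twe_sj_pi N₀ P) (twe_fh_data N₀ P hN hℓN hℓP) (twe_fh_tau P hℓP) := by
  intro x γ
  funext t
  rw [twe_fh_tau_apply, twe_fh_data_coc]
  apply Subtype.ext
  apply twe_fh_delta_cancel (twe_fh_lU P hℓP t)
  rw [twe_fh_tau1_mul_delta]
  -- notation
  set x' := t2c_act (γ : SL(2, ℤ)) x with hx'
  have hcoc : twe_sj_pi N₀ P (twe_fh_coc N₀ P hN hℓN hℓP x γ) t *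
      twe_sj_pi N₀ P (twe_fh_s N₀ P hN hℓP x') t =
      twe_sj_pi N₀ P (twe_fh_s N₀ P hN hℓP x) t * twe_sj_pi N₀ P (t2c_coc hℓN x γ) t := by
    unfold twe_fh_coc
    rw [map_mul, map_mul, map_inv]
    simp only [Pi.mul_apply, Pi.inv_apply]
    rw [inv_mul_cancel_right]
  have hcoc' := congrArg (fun g : SL(2, ZMod (t : ℕ)) => (g : Matrix (Fin 2) (Fin 2) (ZMod (t : ℕ)))) hcoc
  simp only [Matrix.SpecialLinearGroup.coe_mul] at hcoc'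
  have hspec := congrArg (fun Z : Matrix (Fin 2) (Fin 2) ℤ => Z.map (Int.castRingHom (ZMod (t : ℕ))))
    (twe_fh_int_spec hℓN x γ)
  simp only [Matrix.map_mul] at hspec
  rw [← twe_fh_pi_coe, ← twe_fh_pi_coe] at hspec
  have h1 := twe_fh_g_mul_R P hℓP x t
  have h2 := twe_fh_g_mul_R P hℓP x' t
  rw [← twe_fh_pi_s N₀ P hN hℓP x] at h1
  rw [← twe_fh_pi_s N₀ P hN hℓP x'] at h2
  calc ((twe_sj_pi N₀ P (twe_fh_coc N₀ P hN hℓN hℓP x γ) t : SL(2, ZMod (t : ℕ))) :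
          Matrix (Fin 2) (Fin 2) (ZMod (t : ℕ))) *
        !![1, 0; 0, ((twe_fh_lU P hℓP t : (ZMod (t : ℕ))ˣ) : ZMod (t : ℕ))]
      = ((twe_sj_pi N₀ P (twe_fh_coc N₀ P hN hℓN hℓP x γ) t : SL(2, ZMod (t : ℕ))) :
          Matrix (Fin 2) (Fin 2) (ZMod (t : ℕ))) *
        (((twe_sj_pi N₀ P (twe_fh_s N₀ P hN hℓP x') t : SL(2, ZMod (t : ℕ))) :
          Matrix (Fin 2) (Fin 2) (ZMod (t : ℕ))) *
          (twe_fh_R ℓ x').map (Int.castRingHom (ZMod (t : ℕ)))) := by rw [h2]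
    _ = ((twe_sj_pi N₀ P (twe_fh_s N₀ P hN hℓP x) t : SL(2, ZMod (t : ℕ))) :
          Matrix (Fin 2) (Fin 2) (ZMod (t : ℕ))) *
        (((twe_sj_pi N₀ P (t2c_coc hℓN x γ) t : SL(2, ZMod (t : ℕ))) :
          Matrix (Fin 2) (Fin 2) (ZMod (t : ℕ))) *
          (twe_fh_R ℓ x').map (Int.castRingHom (ZMod (t : ℕ)))) := by
        rw [← Matrix.mul_assoc, hcoc', Matrix.mul_assoc]
    _ = ((twe_sj_pi N₀ P (twe_fh_s N₀ P hN hℓP x) t : SL(2, ZMod (t : ℕ))) :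
          Matrix (Fin 2) (Fin 2) (ZMod (t : ℕ))) *
        ((twe_fh_R ℓ x).map (Int.castRingHom (ZMod (t : ℕ))) *
          ((twe_sj_pi N₀ P γ t : SL(2, ZMod (t : ℕ))) :
            Matrix (Fin 2) (Fin 2) (ZMod (t : ℕ)))) := by rw [hspec]
    _ = !![1, 0; 0, ((twe_fh_lU P hℓP t : (ZMod (t : ℕ))ˣ) : ZMod (t : ℕ))] *
          ((twe_sj_pi N₀ P γ t : SL(2, ZMod (t : ℕ))) :
            Matrix (Fin 2) (Fin 2) (ZMod (t : ℕ))) := by rw [← Matrix.mul_assoc, h1]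

end datum

end Fermat.Agent.TW
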