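/-
ONE MACHINE / block [E] AUT, LAYER 4 (concrete half), cell E/Full, part 4 (helper24).
Namespace `Fermat.Agent.TW`, prefix `twe_lv_`.

THE LEVELS inside `G = ∏_{t ∈ P} SL(2, ZMod t)`:

* `twe_lv_T1 F`, `twe_lv_Bu F`, `twe_lv_Bl F ≤ SL(2, F)` : diagonal, upper and lower triangular matrices;
* `twe_lv_ST P` : the product of the diagonal tori; `twe_lv_SU P t₀`, `twe_lv_SL P t₀` : upper (lower)
  Borel at `t₀`, torus elsewhere;
* stability under `twe_fh_tau`; the elements of `T1` are the `twlg_bk_Dmat a`;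
* `twe_lv_inv_of_tori` : a vector fixed by all `ι t (D a)` is fixed by `twe_lv_ST P`;
* `twe_lv_bijU`, `twe_lv_bijL` : `ι t₀ (U x)` (`ι t₀ (L x)`), `x ∈ ZMod t₀`, are left coset
  representatives of `ST` in `SU t₀` (`SL t₀`);
* `twe_lv_mem_comap_ST` etc. : the levels pulled back to `Γ₀(N₀)` as congruence conditions
  (`L = ∏ P`): `L ∣ b`, `L ∣ c`.
-/
import Mathlib
import Fermat.Agent.TW.Aut.FullHecke

set_option autoImplicit false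

noncomputable section

open CongruenceSubgroup Matrix.SpecialLinearGroup
open scoped MatrixGroups

namespace Fermat.Agent.TW

/-! ### 1. Triangular and diagonal subgroups of `SL(2, F)` -/

section one

variable (F : Type*) [Field F]

theorem twe_lv_inv_apply {F : Type*} [Field F] (g : SL(2, F)) :
    ((g⁻¹ : SL(2, F)) : Matrix (Fin 2) (Fin 2) F) =
      !![(g : Matrix (Fin 2) (Fin 2) F) 1 1, -(g : Matrix (Fin 2) (Fin 2) F) 0 1;
        -(g : Matrix (Fin 2) (Fin 2) F) 1 0, (g : Matrix (Fin 2) (Fin 2) F) 0 0] := by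
  rw [Matrix.SpecialLinearGroup.coe_inv, Matrix.adjugate_fin_two]

theorem twe_lv_mul_apply {F : Type*} [Field F] (g h : SL(2, F)) (i j : Fin 2) :
    ((g * h : SL(2, F)) : Matrix (Fin 2) (Fin 2) F) i j =
      (g : Matrix (Fin 2) (Fin 2) F) i 0 * (h : Matrix (Fin 2) (Fin 2) F) 0 j +
        (g : Matrix (Fin 2) (Fin 2) F) i 1 * (h : Matrix (Fin 2) (Fin 2) F) 1 j := by
  rw [Matrix.SpecialLinearGroup.coe_mul, Matrix.mul_apply, Fin.sum_univ_two]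

/-- upper triangular matrices. -/
def twe_lv_Bu : Subgroup SL(2, F) where
  carrier := {g | (g : Matrix (Fin 2) (Fin 2) F) 1 0 = 0}
  mul_mem' := by
    intro g h (hg : (g : Matrix (Fin 2) (Fin 2) F) 1 0 = 0)
      (hh : (h : Matrix (Fin 2) (Fin 2) F) 1 0 = 0)
    show ((g * h : SL(2, F)) : Matrix (Fin 2) (Fin 2) F) 1 0 = 0
    rw [twe_lv_mul_apply, hg, hh, zero_mul, mul_zero, add_zero]
  one_mem' := by
    show ((1 : SL(2, F)) : Matrix (Fin 2) (Fin 2) F) 1 0 = 0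
    simp
  inv_mem' := by
    intro g (hg : (g : Matrix (Fin 2) (Fin 2) F) 1 0 = 0)
    show ((g⁻¹ : SL(2, F)) : Matrix (Fin 2) (Fin 2) F) 1 0 = 0
    rw [twe_lv_inv_apply]
    simp [hg]

/-- lower triangular matrices. -/
def twe_lv_Bl : Subgroup SL(2, F) where
  carrier := {g | (g : Matrix (Fin 2) (Fin 2) F) 0 1 = 0}
  mul_mem' := by
    intro g h (hg : (g : Matrix (Fin 2) (Fin 2) F) 0 1 = 0)
      (hh : (h : Matrix (Fin 2) (Fin 2) F) 0 1 = 0)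
    show ((g * h : SL(2, F)) : Matrix (Fin 2) (Fin 2) F) 0 1 = 0
    rw [twe_lv_mul_apply, hg, hh, zero_mul, mul_zero, add_zero]
  one_mem' := by
    show ((1 : SL(2, F)) : Matrix (Fin 2) (Fin 2) F) 0 1 = 0
    simp
  inv_mem' := by
    intro g (hg : (g : Matrix (Fin 2) (Fin 2) F) 0 1 = 0)
    show ((g⁻¹ : SL(2, F)) : Matrix (Fin 2) (Fin 2) F) 0 1 = 0
    rw [twe_lv_inv_apply]
    simp [hg]

/-- diagonal matrices. -/
def twe_lv_T1 : Subgroup SL(2, F) := twe_lv_Bu F ⊓ twe_lv_Bl F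

variable {F}

theorem twe_lv_mem_Bu {g : SL(2, F)} :
    g ∈ twe_lv_Bu F ↔ (g : Matrix (Fin 2) (Fin 2) F) 1 0 = 0 := Iff.rfl

theorem twe_lv_mem_Bl {g : SL(2, F)} :
    g ∈ twe_lv_Bl F ↔ (g : Matrix (Fin 2) (Fin 2) F) 0 1 = 0 := Iff.rfl

theorem twe_lv_mem_T1 {g : SL(2, F)} :
    g ∈ twe_lv_T1 F ↔ (g : Matrix (Fin 2) (Fin 2) F) 1 0 = 0 ∧
      (g : Matrix (Fin 2) (Fin 2) F) 0 1 = 0 := Iff.rfl

theorem twe_lv_T1_le_Bu : twe_lv_T1 F ≤ twe_lv_Bu F := inf_le_left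

theorem twe_lv_T1_le_Bl : twe_lv_T1 F ≤ twe_lv_Bl F := inf_le_right

theorem twe_lv_det (g : SL(2, F)) :
    (g : Matrix (Fin 2) (Fin 2) F) 0 0 * (g : Matrix (Fin 2) (Fin 2) F) 1 1 -
      (g : Matrix (Fin 2) (Fin 2) F) 0 1 * (g : Matrix (Fin 2) (Fin 2) F) 1 0 = 1 := by
  have := g.2
  rwa [Matrix.det_fin_two] at this

theorem twe_lv_Dmat_mem (a : Fˣ) : twlg_bk_Dmat a ∈ twe_lv_T1 F := by
  rw [twe_lv_mem_T1]
  simp

theorem twe_lv_Umat_mem (x : F) : twlg_bk_Umat x ∈ twe_lv_Bu F := by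
  rw [twe_lv_mem_Bu]
  simp

theorem twe_lv_L_mem (x : F) : twlg_bk_L x ∈ twe_lv_Bl F := by
  rw [twe_lv_mem_Bl]
  simp

/-- the diagonal matrices are the `D a`. -/
theorem twe_lv_eq_Dmat {g : SL(2, F)} (hg : g ∈ twe_lv_T1 F) : ∃ a : Fˣ, g = twlg_bk_Dmat a := by
  obtain ⟨h10, h01⟩ := twe_lv_mem_T1.mp hg
  have hdet := twe_lv_det g
  rw [h01, zero_mul, sub_zero] at hdet
  refine ⟨Units.mkOfMulEqOne _ _ hdet, ?_⟩
  ext i j
  fin_cases i <;> fin_cases j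
  · simp
  · simpa using h01
  · simpa using h10
  · have : ((Units.mkOfMulEqOne _ _ hdet)⁻¹ : Fˣ) =
        Units.mkOfMulEqOne _ _ ((mul_comm _ _).trans hdet) := by
      rw [inv_eq_iff_eq_inv]
      rfl
    simp [this]

theorem twe_lv_tau1_mem_Bu (u : Fˣ) {g : SL(2, F)} (hg : g ∈ twe_lv_Bu F) :
    twe_fh_tau1 u g ∈ twe_lv_Bu F := by
  rw [twe_lv_mem_Bu] at hg ⊢
  simp [hg]

theorem twe_lv_tau1_mem_Bl (u : Fˣ) {g : SL(2, F)} (hg : g ∈ twe_lv_Bl F) :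
    twe_fh_tau1 u g ∈ twe_lv_Bl F := by
  rw [twe_lv_mem_Bl] at hg ⊢
  simp [hg]

theorem twe_lv_tau1_mem_T1 (u : Fˣ) {g : SL(2, F)} (hg : g ∈ twe_lv_T1 F) :
    twe_fh_tau1 u g ∈ twe_lv_T1 F :=
  ⟨twe_lv_tau1_mem_Bu u hg.1, twe_lv_tau1_mem_Bl u hg.2⟩

/-- `U x` (`x ∈ F`) are left coset representatives of `T1` in `Bu`. -/
theorem twe_lv_bijU1 {g : SL(2, F)} (hg : g ∈ twe_lv_Bu F) :
    ∃! x : F, (twlg_bk_Umat x)⁻¹ * g ∈ twe_lv_T1 F := by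
  have h10 := twe_lv_mem_Bu.mp hg
  have hdet := twe_lv_det g
  rw [h10, mul_zero, sub_zero] at hdet
  have hd0 : (g : Matrix (Fin 2) (Fin 2) F) 1 1 ≠ 0 := right_ne_zero_of_mul_eq_one hdet
  have key : ∀ x : F, (twlg_bk_Umat x)⁻¹ * g ∈ twe_lv_T1 F ↔
      (g : Matrix (Fin 2) (Fin 2) F) 0 1 = x * (g : Matrix (Fin 2) (Fin 2) F) 1 1 := by
    intro x
    rw [twe_lv_mem_T1, twe_lv_mul_apply, twe_lv_mul_apply, twe_lv_inv_apply]
    simp only [twlg_bk_Umat_coe, Matrix.of_apply, Matrix.cons_val', Matrix.cons_val_zero,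
      Matrix.cons_val_one, Matrix.empty_val', Matrix.cons_val_fin_one, h10]
    constructor
    · rintro ⟨-, h⟩
      linear_combination h
    · intro h
      refine ⟨by ring, ?_⟩
      linear_combination h
  refine ⟨(g : Matrix (Fin 2) (Fin 2) F) 0 1 / (g : Matrix (Fin 2) (Fin 2) F) 1 1, ?_, ?_⟩
  · show (twlg_bk_Umat _)⁻¹ * g ∈ twe_lv_T1 F
    rw [key, div_mul_cancel₀ _ hd0]
  · intro y hy
    have := (key y).mp hy
    rw [this, mul_div_assoc, div_self hd0, mul_one]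

/-- `L x` (`x ∈ F`) are left coset representatives of `T1` in `Bl`. -/
theorem twe_lv_bijL1 {g : SL(2, F)} (hg : g ∈ twe_lv_Bl F) :
    ∃! x : F, (twlg_bk_L x)⁻¹ * g ∈ twe_lv_T1 F := by
  have h01 := twe_lv_mem_Bl.mp hg
  have hdet := twe_lv_det g
  rw [h01, zero_mul, sub_zero] at hdet
  have ha0 : (g : Matrix (Fin 2) (Fin 2) F) 0 0 ≠ 0 := left_ne_zero_of_mul_eq_one hdet
  have key : ∀ x : F, (twlg_bk_L x)⁻¹ * g ∈ twe_lv_T1 F ↔
      (g : Matrix (Fin 2) (Fin 2) F) 1 0 = x * (g : Matrix (Fin 2) (Fin 2) F) 0 0 := by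
    intro x
    rw [twe_lv_mem_T1, twe_lv_mul_apply, twe_lv_mul_apply, twe_lv_inv_apply]
    simp only [twlg_bk_L_coe, Matrix.of_apply, Matrix.cons_val', Matrix.cons_val_zero,
      Matrix.cons_val_one, Matrix.empty_val', Matrix.cons_val_fin_one, h01]
    constructor
    · rintro ⟨h, -⟩
      linear_combination h
    · intro h
      refine ⟨?_, by ring⟩
      linear_combination h
  refine ⟨(g : Matrix (Fin 2) (Fin 2) F) 1 0 / (g : Matrix (Fin 2) (Fin 2) F) 0 0, ?_, ?_⟩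
  · show (twlg_bk_L _)⁻¹ * g ∈ twe_lv_T1 F
    rw [key, div_mul_cancel₀ _ ha0]
  · intro y hy
    have := (key y).mp hy
    rw [this, mul_div_assoc, div_self ha0, mul_one]

end one

/-! ### 2. The levels in the product -/

section levels

variable (P : Finset ℕ) [hP : ∀ t : ↥P, Fact (Nat.Prime (t : ℕ))]

/-- the product of the diagonal tori. -/
def twe_lv_ST : Subgroup (twe_sj_G P) :=
  Subgroup.pi Set.univ fun t : ↥P => twe_lv_T1 (ZMod (t : ℕ))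

/-- upper Borel at `t₀`, torus elsewhere. -/
def twe_lv_SU (t₀ : ↥P) : Subgroup (twe_sj_G P) :=
  Subgroup.pi Set.univ (Function.update (fun t : ↥P => twe_lv_T1 (ZMod (t : ℕ))) t₀
    (twe_lv_Bu (ZMod (t₀ : ℕ))))

/-- lower Borel at `t₀`, torus elsewhere. -/
def twe_lv_SL (t₀ : ↥P) : Subgroup (twe_sj_G P) :=
  Subgroup.pi Set.univ (Function.update (fun t : ↥P => twe_lv_T1 (ZMod (t : ℕ))) t₀
    (twe_lv_Bl (ZMod (t₀ : ℕ))))

variable {P}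

theorem twe_lv_mem_ST {g : twe_sj_G P} :
    g ∈ twe_lv_ST P ↔ ∀ t : ↥P, g t ∈ twe_lv_T1 (ZMod (t : ℕ)) := by
  unfold twe_lv_ST
  rw [Subgroup.mem_pi]
  exact ⟨fun h t => h t (Set.mem_univ t), fun h t _ => h t⟩

theorem twe_lv_mem_SU {t₀ : ↥P} {g : twe_sj_G P} :
    g ∈ twe_lv_SU P t₀ ↔ g t₀ ∈ twe_lv_Bu (ZMod (t₀ : ℕ)) ∧
      ∀ t : ↥P, t ≠ t₀ → g t ∈ twe_lv_T1 (ZMod (t : ℕ)) := by
  unfold twe_lv_SU
  rw [Subgroup.mem_pi]
  constructor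
  · intro h
    refine ⟨?_, fun t ht => ?_⟩
    · have := h t₀ (Set.mem_univ t₀)
      rwa [Function.update_self] at this
    · have := h t (Set.mem_univ t)
      rwa [Function.update_of_ne ht] at this
  · rintro ⟨h1, h2⟩ t _
    by_cases ht : t = t₀
    · subst ht
      rw [Function.update_self]
      exact h1
    · rw [Function.update_of_ne ht]
      exact h2 t ht

theorem twe_lv_mem_SL {t₀ : ↥P} {g : twe_sj_G P} :
    g ∈ twe_lv_SL P t₀ ↔ g t₀ ∈ twe_lv_Bl (ZMod (t₀ : ℕ)) ∧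
      ∀ t : ↥P, t ≠ t₀ → g t ∈ twe_lv_T1 (ZMod (t : ℕ)) := by
  unfold twe_lv_SL
  rw [Subgroup.mem_pi]
  constructor
  · intro h
    refine ⟨?_, fun t ht => ?_⟩
    · have := h t₀ (Set.mem_univ t₀)
      rwa [Function.update_self] at this
    · have := h t (Set.mem_univ t)
      rwa [Function.update_of_ne ht] at this
  · rintro ⟨h1, h2⟩ t _
    by_cases ht : t = t₀
    · subst ht
      rw [Function.update_self]
      exact h1
    · rw [Function.update_of_ne ht]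
      exact h2 t ht

theorem twe_lv_ST_le_SU (t₀ : ↥P) : twe_lv_ST P ≤ twe_lv_SU P t₀ := by
  intro g hg
  rw [twe_lv_mem_ST] at hg
  exact twe_lv_mem_SU.mpr ⟨twe_lv_T1_le_Bu (hg t₀), fun t _ => hg t⟩

theorem twe_lv_ST_le_SL (t₀ : ↥P) : twe_lv_ST P ≤ twe_lv_SL P t₀ := by
  intro g hg
  rw [twe_lv_mem_ST] at hg
  exact twe_lv_mem_SL.mpr ⟨twe_lv_T1_le_Bl (hg t₀), fun t _ => hg t⟩

/-- stability of the torus level under `τ`. -/
theorem twe_lv_tau_ST {ℓ : ℕ} [Fact ℓ.Prime] (hℓP : ∀ t : ↥P, (t : ℕ) ≠ ℓ) :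
    ∀ s ∈ twe_lv_ST P, twe_fh_tau P hℓP s ∈ twe_lv_ST P := by
  intro s hs
  rw [twe_lv_mem_ST] at hs ⊢
  intro t
  rw [twe_fh_tau_apply]
  exact twe_lv_tau1_mem_T1 _ (hs t)

/-- a vector fixed by all `ι t (D a)` is fixed by the product of the tori. -/
theorem twe_lv_inv_of_tori {k V : Type*} [CommRing k] [AddCommGroup V] [Module k V]
    (ρ : twe_sj_G P →* Module.End k V) (w : V)
    (hw : ∀ (t : ↥P) (a : (ZMod (t : ℕ))ˣ), ρ (twe_sj_iota t (twlg_bk_Dmat a)) w = w) :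
    ∀ s ∈ twe_lv_ST P, ρ s w = w := by
  classical
  let St : Subgroup (twe_sj_G P) :=
    { carrier := {g | ρ g w = w}
      mul_mem' := by
        intro g h (hg : ρ g w = w) (hh : ρ h w = w)
        show ρ (g * h) w = w
        rw [map_mul, Module.End.mul_apply, hh, hg]
      one_mem' := by
        show ρ 1 w = w
        rw [map_one, Module.End.one_apply]
      inv_mem' := by
        intro g (hg : ρ g w = w)
        show ρ g⁻¹ w = w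
        have h1 : ρ g⁻¹ (ρ g w) = w := by
          rw [← Module.End.mul_apply, ← map_mul, inv_mul_cancel, map_one, Module.End.one_apply]
        rwa [hg] at h1 }
  intro s hs
  rw [twe_lv_mem_ST] at hs
  have hmem : s ∈ St := by
    rw [← Finset.noncommProd_mulSingle s]
    refine Subgroup.noncommProd_mem _ _ fun t _ => ?_
    obtain ⟨a, ha⟩ := twe_lv_eq_Dmat (hs t)
    show ρ (Pi.mulSingle t (s t)) w = w
    rw [ha]
    exact hw t a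
  exact hmem

/-- `ι t₀ (U x)` are left coset representatives of `ST` in `SU t₀`. -/
theorem twe_lv_bijU (t₀ : ↥P) :
    ∀ g ∈ twe_lv_SU P t₀, ∃! x : ZMod (t₀ : ℕ),
      (twe_sj_iota t₀ (twlg_bk_Umat x))⁻¹ * g ∈ twe_lv_ST P := by
  intro g hg
  obtain ⟨h1, h2⟩ := twe_lv_mem_SU.mp hg
  have key : ∀ x : ZMod (t₀ : ℕ), (twe_sj_iota t₀ (twlg_bk_Umat x))⁻¹ * g ∈ twe_lv_ST P ↔
      (twlg_bk_Umat x)⁻¹ * g t₀ ∈ twe_lv_T1 (ZMod (t₀ : ℕ)) := by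
    intro x
    rw [twe_lv_mem_ST]
    constructor
    · intro h
      have := h t₀
      rwa [Pi.mul_apply, Pi.inv_apply, twe_sj_iota_same] at this
    · intro h t
      by_cases ht : t = t₀
      · subst ht
        rwa [Pi.mul_apply, Pi.inv_apply, twe_sj_iota_same]
      · rw [Pi.mul_apply, Pi.inv_apply, twe_sj_iota_ne ht, inv_one, one_mul]
        exact h2 t ht
  obtain ⟨x, hx, hu⟩ := twe_lv_bijU1 h1
  exact ⟨x, (key x).mpr hx, fun y hy => hu y ((key y).mp hy)⟩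

/-- `ι t₀ (L x)` are left coset representatives of `ST` in `SL t₀`. -/
theorem twe_lv_bijL (t₀ : ↥P) :
    ∀ g ∈ twe_lv_SL P t₀, ∃! x : ZMod (t₀ : ℕ),
      (twe_sj_iota t₀ (twlg_bk_L x))⁻¹ * g ∈ twe_lv_ST P := by
  intro g hg
  obtain ⟨h1, h2⟩ := twe_lv_mem_SL.mp hg
  have key : ∀ x : ZMod (t₀ : ℕ), (twe_sj_iota t₀ (twlg_bk_L x))⁻¹ * g ∈ twe_lv_ST P ↔
      (twlg_bk_L x)⁻¹ * g t₀ ∈ twe_lv_T1 (ZMod (t₀ : ℕ)) := by
    intro x
    rw [twe_lv_mem_ST]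
    constructor
    · intro h
      have := h t₀
      rwa [Pi.mul_apply, Pi.inv_apply, twe_sj_iota_same] at this
    · intro h t
      by_cases ht : t = t₀
      · subst ht
        rwa [Pi.mul_apply, Pi.inv_apply, twe_sj_iota_same]
      · rw [Pi.mul_apply, Pi.inv_apply, twe_sj_iota_ne ht, inv_one, one_mul]
        exact h2 t ht
  obtain ⟨x, hx, hu⟩ := twe_lv_bijL1 h1
  exact ⟨x, (key x).mpr hx, fun y hy => hu y ((key y).mp hy)⟩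

theorem twe_lv_iota_U_mem (t₀ : ↥P) (x : ZMod (t₀ : ℕ)) :
    twe_sj_iota t₀ (twlg_bk_Umat x) ∈ twe_lv_SU P t₀ := by
  refine twe_lv_mem_SU.mpr ⟨?_, fun t ht => ?_⟩
  · rw [twe_sj_iota_same]
    exact twe_lv_Umat_mem x
  · rw [twe_sj_iota_ne ht]
    exact one_mem _

theorem twe_lv_iota_L_mem (t₀ : ↥P) (x : ZMod (t₀ : ℕ)) :
    twe_sj_iota t₀ (twlg_bk_L x) ∈ twe_lv_SL P t₀ := by
  refine twe_lv_mem_SL.mpr ⟨?_, fun t ht => ?_⟩
  · rw [twe_sj_iota_same]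
    exact twe_lv_L_mem x
  · rw [twe_sj_iota_ne ht]
    exact one_mem _

end levels

/-! ### 3. The levels pulled back to `Γ₀(N₀)`: congruence conditions -/

section comap

variable {N₀ : ℕ} {P : Finset ℕ}

theorem twe_lv_pi_mem_Bu [hP : ∀ t : ↥P, Fact (Nat.Prime (t : ℕ))] (g : Gamma0 N₀) (t : ↥P) :
    twe_sj_pi N₀ P g t ∈ twe_lv_Bu (ZMod (t : ℕ)) ↔
      (((t : ℕ) : ℕ) : ℤ) ∣ (g : SL(2, ℤ)) 1 0 := by
  rw [twe_lv_mem_Bu, twe_sj_pi_apply, ZMod.intCast_zmod_eq_zero_iff_dvd]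

theorem twe_lv_pi_mem_Bl [hP : ∀ t : ↥P, Fact (Nat.Prime (t : ℕ))] (g : Gamma0 N₀) (t : ↥P) :
    twe_sj_pi N₀ P g t ∈ twe_lv_Bl (ZMod (t : ℕ)) ↔
      (((t : ℕ) : ℕ) : ℤ) ∣ (g : SL(2, ℤ)) 0 1 := by
  rw [twe_lv_mem_Bl, twe_sj_pi_apply, ZMod.intCast_zmod_eq_zero_iff_dvd]

theorem twe_lv_pi_mem_T1 [hP : ∀ t : ↥P, Fact (Nat.Prime (t : ℕ))] (g : Gamma0 N₀) (t : ↥P) :
    twe_sj_pi N₀ P g t ∈ twe_lv_T1 (ZMod (t : ℕ)) ↔
      (((t : ℕ) : ℕ) : ℤ) ∣ (g : SL(2, ℤ)) 1 0 ∧ (((t : ℕ) : ℕ) : ℤ) ∣ (g : SL(2, ℤ)) 0 1 := by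
  rw [twe_lv_mem_T1, twe_sj_pi_apply, twe_sj_pi_apply, ZMod.intCast_zmod_eq_zero_iff_dvd,
    ZMod.intCast_zmod_eq_zero_iff_dvd]

/-- the torus level: `t ∣ c` and `t ∣ b` for all `t ∈ P`. -/
theorem twe_lv_pi_mem_ST [hP : ∀ t : ↥P, Fact (Nat.Prime (t : ℕ))] (g : Gamma0 N₀) :
    twe_sj_pi N₀ P g ∈ twe_lv_ST P ↔ ∀ t : ↥P,
      (((t : ℕ) : ℕ) : ℤ) ∣ (g : SL(2, ℤ)) 1 0 ∧ (((t : ℕ) : ℕ) : ℤ) ∣ (g : SL(2, ℤ)) 0 1 := by
  rw [twe_lv_mem_ST]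
  exact forall_congr' fun t => twe_lv_pi_mem_T1 g t

/-- the level `SU t₀`: `t ∣ c` for all `t`, `t ∣ b` for `t ≠ t₀`. -/
theorem twe_lv_pi_mem_SU [hP : ∀ t : ↥P, Fact (Nat.Prime (t : ℕ))] (g : Gamma0 N₀) (t₀ : ↥P) :
    twe_sj_pi N₀ P g ∈ twe_lv_SU P t₀ ↔
      (((t₀ : ℕ) : ℕ) : ℤ) ∣ (g : SL(2, ℤ)) 1 0 ∧ ∀ t : ↥P, t ≠ t₀ →
        (((t : ℕ) : ℕ) : ℤ) ∣ (g : SL(2, ℤ)) 1 0 ∧ (((t : ℕ) : ℕ) : ℤ) ∣ (g : SL(2, ℤ)) 0 1 := by
  rw [twe_lv_mem_SU, twe_lv_pi_mem_Bu]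
  exact and_congr Iff.rfl (forall_congr' fun t => imp_congr Iff.rfl (twe_lv_pi_mem_T1 g t))

/-- the level `SL t₀`: `t ∣ b` for all `t`, `t ∣ c` for `t ≠ t₀`. -/
theorem twe_lv_pi_mem_SL [hP : ∀ t : ↥P, Fact (Nat.Prime (t : ℕ))] (g : Gamma0 N₀) (t₀ : ↥P) :
    twe_sj_pi N₀ P g ∈ twe_lv_SL P t₀ ↔
      (((t₀ : ℕ) : ℕ) : ℤ) ∣ (g : SL(2, ℤ)) 0 1 ∧ ∀ t : ↥P, t ≠ t₀ →
        (((t : ℕ) : ℕ) : ℤ) ∣ (g : SL(2, ℤ)) 1 0 ∧ (((t : ℕ) : ℕ) : ℤ) ∣ (g : SL(2, ℤ)) 0 1 := by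
  rw [twe_lv_mem_SL, twe_lv_pi_mem_Bl]
  exact and_congr Iff.rfl (forall_congr' fun t => imp_congr Iff.rfl (twe_lv_pi_mem_T1 g t))

/-- a product of distinct primes divides an integer divisible by each of them. -/
theorem twe_lv_prod_dvd [hP : ∀ t : ↥P, Fact (Nat.Prime (t : ℕ))] {z : ℤ}
    (h : ∀ t : ↥P, (((t : ℕ) : ℕ) : ℤ) ∣ z) : ((∏ t ∈ P, t : ℕ) : ℤ) ∣ z := by
  rw [Int.natCast_dvd]
  refine Finset.prod_primes_dvd _ (fun t ht => ?_) (fun t ht => ?_)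
  · exact Nat.prime_iff.mp (hP ⟨t, ht⟩).out
  · exact Int.natCast_dvd.mp (h ⟨t, ht⟩)

theorem twe_lv_dvd_prod (t : ↥P) : (t : ℕ) ∣ ∏ s ∈ P, s :=
  Finset.dvd_prod_of_mem (fun s => s) t.2

end comap

end Fermat.Agent.TW
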