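import Mathlib
import Fermat.Agent.TW.Aut.FullLevels
import Fermat.Agent.TW.Aut.Balanced
import Fermat.Agent.LR.MTX.EquivCor

/-!
# TW / [E] / E/New-HeckeCmp: the Hecke operator at the balanced level versus the torus level
(prefix `twe_nh_`)

`P` a finite set of primes not dividing `N₀`, `L = ∏ P`, `A = N₀ L²`.  The balancing conjugation
`θ = twe_bl_cj L : Γ₀(A) → Γ₀(N₀)` (`γ ↦ δ γ δ⁻¹`, `δ = diag(L, 1)`) is an isomorphism onto the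
torus level `(twe_lv_ST P).comap π` (`twe_nh_mem`, `twe_nh_surj`), and for a prime `ℓ ∤ A` it
intertwines the coset operator `t2c_Tadd` at level `A` with the cocycle operator `lrt_T` of the
full-level Hecke datum `twe_fh_data` restricted to the torus level (`twe_nh_hecke`).
-/

set_option autoImplicit false

noncomputable section

open CongruenceSubgroup Matrix.SpecialLinearGroup
open P2MW.S_ModularForm_heckeT_slash_eq_self_of_mem_Gamma0.ModularForm.HeckeSlashInvariance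
open scoped MatrixGroups OnePoint

namespace Fermat.Agent.TW

open Fermat.Agent.JT3 Fermat.Agent.LR

/-! ### 1. Abstract group skeletons -/

/-- `D g = g' D`, `D c = c' D`, `H g = c H'` ⟹ `(D H D⁻¹) g' = c' (D H' D⁻¹)`. -/
theorem twe_nh_grpX {G : Type*} [Group G] (D H H' g g' c c' : G) (e1 : D * g = g' * D)
    (e2 : D * c = c' * D) (e3 : H * g = c * H') :
    D * H * D⁻¹ * g' = c' * (D * H' * D⁻¹) := by
  have hg : g' = D * g * D⁻¹ := by rw [e1, mul_inv_cancel_right]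
  have hc : c' = D * c * D⁻¹ := by rw [e2, mul_inv_cancel_right]
  rw [hg, hc]
  calc D * H * D⁻¹ * (D * g * D⁻¹) = D * (H * g) * D⁻¹ := by group
    _ = D * (c * H') * D⁻¹ := by rw [e3]
    _ = D * c * D⁻¹ * (D * H' * D⁻¹) := by group

/-! ### 2. The matching of the representatives -/

section rep

variable {ℓ : ℕ} [Fact ℓ.Prime]

/-- the matching `σ` on `ℙ¹(𝔽_ℓ)`: `∞ ↦ ∞`, `j ↦ L j`. -/
def twe_nh_sig (ℓ L : ℕ) (x : OnePoint (ZMod ℓ)) : OnePoint (ZMod ℓ) :=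
  x.elim ∞ fun j => (((L : ZMod ℓ) * j : ZMod ℓ) : OnePoint (ZMod ℓ))

@[simp] theorem twe_nh_sig_infty (L : ℕ) : twe_nh_sig ℓ L ∞ = ∞ := rfl

@[simp] theorem twe_nh_sig_coe (L : ℕ) (j : ZMod ℓ) :
    twe_nh_sig ℓ L (j : OnePoint (ZMod ℓ)) = (((L : ZMod ℓ) * j : ZMod ℓ) : OnePoint (ZMod ℓ)) := rfl

theorem twe_nh_sig_bijective (L : ℕ) (hℓL : ¬ ℓ ∣ L) : Function.Bijective (twe_nh_sig ℓ L) := by
  have hL0 : (L : ZMod ℓ) ≠ 0 := by
    rwa [Ne, ZMod.natCast_eq_zero_iff]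
  rw [← Finite.injective_iff_bijective]
  intro x y h
  induction x using OnePoint.rec with
  | infty =>
    induction y using OnePoint.rec with
    | infty => rfl
    | coe j' =>
      rw [twe_nh_sig_infty, twe_nh_sig_coe] at h
      exact absurd h.symm (OnePoint.coe_ne_infty _)
  | coe j =>
    induction y using OnePoint.rec with
    | infty =>
      rw [twe_nh_sig_infty, twe_nh_sig_coe] at h
      exact absurd h (OnePoint.coe_ne_infty _)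
    | coe j' =>
      rw [twe_nh_sig_coe, twe_nh_sig_coe, OnePoint.coe_eq_coe] at h
      rw [mul_right_injective₀ hL0 h]

/-- the translation amount: `0` at `∞`, `(L j − (L j mod ℓ)) / ℓ` at `j`. -/
def twe_nh_m (ℓ L : ℕ) (x : OnePoint (ZMod ℓ)) : ℤ :=
  x.elim 0 fun j => ((L : ℤ) * (j.val : ℤ) - ((((L : ZMod ℓ) * j : ZMod ℓ).val : ℕ) : ℤ)) / (ℓ : ℤ)

@[simp] theorem twe_nh_m_infty (L : ℕ) : twe_nh_m ℓ L ∞ = 0 := rfl

theorem twe_nh_m_coe (L : ℕ) (j : ZMod ℓ) :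
    (L : ℤ) * (j.val : ℤ) =
      ((((L : ZMod ℓ) * j : ZMod ℓ).val : ℕ) : ℤ) + twe_nh_m ℓ L (j : OnePoint (ZMod ℓ)) * (ℓ : ℤ) := by
  have hdvd : (ℓ : ℤ) ∣ (L : ℤ) * (j.val : ℤ) - ((((L : ZMod ℓ) * j : ZMod ℓ).val : ℕ) : ℤ) := by
    rw [← ZMod.intCast_zmod_eq_zero_iff_dvd]
    push_cast
    rw [ZMod.natCast_zmod_val, ZMod.natCast_zmod_val, sub_self]
  show _ = _ + ((L : ℤ) * (j.val : ℤ) - ((((L : ZMod ℓ) * j : ZMod ℓ).val : ℕ) : ℤ)) / (ℓ : ℤ) * (ℓ : ℤ)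
  rw [Int.ediv_mul_cancel hdvd]
  ring

/-- **`δ · heckeRep ℓ x = [1 m; 0 1] · heckeRep ℓ (σ x) · δ`**, `δ = diag(L, 1)`. -/
theorem twe_nh_conj_rep (L : ℕ) (hL0 : L ≠ 0) (x : OnePoint (ZMod ℓ)) :
    twe_bl_delta L hL0 * heckeRep ℓ x =
      mapGL ℝ (t2k_trans (twe_nh_m ℓ L x)) * heckeRep ℓ (twe_nh_sig ℓ L x) * twe_bl_delta L hL0 := by
  have hℓ0 : ℓ ≠ 0 := (Fact.out : ℓ.Prime).ne_zero
  apply Matrix.GeneralLinearGroup.ext
  intro i k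
  simp only [Matrix.GeneralLinearGroup.coe_mul, twe_bl_delta_val, t2k_val_heckeRep hℓ0,
    Matrix.mul_apply, Fin.sum_univ_two, mapGL_apply]
  induction x using OnePoint.rec with
  | infty =>
    fin_cases i <;> fin_cases k <;>
      simp [t2k_trans_00, t2k_trans_01, t2k_trans_10, t2k_trans_11, mul_comm]
  | coe j =>
    have h := twe_nh_m_coe (ℓ := ℓ) L j
    have h' : (L : ℝ) * ((j.val : ℕ) : ℝ) =
        ((((L : ZMod ℓ) * j : ZMod ℓ).val : ℕ) : ℝ) +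
          ((twe_nh_m ℓ L (j : OnePoint (ZMod ℓ)) : ℤ) : ℝ) * (ℓ : ℝ) := by exact_mod_cast h
    fin_cases i <;> fin_cases k <;>
      simp [t2k_trans_00, t2k_trans_01, t2k_trans_10, t2k_trans_11, -ZMod.natCast_val]
    linear_combination h'

end rep

/-! ### 3. The main statements -/

section main

variable (N₀ : ℕ) [NeZero N₀] (P : Finset ℕ) [hP : ∀ t : ↥P, Fact (Nat.Prime (t : ℕ))]
  (hN : ∀ t : ↥P, ¬ (t : ℕ) ∣ N₀) {ℓ : ℕ} [Fact ℓ.Prime] (hℓN : ¬ ℓ ∣ N₀)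
  (hℓP : ∀ t : ↥P, (t : ℕ) ≠ ℓ) (L A : ℕ) (hL : L = ∏ t ∈ P, t) (hA : A = N₀ * L * L)
  (hL0 : L ≠ 0) (hdiv : L * N₀ ∣ A) (hℓA : ¬ ℓ ∣ A)

include hL hA in
theorem twe_nh_mem (γ : Gamma0 A) :
    twe_sj_pi N₀ P (twe_bl_cj L A N₀ hL0 hdiv γ) ∈ twe_lv_ST P := by
  subst hA
  rw [twe_lv_pi_mem_ST]
  intro t
  have htL : ((t : ℕ) : ℤ) ∣ (L : ℤ) := by
    rw [hL]
    exact Int.natCast_dvd_natCast.mpr (twe_lv_dvd_prod t)
  have hL0' : (L : ℤ) ≠ 0 := by exact_mod_cast hL0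
  refine ⟨?_, ?_⟩
  · obtain ⟨c, hc⟩ := t2c_dvd_of_mem γ.2
    have h10 := twe_bl_cj_10 hL0 hdiv γ
    rw [hc] at h10
    have h2 : ((twe_bl_cj L (N₀ * L * L) N₀ hL0 hdiv γ : Gamma0 N₀) : SL(2, ℤ)) 1 0 =
        (N₀ : ℤ) * (L : ℤ) * c := by
      apply mul_left_cancel₀ hL0'
      rw [h10]
      push_cast
      ring
    rw [h2]
    exact Dvd.dvd.mul_right (Dvd.dvd.mul_left htL _) _
  · rw [twe_bl_cj_01]
    exact Dvd.dvd.mul_right htL _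

include hL hA hN in
theorem twe_nh_surj (g : Gamma0 N₀) (hg : twe_sj_pi N₀ P g ∈ twe_lv_ST P) :
    ∃ γ : Gamma0 A, twe_bl_cj L A N₀ hL0 hdiv γ = g := by
  subst hA
  rw [twe_lv_pi_mem_ST] at hg
  have h01 : (L : ℤ) ∣ (g : SL(2, ℤ)) 0 1 := by
    rw [hL]
    exact twe_lv_prod_dvd fun t => (hg t).2
  have h10 : (L : ℤ) ∣ (g : SL(2, ℤ)) 1 0 := by
    rw [hL]
    exact twe_lv_prod_dvd fun t => (hg t).1
  have hN10 : (N₀ : ℤ) ∣ (g : SL(2, ℤ)) 1 0 := t2c_dvd_of_mem g.2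
  have hcop : IsCoprime (N₀ : ℤ) (L : ℤ) := by
    rw [Nat.isCoprime_iff_coprime, hL]
    refine Nat.Coprime.prod_right fun t ht => ?_
    exact (Nat.Coprime.symm ((Nat.Prime.coprime_iff_not_dvd (hP ⟨t, ht⟩).out).mpr (hN ⟨t, ht⟩)))
  have hNL : (N₀ : ℤ) * (L : ℤ) ∣ (g : SL(2, ℤ)) 1 0 := hcop.mul_dvd hN10 h10
  have hrange : g ∈ (twe_bl_cj L (N₀ * L * L) N₀ hL0 hdiv).range := by
    rw [twe_bl_mem_range]
    refine ⟨h01, ?_⟩
    obtain ⟨c, hc⟩ := hNL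
    rw [hc]
    exact ⟨c, by push_cast; ring⟩
  exact hrange

/-- the balancing conjugation, with values in the torus level. -/
def twe_nh_theta : Gamma0 A →* ↥((twe_lv_ST P).comap (twe_sj_pi N₀ P)) :=
  (twe_bl_cj L A N₀ hL0 hdiv).codRestrict _ (fun γ => twe_nh_mem N₀ P L A hL hA hL0 hdiv γ)

theorem twe_nh_theta_coe (γ : Gamma0 A) :
    ((twe_nh_theta N₀ P L A hL hA hL0 hdiv γ : ↥((twe_lv_ST P).comap (twe_sj_pi N₀ P))) :
      Gamma0 N₀) = twe_bl_cj L A N₀ hL0 hdiv γ := rfl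

include hN in
/-- the balancing conjugation is an isomorphism onto the torus level. -/
theorem twe_nh_theta_bijective :
    Function.Bijective (twe_nh_theta N₀ P L A hL hA hL0 hdiv) := by
  refine ⟨fun γ γ' h => ?_, fun g => ?_⟩
  · apply twe_bl_cj_injective hL0 hdiv
    have := congrArg (fun g : ↥((twe_lv_ST P).comap (twe_sj_pi N₀ P)) => (g : Gamma0 N₀)) h
    simpa only [twe_nh_theta_coe] using this
  · obtain ⟨γ, hγ⟩ := twe_nh_surj N₀ P hN L A hL hA hL0 hdiv (g : Gamma0 N₀) g.2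
    exact ⟨γ, Subtype.ext hγ⟩

/-- the torus level inside `GL(2, ℝ)`. -/
def twe_nh_iota : ↥((twe_lv_ST P).comap (twe_sj_pi N₀ P)) →* GL (Fin 2) ℝ :=
  (mapGL ℝ).comp ((Gamma0 N₀).subtype.comp ((twe_lv_ST P).comap (twe_sj_pi N₀ P)).subtype)

theorem twe_nh_iota_apply (g : ↥((twe_lv_ST P).comap (twe_sj_pi N₀ P))) :
    twe_nh_iota N₀ P g = mapGL ℝ (((g : Gamma0 N₀) : SL(2, ℤ))) := rfl

theorem twe_nh_iota_injective : Function.Injective (twe_nh_iota N₀ P) := by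
  intro g h hgh
  rw [twe_nh_iota_apply, twe_nh_iota_apply] at hgh
  exact Subtype.ext (Subtype.ext (mapGL_injective (R := ℤ) (S := ℝ) hgh))

/-- the translations `[1 m; 0 1]` in `Γ₀(N₀)`. -/
def twe_nh_tr (m : ℤ) : Gamma0 N₀ := ⟨t2k_trans m, t2k_trans_mem N₀ m⟩

omit [NeZero N₀] in
theorem twe_nh_tr_coe (m : ℤ) : ((twe_nh_tr N₀ m : Gamma0 N₀) : SL(2, ℤ)) = t2k_trans m := rfl

include hL in
/-- the element `τ x = [1 m; 0 1] · s_{σ x}⁻¹` lies in the torus level. -/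
theorem twe_nh_tau_mem (x : OnePoint (ZMod ℓ)) :
    twe_nh_tr N₀ (twe_nh_m ℓ L x) * (twe_fh_s N₀ P hN hℓP (twe_nh_sig ℓ L x))⁻¹ ∈
      (twe_lv_ST P).comap (twe_sj_pi N₀ P) := by
  rw [Subgroup.mem_comap, map_mul, map_inv, twe_fh_pi_s, twe_lv_mem_ST]
  intro t
  rw [Pi.mul_apply, Pi.inv_apply]
  induction x using OnePoint.rec with
  | infty =>
    have h1 : twe_nh_tr N₀ (twe_nh_m ℓ L (∞ : OnePoint (ZMod ℓ))) = 1 := by
      apply Subtype.ext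
      ext i j
      fin_cases i <;> fin_cases j <;> simp [twe_nh_tr, t2k_trans]
    rw [h1, map_one, Pi.one_apply, one_mul, twe_nh_sig_infty]
    exact inv_mem (twe_lv_Dmat_mem _)
  | coe j =>
    rw [twe_nh_sig_coe]
    have htL : ((L : ℕ) : ZMod (t : ℕ)) = 0 := by
      rw [ZMod.natCast_eq_zero_iff, hL]
      exact twe_lv_dvd_prod t
    have hu : ((ℓ : ℕ) : ZMod (t : ℕ)) *
        (((twe_fh_lU P hℓP t)⁻¹ : (ZMod (t : ℕ))ˣ) : ZMod (t : ℕ)) = 1 := by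
      rw [← twe_fh_lU_coe P hℓP t, ← Units.val_mul, mul_inv_cancel, Units.val_one]
    have hm := congrArg (fun z : ℤ => (z : ZMod (t : ℕ))) (twe_nh_m_coe (ℓ := ℓ) L j)
    simp only [Int.cast_mul, Int.cast_add, Int.cast_natCast, htL, zero_mul] at hm
    rw [twe_lv_mem_T1, twe_lv_mul_apply, twe_lv_mul_apply, twe_lv_inv_apply]
    simp only [twe_sj_pi_apply, twe_nh_tr_coe, t2k_trans_00, t2k_trans_01, t2k_trans_10,
      t2k_trans_11, twe_fh_g, OnePoint.elim_some, twlg_bk_Umat_coe, Matrix.of_apply,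
      Matrix.cons_val', Matrix.cons_val_zero, Matrix.cons_val_one, Matrix.empty_val',
      Matrix.cons_val_fin_one, Int.cast_zero, Int.cast_one]
    refine ⟨by ring, ?_⟩
    linear_combination (-(((twe_fh_lU P hℓP t)⁻¹ : (ZMod (t : ℕ))ˣ) : ZMod (t : ℕ))) * hm -
      ((twe_nh_m ℓ L (j : OnePoint (ZMod ℓ)) : ℤ) : ZMod (t : ℕ)) * hu

/-- the elements `τ x` of the torus level. -/
def twe_nh_tau (x : OnePoint (ZMod ℓ)) : ↥((twe_lv_ST P).comap (twe_sj_pi N₀ P)) :=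
  ⟨twe_nh_tr N₀ (twe_nh_m ℓ L x) * (twe_fh_s N₀ P hN hℓP (twe_nh_sig ℓ L x))⁻¹,
    twe_nh_tau_mem N₀ P hN hℓP L hL x⟩

theorem twe_nh_hecke {K : Type*} [AddCommGroup K]
    (φ : Additive ↥((twe_lv_ST P).comap (twe_sj_pi N₀ P)) →+ K) :
    t2c_Tadd hℓA (lrpd_pull (twe_nh_theta N₀ P L A hL hA hL0 hdiv) φ) =
      lrpd_pull (twe_nh_theta N₀ P L A hL hA hL0 hdiv)
        (lrt_T (twe_fl_dataS (twe_fh_compat N₀ P hN hℓN hℓP) (twe_lv_ST P) (twe_lv_tau_ST hℓP)) φ) := by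
  have hℓL : ¬ ℓ ∣ L := by
    intro h
    apply hℓA
    rw [hA]
    exact Dvd.dvd.mul_left h _
  refine AddMonoidHom.ext fun γ' => ?_
  obtain ⟨γ, rfl⟩ := Additive.ofMul.surjective γ'
  rw [t2c_Tadd_apply, lrpd_pull_apply]
  set θ := twe_nh_theta N₀ P L A hL hA hL0 hdiv with hθ
  set D := twe_fl_dataS (twe_fh_compat N₀ P hN hℓN hℓP) (twe_lv_ST P) (twe_lv_tau_ST hℓP) with hD
  show ∑ x : OnePoint (ZMod ℓ), lrt_ev φ (θ (t2c_coc hℓA x γ)) = lrt_ev (lrt_T D φ) (θ γ)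
  rw [lrt_T_ev]
  refine lre_sum_eq ((twe_nh_iota N₀ P).comp θ) (twe_nh_iota N₀ P)
    (fun x => twe_bl_delta L hL0 * heckeRep ℓ x * (twe_bl_delta L hL0)⁻¹)
    (fun y => mapGL ℝ ((twe_fh_s N₀ P hN hℓP y : Gamma0 N₀) : SL(2, ℤ)) * heckeRep ℓ y)
    (fun γ => t2c_perm ((γ : Gamma0 A) : SL(2, ℤ)))
    (fun γ y => t2c_act (((θ γ : ↥((twe_lv_ST P).comap (twe_sj_pi N₀ P))) : Gamma0 N₀) : SL(2, ℤ)) y)
    (fun x γ => θ (t2c_coc hℓA x γ)) (fun y γ => D.coc y (θ γ)) ?_ ?_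
    (twe_nh_iota_injective N₀ P) ?_ (twe_nh_sig ℓ L) (twe_nh_sig_bijective L hℓL)
    (twe_nh_tau N₀ P hN hℓP L hL) ?_ φ γ
  · -- hX
    intro x γ
    show twe_bl_delta L hL0 * heckeRep ℓ x * (twe_bl_delta L hL0)⁻¹ *
        mapGL ℝ ((twe_bl_cj L A N₀ hL0 hdiv γ : Gamma0 N₀) : SL(2, ℤ)) =
      mapGL ℝ ((twe_bl_cj L A N₀ hL0 hdiv (t2c_coc hℓA x γ) : Gamma0 N₀) : SL(2, ℤ)) *
        (twe_bl_delta L hL0 * heckeRep ℓ (t2c_act ((γ : Gamma0 A) : SL(2, ℤ)) x) *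
          (twe_bl_delta L hL0)⁻¹)
    exact twe_nh_grpX _ _ _ _ _ _ _ (twe_bl_cj_GL hL0 hdiv γ)
      (twe_bl_cj_GL hL0 hdiv (t2c_coc hℓA x γ)) (t2c_coc_spec hℓA x γ)
  · -- hY
    intro y γ
    set g : Gamma0 N₀ := twe_bl_cj L A N₀ hL0 hdiv γ with hg
    show mapGL ℝ ((twe_fh_s N₀ P hN hℓP y : Gamma0 N₀) : SL(2, ℤ)) * heckeRep ℓ y *
        mapGL ℝ ((g : Gamma0 N₀) : SL(2, ℤ)) =
      mapGL ℝ (((twe_fh_coc N₀ P hN hℓN hℓP y g : Gamma0 N₀)) : SL(2, ℤ)) *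
        (mapGL ℝ ((twe_fh_s N₀ P hN hℓP (t2c_act ((g : Gamma0 N₀) : SL(2, ℤ)) y) : Gamma0 N₀) :
          SL(2, ℤ)) * heckeRep ℓ (t2c_act ((g : Gamma0 N₀) : SL(2, ℤ)) y))
    unfold twe_fh_coc
    rw [Subgroup.coe_mul, Subgroup.coe_mul, Subgroup.coe_inv, map_mul, map_mul, map_inv,
      mul_assoc, t2c_coc_spec hℓN y g]
    group
  · -- hsep
    intro y y' d h
    rw [twe_nh_iota_apply] at h
    refine lre_alpha_sep y y'
      (((twe_fh_s N₀ P hN hℓP y : Gamma0 N₀) : SL(2, ℤ))⁻¹ * ((d : Gamma0 N₀) : SL(2, ℤ)) *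
        ((twe_fh_s N₀ P hN hℓP y' : Gamma0 N₀) : SL(2, ℤ))) ?_
    rw [map_mul, map_mul, map_inv, mul_assoc, mul_assoc, ← h, inv_mul_cancel_left]
  · -- hτ
    intro x
    rw [twe_nh_iota_apply]
    show twe_bl_delta L hL0 * heckeRep ℓ x * (twe_bl_delta L hL0)⁻¹ =
      mapGL ℝ ((twe_nh_tr N₀ (twe_nh_m ℓ L x) *
        (twe_fh_s N₀ P hN hℓP (twe_nh_sig ℓ L x))⁻¹ : Gamma0 N₀) : SL(2, ℤ)) *
        (mapGL ℝ ((twe_fh_s N₀ P hN hℓP (twe_nh_sig ℓ L x) : Gamma0 N₀) : SL(2, ℤ)) *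
          heckeRep ℓ (twe_nh_sig ℓ L x))
    rw [twe_nh_conj_rep L hL0 x, mul_inv_cancel_right, Subgroup.coe_mul, Subgroup.coe_inv,
      map_mul, map_inv, twe_nh_tr_coe, mul_assoc, inv_mul_cancel_left]

end main

end Fermat.Agent.TW
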