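import Fermat.Agent.TW.Aut.Balanced
import Fermat.Agent.TW.Aut.SurjSL2
import Fermat.Agent.TW.LG.GatewayDegVer

/-!
# TW / [E] / E/New-VB: the (BETA) cocycle after balancing (prefix `twe_nvb_`)

For the balancing conjugation `twe_bl_cj m` (`γ ↦ δ γ δ⁻¹`, `δ = diag(m, 1)`), the cocycle
`twlg_gd_cocB` of the transfer (BETA) `Γ₀(N' t) → Γ₀(N' t²)` (`N' = N₀ L'²`, representatives
`[1 j; 0 t]`) becomes, inside `Γ₀(N₀)`, a conjugate by integral unipotents: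

  `cj_{L' t} (cocB j g) = U (L' j) · cj_{L'} g · U (L' (j ⋆ g))⁻¹`.

The proof is the `GL(2, ℝ)` identity
`diag(L' t, 1) · [1 j; 0 t] = (t · 1) · [1 (L' j); 0 1] · diag(L', 1)` (`twe_nvb_key`).
-/

set_option autoImplicit false

noncomputable section

open CongruenceSubgroup Matrix.SpecialLinearGroup ModularForm
open P2MW.S_ModularForm_heckeT_slash_eq_self_of_mem_Gamma0.ModularForm.HeckeSlashInvariance
open scoped MatrixGroups

namespace Fermat.Agent.TW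

open Fermat.Agent.JT3

/-- the central element `t · 1` of `GL(2, ℝ)`. -/
def twe_nvb_scal (t : ℕ) (ht : t ≠ 0) : GL (Fin 2) ℝ :=
  Matrix.GeneralLinearGroup.mkOfDetNeZero !![(t : ℝ), 0; 0, (t : ℝ)] (by
    rw [Matrix.det_fin_two_of]
    have : (t : ℝ) ≠ 0 := by exact_mod_cast ht
    simpa using this)

theorem twe_nvb_scal_val (t : ℕ) (ht : t ≠ 0) :
    ((twe_nvb_scal t ht : GL (Fin 2) ℝ) : Matrix (Fin 2) (Fin 2) ℝ) = !![(t : ℝ), 0; 0, (t : ℝ)] :=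
  rfl

theorem twe_nvb_scal_comm (t : ℕ) (ht : t ≠ 0) (A : GL (Fin 2) ℝ) :
    twe_nvb_scal t ht * A = A * twe_nvb_scal t ht := by
  apply Matrix.GeneralLinearGroup.ext
  intro i j
  simp only [Matrix.GeneralLinearGroup.coe_mul, twe_nvb_scal_val, Matrix.mul_apply,
    Fin.sum_univ_two]
  fin_cases i <;> fin_cases j <;> simp [mul_comm]

/-- `diag(L t, 1) · [1 j; 0 t] = (t · 1) · [1 (L j); 0 1] · diag(L, 1)`. -/
theorem twe_nvb_key (L t : ℕ) (hLt : L * t ≠ 0) (hL : L ≠ 0) (ht : t ≠ 0) (j : ℕ) :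
    twe_bl_delta (L * t) hLt * heckeMatrix t j =
      twe_nvb_scal t ht * mapGL ℝ (twe_sj_UzMat ((L : ℤ) * (j : ℤ))) * twe_bl_delta L hL := by
  apply Matrix.GeneralLinearGroup.ext
  intro i k
  simp only [Matrix.GeneralLinearGroup.coe_mul, twe_nvb_scal_val, twe_bl_delta_val,
    val_heckeMatrix ht, Matrix.mul_apply, Fin.sum_univ_two, mapGL_apply]
  fin_cases i <;> fin_cases k <;> simp <;> ring

/-- the group-theoretic skeleton of E/New-VB. -/
theorem twe_nvb_group {G : Type*} [Group G] (X Y Uj Uj' D1 D2 s Hj Hj' g C : G)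
    (hs : ∀ A : G, s * A = A * s) (e1 : D1 * C = X * D1) (e2 : D2 * g = Y * D2)
    (e3 : Hj * g = C * Hj') (k1 : D1 * Hj = s * Uj * D2) (k2 : D1 * Hj' = s * Uj' * D2) :
    X * Uj' = Uj * Y := by
  apply mul_right_cancel (b := D2)
  apply mul_left_cancel (a := s)
  calc s * (X * Uj' * D2) = X * (s * Uj' * D2) := by
        rw [← mul_assoc, ← mul_assoc, hs X]; simp only [mul_assoc]
    _ = X * (D1 * Hj') := by rw [k2]
    _ = D1 * C * Hj' := by rw [← mul_assoc, ← e1]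
    _ = D1 * (Hj * g) := by rw [e3, mul_assoc]
    _ = s * Uj * (D2 * g) := by rw [← mul_assoc, k1, mul_assoc]
    _ = s * (Uj * Y * D2) := by rw [e2]; simp only [mul_assoc]

/-- the unipotent `twe_sj_Uz N₀ z`, as an element of `SL(2, ℤ)`. -/
theorem twe_nvb_Uz_coe (N₀ : ℕ) (z : ℤ) :
    ((twe_sj_Uz N₀ z : Gamma0 N₀) : SL(2, ℤ)) = twe_sj_UzMat z := rfl

/-- **E/New-VB**: the (BETA) cocycle after balancing is a conjugate by integral unipotents. -/
theorem twe_nvb_main (N₀ L' t : ℕ) [NeZero N₀] [NeZero L'] [NeZero t]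
    (g : Gamma0 (N₀ * L' * L' * t)) (j : ZMod t)
    (h1 : L' * t * N₀ ∣ N₀ * L' * L' * t * t) (h2 : L' * N₀ ∣ N₀ * L' * L' * t)
    (hLt : L' * t ≠ 0) (hL : L' ≠ 0) :
    twe_bl_cj (L' * t) (N₀ * L' * L' * t * t) N₀ hLt h1
        (twlg_gd_cocB (N₀ * L' * L' * t) t (dvd_mul_left t _) j g) =
      twe_sj_Uz N₀ (L' * j.val) * twe_bl_cj L' (N₀ * L' * L' * t) N₀ hL h2 g *
        (twe_sj_Uz N₀ (L' * (twlg_gd_actB (N₀ * L' * L' * t) t (dvd_mul_left t _) g j).val))⁻¹ := by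
  have ht : t ≠ 0 := NeZero.ne t
  rw [eq_mul_inv_iff_mul_eq]
  apply Subtype.ext
  refine mapGL_injective (R := ℤ) (S := ℝ) ?_
  rw [Subgroup.coe_mul, Subgroup.coe_mul, map_mul, map_mul, twe_nvb_Uz_coe, twe_nvb_Uz_coe]
  exact twe_nvb_group _ _ _ _ _ _ _ _ _ _ _ (twe_nvb_scal_comm t ht)
    (twe_bl_cj_GL hLt h1 _) (twe_bl_cj_GL hL h2 g)
    (twlg_gd_cocB_spec (dvd_mul_left t (N₀ * L' * L')) j g)
    (twe_nvb_key L' t hLt hL ht j.val) (twe_nvb_key L' t hLt hL ht _)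

end Fermat.Agent.TW
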