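/-
Project ONE MACHINE (S43), block [E] AUT, cell E/OldIter, abstract part (helper2; prefix `twe_oi_`).

The Finset induction which turns the one-prime E/Old bijections
`i : (θ-part at level M₁)² ≃ (θ-part at level M₁ t)` (`TW/Aut/OldSplit.lean`, `OldGal.lean`,
`OldDesc.lean`) into the target of `twe_Level.c`:

  `(θ-part at level N ∏_{t ∈ Q} t) ≃ (θ-part at level N)^(2^|Q|)`,  Hecke-equivariantly.

* `twe_oi_iter`     : the abstract statement for a family `P : Finset ι → Type*` of modules;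
* `twe_oi_cast`     : transport of a family `P' : ℕ → Type*` along an equality of levels;
* `twe_oi_iter_nat` : the statement for a family indexed by the level (`P s = P' (N ∏_{t ∈ s} t)`),
                      with the casts `(N ∏_s) t = N ∏_{insert t s}` and `N ∏_∅ = N` done inside.
Mathlib only.
-/
import Mathlib

set_option autoImplicit false
set_option linter.unusedSectionVars false
set_option linter.unusedVariables false

namespace Fermat.Agent.TW

/-- the reindexing `Fin (2 ^ (n + 1)) ≃ Fin (2 ^ n) ⊕ Fin (2 ^ n)`. -/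
def twe_oi_split {m n : ℕ} (h : m = 2 ^ n + 2 ^ n) : Fin m ≃ Fin (2 ^ n) ⊕ Fin (2 ^ n) :=
  (finCongr h).trans finSumFinEquiv.symm

section linear

variable {R : Type*} [Semiring R] {ι : Type*} [DecidableEq ι] {Op : Type*}
  (P : Finset ι → Type*) [∀ s, AddCommMonoid (P s)] [∀ s, Module R (P s)]
  (T : ∀ s, Op → P s →ₗ[R] P s) (Q : Finset ι)
  (i : ∀ (s : Finset ι) (t : ι), insert t s ⊆ Q → t ∉ s → P s × P s →ₗ[R] P (insert t s))

/-- **E/OldIter, abstract** (linear form): bijective `T`-equivariant maps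
`i s t : P s × P s → P (insert t s)` (`insert t s ⊆ Q`, `t ∉ s`) give a bijective `T`-equivariant
map `c : P Q' → (Fin (2 ^ |Q'|) → P ∅)` for every `Q' ⊆ Q`. -/
theorem twe_oi_iter
    (hbij : ∀ s t (hs : insert t s ⊆ Q) (ht : t ∉ s), Function.Bijective (i s t hs ht))
    (hT : ∀ s t (hs : insert t s ⊆ Q) (ht : t ∉ s) (o : Op) (x : P s × P s),
      T (insert t s) o (i s t hs ht x) = i s t hs ht (T s o x.1, T s o x.2))
    (Q' : Finset ι) (hQ' : Q' ⊆ Q) :
    ∃ c : P Q' →ₗ[R] (Fin (2 ^ Q'.card) → P ∅), Function.Bijective c ∧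
      ∀ (o : Op) (x : P Q') (k : Fin (2 ^ Q'.card)), c (T Q' o x) k = T ∅ o (c x k) := by
  induction Q' using Finset.induction_on with
  | empty =>
    have h1 : 2 ^ (∅ : Finset ι).card = 1 := by simp
    have : Subsingleton (Fin (2 ^ (∅ : Finset ι).card)) := by rw [h1]; infer_instance
    let k0 : Fin (2 ^ (∅ : Finset ι).card) := ⟨0, by rw [h1]; exact Nat.one_pos⟩
    refine ⟨LinearMap.pi fun _ => LinearMap.id, ⟨?_, ?_⟩, fun o x k => rfl⟩
    · intro x y hxy
      exact congrFun hxy k0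
    · intro f
      refine ⟨f k0, funext fun k => ?_⟩
      rw [Subsingleton.elim k k0]
      rfl
  | insert t s ht ih =>
    obtain ⟨c, hc, hcT⟩ := ih ((Finset.subset_insert t s).trans hQ')
    have h2 : 2 ^ (insert t s).card = 2 ^ s.card + 2 ^ s.card := by
      rw [Finset.card_insert_of_notMem ht, pow_succ, mul_two]
    let ε := twe_oi_split h2
    let e : (P s × P s) ≃ₗ[R] P (insert t s) :=
      LinearEquiv.ofBijective (i s t hQ' ht) (hbij s t hQ' ht)
    have he : ∀ x, e x = i s t hQ' ht x := fun x => rfl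
    let c' : P (insert t s) →ₗ[R] (Fin (2 ^ (insert t s).card) → P ∅) :=
      LinearMap.pi fun k =>
        (Sum.elim (fun a => (LinearMap.proj a ∘ₗ c) ∘ₗ LinearMap.fst R (P s) (P s))
          (fun a => (LinearMap.proj a ∘ₗ c) ∘ₗ LinearMap.snd R (P s) (P s)) (ε k)) ∘ₗ
          e.symm.toLinearMap
    have hc'l : ∀ y (k : Fin (2 ^ (insert t s).card)) a, ε k = Sum.inl a →
        c' y k = c (e.symm y).1 a := by
      intro y k a hk
      show (Sum.elim _ _ (ε k) ∘ₗ e.symm.toLinearMap) y = _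
      rw [hk]
      rfl
    have hc'r : ∀ y (k : Fin (2 ^ (insert t s).card)) a, ε k = Sum.inr a →
        c' y k = c (e.symm y).2 a := by
      intro y k a hk
      show (Sum.elim _ _ (ε k) ∘ₗ e.symm.toLinearMap) y = _
      rw [hk]
      rfl
    refine ⟨c', ⟨?_, ?_⟩, ?_⟩
    · intro y y' hyy'
      apply e.symm.injective
      refine Prod.ext (hc.1 (funext fun a => ?_)) (hc.1 (funext fun a => ?_))
      · have h := congrFun hyy' (ε.symm (Sum.inl a))
        rwa [hc'l y _ a (ε.apply_symm_apply _), hc'l y' _ a (ε.apply_symm_apply _)] at h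
      · have h := congrFun hyy' (ε.symm (Sum.inr a))
        rwa [hc'r y _ a (ε.apply_symm_apply _), hc'r y' _ a (ε.apply_symm_apply _)] at h
    · intro f
      obtain ⟨x1, hx1⟩ := hc.2 fun a => f (ε.symm (Sum.inl a))
      obtain ⟨x2, hx2⟩ := hc.2 fun a => f (ε.symm (Sum.inr a))
      refine ⟨e (x1, x2), funext fun k => ?_⟩
      rcases hk : ε k with a | a
      · rw [hc'l _ k a hk, e.symm_apply_apply, hx1]
        show f (ε.symm (Sum.inl a)) = f k
        rw [← hk, ε.symm_apply_apply]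
      · rw [hc'r _ k a hk, e.symm_apply_apply, hx2]
        show f (ε.symm (Sum.inr a)) = f k
        rw [← hk, ε.symm_apply_apply]
    · intro o y k
      obtain ⟨x, rfl⟩ := e.surjective y
      have h3 : e.symm (T (insert t s) o (e x)) = (T s o x.1, T s o x.2) := by
        rw [he, hT, ← he, e.symm_apply_apply]
      rcases hk : ε k with a | a
      · rw [hc'l _ k a hk, hc'l _ k a hk, h3, e.symm_apply_apply, hcT]
      · rw [hc'r _ k a hk, hc'r _ k a hk, h3, e.symm_apply_apply, hcT]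

end linear

section nat

variable {R : Type*} [Semiring R] {Op : Type*}
  (P' : ℕ → Type*) [∀ M, AddCommMonoid (P' M)] [∀ M, Module R (P' M)]
  (T' : ∀ M, Op → P' M →ₗ[R] P' M)

/-- transport along an equality of levels. -/
def twe_oi_cast {M M' : ℕ} (h : M = M') : P' M ≃ₗ[R] P' M' := by
  subst h
  exact LinearEquiv.refl R _

theorem twe_oi_cast_T {M M' : ℕ} (h : M = M') (o : Op) (x : P' M) :
    twe_oi_cast (R := R) P' h (T' M o x) = T' M' o (twe_oi_cast (R := R) P' h x) := by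
  subst h
  rfl

/-- **E/OldIter for a family indexed by the level.** `good M₁ t` = "the one-prime statement holds
at level `M₁` and the prime `t`"; `i₁ M₁ t : P' M₁ × P' M₁ → P' (M₁ * t)` bijective and
`T'`-equivariant. Then `P' (N * ∏_{t ∈ Q} t) ≅ (P' N)^(2^|Q|)`, `T'`-equivariantly. -/
theorem twe_oi_iter_nat (N : ℕ) (Q : Finset ℕ) (good : ℕ → ℕ → Prop)
    (hgood : ∀ (s : Finset ℕ) (t : ℕ), insert t s ⊆ Q → t ∉ s → good (N * ∏ x ∈ s, x) t)
    (i₁ : ∀ M₁ t : ℕ, good M₁ t → P' M₁ × P' M₁ →ₗ[R] P' (M₁ * t))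
    (hbij : ∀ M₁ t (h : good M₁ t), Function.Bijective (i₁ M₁ t h))
    (hT : ∀ M₁ t (h : good M₁ t) (o : Op) (x : P' M₁ × P' M₁),
      T' (M₁ * t) o (i₁ M₁ t h x) = i₁ M₁ t h (T' M₁ o x.1, T' M₁ o x.2)) :
    ∃ c : P' (N * ∏ x ∈ Q, x) →ₗ[R] (Fin (2 ^ Q.card) → P' N), Function.Bijective c ∧
      ∀ (o : Op) (x : P' (N * ∏ x ∈ Q, x)) (k : Fin (2 ^ Q.card)),
        c (T' _ o x) k = T' N o (c x k) := by
  have hlev : ∀ (s : Finset ℕ) (t : ℕ), t ∉ s →
      (N * ∏ x ∈ s, x) * t = N * ∏ x ∈ insert t s, x := by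
    intro s t ht
    rw [Finset.prod_insert ht]
    ring
  obtain ⟨c, hc, hcT⟩ := twe_oi_iter (R := R) (fun s : Finset ℕ => P' (N * ∏ x ∈ s, x))
    (fun s => T' (N * ∏ x ∈ s, x)) Q
    (fun s t hs ht => (twe_oi_cast (R := R) P' (hlev s t ht)).toLinearMap ∘ₗ
      i₁ (N * ∏ x ∈ s, x) t (hgood s t hs ht))
    (fun s t hs ht => (twe_oi_cast (R := R) P' (hlev s t ht)).bijective.comp
      (hbij _ t (hgood s t hs ht)))
    (fun s t hs ht o x => by
      show T' _ o (twe_oi_cast (R := R) P' (hlev s t ht) (i₁ _ t (hgood s t hs ht) x)) =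
        twe_oi_cast (R := R) P' (hlev s t ht) (i₁ _ t (hgood s t hs ht) _)
      rw [← twe_oi_cast_T, hT])
    Q (Finset.Subset.refl Q)
  have h0 : N * ∏ x ∈ (∅ : Finset ℕ), x = N := by rw [Finset.prod_empty, mul_one]
  refine ⟨(LinearMap.pi fun k => (twe_oi_cast (R := R) P' h0).toLinearMap ∘ₗ LinearMap.proj k) ∘ₗ c,
    ⟨?_, ?_⟩, ?_⟩
  · intro x y hxy
    apply hc.1
    funext k
    apply (twe_oi_cast (R := R) P' h0).injective
    exact congrFun hxy k
  · intro f
    obtain ⟨x, hx⟩ := hc.2 fun k => (twe_oi_cast (R := R) P' h0).symm (f k)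
    refine ⟨x, funext fun k => ?_⟩
    show twe_oi_cast (R := R) P' h0 (c x k) = f k
    rw [hx, LinearEquiv.apply_symm_apply]
  · intro o x k
    show twe_oi_cast (R := R) P' h0 (c (T' _ o x) k) = T' N o (twe_oi_cast (R := R) P' h0 (c x k))
    rw [hcT, twe_oi_cast_T]

end nat

end Fermat.Agent.TW
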