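/-
ONE MACHINE / block [E] AUT, cell E/FreeAbs (helper5): THE ABSTRACT CORE OF E/Free.
Namespace `Fermat.Agent.TW`, prefix `twe_fa_`.  Mathlib + `TW/Aut/FreeCrit.lean` only.

Hecke-module linear algebra over a field `k`, once and for all (helper22's paper proof #4642,
STEP 1 (c) + STEP 2 and the "dies at `𝔪`" arguments):

* `twe_fa_loc T a := ⨅ ℓ, (T ℓ).maxGenEigenspace (a ℓ)` : the localisation of a finite-dimensional
  space with a commuting family `T : L → End k V` at the eigen-system `a : L → k`;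
  `twe_fa_map_loc` (intertwining maps preserve it), `twe_fa_eq_zero_of_eigen`;
* `twe_fa_fitting`, `twe_fa_disjoint` : Fitting decomposition inside a stable subspace;
* `twe_fa_nondeg_loc` : a non-degenerate pairing for which all `T ℓ` are self-adjoint is
  NON-DEGENERATE ON THE LOCALISATION (`twe_fa_exists_finset`: finitely many `ℓ` cut it out);
* `structure twe_fa_Step k L V' V1 B` : the data of one cyclic step `Γ' ⊴ Γ₁`
  (`V' = W(Γ',k)`, `V1 = W(Γ₁,k)`, Hecke operators, generator `g` of order `q`, `res`, `cor`,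
  `res ∘ cor = ∑_{j<q} g^j`, `ker res` Eisenstein, Eisenstein obstruction `ob`, the two
  pairings with `res ⊣ cor`);
* **`twe_fa_main`** : for `a ℓ₀ ≠ e ℓ₀` (non-Eisenstein), `q = p ^ n`, `char k = p`:
  `dim V'_a = q dim V1_a`, `cor : V'_a → V1_a` is onto with kernel `(g - 1) V'_a`,
  `res : V1_a → V'_a` is injective with image the `g`-invariants
  (`twe_fa_res_inj`, `twe_fa_ob_eq_zero`, `twe_fa_inv_mem`, `twe_fa_cor_surj`).
-/
import Mathlib
import Fermat.Agent.TW.Aut.FreeCrit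

set_option autoImplicit false

noncomputable section

namespace Fermat.Agent.TW

open Module

section loc

variable {k : Type*} [Field k] {L : Type*}
variable {V : Type*} [AddCommGroup V] [Module k V]
variable {W : Type*} [AddCommGroup W] [Module k W]

/-- the simultaneous generalised eigenspace of a family of operators for the system `a`
(`= ` the localisation at the maximal ideal `(T ℓ - a ℓ)` of the Hecke algebra). -/
def twe_fa_loc (T : L → Module.End k V) (a : L → k) : Submodule k V :=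
  ⨅ ℓ, (T ℓ).maxGenEigenspace (a ℓ)

theorem twe_fa_mem_loc {T : L → Module.End k V} {a : L → k} {x : V} :
    x ∈ twe_fa_loc T a ↔ ∀ ℓ, ∃ n : ℕ, ((T ℓ - a ℓ • (1 : Module.End k V)) ^ n) x = 0 := by
  simp only [twe_fa_loc, Submodule.mem_iInf, Module.End.mem_maxGenEigenspace]

/-- intertwining maps commute with the powers of `T - μ`. -/
theorem twe_fa_intertwine_pow (F : V →ₗ[k] W) (f : Module.End k V) (f' : Module.End k W)
    (h : ∀ x, F (f x) = f' (F x)) (μ : k) (n : ℕ) (x : V) :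
    F (((f - μ • (1 : Module.End k V)) ^ n) x) = ((f' - μ • (1 : Module.End k W)) ^ n) (F x) := by
  induction n generalizing x with
  | zero => simp
  | succ n ih =>
    rw [pow_succ, pow_succ, Module.End.mul_apply, Module.End.mul_apply, ih]
    congr 1
    simp only [LinearMap.sub_apply, LinearMap.smul_apply, Module.End.one_apply, map_sub, map_smul,
      h]

/-- an intertwining map sends the localisation into the localisation. -/
theorem twe_fa_map_loc (F : V →ₗ[k] W) (T : L → Module.End k V) (T' : L → Module.End k W)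
    (h : ∀ ℓ x, F (T ℓ x) = T' ℓ (F x)) (a : L → k) {x : V} (hx : x ∈ twe_fa_loc T a) :
    F x ∈ twe_fa_loc T' a := by
  rw [twe_fa_mem_loc] at hx ⊢
  intro ℓ
  obtain ⟨n, hn⟩ := hx ℓ
  refine ⟨n, ?_⟩
  rw [← twe_fa_intertwine_pow F (T ℓ) (T' ℓ) (h ℓ), hn, map_zero]

/-- a generalised eigenspace meets an eigenspace for a different eigenvalue trivially. -/
theorem twe_fa_eq_zero_of_eigen {f : Module.End k V} {μ : k} {x : V}
    (hx : x ∈ f.maxGenEigenspace μ) (e : k) (he : μ ≠ e) (hxe : f x = e • x) : x = 0 := by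
  obtain ⟨n, hn⟩ := (Module.End.mem_maxGenEigenspace f μ x).1 hx
  have h1 : ∀ m : ℕ, ((f - μ • (1 : Module.End k V)) ^ m) x = (e - μ) ^ m • x := by
    intro m
    induction m with
    | zero => simp
    | succ m ih =>
      rw [pow_succ', Module.End.mul_apply, ih, map_smul, LinearMap.sub_apply, LinearMap.smul_apply,
        Module.End.one_apply, hxe, ← sub_smul, smul_smul, pow_succ]
  rw [h1] at hn
  rcases smul_eq_zero.1 hn with h | h
  · exact absurd (eq_zero_of_pow_eq_zero h) (sub_ne_zero.2 (Ne.symm he))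
  · exact h

theorem twe_fa_loc_le (T : L → Module.End k V) (a : L → k) (ℓ : L) :
    twe_fa_loc T a ≤ (T ℓ).maxGenEigenspace (a ℓ) := iInf_le _ ℓ

end loc

/-! ### Fitting decomposition inside a stable subspace -/

section fitting

variable {k : Type*} [Field k] {V : Type*} [AddCommGroup V] [Module k V] [FiniteDimensional k V]

/-- the Fitting complement of the generalised eigenspace: `⨅ n, range (f - μ)^n`. -/
def twe_fa_rad (f : Module.End k V) (μ : k) : Submodule k V :=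
  ⨅ n : ℕ, LinearMap.range ((f - μ • (1 : Module.End k V)) ^ n)

/-- **Fitting**, inside an `f`-stable subspace `U`: every `y ∈ U` is `y_G + y_R` with
`y_G ∈ U ∩ G_μ(f)` and `y_R ∈ U ∩ ⨅ range (f - μ)^n`. -/
theorem twe_fa_fitting (f : Module.End k V) (μ : k) (U : Submodule k V)
    (hU : ∀ u ∈ U, f u ∈ U) {y : V} (hy : y ∈ U) :
    ∃ yG ∈ U, ∃ yR ∈ U, y = yG + yR ∧ yG ∈ f.maxGenEigenspace μ ∧ yR ∈ twe_fa_rad f μ := by
  set g : Module.End k V := f - μ • (1 : Module.End k V) with hg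
  have hgU : ∀ u ∈ U, g u ∈ U := by
    intro u hu
    rw [hg, LinearMap.sub_apply, LinearMap.smul_apply, Module.End.one_apply]
    exact U.sub_mem (hU u hu) (U.smul_mem μ hu)
  set gU : Module.End k U := g.restrict hgU with hgU'
  have hpow : ∀ (n : ℕ) (u : U), (((gU ^ n) u : U) : V) = (g ^ n) (u : V) := by
    intro n u
    induction n generalizing u with
    | zero => simp
    | succ n ih =>
      rw [pow_succ, pow_succ, Module.End.mul_apply, Module.End.mul_apply, ih]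
      rfl
  have hcompl := LinearMap.isCompl_iSup_ker_pow_iInf_range_pow gU
  have htop : (⟨y, hy⟩ : U) ∈ (⨆ n, LinearMap.ker (gU ^ n)) ⊔ (⨅ n, LinearMap.range (gU ^ n)) := by
    rw [hcompl.sup_eq_top]
    exact Submodule.mem_top
  obtain ⟨a, ha, b, hb, hab⟩ := Submodule.mem_sup.1 htop
  refine ⟨a, a.2, b, b.2, ?_, ?_, ?_⟩
  · have := congrArg (Subtype.val) hab
    simpa using this.symm
  · have hmono : Monotone fun n => LinearMap.ker (gU ^ n) := by
      intro m n hmn x hx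
      rw [LinearMap.mem_ker] at hx ⊢
      obtain ⟨d, rfl⟩ := Nat.exists_eq_add_of_le hmn
      rw [add_comm, pow_add, Module.End.mul_apply, hx, map_zero]
    obtain ⟨n, hn⟩ := (Submodule.mem_iSup_of_directed _ hmono.directed_le).1 ha
    rw [Module.End.mem_maxGenEigenspace]
    refine ⟨n, ?_⟩
    rw [← hg, ← hpow, LinearMap.mem_ker.1 hn]
    rfl
  · rw [twe_fa_rad, Submodule.mem_iInf]
    intro n
    obtain ⟨u, hu⟩ := (Submodule.mem_iInf _).1 hb n
    refine ⟨(u : V), ?_⟩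
    rw [← hg, ← hpow, hu]

/-- `G_μ(f) ∩ ⨅ range (f - μ)^n = 0`. -/
theorem twe_fa_disjoint (f : Module.End k V) (μ : k) {y : V} (hG : y ∈ f.maxGenEigenspace μ)
    (hR : y ∈ twe_fa_rad f μ) : y = 0 := by
  set g : Module.End k V := f - μ • (1 : Module.End k V) with hg
  have hcompl := LinearMap.isCompl_iSup_ker_pow_iInf_range_pow g
  have h1 : y ∈ ⨆ n, LinearMap.ker (g ^ n) := by
    obtain ⟨n, hn⟩ := (Module.End.mem_maxGenEigenspace f μ y).1 hG
    exact Submodule.mem_iSup_of_mem n (LinearMap.mem_ker.2 hn)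
  have h2 : y ∈ (⨆ n, LinearMap.ker (g ^ n)) ⊓ (⨅ n, LinearMap.range (g ^ n)) := ⟨h1, hR⟩
  rw [hcompl.inf_eq_bot] at h2
  exact (Submodule.mem_bot k).1 h2

end fitting
/-! ### Self-adjoint commuting families: the pairing is non-degenerate on the localisation -/

section pairing

variable {k : Type*} [Field k] {L : Type*} {V : Type*} [AddCommGroup V] [Module k V]

theorem twe_fa_adj_pow (Ω : V →ₗ[k] V →ₗ[k] k) (f : Module.End k V)
    (hsa : ∀ x y, Ω (f x) y = Ω x (f y)) (μ : k) (n : ℕ) (x y : V) :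
    Ω (((f - μ • (1 : Module.End k V)) ^ n) x) y =
      Ω x (((f - μ • (1 : Module.End k V)) ^ n) y) := by
  have step : ∀ x y : V, Ω ((f - μ • (1 : Module.End k V)) x) y =
      Ω x ((f - μ • (1 : Module.End k V)) y) := by
    intro x y
    simp only [LinearMap.sub_apply, LinearMap.smul_apply, Module.End.one_apply, map_sub, map_smul,
      hsa]
  induction n generalizing x y with
  | zero => simp
  | succ n ih =>
    calc Ω (((f - μ • (1 : Module.End k V)) ^ (n + 1)) x) y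
        = Ω (((f - μ • (1 : Module.End k V)) ^ n) ((f - μ • (1 : Module.End k V)) x)) y := by
          rw [pow_succ, Module.End.mul_apply]
      _ = Ω x ((f - μ • (1 : Module.End k V)) (((f - μ • (1 : Module.End k V)) ^ n) y)) := by
          rw [ih, step]
      _ = Ω x (((f - μ • (1 : Module.End k V)) ^ (n + 1)) y) := by
          rw [pow_succ', Module.End.mul_apply]

variable [FiniteDimensional k V]

omit [FiniteDimensional k V] in
/-- the generalised eigenspace of a self-adjoint operator is orthogonal to its Fitting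
complement. -/
theorem twe_fa_orth (Ω : V →ₗ[k] V →ₗ[k] k) (f : Module.End k V)
    (hsa : ∀ x y, Ω (f x) y = Ω x (f y)) (μ : k) {x y : V} (hx : x ∈ f.maxGenEigenspace μ)
    (hy : y ∈ twe_fa_rad f μ) : Ω x y = 0 := by
  obtain ⟨n, hn⟩ := (Module.End.mem_maxGenEigenspace f μ x).1 hx
  obtain ⟨y', rfl⟩ := (Submodule.mem_iInf _).1 hy n
  rw [← twe_fa_adj_pow Ω f hsa, hn, map_zero, LinearMap.zero_apply]

/-- the partial localisation at a finite set of indices. -/
def twe_fa_locF (T : L → Module.End k V) (a : L → k) (s : Finset L) : Submodule k V :=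
  ⨅ ℓ ∈ s, (T ℓ).maxGenEigenspace (a ℓ)

omit [FiniteDimensional k V] in
theorem twe_fa_mem_locF {T : L → Module.End k V} {a : L → k} {s : Finset L} {x : V} :
    x ∈ twe_fa_locF T a s ↔ ∀ ℓ ∈ s, x ∈ (T ℓ).maxGenEigenspace (a ℓ) := by
  simp only [twe_fa_locF, Submodule.mem_iInf]

omit [FiniteDimensional k V] in
theorem twe_fa_locF_stable (T : L → Module.End k V) (hcomm : ∀ ℓ ℓ', Commute (T ℓ) (T ℓ'))
    (a : L → k) (s : Finset L) (ℓ : L) :
    ∀ u ∈ twe_fa_locF T a s, T ℓ u ∈ twe_fa_locF T a s := by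
  intro u hu
  rw [twe_fa_mem_locF] at hu ⊢
  intro ℓ' hℓ'
  exact Module.End.mapsTo_maxGenEigenspace_of_comm (hcomm ℓ' ℓ) (a ℓ') (hu ℓ' hℓ')

theorem twe_fa_nondeg_locF (Ω : V →ₗ[k] V →ₗ[k] k) (hnd : ∀ x, (∀ y, Ω x y = 0) → x = 0)
    (T : L → Module.End k V) (hcomm : ∀ ℓ ℓ', Commute (T ℓ) (T ℓ'))
    (hsa : ∀ ℓ x y, Ω (T ℓ x) y = Ω x (T ℓ y)) (a : L → k) (s : Finset L) :
    ∀ x ∈ twe_fa_locF T a s, (∀ y ∈ twe_fa_locF T a s, Ω x y = 0) → x = 0 := by
  classical
  induction s using Finset.induction_on with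
  | empty =>
    intro x _ hx
    refine hnd x fun y => hx y ?_
    rw [twe_fa_mem_locF]
    intro ℓ hℓ
    exact absurd hℓ (Finset.notMem_empty ℓ)
  | insert ℓ s _ ih =>
    intro x hx hxy
    have hxs : x ∈ twe_fa_locF T a s := by
      rw [twe_fa_mem_locF] at hx ⊢
      exact fun ℓ' hℓ' => hx ℓ' (Finset.mem_insert_of_mem hℓ')
    have hxℓ : x ∈ (T ℓ).maxGenEigenspace (a ℓ) :=
      (twe_fa_mem_locF.1 hx) ℓ (Finset.mem_insert_self ℓ s)
    refine ih x hxs ?_
    intro y hy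
    obtain ⟨yG, hyG, yR, _, rfl, hG, hR⟩ :=
      twe_fa_fitting (T ℓ) (a ℓ) (twe_fa_locF T a s) (twe_fa_locF_stable T hcomm a s ℓ) hy
    rw [map_add, twe_fa_orth Ω (T ℓ) (hsa ℓ) (a ℓ) hxℓ hR, add_zero]
    refine hxy yG ?_
    rw [twe_fa_mem_locF] at hyG ⊢
    intro ℓ' hℓ'
    rcases Finset.mem_insert.1 hℓ' with rfl | h
    · exact hG
    · exact hyG ℓ' h

omit [FiniteDimensional k V] in
theorem twe_fa_loc_le_locF (T : L → Module.End k V) (a : L → k) (s : Finset L) :
    twe_fa_loc T a ≤ twe_fa_locF T a s := by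
  intro x hx
  rw [twe_fa_mem_locF]
  intro ℓ _
  exact (Submodule.mem_iInf _).1 hx ℓ

/-- the localisation is cut out by finitely many operators. -/
theorem twe_fa_exists_finset (T : L → Module.End k V) (a : L → k) :
    ∃ s : Finset L, twe_fa_locF T a s = twe_fa_loc T a := by
  classical
  obtain ⟨U, ⟨s, rfl⟩, hmin⟩ := IsArtinian.set_has_minimal
    (Set.range fun s : Finset L => twe_fa_locF T a s) ⟨_, ⟨∅, rfl⟩⟩
  refine ⟨s, le_antisymm ?_ (twe_fa_loc_le_locF T a s)⟩
  intro x hx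
  rw [twe_fa_loc, Submodule.mem_iInf]
  intro ℓ
  have hle : twe_fa_locF T a (insert ℓ s) ≤ twe_fa_locF T a s := by
    intro y hy
    rw [twe_fa_mem_locF] at hy ⊢
    exact fun ℓ' hℓ' => hy ℓ' (Finset.mem_insert_of_mem hℓ')
  have heq : twe_fa_locF T a (insert ℓ s) = twe_fa_locF T a s := by
    by_contra hne
    exact hmin _ ⟨insert ℓ s, rfl⟩ (lt_of_le_of_ne hle hne)
  rw [← heq] at hx
  exact (twe_fa_mem_locF.1 hx) ℓ (Finset.mem_insert_self ℓ s)

/-- **the pairing is non-degenerate on the localisation**. -/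
theorem twe_fa_nondeg_loc (Ω : V →ₗ[k] V →ₗ[k] k) (hnd : ∀ x, (∀ y, Ω x y = 0) → x = 0)
    (T : L → Module.End k V) (hcomm : ∀ ℓ ℓ', Commute (T ℓ) (T ℓ'))
    (hsa : ∀ ℓ x y, Ω (T ℓ x) y = Ω x (T ℓ y)) (a : L → k) :
    ∀ x ∈ twe_fa_loc T a, (∀ y ∈ twe_fa_loc T a, Ω x y = 0) → x = 0 := by
  obtain ⟨s, hs⟩ := twe_fa_exists_finset T a
  rw [← hs]
  exact twe_fa_nondeg_locF Ω hnd T hcomm hsa a s

end pairing

/-! ### The abstract cyclic step of E/Free -/

/-- the abstract data of ONE CYCLIC STEP `Γ' ⊴ Γ₁` of E/Free over a field `k`: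
`V' = W(Γ', k)`, `V1 = W(Γ₁, k)` with their Hecke operators `T'`, `T`, the generator `g` of the
cyclic group `Γ₁/Γ'` of order `q`, restriction, transfer, the Eisenstein values `e ℓ = ℓ + 1`,
the obstruction `ob` to extending invariant classes, and the Poincaré pairings. -/
structure twe_fa_Step (k : Type*) [Field k] (L : Type*) (V' V1 B : Type*)
    [AddCommGroup V'] [Module k V'] [AddCommGroup V1] [Module k V1]
    [AddCommGroup B] [Module k B] where
  T' : L → Module.End k V'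
  T : L → Module.End k V1
  g : Module.End k V'
  res : V1 →ₗ[k] V'
  cor : V' →ₗ[k] V1
  e : L → k
  ob : V' →ₗ[k] B
  Ω' : V' →ₗ[k] V' →ₗ[k] k
  Ω1 : V1 →ₗ[k] V1 →ₗ[k] k
  q : ℕ
  g_pow : g ^ q = 1
  commT' : ∀ ℓ ℓ', Commute (T' ℓ) (T' ℓ')
  commT : ∀ ℓ ℓ', Commute (T ℓ) (T ℓ')
  g_T : ∀ ℓ z, g (T' ℓ z) = T' ℓ (g z)
  res_T : ∀ ℓ x, res (T ℓ x) = T' ℓ (res x)
  cor_T : ∀ ℓ z, cor (T' ℓ z) = T ℓ (cor z)
  res_cor : res ∘ₗ cor = ∑ j ∈ Finset.range q, g ^ j
  /-- the kernel of the restriction is Eisenstein -/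
  ker_res : ∀ x, res x = 0 → ∀ ℓ, T ℓ x = e ℓ • x
  /-- an invariant class with vanishing obstruction is a restriction -/
  ob_res : ∀ z, g z = z → ob z = 0 → z ∈ LinearMap.range res
  /-- the obstruction is Eisenstein -/
  ob_T : ∀ ℓ z, g z = z → ob (T' ℓ z) = e ℓ • ob z
  nd' : ∀ x, (∀ y, Ω' x y = 0) → x = 0
  nd1 : ∀ x, (∀ y, Ω1 x y = 0) → x = 0
  sa' : ∀ ℓ x y, Ω' (T' ℓ x) y = Ω' x (T' ℓ y)
  sa1 : ∀ ℓ x y, Ω1 (T ℓ x) y = Ω1 x (T ℓ y)
  adj : ∀ x z, Ω' (res x) z = Ω1 x (cor z)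

section step

variable {k : Type*} [Field k] {L : Type*} {V' V1 B : Type*}
  [AddCommGroup V'] [Module k V'] [AddCommGroup V1] [Module k V1] [AddCommGroup B] [Module k B]
  (S : twe_fa_Step k L V' V1 B) (a : L → k) (ℓ₀ : L) (hne : a ℓ₀ ≠ S.e ℓ₀)

include hne in
/-- restriction is injective on the non-Eisenstein localisation. -/
theorem twe_fa_res_inj {x : V1} (hx : x ∈ twe_fa_loc S.T a) (h0 : S.res x = 0) : x = 0 :=
  twe_fa_eq_zero_of_eigen (twe_fa_loc_le S.T a ℓ₀ hx) (S.e ℓ₀) hne (S.ker_res x h0 ℓ₀)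

include hne in
/-- the obstruction dies on the non-Eisenstein localisation. -/
theorem twe_fa_ob_eq_zero {z : V'} (hz : z ∈ twe_fa_loc S.T' a) (hg : S.g z = z) : S.ob z = 0 := by
  obtain ⟨n, hn⟩ := twe_fa_mem_loc.1 hz ℓ₀
  have key : ∀ (m : ℕ) (z : V'), S.g z = z →
      S.g (((S.T' ℓ₀ - a ℓ₀ • (1 : Module.End k V')) ^ m) z) =
        ((S.T' ℓ₀ - a ℓ₀ • (1 : Module.End k V')) ^ m) z ∧
      S.ob (((S.T' ℓ₀ - a ℓ₀ • (1 : Module.End k V')) ^ m) z) = (S.e ℓ₀ - a ℓ₀) ^ m • S.ob z := by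
    intro m
    induction m with
    | zero => intro z hz; simp [hz]
    | succ m ih =>
      intro z hz
      have h1 : S.g ((S.T' ℓ₀ - a ℓ₀ • (1 : Module.End k V')) z) =
          (S.T' ℓ₀ - a ℓ₀ • (1 : Module.End k V')) z := by
        simp only [LinearMap.sub_apply, LinearMap.smul_apply, Module.End.one_apply, map_sub,
          map_smul, S.g_T, hz]
      have h2 : S.ob ((S.T' ℓ₀ - a ℓ₀ • (1 : Module.End k V')) z) = (S.e ℓ₀ - a ℓ₀) • S.ob z := by
        simp only [LinearMap.sub_apply, LinearMap.smul_apply, Module.End.one_apply, map_sub,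
          map_smul, S.ob_T ℓ₀ z hz, sub_smul]
      obtain ⟨h3, h4⟩ := ih _ h1
      rw [pow_succ, Module.End.mul_apply]
      refine ⟨h3, ?_⟩
      rw [h4, h2, smul_smul, pow_succ]
  have h5 := (key n z hg).2
  rw [hn, map_zero] at h5
  rcases smul_eq_zero.1 h5.symm with h | h
  · exact absurd (eq_zero_of_pow_eq_zero h) (sub_ne_zero.2 (Ne.symm hne))
  · exact h

variable [FiniteDimensional k V'] [FiniteDimensional k V1]

omit [FiniteDimensional k V'] [FiniteDimensional k V1] in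
theorem twe_fa_res_rad (μ : k) (ℓ : L) {x : V1} (hx : x ∈ twe_fa_rad (S.T ℓ) μ) :
    S.res x ∈ twe_fa_rad (S.T' ℓ) μ := by
  rw [twe_fa_rad, Submodule.mem_iInf] at hx ⊢
  intro n
  obtain ⟨u, rfl⟩ := hx n
  exact ⟨S.res u, (twe_fa_intertwine_pow S.res (S.T ℓ) (S.T' ℓ) (S.res_T ℓ) μ n u).symm⟩

include hne in
/-- invariant classes in the localisation are restrictions of classes in the localisation. -/
theorem twe_fa_inv_mem {z : V'} (hz : z ∈ twe_fa_loc S.T' a) (hg : S.g z = z) :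
    ∃ x ∈ twe_fa_loc S.T a, S.res x = z := by
  obtain ⟨x, rfl⟩ := S.ob_res z hg (twe_fa_ob_eq_zero S a ℓ₀ hne hz hg)
  obtain ⟨xG, -, xR, -, rfl, hG, hR⟩ := twe_fa_fitting (S.T ℓ₀) (a ℓ₀) ⊤
    (fun _ _ => Submodule.mem_top) (Submodule.mem_top (x := x))
  have hresG : S.res xG ∈ (S.T' ℓ₀).maxGenEigenspace (a ℓ₀) := by
    obtain ⟨n, hn⟩ := (Module.End.mem_maxGenEigenspace _ _ _).1 hG
    rw [Module.End.mem_maxGenEigenspace]
    exact ⟨n, by rw [← twe_fa_intertwine_pow S.res (S.T ℓ₀) (S.T' ℓ₀) (S.res_T ℓ₀), hn, map_zero]⟩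
  have hresR : S.res xR = 0 := by
    refine twe_fa_disjoint (S.T' ℓ₀) (a ℓ₀) ?_ (twe_fa_res_rad S (a ℓ₀) ℓ₀ hR)
    have h1 : S.res xR = S.res (xG + xR) - S.res xG := by rw [map_add]; abel
    rw [h1]
    exact Submodule.sub_mem _ (twe_fa_loc_le S.T' a ℓ₀ hz) hresG
  have hzG : S.res (xG + xR) = S.res xG := by rw [map_add, hresR, add_zero]
  refine ⟨xG, ?_, hzG.symm⟩
  rw [twe_fa_mem_loc]
  intro ℓ
  rw [hzG] at hz
  obtain ⟨n, hn⟩ := twe_fa_mem_loc.1 hz ℓ
  refine ⟨n, ?_⟩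
  set w := ((S.T ℓ - a ℓ • (1 : Module.End k V1)) ^ n) xG with hw
  have hw0 : S.res w = 0 := by
    rw [hw, twe_fa_intertwine_pow S.res (S.T ℓ) (S.T' ℓ) (S.res_T ℓ), hn]
  have hcomm : Commute (S.T ℓ₀) ((S.T ℓ - a ℓ • (1 : Module.End k V1)) ^ n) :=
    ((S.commT ℓ₀ ℓ).sub_right ((Commute.one_right _).smul_right _)).pow_right n
  have hwG : w ∈ (S.T ℓ₀).maxGenEigenspace (a ℓ₀) :=
    Module.End.mapsTo_maxGenEigenspace_of_comm hcomm (a ℓ₀) hG
  exact twe_fa_eq_zero_of_eigen hwG (S.e ℓ₀) hne (S.ker_res w hw0 ℓ₀)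

include hne in
/-- **the transfer is onto on the non-Eisenstein localisation** (Poincaré duality argument). -/
theorem twe_fa_cor_surj {y : V1} (hy : y ∈ twe_fa_loc S.T a) :
    ∃ z ∈ twe_fa_loc S.T' a, S.cor z = y := by
  set A' := twe_fa_loc S.T' a with hA'
  set A1 := twe_fa_loc S.T a with hA1
  let corA : A' →ₗ[k] A1 :=
    S.cor.restrict (fun z hz => twe_fa_map_loc S.cor S.T' S.T S.cor_T a hz)
  have hsurj : Function.Surjective corA := by
    rw [← LinearMap.dualMap_injective_iff]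
    rw [← LinearMap.ker_eq_bot, LinearMap.ker_eq_bot']
    intro φ hφ
    -- `φ = Ω1(x, ·)` for some `x ∈ A1`
    let φ1 : A1 →ₗ[k] Module.Dual k A1 := S.Ω1.domRestrict₁₂ A1 A1
    have hφ1inj : Function.Injective φ1 := by
      rw [← LinearMap.ker_eq_bot, LinearMap.ker_eq_bot']
      intro x hx
      have h1 : (x : V1) = 0 := by
        refine twe_fa_nondeg_loc S.Ω1 S.nd1 S.T S.commT S.sa1 a x x.2 ?_
        intro y hy
        have := LinearMap.congr_fun hx ⟨y, hy⟩
        rw [LinearMap.zero_apply] at this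
        exact this
      exact Subtype.ext h1
    have hφ1surj : Function.Surjective φ1 :=
      (LinearMap.injective_iff_surjective_of_finrank_eq_finrank
        (Subspace.dual_finrank_eq (K := k) (V := A1)).symm).1 hφ1inj
    obtain ⟨x, rfl⟩ := hφ1surj φ
    have hres : S.res (x : V1) ∈ A' := twe_fa_map_loc S.res S.T S.T' S.res_T a x.2
    have h2 : S.res (x : V1) = 0 := by
      refine twe_fa_nondeg_loc S.Ω' S.nd' S.T' S.commT' S.sa' a _ hres ?_
      intro z hz
      rw [S.adj]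
      have := LinearMap.congr_fun hφ ⟨z, hz⟩
      rw [LinearMap.zero_apply] at this
      exact this
    have h3 : (x : V1) = 0 := twe_fa_res_inj S a ℓ₀ hne x.2 h2
    have h4 : x = 0 := Subtype.ext h3
    rw [h4, map_zero]
  obtain ⟨z, hz⟩ := hsurj ⟨y, hy⟩
  exact ⟨z, z.2, congrArg Subtype.val hz⟩

omit [FiniteDimensional k V'] [FiniteDimensional k V1] in
theorem twe_fa_g_loc {z : V'} (hz : z ∈ twe_fa_loc S.T' a) : S.g z ∈ twe_fa_loc S.T' a :=
  twe_fa_map_loc S.g S.T' S.T' S.g_T a hz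

include hne in
/-- **the abstract cyclic step of E/Free**: on the non-Eisenstein localisations
`V'_a = W(Γ', k)_𝔪`, `V1_a = W(Γ₁, k)_𝔪`: `dim V'_a = q · dim V1_a`, the transfer is onto with kernel
`(g - 1) V'_a`, restriction is injective with image the invariants. -/
theorem twe_fa_main (p n : ℕ) [Fact p.Prime] [CharP k p] (hq : S.q = p ^ n) :
    finrank k (twe_fa_loc S.T' a) = p ^ n * finrank k (twe_fa_loc S.T a) ∧
      (∀ y ∈ twe_fa_loc S.T a, ∃ z ∈ twe_fa_loc S.T' a, S.cor z = y) ∧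
      (∀ z ∈ twe_fa_loc S.T' a, S.cor z = 0 → ∃ u ∈ twe_fa_loc S.T' a, z = S.g u - u) ∧
      (∀ x ∈ twe_fa_loc S.T a, S.res x = 0 → x = 0) ∧
      (∀ z ∈ twe_fa_loc S.T' a, S.g z = z → ∃ x ∈ twe_fa_loc S.T a, S.res x = z) := by
  set A' := twe_fa_loc S.T' a with hA'
  set A1 := twe_fa_loc S.T a with hA1
  let corA : A' →ₗ[k] A1 :=
    S.cor.restrict (fun z hz => twe_fa_map_loc S.cor S.T' S.T S.cor_T a hz)
  let resA : A1 →ₗ[k] A' :=
    S.res.restrict (fun x hx => twe_fa_map_loc S.res S.T S.T' S.res_T a hx)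
  let gA : Module.End k A' := S.g.restrict (fun z hz => twe_fa_g_loc S a hz)
  have hgpow : ∀ (m : ℕ) (z : A'), (((gA ^ m) z : A') : V') = (S.g ^ m) (z : V') := by
    intro m z
    induction m generalizing z with
    | zero => simp
    | succ m ih =>
      rw [pow_succ, pow_succ, Module.End.mul_apply, Module.End.mul_apply, ih]
      rfl
  have hg : gA ^ (p ^ n) = 1 := by
    refine LinearMap.ext fun z => Subtype.ext ?_
    rw [hgpow, ← hq, S.g_pow]
    rfl
  have hrc : resA ∘ₗ corA = ∑ j ∈ Finset.range (p ^ n), gA ^ j := by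
    refine LinearMap.ext fun z => Subtype.ext ?_
    rw [LinearMap.sum_apply, Submodule.coe_sum]
    simp only [hgpow]
    have h1 := LinearMap.congr_fun S.res_cor (z : V')
    rw [LinearMap.sum_apply, hq] at h1
    exact h1
  have hcor : Function.Surjective corA := by
    rintro ⟨y, hy⟩
    obtain ⟨z, hz, rfl⟩ := twe_fa_cor_surj S a ℓ₀ hne hy
    exact ⟨⟨z, hz⟩, rfl⟩
  have hres : Function.Injective resA := by
    rw [← LinearMap.ker_eq_bot, LinearMap.ker_eq_bot']
    intro x hx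
    exact Subtype.ext (twe_fa_res_inj S a ℓ₀ hne x.2 (congrArg Subtype.val hx))
  have hinv : LinearMap.ker (gA - 1) ≤ LinearMap.range resA := by
    intro z hz
    rw [LinearMap.mem_ker, LinearMap.sub_apply, Module.End.one_apply, sub_eq_zero] at hz
    obtain ⟨x, hx, hxz⟩ := twe_fa_inv_mem S a ℓ₀ hne z.2 (congrArg Subtype.val hz)
    exact ⟨⟨x, hx⟩, Subtype.ext hxz⟩
  obtain ⟨h1, h2⟩ := twe_fc_cyclic_step p n gA hg corA resA hrc hcor hres hinv
  refine ⟨h1, fun y hy => twe_fa_cor_surj S a ℓ₀ hne hy, ?_,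
    fun x hx h0 => twe_fa_res_inj S a ℓ₀ hne hx h0,
    fun z hz hgz => twe_fa_inv_mem S a ℓ₀ hne hz hgz⟩
  intro z hz hz0
  have hmem : (⟨z, hz⟩ : A') ∈ LinearMap.ker corA := by
    rw [LinearMap.mem_ker]
    exact Subtype.ext hz0
  rw [h2] at hmem
  obtain ⟨u, hu⟩ := hmem
  refine ⟨u, u.2, ?_⟩
  have := congrArg Subtype.val hu
  rw [LinearMap.sub_apply, Module.End.one_apply] at this
  exact this.symm

end step

end Fermat.Agent.TW
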