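import Mathlib

/-!
# Project ONE MACHINE, block [E] AUT, cell (DT-LOC) (helper3): the local factor of a finite algebra

`𝒪` a noetherian local ring, complete for its maximal ideal (e.g. a complete DVR), `B` a commutative
`𝒪`-algebra which is a finite `𝒪`-module, `θB : B →ₐ[𝒪] k` a character to the residue field.

* `twe_la_isAdicComplete_of_finite` : finite modules over noetherian adically complete rings are
  adically complete;
* `twe_la_isAdicComplete_of_pow_le` : `I ≤ J`, `J ^ N ≤ I`, `I`-adically complete ⟹ `J`-adically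
  complete;
* `twe_la_exists_idem_artinian`, `twe_la_exists_idem` : the idempotent `e ∈ B` of the local factor at
  `ker θB` (`θB e = 1`, `e • ker θB` topologically nilpotent), by Hensel's lemma for `X² - X`;
* for `T := B ⧸ (1 - e)` (`twe_la_T e`): `twe_la_isLocalRing`, `twe_la_isAdicComplete_maximalIdeal`,
  `twe_la_isLocalHom`, `twe_la_residue_surjective`, `twe_la_residue_mk`, `twe_la_isTorsionFree`,
  `twe_la_point_of_residue`;
* `twe_la_main` : everything packaged.

Mathlib only.  Namespace `Fermat.Agent.TW`, prefix `twe_la_`.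
-/

set_option autoImplicit false
set_option linter.unusedSectionVars false
set_option linter.style.haveILetI false
set_option linter.unusedVariables false

namespace Fermat.Agent.TW

open IsLocalRing TensorProduct

universe u


theorem twe_la_isAdicComplete_of_finite {R : Type u} [CommRing R] [IsNoetherianRing R] (I : Ideal R)
    [IsAdicComplete I R] (M : Type u) [AddCommGroup M] [Module R M] [Module.Finite R M] :
    IsAdicComplete I M := by
  rw [← AdicCompletion.of_bijective_iff]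
  have hR : Function.Bijective (AdicCompletion.of I R) := AdicCompletion.of_bijective_iff.mpr inferInstance
  let e : R ≃ₗ[R] AdicCompletion I R := LinearEquiv.ofBijective (AdicCompletion.of I R) hR
  let f : M ≃ₗ[R] AdicCompletion I R ⊗[R] M :=
    (TensorProduct.lid R M).symm.trans (LinearEquiv.rTensor M e)
  have h1 : AdicCompletion.of I R (1 : R) = 1 := by
    have := AdicCompletion.algebraMap_apply (S := R) I (1 : R)
    rw [map_one] at this
    rw [this]
    simp
  have hf : ∀ x : M, f x = (1 : AdicCompletion I R) ⊗ₜ[R] x := by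
    intro x
    simp [f, e, h1]
  have hcomp : ∀ x : M, AdicCompletion.of I M x = AdicCompletion.ofTensorProduct I M (f x) := by
    intro x
    rw [hf, AdicCompletion.ofTensorProduct_tmul, one_smul]
  have : (AdicCompletion.of I M : M → AdicCompletion I M) = (AdicCompletion.ofTensorProduct I M) ∘ f := by
    funext x
    exact hcomp x
  rw [this]
  exact (AdicCompletion.ofTensorProduct_bijective_of_finite_of_isNoetherian I M).comp f.bijective
/-- comparison of adic completeness for two ideals with cofinal powers -/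
theorem twe_la_isAdicComplete_of_pow_le {R : Type*} [CommRing R] (I J : Ideal R)
    (M : Type*) [AddCommGroup M] [Module R M] (N : ℕ) (h1 : I ≤ J) (h2 : J ^ N ≤ I)
    [IsAdicComplete I M] : IsAdicComplete J M := by
  have h3 : J ^ (N + 1) ≤ I := (Ideal.pow_le_pow_right (Nat.le_succ N)).trans h2
  have hJI : ∀ k : ℕ, (J ^ ((N + 1) * k) • ⊤ : Submodule R M) ≤ I ^ k • ⊤ := by
    intro k
    apply Submodule.smul_mono_left
    rw [pow_mul]
    exact Ideal.pow_right_mono h3 k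
  have hIJ : ∀ k : ℕ, (I ^ k • ⊤ : Submodule R M) ≤ J ^ k • ⊤ := fun k =>
    Submodule.smul_mono_left (Ideal.pow_right_mono h1 k)
  have hJmono : ∀ {a b : ℕ}, a ≤ b → (J ^ b • ⊤ : Submodule R M) ≤ J ^ a • ⊤ := fun h =>
    Submodule.smul_mono_left (Ideal.pow_le_pow_right h)
  refine { toIsHausdorff := ⟨?_⟩, toIsPrecomplete := ⟨?_⟩ }
  · intro x hx
    apply IsHausdorff.haus (I := I) inferInstance x
    intro k
    have := hx ((N + 1) * k)
    rw [SModEq.zero] at this ⊢
    exact hJI k this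
  · intro f hf
    have hg : ∀ {m n : ℕ}, m ≤ n → f ((N + 1) * m) ≡ f ((N + 1) * n) [SMOD (I ^ m • ⊤ : Submodule R M)] := by
      intro m n hmn
      have := hf (Nat.mul_le_mul_left (N + 1) hmn)
      rw [SModEq.sub_mem] at this ⊢
      exact hJI m this
    obtain ⟨L, hL⟩ := IsPrecomplete.prec (I := I) inferInstance hg
    refine ⟨L, fun n => ?_⟩
    have h4 : n ≤ (N + 1) * n := Nat.le_mul_of_pos_left n (Nat.succ_pos N)
    have h5 := hf h4
    have h6 := hL n
    rw [SModEq.sub_mem] at h5 h6 ⊢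
    have h7 : f n - L = (f n - f ((N + 1) * n)) + (f ((N + 1) * n) - L) := by abel
    rw [h7]
    exact Submodule.add_mem _ h5 (hIJ n h6)
/-- in an Artinian ring, the stable power of an ideal is generated by an idempotent -/
theorem twe_la_exists_idem_artinian {A : Type*} [CommRing A] [IsArtinianRing A] (𝔫 : Ideal A) :
    ∃ (f : A) (n : ℕ), IsIdempotentElem f ∧ f ∈ 𝔫 ∧ 0 < n ∧ ∀ b ∈ 𝔫, (1 - f) * b ^ n = 0 := by
  obtain ⟨n, hn⟩ := IsArtinian.monotone_stabilizes (R := A) (M := A)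
    ⟨fun n => OrderDual.toDual (𝔫 ^ n), fun a b hab => Ideal.pow_le_pow_right hab⟩
  have hn' : ∀ m, n ≤ m → 𝔫 ^ m = 𝔫 ^ n := fun m hm => (hn m hm).symm
  set n1 := n + 1 with hn1
  have hst : 𝔫 ^ n1 * 𝔫 ^ n1 = 𝔫 ^ n1 := by
    rw [← pow_add, hn' (n1 + n1) (by omega), hn' n1 (by omega)]
  have hfg : (𝔫 ^ n1).FG := (isNoetherianRing_iff_ideal_fg A).mp inferInstance _
  obtain ⟨f, hf, hfe⟩ := (Ideal.isIdempotentElem_iff_of_fg _ hfg).mp hst
  refine ⟨f, n1, hf, ?_, Nat.succ_pos n, ?_⟩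
  · have : f ∈ 𝔫 ^ n1 := by rw [hfe]; exact Submodule.mem_span_singleton_self f
    exact Ideal.pow_le_self (Nat.succ_ne_zero n) this
  · intro b hb
    have : b ^ n1 ∈ 𝔫 ^ n1 := Ideal.pow_mem_pow hb n1
    rw [hfe] at this
    obtain ⟨c, hc⟩ := Submodule.mem_span_singleton.mp this
    rw [← hc, smul_eq_mul]
    have h0 : (1 - f) * f = 0 := by rw [sub_mul, one_mul, hf.eq, sub_self]
    rw [mul_comm c f, ← mul_assoc, h0, zero_mul]

section idem

open Polynomial

variable {𝒪 : Type u} [CommRing 𝒪] [IsLocalRing 𝒪] [IsNoetherianRing 𝒪]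
  [IsAdicComplete (maximalIdeal 𝒪) 𝒪]
  {B : Type u} [CommRing B] [Algebra 𝒪 B] [Module.Finite 𝒪 B]

/-- the ideal `𝔪_𝒪 B` -/
abbrev twe_la_J (𝒪 : Type u) [CommRing 𝒪] [IsLocalRing 𝒪] (B : Type u) [CommRing B] [Algebra 𝒪 B] :
    Ideal B := (maximalIdeal 𝒪).map (algebraMap 𝒪 B)

theorem twe_la_J_le_ker (θB : B →ₐ[𝒪] ResidueField 𝒪) : twe_la_J 𝒪 B ≤ RingHom.ker (θB : B →+* ResidueField 𝒪) := by
  rw [twe_la_J, Ideal.map_le_iff_le_comap]
  intro a ha
  rw [Ideal.mem_comap, RingHom.mem_ker]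
  change θB (algebraMap 𝒪 B a) = 0
  rw [θB.commutes]
  exact (residue_eq_zero_iff a).mpr ha

theorem twe_la_isAdicComplete_J : IsAdicComplete (twe_la_J 𝒪 B) B := by
  haveI : IsAdicComplete (maximalIdeal 𝒪) B := twe_la_isAdicComplete_of_finite (maximalIdeal 𝒪) B
  exact (IsAdicComplete.map_algebraMap_iff (I := maximalIdeal 𝒪) (S := B) (M := B)).mpr inferInstance

theorem twe_la_isArtinianRing_quot : IsArtinianRing (B ⧸ twe_la_J 𝒪 B) := by
  letI := Ideal.Quotient.field (maximalIdeal 𝒪)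
  exact IsArtinianRing.of_finite (𝒪 ⧸ maximalIdeal 𝒪) (B ⧸ twe_la_J 𝒪 B)

/-- **the idempotent of the local factor at `ker θB`** -/
theorem twe_la_exists_idem (θB : B →ₐ[𝒪] ResidueField 𝒪) :
    ∃ e : B, IsIdempotentElem e ∧ θB e = 1 ∧
      ∀ b, θB b = 0 → ∃ n, 0 < n ∧ (e * b) ^ n ∈ twe_la_J 𝒪 B := by
  haveI := twe_la_isArtinianRing_quot (𝒪 := 𝒪) (B := B)
  haveI := twe_la_isAdicComplete_J (𝒪 := 𝒪) (B := B)
  set J := twe_la_J 𝒪 B with hJ
  have hJker := twe_la_J_le_ker θB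
  obtain ⟨f, n, hf, hfn, hn, hb⟩ := twe_la_exists_idem_artinian
    ((RingHom.ker (θB : B →+* ResidueField 𝒪)).map (Ideal.Quotient.mk J))
  obtain ⟨f', hf', rfl⟩ := (Ideal.mem_map_iff_of_surjective _ Ideal.Quotient.mk_surjective).mp hfn
  -- Hensel
  have hmonic : (X ^ 2 - X : B[X]).Monic := by
    apply Polynomial.monic_X_pow_sub
    exact lt_of_le_of_lt degree_X_le (by norm_num)
  have h1 : (X ^ 2 - X : B[X]).eval (1 - f') ∈ J := by
    rw [← Ideal.Quotient.eq_zero_iff_mem]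
    simp only [eval_sub, eval_pow, eval_X, map_sub, map_pow, map_one]
    have := hf.eq
    linear_combination this
  have h2 : IsUnit (Ideal.Quotient.mk J ((X ^ 2 - X : B[X]).derivative.eval (1 - f'))) := by
    have hd : (X ^ 2 - X : B[X]).derivative.eval (1 - f') = 2 * (1 - f') - 1 := by
      simp
      ring
    rw [hd]
    refine IsUnit.of_mul_eq_one (Ideal.Quotient.mk J (2 * (1 - f') - 1)) ?_
    simp only [map_sub, map_mul, map_one, map_ofNat]
    have := hf.eq
    linear_combination 4 * this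
  obtain ⟨e, he, hea⟩ := HenselianRing.is_henselian (R := B) (I := J) _ hmonic (1 - f') h1 h2
  have he' : e * e = e := by
    have : e ^ 2 - e = 0 := by simpa [IsRoot] using he
    linear_combination this
  have hmk : Ideal.Quotient.mk J e = 1 - Ideal.Quotient.mk J f' := by
    have := Ideal.Quotient.eq.mpr hea
    rw [this, map_sub, map_one]
  refine ⟨e, he', ?_, ?_⟩
  · have h3 : θB (e - (1 - f')) = 0 := hJker hea
    have h4 : θB f' = 0 := hf'
    rw [map_sub, map_sub, map_one, h4, sub_zero, sub_eq_zero] at h3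
    exact h3
  · intro b hb0
    refine ⟨n, hn, ?_⟩
    rw [← Ideal.Quotient.eq_zero_iff_mem, map_pow, map_mul, mul_pow, hmk]
    have hid : IsIdempotentElem (1 - Ideal.Quotient.mk J f') := hf.one_sub
    obtain ⟨m, rfl⟩ : ∃ m, n = m + 1 := Nat.exists_eq_succ_of_ne_zero hn.ne'
    rw [hid.pow_succ_eq]
    exact hb _ (Ideal.mem_map_of_mem _ hb0)
end idem

section quot

variable {𝒪 : Type u} [CommRing 𝒪] [IsLocalRing 𝒪] [IsNoetherianRing 𝒪]
  [IsAdicComplete (maximalIdeal 𝒪) 𝒪]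
  {B : Type u} [CommRing B] [Algebra 𝒪 B] [Module.Finite 𝒪 B]
  (θB : B →ₐ[𝒪] ResidueField 𝒪) (e : B)

/-- the local factor `T = B / (1 - e)` -/
abbrev twe_la_T (e : B) : Type u := B ⧸ Ideal.span {1 - e}

/-- the character `T → k` induced by `θB` -/
noncomputable def twe_la_θT (h1 : θB e = 1) : twe_la_T e →ₐ[𝒪] ResidueField 𝒪 :=
  Ideal.Quotient.liftₐ (Ideal.span {1 - e}) θB (by
    intro a ha
    obtain ⟨c, rfl⟩ := Ideal.mem_span_singleton'.mp ha
    rw [map_mul, map_sub, map_one, h1, sub_self, mul_zero])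

theorem twe_la_θT_mk (h1 : θB e = 1) (b : B) :
    twe_la_θT θB e h1 (Ideal.Quotient.mk _ b) = θB b := rfl

theorem twe_la_θT_surjective (h1 : θB e = 1) : Function.Surjective (twe_la_θT θB e h1) := by
  intro x
  obtain ⟨a, rfl⟩ := residue_surjective x
  refine ⟨algebraMap 𝒪 _ a, ?_⟩
  rw [AlgHom.commutes]
  rfl

theorem twe_la_ker_isMaximal (h1 : θB e = 1) :
    (RingHom.ker (twe_la_θT θB e h1 : twe_la_T e →+* ResidueField 𝒪)).IsMaximal :=
  RingHom.ker_isMaximal_of_surjective _ (twe_la_θT_surjective θB e h1)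

theorem twe_la_mk_e :
    (Ideal.Quotient.mk (Ideal.span {1 - e}) e : twe_la_T e) = 1 := by
  have : (Ideal.Quotient.mk (Ideal.span {1 - e})) (1 - e) = 0 :=
    Ideal.Quotient.eq_zero_iff_mem.mpr (Ideal.mem_span_singleton_self _)
  rw [map_sub, map_one, sub_eq_zero] at this
  exact this.symm

/-- every element of `ker θT` has a power in `𝔪_𝒪 T` -/
theorem twe_la_ker_le_radical (h1 : θB e = 1) (he : IsIdempotentElem e)
    (hnil : ∀ b, θB b = 0 → ∃ n, 0 < n ∧ (e * b) ^ n ∈ twe_la_J 𝒪 B) :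
    RingHom.ker (twe_la_θT θB e h1 : twe_la_T e →+* ResidueField 𝒪) ≤
      (twe_la_J 𝒪 (twe_la_T e)).radical := by
  intro t ht
  obtain ⟨b, rfl⟩ := Ideal.Quotient.mk_surjective t
  have hb : θB b = 0 := ht
  obtain ⟨n, -, hn⟩ := hnil b hb
  refine ⟨n, ?_⟩
  have h2 : (Ideal.Quotient.mk (Ideal.span {1 - e}) ((e * b) ^ n) : twe_la_T e) ∈
      twe_la_J 𝒪 (twe_la_T e) := by
    have : twe_la_J 𝒪 (twe_la_T e) = (twe_la_J 𝒪 B).map (Ideal.Quotient.mk (Ideal.span {1 - e})) := by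
      rw [twe_la_J, twe_la_J, Ideal.map_map]
      rfl
    rw [this]
    exact Ideal.mem_map_of_mem _ hn
  rwa [map_pow, map_mul, twe_la_mk_e e, one_mul] at h2

theorem twe_la_J_le_kerT (h1 : θB e = 1) :
    twe_la_J 𝒪 (twe_la_T e) ≤ RingHom.ker (twe_la_θT θB e h1 : twe_la_T e →+* ResidueField 𝒪) :=
  twe_la_J_le_ker (twe_la_θT θB e h1)

theorem twe_la_isAdicComplete_ker (h1 : θB e = 1) (he : IsIdempotentElem e)
    (hnil : ∀ b, θB b = 0 → ∃ n, 0 < n ∧ (e * b) ^ n ∈ twe_la_J 𝒪 B) :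
    IsAdicComplete (RingHom.ker (twe_la_θT θB e h1 : twe_la_T e →+* ResidueField 𝒪))
      (twe_la_T e) := by
  haveI : IsNoetherianRing B := IsNoetherianRing.of_finite 𝒪 B
  haveI := twe_la_isAdicComplete_J (𝒪 := 𝒪) (B := twe_la_T e)
  obtain ⟨N, hN⟩ := Ideal.exists_pow_le_of_le_radical_of_fg
    (twe_la_ker_le_radical θB e h1 he hnil) ((isNoetherianRing_iff_ideal_fg _).mp inferInstance _)
  exact twe_la_isAdicComplete_of_pow_le _ _ _ N (twe_la_J_le_kerT θB e h1) hN

theorem twe_la_isLocalRing (h1 : θB e = 1) (he : IsIdempotentElem e)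
    (hnil : ∀ b, θB b = 0 → ∃ n, 0 < n ∧ (e * b) ^ n ∈ twe_la_J 𝒪 B) :
    IsLocalRing (twe_la_T e) := by
  haveI := twe_la_ker_isMaximal θB e h1
  haveI := twe_la_isAdicComplete_ker θB e h1 he hnil
  exact isLocalRing_of_isAdicComplete_maximal
    (RingHom.ker (twe_la_θT θB e h1 : twe_la_T e →+* ResidueField 𝒪))

theorem twe_la_maximalIdeal_eq (h1 : θB e = 1) [IsLocalRing (twe_la_T e)] :
    maximalIdeal (twe_la_T e) =
      RingHom.ker (twe_la_θT θB e h1 : twe_la_T e →+* ResidueField 𝒪) :=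
  (IsLocalRing.eq_maximalIdeal (twe_la_ker_isMaximal θB e h1)).symm

theorem twe_la_isAdicComplete_maximalIdeal (h1 : θB e = 1) (he : IsIdempotentElem e)
    (hnil : ∀ b, θB b = 0 → ∃ n, 0 < n ∧ (e * b) ^ n ∈ twe_la_J 𝒪 B) [IsLocalRing (twe_la_T e)] :
    IsAdicComplete (maximalIdeal (twe_la_T e)) (twe_la_T e) := by
  rw [twe_la_maximalIdeal_eq θB e h1]
  exact twe_la_isAdicComplete_ker θB e h1 he hnil

theorem twe_la_isLocalHom (h1 : θB e = 1) [IsLocalRing (twe_la_T e)] :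
    IsLocalHom (algebraMap 𝒪 (twe_la_T e)) := by
  refine ⟨fun a ha => ?_⟩
  by_contra hna
  have hmem : a ∈ maximalIdeal 𝒪 := (IsLocalRing.mem_maximalIdeal a).mpr hna
  have h2 : algebraMap 𝒪 (twe_la_T e) a ∈ maximalIdeal (twe_la_T e) := by
    rw [twe_la_maximalIdeal_eq θB e h1]
    exact twe_la_J_le_kerT θB e h1 (Ideal.mem_map_of_mem _ hmem)
  exact (IsLocalRing.mem_maximalIdeal _).mp h2 ha

theorem twe_la_residue_eq (h1 : θB e = 1) [IsLocalRing (twe_la_T e)] (t : twe_la_T e) (a : 𝒪)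
    (h : twe_la_θT θB e h1 t = residue 𝒪 a) :
    residue (twe_la_T e) t = residue (twe_la_T e) (algebraMap 𝒪 (twe_la_T e) a) := by
  rw [← sub_eq_zero, ← map_sub, residue_eq_zero_iff, twe_la_maximalIdeal_eq θB e h1,
    RingHom.mem_ker]
  change twe_la_θT θB e h1 (t - algebraMap 𝒪 (twe_la_T e) a) = 0
  rw [map_sub, h, AlgHom.commutes, sub_eq_zero]
  rfl

theorem twe_la_residue_surjective (h1 : θB e = 1) [IsLocalRing (twe_la_T e)] :
    Function.Surjective (residue (twe_la_T e) ∘ algebraMap 𝒪 (twe_la_T e)) := by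
  intro x
  obtain ⟨t, rfl⟩ := residue_surjective x
  obtain ⟨a, ha⟩ := residue_surjective (twe_la_θT θB e h1 t)
  exact ⟨a, (twe_la_residue_eq θB e h1 t a ha.symm).symm⟩

/-- the residue of `mk b` is the image of `θB b` -/
theorem twe_la_residue_mk (h1 : θB e = 1) [IsLocalRing (twe_la_T e)]
    [IsLocalHom (algebraMap 𝒪 (twe_la_T e))] (b : B) :
    residue (twe_la_T e) (Ideal.Quotient.mk _ b) =
      ResidueField.map (algebraMap 𝒪 (twe_la_T e)) (θB b) := by
  obtain ⟨a, ha⟩ := residue_surjective (θB b)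
  rw [twe_la_residue_eq θB e h1 _ a (by rw [twe_la_θT_mk, ha]), ← ha, ResidueField.map_residue]

/-- an idempotent which is not in the maximal ideal of a local ring is `1` -/
theorem twe_la_point {D : Type*} [CommRing D] [IsLocalRing D] (χ : B →+* D)
    (he : IsIdempotentElem e) (h : χ e ∉ maximalIdeal D) : χ (1 - e) = 0 := by
  have hu : IsUnit (χ e) := by
    by_contra hn
    exact h ((IsLocalRing.mem_maximalIdeal _).mpr hn)
  have h0 : χ e * χ (1 - e) = 0 := by
    rw [← map_mul, mul_sub, mul_one, he.eq, sub_self, map_zero]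
  exact (hu.mul_right_eq_zero).mp h0

/-- points of `B` lifting `θB` factor through `T` -/
theorem twe_la_point_of_residue (h1 : θB e = 1) (he : IsIdempotentElem e)
    (χ : B →ₐ[𝒪] 𝒪) (hχ : ∀ b, residue 𝒪 (χ b) = θB b) : χ (1 - e) = 0 := by
  apply twe_la_point e (χ : B →+* 𝒪) he
  intro hmem
  have : residue 𝒪 (χ e) = 0 := (residue_eq_zero_iff _).mpr hmem
  rw [hχ, h1] at this
  exact one_ne_zero this

theorem twe_la_isTorsionFree [IsDomain 𝒪] [Module.IsTorsionFree 𝒪 B] (he : IsIdempotentElem e) :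
    Module.IsTorsionFree 𝒪 (twe_la_T e) := by
  rw [Module.isTorsionFree_iff_smul_eq_zero]
  intro r t ht
  by_cases hr : r = 0
  · exact Or.inl hr
  right
  obtain ⟨b, rfl⟩ := Ideal.Quotient.mk_surjective t
  have h1 : r • b ∈ Ideal.span {1 - e} := by
    rw [← Ideal.Quotient.eq_zero_iff_mem]
    exact ht
  obtain ⟨c, hc⟩ := Ideal.mem_span_singleton'.mp h1
  have h2 : r • (e * b) = 0 := by
    rw [← mul_smul_comm, ← hc, mul_comm c, ← mul_assoc, mul_sub, mul_one, he.eq, sub_self, zero_mul]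
  have h3 : e * b = 0 := (smul_eq_zero.mp h2).resolve_left hr
  rw [Ideal.Quotient.eq_zero_iff_mem]
  refine Ideal.mem_span_singleton'.mpr ⟨b, ?_⟩
  rw [mul_sub, mul_one, mul_comm b e, h3, sub_zero]

end quot

section main

variable {𝒪 : Type u} [CommRing 𝒪] [IsLocalRing 𝒪] [IsNoetherianRing 𝒪]
  [IsAdicComplete (maximalIdeal 𝒪) 𝒪]
  {B : Type u} [CommRing B] [Algebra 𝒪 B] [Module.Finite 𝒪 B]

/-- **(DT-LOC)**: the local factor `T = B ⧸ (1 - e)` of `B` at `ker θB`, with all its properties. -/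
theorem twe_la_main [IsDomain 𝒪] [IsPrincipalIdealRing 𝒪] [Module.IsTorsionFree 𝒪 B]
    (θB : B →ₐ[𝒪] ResidueField 𝒪) :
    ∃ e : B, IsIdempotentElem e ∧ θB e = 1 ∧
      (∀ b, θB b = 0 → ∃ n, 0 < n ∧ (e * b) ^ n ∈ twe_la_J 𝒪 B) ∧
      ∃ (_ : IsLocalRing (twe_la_T e)) (_ : IsLocalHom (algebraMap 𝒪 (twe_la_T e))),
        IsNoetherianRing (twe_la_T e) ∧ Module.Finite 𝒪 (twe_la_T e) ∧
        Module.Free 𝒪 (twe_la_T e) ∧
        IsAdicComplete (maximalIdeal (twe_la_T e)) (twe_la_T e) ∧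
        Function.Surjective (residue (twe_la_T e) ∘ algebraMap 𝒪 (twe_la_T e)) ∧
        (∀ b : B, residue (twe_la_T e) (Ideal.Quotient.mk _ b) =
          ResidueField.map (algebraMap 𝒪 (twe_la_T e)) (θB b)) ∧
        ∀ χ : B →ₐ[𝒪] 𝒪, (∀ b, residue 𝒪 (χ b) = θB b) → χ (1 - e) = 0 := by
  obtain ⟨e, he, h1, hnil⟩ := twe_la_exists_idem θB
  haveI hloc : IsLocalRing (twe_la_T e) := twe_la_isLocalRing θB e h1 he hnil
  haveI hlh : IsLocalHom (algebraMap 𝒪 (twe_la_T e)) := twe_la_isLocalHom θB e h1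
  haveI : IsNoetherianRing B := IsNoetherianRing.of_finite 𝒪 B
  haveI : Module.IsTorsionFree 𝒪 (twe_la_T e) := twe_la_isTorsionFree e he
  refine ⟨e, he, h1, hnil, hloc, hlh, inferInstance, inferInstance,
    Module.free_of_finite_type_torsion_free', twe_la_isAdicComplete_maximalIdeal θB e h1 he hnil,
    twe_la_residue_surjective θB e h1, twe_la_residue_mk θB e h1, ?_⟩
  intro χ hχ
  exact twe_la_point_of_residue θB e h1 he χ hχ

end main

end Fermat.Agent.TW
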