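/-
ONE MACHINE / block [E] AUT, cell (DT-LOC), module form (helper3).
Namespace `Fermat.Agent.TW`, prefix `twe_lam_`.  Mathlib + `TW/Aut/LocAlg.lean` + `TW/Aut/FreeAbs.lean`
(only for the definition `twe_fa_loc`).

`𝒪` complete noetherian local with residue field `k`, `B` a finite commutative `𝒪`-algebra,
`τ : L → B` ("the Hecke operators"), `ã : L → 𝒪` lifts of an eigen-system `a : L → k`.

* `twe_lam_n τ ã := 𝔪_𝒪 B + (τ ℓ - ã ℓ)_ℓ` and `twe_lam_exists_idem 𝔫` (ANY ideal `𝔫 ⊇ 𝔪_𝒪 B`):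
  an idempotent `e` with `1 - e ∈ 𝔫` and `e b` nilpotent modulo `𝔪_𝒪 B` for `b ∈ 𝔫`
  (no `θB` needed; if `𝔫 = ⊤` then `e = 0` is allowed);  `twe_lam_ker_eq`: if `B` is generated by
  the `τ ℓ` and `θB (τ ℓ) = a ℓ` then `ker θB = twe_lam_n τ ã`.
* for a `B`-module `X` with a reduction map `red : X → V` to a `k`-vector space, intertwining
  `τ ℓ` with `Tbar ℓ : End_k V`:
  `twe_lam_red_mem_loc`  : `red (e • x) ∈ twe_fa_loc Tbar a`;
  `twe_lam_red_eq_of_mem_loc` : `red x ∈ twe_fa_loc Tbar a → red (e • x) = red x`.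
* `twe_lam_eX e : Submodule 𝒪 X` (`= e X`), `twe_lam_pi : e X → twe_fa_loc Tbar a`, surjective with
  kernel `𝔪_𝒪 (e X)` when `red` is surjective with kernel `𝔪_𝒪 X`; `X = e X ⊕ (1 - e) X`.
* `twe_lam_actT : B ⧸ (1 - e) →ₐ[𝒪] End_𝒪 (e X)`, injective when `B` acts faithfully on `X`.
-/
import Mathlib
import Fermat.Agent.TW.Aut.LocAlg
import Fermat.Agent.TW.Aut.FreeAbs

set_option autoImplicit false
set_option linter.unusedSectionVars false
set_option linter.unusedVariables false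
set_option linter.style.haveILetI false

noncomputable section

namespace Fermat.Agent.TW

open IsLocalRing Polynomial

universe u v w

section idem

variable {𝒪 : Type u} [CommRing 𝒪] [IsLocalRing 𝒪] [IsNoetherianRing 𝒪]
  [IsAdicComplete (maximalIdeal 𝒪) 𝒪]
  {B : Type u} [CommRing B] [Algebra 𝒪 B] [Module.Finite 𝒪 B]

/-- **the idempotent cutting out the part of `B` supported at an ideal `𝔫 ⊇ 𝔪_𝒪 B`**. -/
theorem twe_lam_exists_idem (𝔫 : Ideal B) (h𝔫 : twe_la_J 𝒪 B ≤ 𝔫) :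
    ∃ e : B, IsIdempotentElem e ∧ 1 - e ∈ 𝔫 ∧
      ∀ b ∈ 𝔫, ∃ n, 0 < n ∧ (e * b) ^ n ∈ twe_la_J 𝒪 B := by
  haveI := twe_la_isArtinianRing_quot (𝒪 := 𝒪) (B := B)
  haveI := twe_la_isAdicComplete_J (𝒪 := 𝒪) (B := B)
  set J := twe_la_J 𝒪 B with hJ
  obtain ⟨f, n, hf, hfn, hn, hb⟩ := twe_la_exists_idem_artinian (𝔫.map (Ideal.Quotient.mk J))
  obtain ⟨f', hf', rfl⟩ := (Ideal.mem_map_iff_of_surjective _ Ideal.Quotient.mk_surjective).mp hfn
  have hmonic : (X ^ 2 - X : B[X]).Monic := by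
    apply Polynomial.monic_X_pow_sub
    exact lt_of_le_of_lt degree_X_le (by norm_num)
  have h1 : (X ^ 2 - X : B[X]).eval (1 - f') ∈ J := by
    rw [← Ideal.Quotient.eq_zero_iff_mem]
    simp only [eval_sub, eval_pow, eval_X, map_sub, map_pow, map_one]
    have := hf.eq
    linear_combination this
  have h2 : IsUnit (Ideal.Quotient.mk J ((X ^ 2 - X : B[X]).derivative.eval (1 - f'))) := by
    have hd : (X ^ 2 - X : B[X]).derivative.eval (1 - f') = 2 * (1 - f') - 1 := by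
      simp
      ring
    rw [hd]
    refine IsUnit.of_mul_eq_one (Ideal.Quotient.mk J (2 * (1 - f') - 1)) ?_
    simp only [map_sub, map_mul, map_one, map_ofNat]
    have := hf.eq
    linear_combination 4 * this
  obtain ⟨e, he, hea⟩ := HenselianRing.is_henselian (R := B) (I := J) _ hmonic (1 - f') h1 h2
  have he' : e * e = e := by
    have : e ^ 2 - e = 0 := by simpa [IsRoot] using he
    linear_combination this
  have hmk : Ideal.Quotient.mk J e = 1 - Ideal.Quotient.mk J f' := by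
    have := Ideal.Quotient.eq.mpr hea
    rw [this, map_sub, map_one]
  refine ⟨e, he', ?_, ?_⟩
  · have h3 : e - (1 - f') ∈ 𝔫 := h𝔫 hea
    have h4 : 1 - e = f' - (e - (1 - f')) := by ring
    rw [h4]
    exact 𝔫.sub_mem hf' h3
  · intro b hb0
    refine ⟨n, hn, ?_⟩
    rw [← Ideal.Quotient.eq_zero_iff_mem, map_pow, map_mul, mul_pow, hmk]
    have hid : IsIdempotentElem (1 - Ideal.Quotient.mk J f') := hf.one_sub
    obtain ⟨m, rfl⟩ : ∃ m, n = m + 1 := Nat.exists_eq_succ_of_ne_zero hn.ne'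
    rw [hid.pow_succ_eq]
    exact hb _ (Ideal.mem_map_of_mem _ hb0)

end idem

section ideal

variable {𝒪 : Type u} [CommRing 𝒪] [IsLocalRing 𝒪]
  {B : Type u} [CommRing B] [Algebra 𝒪 B] {L : Type*}

/-- the ideal `𝔪_𝒪 B + (τ ℓ - ã ℓ)_ℓ` of the eigen-system `ã`. -/
def twe_lam_n (τ : L → B) (at' : L → 𝒪) : Ideal B :=
  twe_la_J 𝒪 B ⊔ Ideal.span (Set.range fun ℓ => τ ℓ - algebraMap 𝒪 B (at' ℓ))

theorem twe_lam_J_le_n (τ : L → B) (at' : L → 𝒪) : twe_la_J 𝒪 B ≤ twe_lam_n τ at' := le_sup_left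

theorem twe_lam_gen_mem_n (τ : L → B) (at' : L → 𝒪) (ℓ : L) :
    τ ℓ - algebraMap 𝒪 B (at' ℓ) ∈ twe_lam_n τ at' :=
  Ideal.mem_sup_right (Ideal.subset_span ⟨ℓ, rfl⟩)

/-- if `B` is generated by the `τ ℓ`, every element is a constant modulo `(τ ℓ - ã ℓ)_ℓ`. -/
theorem twe_lam_exists_const (τ : L → B) (at' : L → 𝒪)
    (hgen : Algebra.adjoin 𝒪 (Set.range τ) = ⊤) (b : B) :
    ∃ c : 𝒪, b - algebraMap 𝒪 B c ∈
      Ideal.span (Set.range fun ℓ => τ ℓ - algebraMap 𝒪 B (at' ℓ)) := by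
  set I := Ideal.span (Set.range fun ℓ => τ ℓ - algebraMap 𝒪 B (at' ℓ)) with hI
  have hb : b ∈ Algebra.adjoin 𝒪 (Set.range τ) := by rw [hgen]; exact Algebra.mem_top
  induction hb using Algebra.adjoin_induction with
  | mem x hx =>
    obtain ⟨ℓ, rfl⟩ := hx
    exact ⟨at' ℓ, Ideal.subset_span ⟨ℓ, rfl⟩⟩
  | algebraMap r => exact ⟨r, by rw [sub_self]; exact I.zero_mem⟩
  | add x y _ _ hx hy =>
    obtain ⟨c, hc⟩ := hx
    obtain ⟨d, hd⟩ := hy
    refine ⟨c + d, ?_⟩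
    have : x + y - algebraMap 𝒪 B (c + d) = (x - algebraMap 𝒪 B c) + (y - algebraMap 𝒪 B d) := by
      rw [map_add]; ring
    rw [this]
    exact I.add_mem hc hd
  | mul x y _ _ hx hy =>
    obtain ⟨c, hc⟩ := hx
    obtain ⟨d, hd⟩ := hy
    refine ⟨c * d, ?_⟩
    have : x * y - algebraMap 𝒪 B (c * d) =
        (x - algebraMap 𝒪 B c) * y + algebraMap 𝒪 B c * (y - algebraMap 𝒪 B d) := by
      rw [map_mul]; ring
    rw [this]
    exact I.add_mem (I.mul_mem_right _ hc) (I.mul_mem_left _ hd)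

/-- if `B` is generated by the `τ ℓ` and `θB (τ ℓ) = a ℓ`, then `ker θB = 𝔪_𝒪 B + (τ ℓ - ã ℓ)_ℓ`. -/
theorem twe_lam_ker_eq (τ : L → B) (at' : L → 𝒪)
    (hgen : Algebra.adjoin 𝒪 (Set.range τ) = ⊤) (θB : B →ₐ[𝒪] ResidueField 𝒪)
    (hθ : ∀ ℓ, θB (τ ℓ) = residue 𝒪 (at' ℓ)) :
    RingHom.ker (θB : B →+* ResidueField 𝒪) = twe_lam_n τ at' := by
  have hI : Ideal.span (Set.range fun ℓ => τ ℓ - algebraMap 𝒪 B (at' ℓ)) ≤
      RingHom.ker (θB : B →+* ResidueField 𝒪) := by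
    rw [Ideal.span_le]
    rintro _ ⟨ℓ, rfl⟩
    change θB (τ ℓ - algebraMap 𝒪 B (at' ℓ)) = 0
    rw [map_sub, hθ, θB.commutes, sub_eq_zero]
    rfl
  apply le_antisymm
  · intro b hb
    obtain ⟨c, hc⟩ := twe_lam_exists_const τ at' hgen b
    have h1 : θB (b - algebraMap 𝒪 B c) = 0 := hI hc
    have h2 : θB b = 0 := hb
    rw [map_sub, h2, zero_sub, neg_eq_zero, θB.commutes] at h1
    have hcm : c ∈ maximalIdeal 𝒪 := (residue_eq_zero_iff c).mp h1
    have h3 : b = algebraMap 𝒪 B c + (b - algebraMap 𝒪 B c) := by ring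
    rw [h3]
    exact (twe_lam_n τ at').add_mem
      (Ideal.mem_sup_left (Ideal.mem_map_of_mem _ hcm)) (Ideal.mem_sup_right hc)
  · refine sup_le ?_ hI
    rw [twe_la_J, Ideal.map_le_iff_le_comap]
    intro a ha
    rw [Ideal.mem_comap, RingHom.mem_ker]
    change θB (algebraMap 𝒪 B a) = 0
    rw [θB.commutes]
    exact (residue_eq_zero_iff a).mpr ha

end ideal

section module

variable {𝒪 : Type u} [CommRing 𝒪] [IsLocalRing 𝒪]
  {B : Type u} [CommRing B] [Algebra 𝒪 B] {L : Type*}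
  {X : Type v} [AddCommGroup X] [Module 𝒪 X] [Module B X] [IsScalarTower 𝒪 B X]
  {V : Type w} [AddCommGroup V] [Module (ResidueField 𝒪) V] [Module 𝒪 V]
  [IsScalarTower 𝒪 (ResidueField 𝒪) V]
  (red : X →ₗ[𝒪] V) (τ : L → B) (at' : L → 𝒪) (Tbar : L → Module.End (ResidueField 𝒪) V)

/-- `red` kills `𝔪_𝒪 X`. -/
theorem twe_lam_red_smul_of_mem {a : 𝒪} (ha : a ∈ maximalIdeal 𝒪) (x : X) : red (a • x) = 0 := by
  rw [map_smul, ← algebraMap_smul (ResidueField 𝒪) a (red x)]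
  have : algebraMap 𝒪 (ResidueField 𝒪) a = 0 := (residue_eq_zero_iff a).mpr ha
  rw [this, zero_smul]

/-- `red` kills `𝔪_𝒪 B · X`. -/
theorem twe_lam_red_J (j : B) (hj : j ∈ twe_la_J 𝒪 B) (x : X) : red (j • x) = 0 := by
  rw [twe_la_J, Ideal.map] at hj
  induction hj using Submodule.span_induction generalizing x with
  | mem y hy =>
    obtain ⟨a, ha, rfl⟩ := hy
    rw [algebraMap_smul]
    exact twe_lam_red_smul_of_mem red ha x
  | zero => rw [zero_smul, map_zero]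
  | add y z _ _ hy hz => rw [add_smul, map_add, hy, hz, add_zero]
  | smul c y _ hy => rw [smul_eq_mul, mul_comm, mul_smul]; exact hy (c • x)

/-- powers of `Tbar ℓ - a ℓ` on `red y`. -/
theorem twe_lam_red_pow (hred : ∀ ℓ x, red (τ ℓ • x) = Tbar ℓ (red x)) (ℓ : L) (n : ℕ) (y : X) :
    ((Tbar ℓ - residue 𝒪 (at' ℓ) • (1 : Module.End (ResidueField 𝒪) V)) ^ n) (red y) =
      red ((τ ℓ - algebraMap 𝒪 B (at' ℓ)) ^ n • y) := by
  induction n generalizing y with
  | zero => simp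
  | succ n ih =>
    have h1 : (Tbar ℓ - residue 𝒪 (at' ℓ) • (1 : Module.End (ResidueField 𝒪) V)) (red y) =
        red ((τ ℓ - algebraMap 𝒪 B (at' ℓ)) • y) := by
      rw [LinearMap.sub_apply, LinearMap.smul_apply, Module.End.one_apply, sub_smul, map_sub,
        hred, algebraMap_smul, map_smul]
      congr 1
      exact algebraMap_smul (ResidueField 𝒪) (at' ℓ) (red y)
    rw [pow_succ, Module.End.mul_apply, h1, ih, pow_succ, mul_smul]

/-- **the image of `e X` lies in the localisation**. -/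
theorem twe_lam_red_mem_loc (hred : ∀ ℓ x, red (τ ℓ • x) = Tbar ℓ (red x))
    {e : B} (he : IsIdempotentElem e)
    (h1 : ∀ b ∈ twe_lam_n τ at', ∃ n, 0 < n ∧ (e * b) ^ n ∈ twe_la_J 𝒪 B) (x : X) :
    red (e • x) ∈ twe_fa_loc Tbar (fun ℓ => residue 𝒪 (at' ℓ)) := by
  rw [twe_fa_mem_loc]
  intro ℓ
  obtain ⟨n, hn, hJ⟩ := h1 _ (twe_lam_gen_mem_n τ at' ℓ)
  refine ⟨n, ?_⟩
  rw [twe_lam_red_pow red τ at' Tbar hred, smul_smul]
  have h2 : (τ ℓ - algebraMap 𝒪 B (at' ℓ)) ^ n * e = (e * (τ ℓ - algebraMap 𝒪 B (at' ℓ))) ^ n := by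
    obtain ⟨m, rfl⟩ : ∃ m, n = m + 1 := Nat.exists_eq_succ_of_ne_zero hn.ne'
    rw [mul_pow, he.pow_succ_eq, mul_comm]
  rw [h2]
  exact twe_lam_red_J red _ hJ x

/-- **on the localisation, `e` is the identity**. -/
theorem twe_lam_red_eq_of_mem_loc (hred : ∀ ℓ x, red (τ ℓ • x) = Tbar ℓ (red x))
    (hB : ∀ (c : B) (y : X), red y = 0 → red (c • y) = 0)
    {e : B} (he : IsIdempotentElem e) (h2 : 1 - e ∈ twe_lam_n τ at') (x : X)
    (hx : red x ∈ twe_fa_loc Tbar (fun ℓ => residue 𝒪 (at' ℓ))) : red (e • x) = red x := by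
  let Ann : Ideal B :=
    { carrier := {b | red (b • x) = 0}
      add_mem' := fun {a b} ha hb => by
        change red ((a + b) • x) = 0
        rw [add_smul, map_add, ha, hb, add_zero]
      zero_mem' := by change red ((0 : B) • x) = 0; rw [zero_smul, map_zero]
      smul_mem' := fun c b hb => by
        change red ((c * b) • x) = 0
        rw [mul_smul]
        exact hB c _ hb }
  have hle : twe_lam_n τ at' ≤ Ann.radical := by
    refine sup_le ?_ ?_
    · refine le_trans ?_ Ideal.le_radical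
      intro j hj
      exact twe_lam_red_J red j hj x
    · rw [Ideal.span_le]
      rintro _ ⟨ℓ, rfl⟩
      obtain ⟨n, hn⟩ := (twe_fa_mem_loc.mp hx) ℓ
      refine ⟨n, ?_⟩
      change red (_ ^ n • x) = 0
      rw [← twe_lam_red_pow red τ at' Tbar hred, hn]
  obtain ⟨m, hm⟩ := hle h2
  have hmem : 1 - e ∈ Ann := by
    rcases m with _ | m
    · rw [pow_zero] at hm
      exact (Ideal.eq_top_iff_one Ann).mpr hm ▸ Submodule.mem_top
    · rwa [he.one_sub.pow_succ_eq] at hm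
  have h3 : red ((1 - e) • x) = 0 := hmem
  rw [sub_smul, one_smul, map_sub, sub_eq_zero] at h3
  exact h3.symm

/-- `hB` from `ker red ⊆ 𝔪_𝒪 X`. -/
theorem twe_lam_hB_of_ker (hker : LinearMap.ker red ≤ (maximalIdeal 𝒪) • (⊤ : Submodule 𝒪 X))
    (c : B) (y : X) (hy : red y = 0) : red (c • y) = 0 := by
  have hy' : y ∈ (maximalIdeal 𝒪) • (⊤ : Submodule 𝒪 X) := hker (LinearMap.mem_ker.mpr hy)
  refine Submodule.smul_induction_on (p := fun y => red (c • y) = 0) hy' ?_ ?_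
  · intro a ha z _
    rw [smul_comm]
    exact twe_lam_red_smul_of_mem red ha _
  · intro y z hy hz
    rw [smul_add, map_add, hy, hz, add_zero]

/-- `hB` when `B` is generated by the `τ ℓ`. -/
theorem twe_lam_hB_of_gen (hred : ∀ ℓ x, red (τ ℓ • x) = Tbar ℓ (red x))
    (hgen : Algebra.adjoin 𝒪 (Set.range τ) = ⊤)
    (c : B) (y : X) (hy : red y = 0) : red (c • y) = 0 := by
  have key : ∃ C : Module.End (ResidueField 𝒪) V, ∀ y, red (c • y) = C (red y) := by
    have hc : c ∈ Algebra.adjoin 𝒪 (Set.range τ) := by rw [hgen]; exact Algebra.mem_top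
    induction hc using Algebra.adjoin_induction with
    | mem x hx =>
      obtain ⟨ℓ, rfl⟩ := hx
      exact ⟨Tbar ℓ, hred ℓ⟩
    | algebraMap r =>
      refine ⟨residue 𝒪 r • 1, fun y => ?_⟩
      rw [algebraMap_smul, map_smul, LinearMap.smul_apply, Module.End.one_apply]
      exact (algebraMap_smul (ResidueField 𝒪) r (red y)).symm
    | add a b _ _ ha hb =>
      obtain ⟨C, hC⟩ := ha
      obtain ⟨D, hD⟩ := hb
      exact ⟨C + D, fun y => by rw [add_smul, map_add, hC, hD, LinearMap.add_apply]⟩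
    | mul a b _ _ ha hb =>
      obtain ⟨C, hC⟩ := ha
      obtain ⟨D, hD⟩ := hb
      exact ⟨C * D, fun y => by rw [mul_smul, hC, hD, Module.End.mul_apply]⟩
  obtain ⟨C, hC⟩ := key
  rw [hC, hy, map_zero]

end module

section pack

variable {𝒪 : Type u} [CommRing 𝒪] [IsLocalRing 𝒪]
  {B : Type u} [CommRing B] [Algebra 𝒪 B] {L : Type*}
  {X : Type v} [AddCommGroup X] [Module 𝒪 X] [Module B X] [IsScalarTower 𝒪 B X]
  {V : Type w} [AddCommGroup V] [Module (ResidueField 𝒪) V] [Module 𝒪 V]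
  [IsScalarTower 𝒪 (ResidueField 𝒪) V]

/-- `e X`, as a `B`-submodule of `X`. -/
def twe_lam_eX (X : Type v) [AddCommGroup X] [Module B X] (e : B) : Submodule B X :=
  LinearMap.range (LinearMap.lsmul B X e)

theorem twe_lam_smul_mem_eX (e : B) (x : X) : e • x ∈ twe_lam_eX X e := ⟨x, rfl⟩

theorem twe_lam_mem_eX {e : B} (he : IsIdempotentElem e) {x : X} :
    x ∈ twe_lam_eX X e ↔ e • x = x := by
  constructor
  · rintro ⟨y, rfl⟩
    change e • e • y = e • y
    rw [smul_smul, he.eq]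
  · intro h
    exact ⟨x, h⟩

/-- `X = e X ⊕ (1 - e) X`. -/
theorem twe_lam_isCompl {e : B} (he : IsIdempotentElem e) :
    IsCompl (twe_lam_eX X e) (twe_lam_eX X (1 - e)) := by
  constructor
  · rw [Submodule.disjoint_def]
    intro x h1 h2
    have h3 := (twe_lam_mem_eX he).mp h1
    have h4 := (twe_lam_mem_eX he.one_sub).mp h2
    rw [sub_smul, one_smul, h3, sub_self] at h4
    exact h4.symm
  · rw [codisjoint_iff, eq_top_iff]
    intro x _
    have : x = e • x + (1 - e) • x := by rw [sub_smul, one_smul]; abel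
    rw [this]
    exact Submodule.add_mem_sup (twe_lam_smul_mem_eX e x) (twe_lam_smul_mem_eX (1 - e) x)

/-- the projection `X → e X`, `𝒪`-linear. -/
def twe_lam_proj (𝒪 : Type u) [CommRing 𝒪] [Algebra 𝒪 B] (X : Type v) [AddCommGroup X] [Module 𝒪 X]
    [Module B X] [IsScalarTower 𝒪 B X] (e : B) : X →ₗ[𝒪] twe_lam_eX X e where
  toFun x := ⟨e • x, twe_lam_smul_mem_eX e x⟩
  map_add' x y := Subtype.ext (smul_add e x y)
  map_smul' a x := Subtype.ext (smul_comm e a x)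

theorem twe_lam_proj_coe (e : B) (x : X) : ((twe_lam_proj 𝒪 X e x : twe_lam_eX X e) : X) = e • x := rfl

theorem twe_lam_proj_of_mem {e : B} (he : IsIdempotentElem e) (x : twe_lam_eX X e) :
    twe_lam_proj 𝒪 X e (x : X) = x :=
  Subtype.ext ((twe_lam_mem_eX he).mp x.2)

variable (red : X →ₗ[𝒪] V) (τ : L → B) (at' : L → 𝒪) (Tbar : L → Module.End (ResidueField 𝒪) V)

/-- **the reduction map `e X → V_𝔪`**. -/
def twe_lam_pi (hred : ∀ ℓ x, red (τ ℓ • x) = Tbar ℓ (red x))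
    {e : B} (he : IsIdempotentElem e)
    (h1 : ∀ b ∈ twe_lam_n τ at', ∃ n, 0 < n ∧ (e * b) ^ n ∈ twe_la_J 𝒪 B) :
    twe_lam_eX X e →ₗ[𝒪]
      (twe_fa_loc Tbar (fun ℓ => residue 𝒪 (at' ℓ))).restrictScalars 𝒪 where
  toFun x := ⟨red (x : X), by
    obtain ⟨y, hy⟩ := x.2
    rw [← hy]
    exact twe_lam_red_mem_loc red τ at' Tbar hred he h1 y⟩
  map_add' x y := Subtype.ext (by simp)
  map_smul' a x := Subtype.ext (by simp)

theorem twe_lam_pi_coe (hred : ∀ ℓ x, red (τ ℓ • x) = Tbar ℓ (red x))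
    {e : B} (he : IsIdempotentElem e)
    (h1 : ∀ b ∈ twe_lam_n τ at', ∃ n, 0 < n ∧ (e * b) ^ n ∈ twe_la_J 𝒪 B)
    (x : twe_lam_eX X e) :
    ((twe_lam_pi red τ at' Tbar hred he h1 x : _) : V) = red (x : X) := rfl

/-- `π` is onto the localisation when `red` is onto. -/
theorem twe_lam_pi_surjective (hred : ∀ ℓ x, red (τ ℓ • x) = Tbar ℓ (red x))
    (hB : ∀ (c : B) (y : X), red y = 0 → red (c • y) = 0)
    {e : B} (he : IsIdempotentElem e)
    (h1 : ∀ b ∈ twe_lam_n τ at', ∃ n, 0 < n ∧ (e * b) ^ n ∈ twe_la_J 𝒪 B)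
    (h2 : 1 - e ∈ twe_lam_n τ at') (hsurj : Function.Surjective red) :
    Function.Surjective (twe_lam_pi red τ at' Tbar hred he h1) := by
  rintro ⟨y, hy⟩
  obtain ⟨x, rfl⟩ := hsurj y
  refine ⟨twe_lam_proj 𝒪 X e x, Subtype.ext ?_⟩
  exact twe_lam_red_eq_of_mem_loc red τ at' Tbar hred hB he h2 x hy

/-- `ker π = 𝔪_𝒪 (e X)` when `ker red ⊆ 𝔪_𝒪 X`. -/
theorem twe_lam_ker_pi (hred : ∀ ℓ x, red (τ ℓ • x) = Tbar ℓ (red x))
    {e : B} (he : IsIdempotentElem e)
    (h1 : ∀ b ∈ twe_lam_n τ at', ∃ n, 0 < n ∧ (e * b) ^ n ∈ twe_la_J 𝒪 B)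
    (hker : LinearMap.ker red ≤ (maximalIdeal 𝒪) • (⊤ : Submodule 𝒪 X)) :
    LinearMap.ker (twe_lam_pi red τ at' Tbar hred he h1) =
      (maximalIdeal 𝒪) • (⊤ : Submodule 𝒪 (twe_lam_eX X e)) := by
  apply le_antisymm
  · intro x hx
    have h0 : red (x : X) = 0 := congrArg Subtype.val (LinearMap.mem_ker.mp hx)
    have h3 : (x : X) ∈ (maximalIdeal 𝒪) • (⊤ : Submodule 𝒪 X) := hker (LinearMap.mem_ker.mpr h0)
    have h4 : twe_lam_proj 𝒪 X e (x : X) ∈
        ((maximalIdeal 𝒪) • (⊤ : Submodule 𝒪 X)).map (twe_lam_proj 𝒪 X e) :=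
      Submodule.mem_map_of_mem h3
    rw [Submodule.map_smul'', twe_lam_proj_of_mem he] at h4
    exact Submodule.smul_mono le_rfl le_top h4
  · intro x hx
    rw [LinearMap.mem_ker]
    refine Submodule.smul_induction_on (p := fun x => twe_lam_pi red τ at' Tbar hred he h1 x = 0)
      hx ?_ ?_
    · intro a ha z _
      apply Subtype.ext
      change red ((a • z : twe_lam_eX X e) : X) = 0
      rw [Submodule.coe_smul_of_tower]
      exact twe_lam_red_smul_of_mem red ha _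
    · intro y z hy hz
      rw [map_add, hy, hz, add_zero]

end pack

section actT

variable {𝒪 : Type u} [CommRing 𝒪] {B : Type u} [CommRing B] [Algebra 𝒪 B]
  {X : Type v} [AddCommGroup X] [Module 𝒪 X] [Module B X] [IsScalarTower 𝒪 B X]

theorem twe_lam_isTorsionBySet {e : B} (he : IsIdempotentElem e) :
    Module.IsTorsionBySet B (twe_lam_eX X e) (Ideal.span {1 - e} : Ideal B) := by
  rw [Ideal.span, Module.isTorsionBySet_span_singleton_iff]
  intro x
  apply Subtype.ext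
  have h := (twe_lam_mem_eX he).mp x.2
  change (1 - e) • (x : X) = 0
  rw [sub_smul, one_smul, h, sub_self]

/-- the `T = B ⧸ (1 - e)`-module structure of `e X` (use `letI := twe_lam_moduleT X he`). -/
@[instance_reducible] def twe_lam_moduleT (X : Type v) [AddCommGroup X] [Module B X] {e : B} (he : IsIdempotentElem e) :
    Module (twe_la_T e) (twe_lam_eX X e) :=
  (twe_lam_isTorsionBySet he).module

theorem twe_lam_mk_smul {e : B} (he : IsIdempotentElem e) (b : B) (x : twe_lam_eX X e) :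
    letI := twe_lam_moduleT X he
    (Ideal.Quotient.mk (Ideal.span {1 - e}) b : twe_la_T e) • x = b • x := rfl

theorem twe_lam_isScalarTowerT {e : B} (he : IsIdempotentElem e) :
    letI := twe_lam_moduleT X he
    IsScalarTower 𝒪 (twe_la_T e) (twe_lam_eX X e) := by
  letI := twe_lam_moduleT X he
  refine ⟨fun a t x => ?_⟩
  obtain ⟨b, rfl⟩ := Ideal.Quotient.mk_surjective t
  have h1 : a • (Ideal.Quotient.mk (Ideal.span {1 - e}) b : twe_la_T e) =
      Ideal.Quotient.mk (Ideal.span {1 - e}) (a • b) := rfl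
  rw [h1, twe_lam_mk_smul he, twe_lam_mk_smul he, smul_assoc]

/-- `T` acts faithfully on `e X` when `B` acts faithfully on `X`. -/
theorem twe_lam_faithfulT {e : B} (he : IsIdempotentElem e)
    (hfaith : ∀ b : B, (∀ x : X, b • x = 0) → b = 0) (t : twe_la_T e)
    (ht : letI := twe_lam_moduleT X he; ∀ x : twe_lam_eX X e, t • x = 0) : t = 0 := by
  letI := twe_lam_moduleT X he
  obtain ⟨b, rfl⟩ := Ideal.Quotient.mk_surjective t
  have h1 : b * e = 0 := by
    apply hfaith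
    intro x
    have h2 := ht ⟨e • x, twe_lam_smul_mem_eX e x⟩
    rw [twe_lam_mk_smul he] at h2
    have h3 := congrArg Subtype.val h2
    rw [mul_smul]
    exact h3
  rw [Ideal.Quotient.eq_zero_iff_mem, Ideal.mem_span_singleton]
  exact ⟨b, by rw [mul_comm, mul_sub, mul_one, h1, sub_zero]⟩

end actT

section rank

open TensorProduct

variable {𝒪 : Type u} [CommRing 𝒪] [IsLocalRing 𝒪]

set_option backward.isDefEq.respectTransparency false in
/-- a surjection of a finite free `𝒪`-module onto a `k`-vector space with kernel `𝔪_𝒪 M`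
computes the rank. -/
theorem twe_lam_finrank_eq {M : Type v} [AddCommGroup M] [Module 𝒪 M] [Module.Finite 𝒪 M]
    [Module.Free 𝒪 M] {W : Type w} [AddCommGroup W] [Module (ResidueField 𝒪) W] [Module 𝒪 W]
    [IsScalarTower 𝒪 (ResidueField 𝒪) W] (π : M →ₗ[𝒪] W) (hs : Function.Surjective π)
    (hk : LinearMap.ker π = (maximalIdeal 𝒪) • (⊤ : Submodule 𝒪 M)) :
    Module.finrank 𝒪 M = Module.finrank (ResidueField 𝒪) W := by
  let : Module (ResidueField 𝒪) (M ⧸ maximalIdeal 𝒪 • (⊤ : Submodule 𝒪 M)) :=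
    inferInstanceAs (Module (𝒪 ⧸ maximalIdeal 𝒪) _)
  let : IsScalarTower 𝒪 (ResidueField 𝒪) (M ⧸ maximalIdeal 𝒪 • (⊤ : Submodule 𝒪 M)) :=
    inferInstanceAs (IsScalarTower 𝒪 (𝒪 ⧸ maximalIdeal 𝒪) _)
  let e1 : ResidueField 𝒪 ⊗[𝒪] M ≃ₗ[ResidueField 𝒪] M ⧸ (maximalIdeal 𝒪) • (⊤ : Submodule 𝒪 M) :=
    (TensorProduct.quotTensorEquivQuotSMul M (maximalIdeal 𝒪)).extendScalarsOfSurjective
      residue_surjective
  let e2 : (M ⧸ (maximalIdeal 𝒪) • (⊤ : Submodule 𝒪 M)) ≃ₗ[𝒪] W :=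
    (Submodule.quotEquivOfEq _ _ hk.symm).trans (π.quotKerEquivOfSurjective hs)
  let e3 : (M ⧸ (maximalIdeal 𝒪) • (⊤ : Submodule 𝒪 M)) ≃ₗ[ResidueField 𝒪] W :=
    e2.extendScalarsOfSurjective residue_surjective
  rw [← Module.finrank_baseChange (R := ResidueField 𝒪) (S := 𝒪) (M' := M)]
  exact (e1.trans e3).finrank_eq

end rank

section main

variable {𝒪 : Type u} [CommRing 𝒪] [IsLocalRing 𝒪]
  {B : Type u} [CommRing B] [Algebra 𝒪 B] {L : Type*}
  {X : Type v} [AddCommGroup X] [Module 𝒪 X] [Module B X] [IsScalarTower 𝒪 B X]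
  {V : Type w} [AddCommGroup V] [Module (ResidueField 𝒪) V] [Module 𝒪 V]
  [IsScalarTower 𝒪 (ResidueField 𝒪) V]

theorem twe_lam_proj_surjective {e : B} (he : IsIdempotentElem e) :
    Function.Surjective (twe_lam_proj 𝒪 X e) := fun x => ⟨x, twe_lam_proj_of_mem (𝒪 := 𝒪) he x⟩

/-- `e X` is a finite `𝒪`-module. -/
theorem twe_lam_finite_eX [Module.Finite 𝒪 X] {e : B} (he : IsIdempotentElem e) :
    Module.Finite 𝒪 (twe_lam_eX X e) :=
  Module.Finite.of_surjective (twe_lam_proj 𝒪 X e) (twe_lam_proj_surjective he)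

/-- `e X` is a free `𝒪`-module (a direct summand of a finite free module over a local ring). -/
theorem twe_lam_free_eX [Module.Finite 𝒪 X] [Module.Free 𝒪 X] {e : B} (he : IsIdempotentElem e) :
    Module.Free 𝒪 (twe_lam_eX X e) := by
  haveI := twe_lam_finite_eX (𝒪 := 𝒪) (X := X) he
  haveI : Module.Projective 𝒪 (twe_lam_eX X e) :=
    Module.Projective.of_split (((twe_lam_eX X e).restrictScalars 𝒪).subtype) (twe_lam_proj 𝒪 X e)
      (LinearMap.ext fun x => twe_lam_proj_of_mem (𝒪 := 𝒪) he x)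
  exact Module.free_of_flat_of_isLocalRing

variable (red : X →ₗ[𝒪] V) (τ : L → B) (at' : L → 𝒪) (Tbar : L → Module.End (ResidueField 𝒪) V)

/-- **`rank_𝒪 (e X) = dim_k V_𝔪`**. -/
theorem twe_lam_finrank [Module.Finite 𝒪 X] [Module.Free 𝒪 X]
    (hred : ∀ ℓ x, red (τ ℓ • x) = Tbar ℓ (red x))
    {e : B} (he : IsIdempotentElem e)
    (h1 : ∀ b ∈ twe_lam_n τ at', ∃ n, 0 < n ∧ (e * b) ^ n ∈ twe_la_J 𝒪 B)
    (h2 : 1 - e ∈ twe_lam_n τ at') (hsurj : Function.Surjective red)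
    (hker : LinearMap.ker red ≤ (maximalIdeal 𝒪) • (⊤ : Submodule 𝒪 X)) :
    Module.finrank 𝒪 (twe_lam_eX X e) =
      Module.finrank (ResidueField 𝒪) (twe_fa_loc Tbar (fun ℓ => residue 𝒪 (at' ℓ))) := by
  haveI := twe_lam_finite_eX (𝒪 := 𝒪) (X := X) he
  haveI := twe_lam_free_eX (𝒪 := 𝒪) (X := X) he
  rw [twe_lam_finrank_eq (twe_lam_pi red τ at' Tbar hred he h1)
    (twe_lam_pi_surjective red τ at' Tbar hred (twe_lam_hB_of_ker red hker) he h1 h2 hsurj)
    (twe_lam_ker_pi red τ at' Tbar hred he h1 hker)]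
  exact (Submodule.restrictScalarsEquiv 𝒪 (ResidueField 𝒪) V
    (twe_fa_loc Tbar (fun ℓ => residue 𝒪 (at' ℓ)))).finrank_eq

/-- **(DT-LOC), module form, packaged**: for a complete noetherian local `𝒪`, a finite commutative
`𝒪`-algebra `B` with elements `τ ℓ`, lifts `ã ℓ` of an eigen-system, a `B`-module `X` and a
surjective reduction `red : X → V` with kernel `𝔪_𝒪 X` intertwining `τ ℓ` and `Tbar ℓ`: there is an
idempotent `e ∈ B` such that `red` maps `e X` ONTO the localisation `V_𝔪 = twe_fa_loc Tbar a` with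
kernel `𝔪_𝒪 (e X)`. -/
theorem twe_lam_main [IsNoetherianRing 𝒪] [IsAdicComplete (maximalIdeal 𝒪) 𝒪] [Module.Finite 𝒪 B]
    (hred : ∀ ℓ x, red (τ ℓ • x) = Tbar ℓ (red x)) (hsurj : Function.Surjective red)
    (hker : LinearMap.ker red ≤ (maximalIdeal 𝒪) • (⊤ : Submodule 𝒪 X)) :
    ∃ (e : B) (he : IsIdempotentElem e)
      (h1 : ∀ b ∈ twe_lam_n τ at', ∃ n, 0 < n ∧ (e * b) ^ n ∈ twe_la_J 𝒪 B),
      1 - e ∈ twe_lam_n τ at' ∧
      Function.Surjective (twe_lam_pi red τ at' Tbar hred he h1) ∧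
      LinearMap.ker (twe_lam_pi red τ at' Tbar hred he h1) =
        (maximalIdeal 𝒪) • (⊤ : Submodule 𝒪 (twe_lam_eX X e)) := by
  obtain ⟨e, he, h2, h1⟩ := twe_lam_exists_idem (twe_lam_n τ at') (twe_lam_J_le_n τ at')
  exact ⟨e, he, h1, h2,
    twe_lam_pi_surjective red τ at' Tbar hred (twe_lam_hB_of_ker red hker) he h1 h2 hsurj,
    twe_lam_ker_pi red τ at' Tbar hred he h1 hker⟩

end main

/-! ### The `End`-form: no algebra `B` visible

For consumers who only have a commuting family `T : L → End_𝒪 X`: the idempotent `E` lies in the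
`𝒪`-subalgebra generated by the `T ℓ` (so it commutes with everything that commutes with all
`T ℓ`), `red (E x) ∈ V_𝔪` and `red (E x) = red x` on `V_𝔪`. -/

section endform

variable {𝒪 : Type u} [CommRing 𝒪] [IsLocalRing 𝒪]
  {X : Type u} [AddCommGroup X] [Module 𝒪 X]
  {V : Type w} [AddCommGroup V] [Module (ResidueField 𝒪) V] [Module 𝒪 V]
  [IsScalarTower 𝒪 (ResidueField 𝒪) V] {L : Type*}

/-- **(DT-LOC), `End`-form.** -/
theorem twe_lam_end [IsNoetherianRing 𝒪] [IsAdicComplete (maximalIdeal 𝒪) 𝒪] [Module.Finite 𝒪 X]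
    (T : L → Module.End 𝒪 X) (hcomm : ∀ ℓ ℓ', Commute (T ℓ) (T ℓ')) (at' : L → 𝒪)
    (red : X →ₗ[𝒪] V) (Tbar : L → Module.End (ResidueField 𝒪) V)
    (hred : ∀ ℓ x, red (T ℓ x) = Tbar ℓ (red x))
    (hker : LinearMap.ker red ≤ (maximalIdeal 𝒪) • (⊤ : Submodule 𝒪 X)) :
    ∃ E : Module.End 𝒪 X, IsIdempotentElem E ∧ E ∈ Algebra.adjoin 𝒪 (Set.range T) ∧
      (∀ x, red (E x) ∈ twe_fa_loc Tbar (fun ℓ => residue 𝒪 (at' ℓ))) ∧
      ∀ x, red x ∈ twe_fa_loc Tbar (fun ℓ => residue 𝒪 (at' ℓ)) → red (E x) = red x := by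
  have hc : ∀ a ∈ Set.range T, ∀ b ∈ Set.range T, a * b = b * a := by
    rintro _ ⟨ℓ, rfl⟩ _ ⟨ℓ', rfl⟩
    exact hcomm ℓ ℓ'
  have hmc := Algebra.isMulCommutative_adjoin 𝒪 hc
  letI : CommRing (Algebra.adjoin 𝒪 (Set.range T)) := @IsMulCommutative.instCommRing _ _ hmc
  haveI : Module.Finite 𝒪 (Module.End 𝒪 X) := inferInstance
  haveI : IsNoetherian 𝒪 (Module.End 𝒪 X) := isNoetherian_of_isNoetherianRing_of_finite 𝒪 _
  haveI : Module.Finite 𝒪 (Algebra.adjoin 𝒪 (Set.range T)) :=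
    Module.Finite.of_injective (Algebra.adjoin 𝒪 (Set.range T)).val.toLinearMap
      Subtype.val_injective
  let τ : L → Algebra.adjoin 𝒪 (Set.range T) := fun ℓ => ⟨T ℓ, Algebra.subset_adjoin ⟨ℓ, rfl⟩⟩
  obtain ⟨e, he, h2, h1⟩ := twe_lam_exists_idem (twe_lam_n τ at') (twe_lam_J_le_n τ at')
  have hred' : ∀ ℓ x, red (τ ℓ • x) = Tbar ℓ (red x) := fun ℓ x => hred ℓ x
  refine ⟨e.1, congrArg Subtype.val he.eq, e.2, fun x => ?_, fun x hx => ?_⟩
  · exact twe_lam_red_mem_loc red τ at' Tbar hred' he h1 x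
  · exact twe_lam_red_eq_of_mem_loc red τ at' Tbar hred' (twe_lam_hB_of_ker red hker) he h2 x hx

variable (E : Module.End 𝒪 X) (red : X →ₗ[𝒪] V) (S : Submodule (ResidueField 𝒪) V)

/-- the projection `X → E X`. -/
def twe_lam_projE : X →ₗ[𝒪] LinearMap.range E := E.rangeRestrict

theorem twe_lam_projE_of_mem {E : Module.End 𝒪 X} (hE : IsIdempotentElem E) (x : LinearMap.range E) :
    twe_lam_projE E (x : X) = x := by
  apply Subtype.ext
  obtain ⟨y, hy⟩ := x.2
  change E (x : X) = x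
  rw [← hy, ← Module.End.mul_apply, hE.eq]

/-- the reduction map `E X → S`. -/
def twe_lam_piE (h_in : ∀ x, red (E x) ∈ S) : LinearMap.range E →ₗ[𝒪] S.restrictScalars 𝒪 where
  toFun x := ⟨red (x : X), by
    obtain ⟨y, hy⟩ := x.2
    rw [← hy]
    exact h_in y⟩
  map_add' x y := Subtype.ext (by simp)
  map_smul' a x := Subtype.ext (by simp)

theorem twe_lam_piE_coe (h_in : ∀ x, red (E x) ∈ S) (x : LinearMap.range E) :
    ((twe_lam_piE E red S h_in x : _) : V) = red (x : X) := rfl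

theorem twe_lam_piE_surjective (h_in : ∀ x, red (E x) ∈ S)
    (h_id : ∀ x, red x ∈ S → red (E x) = red x) (hsurj : Function.Surjective red) :
    Function.Surjective (twe_lam_piE E red S h_in) := by
  rintro ⟨y, hy⟩
  obtain ⟨x, rfl⟩ := hsurj y
  exact ⟨twe_lam_projE E x, Subtype.ext (h_id x hy)⟩

theorem twe_lam_ker_piE (hE : IsIdempotentElem E) (h_in : ∀ x, red (E x) ∈ S)
    (hker : LinearMap.ker red ≤ (maximalIdeal 𝒪) • (⊤ : Submodule 𝒪 X)) :
    LinearMap.ker (twe_lam_piE E red S h_in) =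
      (maximalIdeal 𝒪) • (⊤ : Submodule 𝒪 (LinearMap.range E)) := by
  apply le_antisymm
  · intro x hx
    have h0 : red (x : X) = 0 := congrArg Subtype.val (LinearMap.mem_ker.mp hx)
    have h3 : (x : X) ∈ (maximalIdeal 𝒪) • (⊤ : Submodule 𝒪 X) := hker (LinearMap.mem_ker.mpr h0)
    have h4 : twe_lam_projE E (x : X) ∈
        ((maximalIdeal 𝒪) • (⊤ : Submodule 𝒪 X)).map (twe_lam_projE E) :=
      Submodule.mem_map_of_mem h3
    rw [Submodule.map_smul'', twe_lam_projE_of_mem hE] at h4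
    exact Submodule.smul_mono le_rfl le_top h4
  · intro x hx
    rw [LinearMap.mem_ker]
    refine Submodule.smul_induction_on (p := fun x => twe_lam_piE E red S h_in x = 0) hx ?_ ?_
    · intro a ha z _
      apply Subtype.ext
      change red ((a • z : LinearMap.range E) : X) = 0
      rw [Submodule.coe_smul]
      exact twe_lam_red_smul_of_mem red ha _
    · intro y z hy hz
      rw [map_add, hy, hz, add_zero]

/-- `E X` is finite free and `rank_𝒪 (E X) = dim_k S`. -/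
theorem twe_lam_finrankE [Module.Finite 𝒪 X] [Module.Free 𝒪 X] (hE : IsIdempotentElem E)
    (h_in : ∀ x, red (E x) ∈ S) (h_id : ∀ x, red x ∈ S → red (E x) = red x)
    (hsurj : Function.Surjective red)
    (hker : LinearMap.ker red ≤ (maximalIdeal 𝒪) • (⊤ : Submodule 𝒪 X)) :
    Module.Finite 𝒪 (LinearMap.range E) ∧ Module.Free 𝒪 (LinearMap.range E) ∧
      Module.finrank 𝒪 (LinearMap.range E) = Module.finrank (ResidueField 𝒪) S := by
  have hps : Function.Surjective (twe_lam_projE E) := fun x => ⟨x, twe_lam_projE_of_mem hE x⟩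
  haveI : Module.Finite 𝒪 (LinearMap.range E) := Module.Finite.of_surjective _ hps
  haveI : Module.Projective 𝒪 (LinearMap.range E) :=
    Module.Projective.of_split (LinearMap.range E).subtype (twe_lam_projE E)
      (LinearMap.ext fun x => twe_lam_projE_of_mem hE x)
  haveI : Module.Free 𝒪 (LinearMap.range E) := Module.free_of_flat_of_isLocalRing
  refine ⟨inferInstance, inferInstance, ?_⟩
  rw [twe_lam_finrank_eq (twe_lam_piE E red S h_in)
    (twe_lam_piE_surjective E red S h_in h_id hsurj) (twe_lam_ker_piE E red S hE h_in hker)]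
  exact (Submodule.restrictScalarsEquiv 𝒪 (ResidueField 𝒪) V S).finrank_eq

end endform

end Fermat.Agent.TW
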