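/-
ONE MACHINE / block [E] AUT: THE θ-PRIMARY PART (helper3).  Namespace `Fermat.Agent.TW`, prefix
`twe_pr_`.  Mathlib + `TW/Aut/LocAlgMod.lean`.

`𝒪` a local ring, `X` an `𝒪`-module with operators `T : L → End_𝒪 X`, `a : L → 𝒪`:

  `twe_pr_prim T a := {x | ∀ ℓ k, ∃ n, (T ℓ - a ℓ)^n x ∈ 𝔪_𝒪^k X}`

is the INTRINSIC form of "the localisation of `X` at the maximal ideal `(𝔪_𝒪, T ℓ - a ℓ)` of the
Hecke algebra".  It is stable under everything commuting with the `T ℓ`, functorial for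
equivariant maps, and

* `twe_pr_iff` (`B`-form): for `𝒪` noetherian local, `X` finite, `B` a commutative `𝒪`-algebra acting
  on `X`, and ANY idempotent `e ∈ B` with the two properties of `twe_lam_exists_idem` for the ideal
  `twe_lam_n τ a`: `e • x = x ↔ x ∈ twe_pr_prim`;
* `twe_pr_exists_end` (`End`-form): for `𝒪` complete noetherian local and a commuting family there
  is an idempotent `E` in the `𝒪`-algebra generated by the `T ℓ` with `range E = twe_pr_prim T a`,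
  `red (E x) ∈ twe_fa_loc` and `red (E x) = red x` on `twe_fa_loc` for every reduction map;
* `twe_pr_unique` : such an `E` is unique.
-/
import Mathlib
import Fermat.Agent.TW.Aut.LocAlgMod

set_option autoImplicit false
set_option linter.unusedSectionVars false
set_option linter.unusedVariables false
set_option linter.style.haveILetI false

noncomputable section

namespace Fermat.Agent.TW

open IsLocalRing

universe u v w

section defs

variable {𝒪 : Type u} [CommRing 𝒪] [IsLocalRing 𝒪]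
  {X : Type v} [AddCommGroup X] [Module 𝒪 X] {L : Type*}

/-- `𝒪`-linear maps preserve `I X`. -/
theorem twe_pr_map_mem {Y : Type*} [AddCommGroup Y] [Module 𝒪 Y] (I : Ideal 𝒪) (f : X →ₗ[𝒪] Y)
    {x : X} (hx : x ∈ I • (⊤ : Submodule 𝒪 X)) : f x ∈ I • (⊤ : Submodule 𝒪 Y) := by
  have h1 : f x ∈ (I • (⊤ : Submodule 𝒪 X)).map f := Submodule.mem_map_of_mem hx
  rw [Submodule.map_smul''] at h1
  exact Submodule.smul_mono le_rfl le_top h1

/-- **the `θ`-primary part** of `X` for the operators `T ℓ` and the (lifted) eigen-system `a`. -/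
def twe_pr_prim (T : L → Module.End 𝒪 X) (a : L → 𝒪) : Submodule 𝒪 X where
  carrier := {x | ∀ ℓ k, ∃ n, ((T ℓ - a ℓ • (1 : Module.End 𝒪 X)) ^ n) x ∈
    (maximalIdeal 𝒪) ^ k • (⊤ : Submodule 𝒪 X)}
  add_mem' := by
    intro x y hx hy ℓ k
    obtain ⟨n, hn⟩ := hx ℓ k
    obtain ⟨m, hm⟩ := hy ℓ k
    refine ⟨n + m, ?_⟩
    rw [map_add]
    refine Submodule.add_mem _ ?_ ?_
    · rw [add_comm, pow_add, Module.End.mul_apply]
      exact twe_pr_map_mem _ _ hn
    · rw [pow_add, Module.End.mul_apply]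
      exact twe_pr_map_mem _ _ hm
  zero_mem' := fun ℓ k => ⟨0, by rw [map_zero]; exact Submodule.zero_mem _⟩
  smul_mem' := by
    intro c x hx ℓ k
    obtain ⟨n, hn⟩ := hx ℓ k
    exact ⟨n, by rw [map_smul]; exact Submodule.smul_mem _ c hn⟩

theorem twe_pr_mem_prim {T : L → Module.End 𝒪 X} {a : L → 𝒪} {x : X} :
    x ∈ twe_pr_prim T a ↔ ∀ ℓ k, ∃ n, ((T ℓ - a ℓ • (1 : Module.End 𝒪 X)) ^ n) x ∈
      (maximalIdeal 𝒪) ^ k • (⊤ : Submodule 𝒪 X) := Iff.rfl

/-- an equivariant map sends the primary part into the primary part. -/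
theorem twe_pr_map_prim {Y : Type*} [AddCommGroup Y] [Module 𝒪 Y] (Ψ : X →ₗ[𝒪] Y)
    (T : L → Module.End 𝒪 X) (T' : L → Module.End 𝒪 Y) (h : ∀ ℓ x, Ψ (T ℓ x) = T' ℓ (Ψ x))
    (a : L → 𝒪) {x : X} (hx : x ∈ twe_pr_prim T a) : Ψ x ∈ twe_pr_prim T' a := by
  intro ℓ k
  obtain ⟨n, hn⟩ := hx ℓ k
  refine ⟨n, ?_⟩
  have key : ∀ (m : ℕ) (y : X), Ψ (((T ℓ - a ℓ • (1 : Module.End 𝒪 X)) ^ m) y) =
      ((T' ℓ - a ℓ • (1 : Module.End 𝒪 Y)) ^ m) (Ψ y) := by
    intro m
    induction m with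
    | zero => intro y; simp
    | succ m ih =>
      intro y
      rw [pow_succ, pow_succ, Module.End.mul_apply, Module.End.mul_apply, ih]
      congr 1
      simp only [LinearMap.sub_apply, LinearMap.smul_apply, Module.End.one_apply, map_sub,
        map_smul, h]
  rw [← key]
  exact twe_pr_map_mem _ Ψ hn

/-- everything commuting with the `T ℓ` preserves the primary part. -/
theorem twe_pr_prim_stable (T : L → Module.End 𝒪 X) (a : L → 𝒪) (f : Module.End 𝒪 X)
    (hf : ∀ ℓ, Commute f (T ℓ)) {x : X} (hx : x ∈ twe_pr_prim T a) : f x ∈ twe_pr_prim T a :=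
  twe_pr_map_prim f T T (fun ℓ x => by
    rw [← Module.End.mul_apply, (hf ℓ).eq, Module.End.mul_apply]) a hx

/-- the reduction of a primary element lies in the localisation `twe_fa_loc`. -/
theorem twe_pr_red_mem_loc {V : Type w} [AddCommGroup V] [Module (ResidueField 𝒪) V] [Module 𝒪 V]
    [IsScalarTower 𝒪 (ResidueField 𝒪) V] (red : X →ₗ[𝒪] V) (T : L → Module.End 𝒪 X)
    (Tbar : L → Module.End (ResidueField 𝒪) V) (hred : ∀ ℓ x, red (T ℓ x) = Tbar ℓ (red x))
    (a : L → 𝒪) {x : X} (hx : x ∈ twe_pr_prim T a) :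
    red x ∈ twe_fa_loc Tbar (fun ℓ => residue 𝒪 (a ℓ)) := by
  rw [twe_fa_mem_loc]
  intro ℓ
  obtain ⟨n, hn⟩ := hx ℓ 1
  refine ⟨n, ?_⟩
  have key : ∀ (m : ℕ) (y : X),
      ((Tbar ℓ - residue 𝒪 (a ℓ) • (1 : Module.End (ResidueField 𝒪) V)) ^ m) (red y) =
        red (((T ℓ - a ℓ • (1 : Module.End 𝒪 X)) ^ m) y) := by
    intro m
    induction m with
    | zero => intro y; simp
    | succ m ih =>
      intro y
      rw [pow_succ, pow_succ, Module.End.mul_apply, Module.End.mul_apply, ← ih]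
      congr 1
      simp only [LinearMap.sub_apply, LinearMap.smul_apply, Module.End.one_apply, map_sub,
        map_smul, hred]
      congr 1
      exact algebraMap_smul (ResidueField 𝒪) (a ℓ) (red y)
  rw [key]
  rw [pow_one] at hn
  refine Submodule.smul_induction_on (p := fun z => red z = 0) hn ?_ ?_
  · intro c hc z _
    exact twe_lam_red_smul_of_mem red hc z
  · intro y z hy hz
    rw [map_add, hy, hz, add_zero]

end defs

section bform

variable {𝒪 : Type u} [CommRing 𝒪] [IsLocalRing 𝒪]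
  {B : Type u} [CommRing B] [Algebra 𝒪 B] {L : Type*}
  {X : Type v} [AddCommGroup X] [Module 𝒪 X] [Module B X] [IsScalarTower 𝒪 B X]

/-- the operators `x ↦ τ ℓ • x`. -/
def twe_pr_op (𝒪 : Type u) [CommRing 𝒪] [Algebra 𝒪 B] (X : Type v) [AddCommGroup X] [Module 𝒪 X]
    [Module B X] [IsScalarTower 𝒪 B X] (τ : L → B) : L → Module.End 𝒪 X :=
  fun ℓ => Algebra.lsmul 𝒪 𝒪 X (τ ℓ)

theorem twe_pr_op_apply (τ : L → B) (ℓ : L) (x : X) : twe_pr_op 𝒪 X τ ℓ x = τ ℓ • x := rfl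

theorem twe_pr_op_pow (τ : L → B) (a : L → 𝒪) (ℓ : L) (n : ℕ) (x : X) :
    ((twe_pr_op 𝒪 X τ ℓ - a ℓ • (1 : Module.End 𝒪 X)) ^ n) x =
      (τ ℓ - algebraMap 𝒪 B (a ℓ)) ^ n • x := by
  have h1 : twe_pr_op 𝒪 X τ ℓ - a ℓ • (1 : Module.End 𝒪 X) =
      Algebra.lsmul 𝒪 𝒪 X (τ ℓ - algebraMap 𝒪 B (a ℓ)) := by
    rw [map_sub, AlgHom.commutes, Algebra.algebraMap_eq_smul_one]
    rfl
  rw [h1, ← map_pow]
  rfl

/-- elements of `(𝔪^k) B` map `X` into `𝔪^k X`. -/
theorem twe_pr_smul_mem (k : ℕ) (j : B)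
    (hj : j ∈ ((maximalIdeal 𝒪) ^ k).map (algebraMap 𝒪 B)) (x : X) :
    j • x ∈ (maximalIdeal 𝒪) ^ k • (⊤ : Submodule 𝒪 X) := by
  rw [Ideal.map] at hj
  induction hj using Submodule.span_induction generalizing x with
  | mem y hy =>
    obtain ⟨c, hc, rfl⟩ := hy
    rw [algebraMap_smul]
    exact Submodule.smul_mem_smul hc Submodule.mem_top
  | zero => rw [zero_smul]; exact Submodule.zero_mem _
  | add y z _ _ hy hz => rw [add_smul]; exact Submodule.add_mem _ (hy x) (hz x)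
  | smul c y _ hy => rw [smul_eq_mul, mul_comm, mul_smul]; exact hy (c • x)

/-- **`e X` is the primary part**, for ANY idempotent with the properties of
`twe_lam_exists_idem`. -/
theorem twe_pr_iff [IsNoetherianRing 𝒪] [Module.Finite 𝒪 X] (τ : L → B) (a : L → 𝒪)
    {e : B} (he : IsIdempotentElem e)
    (h1 : ∀ b ∈ twe_lam_n τ a, ∃ n, 0 < n ∧ (e * b) ^ n ∈ twe_la_J 𝒪 B)
    (h2 : 1 - e ∈ twe_lam_n τ a) (x : X) :
    e • x = x ↔ x ∈ twe_pr_prim (twe_pr_op 𝒪 X τ) a := by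
  constructor
  · intro hx ℓ k
    obtain ⟨n, hn, hJ⟩ := h1 _ (twe_lam_gen_mem_n τ a ℓ)
    rcases Nat.eq_zero_or_pos k with rfl | hk
    · exact ⟨0, by rw [pow_zero, Ideal.one_eq_top, Submodule.top_smul]; exact Submodule.mem_top⟩
    refine ⟨n * k, ?_⟩
    rw [twe_pr_op_pow]
    have h3 : (τ ℓ - algebraMap 𝒪 B (a ℓ)) ^ (n * k) • x =
        ((e * (τ ℓ - algebraMap 𝒪 B (a ℓ))) ^ n) ^ k • x := by
      rw [← pow_mul, mul_pow, mul_smul]
      obtain ⟨m, hm⟩ : ∃ m, n * k = m + 1 :=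
        Nat.exists_eq_succ_of_ne_zero (Nat.mul_ne_zero hn.ne' hk.ne')
      rw [hm, he.pow_succ_eq, ← hm, smul_comm, hx]
    rw [h3]
    apply twe_pr_smul_mem
    rw [Ideal.map_pow]
    exact Ideal.pow_mem_pow hJ k
  · intro hx
    -- `y = (1 - e) x` is primary and fixed by `1 - e`
    set y : X := (1 - e) • x with hy
    have hyfix : ∀ m : ℕ, (1 - e) ^ m • y = y := by
      intro m
      rcases m with _ | m
      · rw [pow_zero, one_smul]
      · rw [he.one_sub.pow_succ_eq, hy, smul_smul, he.one_sub.eq]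
    have hyprim : ∀ ℓ k, ∃ n, (τ ℓ - algebraMap 𝒪 B (a ℓ)) ^ n • y ∈
        (maximalIdeal 𝒪) ^ k • (⊤ : Submodule 𝒪 X) := by
      intro ℓ k
      obtain ⟨n, hn⟩ := hx ℓ k
      refine ⟨n, ?_⟩
      rw [twe_pr_op_pow] at hn
      rw [hy, smul_comm]
      exact twe_pr_map_mem _ (Algebra.lsmul 𝒪 𝒪 X (1 - e)) hn
    have hyk : ∀ k : ℕ, y ∈ (maximalIdeal 𝒪) ^ k • (⊤ : Submodule 𝒪 X) := by
      intro k
      let Ik : Ideal B :=
        { carrier := {b | b • y ∈ (maximalIdeal 𝒪) ^ k • (⊤ : Submodule 𝒪 X)}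
          add_mem' := fun {b c} hb hc => by
            change (b + c) • y ∈ (maximalIdeal 𝒪) ^ k • (⊤ : Submodule 𝒪 X)
            rw [add_smul]
            exact Submodule.add_mem _ hb hc
          zero_mem' := by
            change (0 : B) • y ∈ (maximalIdeal 𝒪) ^ k • (⊤ : Submodule 𝒪 X)
            rw [zero_smul]
            exact Submodule.zero_mem _
          smul_mem' := fun c b hb => by
            change (c * b) • y ∈ (maximalIdeal 𝒪) ^ k • (⊤ : Submodule 𝒪 X)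
            rw [mul_smul]
            exact twe_pr_map_mem _ (Algebra.lsmul 𝒪 𝒪 X c) hb }
      have hle : twe_lam_n τ a ≤ Ik.radical := by
        refine sup_le ?_ ?_
        · intro j hj
          refine ⟨k, ?_⟩
          change j ^ k • y ∈ (maximalIdeal 𝒪) ^ k • (⊤ : Submodule 𝒪 X)
          apply twe_pr_smul_mem
          rw [Ideal.map_pow]
          exact Ideal.pow_mem_pow hj k
        · rw [Ideal.span_le]
          rintro _ ⟨ℓ, rfl⟩
          obtain ⟨n, hn⟩ := hyprim ℓ k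
          exact ⟨n, hn⟩
      obtain ⟨m, hm⟩ := hle h2
      have h4 : (1 - e) ^ m • y ∈ (maximalIdeal 𝒪) ^ k • (⊤ : Submodule 𝒪 X) := hm
      rwa [hyfix] at h4
    have hy0 : y = 0 := by
      have h5 : y ∈ (⨅ i : ℕ, (maximalIdeal 𝒪) ^ i • ⊤ : Submodule 𝒪 X) :=
        (Submodule.mem_iInf _).mpr hyk
      rw [Ideal.iInf_pow_smul_eq_bot_of_isLocalRing (maximalIdeal 𝒪)
        (Ideal.IsMaximal.ne_top inferInstance)] at h5
      exact (Submodule.mem_bot _).mp h5
    have h6 : x = e • x + y := by rw [hy, sub_smul, one_smul]; abel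
    rw [hy0, add_zero] at h6
    exact h6.symm

end bform

section endform

variable {𝒪 : Type u} [CommRing 𝒪] [IsLocalRing 𝒪] [IsNoetherianRing 𝒪]
  {X : Type u} [AddCommGroup X] [Module 𝒪 X] [Module.Finite 𝒪 X] {L : Type*}

/-- **the idempotent of the primary part, `End`-form**: it lies in the `𝒪`-algebra generated by the
`T ℓ`, its range is `twe_pr_prim T a`, and it is the identity on the preimage of the localisation
`twe_fa_loc` under any reduction map. -/
theorem twe_pr_exists_end [IsAdicComplete (maximalIdeal 𝒪) 𝒪]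
    (T : L → Module.End 𝒪 X) (hcomm : ∀ ℓ ℓ', Commute (T ℓ) (T ℓ')) (a : L → 𝒪) :
    ∃ E : Module.End 𝒪 X, IsIdempotentElem E ∧ E ∈ Algebra.adjoin 𝒪 (Set.range T) ∧
      (∀ x, E x = x ↔ x ∈ twe_pr_prim T a) ∧
      ∀ {V : Type w} [AddCommGroup V] [Module (ResidueField 𝒪) V] [Module 𝒪 V]
        [IsScalarTower 𝒪 (ResidueField 𝒪) V] (red : X →ₗ[𝒪] V)
        (Tbar : L → Module.End (ResidueField 𝒪) V),
        (∀ ℓ x, red (T ℓ x) = Tbar ℓ (red x)) →
        LinearMap.ker red ≤ (maximalIdeal 𝒪) • (⊤ : Submodule 𝒪 X) →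
        ∀ x, red x ∈ twe_fa_loc Tbar (fun ℓ => residue 𝒪 (a ℓ)) → red (E x) = red x := by
  have hc : ∀ a ∈ Set.range T, ∀ b ∈ Set.range T, a * b = b * a := by
    rintro _ ⟨ℓ, rfl⟩ _ ⟨ℓ', rfl⟩
    exact hcomm ℓ ℓ'
  have hmc := Algebra.isMulCommutative_adjoin 𝒪 hc
  letI : CommRing (Algebra.adjoin 𝒪 (Set.range T)) := @IsMulCommutative.instCommRing _ _ hmc
  haveI : Module.Finite 𝒪 (Module.End 𝒪 X) := inferInstance
  haveI : IsNoetherian 𝒪 (Module.End 𝒪 X) := isNoetherian_of_isNoetherianRing_of_finite 𝒪 _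
  haveI : Module.Finite 𝒪 (Algebra.adjoin 𝒪 (Set.range T)) :=
    Module.Finite.of_injective (Algebra.adjoin 𝒪 (Set.range T)).val.toLinearMap
      Subtype.val_injective
  let τ : L → Algebra.adjoin 𝒪 (Set.range T) := fun ℓ => ⟨T ℓ, Algebra.subset_adjoin ⟨ℓ, rfl⟩⟩
  obtain ⟨e, he, h2, h1⟩ := twe_lam_exists_idem (twe_lam_n τ a) (twe_lam_J_le_n τ a)
  have hop : twe_pr_op 𝒪 X τ = T := by
    funext ℓ
    exact LinearMap.ext fun x => rfl
  refine ⟨e.1, congrArg Subtype.val he.eq, e.2, fun x => ?_, ?_⟩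
  · have := twe_pr_iff (𝒪 := 𝒪) (X := X) τ a he h1 h2 x
    rw [hop] at this
    exact this
  · intro V _ _ _ _ red Tbar hred hker x hx
    have hred' : ∀ ℓ x, red (τ ℓ • x) = Tbar ℓ (red x) := fun ℓ x => hred ℓ x
    exact twe_lam_red_eq_of_mem_loc red τ a Tbar hred' (twe_lam_hB_of_ker red hker) he h2 x hx

/-- **uniqueness** of the idempotent of the primary part. -/
theorem twe_pr_unique (T : L → Module.End 𝒪 X) (hcomm : ∀ ℓ ℓ', Commute (T ℓ) (T ℓ'))
    (a : L → 𝒪) {E E' : Module.End 𝒪 X} (hE : E ∈ Algebra.adjoin 𝒪 (Set.range T))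
    (hE' : E' ∈ Algebra.adjoin 𝒪 (Set.range T))
    (h : ∀ x, E x = x ↔ x ∈ twe_pr_prim T a) (h' : ∀ x, E' x = x ↔ x ∈ twe_pr_prim T a)
    (hi : IsIdempotentElem E) (hi' : IsIdempotentElem E') : E = E' := by
  have hc : ∀ a ∈ Set.range T, ∀ b ∈ Set.range T, a * b = b * a := by
    rintro _ ⟨ℓ, rfl⟩ _ ⟨ℓ', rfl⟩
    exact hcomm ℓ ℓ'
  have hmc := Algebra.isMulCommutative_adjoin 𝒪 hc
  letI : CommRing (Algebra.adjoin 𝒪 (Set.range T)) := @IsMulCommutative.instCommRing _ _ hmc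
  have hcm : E * E' = E' * E := by
    have := mul_comm (⟨E, hE⟩ : Algebra.adjoin 𝒪 (Set.range T)) ⟨E', hE'⟩
    exact congrArg Subtype.val this
  have h1 : E * E' = E' := by
    apply LinearMap.ext
    intro x
    rw [Module.End.mul_apply]
    apply (h _).mpr
    apply (h' _).mp
    rw [← Module.End.mul_apply, hi'.eq]
  have h2 : E' * E = E := by
    apply LinearMap.ext
    intro x
    rw [Module.End.mul_apply]
    apply (h' _).mpr
    apply (h _).mp
    rw [← Module.End.mul_apply, hi.eq]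
  rw [← h2, ← hcm, h1]

/-- the primary part is the range of its idempotent. -/
theorem twe_pr_range_eq (T : L → Module.End 𝒪 X) (a : L → 𝒪) {E : Module.End 𝒪 X}
    (hi : IsIdempotentElem E) (h : ∀ x, E x = x ↔ x ∈ twe_pr_prim T a) :
    LinearMap.range E = twe_pr_prim T a := by
  ext x
  constructor
  · rintro ⟨y, rfl⟩
    apply (h _).mp
    rw [← Module.End.mul_apply, hi.eq]
  · intro hx
    exact ⟨x, (h x).mpr hx⟩

end endform

end Fermat.Agent.TW
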