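/-
Project ONE MACHINE (S43), block [E] AUT, cell E/OldIter, CONCRETE part (helper2; prefix `twe_oim_`).

`𝒪` a local ring without `ℕ`-torsion, `pr : L → ℕ` a family of primes, `a : L → 𝒪`.  For a level `M`

  `twe_oim_P pr a M := twe_pr_prim (fun ℓ => · ∘ t2f_TH M (pr ℓ)) a  ≤  Hom(H₁(X₀(M)), 𝒪)`

is the `θ`-primary part (`TW/Aut/Prim.lean`).  If the one-prime E/Old theorem (`twe_old_split`,
`OldMain`) holds along `Q` — hypothesis `hone`: for `insert t s ⊆ Q`, `t ∉ s`, `M₁ = N ∏_{x ∈ s} x`,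
`lrh_i` is injective on `P(M₁)²` and onto `P(M₁ t)` — then

  `twe_oim_main : P(N ∏_{t ∈ Q} t) ≅ (Fin (2^|Q|) → P(N))`,   `𝒪`-linearly and Hecke-equivariantly.

* `twe_oim_T`, `twe_oim_P`, `twe_oim_TP` : operators, primary part, restricted operators;
* `twe_oim_preA_mem`, `twe_oim_preB_mem`, `twe_oim_i_mem` : `lrh_i (P(M₁)²) ⊆ P(M₁ t)`;
* `twe_oim_i`  : the restricted `𝒪`-linear map `P(M₁) × P(M₁) → P(M₁ t)`;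
* `twe_oim_main` : the iterated isomorphism.
-/
import Mathlib
import Fermat.Agent.TW.Aut.Prim
import Fermat.Agent.TW.Aut.OldIter
import Fermat.Agent.LR.MTX.Homology
import Fermat.Agent.LR.MTX.EquivHom
import Fermat.Agent.LR.Top.HomAlg

set_option autoImplicit false
set_option linter.unusedSectionVars false
set_option linter.unusedVariables false
set_option linter.style.haveILetI false

noncomputable section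

namespace Fermat.Agent.TW

open IsLocalRing Fermat.Agent.JT3 Fermat.Agent.LR

universe u

variable {𝒪 : Type u} [CommRing 𝒪] [IsLocalRing 𝒪] {L : Type*} (pr : L → ℕ) (a : L → 𝒪)

/-- the Hecke operators `ψ ↦ ψ ∘ T_{pr ℓ}` on `Hom(H₁(X₀(M)), 𝒪)`. -/
def twe_oim_T (𝒪 : Type u) [CommRing 𝒪] {L : Type*} (pr : L → ℕ) (M : ℕ) :
    L → Module.End 𝒪 (gh_H M →+ 𝒪) :=
  fun ℓ => lrtop_ha_preLin M 𝒪 𝒪 (pr ℓ)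

theorem twe_oim_T_apply (M : ℕ) (ℓ : L) (ψ : gh_H M →+ 𝒪) :
    twe_oim_T 𝒪 pr M ℓ ψ = ψ.comp (t2f_TH M (pr ℓ)).toAddMonoidHom := rfl

/-- the `θ`-primary part of `Hom(H₁(X₀(M)), 𝒪)`. -/
def twe_oim_P (M : ℕ) : Submodule 𝒪 (gh_H M →+ 𝒪) := twe_pr_prim (twe_oim_T 𝒪 pr M) a

theorem twe_oim_T_comm [NoZeroSMulDivisors ℕ 𝒪] (M : ℕ) [NeZero M] (ℓ ℓ' : L) :
    Commute (twe_oim_T 𝒪 pr M ℓ) (twe_oim_T 𝒪 pr M ℓ') :=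
  LinearMap.ext fun ψ => lrtop_ha_pre_comm (pr ℓ) (pr ℓ') ψ

theorem twe_oim_T_mem [NoZeroSMulDivisors ℕ 𝒪] (M : ℕ) [NeZero M] (ℓ : L) {ψ : gh_H M →+ 𝒪}
    (hψ : ψ ∈ twe_oim_P pr a M) : twe_oim_T 𝒪 pr M ℓ ψ ∈ twe_oim_P pr a M :=
  twe_pr_prim_stable _ a _ (fun ℓ' => twe_oim_T_comm pr M ℓ ℓ') hψ

/-- the Hecke operators restricted to the primary part (`0` in the degenerate case where the
primary part is not stable, which does not happen for `M ≠ 0`). -/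
def twe_oim_TP (M : ℕ) (ℓ : L) : ↥(twe_oim_P pr a M) →ₗ[𝒪] ↥(twe_oim_P pr a M) :=
  open Classical in
  if h : ∀ ψ ∈ twe_oim_P pr a M, twe_oim_T 𝒪 pr M ℓ ψ ∈ twe_oim_P pr a M then
    (twe_oim_T 𝒪 pr M ℓ).restrict h
  else 0

theorem twe_oim_TP_coe [NoZeroSMulDivisors ℕ 𝒪] (M : ℕ) [NeZero M] (ℓ : L)
    (x : ↥(twe_oim_P pr a M)) :
    ((twe_oim_TP pr a M ℓ x : ↥(twe_oim_P pr a M)) : gh_H M →+ 𝒪) =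
      (x : gh_H M →+ 𝒪).comp (t2f_TH M (pr ℓ)).toAddMonoidHom := by
  unfold twe_oim_TP
  rw [dif_pos (fun ψ hψ => twe_oim_T_mem pr a M ℓ hψ)]
  rfl

section oneprime

variable {M₁ t : ℕ} [NeZero M₁] [Fact t.Prime] (htM : ¬ t ∣ M₁) [NeZero (M₁ * t)]

/-- `ψ ↦ ψ ∘ A`, `𝒪`-linear. -/
def twe_oim_preA (𝒪 : Type u) [CommRing 𝒪] (M₁ t : ℕ) :
    (gh_H M₁ →+ 𝒪) →ₗ[𝒪] (gh_H (M₁ * t) →+ 𝒪) where
  toFun ψ := ψ.comp (lrh_A M₁ t)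
  map_add' _ _ := rfl
  map_smul' _ _ := rfl

/-- `ψ ↦ ψ ∘ B`, `𝒪`-linear. -/
def twe_oim_preB (𝒪 : Type u) [CommRing 𝒪] {M₁ t : ℕ} [Fact t.Prime] (htM : ¬ t ∣ M₁) :
    (gh_H M₁ →+ 𝒪) →ₗ[𝒪] (gh_H (M₁ * t) →+ 𝒪) where
  toFun ψ := ψ.comp (lrh_B htM)
  map_add' _ _ := rfl
  map_smul' _ _ := rfl

theorem twe_oim_not_dvd {ℓ : ℕ} (h : ¬ ℓ ∣ M₁ * t) : ¬ ℓ ∣ M₁ :=
  fun h' => h (Dvd.dvd.mul_right h' t)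

theorem twe_oim_i_eq (ψ : (gh_H M₁ →+ 𝒪) × (gh_H M₁ →+ 𝒪)) :
    lrh_i htM 𝒪 ψ = twe_oim_preA 𝒪 M₁ t ψ.1 + twe_oim_preB 𝒪 htM ψ.2 := rfl

variable (hpr : ∀ ℓ, (pr ℓ).Prime) (hprM : ∀ ℓ, ¬ pr ℓ ∣ M₁ * t)

include hpr hprM

theorem twe_oim_preA_T (ℓ : L) (ψ : gh_H M₁ →+ 𝒪) :
    twe_oim_preA 𝒪 M₁ t (twe_oim_T 𝒪 pr M₁ ℓ ψ) =
      twe_oim_T 𝒪 pr (M₁ * t) ℓ (twe_oim_preA 𝒪 M₁ t ψ) := by
  haveI : Fact (pr ℓ).Prime := ⟨hpr ℓ⟩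
  have h1 : twe_oim_T 𝒪 pr M₁ ℓ ψ = ψ.comp (t2e_TH (twe_oim_not_dvd (hprM ℓ))) :=
    lrtop_ha_pre_eq_TH 𝒪 (twe_oim_not_dvd (hprM ℓ)) ψ
  have h2 : twe_oim_T 𝒪 pr (M₁ * t) ℓ (twe_oim_preA 𝒪 M₁ t ψ) =
      (twe_oim_preA 𝒪 M₁ t ψ).comp (t2e_TH (hprM ℓ)) :=
    lrtop_ha_pre_eq_TH 𝒪 (hprM ℓ) _
  rw [h1, h2]
  show (ψ.comp (t2e_TH _)).comp (lrh_A M₁ t) = (ψ.comp (lrh_A M₁ t)).comp (t2e_TH _)
  rw [AddMonoidHom.comp_assoc, AddMonoidHom.comp_assoc,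
    lre_A_TH (twe_oim_not_dvd (hprM ℓ)) (hprM ℓ)]

theorem twe_oim_preB_T (ℓ : L) (ψ : gh_H M₁ →+ 𝒪) :
    twe_oim_preB 𝒪 htM (twe_oim_T 𝒪 pr M₁ ℓ ψ) =
      twe_oim_T 𝒪 pr (M₁ * t) ℓ (twe_oim_preB 𝒪 htM ψ) := by
  haveI : Fact (pr ℓ).Prime := ⟨hpr ℓ⟩
  have h1 : twe_oim_T 𝒪 pr M₁ ℓ ψ = ψ.comp (t2e_TH (twe_oim_not_dvd (hprM ℓ))) :=
    lrtop_ha_pre_eq_TH 𝒪 (twe_oim_not_dvd (hprM ℓ)) ψ
  have h2 : twe_oim_T 𝒪 pr (M₁ * t) ℓ (twe_oim_preB 𝒪 htM ψ) =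
      (twe_oim_preB 𝒪 htM ψ).comp (t2e_TH (hprM ℓ)) :=
    lrtop_ha_pre_eq_TH 𝒪 (hprM ℓ) _
  rw [h1, h2]
  show (ψ.comp (t2e_TH _)).comp (lrh_B htM) = (ψ.comp (lrh_B htM)).comp (t2e_TH _)
  rw [AddMonoidHom.comp_assoc, AddMonoidHom.comp_assoc,
    lre_B_TH htM (twe_oim_not_dvd (hprM ℓ)) (hprM ℓ)]

theorem twe_oim_preA_mem {ψ : gh_H M₁ →+ 𝒪} (hψ : ψ ∈ twe_oim_P pr a M₁) :
    twe_oim_preA 𝒪 M₁ t ψ ∈ twe_oim_P pr a (M₁ * t) :=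
  twe_pr_map_prim (twe_oim_preA 𝒪 M₁ t) (twe_oim_T 𝒪 pr M₁) (twe_oim_T 𝒪 pr (M₁ * t))
    (fun ℓ x => twe_oim_preA_T pr hpr hprM ℓ x) a hψ

theorem twe_oim_preB_mem {ψ : gh_H M₁ →+ 𝒪} (hψ : ψ ∈ twe_oim_P pr a M₁) :
    twe_oim_preB 𝒪 htM ψ ∈ twe_oim_P pr a (M₁ * t) :=
  twe_pr_map_prim (twe_oim_preB 𝒪 htM) (twe_oim_T 𝒪 pr M₁) (twe_oim_T 𝒪 pr (M₁ * t))
    (fun ℓ x => twe_oim_preB_T pr htM hpr hprM ℓ x) a hψ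

/-- `lrh_i` maps `P(M₁)²` into `P(M₁ t)`. -/
theorem twe_oim_i_mem {ψ₁ ψ₂ : gh_H M₁ →+ 𝒪} (h1 : ψ₁ ∈ twe_oim_P pr a M₁)
    (h2 : ψ₂ ∈ twe_oim_P pr a M₁) : lrh_i htM 𝒪 (ψ₁, ψ₂) ∈ twe_oim_P pr a (M₁ * t) := by
  rw [twe_oim_i_eq]
  exact Submodule.add_mem _ (twe_oim_preA_mem pr a hpr hprM h1)
    (twe_oim_preB_mem pr a htM hpr hprM h2)

/-- the restriction of `lrh_i` to the primary parts. -/
def twe_oim_i : ↥(twe_oim_P pr a M₁) × ↥(twe_oim_P pr a M₁) →ₗ[𝒪] ↥(twe_oim_P pr a (M₁ * t)) where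
  toFun x := ⟨lrh_i htM 𝒪 ((x.1 : gh_H M₁ →+ 𝒪), (x.2 : gh_H M₁ →+ 𝒪)),
    twe_oim_i_mem pr a htM hpr hprM x.1.2 x.2.2⟩
  map_add' x y := Subtype.ext (by
    show lrh_i htM 𝒪 _ = lrh_i htM 𝒪 _ + lrh_i htM 𝒪 _
    rw [← map_add]
    rfl)
  map_smul' c x := Subtype.ext (by
    show lrh_i htM 𝒪 _ = c • lrh_i htM 𝒪 _
    rw [twe_oim_i_eq, twe_oim_i_eq]
    show twe_oim_preA 𝒪 M₁ t (c • (x.1 : gh_H M₁ →+ 𝒪)) +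
      twe_oim_preB 𝒪 htM (c • (x.2 : gh_H M₁ →+ 𝒪)) = _
    rw [map_smul, map_smul, smul_add])

theorem twe_oim_i_coe (x : ↥(twe_oim_P pr a M₁) × ↥(twe_oim_P pr a M₁)) :
    ((twe_oim_i pr a htM hpr hprM x : ↥(twe_oim_P pr a (M₁ * t))) : gh_H (M₁ * t) →+ 𝒪) =
      lrh_i htM 𝒪 ((x.1 : gh_H M₁ →+ 𝒪), (x.2 : gh_H M₁ →+ 𝒪)) := rfl

/-- Hecke-equivariance of the restricted `lrh_i`. -/
theorem twe_oim_i_T [NoZeroSMulDivisors ℕ 𝒪] (ℓ : L)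
    (x : ↥(twe_oim_P pr a M₁) × ↥(twe_oim_P pr a M₁)) :
    twe_oim_TP pr a (M₁ * t) ℓ (twe_oim_i pr a htM hpr hprM x) =
      twe_oim_i pr a htM hpr hprM (twe_oim_TP pr a M₁ ℓ x.1, twe_oim_TP pr a M₁ ℓ x.2) := by
  apply Subtype.ext
  rw [twe_oim_TP_coe, twe_oim_i_coe, twe_oim_i_coe, twe_oim_TP_coe, twe_oim_TP_coe,
    twe_oim_i_eq, twe_oim_i_eq]
  show twe_oim_T 𝒪 pr (M₁ * t) ℓ (twe_oim_preA 𝒪 M₁ t (x.1 : gh_H M₁ →+ 𝒪) +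
      twe_oim_preB 𝒪 htM (x.2 : gh_H M₁ →+ 𝒪)) =
    twe_oim_preA 𝒪 M₁ t (twe_oim_T 𝒪 pr M₁ ℓ (x.1 : gh_H M₁ →+ 𝒪)) +
      twe_oim_preB 𝒪 htM (twe_oim_T 𝒪 pr M₁ ℓ (x.2 : gh_H M₁ →+ 𝒪))
  rw [map_add, twe_oim_preA_T pr hpr hprM, twe_oim_preB_T pr htM hpr hprM]

/-- bijectivity of the restricted `lrh_i` from the conclusion of `twe_old_split`. -/
theorem twe_oim_i_bijective
    (hinj : ∀ ψ₁ ∈ twe_oim_P pr a M₁, ∀ ψ₂ ∈ twe_oim_P pr a M₁,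
      lrh_i htM 𝒪 (ψ₁, ψ₂) = 0 → ψ₁ = 0 ∧ ψ₂ = 0)
    (hsurj : ∀ φ ∈ twe_oim_P pr a (M₁ * t), ∃ ψ₁ ∈ twe_oim_P pr a M₁,
      ∃ ψ₂ ∈ twe_oim_P pr a M₁, lrh_i htM 𝒪 (ψ₁, ψ₂) = φ) :
    Function.Bijective (twe_oim_i pr a htM hpr hprM) := by
  constructor
  · rw [injective_iff_map_eq_zero]
    intro x hx
    have h0 : lrh_i htM 𝒪 ((x.1 : gh_H M₁ →+ 𝒪), (x.2 : gh_H M₁ →+ 𝒪)) = 0 := by
      rw [← twe_oim_i_coe pr a htM hpr hprM, hx]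
      rfl
    obtain ⟨h1, h2⟩ := hinj _ x.1.2 _ x.2.2 h0
    exact Prod.ext (Subtype.ext h1) (Subtype.ext h2)
  · intro φ
    obtain ⟨ψ₁, h1, ψ₂, h2, h⟩ := hsurj _ φ.2
    exact ⟨(⟨ψ₁, h1⟩, ⟨ψ₂, h2⟩), Subtype.ext h⟩

end oneprime

/-- **E/OldIter, concrete.**  `N ≠ 0`, `Q` a set of primes not dividing `N`, `pr : L → ℕ` primes not
dividing `N ∏_{t ∈ Q} t`.  If for every `insert t s ⊆ Q`, `t ∉ s` the map `lrh_i` at the level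
`M₁ = N ∏_{x ∈ s} x` and the prime `t` is injective on `P(M₁)²` and onto `P(M₁ t)` (the conclusion
of the one-prime theorem `twe_old_split`), then `P(N ∏_{t ∈ Q} t) ≅ (Fin (2^|Q|) → P(N))`,
`𝒪`-linearly and compatibly with all `T_{pr ℓ}`. -/
theorem twe_oim_main [NoZeroSMulDivisors ℕ 𝒪] (N : ℕ) [NeZero N] (Q : Finset ℕ)
    (hQ : ∀ t ∈ Q, t.Prime) (hQN : ∀ t ∈ Q, ¬ t ∣ N) (hpr : ∀ ℓ, (pr ℓ).Prime)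
    (hprN : ∀ ℓ, ¬ pr ℓ ∣ N * ∏ x ∈ Q, x)
    (hone : ∀ (s : Finset ℕ) (t : ℕ), insert t s ⊆ Q → t ∉ s →
      ∀ [Fact t.Prime] (htM : ¬ t ∣ N * ∏ x ∈ s, x),
        (∀ ψ₁ ∈ twe_oim_P pr a (N * ∏ x ∈ s, x), ∀ ψ₂ ∈ twe_oim_P pr a (N * ∏ x ∈ s, x),
          lrh_i htM 𝒪 (ψ₁, ψ₂) = 0 → ψ₁ = 0 ∧ ψ₂ = 0) ∧
        ∀ φ ∈ twe_oim_P pr a ((N * ∏ x ∈ s, x) * t),
          ∃ ψ₁ ∈ twe_oim_P pr a (N * ∏ x ∈ s, x), ∃ ψ₂ ∈ twe_oim_P pr a (N * ∏ x ∈ s, x),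
            lrh_i htM 𝒪 (ψ₁, ψ₂) = φ) :
    ∃ c : ↥(twe_oim_P pr a (N * ∏ x ∈ Q, x)) →ₗ[𝒪] (Fin (2 ^ Q.card) → ↥(twe_oim_P pr a N)),
      Function.Bijective c ∧
      ∀ (ℓ : L) (x : ↥(twe_oim_P pr a (N * ∏ x ∈ Q, x))) (k : Fin (2 ^ Q.card)),
        c (twe_oim_TP pr a _ ℓ x) k = twe_oim_TP pr a N ℓ (c x k) := by
  classical
  let good : ℕ → ℕ → Prop := fun M₁ t =>
    M₁ ≠ 0 ∧ t.Prime ∧ ¬ t ∣ M₁ ∧ (∀ ℓ, ¬ pr ℓ ∣ M₁ * t) ∧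
      ∀ [Fact t.Prime] (htM : ¬ t ∣ M₁),
        (∀ ψ₁ ∈ twe_oim_P pr a M₁, ∀ ψ₂ ∈ twe_oim_P pr a M₁,
          lrh_i htM 𝒪 (ψ₁, ψ₂) = 0 → ψ₁ = 0 ∧ ψ₂ = 0) ∧
        ∀ φ ∈ twe_oim_P pr a (M₁ * t), ∃ ψ₁ ∈ twe_oim_P pr a M₁, ∃ ψ₂ ∈ twe_oim_P pr a M₁,
          lrh_i htM 𝒪 (ψ₁, ψ₂) = φ
  have hgood : ∀ (s : Finset ℕ) (t : ℕ), insert t s ⊆ Q → t ∉ s →
      good (N * ∏ x ∈ s, x) t := by
    intro s t hs ht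
    have htQ : t ∈ Q := hs (Finset.mem_insert_self t s)
    have hsQ : s ⊆ Q := (Finset.subset_insert t s).trans hs
    have htp : t.Prime := hQ t htQ
    refine ⟨?_, htp, ?_, ?_, fun htM => hone s t hs ht htM⟩
    · refine mul_ne_zero (NeZero.ne N) (Finset.prod_ne_zero_iff.mpr fun x hx => ?_)
      exact (hQ x (hsQ hx)).ne_zero
    · intro hdvd
      rcases (Nat.Prime.dvd_mul htp).mp hdvd with h | h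
      · exact hQN t htQ h
      · obtain ⟨x, hx, hxt⟩ := (Prime.dvd_finsetProd_iff htp.prime _).mp h
        have : t = x := (Nat.prime_dvd_prime_iff_eq htp (hQ x (hsQ hx))).mp hxt
        exact ht (this ▸ hx)
    · intro ℓ hdvd
      apply hprN ℓ
      refine hdvd.trans ?_
      have h1 : (N * ∏ x ∈ s, x) * t = N * ∏ x ∈ insert t s, x := by
        rw [Finset.prod_insert ht]; ring
      rw [h1]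
      exact mul_dvd_mul_left N (Finset.prod_dvd_prod_of_subset _ _ _ hs)
  refine twe_oi_iter_nat (R := 𝒪) (fun M => ↥(twe_oim_P pr a M))
    (fun M ℓ => twe_oim_TP pr a M ℓ) N Q good hgood
    (fun M₁ t h =>
      haveI : NeZero M₁ := ⟨h.1⟩
      haveI : Fact t.Prime := ⟨h.2.1⟩
      haveI : NeZero (M₁ * t) := ⟨mul_ne_zero h.1 h.2.1.ne_zero⟩
      twe_oim_i pr a h.2.2.1 hpr h.2.2.2.1) ?_ ?_
  · intro M₁ t h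
    haveI : NeZero M₁ := ⟨h.1⟩
    haveI : Fact t.Prime := ⟨h.2.1⟩
    haveI : NeZero (M₁ * t) := ⟨mul_ne_zero h.1 h.2.1.ne_zero⟩
    exact twe_oim_i_bijective pr a h.2.2.1 hpr h.2.2.2.1 (h.2.2.2.2 h.2.2.1).1
      (h.2.2.2.2 h.2.2.1).2
  · intro M₁ t h ℓ x
    haveI : NeZero M₁ := ⟨h.1⟩
    haveI : Fact t.Prime := ⟨h.2.1⟩
    haveI : NeZero (M₁ * t) := ⟨mul_ne_zero h.1 h.2.1.ne_zero⟩
    exact twe_oim_i_T pr a h.2.2.1 hpr h.2.2.2.1 ℓ x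

/-- **E/OldIter, concrete, in the coordinates of a base package**: if moreover
`ι : 𝒪^d → Hom(H₁(X₀(N)), 𝒪)` is injective with range `P(N)` and intertwines matrices `J ℓ` with the
Hecke operators (the fields `ι`, `ι_injective`, `ι_hecke` of `twe_Base`), then
`P(N ∏_{t ∈ Q} t) ≅ (Fin (2^|Q|) → Fin d → 𝒪)` with `T_{pr ℓ}` acting through `J ℓ` on every copy
(the shape of `twe_Level.c`, `c_hecke`). -/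
theorem twe_oim_main_base [NoZeroSMulDivisors ℕ 𝒪] (N : ℕ) [NeZero N] (Q : Finset ℕ)
    (hQ : ∀ t ∈ Q, t.Prime) (hQN : ∀ t ∈ Q, ¬ t ∣ N) (hpr : ∀ ℓ, (pr ℓ).Prime)
    (hprN : ∀ ℓ, ¬ pr ℓ ∣ N * ∏ x ∈ Q, x)
    (hone : ∀ (s : Finset ℕ) (t : ℕ), insert t s ⊆ Q → t ∉ s →
      ∀ [Fact t.Prime] (htM : ¬ t ∣ N * ∏ x ∈ s, x),
        (∀ ψ₁ ∈ twe_oim_P pr a (N * ∏ x ∈ s, x), ∀ ψ₂ ∈ twe_oim_P pr a (N * ∏ x ∈ s, x),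
          lrh_i htM 𝒪 (ψ₁, ψ₂) = 0 → ψ₁ = 0 ∧ ψ₂ = 0) ∧
        ∀ φ ∈ twe_oim_P pr a ((N * ∏ x ∈ s, x) * t),
          ∃ ψ₁ ∈ twe_oim_P pr a (N * ∏ x ∈ s, x), ∃ ψ₂ ∈ twe_oim_P pr a (N * ∏ x ∈ s, x),
            lrh_i htM 𝒪 (ψ₁, ψ₂) = φ)
    {d : ℕ} (ι : (Fin d → 𝒪) →ₗ[𝒪] (gh_H N →+ 𝒪)) (hι : Function.Injective ι)
    (hrange : LinearMap.range ι = twe_oim_P pr a N)
    (J : L → Matrix (Fin d) (Fin d) 𝒪)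
    (hJ : ∀ (ℓ : L) (v : Fin d → 𝒪),
      ι ((J ℓ).mulVec v) = (ι v).comp (t2f_TH N (pr ℓ)).toAddMonoidHom) :
    ∃ c : ↥(twe_oim_P pr a (N * ∏ x ∈ Q, x)) →ₗ[𝒪] (Fin (2 ^ Q.card) → Fin d → 𝒪),
      Function.Bijective c ∧
      ∀ (ℓ : L) (x : ↥(twe_oim_P pr a (N * ∏ x ∈ Q, x))) (k : Fin (2 ^ Q.card)),
        c (twe_oim_TP pr a _ ℓ x) k = (J ℓ).mulVec (c x k) := by
  obtain ⟨c, hc, hcT⟩ := twe_oim_main pr a N Q hQ hQN hpr hprN hone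
  have hmem : ∀ v, ι v ∈ twe_oim_P pr a N := by
    intro v
    rw [← hrange]
    exact LinearMap.mem_range_self ι v
  let e0 : (Fin d → 𝒪) →ₗ[𝒪] ↥(twe_oim_P pr a N) := ι.codRestrict _ hmem
  have he0 : Function.Bijective e0 := by
    constructor
    · intro v w hvw
      exact hι (congrArg Subtype.val hvw)
    · intro y
      have hy : (y : gh_H N →+ 𝒪) ∈ LinearMap.range ι := by
        rw [hrange]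
        exact y.2
      obtain ⟨v, hv⟩ := hy
      exact ⟨v, Subtype.ext hv⟩
  let e : (Fin d → 𝒪) ≃ₗ[𝒪] ↥(twe_oim_P pr a N) := LinearEquiv.ofBijective e0 he0
  have heT : ∀ (ℓ : L) (v : Fin d → 𝒪), twe_oim_TP pr a N ℓ (e v) = e ((J ℓ).mulVec v) := by
    intro ℓ v
    apply Subtype.ext
    rw [twe_oim_TP_coe]
    exact (hJ ℓ v).symm
  have heT' : ∀ (ℓ : L) (y : ↥(twe_oim_P pr a N)),
      e.symm (twe_oim_TP pr a N ℓ y) = (J ℓ).mulVec (e.symm y) := by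
    intro ℓ y
    obtain ⟨v, rfl⟩ := e.surjective y
    rw [heT, e.symm_apply_apply, e.symm_apply_apply]
  refine ⟨(LinearMap.pi fun k => e.symm.toLinearMap ∘ₗ LinearMap.proj k) ∘ₗ c, ⟨?_, ?_⟩, ?_⟩
  · intro x y hxy
    apply hc.1
    funext k
    apply e.symm.injective
    exact congrFun hxy k
  · intro f
    obtain ⟨x, hx⟩ := hc.2 fun k => e (f k)
    refine ⟨x, funext fun k => ?_⟩
    show e.symm (c x k) = f k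
    rw [hx, e.symm_apply_apply]
  · intro ℓ x k
    show e.symm (c (twe_oim_TP pr a _ ℓ x) k) = (J ℓ).mulVec (e.symm (c x k))
    rw [hcT, heT']

end Fermat.Agent.TW
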