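/-
Project ONE MACHINE (S43), block [E] AUT, cell (C5) of the E/Seam table v4 (helper2; prefix `twe_ois_`).

`twe_sm_OldIter_stmt` (`TW/Aut/SeamDefs.lean`, helper3) from the ONE-PRIME statement
`twe_ois_One_stmt` (the conclusion of `twe_old_split` at every intermediate level `N ∏_{x ∈ s} x`,
`insert t s ⊆ Q`, in the SAME vocabulary `twe_pr_prim (twe_sm_TX 𝒪 M q) a`), via `twe_oim_main`.
-/
import Mathlib
import Fermat.Agent.TW.Aut.SeamDefs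
import Fermat.Agent.TW.Aut.OldIterMain

set_option autoImplicit false
set_option linter.unusedSectionVars false
set_option linter.unusedVariables false
set_option linter.style.haveILetI false

noncomputable section

namespace Fermat.Agent.TW

open Polynomial CuspForm IsLocalRing Fermat.Agent.JT3 Fermat.Agent.LR

/-- **the one-prime E/Old statement along a Taylor–Wiles set** (what `OldMain` must deliver): in the
context of `twe_sm_OldIter_stmt`, for `insert t s ⊆ Q`, `t ∉ s`, `M₁ = N ∏_{x ∈ s} x`, the map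
`lrh_i` is injective on `P(M₁)²` and onto `P(M₁ t)`, `P(M) = twe_pr_prim (twe_sm_TX 𝒪 M q) a`. -/
def twe_ois_One_stmt : Prop :=
  ∀ (p : ℕ) [Fact p.Prime], 5 ≤ p →
  ∀ (𝒪 : Type) [CommRing 𝒪] [IsDomain 𝒪] [IsDiscreteValuationRing 𝒪]
    [IsAdicComplete (maximalIdeal 𝒪) 𝒪] [Finite (ResidueField 𝒪)] [CharZero 𝒪],
    (p : 𝒪) ∈ maximalIdeal 𝒪 →
  ∀ (N : ℕ) [NeZero N], Squarefree N → ¬ p ∣ N →
  ∀ (S : Finset ℕ), p ∈ S → (∀ ℓ : ℕ, ℓ.Prime → ℓ ∣ N → ℓ ∈ S) →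
  ∀ (θ : heckeAlgebra N 2 (↑S : Set ℕ) →+* ResidueField 𝒪)
    (ρbar : ResidualGaloisRep (ResidueField 𝒪)),
    twt_Compat θ ρbar → ρbar.IsAbsolutelyIrreducible →
  ∀ (Q : Finset ℕ), (∀ t ∈ Q, t ∉ S) → twe_IsTWSet θ p Q →
  ∀ {I : Type} (q : I → ℕ) (hq : ∀ i, pk_Good N (S ∪ Q) (q i)),
    (∀ ℓ, pk_Good N (S ∪ Q) ℓ → ∃ i, q i = ℓ) →
  ∀ (a : I → 𝒪),
    (∀ i, residue 𝒪 (a i) = θ (heckeAlgebra.T (hq i).1 (hq i).2.1
      (fun h => (hq i).2.2 (Finset.coe_subset.mpr Finset.subset_union_left h)))) →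
  ∀ (s : Finset ℕ) (t : ℕ), insert t s ⊆ Q → t ∉ s →
  ∀ [Fact t.Prime] (htM : ¬ t ∣ N * ∏ x ∈ s, x),
    (∀ ψ₁ ∈ twe_pr_prim (twe_sm_TX 𝒪 (N * ∏ x ∈ s, x) q) a,
      ∀ ψ₂ ∈ twe_pr_prim (twe_sm_TX 𝒪 (N * ∏ x ∈ s, x) q) a,
        lrh_i htM 𝒪 (ψ₁, ψ₂) = 0 → ψ₁ = 0 ∧ ψ₂ = 0) ∧
    ∀ φ ∈ twe_pr_prim (twe_sm_TX 𝒪 ((N * ∏ x ∈ s, x) * t) q) a,
      ∃ ψ₁ ∈ twe_pr_prim (twe_sm_TX 𝒪 (N * ∏ x ∈ s, x) q) a,
        ∃ ψ₂ ∈ twe_pr_prim (twe_sm_TX 𝒪 (N * ∏ x ∈ s, x) q) a, lrh_i htM 𝒪 (ψ₁, ψ₂) = φ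

/-- the two vocabularies agree definitionally. -/
theorem twe_ois_T_eq (𝒪 : Type) [CommRing 𝒪] {I : Type} (q : I → ℕ) (M : ℕ) :
    twe_oim_T 𝒪 q M = twe_sm_TX 𝒪 M q := rfl

theorem twe_ois_P_eq {𝒪 : Type} [CommRing 𝒪] [IsLocalRing 𝒪] {I : Type} (q : I → ℕ) (a : I → 𝒪)
    (M : ℕ) : twe_oim_P q a M = twe_pr_prim (twe_sm_TX 𝒪 M q) a := rfl

/-- **(C5) from the one-prime statement.** -/
theorem twe_ois_of_one (h1 : twe_ois_One_stmt) : twe_sm_OldIter_stmt := by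
  intro p _ hp5 𝒪 _ _ _ _ _ _ hp𝒪 N _ hsq hpN S hpS hNS θ ρbar hcompat hirr Q hQS hTW I q hq hqall
    a ha M _ hM
  subst hM
  have hQ : ∀ t ∈ Q, t.Prime := fun t ht => (hTW t ht).1
  have hQN : ∀ t ∈ Q, ¬ t ∣ N := fun t ht hdvd => hQS t ht (hNS t (hQ t ht) hdvd)
  have hpr : ∀ i, (q i).Prime := fun i => (hq i).1
  have hprN : ∀ i, ¬ q i ∣ N * ∏ x ∈ Q, x := by
    intro i hdvd
    rcases (Nat.Prime.dvd_mul (hpr i)).mp hdvd with h | h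
    · exact (hq i).2.1 h
    · obtain ⟨x, hx, hxt⟩ := (Prime.dvd_finsetProd_iff (hpr i).prime _).mp h
      have hqx : q i = x := (Nat.prime_dvd_prime_iff_eq (hpr i) (hQ x hx)).mp hxt
      exact (hq i).2.2 (Finset.mem_coe.mpr (Finset.mem_union_right S (hqx ▸ hx)))
  obtain ⟨c, hc, hcT⟩ := twe_oim_main q a N Q hQ hQN hpr hprN
    (fun s t hs ht _ htM =>
      h1 p hp5 𝒪 hp𝒪 N hsq hpN S hpS hNS θ ρbar hcompat hirr Q hQS hTW q hq hqall a ha s t hs ht htM)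
  refine ⟨c, hc, ?_⟩
  intro i x y hxy k
  have hy : y = twe_oim_TP q a (N * ∏ x ∈ Q, x) i x :=
    Subtype.ext (hxy.trans (twe_oim_TP_coe q a (N * ∏ x ∈ Q, x) i x).symm)
  have e1 : c y k = twe_oim_TP q a N i (c x k) := hy ▸ hcT i x k
  exact (congrArg Subtype.val e1).trans (twe_oim_TP_coe q a N i (c x k))

end Fermat.Agent.TW
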