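/-
Project ONE MACHINE (S43), block [E] AUT, cell E/Old, Galois half (helper2; prefix `twe_og_`).

"The `t`-new part dies at a Taylor–Wiles maximal ideal", in VECTOR form (no newform hypothesis):
the closed internal seam `s35v_TorT'` of S35 is applied to the vectors of `K ⊗ T_p J₀(N t)` killed by
the two push-forwards `s35p_P1`, `s35p_P2` to level `N`.

* `twe_og_torT'`  : the closed form of `s35v_TorT'` (the proof term of `Fermat.Agent.S35.result`);
* `twe_og_quad`   : the elimination: `φ² - τ φ + t = 0` on a `φ`-stable space containing `u ≠ 0`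
                    with `φ (φ (φ u - u)) = t² (φ u - u)` forces `τ = 1 + t` or `τ = -(1 + t)`;
* `twe_og_core`   : `pku_core_abs` on `eigenspace ⊓ Z` with the Frobenius clause;
* `twe_og_frob`   : the instance `Z = ker P1 ⊓ ker P2` at level `N t`, `t ∤ N`: the representation cut
                    out has `charpoly ρ'(Frob_t) = X² ∓ (t + 1) X + t`;
* `twe_og_main`   : the Betti form (through `twlg_tn_exists`), for ANY `ρ` with the Frobenius
                    characteristic polynomials (`twlg_tr_charpoly_eq`);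
* `twe_og_tw_tate`, `twe_og_tw` : the residual consequence: for `ρbar` over the residue field with
                    `charpoly ρbar(Frob_ℓ) = X² - res(a_ℓ) X + ℓ` at the good primes and
                    `charpoly ρbar(φ_t) = X² - b X + t`: `b² = (t + 1)²`;
* `twe_og_compat` : the same in the vocabulary of the seams (`twt_Compat θ ρbar`):
                    `θ(T_t)² = (t + 1)²`;
* `twe_og_new_zero` : **(H-new)** at a Taylor–Wiles prime (`t ≡ 1 mod p`, `θ(T_t)² ≠ 4`): a Betti class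
                    of level `N t` killed by the two transfers with eigenvalues lifting `θ` is `0`.
-/
import Mathlib
import Fermat.Agent.TW.LG.TateNew
import Fermat.Agent.TW.LG.Transfer
import Fermat.Agent.S36.PackU
import Fermat.Agent.JT3.Tate.Inputs
import Fermat.Agent.S35.Final
import Fermat.Agent.S35.ToricInst.LegNF1
import Fermat.Agent.S35.FinalHes.ToricNF1
import Fermat.Agent.SS2.DescPhi.KeyBar1Leg
import Fermat.Agent.SS2.DescPhi.KeyBar1Hes
import Fermat.Agent.S35.AbelGlue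
import Fermat.Agent.S54.Frobenius
import Fermat.Agent.TW.Top.CoreSeam

set_option autoImplicit false
set_option linter.unusedSectionVars false
set_option linter.unusedVariables false
set_option linter.style.haveILetI false
set_option synthInstance.maxHeartbeats 400000
set_option maxHeartbeats 1000000

noncomputable section

namespace Fermat.Agent.TW

open IsLocalRing TensorProduct Polynomial ModularCurve Fermat.Agent.JT3 Fermat.Agent.S35
  Fermat.Agent.S36 Fermat.Agent.SS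

local notation "GQ" => (AlgebraicClosure ℚ ≃ₐ[ℚ] AlgebraicClosure ℚ)
local notation "Qbar" => AlgebraicClosure ℚ

/-- the closed form of the primed seam [TOR-T'] of S35. -/
theorem twe_og_torT' : s35v_TorT' :=
  s35sk1_torT'
    (s35_keyBar1_of_cores
      (fun N q _ _ _ hq2 hqN h => Fermat.Agent.SS2.ss2_dp_keyBar1 N q hq2 hqN h)
      (fun N q _ _ _ hq3 hqN h => Fermat.Agent.SS2.ss2_dp_keyBar1_hes N q hq3 hqN h)
      (fun N q _ _ _ hq2 hqN =>
        s35_coreNF1_of N q hq2 hqN (s35as_abelNF1_leg N q hq2 hqN (s35ag_famLeg N q hq2))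
          (s35ti_leg_toricNF1 N q hq2 hqN))
      (fun N q _ _ _ hq3 hqN =>
        s35h_coreNF1_of N q hq3 hqN (s35as_abelNF1_hes N q hq3 hqN (s35ag_famHes N q hq3))
          (s35fh_toricNF1 N q hq3 hqN)))

/-- **the elimination**: `Φ² - τ Φ + t = 0` at `u` and at `Φ u`, `u ≠ 0`, and
`Φ (Φ (Φ u - u)) = t² (Φ u - u)` force `τ = 1 + t` or `τ = -(1 + t)`. -/
theorem twe_og_quad {K V : Type*} [Field K] [AddCommGroup V] [Module K V] (Φ : Module.End K V)
    (τ t : K) (ht : t ≠ 0) (u : V) (hu : u ≠ 0)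
    (h1 : Φ (Φ u) - τ • Φ u + t • u = 0)
    (h1' : Φ (Φ (Φ u)) - τ • Φ (Φ u) + t • Φ u = 0)
    (h2 : Φ (Φ (Φ u - u)) = (t ^ 2) • (Φ u - u)) :
    τ = 1 + t ∨ τ = -(1 + t) := by
  have e2 : Φ (Φ u) = τ • Φ u - t • u := by
    rw [← sub_eq_zero, ← h1]; abel
  have e3 : Φ (Φ (Φ u)) = τ • Φ (Φ u) - t • Φ u := by
    rw [← sub_eq_zero, ← h1']; abel
  rw [map_sub, map_sub, e3, e2] at h2
  -- the linear relation
  have key : (τ - (1 + t)) • ((τ + t) • Φ u - t • u) = 0 := by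
    have h3 : τ • (τ • Φ u - t • u) - t • Φ u - (τ • Φ u - t • u) - (t ^ 2) • (Φ u - u) = 0 := by
      rw [h2, sub_self]
    rw [← h3]
    simp only [smul_sub, smul_smul]
    module
  rcases smul_eq_zero.1 key with h | h
  · left
    exact sub_eq_zero.1 h
  · right
    have hs : τ + t ≠ 0 := by
      intro hs
      rw [hs, zero_smul, zero_sub, neg_eq_zero] at h
      rcases smul_eq_zero.1 h with h' | h'
      · exact ht h'
      · exact hu h'
    have hΦ : Φ u = (t / (τ + t)) • u := by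
      have h4 : (τ + t) • Φ u = t • u := sub_eq_zero.1 h
      rw [div_eq_inv_mul, ← smul_smul, ← h4, smul_smul, inv_mul_cancel₀ hs, one_smul]
    have h5 : ((t / (τ + t)) ^ 2 - τ * (t / (τ + t)) + t) • u = 0 := by
      have h6 := h1
      rw [hΦ, map_smul, hΦ] at h6
      rw [← h6]
      simp only [smul_smul]
      module
    have h7 : (t / (τ + t)) ^ 2 - τ * (t / (τ + t)) + t = 0 := by
      rcases smul_eq_zero.1 h5 with h' | h'
      · exact h'
      · exact absurd h' hu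
    have h8 : t * (t * (1 + τ + t)) = 0 := by
      field_simp at h7
      linear_combination h7
    rcases mul_eq_zero.1 h8 with h' | h'
    · exact absurd h' ht
    · rcases mul_eq_zero.1 h' with h'' | h''
      · exact absurd h'' ht
      · linear_combination h''

section core

variable (p : ℕ) [Fact p.Prime] (N : ℕ) (S : Finset ℕ)
  {Tp : Type} [AddCommGroup Tp] [Module ℤ_[p] Tp] [Module.Free ℤ_[p] Tp] [Module.Finite ℤ_[p] Tp]
  (ρ : GQ →* Module.End ℤ_[p] Tp) (Tl : ℕ → Module.End ℤ_[p] Tp)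
  (O : Type) [CommRing O] [IsDomain O] [IsDiscreteValuationRing O]
  [IsAdicComplete (maximalIdeal O) O] [CharZero O] [Algebra ℤ_[p] O]
  (K : Type) [Field K] [Algebra O K] [IsFractionRing O K] [Algebra ℤ_[p] K]
  [IsScalarTower ℤ_[p] O K]

/-- **The packaging theorem with the Frobenius clause of S35, relative to a stable subspace `Z`.** -/
theorem twe_og_core (hpS : p ∈ S) (hNS : ∀ q : ℕ, q.Prime → q ∣ N → q ∈ S)
    (cont : GaloisActionIsAdicContinuous ℤ_[p] ρ)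
    (unram : ∀ q : ℕ, q.Prime → ¬ q ∣ N → q ≠ p → ∀ P : ValuationSubring Qbar,
      P.LiesOverPrime q → ∀ σ ∈ P.inertiaSubgroupIn ℚ, ρ σ = 1)
    (Tl_ρ : ∀ (ℓ : ℕ) (σ : GQ), Commute (Tl ℓ) (ρ σ))
    (frob : ∀ ℓ : ℕ, pk_Good N S ℓ → ∀ A : ValuationSubring Qbar, A.LiesOverPrime ℓ →
      ∀ φ : GQ, A.IsFrobeniusAt φ ℓ → ρ φ * ρ φ - Tl ℓ * ρ φ + (ℓ : ℤ_[p]) • 1 = 0)
    (hp : (p : O) ∈ maximalIdeal O) (a : ℕ → O)
    (Z : Submodule K (K ⊗[ℤ_[p]] Tp)) (hZst : ∀ σ, Z ≤ Z.comap (pk_bc K ρ σ))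
    (hev : ∃ v : K ⊗[ℤ_[p]] Tp, v ≠ 0 ∧ v ∈ Z ∧
      ∀ ℓ, pk_Good N S ℓ → (Tl ℓ).baseChange K v = algebraMap O K (a ℓ) • v) :
    ∃ ρ' : GaloisRepAdic O,
      (∀ ℓ : ℕ, pk_Good N S ℓ → ∀ A : ValuationSubring Qbar, A.LiesOverPrime ℓ →
        ∀ φ : GQ, A.IsFrobeniusAt φ ℓ →
          LinearMap.charpoly (ρ'.ρ φ) = X ^ 2 - C (a ℓ) * X + C ((ℓ : O))) ∧
      (∀ q : ℕ, q.Prime → ¬ q ∣ N → q ≠ p → ρ'.IsUnramifiedAt q) ∧
      (∀ q : ℕ, q.Prime → q ≠ p → ∀ A : ValuationSubring Qbar, A.LiesOverPrime q →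
        ∀ φ : GQ, A.IsFrobeniusAt φ q →
        (∀ s ∈ A.inertiaSubgroupIn ℚ, (ρ s - 1) * (ρ s - 1) = 0) →
        (∀ w : K ⊗[ℤ_[p]] Tp, w ∈ Z →
          (∀ s ∈ A.inertiaSubgroupIn ℚ, (ρ s).baseChange K w = w) →
          (ρ φ).baseChange K ((ρ φ).baseChange K ((ρ φ).baseChange K w - w)) =
            ((q : K) ^ 2) • ((ρ φ).baseChange K w - w)) →
        (LinearMap.charpoly (ρ'.ρ φ) = X ^ 2 - C ((q : O) + 1) * X + C ((q : O)) ∨
          LinearMap.charpoly (ρ'.ρ φ) = X ^ 2 + C ((q : O) + 1) * X + C ((q : O)))) := by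
  have hinjK : Function.Injective (algebraMap O K) := IsFractionRing.injective O K
  have : CharZero K := charZero_of_injective_algebraMap hinjK
  have : IsLocalHom (algebraMap ℤ_[p] O) := pk_isLocalHom_padic p hp _
  have hW0 : pk_eigenspace p N S Tl O K a ⊓ Z ≠ ⊥ := by
    obtain ⟨v, hv0, hvZ, hv⟩ := hev
    intro h
    apply hv0
    have : v ∈ pk_eigenspace p N S Tl O K a ⊓ Z := ⟨hv, hvZ⟩
    rw [h, Submodule.mem_bot] at this
    exact this
  obtain ⟨ρ', U, hUW, hU0, hUst, h1, h2, h3⟩ := pku_core_abs p N S hpS hNS hp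
    (pkb_iota ℤ_[p] O K Tp)
    (pkb_iota_isBaseChange ℤ_[p] O K Tp) (pk_iota_injective ℤ_[p] O K Tp hinjK)
    (pk_le_span_lat ℤ_[p] O K Tp) (pk_bc O ρ) (pk_bc K ρ)
    (fun σ m => pkb_iota_baseChange ℤ_[p] O K Tp (ρ σ) m)
    (pk_adicContinuous_bc ρ cont)
    (fun q hq hqN hqp P hP σ hσ => by
      rw [pk_bc_apply, unram q hq hqN hqp P hP σ hσ, LinearMap.baseChange_one])
    a (pk_eigenspace p N S Tl O K a ⊓ Z) hW0
    (fun σ u hu => ⟨pk_eigenspace_stable p N S ρ Tl O K Tl_ρ a σ hu.1, hZst σ hu.2⟩)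
    (fun ℓ hℓ A hA φ hφ u hu =>
      pk_frob_eigenspace p N S ρ Tl O K a hℓ φ Tl_ρ (frob ℓ hℓ A hA φ hφ) u hu.1)
  refine ⟨ρ', h1, h2, fun q hq hqp A hA φ hφ hunip hTor => ?_⟩
  -- the relation `(s - 1)² = 0` on `U` for `s ∈ I_A`
  have hrel : ∀ s ∈ A.inertiaSubgroupIn ℚ, ∀ u ∈ U,
      pk_bc K ρ s (pk_bc K ρ s u) - (2 : K) • pk_bc K ρ s u + u = 0 := by
    intro s hs u hu
    have h4 := congrArg (fun f : Module.End ℤ_[p] Tp => f.baseChange K u) (hunip s hs)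
    simp only [LinearMap.baseChange_zero, LinearMap.zero_apply] at h4
    rw [Module.End.mul_eq_comp, LinearMap.baseChange_comp, LinearMap.baseChange_sub,
      Module.End.one_eq_id, LinearMap.baseChange_id] at h4
    simp only [LinearMap.comp_apply, LinearMap.sub_apply, LinearMap.id_apply, map_sub] at h4
    rw [pk_bc_apply, ← h4, two_smul]
    abel
  obtain ⟨u, huU, hu0, hfix⟩ := pku_fixed_of_rel (pk_bc K ρ) U hUst two_ne_zero hU0
    (A.inertiaSubgroupIn ℚ) hrel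
  obtain ⟨τ, hchar, hrelU⟩ := h3 φ
  have hε : cya_eps p O hp φ = (q : O) := cya_eps_frob p O hp hq hqp A hA φ hφ
  have hq0 : (q : K) ≠ 0 := Nat.cast_ne_zero.2 hq.ne_zero
  have hT := hTor u (hUW huU).2 (fun s hs => hfix s hs)
  have hΦu : pk_bc K ρ φ u ∈ U := hUst φ huU
  have r1 := hrelU u huU
  have r2 := hrelU _ hΦu
  rw [hε, map_natCast] at r1 r2
  have hquad := twe_og_quad (pk_bc K ρ φ) (algebraMap O K τ) (q : K) hq0 u hu0 r1 r2 hT
  rw [hε] at hchar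
  rcases hquad with h | h
  · left
    have hτ : τ = (q : O) + 1 := by
      apply hinjK
      rw [h, map_add, map_one, map_natCast, add_comm]
    rw [hchar, hτ]
  · right
    have hτ : τ = -((q : O) + 1) := by
      apply hinjK
      rw [h, map_neg, map_add, map_one, map_natCast, add_comm]
    rw [hchar, hτ, map_neg, neg_mul, sub_neg_eq_add]

end core

section main

variable (N t p : ℕ) [NeZero N] [NeZero t] [Fact p.Prime] (S : Finset ℕ)
  (O : Type) [CommRing O] [IsDomain O] [IsDiscreteValuationRing O]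
  [IsAdicComplete (maximalIdeal O) O] [CharZero O] [Algebra ℤ_[p] O]
  (K : Type) [Field K] [Algebra O K] [IsFractionRing O K] [Algebra ℤ_[p] K]
  [IsScalarTower ℤ_[p] O K]

/-- **E/Old, Galois half, Tate form.** `t ∤ N` prime, `t ≠ p`.  If `K ⊗ T_p J₀(N t)` contains a
nonzero simultaneous eigenvector of the good Hecke operators (eigenvalues `a ℓ`) which is killed by the
two push-forwards to level `N`, then there is a `p`-adic Galois representation `ρ'` over `O` with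
`charpoly ρ'(Frob_ℓ) = X² - a_ℓ X + ℓ` at the good primes, unramified outside `N t p`, with
`charpoly ρ'(φ) = X² ∓ (t + 1) X + t` for every Frobenius element `φ` at `t`. -/
theorem twe_og_frob (hpS : p ∈ S) (hNS : ∀ r : ℕ, r.Prime → r ∣ N * t → r ∈ S)
    (ht : t.Prime) (htp : t ≠ p) (htN : ¬ t ∣ N)
    (hp : (p : O) ∈ maximalIdeal O) (a : ℕ → O)
    (hev : ∃ v : K ⊗[ℤ_[p]] tj_T (N * t) p, v ≠ 0 ∧
      (∀ ℓ, pk_Good (N * t) S ℓ →
        (tjp_Tl (N * t) p S ℓ).baseChange K v = algebraMap O K (a ℓ) • v) ∧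
      (s35p_P1 N t p).baseChange K v = 0 ∧ (s35p_P2 N t p).baseChange K v = 0) :
    ∃ ρ' : GaloisRepAdic O,
      (∀ ℓ : ℕ, pk_Good (N * t) S ℓ → ∀ A : ValuationSubring Qbar, A.LiesOverPrime ℓ →
        ∀ φ : GQ, A.IsFrobeniusAt φ ℓ →
          LinearMap.charpoly (ρ'.ρ φ) = X ^ 2 - C (a ℓ) * X + C ((ℓ : O))) ∧
      (∀ r : ℕ, r.Prime → ¬ r ∣ N * t → r ≠ p → ρ'.IsUnramifiedAt r) ∧
      (∀ A : ValuationSubring Qbar, A.LiesOverPrime t → ∀ φ : GQ, A.IsFrobeniusAt φ t →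
        (LinearMap.charpoly (ρ'.ρ φ) = X ^ 2 - C ((t : O) + 1) * X + C ((t : O)) ∨
          LinearMap.charpoly (ρ'.ρ φ) = X ^ 2 + C ((t : O) + 1) * X + C ((t : O)))) := by
  have hinjO : Function.Injective (algebraMap ℤ_[p] O) := pk_padic_injective p (algebraMap ℤ_[p] O)
  have hinj : Function.Injective (algebraMap ℤ_[p] K) := by
    rw [IsScalarTower.algebraMap_eq ℤ_[p] O K]
    exact (IsFractionRing.injective O K).comp hinjO
  have htf : Module.IsTorsionFree ℤ_[p] K := by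
    rw [Module.isTorsionFree_iff_smul_eq_zero]
    intro r m hrm
    rw [Algebra.smul_def, mul_eq_zero] at hrm
    rcases hrm with h0 | h0
    · exact Or.inl (hinj (h0.trans (map_zero _).symm))
    · exact Or.inr h0
  set D : pk_Tate p (N * t) S :=
    tjp_tate (N * t) p S hpS (tji_nodeE (N * t)) (tji_S18 (N * t)) with hD
  set Z : Submodule K (K ⊗[ℤ_[p]] tj_T (N * t) p) :=
    LinearMap.ker ((s35p_P1 N t p).baseChange K) ⊓
      LinearMap.ker ((s35p_P2 N t p).baseChange K) with hZ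
  have hZst : ∀ σ, Z ≤ Z.comap (pk_bc K (tj_rho (N * t) p) σ) := by
    intro σ u hu
    rw [Submodule.mem_comap, pk_bc_apply]
    refine ⟨LinearMap.mem_ker.2 ?_, LinearMap.mem_ker.2 ?_⟩
    · rw [← LinearMap.comp_apply, ← LinearMap.baseChange_comp,
        s35p_P1_rho_comp, LinearMap.baseChange_comp, LinearMap.comp_apply,
        LinearMap.mem_ker.1 hu.1, map_zero]
    · rw [← LinearMap.comp_apply, ← LinearMap.baseChange_comp,
        s35p_P2_rho_comp, LinearMap.baseChange_comp, LinearMap.comp_apply,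
        LinearMap.mem_ker.1 hu.2, map_zero]
  obtain ⟨v, hv0, hv, hv1, hv2⟩ := hev
  obtain ⟨ρ', h1, h2, h3⟩ := twe_og_core p (N * t) S (tj_rho (N * t) p)
    (tjp_Tl (N * t) p S) O K hpS hNS D.cont D.unram D.Tl_ρ D.frob hp a Z hZst
    ⟨v, hv0, ⟨LinearMap.mem_ker.2 hv1, LinearMap.mem_ker.2 hv2⟩, hv⟩
  refine ⟨ρ', h1, h2, fun A hA φ hφ => h3 t ht htp A hA φ hφ ?_ ?_⟩
  · -- unipotent inertia at `t ‖ N t`
    intro s hs
    have hsq : ¬ t ^ 2 ∣ N * t := by
      rintro ⟨c, hc⟩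
      apply htN
      refine ⟨c, ?_⟩
      have h4 : t * N = t * (t * c) := by rw [mul_comm t N, hc]; ring
      exact Nat.eq_of_mul_eq_mul_left ht.pos h4
    exact sst_tate_unip (N * t) p t ht htp (s35_geom_all (N * t) t ht (dvd_mul_left t N) hsq)
      A hA s hs
  · -- the toric relation
    intro w hw hfix
    have key := s35v_plumb (R := ℤ_[p]) (K := K) (s35p_P1 N t p) (s35p_P2 N t p)
      {f | ∃ s ∈ A.inertiaSubgroupIn ℚ, f = tj_rho (N * t) p s} (tj_rho (N * t) p φ)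
      ((t : ℤ_[p]) ^ 2)
      (fun x hx hx1 hx2 => twe_og_torT' N t p ht htp htN A hA φ hφ x
        (fun s hs => hx _ ⟨s, hs, rfl⟩) hx1 hx2)
      w (fun f hf => by
        obtain ⟨s, hs, rfl⟩ := hf
        exact hfix s hs) (LinearMap.mem_ker.1 hw.1) (LinearMap.mem_ker.1 hw.2)
    rw [key, map_pow, map_natCast]


/-- **E/Old, Galois half, Betti form.** `VA VB : gh_H N →+ gh_H (N * t)` two maps which the lattices
intertwine with the push-forwards `s35p_P1`, `s35p_P2` (for `t ∤ N`: `lrh_At`, `lrh_Bt`, cell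
GatewayDegCoprime). A NONZERO Betti class `c : gh_H (N * t) →+ K`, eigenvector of the good Hecke
operators with eigenvalues `a ℓ ∈ O`, killed by `VA` and `VB`: EVERY `ρ : GaloisRepAdic O` with
`charpoly ρ(Frob_ℓ) = X² - a_ℓ X + ℓ` at the good primes has
`charpoly ρ(φ) = X² ∓ (t + 1) X + t` at every Frobenius element `φ` at `t`. -/
theorem twe_og_main (hpS : p ∈ S) (hNS : ∀ r : ℕ, r.Prime → r ∣ N * t → r ∈ S)
    (ht : t.Prime) (htp : t ≠ p) (htN : ¬ t ∣ N)
    (hp : (p : O) ∈ maximalIdeal O)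
    (VA VB : gh_H N →+ gh_H (N * t))
    (hVA : ∀ x : tj_T (N * t) p,
      tjp_lattice N p (s35p_P1 N t p x) = (tjp_lattice (N * t) p x).comp VA)
    (hVB : ∀ x : tj_T (N * t) p,
      tjp_lattice N p (s35p_P2 N t p x) = (tjp_lattice (N * t) p x).comp VB)
    (a : ℕ → O) (c : gh_H (N * t) →+ K) (hc0 : c ≠ 0)
    (hce : ∀ ℓ, pk_Good (N * t) S ℓ → ∀ h,
      c (t2f_TH (N * t) ℓ h) = algebraMap O K (a ℓ) * c h)
    (hcA : ∀ h, c (VA h) = 0) (hcB : ∀ h, c (VB h) = 0)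
    (ρ : GaloisRepAdic O)
    (hρ : ∀ ℓ : ℕ, pk_Good (N * t) S ℓ → ∀ A : ValuationSubring Qbar, A.LiesOverPrime ℓ →
      ∀ φ : GQ, A.IsFrobeniusAt φ ℓ →
        LinearMap.charpoly (ρ.ρ φ) = X ^ 2 - C (a ℓ) * X + C ((ℓ : O))) :
    ∀ A : ValuationSubring Qbar, A.LiesOverPrime t → ∀ φ : GQ, A.IsFrobeniusAt φ t →
      (LinearMap.charpoly (ρ.ρ φ) = X ^ 2 - C ((t : O) + 1) * X + C ((t : O)) ∨
        LinearMap.charpoly (ρ.ρ φ) = X ^ 2 + C ((t : O) + 1) * X + C ((t : O))) := by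
  have hinjO : Function.Injective (algebraMap ℤ_[p] O) := pk_padic_injective p (algebraMap ℤ_[p] O)
  have hinj : Function.Injective (algebraMap ℤ_[p] K) := by
    rw [IsScalarTower.algebraMap_eq ℤ_[p] O K]
    exact (IsFractionRing.injective O K).comp hinjO
  obtain ⟨ρ', h1, -, h3⟩ := twe_og_frob N t p S O K hpS hNS ht htp htN hp a
    (twlg_tn_exists N t p S K hinj VA VB hVA hVB (fun ℓ => algebraMap O K (a ℓ)) c hc0
      hce hcA hcB)
  intro A hA φ hφ
  have heq : LinearMap.charpoly (ρ.ρ φ) = LinearMap.charpoly (ρ'.ρ φ) :=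
    twlg_tr_charpoly_eq ρ ρ' S (fun ℓ hℓ hℓS B hB ψ hψ => by
      have hgood : pk_Good (N * t) S ℓ :=
        ⟨hℓ, fun hdvd => hℓS (hNS ℓ hℓ hdvd), fun h => hℓS (Finset.mem_coe.1 h)⟩
      rw [h1 ℓ hgood B hB ψ hψ, hρ ℓ hgood B hB ψ hψ]) φ
  rw [heq]
  exact h3 A hA φ hφ

end main

section residual

/-- reduction of the characteristic polynomials. -/
theorem twe_og_residual_charpoly {O : Type} [CommRing O] [IsLocalRing O] (ρ' : GaloisRepAdic O)
    (σ : GQ) :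
    LinearMap.charpoly (ρ'.residual.ρ σ) = (LinearMap.charpoly (ρ'.ρ σ)).map (residue O) := by
  change LinearMap.charpoly ((ρ'.ρ σ).baseChange (ResidueField O)) = _
  rw [LinearMap.charpoly_baseChange]
  rfl

/-- two residual representations with the same Frobenius characteristic polynomials outside a
finite set have the same characteristic polynomials everywhere. -/
theorem twe_og_res_charpoly_eq {k : Type} [Field k] (ρ₁ ρ₂ : ResidualGaloisRep k) (S : Finset ℕ)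
    (hfrob : ∀ ℓ : ℕ, ℓ.Prime → ℓ ∉ S → ∀ A : ValuationSubring Qbar, A.LiesOverPrime ℓ →
      ∀ φ : GQ, A.IsFrobeniusAt φ ℓ →
        LinearMap.charpoly (ρ₁.ρ φ) = LinearMap.charpoly (ρ₂.ρ φ))
    (σ : GQ) : LinearMap.charpoly (ρ₁.ρ σ) = LinearMap.charpoly (ρ₂.ρ σ) :=
  twlg_tr_charpoly_eq (GaloisRepAdic.ofResidualGaloisRep ρ₁)
    (GaloisRepAdic.ofResidualGaloisRep ρ₂) S hfrob σ

/-- the linear coefficient of `X² - b X + c`. -/
theorem twe_og_coeff_one {R : Type*} [CommRing R] (b c b' c' : R)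
    (h : (X ^ 2 - C b * X + C c : R[X]) = X ^ 2 - C b' * X + C c') : b = b' := by
  have h1 := congrArg (fun P : R[X] => P.coeff 1) h
  simp only [coeff_add, coeff_sub, coeff_X_pow, coeff_C_mul, coeff_X_one, coeff_C] at h1
  simpa using h1

/-- base change of `X² - b X + c`. -/
theorem twe_og_map_quad {R R' : Type*} [CommRing R] [CommRing R'] (f : R →+* R') (b c : R) :
    (X ^ 2 - C b * X + C c : R[X]).map f = X ^ 2 - C (f b) * X + C (f c) := by
  simp only [Polynomial.map_add, Polynomial.map_sub, Polynomial.map_mul, Polynomial.map_pow,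
    Polynomial.map_X, Polynomial.map_C]

variable (N t p : ℕ) [NeZero N] [NeZero t] [Fact p.Prime] (S : Finset ℕ)
  (O : Type) [CommRing O] [IsDomain O] [IsDiscreteValuationRing O]
  [IsAdicComplete (maximalIdeal O) O] [CharZero O] [Algebra ℤ_[p] O]
  (K : Type) [Field K] [Algebra O K] [IsFractionRing O K] [Algebra ℤ_[p] K]
  [IsScalarTower ℤ_[p] O K]

/-- **E/Old, Galois half, residual form (Tate).** -/
theorem twe_og_tw_tate (hpS : p ∈ S) (hNS : ∀ r : ℕ, r.Prime → r ∣ N * t → r ∈ S)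
    (ht : t.Prime) (htp : t ≠ p) (htN : ¬ t ∣ N)
    (hp : (p : O) ∈ maximalIdeal O) (a : ℕ → O)
    (hev : ∃ v : K ⊗[ℤ_[p]] tj_T (N * t) p, v ≠ 0 ∧
      (∀ ℓ, pk_Good (N * t) S ℓ →
        (tjp_Tl (N * t) p S ℓ).baseChange K v = algebraMap O K (a ℓ) • v) ∧
      (s35p_P1 N t p).baseChange K v = 0 ∧ (s35p_P2 N t p).baseChange K v = 0)
    (ρbar : ResidualGaloisRep (ResidueField O))
    (hρbar : ∀ ℓ : ℕ, pk_Good (N * t) S ℓ → ∀ A : ValuationSubring Qbar, A.LiesOverPrime ℓ →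
      ∀ φ : GQ, A.IsFrobeniusAt φ ℓ →
        LinearMap.charpoly (ρbar.ρ φ) =
          X ^ 2 - C (residue O (a ℓ)) * X + C ((ℓ : ResidueField O)))
    (A : ValuationSubring Qbar) (hA : A.LiesOverPrime t) (φ : GQ) (hφ : A.IsFrobeniusAt φ t)
    (bt : ResidueField O)
    (hbt : LinearMap.charpoly (ρbar.ρ φ) = X ^ 2 - C bt * X + C ((t : ResidueField O))) :
    bt ^ 2 = ((t : ResidueField O) + 1) ^ 2 := by
  obtain ⟨ρ', h1, -, h3⟩ := twe_og_frob N t p S O K hpS hNS ht htp htN hp a hev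
  have heq : LinearMap.charpoly (ρ'.residual.ρ φ) = LinearMap.charpoly (ρbar.ρ φ) :=
    twe_og_res_charpoly_eq ρ'.residual ρbar S (fun ℓ hℓ hℓS B hB ψ hψ => by
      have hgood : pk_Good (N * t) S ℓ :=
        ⟨hℓ, fun hdvd => hℓS (hNS ℓ hℓ hdvd), fun h => hℓS (Finset.mem_coe.1 h)⟩
      rw [twe_og_residual_charpoly, h1 ℓ hgood B hB ψ hψ, hρbar ℓ hgood B hB ψ hψ,
        twe_og_map_quad, map_natCast]) φ
  rw [twe_og_residual_charpoly, hbt] at heq
  rcases h3 A hA φ hφ with h | h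
  · rw [h, twe_og_map_quad, map_natCast] at heq
    have h5 := twe_og_coeff_one _ _ _ _ heq
    rw [← h5, map_add, map_one, map_natCast]
  · have h' : (X ^ 2 + C ((t : O) + 1) * X + C ((t : O)) : O[X]) =
        X ^ 2 - C (-((t : O) + 1)) * X + C ((t : O)) := by
      rw [map_neg, neg_mul, sub_neg_eq_add]
    rw [h, h', twe_og_map_quad, map_natCast] at heq
    have h5 := twe_og_coeff_one _ _ _ _ heq
    rw [← h5, map_neg, map_add, map_one, map_natCast, neg_sq]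

/-- **E/Old, Galois half, residual form (Betti).** -/
theorem twe_og_tw (hpS : p ∈ S) (hNS : ∀ r : ℕ, r.Prime → r ∣ N * t → r ∈ S)
    (ht : t.Prime) (htp : t ≠ p) (htN : ¬ t ∣ N)
    (hp : (p : O) ∈ maximalIdeal O)
    (VA VB : gh_H N →+ gh_H (N * t))
    (hVA : ∀ x : tj_T (N * t) p,
      tjp_lattice N p (s35p_P1 N t p x) = (tjp_lattice (N * t) p x).comp VA)
    (hVB : ∀ x : tj_T (N * t) p,
      tjp_lattice N p (s35p_P2 N t p x) = (tjp_lattice (N * t) p x).comp VB)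
    (a : ℕ → O) (c : gh_H (N * t) →+ K) (hc0 : c ≠ 0)
    (hce : ∀ ℓ, pk_Good (N * t) S ℓ → ∀ h,
      c (t2f_TH (N * t) ℓ h) = algebraMap O K (a ℓ) * c h)
    (hcA : ∀ h, c (VA h) = 0) (hcB : ∀ h, c (VB h) = 0)
    (ρbar : ResidualGaloisRep (ResidueField O))
    (hρbar : ∀ ℓ : ℕ, pk_Good (N * t) S ℓ → ∀ A : ValuationSubring Qbar, A.LiesOverPrime ℓ →
      ∀ φ : GQ, A.IsFrobeniusAt φ ℓ →
        LinearMap.charpoly (ρbar.ρ φ) =
          X ^ 2 - C (residue O (a ℓ)) * X + C ((ℓ : ResidueField O)))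
    (A : ValuationSubring Qbar) (hA : A.LiesOverPrime t) (φ : GQ) (hφ : A.IsFrobeniusAt φ t)
    (bt : ResidueField O)
    (hbt : LinearMap.charpoly (ρbar.ρ φ) = X ^ 2 - C bt * X + C ((t : ResidueField O))) :
    bt ^ 2 = ((t : ResidueField O) + 1) ^ 2 := by
  have hinjO : Function.Injective (algebraMap ℤ_[p] O) := pk_padic_injective p (algebraMap ℤ_[p] O)
  have hinj : Function.Injective (algebraMap ℤ_[p] K) := by
    rw [IsScalarTower.algebraMap_eq ℤ_[p] O K]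
    exact (IsFractionRing.injective O K).comp hinjO
  exact twe_og_tw_tate N t p S O K hpS hNS ht htp htN hp a
    (twlg_tn_exists N t p S K hinj VA VB hVA hVB (fun ℓ => algebraMap O K (a ℓ)) c hc0
      hce hcA hcB) ρbar hρbar A hA φ hφ bt hbt

/-- **E/Old, Galois half, in the vocabulary of the seams.** `θ` an eigensystem mod `p` of some level
`N₀` away from `S₀`, compatible with `ρbar`; `t ∤ N₀`, `t ∉ S₀`. If a NONZERO Betti class of level
`N t` (`t ∤ N`), killed by the two transfers, has good Hecke eigenvalues lifting `θ`, then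
`θ(T_t)² = (t + 1)²`. -/
theorem twe_og_compat (hpS : p ∈ S) (hNS : ∀ r : ℕ, r.Prime → r ∣ N * t → r ∈ S)
    (ht : t.Prime) (htp : t ≠ p) (htN : ¬ t ∣ N)
    (hp : (p : O) ∈ maximalIdeal O)
    (VA VB : gh_H N →+ gh_H (N * t))
    (hVA : ∀ x : tj_T (N * t) p,
      tjp_lattice N p (s35p_P1 N t p x) = (tjp_lattice (N * t) p x).comp VA)
    (hVB : ∀ x : tj_T (N * t) p,
      tjp_lattice N p (s35p_P2 N t p x) = (tjp_lattice (N * t) p x).comp VB)
    (a : ℕ → O) (c : gh_H (N * t) →+ K) (hc0 : c ≠ 0)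
    (hce : ∀ ℓ, pk_Good (N * t) S ℓ → ∀ h,
      c (t2f_TH (N * t) ℓ h) = algebraMap O K (a ℓ) * c h)
    (hcA : ∀ h, c (VA h) = 0) (hcB : ∀ h, c (VB h) = 0)
    {N₀ : ℕ} [NeZero N₀] {S₀ : Finset ℕ}
    (θ : CuspForm.heckeAlgebra N₀ 2 (↑S₀ : Set ℕ) →+* ResidueField O)
    (ρbar : ResidualGaloisRep (ResidueField O)) (hcompat : twt_Compat θ ρbar)
    (hgood : ∀ ℓ, pk_Good (N * t) S ℓ → ¬ ℓ ∣ N₀ ∧ ℓ ∉ (↑S₀ : Set ℕ))
    (ha : ∀ ℓ, pk_Good (N * t) S ℓ → ∀ (hℓ : ℓ.Prime) (h1 : ¬ ℓ ∣ N₀) (h2 : ℓ ∉ (↑S₀ : Set ℕ)),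
      residue O (a ℓ) = θ (CuspForm.heckeAlgebra.T hℓ h1 h2))
    (htN₀ : ¬ t ∣ N₀) (htS₀ : t ∉ (↑S₀ : Set ℕ)) :
    θ (CuspForm.heckeAlgebra.T ht htN₀ htS₀) ^ 2 = ((t : ResidueField O) + 1) ^ 2 := by
  obtain ⟨A, φ, hA, hφ⟩ := Fermat.Agent.S54.exists_isFrobeniusAt ht
  refine twe_og_tw N t p S O K hpS hNS ht htp htN hp VA VB hVA hVB a c hc0 hce hcA hcB ρbar
    (fun ℓ hℓ B hB ψ hψ => ?_) A hA φ hφ _ (hcompat t ht htN₀ htS₀ A hA φ hφ)
  rw [hcompat ℓ hℓ.1 (hgood ℓ hℓ).1 (hgood ℓ hℓ).2 B hB ψ hψ,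
    ha ℓ hℓ hℓ.1 (hgood ℓ hℓ).1 (hgood ℓ hℓ).2]

/-- **(H-new)**: at a Taylor–Wiles prime `t` (`t ≡ 1 mod p`, `θ(T_t)² ≠ 4`) there is NO nonzero
Betti class of level `N t`, killed by the two transfers, whose good Hecke eigenvalues lift `θ`. -/
theorem twe_og_new_zero (hpS : p ∈ S) (hNS : ∀ r : ℕ, r.Prime → r ∣ N * t → r ∈ S)
    (ht : t.Prime) (htp : t ≠ p) (htN : ¬ t ∣ N)
    (hp : (p : O) ∈ maximalIdeal O)
    (VA VB : gh_H N →+ gh_H (N * t))
    (hVA : ∀ x : tj_T (N * t) p,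
      tjp_lattice N p (s35p_P1 N t p x) = (tjp_lattice (N * t) p x).comp VA)
    (hVB : ∀ x : tj_T (N * t) p,
      tjp_lattice N p (s35p_P2 N t p x) = (tjp_lattice (N * t) p x).comp VB)
    {N₀ : ℕ} [NeZero N₀] {S₀ : Finset ℕ}
    (θ : CuspForm.heckeAlgebra N₀ 2 (↑S₀ : Set ℕ) →+* ResidueField O)
    (ρbar : ResidualGaloisRep (ResidueField O)) (hcompat : twt_Compat θ ρbar)
    (hgood : ∀ ℓ, pk_Good (N * t) S ℓ → ¬ ℓ ∣ N₀ ∧ ℓ ∉ (↑S₀ : Set ℕ))
    (htN₀ : ¬ t ∣ N₀) (htS₀ : t ∉ (↑S₀ : Set ℕ)) (htp1 : t % p = 1)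
    (hTW : θ (CuspForm.heckeAlgebra.T ht htN₀ htS₀) ^ 2 ≠ 4)
    (a : ℕ → O)
    (ha : ∀ ℓ, pk_Good (N * t) S ℓ → ∀ (hℓ : ℓ.Prime) (h1 : ¬ ℓ ∣ N₀) (h2 : ℓ ∉ (↑S₀ : Set ℕ)),
      residue O (a ℓ) = θ (CuspForm.heckeAlgebra.T hℓ h1 h2))
    (c : gh_H (N * t) →+ K)
    (hce : ∀ ℓ, pk_Good (N * t) S ℓ → ∀ h,
      c (t2f_TH (N * t) ℓ h) = algebraMap O K (a ℓ) * c h)
    (hcA : ∀ h, c (VA h) = 0) (hcB : ∀ h, c (VB h) = 0) : c = 0 := by
  by_contra hc0
  apply hTW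
  rw [twe_og_compat N t p S O K hpS hNS ht htp htN hp VA VB hVA hVB a c hc0 hce hcA hcB θ ρbar
    hcompat hgood ha htN₀ htS₀]
  have hpk : ((p : ℕ) : ResidueField O) = 0 := by
    rw [← map_natCast (residue O)]
    exact (residue_eq_zero_iff _).2 hp
  have htk : ((t : ℕ) : ResidueField O) = 1 := by
    conv_lhs => rw [← Nat.div_add_mod t p, htp1]
    rw [Nat.cast_add, Nat.cast_mul, hpk, zero_mul, zero_add, Nat.cast_one]
  rw [htk]
  norm_num

end residual

end Fermat.Agent.TW
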