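import Mathlib
import Fermat.Agent.LR.MTX.Homology
import Fermat.Agent.LR.MTX.EquivHom
import Fermat.Agent.TW.LG.EigenInj

/-!
# ONE MACHINE / block [E] AUT, cell E/Old, part (OLD-A) + abstract assembly (helper14).
Prefix `twe_old_`.

Level `M₁`, a prime `t ∤ M₁`.  On main (LR/MTX): `i = lrh_i : Hom(H(M₁), A)² → Hom(H(M₁ t), A)`,
`i† = lrh_idag`, `i† i = [[t+1, T_t], [T_t, t+1]]` (`lrh_matrix`), and `i`, `i†` commute with all
`T_ℓ`, `ℓ ∤ M₁ t` (`lre_i_TH`, `lre_idag_TH`).  This file adds the algebra that turns these into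

  `Hom(H(M₁ t), A)_𝔪 = i (Hom(H(M₁), A)_𝔪 ²)`

for ANY notion of "localisation at `𝔪`" given by subgroups `PA`, `PB` (ranges of idempotents in the
closed Hecke algebras, generalised eigenspaces, …):

* `twe_old_abs` (Mathlib only): `i : A × A →+ B`, `j : B →+ A × A`, `j i = [[c, T], [T, c]]`,
  `PA ≤ A`, `PB ≤ B` preserved by `i`, `j`, `T`; `T² - c²` invertible on `PA` (inverse `D'`
  commuting with `T`); `(N)`: `j` injective on `PB`.  Then `i : PA × PA → PB` is bijective.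
* `twe_old_N_of_eigen` (Mathlib + `TW/LG/EigenInj`): `(N)` from eigenvectors: `X` a finite
  `O`-module embedding into `K ⊗ X` (`K` algebraically closed), `𝒮` a commuting set of
  endomorphisms preserving `P ≤ X` and `ker j`; if NO common eigenvector `v ≠ 0` of `𝒮` lies in
  `K ⊗ (P ⊓ ker j)`, then `j` is injective on `P`.  [The hypothesis is the Galois half of E/Old
  (helper2, `TW/Aut/OldGal.lean`): an eigenclass in `ker i†` whose eigenvalues reduce to `θ` forces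
  `θ(T_t)² = (t+1)²`, excluded at a Taylor–Wiles prime.]
* `twe_old_baseChange_mem` : elements of `(P ⊓ ker j).baseChange K` are killed by `j_K` and fixed
  by `e_K` for every endomorphism `e` fixing `P` pointwise.
* `twe_old_split` : `twe_old_abs` for `lrh_i`, `lrh_idag`, `T = (· ∘ t2e_TH)`, `c = t + 1`.
-/

set_option autoImplicit false

noncomputable section

namespace Fermat.Agent.TW

open scoped TensorProduct

/-! ### The abstract splitting -/

section abs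

variable {A B : Type*} [AddCommGroup A] [AddCommGroup B]

/-- **Abstract E/Old.** -/
theorem twe_old_abs (i : A × A →+ B) (j : B →+ A × A) (T : A →+ A) (c : ℕ)
    (hji : ∀ a b : A, j (i (a, b)) = (c • a + T b, T a + c • b))
    (PA : AddSubgroup A) (PB : AddSubgroup B)
    (h1 : ∀ a ∈ PA, ∀ b ∈ PA, i (a, b) ∈ PB)
    (h2 : ∀ y ∈ PB, (j y).1 ∈ PA ∧ (j y).2 ∈ PA)
    (h3 : ∀ a ∈ PA, T a ∈ PA)
    (D' : A →+ A) (hD'P : ∀ a ∈ PA, D' a ∈ PA) (hD'T : ∀ a, D' (T a) = T (D' a))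
    (hD' : ∀ a ∈ PA, D' (T (T a) - (c * c) • a) = a)
    (hN : ∀ y ∈ PB, j y = 0 → y = 0) :
    (∀ a ∈ PA, ∀ b ∈ PA, i (a, b) = 0 → a = 0 ∧ b = 0) ∧
      ∀ y ∈ PB, ∃ a ∈ PA, ∃ b ∈ PA, i (a, b) = y := by
  constructor
  · intro a ha b hb h0
    have hj : j (i (a, b)) = 0 := by rw [h0, map_zero]
    rw [hji, Prod.mk_eq_zero] at hj
    obtain ⟨e1, e2⟩ := hj
    -- `T a = - c b`, `T b = - c a`
    have hTa : T a = -(c • b) := eq_neg_of_add_eq_zero_left e2
    have hTb : T b = -(c • a) := eq_neg_of_add_eq_zero_right e1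
    have hDa : T (T a) - (c * c) • a = 0 := by
      rw [hTa, map_neg, map_nsmul, hTb, smul_neg, neg_neg, ← mul_smul, sub_self]
    have hDb : T (T b) - (c * c) • b = 0 := by
      rw [hTb, map_neg, map_nsmul, hTa, smul_neg, neg_neg, ← mul_smul, sub_self]
    constructor
    · rw [← hD' a ha, hDa, map_zero]
    · rw [← hD' b hb, hDb, map_zero]
  · intro y hy
    obtain ⟨hu, hv⟩ := h2 y hy
    set u := (j y).1 with hu_def
    set v := (j y).2 with hv_def
    have hTu := h3 u hu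
    have hTv := h3 v hv
    set a := D' (T v - c • u) with ha_def
    set b := D' (T u - c • v) with hb_def
    have ha : a ∈ PA := hD'P _ (PA.sub_mem hTv (PA.nsmul_mem hu c))
    have hb : b ∈ PA := hD'P _ (PA.sub_mem hTu (PA.nsmul_mem hv c))
    have e1 : c • a + T b = u := by
      rw [ha_def, hb_def, ← hD'T, ← map_nsmul, ← map_add]
      have : c • (T v - c • u) + T (T u - c • v) = T (T u) - (c * c) • u := by
        rw [map_sub, map_nsmul, smul_sub, mul_smul]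
        abel
      rw [this, hD' u hu]
    have e2 : T a + c • b = v := by
      rw [ha_def, hb_def, ← hD'T, ← map_nsmul, ← map_add]
      have : T (T v - c • u) + c • (T u - c • v) = T (T v) - (c * c) • v := by
        rw [map_sub, map_nsmul, smul_sub, mul_smul]
        abel
      rw [this, hD' v hv]
    refine ⟨a, ha, b, hb, ?_⟩
    have hmem : y - i (a, b) ∈ PB := PB.sub_mem hy (h1 a ha b hb)
    have hzero : j (y - i (a, b)) = 0 := by
      rw [map_sub, hji, e1, e2, sub_self]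
    have := hN _ hmem hzero
    exact (sub_eq_zero.mp this).symm

end abs

/-! ### `(N)` from eigenvectors -/

section eigen

variable {O K : Type*} [CommRing O] [Field K] [Algebra O K]
  {X Y : Type*} [AddCommGroup X] [Module O X] [AddCommGroup Y] [Module O Y]

/-- elements of `K ⊗ (P ⊓ ker j)` are killed by `j_K` and fixed by `e_K` whenever `e` fixes `P`. -/
theorem twe_old_baseChange_mem (j : X →ₗ[O] Y) (P : Submodule O X) (v : K ⊗[O] X)
    (hv : v ∈ (P ⊓ LinearMap.ker j).baseChange K) :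
    j.baseChange K v = 0 ∧
      ∀ e : Module.End O X, (∀ x ∈ P, e x = x) → e.baseChange K v = v := by
  rw [Submodule.baseChange_eq_span] at hv
  constructor
  · refine Submodule.span_induction ?_ ?_ ?_ ?_ hv
    · rintro _ ⟨w, hw, rfl⟩
      have hw' : j w = 0 := hw.2
      show j.baseChange K ((1 : K) ⊗ₜ[O] w) = 0
      rw [LinearMap.baseChange_tmul, hw', TensorProduct.tmul_zero]
    · exact map_zero _
    · intro x y _ _ hx hy
      rw [map_add, hx, hy, add_zero]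
    · intro a x _ hx
      rw [map_smul, hx, smul_zero]
  · intro e he
    refine Submodule.span_induction ?_ ?_ ?_ ?_ hv
    · rintro _ ⟨w, hw, rfl⟩
      show e.baseChange K ((1 : K) ⊗ₜ[O] w) = (1 : K) ⊗ₜ[O] w
      rw [LinearMap.baseChange_tmul, he w hw.1]
    · exact map_zero _
    · intro x y _ _ hx hy
      rw [map_add, hx, hy]
    · intro a x _ hx
      rw [map_smul, hx]

variable [IsAlgClosed K] [Module.Finite O X]

/-- **`(N)` from eigenvectors.** -/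
theorem twe_old_N_of_eigen
    (hinj : Function.Injective (fun x : X => (1 : K) ⊗ₜ[O] x))
    (𝒮 : Set (Module.End O X)) (hcomm : ∀ s ∈ 𝒮, ∀ s' ∈ 𝒮, Commute s s')
    (j : X →ₗ[O] Y) (P : Submodule O X)
    (hP : ∀ s ∈ 𝒮, ∀ x ∈ P, s x ∈ P)
    (hj : ∀ s ∈ 𝒮, ∀ x, j x = 0 → j (s x) = 0)
    (h : ∀ v : K ⊗[O] X, v ≠ 0 → (∀ s ∈ 𝒮, ∃ c : K, s.baseChange K v = c • v) →
      v ∈ (P ⊓ LinearMap.ker j).baseChange K → False) :
    ∀ y ∈ P, j y = 0 → y = 0 := by
  intro y hy hjy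
  by_contra hy0
  set W : Submodule K (K ⊗[O] X) := (P ⊓ LinearMap.ker j).baseChange K with hW
  have hyW : (1 : K) ⊗ₜ[O] y ∈ W := by
    rw [hW, Submodule.baseChange_eq_span]
    exact Submodule.subset_span ⟨y, ⟨hy, hjy⟩, rfl⟩
  have hne : (1 : K) ⊗ₜ[O] y ≠ 0 := by
    intro h0
    apply hy0
    apply hinj
    show (1 : K) ⊗ₜ[O] y = (1 : K) ⊗ₜ[O] (0 : X)
    rw [h0, TensorProduct.tmul_zero]
  have hWbot : W ≠ ⊥ := by
    intro hb
    rw [hb] at hyW
    exact hne ((Submodule.mem_bot K).1 hyW)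
  let 𝒮K : Set (Module.End K (K ⊗[O] X)) := (fun s : Module.End O X => s.baseChange K) '' 𝒮
  have hcommK : ∀ s ∈ 𝒮K, ∀ s' ∈ 𝒮K, Commute s s' := by
    rintro _ ⟨s, hs, rfl⟩ _ ⟨s', hs', rfl⟩
    have := (hcomm s hs s' hs').eq
    show s.baseChange K * s'.baseChange K = s'.baseChange K * s.baseChange K
    rw [← LinearMap.baseChange_mul, ← LinearMap.baseChange_mul, this]
  have hstab : ∀ s ∈ 𝒮K, ∀ w ∈ W, s w ∈ W := by
    rintro _ ⟨s, hs, rfl⟩ w hw
    rw [hW, Submodule.baseChange_eq_span] at hw ⊢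
    refine Submodule.span_induction ?_ ?_ ?_ ?_ hw
    · rintro _ ⟨x, hx, rfl⟩
      apply Submodule.subset_span
      refine ⟨s x, ⟨hP s hs x hx.1, ?_⟩, ?_⟩
      · exact hj s hs x hx.2
      · show (1 : K) ⊗ₜ[O] (s x) = s.baseChange K ((1 : K) ⊗ₜ[O] x)
        rw [LinearMap.baseChange_tmul]
    · rw [map_zero]; exact Submodule.zero_mem _
    · intro x y _ _ hx hy
      rw [map_add]; exact Submodule.add_mem _ hx hy
    · intro a x _ hx
      rw [map_smul]; exact Submodule.smul_mem _ a hx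
  obtain ⟨v, hvW, hv0, hv⟩ := twlg_ei_common_eigenvector 𝒮K hcommK W hWbot hstab
  exact h v hv0 (fun s hs => hv _ ⟨s, hs, rfl⟩) hvW

end eigen

/-! ### The instance of LR/MTX -/

section lr

open Fermat.Agent.LR Fermat.Agent.JT3

variable {M₁ : ℕ} {t : ℕ} [Fact t.Prime] {A' : Type*} [AddCommGroup A']

/-- `ψ ↦ ψ ∘ f` as an additive map. -/
def twe_old_pre {G : Type*} [AddCommGroup G] (f : G →+ G) : (G →+ A') →+ (G →+ A') where
  toFun ψ := ψ.comp f
  map_zero' := rfl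
  map_add' _ _ := rfl

@[simp] theorem twe_old_pre_apply {G : Type*} [AddCommGroup G] (f : G →+ G) (ψ : G →+ A') :
    twe_old_pre f ψ = ψ.comp f := rfl

/-- **E/Old, one prime**: `Hom(H(M₁ t), A')_𝔪 = i (Hom(H(M₁), A')_𝔪²)`, for localisations `PA`, `PB`
preserved by `i`, `i†`, `T_t`, with `T_t² - (t+1)²` invertible on `PA` and `i†` injective on `PB`. -/
theorem twe_old_split (htM : ¬ t ∣ M₁)
    (PA : AddSubgroup (gh_H M₁ →+ A')) (PB : AddSubgroup (gh_H (M₁ * t) →+ A'))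
    (h1 : ∀ ψ₁ ∈ PA, ∀ ψ₂ ∈ PA, lrh_i htM A' (ψ₁, ψ₂) ∈ PB)
    (h2 : ∀ φ ∈ PB, (lrh_idag htM A' φ).1 ∈ PA ∧ (lrh_idag htM A' φ).2 ∈ PA)
    (h3 : ∀ ψ ∈ PA, ψ.comp (t2e_TH htM) ∈ PA)
    (D' : (gh_H M₁ →+ A') →+ (gh_H M₁ →+ A')) (hD'P : ∀ ψ ∈ PA, D' ψ ∈ PA)
    (hD'T : ∀ ψ, D' (ψ.comp (t2e_TH htM)) = (D' ψ).comp (t2e_TH htM))
    (hD' : ∀ ψ ∈ PA,
      D' ((ψ.comp (t2e_TH htM)).comp (t2e_TH htM) - ((t + 1) * (t + 1)) • ψ) = ψ)
    (hN : ∀ φ ∈ PB, lrh_idag htM A' φ = 0 → φ = 0) :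
    (∀ ψ₁ ∈ PA, ∀ ψ₂ ∈ PA, lrh_i htM A' (ψ₁, ψ₂) = 0 → ψ₁ = 0 ∧ ψ₂ = 0) ∧
      ∀ φ ∈ PB, ∃ ψ₁ ∈ PA, ∃ ψ₂ ∈ PA, lrh_i htM A' (ψ₁, ψ₂) = φ := by
  refine twe_old_abs (lrh_i htM A') (lrh_idag htM A') (twe_old_pre (t2e_TH htM)) (t + 1)
    ?_ PA PB h1 h2 h3 D' hD'P hD'T hD' hN
  intro a b
  rw [lrh_matrix]
  rfl

end lr

end Fermat.Agent.TW
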