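/-
Project ONE MACHINE (S43), block [E] AUT, cell E/Old-DESC (helper2; prefix `twe_ogd_`).

THE CONCRETE `(N)` HYPOTHESIS OF `twe_old_split` (TW/Aut/OldSplit.lean): at a Taylor–Wiles prime `t`
(`t ∤ M₁`, `t ≡ 1 mod p`, `θ(T_t)² ≠ 4`) the map `i† = (· ∘ lrh_At, · ∘ lrh_Bt)` is injective on the
`θ`-part `e · Hom(H₁(X₀(M₁ t)), 𝒪)`.

* `twe_ogd_Psi`, `twe_ogd_Psi_injective` : `K ⊗ Hom(H₁(X₀(N)), 𝒪) ↪ Hom(H₁(X₀(N)), K)`;
* `twe_ogd_descent`   : a character `B → K` of a finite `𝒪`-algebra factors through a complete DVR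
                        `O'` finite over `𝒪` with `O' ↪ K`;
* `twe_ogd_functional`: an `E`-linear functional `K → E` not killing a given class;
* `twe_ogd_residue`   : `ψ(b) ≡ θB(b)` from the idempotent clause of `twe_la_exists_idem`;
* `twe_ogd_char`      : the eigencharacter of a common eigenvector;
* `twe_ogd_core`      : the statement, with the lattice bridge as a hypothesis;
* `twe_ogd_hker`      : `act b` preserves `ker i†` when `B` is generated by the good `T_ℓ`;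
* `twe_ogd_main`      : the statement (bridge = `twlg_gq_lattice_alpha/beta`).
-/
import Mathlib
import Fermat.Agent.TW.Aut.OldGal
import Fermat.Agent.TW.Aut.OldSplit
import Fermat.Agent.TW.Top.CInput
import Fermat.Agent.JT3.Pack.DVRExt
import Fermat.Agent.JT3.Algebra.CycloAdic
import Fermat.Agent.JT3.Gateway.HomologyFree
import Fermat.Agent.LR.MTX.Homology
import Fermat.Agent.LR.MTX.EquivHom
import Fermat.Agent.TW.LG.GatewayDegCoprimeMain

set_option autoImplicit false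
set_option linter.unusedSectionVars false
set_option linter.unusedVariables false
set_option linter.style.haveILetI false
set_option synthInstance.maxHeartbeats 400000
set_option maxHeartbeats 1000000

noncomputable section

namespace Fermat.Agent.TW

open TensorProduct IsLocalRing Polynomial CuspForm Module Fermat.Agent.JT3 Fermat.Agent.LR
  Fermat.Agent.S35 Fermat.Agent.S36

attribute [local instance] FractionRing.liftAlgebra FractionRing.isScalarTower_liftAlgebra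

section Psi

variable (𝒪 : Type*) [CommRing 𝒪] (K : Type*) [Field K] [Algebra 𝒪 K]

/-- the scalar tower `𝒪 → K → Hom(G, K)`. -/
theorem twe_ogd_tower (G : Type*) [AddCommGroup G] : IsScalarTower 𝒪 K (G →+ K) :=
  ⟨fun a k f => AddMonoidHom.ext fun g => by
    simp only [AddMonoidHom.smul_apply]
    exact smul_assoc a k (f g)⟩

/-- post-composition with `𝒪 → K`. -/
def twe_ogd_post (G : Type*) [AddCommGroup G] : (G →+ 𝒪) →ₗ[𝒪] (G →+ K) where
  toFun f := (algebraMap 𝒪 K).toAddMonoidHom.comp f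
  map_add' f f' := AddMonoidHom.ext fun g => by simp
  map_smul' a f := AddMonoidHom.ext fun g => by simp [Algebra.smul_def]

@[simp] theorem twe_ogd_post_apply (G : Type*) [AddCommGroup G] (f : G →+ 𝒪) (g : G) :
    twe_ogd_post 𝒪 K G f g = algebraMap 𝒪 K (f g) := rfl

/-- `Ψ : K ⊗ Hom(G, 𝒪) → Hom(G, K)`, `k ⊗ f ↦ k • (f followed by 𝒪 → K)`. -/
def twe_ogd_Psi (G : Type*) [AddCommGroup G] : K ⊗[𝒪] (G →+ 𝒪) →ₗ[K] (G →+ K) :=
  haveI := twe_ogd_tower 𝒪 K G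
  (twe_ogd_post 𝒪 K G).liftBaseChange K

theorem twe_ogd_Psi_tmul (G : Type*) [AddCommGroup G] (k : K) (f : G →+ 𝒪) (g : G) :
    twe_ogd_Psi 𝒪 K G (k ⊗ₜ[𝒪] f) g = k * algebraMap 𝒪 K (f g) := rfl

/-- `Ψ` intertwines pre-composition. -/
theorem twe_ogd_Psi_comp {G G' : Type*} [AddCommGroup G] [AddCommGroup G'] (τ : G' →+ G)
    (T : (G →+ 𝒪) →ₗ[𝒪] (G' →+ 𝒪)) (hT : ∀ f, T f = f.comp τ) (v : K ⊗[𝒪] (G →+ 𝒪)) :
    twe_ogd_Psi 𝒪 K G' (T.baseChange K v) = (twe_ogd_Psi 𝒪 K G v).comp τ := by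
  induction v using TensorProduct.induction_on with
  | zero => simp
  | tmul k f =>
    refine AddMonoidHom.ext fun g => ?_
    rw [LinearMap.baseChange_tmul, twe_ogd_Psi_tmul, hT, AddMonoidHom.comp_apply,
      AddMonoidHom.comp_apply, twe_ogd_Psi_tmul]
  | add u w hu hw =>
    rw [map_add, map_add, hu, hw, map_add]
    exact (AddMonoidHom.add_comp _ _ _).symm

variable (N : ℕ) [NeZero N]

/-- evaluation at the basis of `H₁(X₀(N))`, `𝒪`-linear. -/
def twe_ogd_ev : (gh_H N →+ 𝒪) ≃ₗ[𝒪] (Fin (2 * finrank ℂ (CuspForm (CongruenceSubgroup.Gamma0 N) 2)) → 𝒪) :=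
  { ghf_homEquivPi N 𝒪 with
    map_smul' := fun a f => by
      funext i
      simp only [AddEquiv.toFun_eq_coe, RingHom.id_apply, Pi.smul_apply]
      rw [ghf_homEquivPi_apply, ghf_homEquivPi_apply]
      rfl }

theorem twe_ogd_ev_apply (f : gh_H N →+ 𝒪) (i) :
    twe_ogd_ev 𝒪 N f i = f ((ghf_basisEquiv N).symm (Pi.single i 1)) :=
  ghf_homEquivPi_apply N 𝒪 f i

/-- `Ψ` is injective on `K ⊗ Hom(H₁(X₀(N)), 𝒪)`. -/
theorem twe_ogd_Psi_injective : Function.Injective (twe_ogd_Psi 𝒪 K (gh_H N)) := by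
  have key : ∀ v : K ⊗[𝒪] (gh_H N →+ 𝒪),
      (fun i => twe_ogd_Psi 𝒪 K (gh_H N) v ((ghf_basisEquiv N).symm (Pi.single i 1))) =
        TensorProduct.piScalarRight 𝒪 K K _
          ((twe_ogd_ev 𝒪 N).toLinearMap.baseChange K v) := by
    intro v
    induction v using TensorProduct.induction_on with
    | zero => simp; rfl
    | tmul k f =>
      funext i
      rw [LinearMap.baseChange_tmul, TensorProduct.piScalarRight_apply,
        TensorProduct.piScalarRightHom_tmul, twe_ogd_Psi_tmul]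
      simp only [LinearEquiv.coe_coe]
      rw [twe_ogd_ev_apply, Algebra.smul_def, mul_comm]
    | add u w hu hw =>
      simp only [map_add, AddMonoidHom.add_apply]
      rw [← hu, ← hw]
      rfl
  intro v w h
  have h1 : TensorProduct.piScalarRight 𝒪 K K _ ((twe_ogd_ev 𝒪 N).toLinearMap.baseChange K v) =
      TensorProduct.piScalarRight 𝒪 K K _ ((twe_ogd_ev 𝒪 N).toLinearMap.baseChange K w) := by
    rw [← key, ← key, h]
  have h2 := (TensorProduct.piScalarRight 𝒪 K K _).injective h1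
  have h3 : Function.Injective ((twe_ogd_ev 𝒪 N).toLinearMap.baseChange K) := by
    have : (twe_ogd_ev 𝒪 N).toLinearMap.baseChange K =
        ((twe_ogd_ev 𝒪 N).baseChange 𝒪 K _ _).toLinearMap := rfl
    rw [this]
    exact LinearEquiv.injective _
  exact h3 h2

end Psi

/-- **the descent**: a character `χ : B → K` of a finite `𝒪`-algebra (`𝒪` a complete DVR of
characteristic `0`, `𝒪 ↪ K`) factors through a complete DVR `O'` finite over `𝒪`, whose fraction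
field `E` embeds into `K`. -/
theorem twe_ogd_descent (𝒪 : Type) [CommRing 𝒪] [IsDomain 𝒪] [IsDiscreteValuationRing 𝒪]
    [IsAdicComplete (maximalIdeal 𝒪) 𝒪] [Finite (ResidueField 𝒪)] [CharZero 𝒪]
    (B : Type) [CommRing B] [Algebra 𝒪 B] [Module.Finite 𝒪 B]
    (K : Type*) [Field K] [Algebra 𝒪 K] (hK : Function.Injective (algebraMap 𝒪 K))
    (χ : B →ₐ[𝒪] K) :
    ∃ (O' : Type) (_ : CommRing O') (_ : IsDomain O') (_ : IsDiscreteValuationRing O')
      (_ : IsAdicComplete (maximalIdeal O') O') (_ : Finite (ResidueField O')) (_ : CharZero O')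
      (_ : Algebra 𝒪 O') (_ : IsLocalHom (algebraMap 𝒪 O'))
      (ψ : B →ₐ[𝒪] O') (ι : O' →+* K), Function.Injective ι ∧ ∀ b, ι (ψ b) = χ b := by
  haveI : (RingHom.ker (χ : B →+* K)).IsPrime := RingHom.ker_isPrime _
  let D := B ⧸ RingHom.ker (χ : B →+* K)
  haveI : IsDomain D := Ideal.Quotient.isDomain _
  haveI : Module.Finite 𝒪 D :=
    Module.Finite.of_surjective (Ideal.Quotient.mkₐ 𝒪 (RingHom.ker (χ : B →+* K))).toLinearMap
      (Ideal.Quotient.mkₐ_surjective 𝒪 _)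
  let χD : D →ₐ[𝒪] K := Ideal.Quotient.liftₐ (RingHom.ker (χ : B →+* K)) χ (fun a ha => ha)
  have hχD : Function.Injective χD := by
    rw [injective_iff_map_eq_zero]
    intro d hd
    obtain ⟨b, rfl⟩ := Ideal.Quotient.mk_surjective d
    have : χ b = 0 := hd
    exact Ideal.Quotient.eq_zero_iff_mem.mpr this
  have hinjD : Function.Injective (algebraMap 𝒪 D) := by
    intro x y h
    apply hK
    have := congrArg χD h
    rwa [χD.commutes, χD.commutes] at this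
  haveI : Module.IsTorsionFree 𝒪 D := Module.isTorsionFree_iff_algebraMap_injective.mpr hinjD
  let F := FractionRing 𝒪
  let E := FractionRing D
  haveI : FiniteDimensional F E := inferInstance
  haveI hloc : IsLocalRing (integralClosure 𝒪 E) := pkd_isLocalRing 𝒪 F E
  haveI hdvr : IsDiscreteValuationRing (integralClosure 𝒪 E) := pkd_isDVR 𝒪 F E
  have hint : ∀ b : B, algebraMap D E (Ideal.Quotient.mk _ b) ∈ integralClosure 𝒪 E := fun b =>
    (Algebra.IsIntegral.isIntegral (R := 𝒪) (Ideal.Quotient.mk _ b : D)).map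
      (IsScalarTower.toAlgHom 𝒪 D E)
  let ιE : E →+* K := IsFractionRing.lift (g := (χD : D →+* K)) hχD
  refine ⟨integralClosure 𝒪 E, inferInstance, inferInstance, hdvr,
    pkd_isAdicComplete 𝒪 F E, pkd_finite_residue 𝒪 F E, pkd_charZero 𝒪 F E, inferInstance,
    pkd_isLocalHom 𝒪 F E,
    ((IsScalarTower.toAlgHom 𝒪 D E).comp (Ideal.Quotient.mkₐ 𝒪 _)).codRestrict
      (integralClosure 𝒪 E) hint, ιE.comp (algebraMap (integralClosure 𝒪 E) E), ?_, ?_⟩
  · exact ιE.injective.comp Subtype.val_injective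
  · intro b
    exact (IsFractionRing.lift_algebraMap hχD (Ideal.Quotient.mk _ b)).trans rfl


/-- an `E`-linear functional `K → E` which does not kill a given nonzero class. -/
theorem twe_ogd_functional {E K : Type*} [Field E] [Field K] (ιE : E →+* K) {G : Type*}
    [AddCommGroup G] (c : G →+ K) (hc : c ≠ 0) :
    ∃ r : K →+ E, (∀ (a : E) (x : K), r (ιE a * x) = a * r x) ∧ r.comp c ≠ 0 := by
  letI : Module E K := Module.compHom K ιE
  have hsmul : ∀ (a : E) (x : K), a • x = ιE a * x := fun a x => rfl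
  obtain ⟨h₀, hh₀⟩ : ∃ h, c h ≠ 0 := by
    by_contra hcon
    refine hc (AddMonoidHom.ext fun h => ?_)
    by_contra hh
    exact hcon ⟨h, hh⟩
  obtain ⟨f, hf⟩ := Module.Projective.exists_dual_ne_zero E hh₀
  refine ⟨f.toAddMonoidHom, fun a x => ?_, fun h => hf ?_⟩
  · rw [← hsmul]
    exact f.map_smul a x
  · exact DFunLike.congr_fun h h₀

/-- the residue of `ψ b` from the idempotent clause. -/
theorem twe_ogd_residue {𝒪 O' B : Type*} [CommRing 𝒪] [IsLocalRing 𝒪] [CommRing O']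
    [IsLocalRing O'] [Algebra 𝒪 O'] [IsLocalHom (algebraMap 𝒪 O')] [CommRing B] [Algebra 𝒪 B]
    (ψ : B →ₐ[𝒪] O') (θB : B →ₐ[𝒪] ResidueField 𝒪) (e : B) (he : ψ e = 1)
    (hnil : ∀ b, θB b = 0 →
      ∃ n, 0 < n ∧ (e * b) ^ n ∈ (maximalIdeal 𝒪).map (algebraMap 𝒪 B)) (b : B) :
    residue O' (ψ b) = ResidueField.map (algebraMap 𝒪 O') (θB b) := by
  obtain ⟨x, hx⟩ := residue_surjective (θB b)
  have hb' : θB (b - algebraMap 𝒪 B x) = 0 := by
    rw [map_sub, θB.commutes, ← hx, sub_eq_zero]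
    rfl
  obtain ⟨n, hn, hmem⟩ := hnil _ hb'
  have hle : (maximalIdeal 𝒪).map (algebraMap 𝒪 B) ≤ (maximalIdeal O').comap (ψ : B →+* O') := by
    rw [Ideal.map_le_iff_le_comap]
    intro a ha
    rw [Ideal.mem_comap, Ideal.mem_comap]
    have h1 : (ψ : B →+* O') (algebraMap 𝒪 B a) = algebraMap 𝒪 O' a := ψ.commutes a
    rw [h1]
    exact map_nonunit (algebraMap 𝒪 O') a ha
  have h2 : ψ ((e * (b - algebraMap 𝒪 B x)) ^ n) ∈ maximalIdeal O' := hle hmem
  rw [map_pow, map_mul, he, one_mul] at h2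
  have h3 : ψ (b - algebraMap 𝒪 B x) ∈ maximalIdeal O' :=
    (Ideal.IsPrime.mem_of_pow_mem inferInstance n h2)
  rw [map_sub, ψ.commutes, ← residue_eq_zero_iff, map_sub, sub_eq_zero] at h3
  rw [h3, ← hx, ResidueField.map_residue]

/-- the eigencharacter of a common eigenvector. -/
theorem twe_ogd_char {𝒪 K B X : Type*} [CommRing 𝒪] [Field K] [Algebra 𝒪 K] [CommRing B]
    [Algebra 𝒪 B] [AddCommGroup X] [Module 𝒪 X] (act : B →ₐ[𝒪] Module.End 𝒪 X)
    (v : K ⊗[𝒪] X) (hv : v ≠ 0) (heig : ∀ b : B, ∃ c : K, (act b).baseChange K v = c • v) :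
    ∃ χ : B →ₐ[𝒪] K, ∀ b, (act b).baseChange K v = χ b • v := by
  choose f hf using heig
  have hinj : ∀ c c' : K, c • v = c' • v → c = c' := fun c c' h => smul_left_injective K hv h
  refine ⟨{ toFun := f
            map_one' := hinj _ _ (by rw [← hf, map_one, Module.End.one_eq_id,
              LinearMap.baseChange_id, LinearMap.id_apply, one_smul])
            map_mul' := fun b b' => hinj _ _ (by
              rw [← hf, map_mul, Module.End.mul_eq_comp, LinearMap.baseChange_comp,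
                LinearMap.comp_apply, hf b', map_smul, hf b, smul_smul, mul_comm])
            map_zero' := hinj _ _ (by rw [← hf, map_zero, LinearMap.baseChange_zero,
              LinearMap.zero_apply, zero_smul])
            map_add' := fun b b' => hinj _ _ (by
              rw [← hf, map_add, LinearMap.baseChange_add, LinearMap.add_apply, hf, hf, add_smul])
            commutes' := fun a => hinj _ _ (by
              rw [← hf, AlgHom.commutes, Algebra.algebraMap_eq_smul_one, LinearMap.baseChange_smul,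
                Module.End.one_eq_id, LinearMap.baseChange_id, LinearMap.smul_apply,
                LinearMap.id_apply, algebraMap_smul]) }, hf⟩

/-- pre-composition, `𝒪`-linear. -/
def twe_ogd_pre (𝒪 : Type*) [CommRing 𝒪] {G G' : Type*} [AddCommGroup G] [AddCommGroup G']
    (τ : G' →+ G) : (G →+ 𝒪) →ₗ[𝒪] (G' →+ 𝒪) where
  toFun f := f.comp τ
  map_add' _ _ := rfl
  map_smul' _ _ := rfl

@[simp] theorem twe_ogd_pre_apply (𝒪 : Type*) [CommRing 𝒪] {G G' : Type*} [AddCommGroup G]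
    [AddCommGroup G'] (τ : G' →+ G) (f : G →+ 𝒪) : twe_ogd_pre 𝒪 τ f = f.comp τ := rfl


section main

local notation "GQ" => (AlgebraicClosure ℚ ≃ₐ[ℚ] AlgebraicClosure ℚ)
local notation "Qbar" => AlgebraicClosure ℚ

/-- **E/Old-DESC, core** (the lattice bridge `hVA`, `hVB` as hypotheses). -/
theorem twe_ogd_core
    {𝒪 : Type} [CommRing 𝒪] [IsDomain 𝒪] [IsDiscreteValuationRing 𝒪]
    [IsAdicComplete (maximalIdeal 𝒪) 𝒪] [Finite (ResidueField 𝒪)] [CharZero 𝒪]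
    {p : ℕ} [Fact p.Prime] (hp𝒪 : (p : 𝒪) ∈ maximalIdeal 𝒪)
    (M₁ t : ℕ) [NeZero M₁] [NeZero t] [Fact t.Prime] (htM : ¬ t ∣ M₁) (htp : t ≠ p)
    (htp1 : t % p = 1)
    (S : Finset ℕ) (hpS : p ∈ S) (hMS : ∀ r : ℕ, r.Prime → r ∣ M₁ * t → r ∈ S)
    (hVA : ∀ x : tj_T (M₁ * t) p,
      tjp_lattice M₁ p (s35p_P1 M₁ t p x) = (tjp_lattice (M₁ * t) p x).comp (lrh_At htM))
    (hVB : ∀ x : tj_T (M₁ * t) p,
      tjp_lattice M₁ p (s35p_P2 M₁ t p x) = (tjp_lattice (M₁ * t) p x).comp (lrh_Bt htM))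
    {N₀ : ℕ} [NeZero N₀] {S₀ : Finset ℕ}
    (θ : heckeAlgebra N₀ 2 (↑S₀ : Set ℕ) →+* ResidueField 𝒪)
    (ρbar : ResidualGaloisRep (ResidueField 𝒪)) (hcompat : twt_Compat θ ρbar)
    (hgood : ∀ ℓ, pk_Good (M₁ * t) S ℓ → ¬ ℓ ∣ N₀ ∧ ℓ ∉ (↑S₀ : Set ℕ))
    (htN₀ : ¬ t ∣ N₀) (htS₀ : t ∉ (↑S₀ : Set ℕ))
    (hTW : θ (heckeAlgebra.T (Fact.out : t.Prime) htN₀ htS₀) ^ 2 ≠ 4)
    (B : Type) [CommRing B] [Algebra 𝒪 B] [Module.Finite 𝒪 B]
    (act : B →ₐ[𝒪] Module.End 𝒪 (gh_H (M₁ * t) →+ 𝒪))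
    (Tb : ℕ → B)
    (hTb : ∀ ℓ, pk_Good (M₁ * t) S ℓ → ∀ φ : gh_H (M₁ * t) →+ 𝒪,
      act (Tb ℓ) φ = φ.comp (t2f_TH (M₁ * t) ℓ).toAddMonoidHom)
    (hker : ∀ (b : B) (φ : gh_H (M₁ * t) →+ 𝒪), lrh_idag htM 𝒪 φ = 0 →
      lrh_idag htM 𝒪 (act b φ) = 0)
    (θB : B →ₐ[𝒪] ResidueField 𝒪)
    (hθB : ∀ ℓ (hg : pk_Good (M₁ * t) S ℓ),
      θB (Tb ℓ) = θ (heckeAlgebra.T hg.1 (hgood ℓ hg).1 (hgood ℓ hg).2))
    (e : B)
    (hnil : ∀ b, θB b = 0 →
      ∃ n, 0 < n ∧ (e * b) ^ n ∈ (maximalIdeal 𝒪).map (algebraMap 𝒪 B)) :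
    ∀ φ : gh_H (M₁ * t) →+ 𝒪, act e φ = φ → lrh_idag htM 𝒪 φ = 0 → φ = 0 := by
  have ht : t.Prime := Fact.out
  -- the big field
  let K := AlgebraicClosure (FractionRing 𝒪)
  have hK : Function.Injective (algebraMap 𝒪 K) := by
    rw [IsScalarTower.algebraMap_eq 𝒪 (FractionRing 𝒪) K]
    exact (algebraMap (FractionRing 𝒪) K).injective.comp
      (IsFractionRing.injective 𝒪 (FractionRing 𝒪))
  -- the linear data
  let X := gh_H (M₁ * t) →+ 𝒪
  haveI : Module.Finite 𝒪 X := Module.Finite.equiv (twe_ogd_ev 𝒪 (M₁ * t)).symm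
  let jA : X →ₗ[𝒪] (gh_H M₁ →+ 𝒪) := twe_ogd_pre 𝒪 (lrh_At htM)
  let jB : X →ₗ[𝒪] (gh_H M₁ →+ 𝒪) := twe_ogd_pre 𝒪 (lrh_Bt htM)
  let j : X →ₗ[𝒪] (gh_H M₁ →+ 𝒪) × (gh_H M₁ →+ 𝒪) := jA.prod jB
  have hj_iff : ∀ φ : X, j φ = 0 ↔ lrh_idag htM 𝒪 φ = 0 := fun φ => Iff.rfl
  let P : Submodule 𝒪 X := LinearMap.ker (act e - 1)
  have hP_iff : ∀ φ : X, φ ∈ P ↔ act e φ = φ := by
    intro φ
    rw [LinearMap.mem_ker, LinearMap.sub_apply, Module.End.one_apply, sub_eq_zero]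
  have hinj1 : Function.Injective (fun x : X => (1 : K) ⊗ₜ[𝒪] x) := by
    intro x y hxy
    have h1 := congrArg (twe_ogd_Psi 𝒪 K (gh_H (M₁ * t))) hxy
    refine AddMonoidHom.ext fun g => hK ?_
    have h2 := DFunLike.congr_fun h1 g
    rw [twe_ogd_Psi_tmul, twe_ogd_Psi_tmul, one_mul, one_mul] at h2
    exact h2
  have key := twe_old_N_of_eigen (K := K) hinj1 (Set.range fun b : B => act b)
    (by
      rintro _ ⟨b, rfl⟩ _ ⟨b', rfl⟩
      show act b * act b' = act b' * act b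
      rw [← map_mul, ← map_mul, mul_comm b b'])
    j P
    (by
      rintro _ ⟨b, rfl⟩ x hx
      rw [hP_iff] at hx ⊢
      have h1 : act e (act b x) = act b (act e x) := by
        rw [← Module.End.mul_apply, ← Module.End.mul_apply, ← map_mul, ← map_mul, mul_comm e b]
      rw [h1, hx])
    (by
      rintro _ ⟨b, rfl⟩ x hx
      exact (hj_iff _).2 (hker b x ((hj_iff _).1 hx)))
    ?_
  · intro φ hφe hφj
    exact key φ ((hP_iff φ).2 hφe) ((hj_iff φ).2 hφj)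
  -- the contradiction from a common eigenvector
  intro v hv0 heig hvmem
  obtain ⟨hjv, hfix⟩ := twe_old_baseChange_mem j P v hvmem
  obtain ⟨χ, hχ⟩ := twe_ogd_char act v hv0 (fun b => heig _ ⟨b, rfl⟩)
  have hinjv : ∀ c c' : K, c • v = c' • v → c = c' := fun c c' h => smul_left_injective K hv0 h
  -- `χ e = 1`
  have hχe : χ e = 1 := by
    apply hinjv
    rw [← hχ, one_smul]
    exact hfix (act e) (fun x hx => (hP_iff x).1 hx)
  -- the class
  set c : gh_H (M₁ * t) →+ K := twe_ogd_Psi 𝒪 K (gh_H (M₁ * t)) v with hc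
  have hc0 : c ≠ 0 := by
    intro h0
    apply hv0
    apply twe_ogd_Psi_injective 𝒪 K (M₁ * t)
    rw [← hc, h0, map_zero]
  have hceig : ∀ ℓ, pk_Good (M₁ * t) S ℓ → ∀ h, c (t2f_TH (M₁ * t) ℓ h) = χ (Tb ℓ) * c h := by
    intro ℓ hℓ h
    have h1 := twe_ogd_Psi_comp 𝒪 K (t2f_TH (M₁ * t) ℓ).toAddMonoidHom (act (Tb ℓ)) (hTb ℓ hℓ) v
    rw [hχ, map_smul] at h1
    have h2 := DFunLike.congr_fun h1 h
    rw [AddMonoidHom.comp_apply] at h2
    exact h2.symm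
  have hjAv : jA.baseChange K v = 0 := by
    have h1 : jA = (LinearMap.fst 𝒪 _ _) ∘ₗ j := (LinearMap.fst_prod jA jB).symm
    rw [h1, LinearMap.baseChange_comp, LinearMap.comp_apply, hjv, map_zero]
  have hjBv : jB.baseChange K v = 0 := by
    have h1 : jB = (LinearMap.snd 𝒪 _ _) ∘ₗ j := (LinearMap.snd_prod jA jB).symm
    rw [h1, LinearMap.baseChange_comp, LinearMap.comp_apply, hjv, map_zero]
  have hcA : ∀ h, c (lrh_At htM h) = 0 := by
    intro h
    have h1 := twe_ogd_Psi_comp 𝒪 K (lrh_At htM) jA (fun f => rfl) v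
    rw [hjAv, map_zero] at h1
    have h2 := DFunLike.congr_fun h1 h
    rw [AddMonoidHom.comp_apply] at h2
    exact h2.symm
  have hcB : ∀ h, c (lrh_Bt htM h) = 0 := by
    intro h
    have h1 := twe_ogd_Psi_comp 𝒪 K (lrh_Bt htM) jB (fun f => rfl) v
    rw [hjBv, map_zero] at h1
    have h2 := DFunLike.congr_fun h1 h
    rw [AddMonoidHom.comp_apply] at h2
    exact h2.symm
  -- the descent
  obtain ⟨O', _, _, _, _, _, _, _, hloc, ψ, ι, hι, hιψ⟩ := twe_ogd_descent 𝒪 B K hK χ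
  let E := FractionRing O'
  let ιE : E →+* K := IsFractionRing.lift (g := ι) hι
  have hιE : ∀ x : O', ιE (algebraMap O' E x) = ι x := fun x => IsFractionRing.lift_algebraMap hι x
  obtain ⟨r, hr, hrc⟩ := twe_ogd_functional ιE c hc0
  have hp' : (p : O') ∈ maximalIdeal O' := by
    have := map_nonunit (algebraMap 𝒪 O') (p : 𝒪) hp𝒪
    rwa [map_natCast] at this
  letI : Algebra ℤ_[p] O' := (cya_padicHom p O' hp').toAlgebra
  have hψe : ψ e = 1 := by
    apply hι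
    rw [hιψ, hχe, map_one]
  -- the residual data
  have hcompat' := twt_ci_compat (k' := ResidueField O') ρbar θ hcompat
  have hTW' : ((algebraMap (ResidueField 𝒪) (ResidueField O')).comp θ)
      (heckeAlgebra.T ht htN₀ htS₀) ^ 2 ≠ 4 := by
    intro h
    apply hTW
    apply (algebraMap (ResidueField 𝒪) (ResidueField O')).injective
    rw [map_pow, map_ofNat]
    exact h
  have hzero := twe_og_new_zero M₁ t p S O' E hpS hMS ht htp htM hp' (lrh_At htM) (lrh_Bt htM)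
    hVA hVB ((algebraMap (ResidueField 𝒪) (ResidueField O')).comp θ)
    (ρbar.baseChange (ResidueField O')) hcompat' hgood htN₀ htS₀ htp1 hTW'
    (fun ℓ => ψ (Tb ℓ))
    (fun ℓ hℓ hℓp h1 h2 => by
      rw [twe_ogd_residue ψ θB e hψe hnil (Tb ℓ), hθB ℓ hℓ]
      rfl)
    (r.comp c)
    (fun ℓ hℓ h => by
      rw [AddMonoidHom.comp_apply, AddMonoidHom.comp_apply, hceig ℓ hℓ h, ← hιψ, ← hιE, hr])
    (fun h => by rw [AddMonoidHom.comp_apply, hcA, map_zero])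
    (fun h => by rw [AddMonoidHom.comp_apply, hcB, map_zero])
  exact hrc hzero

/-- `act b` preserves `ker i†` as soon as `B` is generated by the good Hecke operators. -/
theorem twe_ogd_hker {𝒪 : Type*} [CommRing 𝒪]
    (M₁ t : ℕ) [NeZero M₁] [NeZero t] [Fact t.Prime] (htM : ¬ t ∣ M₁) (S : Finset ℕ)
    (B : Type*) [CommRing B] [Algebra 𝒪 B]
    (act : B →ₐ[𝒪] Module.End 𝒪 (gh_H (M₁ * t) →+ 𝒪))
    (Tb : ℕ → B)
    (hTb : ∀ ℓ, pk_Good (M₁ * t) S ℓ → ∀ φ : gh_H (M₁ * t) →+ 𝒪,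
      act (Tb ℓ) φ = φ.comp (t2f_TH (M₁ * t) ℓ).toAddMonoidHom)
    (hgen : Algebra.adjoin 𝒪 (Tb '' {ℓ | pk_Good (M₁ * t) S ℓ}) = ⊤)
    (b : B) (φ : gh_H (M₁ * t) →+ 𝒪) (hφ : lrh_idag htM 𝒪 φ = 0) :
    lrh_idag htM 𝒪 (act b φ) = 0 := by
  have hb : b ∈ Algebra.adjoin 𝒪 (Tb '' {ℓ | pk_Good (M₁ * t) S ℓ}) := by
    rw [hgen]; exact Algebra.mem_top
  clear hgen
  revert φ
  induction hb using Algebra.adjoin_induction with
  | mem x hx =>
    intro φ hφ
    obtain ⟨ℓ, hℓ, rfl⟩ := hx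
    have hℓM : ¬ ℓ ∣ M₁ := fun h => hℓ.2.1 (dvd_mul_of_dvd_left h t)
    haveI : Fact ℓ.Prime := ⟨hℓ.1⟩
    have h1 : act (Tb ℓ) φ = φ.comp (t2e_TH hℓ.2.1) := by
      rw [hTb ℓ hℓ]
      refine AddMonoidHom.ext fun x => ?_
      rw [AddMonoidHom.comp_apply, AddMonoidHom.comp_apply]
      exact congrArg φ (t2f_TH_apply hℓ.1 hℓ.2.1 x)
    rw [h1, lre_idag_TH htM hℓM hℓ.2.1, hφ]
    rfl
  | algebraMap a =>
    intro φ hφ
    rw [AlgHom.commutes, Algebra.algebraMap_eq_smul_one, LinearMap.smul_apply,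
      Module.End.one_apply]
    have h1 : lrh_idag htM 𝒪 (a • φ) = a • lrh_idag htM 𝒪 φ := rfl
    rw [h1, hφ, smul_zero]
  | add x y _ _ hx hy =>
    intro φ hφ
    rw [map_add, LinearMap.add_apply, map_add, hx φ hφ, hy φ hφ, add_zero]
  | mul x y _ _ hx hy =>
    intro φ hφ
    rw [map_mul, Module.End.mul_apply]
    exact hx _ (hy φ hφ)

/-- **E/Old-DESC: the `(N)` hypothesis of `twe_old_split` at a Taylor–Wiles prime.**
`B` a finite commutative `𝒪`-algebra acting on `X = Hom(H₁(X₀(M₁ t)), 𝒪)`, generated by elements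
`Tb ℓ` acting as the good Hecke operators; `θB : B → k` with `θB (Tb ℓ) = θ(T_ℓ)`; `e ∈ B` with the
idempotent clause of `twe_la_exists_idem`. At a Taylor–Wiles prime `t` for `θ`, the map
`i† = (· ∘ lrh_At, · ∘ lrh_Bt)` is injective on `e X`. -/
theorem twe_ogd_main
    {𝒪 : Type} [CommRing 𝒪] [IsDomain 𝒪] [IsDiscreteValuationRing 𝒪]
    [IsAdicComplete (maximalIdeal 𝒪) 𝒪] [Finite (ResidueField 𝒪)] [CharZero 𝒪]
    {p : ℕ} [Fact p.Prime] (hp𝒪 : (p : 𝒪) ∈ maximalIdeal 𝒪)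
    (M₁ t : ℕ) [NeZero M₁] [NeZero t] [Fact t.Prime] (htM : ¬ t ∣ M₁) (htp : t ≠ p)
    (htp1 : t % p = 1)
    (S : Finset ℕ) (hpS : p ∈ S) (hMS : ∀ r : ℕ, r.Prime → r ∣ M₁ * t → r ∈ S)
    {N₀ : ℕ} [NeZero N₀] {S₀ : Finset ℕ}
    (θ : heckeAlgebra N₀ 2 (↑S₀ : Set ℕ) →+* ResidueField 𝒪)
    (ρbar : ResidualGaloisRep (ResidueField 𝒪)) (hcompat : twt_Compat θ ρbar)
    (hgood : ∀ ℓ, pk_Good (M₁ * t) S ℓ → ¬ ℓ ∣ N₀ ∧ ℓ ∉ (↑S₀ : Set ℕ))
    (htN₀ : ¬ t ∣ N₀) (htS₀ : t ∉ (↑S₀ : Set ℕ))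
    (hTW : θ (heckeAlgebra.T (Fact.out : t.Prime) htN₀ htS₀) ^ 2 ≠ 4)
    (B : Type) [CommRing B] [Algebra 𝒪 B] [Module.Finite 𝒪 B]
    (act : B →ₐ[𝒪] Module.End 𝒪 (gh_H (M₁ * t) →+ 𝒪))
    (Tb : ℕ → B)
    (hTb : ∀ ℓ, pk_Good (M₁ * t) S ℓ → ∀ φ : gh_H (M₁ * t) →+ 𝒪,
      act (Tb ℓ) φ = φ.comp (t2f_TH (M₁ * t) ℓ).toAddMonoidHom)
    (hgen : Algebra.adjoin 𝒪 (Tb '' {ℓ | pk_Good (M₁ * t) S ℓ}) = ⊤)
    (θB : B →ₐ[𝒪] ResidueField 𝒪)
    (hθB : ∀ ℓ (hg : pk_Good (M₁ * t) S ℓ),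
      θB (Tb ℓ) = θ (heckeAlgebra.T hg.1 (hgood ℓ hg).1 (hgood ℓ hg).2))
    (e : B)
    (hnil : ∀ b, θB b = 0 →
      ∃ n, 0 < n ∧ (e * b) ^ n ∈ (maximalIdeal 𝒪).map (algebraMap 𝒪 B)) :
    ∀ φ : gh_H (M₁ * t) →+ 𝒪, act e φ = φ → lrh_idag htM 𝒪 φ = 0 → φ = 0 :=
  twe_ogd_core hp𝒪 M₁ t htM htp htp1 S hpS hMS (twlg_gq_lattice_alpha M₁ t p htM)
    (twlg_gq_lattice_beta M₁ t p htM) θ ρbar hcompat hgood htN₀ htS₀ hTW B act Tb hTb
    (twe_ogd_hker M₁ t htM S B act Tb hTb hgen) θB hθB e hnil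

end main

end Fermat.Agent.TW
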