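import Mathlib
import Fermat.Agent.LR.Top.Hom
import Fermat.Agent.TW.LG.EigenInj
import Fermat.Agent.JT3.Pack.DVRExt

/-!
# ONE MACHINE / block [E] AUT, cell E/OldMain, part 1 (file EigDesc.lean): eigenclasses and their descent (helper14).
Prefix `twe_od_`.

`H` a finitely generated free abelian group (`H = gh_H M`), `𝒪` a complete DVR of characteristic `0`
with finite residue field, `𝒯` a commuting set of endomorphisms of `H` (Hecke operators) acting on
`Hom(H, A)` by precomposition, `Y ≤ Hom(H, 𝒪)` an `𝒪`-submodule stable under `𝒯`.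

* `twe_od_eigen`  : if `Y ≠ 0` there is a nonzero common eigenclass `c : H →+ K̄` of `𝒯` in the
  `K̄`-span of `Y` (`K̄` any algebraically closed field containing `𝒪`).
* `twe_od_main`   : **descent**: a common eigenclass `c : H →+ K̄` (`K̄ = AlgebraicClosure (Frac 𝒪)`)
  in the `K̄`-span of `Y` gives a complete DVR `𝒪'`, finite over `𝒪` (local homomorphism, finite
  residue field, characteristic `0`), embedded in `K̄`, and a NONZERO class
  `y = ∑ b_i • x_i : H →+ 𝒪'` (`b_i ∈ 𝒪'`, `x_i ∈ Y`) which is a common eigenclass of `𝒯` with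
  eigenvalues `a' τ ∈ 𝒪'`, `ι (a' τ) =` the eigenvalue of `c`.
  [The eigenvalues are algebraic integers: they come from a character of the finite `ℤ`-algebra of
  all endomorphisms of `H` having `c` as an eigenclass.]
* `twe_od_main_int` : the same with the extra clause `∀ z : 𝒪', IsIntegral 𝒪 z`.
* `twe_od_exists` : the two steps together.
* `twe_od_cong`   : **congruence**: if `(T_τ - a)` is topologically nilpotent at every `x_i`
  (`∀ k, ∃ m, (T_τ - a)^m x_i ∈ 𝔪^k Hom(H, 𝒪)`), then the eigenvalue `a'` of `y = ∑ b_i • x_i ≠ 0`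
  satisfies `a' ≡ a mod 𝔪_{𝒪'}` (Krull's intersection theorem; no integrality argument).
-/

set_option autoImplicit false
set_option linter.unusedSectionVars false
set_option linter.unusedVariables false
set_option linter.style.haveILetI false

noncomputable section

namespace Fermat.Agent.TW

open IsLocalRing Fermat.Agent.LR Fermat.Agent.JT3

section eigenclass

variable {H : Type} [AddCommGroup H]

/-- extension of the coefficients `Hom(H, 𝒪) → Hom(H, A)`. -/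
def twe_od_ext {𝒪 : Type} [CommRing 𝒪] (A : Type) [CommRing A] [Algebra 𝒪 A] :
    (H →+ 𝒪) →ₗ[𝒪] (H →+ A) where
  toFun x := (algebraMap 𝒪 A).toAddMonoidHom.comp x
  map_add' x y := by
    refine AddMonoidHom.ext fun h => ?_
    simp
  map_smul' r x := by
    refine AddMonoidHom.ext fun h => ?_
    simp [Algebra.smul_def]

@[simp] theorem twe_od_ext_apply {𝒪 : Type} [CommRing 𝒪] (A : Type) [CommRing A] [Algebra 𝒪 A]
    (x : H →+ 𝒪) (h : H) : twe_od_ext A x h = algebraMap 𝒪 A (x h) := rfl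

variable [Module.Free ℤ H] [Module.Finite ℤ H]

/-- **a common eigenclass in the span of a nonzero stable submodule.** -/
theorem twe_od_eigen {𝒪 : Type} [CommRing 𝒪] {Kb : Type} [Field Kb] [IsAlgClosed Kb] [Algebra 𝒪 Kb]
    (hinj : Function.Injective (algebraMap 𝒪 Kb))
    (𝒯 : Set (Module.End ℤ H)) (hcomm : ∀ τ ∈ 𝒯, ∀ τ' ∈ 𝒯, Commute τ τ')
    (Y : Submodule 𝒪 (H →+ 𝒪)) (hY : Y ≠ ⊥)
    (hst : ∀ τ ∈ 𝒯, ∀ x ∈ Y, x.comp τ.toAddMonoidHom ∈ Y) :
    ∃ c : H →+ Kb, c ≠ 0 ∧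
      c ∈ Submodule.span Kb ((twe_od_ext (𝒪 := 𝒪) Kb) '' (Y : Set (H →+ 𝒪))) ∧
      ∀ τ ∈ 𝒯, ∃ χ : Kb, ∀ h, c (τ h) = χ * c h := by
  classical
  set 𝒮 : Set (Module.End Kb (H →+ Kb)) :=
    (fun τ : Module.End ℤ H => lrtop_pre Kb Kb τ.toAddMonoidHom) '' 𝒯 with h𝒮
  set W : Submodule Kb (H →+ Kb) :=
    Submodule.span Kb ((twe_od_ext (𝒪 := 𝒪) Kb) '' (Y : Set (H →+ 𝒪))) with hW
  have hcomm' : ∀ s ∈ 𝒮, ∀ s' ∈ 𝒮, Commute s s' := by
    rintro _ ⟨τ, hτ, rfl⟩ _ ⟨τ', hτ', rfl⟩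
    have h1 := (hcomm τ hτ τ' hτ').eq
    refine LinearMap.ext fun ψ => AddMonoidHom.ext fun h => ?_
    show ψ (τ' (τ h)) = ψ (τ (τ' h))
    have h2 : (τ' * τ) h = (τ * τ') h := by rw [h1]
    exact congrArg ψ h2
  have hW0 : W ≠ ⊥ := by
    obtain ⟨y, hyY, hy0⟩ := Submodule.exists_mem_ne_zero_of_ne_bot hY
    intro hbot
    have h1 : twe_od_ext (𝒪 := 𝒪) Kb y ∈ W := Submodule.subset_span ⟨y, hyY, rfl⟩
    rw [hbot, Submodule.mem_bot] at h1
    apply hy0
    refine AddMonoidHom.ext fun h => ?_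
    have h2 := DFunLike.congr_fun h1 h
    rw [twe_od_ext_apply, AddMonoidHom.zero_apply] at h2
    rw [AddMonoidHom.zero_apply]
    exact hinj (h2.trans (map_zero _).symm)
  have hstab : ∀ s ∈ 𝒮, ∀ w ∈ W, s w ∈ W := by
    rintro _ ⟨τ, hτ, rfl⟩ w hw
    induction hw using Submodule.span_induction with
    | mem w hw =>
      obtain ⟨x, hx, rfl⟩ := hw
      exact Submodule.subset_span ⟨x.comp τ.toAddMonoidHom, hst τ hτ x hx, rfl⟩
    | zero => rw [map_zero]; exact W.zero_mem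
    | add u v _ _ hu hv => rw [map_add]; exact W.add_mem hu hv
    | smul r u _ hu => rw [map_smul]; exact W.smul_mem r hu
  obtain ⟨v, hvW, hv0, hv⟩ := twlg_ei_common_eigenvector 𝒮 hcomm' W hW0 hstab
  refine ⟨v, hv0, hvW, fun τ hτ => ?_⟩
  obtain ⟨χ, hχ⟩ := hv _ ⟨τ, hτ, rfl⟩
  refine ⟨χ, fun h => ?_⟩
  have h1 := DFunLike.congr_fun hχ h
  rw [AddMonoidHom.smul_apply, smul_eq_mul] at h1
  exact h1

end eigenclass

section cong

variable {H : Type} [AddCommGroup H]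

/-- the operator `T_τ - a` on `Hom(H, A)`. -/
def twe_od_N {A : Type} [CommRing A] (τ : Module.End ℤ H) (a : A) : Module.End A (H →+ A) :=
  lrtop_pre A A τ.toAddMonoidHom - a • 1

theorem twe_od_N_apply {A : Type} [CommRing A] (τ : Module.End ℤ H) (a : A) (x : H →+ A) (h : H) :
    twe_od_N τ a x h = x (τ h) - a * x h := rfl

/-- `T_τ - a` commutes with the extension of the coefficients. -/
theorem twe_od_ext_N {𝒪 : Type} [CommRing 𝒪] (A : Type) [CommRing A] [Algebra 𝒪 A]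
    (τ : Module.End ℤ H) (a : 𝒪) (m : ℕ) (x : H →+ 𝒪) :
    twe_od_ext A ((twe_od_N τ a ^ m) x) = (twe_od_N τ (algebraMap 𝒪 A a) ^ m) (twe_od_ext A x) := by
  induction m generalizing x with
  | zero => simp
  | succ m ih =>
    rw [pow_succ, pow_succ, Module.End.mul_apply, Module.End.mul_apply, ih]
    congr 1
    refine AddMonoidHom.ext fun h => ?_
    rw [twe_od_ext_apply, twe_od_N_apply, twe_od_N_apply, map_sub, map_mul, twe_od_ext_apply,
      twe_od_ext_apply]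

/-- **the congruence**: `T_τ - a` topologically nilpotent at the `x_i`, `y = ∑ b_i • x_i ≠ 0` an
eigenclass of `T_τ` with eigenvalue `a'`: then `a' ≡ a` modulo the maximal ideal of `𝒪'`. -/
theorem twe_od_cong {𝒪 𝒪' : Type} [CommRing 𝒪] [IsLocalRing 𝒪] [CommRing 𝒪'] [IsLocalRing 𝒪']
    [IsNoetherianRing 𝒪'] [Algebra 𝒪 𝒪'] [IsLocalHom (algebraMap 𝒪 𝒪')]
    (τ : Module.End ℤ H) (a : 𝒪) {n : ℕ} (b : Fin n → 𝒪') (x : Fin n → (H →+ 𝒪))
    (hx : ∀ i, ∀ k : ℕ, ∃ m : ℕ, ∀ h, ((twe_od_N τ a ^ m) (x i)) h ∈ maximalIdeal 𝒪 ^ k)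
    (hy0 : (∑ i, b i • twe_od_ext 𝒪' (x i)) ≠ 0) (a' : 𝒪')
    (hy : ∀ h, (∑ i, b i • twe_od_ext 𝒪' (x i)) (τ h) =
      a' * (∑ i, b i • twe_od_ext 𝒪' (x i)) h) :
    a' - algebraMap 𝒪 𝒪' a ∈ maximalIdeal 𝒪' := by
  classical
  by_contra hu
  have hunit : IsUnit (a' - algebraMap 𝒪 𝒪' a) := IsLocalRing.notMem_maximalIdeal.mp hu
  obtain ⟨u, hu'⟩ := hunit
  set y : H →+ 𝒪' := ∑ i, b i • twe_od_ext 𝒪' (x i) with hydef
  -- `N' y = u • y`
  have hNy : ∀ m : ℕ, (twe_od_N τ (algebraMap 𝒪 𝒪' a) ^ m) y = ((u : 𝒪') ^ m) • y := by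
    intro m
    induction m with
    | zero => simp
    | succ m ih =>
      rw [pow_succ', Module.End.mul_apply, ih, map_smul, pow_succ, mul_smul]
      congr 1
      refine AddMonoidHom.ext fun h => ?_
      rw [twe_od_N_apply, hy h, AddMonoidHom.smul_apply, smul_eq_mul, hu', sub_mul]
  -- the values of `N^m x_i` stay in `𝔪^k` for larger `m`
  have hstay : ∀ (k : ℕ) (z : H →+ 𝒪), (∀ h, z h ∈ maximalIdeal 𝒪 ^ k) → ∀ m : ℕ,
      ∀ h, ((twe_od_N τ a ^ m) z) h ∈ maximalIdeal 𝒪 ^ k := by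
    intro k z hz m
    induction m generalizing z with
    | zero => simpa using hz
    | succ m ih =>
      intro h
      rw [pow_succ, Module.End.mul_apply]
      refine ih _ (fun h' => ?_) h
      rw [twe_od_N_apply]
      exact Ideal.sub_mem _ (hz _) (Ideal.mul_mem_left _ _ (hz _))
  -- the image of `𝔪^k` lies in `𝔪'^k`
  have hmap : ∀ (k : ℕ) (r : 𝒪), r ∈ maximalIdeal 𝒪 ^ k →
      algebraMap 𝒪 𝒪' r ∈ maximalIdeal 𝒪' ^ k := by
    intro k r hr
    have h1 : algebraMap 𝒪 𝒪' r ∈ (maximalIdeal 𝒪 ^ k).map (algebraMap 𝒪 𝒪') :=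
      Ideal.mem_map_of_mem _ hr
    rw [Ideal.map_pow] at h1
    have h2 : (maximalIdeal 𝒪).map (algebraMap 𝒪 𝒪') ≤ maximalIdeal 𝒪' :=
      ((IsLocalRing.local_hom_TFAE (algebraMap 𝒪 𝒪')).out 0 2).mp
        (inferInstance : IsLocalHom (algebraMap 𝒪 𝒪'))
    exact Ideal.pow_right_mono h2 k h1
  -- every value of `y` lies in every power of the maximal ideal
  have hval : ∀ (h : H) (k : ℕ), y h ∈ maximalIdeal 𝒪' ^ k := by
    intro h k
    choose m hm using fun i => hx i k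
    set m₀ : ℕ := Finset.univ.sup m with hm₀
    have hm' : ∀ i, ∀ h, ((twe_od_N τ a ^ m₀) (x i)) h ∈ maximalIdeal 𝒪 ^ k := by
      intro i h
      have hle : m i ≤ m₀ := Finset.le_sup (Finset.mem_univ i)
      obtain ⟨d, hd⟩ := Nat.exists_eq_add_of_le hle
      rw [hd, add_comm, pow_add, Module.End.mul_apply]
      exact hstay k _ (hm i) d h
    have h1 : ((u : 𝒪') ^ m₀) * y h ∈ maximalIdeal 𝒪' ^ k := by
      have h2 := DFunLike.congr_fun (hNy m₀) h
      rw [AddMonoidHom.smul_apply, smul_eq_mul] at h2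
      rw [← h2, hydef, map_sum, AddMonoidHom.finsetSum_apply]
      refine Ideal.sum_mem _ fun i _ => ?_
      rw [map_smul, ← twe_od_ext_N, AddMonoidHom.smul_apply, smul_eq_mul, twe_od_ext_apply]
      exact Ideal.mul_mem_left _ _ (hmap k _ (hm' i h))
    have h3 : y h = ((u⁻¹ : 𝒪'ˣ) : 𝒪') ^ m₀ * (((u : 𝒪') ^ m₀) * y h) := by
      rw [← mul_assoc, ← mul_pow, Units.inv_mul, one_pow, one_mul]
    rw [h3]
    exact Ideal.mul_mem_left _ _ h1
  apply hy0
  refine AddMonoidHom.ext fun h => ?_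
  have h1 : y h ∈ (⨅ k : ℕ, maximalIdeal 𝒪' ^ k) := (Ideal.mem_iInf).mpr (hval h)
  rw [Ideal.iInf_pow_eq_bot_of_isLocalRing (maximalIdeal 𝒪')
    (Ideal.IsMaximal.ne_top inferInstance), Ideal.mem_bot] at h1
  rw [h1, AddMonoidHom.zero_apply]

end cong

section descent

variable {H : Type} [AddCommGroup H] [Module.Free ℤ H] [Module.Finite ℤ H]

/-- **descent of a common eigenclass to a complete DVR finite over `𝒪`** (with the integrality of
`𝒪'` over `𝒪`). -/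
theorem twe_od_main_int {𝒪 : Type} [CommRing 𝒪] [IsDomain 𝒪] [IsDiscreteValuationRing 𝒪]
    [IsAdicComplete (maximalIdeal 𝒪) 𝒪] [Finite (ResidueField 𝒪)] [CharZero 𝒪]
    (𝒯 : Set (Module.End ℤ H)) (Y : Submodule 𝒪 (H →+ 𝒪))
    (c : H →+ AlgebraicClosure (FractionRing 𝒪)) (hc0 : c ≠ 0)
    (hcY : c ∈ Submodule.span (AlgebraicClosure (FractionRing 𝒪))
      ((twe_od_ext (𝒪 := 𝒪) (AlgebraicClosure (FractionRing 𝒪))) '' (Y : Set (H →+ 𝒪))))
    (hce : ∀ τ ∈ 𝒯, ∃ χ : AlgebraicClosure (FractionRing 𝒪), ∀ h, c (τ h) = χ * c h) :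
    ∃ (𝒪' : Type) (_ : CommRing 𝒪') (_ : IsDomain 𝒪') (_ : IsDiscreteValuationRing 𝒪')
      (_ : IsAdicComplete (maximalIdeal 𝒪') 𝒪') (_ : Finite (ResidueField 𝒪')) (_ : CharZero 𝒪')
      (_ : Algebra 𝒪 𝒪') (_ : IsLocalHom (algebraMap 𝒪 𝒪'))
      (ι : 𝒪' →ₐ[𝒪] AlgebraicClosure (FractionRing 𝒪))
      (n : ℕ) (b : Fin n → 𝒪') (x : Fin n → (H →+ 𝒪)) (a' : Module.End ℤ H → 𝒪'),
      Function.Injective ι ∧ (∀ i, x i ∈ Y) ∧
      (∑ i, b i • twe_od_ext 𝒪' (x i)) ≠ 0 ∧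
      (∀ τ ∈ 𝒯, ∀ h, (∑ i, b i • twe_od_ext 𝒪' (x i)) (τ h) =
        a' τ * (∑ i, b i • twe_od_ext 𝒪' (x i)) h) ∧
      (∀ τ ∈ 𝒯, ∀ χ : AlgebraicClosure (FractionRing 𝒪),
        (∀ h, c (τ h) = χ * c h) → ι (a' τ) = χ) ∧
      (∀ z : 𝒪', IsIntegral 𝒪 z) := by
  classical
  set K := FractionRing 𝒪 with hK
  set Kb := AlgebraicClosure K with hKb
  have hinjKb : Function.Injective (algebraMap 𝒪 Kb) := by
    rw [IsScalarTower.algebraMap_eq 𝒪 K Kb]
    exact (algebraMap K Kb).injective.comp (IsFractionRing.injective 𝒪 K)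
  -- a point where `c` does not vanish
  obtain ⟨h₀, hh₀⟩ : ∃ h₀, c h₀ ≠ 0 := by
    by_contra hall
    refine hc0 (AddMonoidHom.ext fun h => ?_)
    rw [AddMonoidHom.zero_apply]
    by_contra hne
    exact hall ⟨h, hne⟩
  -- the algebra of the endomorphisms of `H` having `c` as an eigenclass
  let Bc : Subalgebra ℤ (Module.End ℤ H) :=
    { carrier := {b | ∃ χ : Kb, ∀ h, c (b h) = χ * c h}
      mul_mem' := by
        rintro b b' ⟨χ, hχ⟩ ⟨χ', hχ'⟩
        exact ⟨χ * χ', fun h => by rw [Module.End.mul_apply, hχ, hχ', mul_assoc]⟩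
      one_mem' := ⟨1, fun h => by rw [Module.End.one_apply, one_mul]⟩
      add_mem' := by
        rintro b b' ⟨χ, hχ⟩ ⟨χ', hχ'⟩
        exact ⟨χ + χ', fun h => by rw [LinearMap.add_apply, map_add, hχ, hχ', add_mul]⟩
      zero_mem' := ⟨0, fun h => by rw [LinearMap.zero_apply, map_zero, zero_mul]⟩
      algebraMap_mem' := fun k => ⟨(k : Kb), fun h => by
        rw [Module.algebraMap_end_apply, map_zsmul, zsmul_eq_mul]⟩ }
  have hBc : ∀ b : Module.End ℤ H, b ∈ Bc ↔ ∃ χ : Kb, ∀ h, c (b h) = χ * c h := fun b => Iff.rfl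
  -- the eigenvalue
  let ev : Bc → Kb := fun b => c ((b : Module.End ℤ H) h₀) / c h₀
  have hev : ∀ (b : Bc) (h : H), c ((b : Module.End ℤ H) h) = ev b * c h := by
    intro b h
    obtain ⟨χ, hχ⟩ := (hBc _).1 b.2
    show c ((b : Module.End ℤ H) h) = c ((b : Module.End ℤ H) h₀) / c h₀ * c h
    rw [hχ h, hχ h₀, mul_div_assoc, div_self hh₀, mul_one]
  have hev_unique : ∀ (b : Bc) (χ : Kb), (∀ h, c ((b : Module.End ℤ H) h) = χ * c h) →
      ev b = χ := by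
    intro b χ hχ
    show c ((b : Module.End ℤ H) h₀) / c h₀ = χ
    rw [hχ h₀, mul_div_assoc, div_self hh₀, mul_one]
  let chi : Bc →+* Kb :=
    { toFun := ev
      map_one' := hev_unique 1 1 (fun h => by
        rw [OneMemClass.coe_one, Module.End.one_apply, one_mul])
      map_mul' := fun b b' => hev_unique (b * b') (ev b * ev b') (fun h => by
        rw [MulMemClass.coe_mul, Module.End.mul_apply, hev b, hev b', mul_assoc])
      map_zero' := hev_unique 0 0 (fun h => by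
        rw [ZeroMemClass.coe_zero, LinearMap.zero_apply, map_zero, zero_mul])
      map_add' := fun b b' => hev_unique (b + b') (ev b + ev b') (fun h => by
        rw [AddMemClass.coe_add, LinearMap.add_apply, map_add, hev b, hev b', add_mul]) }
  have hchi : ∀ b : Bc, chi b = ev b := fun b => rfl
  -- finiteness
  haveI : IsNoetherian ℤ (Module.End ℤ H) := isNoetherian_of_isNoetherianRing_of_finite ℤ _
  haveI : Module.Finite ℤ Bc :=
    Module.Finite.of_injective Bc.val.toLinearMap Subtype.val_injective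
  -- integrality of the eigenvalues
  have hint : ∀ b : Bc, IsIntegral 𝒪 (ev b) := by
    intro b
    obtain ⟨P, hPm, hP0⟩ : IsIntegral ℤ b := Algebra.IsIntegral.isIntegral b
    refine ⟨P.map (Int.castRingHom 𝒪), hPm.map _, ?_⟩
    rw [Polynomial.eval₂_map]
    have h1 : (algebraMap 𝒪 Kb).comp (Int.castRingHom 𝒪) = chi.comp (algebraMap ℤ Bc) :=
      RingHom.ext_int _ _
    rw [h1, ← hchi, ← Polynomial.hom_eval₂, hP0, map_zero]
  -- a finite generating set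
  obtain ⟨G, hG⟩ := (Module.Finite.fg_top : (⊤ : Submodule ℤ Bc).FG)
  set s : Finset Kb := G.image ev with hs
  -- the field generated by the eigenvalues
  set E : IntermediateField K Kb := IntermediateField.adjoin K (s : Set Kb) with hE
  haveI : FiniteDimensional K E := by
    refine IntermediateField.finiteDimensional_adjoin (fun z hz => ?_)
    obtain ⟨g, -, rfl⟩ := Finset.mem_image.1 (Finset.mem_coe.1 hz)
    exact (hint g).tower_top
  have hevE : ∀ b : Bc, ev b ∈ E := by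
    intro b
    have hb : b ∈ Submodule.span ℤ (G : Set Bc) := by rw [hG]; trivial
    induction hb using Submodule.span_induction with
    | mem g hg =>
      exact IntermediateField.subset_adjoin K _
        (Finset.mem_coe.2 (Finset.mem_image_of_mem ev hg))
    | zero =>
      rw [← hchi, map_zero]
      exact E.zero_mem
    | add u v _ _ hu hv =>
      rw [← hchi, map_add]
      exact E.add_mem hu hv
    | smul k u _ hu =>
      rw [← hchi, map_zsmul]
      exact zsmul_mem hu k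
  -- the DVR
  haveI hloc : IsLocalRing (integralClosure 𝒪 E) := pkd_isLocalRing 𝒪 K E
  haveI hdvr : IsDiscreteValuationRing (integralClosure 𝒪 E) := pkd_isDVR 𝒪 K E
  haveI hfrac : IsFractionRing (integralClosure 𝒪 E) E :=
    integralClosure.isFractionRing_of_finite_extension K E
  have hcoe : ∀ r : 𝒪, ((algebraMap 𝒪 E r : E) : Kb) = algebraMap 𝒪 Kb r := fun r => rfl
  let ι₀ : E →ₐ[𝒪] Kb :=
    { toFun := fun e => (e : Kb)
      map_one' := rfl
      map_mul' := fun _ _ => rfl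
      map_zero' := rfl
      map_add' := fun _ _ => rfl
      commutes' := hcoe }
  let ι : integralClosure 𝒪 E →ₐ[𝒪] Kb := ι₀.comp (integralClosure 𝒪 E).val
  have hι : ∀ z : integralClosure 𝒪 E, ι z = ((z : E) : Kb) := fun z => rfl
  have hιinj : Function.Injective ι := by
    intro z z' hzz
    exact Subtype.ext (Subtype.ext hzz)
  -- a functional which does not vanish at `c h₀`
  obtain ⟨φ, hφ⟩ : ∃ φ : Module.Dual E Kb, φ (c h₀) ≠ 0 := by
    by_contra hall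
    refine hh₀ ((Module.forall_dual_apply_eq_zero_iff E (c h₀)).1 fun φ => ?_)
    by_contra hne
    exact hall ⟨φ, hne⟩
  have hφmul : ∀ (e : E) (k : Kb), φ ((e : Kb) * k) = e * φ k := by
    intro e k
    have h1 := φ.map_smul e k
    rw [smul_eq_mul] at h1
    rw [← h1]
    rfl
  -- the decomposition of `c`
  obtain ⟨n, kk, g, hsum⟩ := Submodule.mem_span_set'.1 hcY
  choose x hxY hxg using fun i => (g i).2
  have hcsum : ∀ h, c h = ∑ i, kk i * algebraMap 𝒪 Kb (x i h) := by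
    intro h
    rw [← hsum, AddMonoidHom.finsetSum_apply]
    refine Finset.sum_congr rfl fun i _ => ?_
    rw [AddMonoidHom.smul_apply, smul_eq_mul, ← hxg i, twe_od_ext_apply]
  have hφc : ∀ h, φ (c h) = ∑ i, algebraMap 𝒪 E (x i h) * φ (kk i) := by
    intro h
    rw [hcsum h, map_sum]
    refine Finset.sum_congr rfl fun i _ => ?_
    rw [← hcoe, mul_comm (kk i), hφmul]
  -- a common denominator
  obtain ⟨d, hd⟩ := IsLocalization.exist_integer_multiples (nonZeroDivisors (integralClosure 𝒪 E))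
    (Finset.univ : Finset (Fin n)) (fun i => φ (kk i))
  choose b hb using fun i => hd i (Finset.mem_univ i)
  have hd0 : algebraMap (integralClosure 𝒪 E) E (d : integralClosure 𝒪 E) ≠ 0 := by
    intro h0
    have h1 : (d : integralClosure 𝒪 E) = 0 :=
      (IsFractionRing.injective (integralClosure 𝒪 E) E) (h0.trans (map_zero _).symm)
    exact (nonZeroDivisors.ne_zero d.2) h1
  set y : H →+ integralClosure 𝒪 E := ∑ i, b i • twe_od_ext (integralClosure 𝒪 E) (x i) with hy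
  have hyval : ∀ h, algebraMap (integralClosure 𝒪 E) E (y h) =
      algebraMap (integralClosure 𝒪 E) E (d : integralClosure 𝒪 E) * φ (c h) := by
    intro h
    rw [hy, AddMonoidHom.finsetSum_apply, map_sum, hφc h, Finset.mul_sum]
    refine Finset.sum_congr rfl fun i _ => ?_
    rw [AddMonoidHom.smul_apply, smul_eq_mul, map_mul, twe_od_ext_apply, hb i, Algebra.smul_def,
      ← IsScalarTower.algebraMap_apply 𝒪 (integralClosure 𝒪 E) E]
    ring
  -- the eigenvalues in `𝒪'`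
  have hevint : ∀ b : Bc, (⟨ev b, hevE b⟩ : E) ∈ integralClosure 𝒪 E := by
    intro b
    exact (isIntegral_algHom_iff ι₀ (fun e e' hee => Subtype.ext hee)).1 (hint b)
  let a' : Module.End ℤ H → integralClosure 𝒪 E := fun τ =>
    if hτ : τ ∈ Bc then ⟨⟨ev ⟨τ, hτ⟩, hevE ⟨τ, hτ⟩⟩, hevint ⟨τ, hτ⟩⟩ else 0
  have ha' : ∀ τ (hτ : τ ∈ Bc), ((a' τ : E) : Kb) = ev ⟨τ, hτ⟩ := by
    intro τ hτ
    have h1 : a' τ = ⟨⟨ev ⟨τ, hτ⟩, hevE ⟨τ, hτ⟩⟩, hevint ⟨τ, hτ⟩⟩ := dif_pos hτ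
    rw [h1]
  refine ⟨integralClosure 𝒪 E, inferInstance, inferInstance, hdvr, pkd_isAdicComplete 𝒪 K E,
    pkd_finite_residue 𝒪 K E, pkd_charZero 𝒪 K E, inferInstance, pkd_isLocalHom 𝒪 K E, ι, n, b, x,
    a', hιinj, hxY, ?_, ?_, ?_, fun z => Algebra.IsIntegral.isIntegral z⟩
  · intro h0
    have h0' : y = 0 := h0
    have h1 := hyval h₀
    rw [h0', AddMonoidHom.zero_apply, map_zero] at h1
    rcases mul_eq_zero.1 h1.symm with h2 | h2
    · exact hd0 h2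
    · exact hφ h2
  · intro τ hτ h
    have hτB : τ ∈ Bc := (hBc τ).2 (hce τ hτ)
    apply IsFractionRing.injective (integralClosure 𝒪 E) E
    rw [map_mul, hyval, hyval]
    have h1 : c (τ h) = ((a' τ : E) : Kb) * c h := by
      rw [ha' τ hτB]
      exact hev ⟨τ, hτB⟩ h
    rw [h1, hφmul]
    show _ = (a' τ : E) * _
    ring
  · intro τ hτ χ hχ
    have hτB : τ ∈ Bc := (hBc τ).2 ⟨χ, hχ⟩
    rw [hι, ha' τ hτB]
    exact hev_unique ⟨τ, hτB⟩ χ hχ

/-- **descent of a common eigenclass to a complete DVR finite over `𝒪`.** -/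
theorem twe_od_main {𝒪 : Type} [CommRing 𝒪] [IsDomain 𝒪] [IsDiscreteValuationRing 𝒪]
    [IsAdicComplete (maximalIdeal 𝒪) 𝒪] [Finite (ResidueField 𝒪)] [CharZero 𝒪]
    (𝒯 : Set (Module.End ℤ H)) (Y : Submodule 𝒪 (H →+ 𝒪))
    (c : H →+ AlgebraicClosure (FractionRing 𝒪)) (hc0 : c ≠ 0)
    (hcY : c ∈ Submodule.span (AlgebraicClosure (FractionRing 𝒪))
      ((twe_od_ext (𝒪 := 𝒪) (AlgebraicClosure (FractionRing 𝒪))) '' (Y : Set (H →+ 𝒪))))
    (hce : ∀ τ ∈ 𝒯, ∃ χ : AlgebraicClosure (FractionRing 𝒪), ∀ h, c (τ h) = χ * c h) :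
    ∃ (𝒪' : Type) (_ : CommRing 𝒪') (_ : IsDomain 𝒪') (_ : IsDiscreteValuationRing 𝒪')
      (_ : IsAdicComplete (maximalIdeal 𝒪') 𝒪') (_ : Finite (ResidueField 𝒪')) (_ : CharZero 𝒪')
      (_ : Algebra 𝒪 𝒪') (_ : IsLocalHom (algebraMap 𝒪 𝒪'))
      (ι : 𝒪' →ₐ[𝒪] AlgebraicClosure (FractionRing 𝒪))
      (n : ℕ) (b : Fin n → 𝒪') (x : Fin n → (H →+ 𝒪)) (a' : Module.End ℤ H → 𝒪'),
      Function.Injective ι ∧ (∀ i, x i ∈ Y) ∧
      (∑ i, b i • twe_od_ext 𝒪' (x i)) ≠ 0 ∧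
      (∀ τ ∈ 𝒯, ∀ h, (∑ i, b i • twe_od_ext 𝒪' (x i)) (τ h) =
        a' τ * (∑ i, b i • twe_od_ext 𝒪' (x i)) h) ∧
      (∀ τ ∈ 𝒯, ∀ χ : AlgebraicClosure (FractionRing 𝒪),
        (∀ h, c (τ h) = χ * c h) → ι (a' τ) = χ) := by
  obtain ⟨𝒪', i1, i2, i3, i4, i5, i6, i7, i8, ι, n, b, x, a', h1, h2, h3, h4, h5, -⟩ :=
    twe_od_main_int 𝒯 Y c hc0 hcY hce
  exact ⟨𝒪', i1, i2, i3, i4, i5, i6, i7, i8, ι, n, b, x, a', h1, h2, h3, h4, h5⟩

/-- **existence of an integral eigenclass in a nonzero stable submodule.** -/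
theorem twe_od_exists {𝒪 : Type} [CommRing 𝒪] [IsDomain 𝒪] [IsDiscreteValuationRing 𝒪]
    [IsAdicComplete (maximalIdeal 𝒪) 𝒪] [Finite (ResidueField 𝒪)] [CharZero 𝒪]
    (𝒯 : Set (Module.End ℤ H)) (hcomm : ∀ τ ∈ 𝒯, ∀ τ' ∈ 𝒯, Commute τ τ')
    (Y : Submodule 𝒪 (H →+ 𝒪)) (hY : Y ≠ ⊥)
    (hst : ∀ τ ∈ 𝒯, ∀ x ∈ Y, x.comp τ.toAddMonoidHom ∈ Y) :
    ∃ (𝒪' : Type) (_ : CommRing 𝒪') (_ : IsDomain 𝒪') (_ : IsDiscreteValuationRing 𝒪')
      (_ : IsAdicComplete (maximalIdeal 𝒪') 𝒪') (_ : Finite (ResidueField 𝒪')) (_ : CharZero 𝒪')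
      (_ : Algebra 𝒪 𝒪') (_ : IsLocalHom (algebraMap 𝒪 𝒪'))
      (n : ℕ) (b : Fin n → 𝒪') (x : Fin n → (H →+ 𝒪)) (a' : Module.End ℤ H → 𝒪'),
      (∀ i, x i ∈ Y) ∧
      (∑ i, b i • twe_od_ext 𝒪' (x i)) ≠ 0 ∧
      (∀ τ ∈ 𝒯, ∀ h, (∑ i, b i • twe_od_ext 𝒪' (x i)) (τ h) =
        a' τ * (∑ i, b i • twe_od_ext 𝒪' (x i)) h) := by
  have hinjKb : Function.Injective (algebraMap 𝒪 (AlgebraicClosure (FractionRing 𝒪))) := by
    rw [IsScalarTower.algebraMap_eq 𝒪 (FractionRing 𝒪) (AlgebraicClosure (FractionRing 𝒪))]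
    exact (algebraMap (FractionRing 𝒪) (AlgebraicClosure (FractionRing 𝒪))).injective.comp
      (IsFractionRing.injective 𝒪 (FractionRing 𝒪))
  obtain ⟨c, hc0, hcY, hce⟩ := twe_od_eigen hinjKb 𝒯 hcomm Y hY hst
  obtain ⟨𝒪', i1, i2, i3, i4, i5, i6, i7, i8, ι, n, b, x, a', -, hx, hy0, hy, -⟩ :=
    twe_od_main 𝒯 Y c hc0 hcY hce
  exact ⟨𝒪', i1, i2, i3, i4, i5, i6, i7, i8, n, b, x, a', hx, hy0, hy⟩

end descent

end Fermat.Agent.TW
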