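import Mathlib
import Fermat.Agent.TW.Aut.OldGal

/-!
# ONE MACHINE / block [E] AUT, cell E/OldMain, part 2: the eigenvalue form of 'S versus S ∪ Q'
(helper14; referee flag (G2), route (b)).  Prefix `twe_oe_`.

`c ≠ 0 : gh_H M →+ K` (`K = Frac O`, `O` a complete DVR of characteristic `0`) a common eigenclass of
the `t2f_TH M ℓ` at ALL the primes `ℓ` good for `(M, S)`, with eigenvalues `a ℓ ∈ O`.  If
`a ℓ ≡ θ(T_ℓ)` for the good primes OUTSIDE a finite set `E`, then `a ℓ ≡ θ(T_ℓ)` at EVERY good prime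
(in particular at `ℓ = t ∈ E`): the Galois representation attached to the eigenclass
(`twe_og_core`, `Z = ⊤`) and `ρ̄` have the same characteristic polynomials at the Frobenius elements
outside `S ∪ E`, hence everywhere (`twe_og_res_charpoly_eq`), and `twt_Compat` at `ℓ` reads the
trace off.

* `twe_oe_tate`   : from a Betti eigenclass to an eigenvector of `K ⊗ T_p J₀(M)`;
* `twe_oe_rep`    : the Galois representation of an eigenclass;
* `twe_oe_compat` : the congruence at every good prime.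
-/

set_option autoImplicit false
set_option linter.unusedSectionVars false
set_option linter.unusedVariables false
set_option linter.style.haveILetI false
set_option synthInstance.maxHeartbeats 400000
set_option maxHeartbeats 1000000

noncomputable section

namespace Fermat.Agent.TW

open IsLocalRing TensorProduct Polynomial ModularCurve Fermat.Agent.JT3 Fermat.Agent.S35
  Fermat.Agent.S36

local notation "GQ" => (AlgebraicClosure ℚ ≃ₐ[ℚ] AlgebraicClosure ℚ)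
local notation "Qbar" => AlgebraicClosure ℚ

/-- from a Betti eigenclass to an eigenvector of `K ⊗ T_p J₀(M)`. -/
theorem twe_oe_tate (M p : ℕ) [NeZero M] [Fact p.Prime] (S : Finset ℕ)
    (K : Type*) [Field K] [Algebra ℤ_[p] K]
    (hinj : Function.Injective (algebraMap ℤ_[p] K))
    (a : ℕ → K) (c : gh_H M →+ K) (hc0 : c ≠ 0)
    (hce : ∀ ℓ, pk_Good M S ℓ → ∀ h, c (t2f_TH M ℓ h) = a ℓ * c h) :
    ∃ v : K ⊗[ℤ_[p]] tj_T M p, v ≠ 0 ∧
      ∀ ℓ, pk_Good M S ℓ → (tjp_Tl M p S ℓ).baseChange K v = a ℓ • v := by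
  obtain ⟨v, hv⟩ := twlg_tn_Psi_surj M p K hinj c
  have hT : ∀ ℓ, pk_Good M S ℓ → ∀ (u : K ⊗[ℤ_[p]] tj_T M p) (h : gh_H M),
      twlg_tn_Psi M p K ((tjp_Tl M p S ℓ).baseChange K u) h =
        twlg_tn_Psi M p K u (t2f_TH M ℓ h) := by
    intro ℓ hℓ u h
    induction u using TensorProduct.induction_on with
    | zero => simp
    | tmul k x =>
      rw [LinearMap.baseChange_tmul, twlg_tn_Psi_tmul, twlg_tn_Psi_tmul, tjp_he M p S ℓ hℓ x]
      rfl
    | add u w hu hw => simp only [map_add, Pi.add_apply, hu, hw]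
  refine ⟨v, ?_, ?_⟩
  · rintro rfl
    apply hc0
    refine DFunLike.ext _ _ fun h => ?_
    rw [← hv h, map_zero]
    rfl
  · intro ℓ hℓ
    apply twlg_tn_Psi_injective M p K hinj
    funext h
    rw [hT ℓ hℓ, twlg_tn_Psi_smul, hv, hv, hce ℓ hℓ]

section main

variable (M p : ℕ) [NeZero M] [Fact p.Prime] (S : Finset ℕ)
  (O : Type) [CommRing O] [IsDomain O] [IsDiscreteValuationRing O]
  [IsAdicComplete (maximalIdeal O) O] [CharZero O] [Algebra ℤ_[p] O]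
  (K : Type) [Field K] [Algebra O K] [IsFractionRing O K] [Algebra ℤ_[p] K]
  [IsScalarTower ℤ_[p] O K]

/-- **the Galois representation of a Betti eigenclass.** -/
theorem twe_oe_rep (hpS : p ∈ S) (hNS : ∀ r : ℕ, r.Prime → r ∣ M → r ∈ S)
    (hp : (p : O) ∈ maximalIdeal O) (a : ℕ → O) (c : gh_H M →+ K) (hc0 : c ≠ 0)
    (hce : ∀ ℓ, pk_Good M S ℓ → ∀ h, c (t2f_TH M ℓ h) = algebraMap O K (a ℓ) * c h) :
    ∃ ρ' : GaloisRepAdic O,
      ∀ ℓ : ℕ, pk_Good M S ℓ → ∀ A : ValuationSubring Qbar, A.LiesOverPrime ℓ →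
        ∀ φ : GQ, A.IsFrobeniusAt φ ℓ →
          LinearMap.charpoly (ρ'.ρ φ) = X ^ 2 - C (a ℓ) * X + C ((ℓ : O)) := by
  have hinjO : Function.Injective (algebraMap ℤ_[p] O) := pk_padic_injective p (algebraMap ℤ_[p] O)
  have hinj : Function.Injective (algebraMap ℤ_[p] K) := by
    rw [IsScalarTower.algebraMap_eq ℤ_[p] O K]
    exact (IsFractionRing.injective O K).comp hinjO
  obtain ⟨v, hv0, hv⟩ := twe_oe_tate M p S K hinj (fun ℓ => algebraMap O K (a ℓ)) c hc0 hce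
  set D : pk_Tate p M S := tjp_tate M p S hpS (tji_nodeE M) (tji_S18 M) with hD
  obtain ⟨ρ', h1, -, -⟩ := twe_og_core p M S (tj_rho M p) (tjp_Tl M p S) O K hpS hNS D.cont
    D.unram D.Tl_ρ D.frob hp a ⊤ (fun σ u _ => Submodule.mem_top)
    ⟨v, hv0, Submodule.mem_top, hv⟩
  exact ⟨ρ', h1⟩

/-- **(G2), eigenvalue form.** The congruence `a ℓ ≡ θ(T_ℓ)` at the good primes outside a finite
set `E` propagates to EVERY good prime. -/
theorem twe_oe_compat (hpS : p ∈ S) (hNS : ∀ r : ℕ, r.Prime → r ∣ M → r ∈ S)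
    (hp : (p : O) ∈ maximalIdeal O) (a : ℕ → O) (c : gh_H M →+ K) (hc0 : c ≠ 0)
    (hce : ∀ ℓ, pk_Good M S ℓ → ∀ h, c (t2f_TH M ℓ h) = algebraMap O K (a ℓ) * c h)
    {N₀ : ℕ} [NeZero N₀] {S₀ : Finset ℕ}
    (θ : CuspForm.heckeAlgebra N₀ 2 (↑S₀ : Set ℕ) →+* ResidueField O)
    (ρbar : ResidualGaloisRep (ResidueField O)) (hcompat : twt_Compat θ ρbar)
    (hgood : ∀ ℓ, pk_Good M S ℓ → ¬ ℓ ∣ N₀ ∧ ℓ ∉ (↑S₀ : Set ℕ))
    (E : Finset ℕ)
    (ha : ∀ ℓ, pk_Good M S ℓ → ℓ ∉ E → ∀ (hℓ : ℓ.Prime) (h1 : ¬ ℓ ∣ N₀) (h2 : ℓ ∉ (↑S₀ : Set ℕ)),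
      residue O (a ℓ) = θ (CuspForm.heckeAlgebra.T hℓ h1 h2)) :
    ∀ ℓ, pk_Good M S ℓ → ∀ (hℓ : ℓ.Prime) (h1 : ¬ ℓ ∣ N₀) (h2 : ℓ ∉ (↑S₀ : Set ℕ)),
      residue O (a ℓ) = θ (CuspForm.heckeAlgebra.T hℓ h1 h2) := by
  classical
  obtain ⟨ρ', hρ'⟩ := twe_oe_rep M p S O K hpS hNS hp a c hc0 hce
  have heq : ∀ σ : GQ, LinearMap.charpoly (ρ'.residual.ρ σ) = LinearMap.charpoly (ρbar.ρ σ) :=
    twe_og_res_charpoly_eq ρ'.residual ρbar (S ∪ E) (fun ℓ hℓ hℓSE B hB ψ hψ => by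
      have hℓS : ℓ ∉ S := fun h => hℓSE (Finset.mem_union_left _ h)
      have hℓE : ℓ ∉ E := fun h => hℓSE (Finset.mem_union_right _ h)
      have hg : pk_Good M S ℓ :=
        ⟨hℓ, fun hdvd => hℓS (hNS ℓ hℓ hdvd), fun h => hℓS (Finset.mem_coe.1 h)⟩
      rw [twe_og_residual_charpoly, hρ' ℓ hg B hB ψ hψ,
        hcompat ℓ hℓ (hgood ℓ hg).1 (hgood ℓ hg).2 B hB ψ hψ, twe_og_map_quad, map_natCast,
        ha ℓ hg hℓE hℓ (hgood ℓ hg).1 (hgood ℓ hg).2])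
  intro ℓ hg hℓ h1 h2
  obtain ⟨A, φ, hA, hφ⟩ := Fermat.Agent.S54.exists_isFrobeniusAt hℓ
  have h3 := heq φ
  rw [twe_og_residual_charpoly, hρ' ℓ hg A hA φ hφ, hcompat ℓ hℓ h1 h2 A hA φ hφ, twe_og_map_quad,
    map_natCast] at h3
  exact twe_og_coeff_one _ _ _ _ h3

end main

end Fermat.Agent.TW
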