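import Mathlib
import Fermat.Agent.TW.Aut.EigDesc

/-!
# ONE MACHINE / block [E] AUT, cell E/OldMain, part 3: generic algebra (helper14).  Prefix `twe_ou_`.

* `twe_ou_isUnit`    : an endomorphism `f` of a finite free module over a domain `𝒪 ⊆ K̄` all of whose
  eigenvalues over `K̄` have an inverse which is integral over `𝒪` is invertible
  (`det f = ∏ eigenvalues`; an integral extension reflects units).
* `twe_ou_val_mem`   : the values of an element of `𝔪^k • Hom(H, 𝒪)` lie in `𝔪^k`.
* `twe_ou_map_prim`  : an equivariant map carries `(T - a)`-topologically nilpotent elements to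
  `(T' - a)`-topologically nilpotent elements.
* `twe_ou_inv_poly`  : Cayley–Hamilton: if `g` preserves `P ≤ X` and `g|P` is invertible, then there
  is a polynomial `D'` in `g` which inverts `g` on `P`.
-/

set_option autoImplicit false
set_option linter.unusedSectionVars false
set_option linter.unusedVariables false
set_option linter.style.haveILetI false

noncomputable section

namespace Fermat.Agent.TW

open IsLocalRing TensorProduct Fermat.Agent.LR

section unit

/-- a product of elements with integral inverses has an integral inverse. -/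
theorem twe_ou_prod_inv {𝒪 Kb : Type*} [CommRing 𝒪] [Field Kb] [Algebra 𝒪 Kb] (s : Multiset Kb)
    (h : ∀ lam ∈ s, ∃ μ : Kb, IsIntegral 𝒪 μ ∧ lam * μ = 1) :
    ∃ μ : Kb, IsIntegral 𝒪 μ ∧ s.prod * μ = 1 := by
  induction s using Multiset.induction_on with
  | empty => exact ⟨1, isIntegral_one, by simp⟩
  | cons a s ih =>
    obtain ⟨μ₁, h1, h1'⟩ := h a (Multiset.mem_cons_self a s)
    obtain ⟨μ₂, h2, h2'⟩ := ih (fun lam hlam => h lam (Multiset.mem_cons_of_mem hlam))
    refine ⟨μ₁ * μ₂, h1.mul h2, ?_⟩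
    rw [Multiset.prod_cons]
    calc a * s.prod * (μ₁ * μ₂) = (a * μ₁) * (s.prod * μ₂) := by ring
      _ = 1 := by rw [h1', h2', one_mul]

/-- **invertibility from the eigenvalues.** -/
theorem twe_ou_isUnit {𝒪 : Type*} [CommRing 𝒪] [IsDomain 𝒪] {Kb : Type*} [Field Kb]
    [IsAlgClosed Kb] [Algebra 𝒪 Kb] (hinj : Function.Injective (algebraMap 𝒪 Kb))
    {P : Type*} [AddCommGroup P] [Module 𝒪 P] [Module.Free 𝒪 P] [Module.Finite 𝒪 P]
    (f : Module.End 𝒪 P)
    (h : ∀ lam : Kb, Module.End.HasEigenvalue (f.baseChange Kb) lam →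
      ∃ μ : Kb, IsIntegral 𝒪 μ ∧ lam * μ = 1) : IsUnit f := by
  rw [LinearMap.isUnit_iff_isUnit_det]
  have h1 : LinearMap.det (f.baseChange Kb) = algebraMap 𝒪 Kb (LinearMap.det f) :=
    LinearMap.det_baseChange f
  have hs : (f.baseChange Kb).charpoly.Splits := IsAlgClosed.splits _
  have h2 := Module.End.det_eq_prod_roots_charpoly_of_splits hs
  obtain ⟨μ, hμ, hμ1⟩ := twe_ou_prod_inv (𝒪 := 𝒪) (f.baseChange Kb).charpoly.roots
    (fun lam hlam => h lam ((Module.End.hasEigenvalue_iff_isRoot_charpoly _ _).2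
      (Polynomial.isRoot_of_mem_roots hlam)))
  rw [← h2, h1] at hμ1
  -- an integral extension reflects units
  haveI : FaithfulSMul 𝒪 (integralClosure 𝒪 Kb) := by
    rw [faithfulSMul_iff_algebraMap_injective]
    intro a b hab
    apply hinj
    have := congrArg (algebraMap (integralClosure 𝒪 Kb) Kb) hab
    rwa [← IsScalarTower.algebraMap_apply, ← IsScalarTower.algebraMap_apply] at this
  haveI : IsLocalHom (algebraMap 𝒪 (integralClosure 𝒪 Kb)) := inferInstance
  refine isUnit_of_map_unit (algebraMap 𝒪 (integralClosure 𝒪 Kb)) _ ?_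
  refine IsUnit.of_mul_eq_one (⟨μ, hμ⟩ : integralClosure 𝒪 Kb) ?_
  exact Subtype.ext hμ1

end unit

section prim

variable {𝒪 : Type} [CommRing 𝒪] [IsLocalRing 𝒪] {H H' : Type} [AddCommGroup H] [AddCommGroup H']

/-- the values of an element of `𝔪^k • Hom(H, 𝒪)` lie in `𝔪^k`. -/
theorem twe_ou_val_mem (I : Ideal 𝒪) (x : H →+ 𝒪)
    (hx : x ∈ I • (⊤ : Submodule 𝒪 (H →+ 𝒪))) (h : H) : x h ∈ I := by
  refine Submodule.smul_induction_on hx (fun r hr m _ => ?_) (fun u v hu hv => ?_)
  · rw [AddMonoidHom.smul_apply, smul_eq_mul]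
    exact Ideal.mul_mem_right _ _ hr
  · rw [AddMonoidHom.add_apply]
    exact Ideal.add_mem _ hu hv

/-- a linear map carries `I • ⊤` into `I • ⊤`. -/
theorem twe_ou_map_smul_top {X X' : Type*} [AddCommGroup X] [Module 𝒪 X] [AddCommGroup X']
    [Module 𝒪 X'] (F : X →ₗ[𝒪] X') (I : Ideal 𝒪) (x : X)
    (hx : x ∈ I • (⊤ : Submodule 𝒪 X)) : F x ∈ I • (⊤ : Submodule 𝒪 X') := by
  refine Submodule.smul_induction_on hx (fun r hr m _ => ?_) (fun u v hu hv => ?_)
  · rw [map_smul]
    exact Submodule.smul_mem_smul hr Submodule.mem_top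
  · rw [map_add]
    exact Submodule.add_mem _ hu hv

/-- intertwining of the powers. -/
theorem twe_ou_pow_comm {X X' : Type*} [AddCommGroup X] [Module 𝒪 X] [AddCommGroup X']
    [Module 𝒪 X'] (F : X →ₗ[𝒪] X') (N : Module.End 𝒪 X) (N' : Module.End 𝒪 X')
    (hF : ∀ x, F (N x) = N' (F x)) (n : ℕ) (x : X) : F ((N ^ n) x) = (N' ^ n) (F x) := by
  induction n generalizing x with
  | zero => simp
  | succ n ih => rw [pow_succ, pow_succ, Module.End.mul_apply, Module.End.mul_apply, ih, hF]

/-- **an equivariant map preserves topological nilpotence.** -/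
theorem twe_ou_map_prim (g : H' →+ H) (τ : Module.End ℤ H) (τ' : Module.End ℤ H')
    (hg : ∀ h, τ (g h) = g (τ' h)) (a : 𝒪) (x : H →+ 𝒪)
    (hx : ∀ k : ℕ, ∃ n : ℕ,
      ((twe_od_N τ a ^ n) x) ∈ (maximalIdeal 𝒪 ^ k) • (⊤ : Submodule 𝒪 (H →+ 𝒪))) :
    ∀ k : ℕ, ∃ n : ℕ, ((twe_od_N τ' a ^ n) (x.comp g)) ∈
      (maximalIdeal 𝒪 ^ k) • (⊤ : Submodule 𝒪 (H' →+ 𝒪)) := by
  intro k
  obtain ⟨n, hn⟩ := hx k
  refine ⟨n, ?_⟩
  have h1 := twe_ou_pow_comm (lrtop_pre 𝒪 𝒪 g) (twe_od_N τ a) (twe_od_N τ' a) (fun z => by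
    refine AddMonoidHom.ext fun h => ?_
    rw [lrtop_pre_apply, AddMonoidHom.comp_apply, twe_od_N_apply, twe_od_N_apply, lrtop_pre_apply,
      AddMonoidHom.comp_apply, AddMonoidHom.comp_apply, hg]) n x
  have h2 : (twe_od_N τ' a ^ n) (x.comp g) = lrtop_pre 𝒪 𝒪 g ((twe_od_N τ a ^ n) x) := h1.symm
  rw [h2]
  exact twe_ou_map_smul_top _ _ _ hn

end prim

section poly

/-- **Cayley–Hamilton**: if `g` preserves `P` and the restriction of `g` to `P` is invertible, a
polynomial in `g` inverts `g` on `P`. -/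
theorem twe_ou_inv_poly {𝒪 : Type*} [CommRing 𝒪] {X : Type*} [AddCommGroup X] [Module 𝒪 X]
    (g : Module.End 𝒪 X) (P : Submodule 𝒪 X) [Module.Free 𝒪 P] [Module.Finite 𝒪 P]
    (hP : ∀ x ∈ P, g x ∈ P) (hunit : IsUnit (g.restrict hP)) :
    ∃ q : Polynomial 𝒪, ∀ x ∈ P, (Polynomial.aeval g q) (g x) = x := by
  set f : Module.End 𝒪 P := g.restrict hP with hf
  have hrestr : ∀ (q : Polynomial 𝒪) (x : P),
      ((Polynomial.aeval f q) x : X) = (Polynomial.aeval g q) (x : X) := by
    intro q x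
    induction q using Polynomial.induction_on' with
    | add q₁ q₂ h1 h2 => simp only [map_add, LinearMap.add_apply, Submodule.coe_add, h1, h2]
    | monomial n r =>
      simp only [Polynomial.aeval_monomial, Module.End.mul_apply, Module.algebraMap_end_apply,
        Submodule.coe_smul]
      congr 1
      rw [hf, Module.End.pow_restrict n, LinearMap.restrict_apply]
  -- the constant coefficient of the characteristic polynomial is a unit
  have hdet : IsUnit (LinearMap.det f) := LinearMap.isUnit_det f hunit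
  have hc0 : IsUnit (f.charpoly.coeff 0) := by
    have h1 := LinearMap.det_eq_sign_charpoly_coeff f
    rw [h1] at hdet
    exact (IsUnit.mul_iff.1 hdet).2
  obtain ⟨u, hu⟩ := hc0
  have hCH : Polynomial.aeval f f.charpoly = 0 := LinearMap.aeval_self_charpoly f
  refine ⟨-Polynomial.C ((u⁻¹ : 𝒪ˣ) : 𝒪) * f.charpoly.divX, fun x hx => ?_⟩
  have h2 : f.charpoly.divX * Polynomial.X + Polynomial.C (f.charpoly.coeff 0) = f.charpoly :=
    Polynomial.divX_mul_X_add f.charpoly
  have h3 : (Polynomial.aeval f (f.charpoly.divX * Polynomial.X)) ⟨x, hx⟩ =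
      -(f.charpoly.coeff 0 • (⟨x, hx⟩ : P)) := by
    have h4 : Polynomial.aeval f (f.charpoly.divX * Polynomial.X + Polynomial.C (f.charpoly.coeff 0))
        = 0 := by rw [h2, hCH]
    have h5 := LinearMap.congr_fun h4 ⟨x, hx⟩
    rw [map_add, LinearMap.add_apply, LinearMap.zero_apply, Polynomial.aeval_C,
      Module.algebraMap_end_apply] at h5
    exact eq_neg_of_add_eq_zero_left h5
  have h6 : (Polynomial.aeval g (f.charpoly.divX * Polynomial.X)) x =
      -(f.charpoly.coeff 0 • x) := by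
    have := congrArg (Subtype.val) h3
    rw [hrestr] at this
    simpa using this
  have h7 : (Polynomial.aeval g (f.charpoly.divX * Polynomial.X)) x =
      (Polynomial.aeval g f.charpoly.divX) (g x) := by
    rw [map_mul, Polynomial.aeval_X, Module.End.mul_apply]
  rw [map_mul, map_neg, Polynomial.aeval_C, Module.End.mul_apply, LinearMap.neg_apply,
    Module.algebraMap_end_apply, ← h7, h6, smul_neg, neg_neg, ← hu, smul_smul, Units.inv_mul,
    one_smul]

end poly

end Fermat.Agent.TW
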