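import Mathlib
import Fermat.Agent.TW.Aut.EigDesc
import Fermat.Agent.TW.Aut.OldUnit
import Fermat.Agent.TW.Aut.OldEig
import Fermat.Agent.TW.Aut.OldSplit
import Fermat.Agent.TW.Top.CInput
import Fermat.Agent.JT3.Algebra.CycloAdic
import Fermat.Agent.JT3.Gateway.HomologyFree
import Fermat.Agent.LR.Top.Ops
import Fermat.Agent.LR.MTX.Homology
import Fermat.Agent.LR.MTX.EquivHom
import Fermat.Agent.TW.LG.GatewayDegCoprimeMain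

/-!
# ONE MACHINE / block [E] AUT, cell E/OldMain, part 1 = OldN (helper14).  Prefix `twe_om_`.

THE ONE-PRIME THEOREM OF E/Old, IN THE PRIM VOCABULARY, PART 1: THE DEFINITIONS AND (N).
`M₁` a level, `t ∤ M₁` a Taylor–Wiles prime (`t ≡ 1 mod p`, `θ(T_t)² ≠ 4`),
`S ⊇ {p} ∪ primes(M₁ t)`, `a ℓ ∈ 𝒪` lifts of `θ(T_ℓ)` at the primes `ℓ` good for `(M₁ t, S)`.
For a level `M` let

  `twe_om_IsPrim M G a x  :⟺  ∀ ℓ, G ℓ → ∀ k, ∃ n, ((T_ℓ - a ℓ)^n) x ∈ 𝔪^k • Hom(gh_H M, 𝒪)`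

(`T_ℓ x = x ∘ t2f_TH M ℓ`): the `θ`-primary part (`= twe_pr_prim` of helper3 for the index type
`{ℓ // G ℓ}`, `= range e` for the idempotents of `twe_la_exists_idem`).

* `twe_om_TH_commute` : the `t2f_TH M ℓ` commute;
* `twe_om_prim_comp`  : an equivariant `g : gh_H M' →+ gh_H M` carries primary to primary;
* `twe_om_A_TH`, `twe_om_B_TH`, `twe_om_At_TH`, `twe_om_Bt_TH` : the four degeneracy maps are
  equivariant at the primes `ℓ ∤ M₁ t`;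
* `twe_om_prim`, `twe_om_mem_prim` : the primary part as a submodule;
* `twe_om_cong`  : the congruence `a' ≡ a ℓ` for an eigenclass in the span of the primary part;
* `twe_om_N`     : **(N)** `i† = lrh_idag` is injective on the primary part of level `M₁ t`
  (`twe_od_exists` + `twe_om_cong` + helper2's `twe_og_new_zero` + helper23's
  `twlg_gq_lattice_alpha/beta`).

Part 2 (`TW/Aut/OldMain.lean`): `T_t² - (t+1)²` is invertible on the primary part of level `M₁`, and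
`i : PA × PA → PB` is bijective.
-/

set_option autoImplicit false
set_option linter.unusedSectionVars false
set_option linter.unusedVariables false
set_option linter.style.haveILetI false
set_option synthInstance.maxHeartbeats 400000
set_option maxHeartbeats 1000000

noncomputable section

namespace Fermat.Agent.TW

open IsLocalRing TensorProduct Polynomial CuspForm Fermat.Agent.JT3 Fermat.Agent.LR
  Fermat.Agent.S35 Fermat.Agent.S36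

section defs

variable {𝒪 : Type} [CommRing 𝒪] [IsLocalRing 𝒪]

/-- `x` lies in the `θ`-primary part of `Hom(gh_H M, 𝒪)` with respect to the primes in `G`. -/
def twe_om_IsPrim (M : ℕ) (G : ℕ → Prop) (a : ℕ → 𝒪) (x : gh_H M →+ 𝒪) : Prop :=
  ∀ ℓ, G ℓ → ∀ k : ℕ, ∃ n : ℕ, ((twe_od_N (t2f_TH M ℓ) (a ℓ) ^ n) x) ∈
    (maximalIdeal 𝒪 ^ k) • (⊤ : Submodule 𝒪 (gh_H M →+ 𝒪))

/-- the Hecke operators `T_H ℓ` on `gh_H M` commute. -/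
theorem twe_om_TH_commute (M : ℕ) [NeZero M] (ℓ ℓ' : ℕ) : Commute (t2f_TH M ℓ) (t2f_TH M ℓ') := by
  by_cases h : ℓ.Prime ∧ ¬ ℓ ∣ M
  · by_cases h' : ℓ'.Prime ∧ ¬ ℓ' ∣ M
    · haveI : Fact ℓ.Prime := ⟨h.1⟩
      haveI : Fact ℓ'.Prime := ⟨h'.1⟩
      refine LinearMap.ext fun x => ?_
      show t2f_TH M ℓ (t2f_TH M ℓ' x) = t2f_TH M ℓ' (t2f_TH M ℓ x)
      rw [t2f_TH_apply h'.1 h'.2, t2f_TH_apply h.1 h.2, t2f_TH_apply h.1 h.2,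
        t2f_TH_apply h'.1 h'.2]
      exact DFunLike.congr_fun (t2k_TH_comm h.2 h'.2) x
    · rw [t2f_TH_eq_zero h']
      exact Commute.zero_right _
  · rw [t2f_TH_eq_zero h]
    exact Commute.zero_left _

/-- precomposition with an operator commuting with the `T_ℓ` preserves the primary part. -/
theorem twe_om_prim_comp {M M' : ℕ} {G : ℕ → Prop} {a : ℕ → 𝒪} (g : gh_H M' →+ gh_H M)
    (hg : ∀ ℓ, G ℓ → ∀ h, t2f_TH M ℓ (g h) = g (t2f_TH M' ℓ h))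
    {x : gh_H M →+ 𝒪} (hx : twe_om_IsPrim M G a x) : twe_om_IsPrim M' G a (x.comp g) :=
  fun ℓ hℓ => twe_ou_map_prim g (t2f_TH M ℓ) (t2f_TH M' ℓ) (hg ℓ hℓ) (a ℓ) x (hx ℓ hℓ)

end defs

section maps

variable {M₁ t : ℕ} [NeZero M₁] [NeZero t] [Fact t.Prime]

/-- the four degeneracy maps intertwine the Hecke operators at the primes `ℓ ∤ M₁ t`. -/
theorem twe_om_A_TH (ℓ : ℕ) (hℓ : ℓ.Prime) (hℓM : ¬ ℓ ∣ M₁ * t) (h : gh_H (M₁ * t)) :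
    t2f_TH M₁ ℓ (lrh_A M₁ t h) = lrh_A M₁ t (t2f_TH (M₁ * t) ℓ h) := by
  haveI : Fact ℓ.Prime := ⟨hℓ⟩
  have hℓM₁ : ¬ ℓ ∣ M₁ := fun hd => hℓM (Dvd.dvd.mul_right hd t)
  rw [t2f_TH_apply hℓ hℓM₁, t2f_TH_apply hℓ hℓM]
  exact (DFunLike.congr_fun (lre_A_TH hℓM₁ hℓM) h).symm

theorem twe_om_B_TH (htM : ¬ t ∣ M₁) (ℓ : ℕ) (hℓ : ℓ.Prime) (hℓM : ¬ ℓ ∣ M₁ * t)
    (h : gh_H (M₁ * t)) :
    t2f_TH M₁ ℓ (lrh_B htM h) = lrh_B htM (t2f_TH (M₁ * t) ℓ h) := by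
  haveI : Fact ℓ.Prime := ⟨hℓ⟩
  have hℓM₁ : ¬ ℓ ∣ M₁ := fun hd => hℓM (Dvd.dvd.mul_right hd t)
  rw [t2f_TH_apply hℓ hℓM₁, t2f_TH_apply hℓ hℓM]
  exact (DFunLike.congr_fun (lre_B_TH htM hℓM₁ hℓM) h).symm

theorem twe_om_At_TH (htM : ¬ t ∣ M₁) (ℓ : ℕ) (hℓ : ℓ.Prime) (hℓM : ¬ ℓ ∣ M₁ * t)
    (h : gh_H M₁) :
    t2f_TH (M₁ * t) ℓ (lrh_At htM h) = lrh_At htM (t2f_TH M₁ ℓ h) := by
  haveI : Fact ℓ.Prime := ⟨hℓ⟩
  have hℓM₁ : ¬ ℓ ∣ M₁ := fun hd => hℓM (Dvd.dvd.mul_right hd t)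
  rw [t2f_TH_apply hℓ hℓM₁, t2f_TH_apply hℓ hℓM]
  exact (DFunLike.congr_fun (lre_At_TH htM hℓM₁ hℓM) h).symm

theorem twe_om_Bt_TH (htM : ¬ t ∣ M₁) (ℓ : ℕ) (hℓ : ℓ.Prime) (hℓM : ¬ ℓ ∣ M₁ * t)
    (h : gh_H M₁) :
    t2f_TH (M₁ * t) ℓ (lrh_Bt htM h) = lrh_Bt htM (t2f_TH M₁ ℓ h) := by
  haveI : Fact ℓ.Prime := ⟨hℓ⟩
  have hℓM₁ : ¬ ℓ ∣ M₁ := fun hd => hℓM (Dvd.dvd.mul_right hd t)
  rw [t2f_TH_apply hℓ hℓM₁, t2f_TH_apply hℓ hℓM]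
  exact (DFunLike.congr_fun (lre_Bt_TH htM hℓM₁ hℓM) h).symm

end maps

section prim

variable {𝒪 : Type} [CommRing 𝒪] [IsLocalRing 𝒪]

/-- the `θ`-primary part as a submodule. -/
def twe_om_prim (M : ℕ) (G : ℕ → Prop) (a : ℕ → 𝒪) : Submodule 𝒪 (gh_H M →+ 𝒪) where
  carrier := {x | twe_om_IsPrim M G a x}
  zero_mem' := fun ℓ _ k => ⟨0, by simp⟩
  add_mem' := by
    intro x y hx hy ℓ hℓ k
    obtain ⟨n₁, h1⟩ := hx ℓ hℓ k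
    obtain ⟨n₂, h2⟩ := hy ℓ hℓ k
    refine ⟨n₁ + n₂, ?_⟩
    rw [map_add]
    refine Submodule.add_mem _ ?_ ?_
    · rw [add_comm, pow_add, Module.End.mul_apply]
      exact twe_ou_map_smul_top _ _ _ h1
    · rw [pow_add, Module.End.mul_apply]
      exact twe_ou_map_smul_top _ _ _ h2
  smul_mem' := by
    intro r x hx ℓ hℓ k
    obtain ⟨n, h1⟩ := hx ℓ hℓ k
    refine ⟨n, ?_⟩
    rw [map_smul]
    exact Submodule.smul_mem _ r h1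

theorem twe_om_mem_prim {M : ℕ} {G : ℕ → Prop} {a : ℕ → 𝒪} {x : gh_H M →+ 𝒪} :
    x ∈ twe_om_prim M G a ↔ twe_om_IsPrim M G a x := Iff.rfl

/-- **the congruence** for an eigenclass in the span of the primary part. -/
theorem twe_om_cong {𝒪' : Type} [CommRing 𝒪'] [IsLocalRing 𝒪'] [IsNoetherianRing 𝒪']
    [Algebra 𝒪 𝒪'] [IsLocalHom (algebraMap 𝒪 𝒪')]
    (M : ℕ) (G : ℕ → Prop) (a : ℕ → 𝒪) {n : ℕ} (b : Fin n → 𝒪') (x : Fin n → (gh_H M →+ 𝒪))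
    (hx : ∀ i, twe_om_IsPrim M G a (x i))
    (hy0 : (∑ i, b i • twe_od_ext 𝒪' (x i)) ≠ 0) (ℓ : ℕ) (hℓ : G ℓ) (a' : 𝒪')
    (hy : ∀ h, (∑ i, b i • twe_od_ext 𝒪' (x i)) (t2f_TH M ℓ h) =
      a' * (∑ i, b i • twe_od_ext 𝒪' (x i)) h) :
    a' - algebraMap 𝒪 𝒪' (a ℓ) ∈ maximalIdeal 𝒪' := by
  refine twe_od_cong (t2f_TH M ℓ) (a ℓ) b x (fun i k => ?_) hy0 a' hy
  obtain ⟨m, hm⟩ := hx i ℓ hℓ k
  exact ⟨m, fun h => twe_ou_val_mem _ _ hm h⟩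

end prim

section main

variable {𝒪 : Type} [CommRing 𝒪] [IsDomain 𝒪] [IsDiscreteValuationRing 𝒪]
  [IsAdicComplete (maximalIdeal 𝒪) 𝒪] [Finite (ResidueField 𝒪)] [CharZero 𝒪]
  {p : ℕ} [Fact p.Prime]

/-- **(N)**: `i†` is injective on the `θ`-primary part of level `M₁ t`, `t` a Taylor–Wiles prime. -/
theorem twe_om_N (hp𝒪 : (p : 𝒪) ∈ maximalIdeal 𝒪)
    (M₁ t : ℕ) [NeZero M₁] [NeZero t] [Fact t.Prime] (htM : ¬ t ∣ M₁) (htp : t ≠ p)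
    (htp1 : t % p = 1)
    (S : Finset ℕ) (hpS : p ∈ S) (hMS : ∀ r : ℕ, r.Prime → r ∣ M₁ * t → r ∈ S)
    {N₀ : ℕ} [NeZero N₀] {S₀ : Finset ℕ}
    (θ : heckeAlgebra N₀ 2 (↑S₀ : Set ℕ) →+* ResidueField 𝒪)
    (ρbar : ResidualGaloisRep (ResidueField 𝒪)) (hcompat : twt_Compat θ ρbar)
    (hgood : ∀ ℓ, pk_Good (M₁ * t) S ℓ → ¬ ℓ ∣ N₀ ∧ ℓ ∉ (↑S₀ : Set ℕ))
    (htN₀ : ¬ t ∣ N₀) (htS₀ : t ∉ (↑S₀ : Set ℕ))
    (hTW : θ (heckeAlgebra.T (Fact.out : t.Prime) htN₀ htS₀) ^ 2 ≠ 4)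
    (a : ℕ → 𝒪)
    (ha : ∀ ℓ (hg : pk_Good (M₁ * t) S ℓ),
      residue 𝒪 (a ℓ) = θ (heckeAlgebra.T hg.1 (hgood ℓ hg).1 (hgood ℓ hg).2))
    (φ : gh_H (M₁ * t) →+ 𝒪) (hφ : twe_om_IsPrim (M₁ * t) (pk_Good (M₁ * t) S) a φ)
    (hker : lrh_idag htM 𝒪 φ = 0) : φ = 0 := by
  classical
  by_contra hφ0
  have hkerA : φ.comp (lrh_At htM) = 0 := congrArg Prod.fst hker
  have hkerB : φ.comp (lrh_Bt htM) = 0 := congrArg Prod.snd hker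
  set G : ℕ → Prop := pk_Good (M₁ * t) S with hG
  set Y : Submodule 𝒪 (gh_H (M₁ * t) →+ 𝒪) :=
    twe_om_prim (M₁ * t) G a ⊓ LinearMap.ker (lrtop_pre 𝒪 𝒪 (lrh_At htM)) ⊓
      LinearMap.ker (lrtop_pre 𝒪 𝒪 (lrh_Bt htM)) with hY
  have hmemY : ∀ x, x ∈ Y ↔ twe_om_IsPrim (M₁ * t) G a x ∧ x.comp (lrh_At htM) = 0 ∧
      x.comp (lrh_Bt htM) = 0 := by
    intro x
    rw [hY, Submodule.mem_inf, Submodule.mem_inf, LinearMap.mem_ker, LinearMap.mem_ker,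
      lrtop_pre_apply, lrtop_pre_apply, twe_om_mem_prim, and_assoc]
  have hφY : φ ∈ Y := (hmemY φ).2 ⟨hφ, hkerA, hkerB⟩
  have hY0 : Y ≠ ⊥ := fun h => hφ0 (by rw [h, Submodule.mem_bot] at hφY; exact hφY)
  set 𝒯 : Set (Module.End ℤ (gh_H (M₁ * t))) :=
    {τ | ∃ ℓ, G ℓ ∧ τ = t2f_TH (M₁ * t) ℓ} with h𝒯
  have hcomm : ∀ τ ∈ 𝒯, ∀ τ' ∈ 𝒯, Commute τ τ' := by
    rintro _ ⟨ℓ, -, rfl⟩ _ ⟨ℓ', -, rfl⟩
    exact twe_om_TH_commute _ ℓ ℓ'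
  have hst : ∀ τ ∈ 𝒯, ∀ x ∈ Y, x.comp τ.toAddMonoidHom ∈ Y := by
    rintro _ ⟨ℓ', hℓ', rfl⟩ x hx
    obtain ⟨hx1, hx2, hx3⟩ := (hmemY x).1 hx
    refine (hmemY _).2 ⟨?_, ?_, ?_⟩
    · refine twe_om_prim_comp (t2f_TH (M₁ * t) ℓ').toAddMonoidHom (fun ℓ _ h => ?_) hx1
      exact DFunLike.congr_fun (twe_om_TH_commute (M₁ * t) ℓ ℓ').eq h
    · refine AddMonoidHom.ext fun h => ?_
      have h1 := DFunLike.congr_fun hx2 (t2f_TH M₁ ℓ' h)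
      rw [AddMonoidHom.comp_apply] at h1
      rw [AddMonoidHom.comp_apply, AddMonoidHom.comp_apply, AddMonoidHom.zero_apply]
      show x (t2f_TH (M₁ * t) ℓ' (lrh_At htM h)) = 0
      rw [twe_om_At_TH htM ℓ' hℓ'.1 hℓ'.2.1, h1, AddMonoidHom.zero_apply]
    · refine AddMonoidHom.ext fun h => ?_
      have h1 := DFunLike.congr_fun hx3 (t2f_TH M₁ ℓ' h)
      rw [AddMonoidHom.comp_apply] at h1
      rw [AddMonoidHom.comp_apply, AddMonoidHom.comp_apply, AddMonoidHom.zero_apply]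
      show x (t2f_TH (M₁ * t) ℓ' (lrh_Bt htM h)) = 0
      rw [twe_om_Bt_TH htM ℓ' hℓ'.1 hℓ'.2.1, h1, AddMonoidHom.zero_apply]
  obtain ⟨𝒪', i1, i2, i3, i4, i5, i6, i7, i8, n, b, x, a', hxY, hy0, hy⟩ :=
    twe_od_exists 𝒯 hcomm Y hY0 hst
  have hp' : (p : 𝒪') ∈ maximalIdeal 𝒪' := by
    have h1 := map_nonunit (algebraMap 𝒪 𝒪') (p : 𝒪) hp𝒪
    rwa [map_natCast] at h1
  obtain ⟨K', iK1, iK2, iK3⟩ : ∃ (K' : Type) (_ : Field K') (_ : Algebra 𝒪' K'),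
      IsFractionRing 𝒪' K' := ⟨FractionRing 𝒪', inferInstance, inferInstance, inferInstance⟩
  letI : Algebra ℤ_[p] 𝒪' := (cya_padicHom p 𝒪' hp').toAlgebra
  letI : Algebra ℤ_[p] K' := ((algebraMap 𝒪' K').comp (algebraMap ℤ_[p] 𝒪')).toAlgebra
  haveI : IsScalarTower ℤ_[p] 𝒪' K' := IsScalarTower.of_algebraMap_eq fun _ => rfl
  set y : gh_H (M₁ * t) →+ 𝒪' := ∑ i, b i • twe_od_ext 𝒪' (x i) with hydef
  -- the congruences
  have hcong : ∀ ℓ, G ℓ → a' (t2f_TH (M₁ * t) ℓ) - algebraMap 𝒪 𝒪' (a ℓ) ∈ maximalIdeal 𝒪' := by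
    intro ℓ hℓ
    exact twe_om_cong (M₁ * t) G a b x (fun i => ((hmemY _).1 (hxY i)).1) hy0 ℓ hℓ _
      (hy _ ⟨ℓ, hℓ, rfl⟩)
  -- the class over the fraction field
  set c : gh_H (M₁ * t) →+ K' :=
    (algebraMap 𝒪' K').toAddMonoidHom.comp y with hc
  have hyA : ∀ h, y (lrh_At htM h) = 0 := by
    intro h
    rw [hydef, AddMonoidHom.finsetSum_apply]
    refine Finset.sum_eq_zero fun i _ => ?_
    have h1 := DFunLike.congr_fun ((hmemY _).1 (hxY i)).2.1 h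
    rw [AddMonoidHom.comp_apply, AddMonoidHom.zero_apply] at h1
    rw [AddMonoidHom.smul_apply, twe_od_ext_apply, h1, map_zero, smul_zero]
  have hyB : ∀ h, y (lrh_Bt htM h) = 0 := by
    intro h
    rw [hydef, AddMonoidHom.finsetSum_apply]
    refine Finset.sum_eq_zero fun i _ => ?_
    have h1 := DFunLike.congr_fun ((hmemY _).1 (hxY i)).2.2 h
    rw [AddMonoidHom.comp_apply, AddMonoidHom.zero_apply] at h1
    rw [AddMonoidHom.smul_apply, twe_od_ext_apply, h1, map_zero, smul_zero]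
  have hTW' : ((algebraMap (ResidueField 𝒪) (ResidueField 𝒪')).comp θ)
      (heckeAlgebra.T (Fact.out : t.Prime) htN₀ htS₀) ^ 2 ≠ 4 := by
    intro h4
    apply hTW
    apply (algebraMap (ResidueField 𝒪) (ResidueField 𝒪')).injective
    rw [map_pow, map_ofNat]
    exact h4
  have hc0 : c = 0 := by
    refine twe_og_new_zero M₁ t p S 𝒪' K' hpS hMS Fact.out htp htM hp'
      (lrh_At htM) (lrh_Bt htM) (twlg_gq_lattice_alpha M₁ t p htM)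
      (twlg_gq_lattice_beta M₁ t p htM)
      ((algebraMap (ResidueField 𝒪) (ResidueField 𝒪')).comp θ)
      (ρbar.baseChange (ResidueField 𝒪')) (twt_ci_compat ρbar θ hcompat) hgood htN₀ htS₀ htp1
      hTW' (fun ℓ => a' (t2f_TH (M₁ * t) ℓ)) (fun ℓ hg hℓ h1 h2 => ?_) c (fun ℓ hg h => ?_)
      (fun h => ?_) (fun h => ?_)
    · have h3 := hcong ℓ hg
      rw [← residue_eq_zero_iff, map_sub, sub_eq_zero] at h3
      rw [h3, RingHom.comp_apply, ← ha ℓ hg]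
      rfl
    · rw [hc, AddMonoidHom.comp_apply, AddMonoidHom.comp_apply, hy _ ⟨ℓ, hg, rfl⟩]
      exact map_mul (algebraMap 𝒪' K') _ _
    · rw [hc, AddMonoidHom.comp_apply, hyA, map_zero]
    · rw [hc, AddMonoidHom.comp_apply, hyB, map_zero]
  apply hy0
  refine AddMonoidHom.ext fun h => ?_
  have h1 := DFunLike.congr_fun hc0 h
  rw [hc, AddMonoidHom.comp_apply, AddMonoidHom.zero_apply] at h1
  rw [AddMonoidHom.zero_apply]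
  exact (IsFractionRing.injective 𝒪' K') (h1.trans (map_zero _).symm)

end main

end Fermat.Agent.TW
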