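import Mathlib
import Fermat.Agent.TW.Aut.OldN
import Fermat.Agent.TW.Aut.OldDesc

/-!
# ONE MACHINE / block [E] AUT, cell E/OldMain, part 2 (helper14).  Prefix `twe_om_`.

THE ONE-PRIME THEOREM OF E/Old, IN THE PRIM VOCABULARY (see `TW/Aut/OldN.lean` for the definitions).

* `twe_om_unit_abs` : abstract form: an operator `g₀` in a commuting family `𝒯` acting on a finite
  free `ℤ`-module `H` is invertible on a `𝒯`-stable submodule `PA` of `Hom(H, 𝒪)` as soon as its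
  eigenvalue on every `𝒯`-eigenclass (over a complete DVR `𝒪'` finite over `𝒪`) in the span of `PA`
  is a unit;
* `twe_om_unit`  : `T_t² - (t+1)²` is invertible on the primary part `PA` of level `M₁`;
* `twe_om_main`  : **`i : PA × PA → PB` is bijective.**
-/

set_option autoImplicit false
set_option linter.unusedSectionVars false
set_option linter.unusedVariables false
set_option linter.style.haveILetI false
set_option synthInstance.maxHeartbeats 400000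
set_option maxHeartbeats 1000000

noncomputable section

namespace Fermat.Agent.TW

open IsLocalRing TensorProduct Polynomial CuspForm Fermat.Agent.JT3 Fermat.Agent.LR
  Fermat.Agent.S35 Fermat.Agent.S36

section abs

variable {H : Type} [AddCommGroup H] [Module.Free ℤ H] [Module.Finite ℤ H]

/-- `Hom(H, 𝒪)` is finite over `𝒪`. -/
theorem twe_om_finite_hom (𝒪 : Type) [CommRing 𝒪] : Module.Finite 𝒪 (H →+ 𝒪) :=
  Module.Finite.equiv (lrtop_evalEquiv 𝒪 𝒪).symm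

/-- `Hom(H, 𝒪)` is free over `𝒪`. -/
theorem twe_om_free_hom (𝒪 : Type) [CommRing 𝒪] : Module.Free 𝒪 (H →+ 𝒪) :=
  Module.Free.of_equiv (lrtop_evalEquiv 𝒪 𝒪).symm

/-- a submodule of `Hom(H, 𝒪)` is finite, `𝒪` a PID. -/
theorem twe_om_finite_sub {𝒪 : Type} [CommRing 𝒪] [IsDomain 𝒪] [IsPrincipalIdealRing 𝒪]
    (PA : Submodule 𝒪 (H →+ 𝒪)) : Module.Finite 𝒪 PA := by
  haveI : Module.Finite 𝒪 (H →+ 𝒪) := twe_om_finite_hom 𝒪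
  infer_instance

/-- a submodule of `Hom(H, 𝒪)` is free, `𝒪` a PID. -/
theorem twe_om_free_sub {𝒪 : Type} [CommRing 𝒪] [IsDomain 𝒪] [IsPrincipalIdealRing 𝒪]
    (PA : Submodule 𝒪 (H →+ 𝒪)) : Module.Free 𝒪 PA := by
  haveI : Module.Finite 𝒪 (H →+ 𝒪) := twe_om_finite_hom 𝒪
  haveI : Module.Free 𝒪 (H →+ 𝒪) := twe_om_free_hom 𝒪
  haveI : Module.IsTorsionFree 𝒪 (H →+ 𝒪) := inferInstance
  haveI : Module.IsTorsionFree 𝒪 PA := inferInstance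
  haveI : Module.Finite 𝒪 PA := inferInstance
  exact Module.free_of_finite_type_torsion_free' (R := 𝒪) (M := ↥PA)

/-- **invertibility on a stable submodule from the eigenvalues of the eigenclasses.** -/
theorem twe_om_unit_abs {𝒪 : Type} [CommRing 𝒪] [IsDomain 𝒪] [IsDiscreteValuationRing 𝒪]
    [IsAdicComplete (maximalIdeal 𝒪) 𝒪] [Finite (ResidueField 𝒪)] [CharZero 𝒪]
    (hΨ : Function.Injective (twe_ogd_Psi 𝒪 (AlgebraicClosure (FractionRing 𝒪)) H))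
    (𝒯 : Set (Module.End ℤ H)) (hcomm : ∀ τ ∈ 𝒯, ∀ τ' ∈ 𝒯, Commute τ τ')
    (PA : Submodule 𝒪 (H →+ 𝒪)) [Module.Free 𝒪 PA] [Module.Finite 𝒪 PA]
    (hst : ∀ τ ∈ 𝒯, ∀ x ∈ PA, x.comp τ.toAddMonoidHom ∈ PA)
    (g₀ : Module.End ℤ H) (hg₀ : g₀ ∈ 𝒯)
    (hP : ∀ x ∈ PA, lrtop_pre 𝒪 𝒪 g₀.toAddMonoidHom x ∈ PA)
    (hunit : ∀ (𝒪' : Type) [CommRing 𝒪'] [IsDomain 𝒪'] [IsDiscreteValuationRing 𝒪']
      [IsAdicComplete (maximalIdeal 𝒪') 𝒪'] [Finite (ResidueField 𝒪')] [CharZero 𝒪']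
      [Algebra 𝒪 𝒪'] [IsLocalHom (algebraMap 𝒪 𝒪')]
      (n : ℕ) (b : Fin n → 𝒪') (x : Fin n → (H →+ 𝒪)) (a' : Module.End ℤ H → 𝒪'),
      (∀ i, x i ∈ PA) → (∑ i, b i • twe_od_ext 𝒪' (x i)) ≠ 0 →
      (∀ τ ∈ 𝒯, ∀ h, (∑ i, b i • twe_od_ext 𝒪' (x i)) (τ h) =
        a' τ * (∑ i, b i • twe_od_ext 𝒪' (x i)) h) → IsUnit (a' g₀)) :
    IsUnit ((lrtop_pre 𝒪 𝒪 g₀.toAddMonoidHom).restrict hP) := by
  classical
  set K := FractionRing 𝒪 with hK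
  set Kb := AlgebraicClosure K with hKb
  have hinjKb : Function.Injective (algebraMap 𝒪 Kb) := by
    rw [IsScalarTower.algebraMap_eq 𝒪 K Kb]
    exact (algebraMap K Kb).injective.comp (IsFractionRing.injective 𝒪 K)
  haveI : Module.IsTorsionFree 𝒪 Kb := Module.isTorsionFree_iff_algebraMap_injective.2 hinjKb
  haveI : Module.Flat 𝒪 Kb := inferInstance
  set T₀ : Module.End 𝒪 (H →+ 𝒪) := lrtop_pre 𝒪 𝒪 g₀.toAddMonoidHom with hT₀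
  set f : Module.End 𝒪 PA := T₀.restrict hP with hf
  refine twe_ou_isUnit (P := ↥PA) hinjKb f (fun lam hlam => ?_)
  obtain ⟨v, hv⟩ := hlam.exists_hasEigenvector
  have hv0 : v ≠ 0 := hv.2
  have hveig : f.baseChange Kb v = lam • v := hv.apply_eq_smul
  -- the comparison map
  set Φ : Kb ⊗[𝒪] PA →ₗ[Kb] (H →+ Kb) :=
    (twe_ogd_Psi 𝒪 Kb H) ∘ₗ (PA.subtype.baseChange Kb) with hΦ
  have hΦinj : Function.Injective Φ := by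
    rw [hΦ, LinearMap.coe_comp]
    exact hΨ.comp (Module.Flat.lTensor_preserves_injective_linearMap _ PA.injective_subtype)
  set G : Module.End Kb (H →+ Kb) := lrtop_pre Kb Kb g₀.toAddMonoidHom with hG
  have hΦf : ∀ w, Φ (f.baseChange Kb w) = G (Φ w) := by
    intro w
    have h1 : T₀ ∘ₗ PA.subtype = PA.subtype ∘ₗ f := by
      refine LinearMap.ext fun z => ?_
      rfl
    have h2 : (T₀.baseChange Kb) (PA.subtype.baseChange Kb w) =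
        PA.subtype.baseChange Kb (f.baseChange Kb w) := by
      rw [← LinearMap.comp_apply, ← LinearMap.baseChange_comp, h1, LinearMap.baseChange_comp,
        LinearMap.comp_apply]
    rw [hΦ, LinearMap.comp_apply, LinearMap.comp_apply, ← h2,
      twe_ogd_Psi_comp 𝒪 Kb g₀.toAddMonoidHom T₀ (fun _ => rfl)]
    rfl
  set W : Submodule Kb (H →+ Kb) :=
    Submodule.span Kb ((twe_od_ext (𝒪 := 𝒪) Kb) '' (PA : Set (H →+ 𝒪))) with hW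
  have hΦW : ∀ w, Φ w ∈ W := by
    intro w
    induction w using TensorProduct.induction_on with
    | zero => rw [map_zero]; exact W.zero_mem
    | tmul k x =>
      have h1 : Φ (k ⊗ₜ[𝒪] x) = k • twe_od_ext (𝒪 := 𝒪) Kb (x : H →+ 𝒪) := by
        refine AddMonoidHom.ext fun h => ?_
        rw [hΦ, LinearMap.comp_apply, LinearMap.baseChange_tmul, twe_ogd_Psi_tmul]
        rfl
      rw [h1]
      exact W.smul_mem k (Submodule.subset_span ⟨x, x.2, rfl⟩)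
    | add u w hu hw => rw [map_add]; exact W.add_mem hu hw
  -- the stable subspace `W ⊓ eigenspace`
  set 𝒮 : Set (Module.End Kb (H →+ Kb)) :=
    (fun τ : Module.End ℤ H => lrtop_pre Kb Kb τ.toAddMonoidHom) '' 𝒯 with h𝒮
  have hcomm' : ∀ s ∈ 𝒮, ∀ s' ∈ 𝒮, Commute s s' := by
    rintro _ ⟨τ, hτ, rfl⟩ _ ⟨τ', hτ', rfl⟩
    have h1 := (hcomm τ hτ τ' hτ').eq
    refine LinearMap.ext fun ψ => AddMonoidHom.ext fun h => ?_
    show ψ (τ' (τ h)) = ψ (τ (τ' h))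
    have h2 : (τ' * τ) h = (τ * τ') h := by rw [h1]
    exact congrArg ψ h2
  set W' : Submodule Kb (H →+ Kb) := W ⊓ Module.End.eigenspace G lam with hW'
  have hc₀ : Φ v ∈ W' := by
    refine Submodule.mem_inf.2 ⟨hΦW v, ?_⟩
    rw [Module.End.mem_eigenspace_iff, ← hΦf, hveig, map_smul]
  have hW'0 : W' ≠ ⊥ := by
    intro hbot
    rw [hbot, Submodule.mem_bot] at hc₀
    exact hv0 (hΦinj (hc₀.trans (map_zero _).symm))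
  have hGS : G ∈ 𝒮 := ⟨g₀, hg₀, rfl⟩
  have hstabW : ∀ τ ∈ 𝒯, ∀ w ∈ W, lrtop_pre Kb Kb τ.toAddMonoidHom w ∈ W := by
    intro τ hτ w hw
    induction hw using Submodule.span_induction with
    | mem w hw =>
      obtain ⟨x, hx, rfl⟩ := hw
      exact Submodule.subset_span ⟨x.comp τ.toAddMonoidHom, hst τ hτ x hx, rfl⟩
    | zero => rw [map_zero]; exact W.zero_mem
    | add u v _ _ hu hv => rw [map_add]; exact W.add_mem hu hv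
    | smul r u _ hu => rw [map_smul]; exact W.smul_mem r hu
  have hstab : ∀ s ∈ 𝒮, ∀ w ∈ W', s w ∈ W' := by
    intro s hs w hw
    obtain ⟨hw1, hw2⟩ := Submodule.mem_inf.1 hw
    refine Submodule.mem_inf.2 ⟨?_, ?_⟩
    · obtain ⟨τ, hτ, rfl⟩ := hs
      exact hstabW τ hτ w hw1
    · rw [Module.End.mem_eigenspace_iff] at hw2 ⊢
      have h1 : G (s w) = s (G w) := by
        rw [← Module.End.mul_apply, (hcomm' G hGS s hs).eq, Module.End.mul_apply]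
      rw [h1, hw2, map_smul]
  obtain ⟨c, hcW', hc0, hc⟩ := twlg_ei_common_eigenvector 𝒮 hcomm' W' hW'0 hstab
  have hce : ∀ τ ∈ 𝒯, ∃ χ : Kb, ∀ h, c (τ h) = χ * c h := by
    intro τ hτ
    obtain ⟨χ, hχ⟩ := hc _ ⟨τ, hτ, rfl⟩
    refine ⟨χ, fun h => ?_⟩
    have h1 := DFunLike.congr_fun hχ h
    rw [AddMonoidHom.smul_apply, smul_eq_mul] at h1
    exact h1
  have hclam : ∀ h, c (g₀ h) = lam * c h := by
    intro h
    have h1 := (Submodule.mem_inf.1 hcW').2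
    rw [Module.End.mem_eigenspace_iff] at h1
    have h2 := DFunLike.congr_fun h1 h
    rw [AddMonoidHom.smul_apply, smul_eq_mul] at h2
    exact h2
  obtain ⟨𝒪', i1, i2, i3, i4, i5, i6, i7, i8, ι, n, b, x, a', hι, hxY, hy0, hy, hχ, hint⟩ :=
    twe_od_main_int 𝒯 PA c hc0 (Submodule.mem_inf.1 hcW').1 hce
  have hu : IsUnit (a' g₀) := hunit 𝒪' n b x a' hxY hy0 hy
  have hlam : ι (a' g₀) = lam := hχ g₀ hg₀ lam hclam
  obtain ⟨u, hu'⟩ := hu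
  refine ⟨ι (↑u⁻¹ : 𝒪'), (hint _).map ι, ?_⟩
  rw [← hlam, ← hu', ← map_mul, Units.mul_inv, map_one]

end abs

section poly

variable {𝒪 : Type*} [CommRing 𝒪] {X X' : Type*} [AddCommGroup X] [Module 𝒪 X] [AddCommGroup X']
  [Module 𝒪 X']

/-- a polynomial in `g` intertwines what `g` intertwines. -/
theorem twe_om_aeval_comm (F : X →ₗ[𝒪] X') (g : Module.End 𝒪 X) (g' : Module.End 𝒪 X')
    (hF : ∀ x, F (g x) = g' (F x)) (q : 𝒪[X]) (x : X) :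
    F (aeval g q x) = aeval g' q (F x) := by
  induction q using Polynomial.induction_on' with
  | add q₁ q₂ h1 h2 => simp only [map_add, LinearMap.add_apply, h1, h2]
  | monomial n r =>
    simp only [aeval_monomial, Module.End.mul_apply, Module.algebraMap_end_apply, map_smul]
    congr 1
    induction n generalizing x with
    | zero => simp
    | succ n ih => rw [pow_succ, pow_succ, Module.End.mul_apply, Module.End.mul_apply, ih, hF]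

/-- a polynomial in `g` preserves the `g`-stable submodules. -/
theorem twe_om_aeval_mem (g : Module.End 𝒪 X) (P : Submodule 𝒪 X) (hP : ∀ x ∈ P, g x ∈ P)
    (q : 𝒪[X]) (x : X) (hx : x ∈ P) : aeval g q x ∈ P := by
  have h1 := twe_om_aeval_comm P.subtype (g.restrict hP) g (fun z => rfl) q ⟨x, hx⟩
  rw [Submodule.subtype_apply, Submodule.subtype_apply] at h1
  rw [← h1]
  exact Subtype.property _

end poly

section main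

variable {𝒪 : Type} [CommRing 𝒪] [IsDomain 𝒪] [IsDiscreteValuationRing 𝒪]
  [IsAdicComplete (maximalIdeal 𝒪) 𝒪] [Finite (ResidueField 𝒪)] [CharZero 𝒪]
  {p : ℕ} [Fact p.Prime]

/-- the eigenvalue of `T_t² - (t+1)²` on an eigenclass in the span of the primary part of level `M₁`
is a unit (`twe_oe_compat` at `ℓ = t`). -/
theorem twe_om_unit_eig (hp𝒪 : (p : 𝒪) ∈ maximalIdeal 𝒪)
    (M₁ t : ℕ) [NeZero M₁] [NeZero t] [Fact t.Prime] (htM : ¬ t ∣ M₁) (htp : t ≠ p)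
    (htp1 : t % p = 1)
    (S : Finset ℕ) (hpS : p ∈ S) (hMS : ∀ r : ℕ, r.Prime → r ∣ M₁ * t → r ∈ S)
    {N₀ : ℕ} [NeZero N₀] {S₀ : Finset ℕ}
    (θ : heckeAlgebra N₀ 2 (↑S₀ : Set ℕ) →+* ResidueField 𝒪)
    (ρbar : ResidualGaloisRep (ResidueField 𝒪)) (hcompat : twt_Compat θ ρbar)
    (hgood : ∀ ℓ, pk_Good (M₁ * t) S ℓ → ¬ ℓ ∣ N₀ ∧ ℓ ∉ (↑S₀ : Set ℕ))
    (htN₀ : ¬ t ∣ N₀) (htS₀ : t ∉ (↑S₀ : Set ℕ))
    (hTW : θ (heckeAlgebra.T (Fact.out : t.Prime) htN₀ htS₀) ^ 2 ≠ 4)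
    (a : ℕ → 𝒪)
    (ha : ∀ ℓ (hg : pk_Good (M₁ * t) S ℓ),
      residue 𝒪 (a ℓ) = θ (heckeAlgebra.T hg.1 (hgood ℓ hg).1 (hgood ℓ hg).2))
    (𝒪' : Type) [CommRing 𝒪'] [IsDomain 𝒪'] [IsDiscreteValuationRing 𝒪']
    [IsAdicComplete (maximalIdeal 𝒪') 𝒪'] [Finite (ResidueField 𝒪')] [CharZero 𝒪']
    [Algebra 𝒪 𝒪'] [IsLocalHom (algebraMap 𝒪 𝒪')]
    (n : ℕ) (b : Fin n → 𝒪') (x : Fin n → (gh_H M₁ →+ 𝒪))
    (hx : ∀ i, twe_om_IsPrim M₁ (pk_Good (M₁ * t) S) a (x i))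
    (hy0 : (∑ i, b i • twe_od_ext 𝒪' (x i)) ≠ 0)
    (aa : ℕ → 𝒪')
    (hy : ∀ ℓ, pk_Good M₁ (S.erase t) ℓ → ∀ h,
      (∑ i, b i • twe_od_ext 𝒪' (x i)) (t2f_TH M₁ ℓ h) =
        aa ℓ * (∑ i, b i • twe_od_ext 𝒪' (x i)) h) :
    IsUnit (aa t ^ 2 - (((t + 1) * (t + 1) : ℕ) : 𝒪')) := by
  classical
  have htprime : t.Prime := Fact.out
  set G : ℕ → Prop := pk_Good (M₁ * t) S with hG
  set S₁ : Finset ℕ := S.erase t with hS₁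
  have hG₁ : ∀ ℓ, G ℓ → pk_Good M₁ S₁ ℓ := by
    intro ℓ hℓ
    refine ⟨hℓ.1, fun hd => hℓ.2.1 (Dvd.dvd.mul_right hd t), fun hmem => hℓ.2.2 ?_⟩
    exact Finset.mem_coe.2 (Finset.mem_of_mem_erase (Finset.mem_coe.1 hmem))
  have hG₁' : ∀ ℓ, pk_Good M₁ S₁ ℓ → ℓ ≠ t → G ℓ := by
    intro ℓ hℓ hne
    refine ⟨hℓ.1, fun hd => ?_, fun hmem => hℓ.2.2 ?_⟩
    · rcases (Nat.Prime.dvd_mul hℓ.1).1 hd with h1 | h1
      · exact hℓ.2.1 h1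
      · exact hne ((Nat.prime_dvd_prime_iff_eq hℓ.1 htprime).1 h1)
    · exact Finset.mem_coe.2 (Finset.mem_erase.2 ⟨hne, Finset.mem_coe.1 hmem⟩)
  have hgt : pk_Good M₁ S₁ t :=
    ⟨htprime, htM, fun hmem => (Finset.notMem_erase t S) (Finset.mem_coe.1 hmem)⟩
  have hp' : (p : 𝒪') ∈ maximalIdeal 𝒪' := by
    have h1 := map_nonunit (algebraMap 𝒪 𝒪') (p : 𝒪) hp𝒪
    rwa [map_natCast] at h1
  obtain ⟨K', iK1, iK2, iK3⟩ : ∃ (K' : Type) (_ : Field K') (_ : Algebra 𝒪' K'),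
      IsFractionRing 𝒪' K' := ⟨FractionRing 𝒪', inferInstance, inferInstance, inferInstance⟩
  letI : Algebra ℤ_[p] 𝒪' := (cya_padicHom p 𝒪' hp').toAlgebra
  letI : Algebra ℤ_[p] K' := ((algebraMap 𝒪' K').comp (algebraMap ℤ_[p] 𝒪')).toAlgebra
  haveI : IsScalarTower ℤ_[p] 𝒪' K' := IsScalarTower.of_algebraMap_eq fun _ => rfl
  set y : gh_H M₁ →+ 𝒪' := ∑ i, b i • twe_od_ext 𝒪' (x i) with hydef
  have hcong : ∀ ℓ, G ℓ → aa ℓ - algebraMap 𝒪 𝒪' (a ℓ) ∈ maximalIdeal 𝒪' := by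
    intro ℓ hℓ
    exact twe_om_cong M₁ G a b x hx hy0 ℓ hℓ _ (hy ℓ (hG₁ ℓ hℓ))
  set c : gh_H M₁ →+ K' := (algebraMap 𝒪' K').toAddMonoidHom.comp y with hc
  have hc0 : c ≠ 0 := by
    intro h0
    apply hy0
    refine AddMonoidHom.ext fun h => ?_
    have h1 := DFunLike.congr_fun h0 h
    rw [hc, AddMonoidHom.comp_apply, AddMonoidHom.zero_apply] at h1
    rw [AddMonoidHom.zero_apply]
    exact (IsFractionRing.injective 𝒪' K') (h1.trans (map_zero _).symm)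
  set θ' : heckeAlgebra N₀ 2 (↑S₀ : Set ℕ) →+* ResidueField 𝒪' :=
    (algebraMap (ResidueField 𝒪) (ResidueField 𝒪')).comp θ with hθ'
  have hres : residue 𝒪' (aa t) = θ' (heckeAlgebra.T htprime htN₀ htS₀) := by
    refine twe_oe_compat M₁ p S₁ 𝒪' K' (Finset.mem_erase.2 ⟨fun h => htp h.symm, hpS⟩)
      (fun r hr hd => Finset.mem_erase.2 ⟨fun h => htM (h ▸ hd),
        hMS r hr (Dvd.dvd.mul_right hd t)⟩) hp' aa c hc0 (fun ℓ hg h => ?_) θ'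
      (ρbar.baseChange (ResidueField 𝒪')) (twt_ci_compat ρbar θ hcompat) (fun ℓ hg => ?_) {t}
      (fun ℓ hg hne hℓ h1 h2 => ?_) t hgt htprime htN₀ htS₀
    · rw [hc, AddMonoidHom.comp_apply, AddMonoidHom.comp_apply, hy ℓ hg]
      exact map_mul (algebraMap 𝒪' K') _ _
    · by_cases hℓt : ℓ = t
      · subst hℓt
        exact ⟨htN₀, htS₀⟩
      · exact hgood ℓ (hG₁' ℓ hg hℓt)
    · have hℓt : ℓ ≠ t := fun h => hne (Finset.mem_singleton.2 h)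
      have hgG : G ℓ := hG₁' ℓ hg hℓt
      have h3 := hcong ℓ hgG
      rw [← residue_eq_zero_iff, map_sub, sub_eq_zero] at h3
      rw [h3, hθ', RingHom.comp_apply, ← ha ℓ hgG]
      rfl
  -- the residue of the eigenvalue
  have hpk : ((p : ℕ) : ResidueField 𝒪') = 0 := by
    rw [← map_natCast (residue 𝒪')]
    exact (residue_eq_zero_iff _).2 hp'
  have htk : ((t : ℕ) : ResidueField 𝒪') = 1 := by
    conv_lhs => rw [← Nat.div_add_mod t p, htp1]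
    rw [Nat.cast_add, Nat.cast_mul, hpk, zero_mul, zero_add, Nat.cast_one]
  have hTW' : θ' (heckeAlgebra.T htprime htN₀ htS₀) ^ 2 ≠ 4 := by
    intro h4
    apply hTW
    apply (algebraMap (ResidueField 𝒪) (ResidueField 𝒪')).injective
    rw [map_pow, map_ofNat]
    exact h4
  rw [← residue_ne_zero_iff_isUnit, map_sub, map_pow, map_natCast, hres, Nat.cast_mul,
    Nat.cast_add, htk, Nat.cast_one]
  intro h0
  apply hTW'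
  rw [sub_eq_zero] at h0
  rw [h0]
  norm_num

/-- `T_t` preserves the primary part of level `M₁`. -/
theorem twe_om_Tt_mem (M₁ t : ℕ) [NeZero M₁] [NeZero t] [Fact t.Prime] (htM : ¬ t ∣ M₁)
    (G : ℕ → Prop) (a : ℕ → 𝒪) (ψ : gh_H M₁ →+ 𝒪) (hψ : twe_om_IsPrim M₁ G a ψ) :
    twe_om_IsPrim M₁ G a (ψ.comp (t2e_TH htM)) := by
  refine twe_om_prim_comp (t2e_TH htM) (fun ℓ _ h => ?_) hψ
  have h1 := DFunLike.congr_fun (twe_om_TH_commute M₁ ℓ t).eq h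
  rw [Module.End.mul_apply, Module.End.mul_apply, t2f_TH_apply Fact.out htM,
    t2f_TH_apply Fact.out htM] at h1
  exact h1

/-- **(D')**: `T_t² - (t+1)²` is invertible on the primary part `PA` of level `M₁`: there is a
global operator `D'` commuting with `T_t`, preserving `PA`, and inverse to it on `PA`. -/
theorem twe_om_unit (hp𝒪 : (p : 𝒪) ∈ maximalIdeal 𝒪)
    (M₁ t : ℕ) [NeZero M₁] [NeZero t] [Fact t.Prime] (htM : ¬ t ∣ M₁) (htp : t ≠ p)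
    (htp1 : t % p = 1)
    (S : Finset ℕ) (hpS : p ∈ S) (hMS : ∀ r : ℕ, r.Prime → r ∣ M₁ * t → r ∈ S)
    {N₀ : ℕ} [NeZero N₀] {S₀ : Finset ℕ}
    (θ : heckeAlgebra N₀ 2 (↑S₀ : Set ℕ) →+* ResidueField 𝒪)
    (ρbar : ResidualGaloisRep (ResidueField 𝒪)) (hcompat : twt_Compat θ ρbar)
    (hgood : ∀ ℓ, pk_Good (M₁ * t) S ℓ → ¬ ℓ ∣ N₀ ∧ ℓ ∉ (↑S₀ : Set ℕ))
    (htN₀ : ¬ t ∣ N₀) (htS₀ : t ∉ (↑S₀ : Set ℕ))
    (hTW : θ (heckeAlgebra.T (Fact.out : t.Prime) htN₀ htS₀) ^ 2 ≠ 4)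
    (a : ℕ → 𝒪)
    (ha : ∀ ℓ (hg : pk_Good (M₁ * t) S ℓ),
      residue 𝒪 (a ℓ) = θ (heckeAlgebra.T hg.1 (hgood ℓ hg).1 (hgood ℓ hg).2))
    (PA : Submodule 𝒪 (gh_H M₁ →+ 𝒪))
    (hPA : ∀ x, x ∈ PA ↔ twe_om_IsPrim M₁ (pk_Good (M₁ * t) S) a x) :
    ∃ D' : (gh_H M₁ →+ 𝒪) →+ (gh_H M₁ →+ 𝒪), (∀ ψ ∈ PA, D' ψ ∈ PA) ∧
      (∀ ψ, D' (ψ.comp (t2e_TH htM)) = (D' ψ).comp (t2e_TH htM)) ∧
      ∀ ψ ∈ PA, D' ((ψ.comp (t2e_TH htM)).comp (t2e_TH htM) - ((t + 1) * (t + 1)) • ψ) = ψ := by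
  classical
  have htprime : t.Prime := Fact.out
  set G : ℕ → Prop := pk_Good (M₁ * t) S with hG
  set S₁ : Finset ℕ := S.erase t with hS₁
  set τt : Module.End ℤ (gh_H M₁) := t2f_TH M₁ t with hτt
  have hτt_apply : ∀ h, τt h = t2e_TH htM h := fun h => t2f_TH_apply htprime htM h
  set nn : ℕ := (t + 1) * (t + 1) with hnn
  set g₀ : Module.End ℤ (gh_H M₁) := τt * τt - nn • (1 : Module.End ℤ (gh_H M₁)) with hg₀
  set 𝒯 : Set (Module.End ℤ (gh_H M₁)) :=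
    {τ | (∃ ℓ, pk_Good M₁ S₁ ℓ ∧ τ = t2f_TH M₁ ℓ) ∨ τ = g₀} with h𝒯
  have hg₀comm : ∀ ℓ, Commute g₀ (t2f_TH M₁ ℓ) := fun ℓ =>
    ((twe_om_TH_commute M₁ t ℓ).mul_left (twe_om_TH_commute M₁ t ℓ)).sub_left
      ((Commute.one_left _).smul_left _)
  have hcomm : ∀ τ ∈ 𝒯, ∀ τ' ∈ 𝒯, Commute τ τ' := by
    rintro τ (⟨ℓ, -, rfl⟩ | rfl) τ' (⟨ℓ', -, rfl⟩ | rfl)
    · exact twe_om_TH_commute _ ℓ ℓ'
    · exact (hg₀comm ℓ).symm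
    · exact hg₀comm ℓ'
    · exact Commute.refl _
  have hstT : ∀ ℓ', ∀ x ∈ PA, x.comp (t2f_TH M₁ ℓ').toAddMonoidHom ∈ PA := by
    intro ℓ' x hx
    rw [hPA] at hx ⊢
    refine twe_om_prim_comp (t2f_TH M₁ ℓ').toAddMonoidHom (fun ℓ _ h => ?_) hx
    exact DFunLike.congr_fun (twe_om_TH_commute M₁ ℓ ℓ').eq h
  have hg₀x : ∀ x : gh_H M₁ →+ 𝒪, x.comp g₀.toAddMonoidHom =
      (x.comp τt.toAddMonoidHom).comp τt.toAddMonoidHom - nn • x := by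
    intro x
    refine AddMonoidHom.ext fun h => ?_
    show x (g₀ h) = x (τt (τt h)) - nn • x h
    rw [hg₀, LinearMap.sub_apply, Module.End.mul_apply, LinearMap.smul_apply,
      Module.End.one_apply, map_sub, map_nsmul]
  have hstg : ∀ x ∈ PA, x.comp g₀.toAddMonoidHom ∈ PA := by
    intro x hx
    rw [hg₀x]
    exact PA.sub_mem (hstT t _ (hstT t x hx)) (nsmul_mem hx nn)
  have hst : ∀ τ ∈ 𝒯, ∀ x ∈ PA, x.comp τ.toAddMonoidHom ∈ PA := by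
    rintro τ (⟨ℓ, -, rfl⟩ | rfl) x hx
    · exact hstT ℓ x hx
    · exact hstg x hx
  haveI := twe_om_free_sub PA
  haveI := twe_om_finite_sub PA
  have hP : ∀ x ∈ PA, lrtop_pre 𝒪 𝒪 g₀.toAddMonoidHom x ∈ PA := fun x hx => hstg x hx
  have hgt : pk_Good M₁ S₁ t :=
    ⟨htprime, htM, fun hmem => (Finset.notMem_erase t S) (Finset.mem_coe.1 hmem)⟩
  have hunitf : IsUnit ((lrtop_pre 𝒪 𝒪 g₀.toAddMonoidHom).restrict hP) := by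
    refine twe_om_unit_abs (twe_ogd_Psi_injective 𝒪 _ M₁) 𝒯 hcomm PA hst g₀ (Or.inr rfl) hP ?_
    intro 𝒪' _ _ _ _ _ _ _ _ n b x a' hx hy0 hy
    have hu := twe_om_unit_eig hp𝒪 M₁ t htM htp htp1 S hpS hMS θ ρbar hcompat hgood htN₀ htS₀ hTW
      a ha 𝒪' n b x (fun i => (hPA _).1 (hx i)) hy0 (fun ℓ => a' (t2f_TH M₁ ℓ))
      (fun ℓ hg h => hy _ (Or.inl ⟨ℓ, hg, rfl⟩) h)
    set y : gh_H M₁ →+ 𝒪' := ∑ i, b i • twe_od_ext 𝒪' (x i) with hydef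
    obtain ⟨h₀, hh₀⟩ : ∃ h₀, y h₀ ≠ 0 := by
      by_contra hall
      refine hy0 (AddMonoidHom.ext fun h => ?_)
      rw [AddMonoidHom.zero_apply]
      by_contra hne
      exact hall ⟨h, hne⟩
    have h1 := hy g₀ (Or.inr rfl) h₀
    have h2 : y (g₀ h₀) = (a' τt ^ 2 - (nn : 𝒪')) * y h₀ := by
      rw [hg₀, LinearMap.sub_apply, Module.End.mul_apply, LinearMap.smul_apply,
        Module.End.one_apply, map_sub, map_nsmul, hy τt (Or.inl ⟨t, hgt, rfl⟩),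
        hy τt (Or.inl ⟨t, hgt, rfl⟩), nsmul_eq_mul]
      ring
    have h3 : a' g₀ = a' τt ^ 2 - (nn : 𝒪') := mul_right_cancel₀ hh₀ (h1.symm.trans h2)
    rw [h3]
    exact hu
  obtain ⟨q, hq⟩ := twe_ou_inv_poly (lrtop_pre 𝒪 𝒪 g₀.toAddMonoidHom) PA hP hunitf
  set T₀ : Module.End 𝒪 (gh_H M₁ →+ 𝒪) := lrtop_pre 𝒪 𝒪 g₀.toAddMonoidHom with hT₀
  set Tt : Module.End 𝒪 (gh_H M₁ →+ 𝒪) := lrtop_pre 𝒪 𝒪 (t2e_TH htM) with hTt
  refine ⟨(aeval T₀ q).toAddMonoidHom, fun ψ hψ => twe_om_aeval_mem T₀ PA hP q ψ hψ,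
    fun ψ => ?_, fun ψ hψ => ?_⟩
  · have h1 := twe_om_aeval_comm Tt T₀ T₀ (fun z => by
      refine AddMonoidHom.ext fun h => ?_
      show z (g₀ (t2e_TH htM h)) = z (t2e_TH htM (g₀ h))
      rw [← hτt_apply, ← hτt_apply]
      exact congrArg z (DFunLike.congr_fun (hg₀comm t).eq h)) q ψ
    exact h1.symm
  · have h1 := hq ψ hψ
    have h2 : T₀ ψ = (ψ.comp (t2e_TH htM)).comp (t2e_TH htM) - ((t + 1) * (t + 1)) • ψ := by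
      rw [hT₀, lrtop_pre_apply, hg₀x]
      congr 1
      refine AddMonoidHom.ext fun h => ?_
      show ψ (τt (τt h)) = ψ (t2e_TH htM (t2e_TH htM h))
      rw [hτt_apply, hτt_apply]
    rw [← h2]
    exact h1

/-- **E/Old, one prime, in the prim vocabulary**: `i = lrh_i` maps `PA × PA` into `PB`, injectively
and onto, for `PA`, `PB` the `θ`-primary parts of levels `M₁` and `M₁ t`, `t` a Taylor–Wiles prime. -/
theorem twe_om_main (hp𝒪 : (p : 𝒪) ∈ maximalIdeal 𝒪)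
    (M₁ t : ℕ) [NeZero M₁] [NeZero t] [Fact t.Prime] (htM : ¬ t ∣ M₁) (htp : t ≠ p)
    (htp1 : t % p = 1)
    (S : Finset ℕ) (hpS : p ∈ S) (hMS : ∀ r : ℕ, r.Prime → r ∣ M₁ * t → r ∈ S)
    {N₀ : ℕ} [NeZero N₀] {S₀ : Finset ℕ}
    (θ : heckeAlgebra N₀ 2 (↑S₀ : Set ℕ) →+* ResidueField 𝒪)
    (ρbar : ResidualGaloisRep (ResidueField 𝒪)) (hcompat : twt_Compat θ ρbar)
    (hgood : ∀ ℓ, pk_Good (M₁ * t) S ℓ → ¬ ℓ ∣ N₀ ∧ ℓ ∉ (↑S₀ : Set ℕ))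
    (htN₀ : ¬ t ∣ N₀) (htS₀ : t ∉ (↑S₀ : Set ℕ))
    (hTW : θ (heckeAlgebra.T (Fact.out : t.Prime) htN₀ htS₀) ^ 2 ≠ 4)
    (a : ℕ → 𝒪)
    (ha : ∀ ℓ (hg : pk_Good (M₁ * t) S ℓ),
      residue 𝒪 (a ℓ) = θ (heckeAlgebra.T hg.1 (hgood ℓ hg).1 (hgood ℓ hg).2))
    (PA : Submodule 𝒪 (gh_H M₁ →+ 𝒪))
    (hPA : ∀ x, x ∈ PA ↔ twe_om_IsPrim M₁ (pk_Good (M₁ * t) S) a x)
    (PB : Submodule 𝒪 (gh_H (M₁ * t) →+ 𝒪))
    (hPB : ∀ x, x ∈ PB ↔ twe_om_IsPrim (M₁ * t) (pk_Good (M₁ * t) S) a x) :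
    (∀ ψ₁ ∈ PA, ∀ ψ₂ ∈ PA, lrh_i htM 𝒪 (ψ₁, ψ₂) ∈ PB) ∧
    (∀ ψ₁ ∈ PA, ∀ ψ₂ ∈ PA, lrh_i htM 𝒪 (ψ₁, ψ₂) = 0 → ψ₁ = 0 ∧ ψ₂ = 0) ∧
      ∀ φ ∈ PB, ∃ ψ₁ ∈ PA, ∃ ψ₂ ∈ PA, lrh_i htM 𝒪 (ψ₁, ψ₂) = φ := by
  classical
  set G : ℕ → Prop := pk_Good (M₁ * t) S with hG
  have h1 : ∀ ψ₁ ∈ PA, ∀ ψ₂ ∈ PA, lrh_i htM 𝒪 (ψ₁, ψ₂) ∈ PB := by
    intro ψ₁ h₁ ψ₂ h₂
    show ψ₁.comp (lrh_A M₁ t) + ψ₂.comp (lrh_B htM) ∈ PB
    refine PB.add_mem ?_ ?_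
    · rw [hPB]
      exact twe_om_prim_comp (lrh_A M₁ t) (fun ℓ hℓ h => twe_om_A_TH ℓ hℓ.1 hℓ.2.1 h)
        ((hPA _).1 h₁)
    · rw [hPB]
      exact twe_om_prim_comp (lrh_B htM) (fun ℓ hℓ h => twe_om_B_TH htM ℓ hℓ.1 hℓ.2.1 h)
        ((hPA _).1 h₂)
  have h2 : ∀ φ ∈ PB, (lrh_idag htM 𝒪 φ).1 ∈ PA ∧ (lrh_idag htM 𝒪 φ).2 ∈ PA := by
    intro φ hφ
    refine ⟨?_, ?_⟩
    · show φ.comp (lrh_At htM) ∈ PA
      rw [hPA]
      exact twe_om_prim_comp (lrh_At htM) (fun ℓ hℓ h => twe_om_At_TH htM ℓ hℓ.1 hℓ.2.1 h)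
        ((hPB _).1 hφ)
    · show φ.comp (lrh_Bt htM) ∈ PA
      rw [hPA]
      exact twe_om_prim_comp (lrh_Bt htM) (fun ℓ hℓ h => twe_om_Bt_TH htM ℓ hℓ.1 hℓ.2.1 h)
        ((hPB _).1 hφ)
  have h3 : ∀ ψ ∈ PA, ψ.comp (t2e_TH htM) ∈ PA := by
    intro ψ hψ
    rw [hPA] at hψ ⊢
    exact twe_om_Tt_mem M₁ t htM G a ψ hψ
  obtain ⟨D', hD'P, hD'T, hD'⟩ := twe_om_unit hp𝒪 M₁ t htM htp htp1 S hpS hMS θ ρbar hcompat hgood
    htN₀ htS₀ hTW a ha PA hPA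
  have hN : ∀ φ ∈ PB, lrh_idag htM 𝒪 φ = 0 → φ = 0 := by
    intro φ hφ hker
    exact twe_om_N hp𝒪 M₁ t htM htp htp1 S hpS hMS θ ρbar hcompat hgood htN₀ htS₀ hTW a ha φ
      ((hPB _).1 hφ) hker
  exact ⟨h1, twe_old_split htM PA.toAddSubgroup PB.toAddSubgroup h1 h2 h3 D' hD'P hD'T hD' hN⟩

/-- `i = lrh_i` as an `𝒪`-linear map. -/
def twe_om_iLin {M₁ t : ℕ} [NeZero M₁] [NeZero t] [Fact t.Prime] (htM : ¬ t ∣ M₁) (A : Type)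
    [CommRing A] :
    ((gh_H M₁ →+ A) × (gh_H M₁ →+ A)) →ₗ[A] (gh_H (M₁ * t) →+ A) where
  toFun z := lrh_i htM A z
  map_add' z z' := map_add _ z z'
  map_smul' r z := by
    refine AddMonoidHom.ext fun h => ?_
    show (r • z).1 (lrh_A M₁ t h) + (r • z).2 (lrh_B htM h) =
      r • (z.1 (lrh_A M₁ t h) + z.2 (lrh_B htM h))
    rw [Prod.smul_fst, Prod.smul_snd, AddMonoidHom.smul_apply, AddMonoidHom.smul_apply, smul_add]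

@[simp] theorem twe_om_iLin_apply {M₁ t : ℕ} [NeZero M₁] [NeZero t] [Fact t.Prime]
    (htM : ¬ t ∣ M₁) (A : Type) [CommRing A] (z : (gh_H M₁ →+ A) × (gh_H M₁ →+ A)) :
    twe_om_iLin htM A z = lrh_i htM A z := rfl

/-- **E/Old, one prime, as a linear equivalence** `PA × PA ≃ PB` induced by `i = lrh_i`. -/
theorem twe_om_equiv (hp𝒪 : (p : 𝒪) ∈ maximalIdeal 𝒪)
    (M₁ t : ℕ) [NeZero M₁] [NeZero t] [Fact t.Prime] (htM : ¬ t ∣ M₁) (htp : t ≠ p)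
    (htp1 : t % p = 1)
    (S : Finset ℕ) (hpS : p ∈ S) (hMS : ∀ r : ℕ, r.Prime → r ∣ M₁ * t → r ∈ S)
    {N₀ : ℕ} [NeZero N₀] {S₀ : Finset ℕ}
    (θ : heckeAlgebra N₀ 2 (↑S₀ : Set ℕ) →+* ResidueField 𝒪)
    (ρbar : ResidualGaloisRep (ResidueField 𝒪)) (hcompat : twt_Compat θ ρbar)
    (hgood : ∀ ℓ, pk_Good (M₁ * t) S ℓ → ¬ ℓ ∣ N₀ ∧ ℓ ∉ (↑S₀ : Set ℕ))
    (htN₀ : ¬ t ∣ N₀) (htS₀ : t ∉ (↑S₀ : Set ℕ))
    (hTW : θ (heckeAlgebra.T (Fact.out : t.Prime) htN₀ htS₀) ^ 2 ≠ 4)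
    (a : ℕ → 𝒪)
    (ha : ∀ ℓ (hg : pk_Good (M₁ * t) S ℓ),
      residue 𝒪 (a ℓ) = θ (heckeAlgebra.T hg.1 (hgood ℓ hg).1 (hgood ℓ hg).2))
    (PA : Submodule 𝒪 (gh_H M₁ →+ 𝒪))
    (hPA : ∀ x, x ∈ PA ↔ twe_om_IsPrim M₁ (pk_Good (M₁ * t) S) a x)
    (PB : Submodule 𝒪 (gh_H (M₁ * t) →+ 𝒪))
    (hPB : ∀ x, x ∈ PB ↔ twe_om_IsPrim (M₁ * t) (pk_Good (M₁ * t) S) a x) :
    ∃ e : (PA × PA) ≃ₗ[𝒪] PB, ∀ z : PA × PA,
      ((e z : PB) : gh_H (M₁ * t) →+ 𝒪) =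
        lrh_i htM 𝒪 ((z.1 : gh_H M₁ →+ 𝒪), (z.2 : gh_H M₁ →+ 𝒪)) := by
  classical
  obtain ⟨h1, h2, h3⟩ := twe_om_main hp𝒪 M₁ t htM htp htp1 S hpS hMS θ ρbar hcompat hgood htN₀
    htS₀ hTW a ha PA hPA PB hPB
  set F : (PA × PA) →ₗ[𝒪] PB :=
    ((twe_om_iLin htM 𝒪) ∘ₗ (PA.subtype.prodMap PA.subtype)).codRestrict PB
      (fun z => h1 _ z.1.2 _ z.2.2) with hF
  have hFv : ∀ z : PA × PA, ((F z : PB) : gh_H (M₁ * t) →+ 𝒪) =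
      lrh_i htM 𝒪 ((z.1 : gh_H M₁ →+ 𝒪), (z.2 : gh_H M₁ →+ 𝒪)) := fun z => rfl
  have hbij : Function.Bijective F := by
    refine ⟨?_, ?_⟩
    · intro z z' hzz'
      have h4 : lrh_i htM 𝒪 ((z.1 : gh_H M₁ →+ 𝒪) - z'.1, (z.2 : gh_H M₁ →+ 𝒪) - z'.2) = 0 := by
        have h7 : lrh_i htM 𝒪 ((z.1 : gh_H M₁ →+ 𝒪), (z.2 : gh_H M₁ →+ 𝒪)) =
            lrh_i htM 𝒪 ((z'.1 : gh_H M₁ →+ 𝒪), (z'.2 : gh_H M₁ →+ 𝒪)) := by
          rw [← hFv, ← hFv, hzz']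
        have h5 : ((z.1 : gh_H M₁ →+ 𝒪) - z'.1, (z.2 : gh_H M₁ →+ 𝒪) - z'.2) =
            ((z.1 : gh_H M₁ →+ 𝒪), (z.2 : gh_H M₁ →+ 𝒪)) -
              ((z'.1 : gh_H M₁ →+ 𝒪), (z'.2 : gh_H M₁ →+ 𝒪)) := rfl
        rw [h5, map_sub, h7, sub_self]
      obtain ⟨h5, h6⟩ := h2 _ (PA.sub_mem z.1.2 z'.1.2) _ (PA.sub_mem z.2.2 z'.2.2) h4
      exact Prod.ext (Subtype.ext (sub_eq_zero.1 h5)) (Subtype.ext (sub_eq_zero.1 h6))
    · intro φ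
      obtain ⟨ψ₁, hψ₁, ψ₂, hψ₂, h4⟩ := h3 φ.1 φ.2
      exact ⟨(⟨ψ₁, hψ₁⟩, ⟨ψ₂, hψ₂⟩), Subtype.ext ((hFv _).trans h4)⟩
  exact ⟨LinearEquiv.ofBijective F hbij, fun z => hFv z⟩

/-- the Hecke equivariance of `i` at the primes `ℓ ∤ M₁ t` (in the `t2f_TH` vocabulary). -/
theorem twe_om_i_TH {M₁ t : ℕ} [NeZero M₁] [NeZero t] [Fact t.Prime] (htM : ¬ t ∣ M₁)
    (A : Type) [AddCommGroup A] (ℓ : ℕ) (hℓ : ℓ.Prime) (hℓM : ¬ ℓ ∣ M₁ * t)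
    (ψ : (gh_H M₁ →+ A) × (gh_H M₁ →+ A)) :
    (lrh_i htM A ψ).comp (t2f_TH (M₁ * t) ℓ).toAddMonoidHom =
      lrh_i htM A (ψ.1.comp (t2f_TH M₁ ℓ).toAddMonoidHom, ψ.2.comp (t2f_TH M₁ ℓ).toAddMonoidHom) := by
  refine AddMonoidHom.ext fun h => ?_
  show ψ.1 (lrh_A M₁ t (t2f_TH (M₁ * t) ℓ h)) + ψ.2 (lrh_B htM (t2f_TH (M₁ * t) ℓ h)) =
    ψ.1 (t2f_TH M₁ ℓ (lrh_A M₁ t h)) + ψ.2 (t2f_TH M₁ ℓ (lrh_B htM h))
  rw [twe_om_A_TH ℓ hℓ hℓM, twe_om_B_TH htM ℓ hℓ hℓM]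

end main

end Fermat.Agent.TW
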