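import Mathlib
import Fermat.Agent.TW.Aut.OldMain
import Fermat.Agent.TW.Aut.OldIterStmt

/-!
# ONE MACHINE / block [E] AUT, cell (C5) closed (helper14).  Prefix `twe_oio_`.

The adapter from the one-prime theorem `twe_om_main` (`TW/Aut/OldMain.lean`, vocabulary
`twe_om_IsPrim M G a'`, `G : ℕ → Prop`, `a' : ℕ → 𝒪`) to helper2's `twe_ois_One_stmt`
(`TW/Aut/OldIterStmt.lean`, vocabulary `twe_pr_prim (twe_sm_TX 𝒪 M q) a`, `q : I → ℕ` any family
enumerating the good primes of `(N, S ∪ Q)`, `a : I → 𝒪`), hence helper3's `twe_sm_OldIter_stmt`.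

* `twe_oio_shift`   : topological nilpotence of `N` at `x` gives that of `N + δ`, `δ ∈ 𝔪`
                      (the primary part does not depend on the choice of the lifts `a`);
* `twe_oio_mem_iff` : the two vocabularies agree;
* `twe_oio_one`     : **`twe_ois_One_stmt`**;
* `twe_oio_oldIter` : **`twe_sm_OldIter_stmt`** (cell (C5) of the E/Seam table v4).
-/

set_option autoImplicit false
set_option linter.unusedSectionVars false
set_option linter.unusedVariables false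
set_option linter.style.haveILetI false
set_option synthInstance.maxHeartbeats 400000
set_option maxHeartbeats 1000000

noncomputable section

namespace Fermat.Agent.TW

open IsLocalRing Polynomial CuspForm Fermat.Agent.JT3 Fermat.Agent.LR

/-- **shift of the eigenvalue inside the maximal ideal.** -/
theorem twe_oio_shift {𝒪 : Type*} [CommRing 𝒪] {X : Type*} [AddCommGroup X] [Module 𝒪 X]
    (J : Ideal 𝒪) (N : Module.End 𝒪 X) (δ : 𝒪) (hδ : δ ∈ J) (x : X) (k n₀ : ℕ)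
    (hx : (N ^ n₀) x ∈ (J ^ k) • (⊤ : Submodule 𝒪 X)) :
    ((N + δ • (1 : Module.End 𝒪 X)) ^ (n₀ + k)) x ∈ (J ^ k) • (⊤ : Submodule 𝒪 X) := by
  have hc : Commute N (δ • (1 : Module.End 𝒪 X)) := (Commute.one_right N).smul_right δ
  rw [hc.add_pow, LinearMap.sum_apply]
  refine Submodule.sum_mem _ fun m hm => ?_
  have h1 : (N ^ m * (δ • (1 : Module.End 𝒪 X)) ^ (n₀ + k - m) *
      (((n₀ + k).choose m : ℕ) : Module.End 𝒪 X)) x =
      δ ^ (n₀ + k - m) • ((n₀ + k).choose m • (N ^ m) x) := by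
    rw [Module.End.mul_apply, Module.End.mul_apply, _root_.smul_pow, one_pow, LinearMap.smul_apply,
      Module.End.one_apply, Module.End.natCast_apply, map_smul, map_nsmul]
  rw [h1]
  by_cases hmn : n₀ ≤ m
  · refine Submodule.smul_mem _ _ (Submodule.smul_of_tower_mem _ _ ?_)
    have h2 : (N ^ m) x = (N ^ (m - n₀)) ((N ^ n₀) x) := by
      rw [← Module.End.mul_apply, ← pow_add, Nat.sub_add_cancel hmn]
    rw [h2]
    refine Submodule.smul_induction_on hx (fun r hr y _ => ?_) (fun u v hu hv => ?_)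
    · rw [map_smul]
      exact Submodule.smul_mem_smul hr Submodule.mem_top
    · rw [map_add]
      exact Submodule.add_mem _ hu hv
  · have h3 : δ ^ (n₀ + k - m) ∈ J ^ k :=
      Ideal.pow_le_pow_right (by omega) (Ideal.pow_mem_pow hδ _)
    exact Submodule.smul_mem_smul h3 Submodule.mem_top

section voc

variable {𝒪 : Type} [CommRing 𝒪] [IsLocalRing 𝒪]

/-- **the two vocabularies agree.** -/
theorem twe_oio_mem_iff {I : Type} (q : I → ℕ) (a : I → 𝒪) (G : ℕ → Prop) (hqG : ∀ i, G (q i))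
    (hGq : ∀ ℓ, G ℓ → ∃ i, q i = ℓ) (a' : ℕ → 𝒪)
    (haa' : ∀ i, a' (q i) - a i ∈ maximalIdeal 𝒪) (M : ℕ) (x : gh_H M →+ 𝒪) :
    x ∈ twe_pr_prim (twe_sm_TX 𝒪 M q) a ↔ twe_om_IsPrim M G a' x := by
  have hop : ∀ i, twe_od_N (t2f_TH M (q i)) (a' (q i)) =
      (twe_sm_TX 𝒪 M q i - a i • (1 : Module.End 𝒪 (gh_H M →+ 𝒪))) +
        (a i - a' (q i)) • (1 : Module.End 𝒪 (gh_H M →+ 𝒪)) := by
    intro i
    refine LinearMap.ext fun ψ => AddMonoidHom.ext fun h => ?_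
    rw [twe_od_N_apply]
    simp only [LinearMap.add_apply, LinearMap.sub_apply, LinearMap.smul_apply,
      Module.End.one_apply, AddMonoidHom.add_apply, AddMonoidHom.sub_apply,
      AddMonoidHom.smul_apply, twe_sm_TX_apply, AddMonoidHom.comp_apply, smul_eq_mul]
    show ψ (t2f_TH M (q i) h) - a' (q i) * ψ h = _
    have : (t2f_TH M (q i)).toAddMonoidHom h = t2f_TH M (q i) h := rfl
    rw [this]
    ring
  have hop' : ∀ i, twe_sm_TX 𝒪 M q i - a i • (1 : Module.End 𝒪 (gh_H M →+ 𝒪)) =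
      twe_od_N (t2f_TH M (q i)) (a' (q i)) +
        (a' (q i) - a i) • (1 : Module.End 𝒪 (gh_H M →+ 𝒪)) := by
    intro i
    rw [hop i, add_assoc, ← add_smul]
    have : a i - a' (q i) + (a' (q i) - a i) = 0 := by ring
    rw [this, zero_smul, add_zero]
  constructor
  · intro hx ℓ hℓ k
    obtain ⟨i, rfl⟩ := hGq ℓ hℓ
    obtain ⟨n₀, hn₀⟩ := hx i k
    refine ⟨n₀ + k, ?_⟩
    rw [hop i]
    refine twe_oio_shift _ _ _ ?_ x k n₀ hn₀
    have := haa' i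
    rw [← neg_sub]
    exact neg_mem this
  · intro hx i k
    obtain ⟨n₀, hn₀⟩ := hx (q i) (hqG i) k
    refine ⟨n₀ + k, ?_⟩
    rw [hop' i]
    exact twe_oio_shift _ _ _ (haa' i) x k n₀ hn₀

end voc

/-- the Hecke generators depend on the prime only. -/
theorem twe_oio_T_congr {N : ℕ} [NeZero N] {S : Set ℕ} {ℓ ℓ' : ℕ} (h : ℓ = ℓ')
    (hℓ : ℓ.Prime) (h1 : ¬ ℓ ∣ N) (h2 : ℓ ∉ S) (hℓ' : ℓ'.Prime) (h1' : ¬ ℓ' ∣ N) (h2' : ℓ' ∉ S) :
    (heckeAlgebra.T hℓ h1 h2 : heckeAlgebra N 2 S) = heckeAlgebra.T hℓ' h1' h2' := by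
  subst h
  rfl

/-- **the one-prime statement of (C5).** -/
theorem twe_oio_one : twe_ois_One_stmt := by
  intro p _ hp5 𝒪 _ _ _ _ _ _ hp𝒪 N _ hsq hpN S hpS hNS θ ρbar hcompat hirr Q hQS hTW I q hq hqall
    a ha s t hst hts _ htM
  classical
  have htQ : t ∈ Q := hst (Finset.mem_insert_self t s)
  have hsQ : s ⊆ Q := fun x hx => hst (Finset.mem_insert_of_mem hx)
  obtain ⟨htprime, htp1, hTWt⟩ := hTW t htQ
  have hM₁0 : N * ∏ x ∈ s, x ≠ 0 := by
    refine mul_ne_zero (NeZero.ne N) (Finset.prod_ne_zero_iff.2 fun x hx => ?_)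
    exact (hTW x (hsQ hx)).1.ne_zero
  haveI : NeZero (N * ∏ x ∈ s, x) := ⟨hM₁0⟩
  haveI : NeZero t := ⟨htprime.ne_zero⟩
  set M₁ : ℕ := N * ∏ x ∈ s, x with hM₁
  set S' : Finset ℕ := S ∪ Q with hS'
  have htp : t ≠ p := fun h => hQS t htQ (h ▸ hpS)
  have hpS' : p ∈ S' := Finset.mem_union_left _ hpS
  have hMS' : ∀ r : ℕ, r.Prime → r ∣ M₁ * t → r ∈ S' := by
    intro r hr hd
    rcases (Nat.Prime.dvd_mul hr).1 hd with h1 | h1
    · rcases (Nat.Prime.dvd_mul hr).1 h1 with h2 | h2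
      · exact Finset.mem_union_left _ (hNS r hr h2)
      · obtain ⟨x, hx, hxt⟩ := (Prime.dvd_finsetProd_iff hr.prime _).mp h2
        have hrx : r = x := (Nat.prime_dvd_prime_iff_eq hr (hTW x (hsQ hx)).1).mp hxt
        exact Finset.mem_union_right _ (hrx ▸ hsQ hx)
    · have hrt : r = t := (Nat.prime_dvd_prime_iff_eq hr htprime).mp h1
      exact Finset.mem_union_right _ (hrt ▸ htQ)
  have hGiff : ∀ ℓ, pk_Good (M₁ * t) S' ℓ ↔ pk_Good N S' ℓ := by
    intro ℓ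
    refine ⟨fun h => ⟨h.1, fun hd => h.2.1 (Dvd.dvd.mul_right (Dvd.dvd.mul_right hd _) _), h.2.2⟩,
      fun h => ⟨h.1, fun hd => ?_, h.2.2⟩⟩
    exact h.2.2 (Finset.mem_coe.2 (hMS' ℓ h.1 hd))
  have hgood : ∀ ℓ, pk_Good (M₁ * t) S' ℓ → ¬ ℓ ∣ N ∧ ℓ ∉ (↑S : Set ℕ) := fun ℓ h =>
    ⟨((hGiff ℓ).1 h).2.1, fun hmem =>
      h.2.2 (Finset.mem_coe.2 (Finset.mem_union_left _ (Finset.mem_coe.1 hmem)))⟩
  have htN : ¬ t ∣ N := fun hd => htM (Dvd.dvd.mul_right hd _)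
  have htS : t ∉ (↑S : Set ℕ) := fun hmem => hQS t htQ (Finset.mem_coe.1 hmem)
  -- the lifts indexed by the primes
  set a' : ℕ → 𝒪 := fun ℓ => if h : ∃ i, q i = ℓ then a h.choose else 0 with ha'
  have hres : ∀ i j, q i = q j → residue 𝒪 (a i) = residue 𝒪 (a j) := by
    intro i j hij
    rw [ha i, ha j]
    exact congrArg θ (twe_oio_T_congr hij _ _ _ _ _ _)
  have ha'q : ∀ i, a' (q i) = a (⟨i, rfl⟩ : ∃ j, q j = q i).choose := fun i =>
    dif_pos (⟨i, rfl⟩ : ∃ j, q j = q i)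
  have haa' : ∀ i, a' (q i) - a i ∈ maximalIdeal 𝒪 := by
    intro i
    rw [ha'q i, ← residue_eq_zero_iff, map_sub, sub_eq_zero]
    exact hres _ _ (⟨i, rfl⟩ : ∃ j, q j = q i).choose_spec
  have ha'res : ∀ ℓ (hg : pk_Good (M₁ * t) S' ℓ),
      residue 𝒪 (a' ℓ) = θ (heckeAlgebra.T hg.1 (hgood ℓ hg).1 (hgood ℓ hg).2) := by
    intro ℓ hg
    obtain ⟨i, rfl⟩ := hqall ℓ ((hGiff ℓ).1 hg)
    have h1 := haa' i
    rw [← residue_eq_zero_iff, map_sub, sub_eq_zero] at h1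
    rw [h1, ha i]
  have hiff : ∀ (M : ℕ) (x : gh_H M →+ 𝒪),
      x ∈ twe_pr_prim (twe_sm_TX 𝒪 M q) a ↔ twe_om_IsPrim M (pk_Good (M₁ * t) S') a' x :=
    fun M x => twe_oio_mem_iff q a _ (fun i => (hGiff _).2 (hq i))
      (fun ℓ hℓ => hqall ℓ ((hGiff ℓ).1 hℓ)) a' haa' M x
  obtain ⟨-, h2, h3⟩ := twe_om_main hp𝒪 M₁ t htM htp htp1 S' hpS' hMS' θ ρbar hcompat hgood htN htS
    (hTWt htprime htN htS) a' ha'res _ (hiff M₁) _ (hiff (M₁ * t))
  exact ⟨h2, h3⟩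

/-- **(C5)**: the iterated E/Old isomorphism. -/
theorem twe_oio_oldIter : twe_sm_OldIter_stmt := twe_ois_of_one twe_oio_one

end Fermat.Agent.TW
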