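/-
ONE MACHINE / block [E] AUT: TRANSFER OF HECKE ACTIONS (helper3).  Namespace `Fermat.Agent.TW`,
prefix `twe_at_`.  Mathlib + `TW/Aut/Prim.lean`.

* `twe_at_Rel TX TY` : every noncommutative-polynomial relation `F(TX ℓ) = 0` on `X` holds for the
  `TY ℓ` on `Y`.  Stable under: jointly injective equivariant families out of `Y`
  (`twe_at_rel_of_injective_family`), equivariant surjections (`twe_at_rel_of_surjective`),
  extension of scalars `X → Z` with `K`-span `⊤` (`twe_at_rel_of_span`), composition.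
* `twe_at_stepA` : if `Rel TX TY` then `F(TX)` kills `prim X` ⟹ `F(TY)` kills `prim Y`.
* `twe_at_ker` : if moreover a ring `R` generated by `τR ℓ` acts on `Y₀ ⊆ X` (full in `prim X` up
  to `𝒪`-torsion), then `F(τR) = 0` in `R` ⟹ `F(TY)` kills `prim Y`;
* `twe_at_act`  : the action `R →ₐ[𝒪] End_𝒪 (prim Y)`, `τR ℓ ↦ TY ℓ`;
* `twe_at_hom`  : the ring homomorphism `R →ₐ[𝒪] S`, `τR ℓ ↦ τS ℓ`, for `S` acting faithfully on
  `Y₀' ⊆ prim Y`;
* `twe_at_prim_of_local` : a module over a local finite `𝒪`-algebra is primary.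
-/
import Mathlib
import Fermat.Agent.TW.Aut.Prim

set_option autoImplicit false
set_option linter.unusedSectionVars false
set_option linter.unusedVariables false
set_option linter.style.haveILetI false

noncomputable section

namespace Fermat.Agent.TW

open IsLocalRing

universe u v

section rel

variable {𝒪 : Type*} [CommRing 𝒪] {L : Type*}
  {X : Type*} [AddCommGroup X] [Module 𝒪 X] {Y : Type*} [AddCommGroup Y] [Module 𝒪 Y]
  {Z : Type*} [AddCommGroup Z] [Module 𝒪 Z]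

/-- every noncommutative-polynomial relation among the `TX ℓ` holds among the `TY ℓ`. -/
def twe_at_Rel (TX : L → Module.End 𝒪 X) (TY : L → Module.End 𝒪 Y) : Prop :=
  ∀ F : FreeAlgebra 𝒪 L, FreeAlgebra.lift 𝒪 TX F = 0 → FreeAlgebra.lift 𝒪 TY F = 0

theorem twe_at_rel_refl (TX : L → Module.End 𝒪 X) : twe_at_Rel TX TX := fun _ h => h

theorem twe_at_rel_trans {TX : L → Module.End 𝒪 X} {TY : L → Module.End 𝒪 Y}
    {TZ : L → Module.End 𝒪 Z} (h1 : twe_at_Rel TX TY) (h2 : twe_at_Rel TY TZ) : twe_at_Rel TX TZ :=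
  fun F hF => h2 F (h1 F hF)

/-- an equivariant map intertwines all polynomials in the operators. -/
theorem twe_at_lift_intertwine (Ψ : Y →ₗ[𝒪] Z) (TY : L → Module.End 𝒪 Y) (TZ : L → Module.End 𝒪 Z)
    (h : ∀ ℓ y, Ψ (TY ℓ y) = TZ ℓ (Ψ y)) (F : FreeAlgebra 𝒪 L) (y : Y) :
    Ψ (FreeAlgebra.lift 𝒪 TY F y) = FreeAlgebra.lift 𝒪 TZ F (Ψ y) := by
  induction F using FreeAlgebra.induction generalizing y with
  | grade0 r =>
    rw [AlgHom.commutes, AlgHom.commutes, Module.algebraMap_end_apply, Module.algebraMap_end_apply,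
      map_smul]
  | grade1 ℓ => rw [FreeAlgebra.lift_ι_apply, FreeAlgebra.lift_ι_apply, h]
  | mul a b ha hb =>
    rw [map_mul, map_mul, Module.End.mul_apply, Module.End.mul_apply, ha, hb]
  | add a b ha hb =>
    rw [map_add, map_add, LinearMap.add_apply, LinearMap.add_apply, map_add, ha, hb]

/-- relations pass to the source of a jointly injective family of equivariant maps. -/
theorem twe_at_rel_of_injective_family {I : Type*} {Zi : I → Type*} [∀ i, AddCommGroup (Zi i)]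
    [∀ i, Module 𝒪 (Zi i)] (TX : L → Module.End 𝒪 X) (TY : L → Module.End 𝒪 Y)
    (TZ : ∀ i, L → Module.End 𝒪 (Zi i)) (Ψ : ∀ i, Y →ₗ[𝒪] Zi i)
    (hinj : ∀ y, (∀ i, Ψ i y = 0) → y = 0)
    (h : ∀ i ℓ y, Ψ i (TY ℓ y) = TZ i ℓ (Ψ i y)) (hrel : ∀ i, twe_at_Rel TX (TZ i)) :
    twe_at_Rel TX TY := by
  intro F hF
  apply LinearMap.ext
  intro y
  rw [LinearMap.zero_apply]
  apply hinj
  intro i
  rw [twe_at_lift_intertwine (Ψ i) TY (TZ i) (h i), hrel i F hF, LinearMap.zero_apply]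

theorem twe_at_rel_of_injective (TX : L → Module.End 𝒪 X) (TY : L → Module.End 𝒪 Y)
    (TZ : L → Module.End 𝒪 Z) (Ψ : Y →ₗ[𝒪] Z) (hinj : Function.Injective Ψ)
    (h : ∀ ℓ y, Ψ (TY ℓ y) = TZ ℓ (Ψ y)) (hrel : twe_at_Rel TX TZ) : twe_at_Rel TX TY :=
  twe_at_rel_of_injective_family (I := Unit) (Zi := fun _ => Z) TX TY (fun _ => TZ) (fun _ => Ψ)
    (fun y hy => hinj (by rw [hy (), map_zero])) (fun _ => h) (fun _ => hrel)

/-- relations pass to equivariant quotients. -/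
theorem twe_at_rel_of_surjective (TX : L → Module.End 𝒪 X) (TY : L → Module.End 𝒪 Y)
    (Ψ : X →ₗ[𝒪] Y) (hsurj : Function.Surjective Ψ) (h : ∀ ℓ x, Ψ (TX ℓ x) = TY ℓ (Ψ x)) :
    twe_at_Rel TX TY := by
  intro F hF
  apply LinearMap.ext
  intro y
  obtain ⟨x, rfl⟩ := hsurj y
  rw [← twe_at_lift_intertwine Ψ TX TY h, hF, LinearMap.zero_apply, map_zero,
    LinearMap.zero_apply]

/-- relations pass to an extension of scalars: `j : X → Z` equivariant, `Z` a `K`-module spanned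
over `K` by `j X`, the `TZ ℓ` commuting with the `K`-scalars. -/
theorem twe_at_rel_of_span {K : Type*} [CommRing K] [Module K Z] [SMulCommClass K 𝒪 Z]
    (TX : L → Module.End 𝒪 X) (TZ : L → Module.End 𝒪 Z) (j : X →ₗ[𝒪] Z)
    (h : ∀ ℓ x, j (TX ℓ x) = TZ ℓ (j x)) (hK : ∀ ℓ (c : K) z, TZ ℓ (c • z) = c • TZ ℓ z)
    (hspan : Submodule.span K (Set.range j) = ⊤) : twe_at_Rel TX TZ := by
  intro F hF
  have hlin : ∀ (G : FreeAlgebra 𝒪 L) (c : K) (z : Z),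
      FreeAlgebra.lift 𝒪 TZ G (c • z) = c • FreeAlgebra.lift 𝒪 TZ G z := by
    intro G
    induction G using FreeAlgebra.induction with
    | grade0 r =>
      intro c z
      rw [AlgHom.commutes, Module.algebraMap_end_apply, Module.algebraMap_end_apply]
      exact (smul_comm c r z).symm
    | grade1 ℓ => intro c z; rw [FreeAlgebra.lift_ι_apply, hK]
    | mul a b ha hb => intro c z; rw [map_mul, Module.End.mul_apply, Module.End.mul_apply, hb, ha]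
    | add a b ha hb =>
      intro c z; rw [map_add, LinearMap.add_apply, LinearMap.add_apply, ha, hb, smul_add]
  apply LinearMap.ext
  intro z
  rw [LinearMap.zero_apply]
  have hz : z ∈ Submodule.span K (Set.range j) := by rw [hspan]; exact Submodule.mem_top
  induction hz using Submodule.span_induction with
  | mem w hw =>
    obtain ⟨x, rfl⟩ := hw
    rw [← twe_at_lift_intertwine j TX TZ h, hF, LinearMap.zero_apply, map_zero]
  | zero => rw [map_zero]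
  | add w w' _ _ hw hw' => rw [map_add, hw, hw', add_zero]
  | smul c w _ hw => rw [hlin, hw, smul_zero]

end rel

section stepA

variable {𝒪 : Type u} [CommRing 𝒪] [IsLocalRing 𝒪] [IsNoetherianRing 𝒪]
  [IsAdicComplete (maximalIdeal 𝒪) 𝒪]
  {X : Type u} [AddCommGroup X] [Module 𝒪 X] [Module.Finite 𝒪 X]
  {Y : Type v} [AddCommGroup Y] [Module 𝒪 Y] [Module.Finite 𝒪 Y] {L : Type*}

/-- **Step A**: if the relations of `X` hold on `Y`, then the relations of `prim X` hold on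
`prim Y`. -/
theorem twe_at_stepA (TX : L → Module.End 𝒪 X) (hcX : ∀ ℓ ℓ', Commute (TX ℓ) (TX ℓ'))
    (TY : L → Module.End 𝒪 Y) (a : L → 𝒪) (hrel : twe_at_Rel TX TY)
    (F : FreeAlgebra 𝒪 L) (hF : ∀ x ∈ twe_pr_prim TX a, FreeAlgebra.lift 𝒪 TX F x = 0) :
    ∀ y ∈ twe_pr_prim TY a, FreeAlgebra.lift 𝒪 TY F y = 0 := by
  have hc : ∀ a ∈ Set.range TX, ∀ b ∈ Set.range TX, a * b = b * a := by
    rintro _ ⟨ℓ, rfl⟩ _ ⟨ℓ', rfl⟩
    exact hcX ℓ ℓ'
  have hmc := Algebra.isMulCommutative_adjoin 𝒪 hc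
  letI : CommRing (Algebra.adjoin 𝒪 (Set.range TX)) := @IsMulCommutative.instCommRing _ _ hmc
  haveI : Module.Finite 𝒪 (Module.End 𝒪 X) := inferInstance
  haveI : IsNoetherian 𝒪 (Module.End 𝒪 X) := isNoetherian_of_isNoetherianRing_of_finite 𝒪 _
  haveI : Module.Finite 𝒪 (Algebra.adjoin 𝒪 (Set.range TX)) :=
    Module.Finite.of_injective (Algebra.adjoin 𝒪 (Set.range TX)).val.toLinearMap
      Subtype.val_injective
  let τ : L → Algebra.adjoin 𝒪 (Set.range TX) := fun ℓ => ⟨TX ℓ, Algebra.subset_adjoin ⟨ℓ, rfl⟩⟩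
  let pX : FreeAlgebra 𝒪 L →ₐ[𝒪] Algebra.adjoin 𝒪 (Set.range TX) := FreeAlgebra.lift 𝒪 τ
  have hpX : ∀ G, ((pX G : Algebra.adjoin 𝒪 (Set.range TX)) : Module.End 𝒪 X) =
      FreeAlgebra.lift 𝒪 TX G := by
    intro G
    have h0 : ((Algebra.adjoin 𝒪 (Set.range TX)).val.comp pX) = FreeAlgebra.lift 𝒪 TX := by
      apply FreeAlgebra.hom_ext
      funext ℓ
      simp [pX, τ]
    exact DFunLike.congr_fun h0 G
  have hsurj : Function.Surjective pX := by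
    intro b
    have hb : (b : Module.End 𝒪 X) ∈ (FreeAlgebra.lift 𝒪 TX).range := by
      rw [← Algebra.adjoin_range_eq_range_freeAlgebra_lift]
      exact b.2
    obtain ⟨G, hG⟩ := hb
    exact ⟨G, Subtype.ext ((hpX G).trans hG)⟩
  let q : FreeAlgebra 𝒪 L →ₐ[𝒪] Module.End 𝒪 Y := FreeAlgebra.lift 𝒪 TY
  have hker : RingHom.ker (pX : FreeAlgebra 𝒪 L →+* Algebra.adjoin 𝒪 (Set.range TX)) ≤
      RingHom.ker (q : FreeAlgebra 𝒪 L →+* Module.End 𝒪 Y) := by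
    intro G hG
    rw [RingHom.mem_ker] at hG ⊢
    apply hrel
    have h0 : pX G = 0 := hG
    rw [← hpX, h0]
    rfl
  let φ : Algebra.adjoin 𝒪 (Set.range TX) →+* Module.End 𝒪 Y :=
    (pX : FreeAlgebra 𝒪 L →+* Algebra.adjoin 𝒪 (Set.range TX)).liftOfSurjective hsurj
      ⟨(q : FreeAlgebra 𝒪 L →+* Module.End 𝒪 Y), hker⟩
  have hφ : ∀ G, φ (pX G) = FreeAlgebra.lift 𝒪 TY G := fun G =>
    RingHom.liftOfRightInverse_comp_apply _ _ _ ⟨(q : FreeAlgebra 𝒪 L →+* Module.End 𝒪 Y), hker⟩ G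
  letI : Module (Algebra.adjoin 𝒪 (Set.range TX)) Y := Module.compHom Y φ
  have hsmul : ∀ (b : Algebra.adjoin 𝒪 (Set.range TX)) (y : Y), b • y = φ b y := fun _ _ => rfl
  haveI : IsScalarTower 𝒪 (Algebra.adjoin 𝒪 (Set.range TX)) Y := ⟨fun c b y => by
    rw [hsmul, hsmul]
    obtain ⟨G, rfl⟩ := hsurj b
    rw [← map_smul pX, hφ, hφ, map_smul]
    rfl⟩
  obtain ⟨e, he, h2, h1⟩ := twe_lam_exists_idem (twe_lam_n τ a) (twe_lam_J_le_n τ a)
  have hopX : twe_pr_op 𝒪 X τ = TX := funext fun ℓ => LinearMap.ext fun x => rfl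
  have hopY : twe_pr_op 𝒪 Y τ = TY := by
    funext ℓ
    apply LinearMap.ext
    intro y
    change φ (τ ℓ) y = TY ℓ y
    have h0 : τ ℓ = pX (FreeAlgebra.ι 𝒪 ℓ) := by simp [pX]
    rw [h0, hφ, FreeAlgebra.lift_ι_apply]
  have hX := fun x => twe_pr_iff (𝒪 := 𝒪) (X := X) τ a he h1 h2 x
  have hY := fun y => twe_pr_iff (𝒪 := 𝒪) (X := Y) τ a he h1 h2 y
  rw [hopX] at hX
  rw [hopY] at hY
  intro y hy
  have hbe : pX F * e = 0 := by
    apply Subtype.ext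
    apply LinearMap.ext
    intro x
    change ((pX F : Algebra.adjoin 𝒪 (Set.range TX)) : Module.End 𝒪 X) (e • x) = 0
    rw [hpX]
    apply hF
    apply (hX _).mp
    rw [smul_smul, he.eq]
  have hy' : e • y = y := (hY y).mpr hy
  rw [← hφ, ← hy', hsmul, ← Module.End.mul_apply, ← map_mul, hbe, map_zero, LinearMap.zero_apply]

end stepA

section main

variable {𝒪 : Type u} [CommRing 𝒪] [IsLocalRing 𝒪] [IsNoetherianRing 𝒪]
  [IsAdicComplete (maximalIdeal 𝒪) 𝒪]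
  {X : Type u} [AddCommGroup X] [Module 𝒪 X] [Module.Finite 𝒪 X]
  {Y : Type v} [AddCommGroup Y] [Module 𝒪 Y] [Module.Finite 𝒪 Y] {L : Type*}
  {R : Type*} [CommRing R] [Algebra 𝒪 R]
  {Y₀ : Type*} [AddCommGroup Y₀] [Module 𝒪 Y₀]

/-- the action of a polynomial in the generators is the polynomial in the actions. -/
theorem twe_at_lift_act (actR : R →ₐ[𝒪] Module.End 𝒪 Y₀) (τR : L → R) (G : FreeAlgebra 𝒪 L) :
    FreeAlgebra.lift 𝒪 (fun ℓ => actR (τR ℓ)) G = actR (FreeAlgebra.lift 𝒪 τR G) := by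
  have h0 : FreeAlgebra.lift 𝒪 (fun ℓ => actR (τR ℓ)) = actR.comp (FreeAlgebra.lift 𝒪 τR) := by
    apply FreeAlgebra.hom_ext
    funext ℓ
    simp
  rw [h0]
  rfl

/-- every element of a ring generated by the `τR ℓ` is a polynomial in them. -/
theorem twe_at_exists_lift {𝒪 : Type*} [CommRing 𝒪] {L : Type*} {R : Type*} [CommRing R]
    [Algebra 𝒪 R] (τR : L → R) (hgen : Algebra.adjoin 𝒪 (Set.range τR) = ⊤) (t : R) :
    ∃ G : FreeAlgebra 𝒪 L, FreeAlgebra.lift 𝒪 τR G = t := by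
  have h : t ∈ (FreeAlgebra.lift 𝒪 τR).range := by
    rw [← Algebra.adjoin_range_eq_range_freeAlgebra_lift, hgen]
    exact Algebra.mem_top
  exact h

/-- **(KER)**: a relation in the source ring `R` (acting on `Y₀ ⊆ X`, full in `prim X` up to
torsion) holds on `prim Y`. -/
theorem twe_at_ker (TX : L → Module.End 𝒪 X) (hcX : ∀ ℓ ℓ', Commute (TX ℓ) (TX ℓ'))
    (TY : L → Module.End 𝒪 Y) (a : L → 𝒪) (hrel : twe_at_Rel TX TY)
    (actR : R →ₐ[𝒪] Module.End 𝒪 Y₀) (τR : L → R) (ι : Y₀ →ₗ[𝒪] X)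
    (hι : ∀ ℓ y, ι (actR (τR ℓ) y) = TX ℓ (ι y))
    (hfull : ∀ x ∈ twe_pr_prim TX a, ∃ c : 𝒪, c ≠ 0 ∧ c • x ∈ LinearMap.range ι)
    (htf : ∀ (c : 𝒪) (x : X), c ≠ 0 → c • x = 0 → x = 0)
    (G : FreeAlgebra 𝒪 L) (hG : FreeAlgebra.lift 𝒪 τR G = 0) :
    ∀ y ∈ twe_pr_prim TY a, FreeAlgebra.lift 𝒪 TY G y = 0 := by
  apply twe_at_stepA TX hcX TY a hrel G
  intro x hx
  obtain ⟨c, hc, y₀, hy₀⟩ := hfull x hx
  apply htf c _ hc
  rw [← map_smul, ← hy₀, ← twe_at_lift_intertwine ι (fun ℓ => actR (τR ℓ)) TX hι,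
    twe_at_lift_act, hG, map_zero, LinearMap.zero_apply, map_zero]

/-- the restriction of the operators to the primary part. -/
def twe_at_TYprim (TY : L → Module.End 𝒪 Y) (hcY : ∀ ℓ ℓ', Commute (TY ℓ) (TY ℓ')) (a : L → 𝒪) :
    L → Module.End 𝒪 (twe_pr_prim TY a) :=
  fun ℓ => (TY ℓ).restrict (fun y hy => twe_pr_prim_stable TY a (TY ℓ) (fun ℓ' => hcY ℓ ℓ') hy)

theorem twe_at_TYprim_coe (TY : L → Module.End 𝒪 Y) (hcY : ∀ ℓ ℓ', Commute (TY ℓ) (TY ℓ'))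
    (a : L → 𝒪) (G : FreeAlgebra 𝒪 L) (y : twe_pr_prim TY a) :
    ((FreeAlgebra.lift 𝒪 (twe_at_TYprim TY hcY a) G y : twe_pr_prim TY a) : Y) =
      FreeAlgebra.lift 𝒪 TY G (y : Y) :=
  twe_at_lift_intertwine (twe_pr_prim TY a).subtype (twe_at_TYprim TY hcY a) TY
    (fun ℓ y => rfl) G y

/-- **(ACT)**: the action of `R` on `prim Y`, `τR ℓ ↦ TY ℓ`. -/
theorem twe_at_act (TX : L → Module.End 𝒪 X) (hcX : ∀ ℓ ℓ', Commute (TX ℓ) (TX ℓ'))
    (TY : L → Module.End 𝒪 Y) (hcY : ∀ ℓ ℓ', Commute (TY ℓ) (TY ℓ')) (a : L → 𝒪)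
    (hrel : twe_at_Rel TX TY)
    (actR : R →ₐ[𝒪] Module.End 𝒪 Y₀) (τR : L → R)
    (hgen : Algebra.adjoin 𝒪 (Set.range τR) = ⊤) (ι : Y₀ →ₗ[𝒪] X)
    (hι : ∀ ℓ y, ι (actR (τR ℓ) y) = TX ℓ (ι y))
    (hfull : ∀ x ∈ twe_pr_prim TX a, ∃ c : 𝒪, c ≠ 0 ∧ c • x ∈ LinearMap.range ι)
    (htf : ∀ (c : 𝒪) (x : X), c ≠ 0 → c • x = 0 → x = 0) :
    ∃ ψ : R →ₐ[𝒪] Module.End 𝒪 (twe_pr_prim TY a),
      ∀ (G : FreeAlgebra 𝒪 L) (y : twe_pr_prim TY a),
        ((ψ (FreeAlgebra.lift 𝒪 τR G) y : twe_pr_prim TY a) : Y) =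
          FreeAlgebra.lift 𝒪 TY G (y : Y) := by
  let pR : FreeAlgebra 𝒪 L →ₐ[𝒪] R := FreeAlgebra.lift 𝒪 τR
  have hsurj : Function.Surjective pR := by
    rw [← AlgHom.range_eq_top, ← Algebra.adjoin_range_eq_range_freeAlgebra_lift, hgen]
  let q : FreeAlgebra 𝒪 L →ₐ[𝒪] Module.End 𝒪 (twe_pr_prim TY a) :=
    FreeAlgebra.lift 𝒪 (twe_at_TYprim TY hcY a)
  have hker : RingHom.ker (pR : FreeAlgebra 𝒪 L →+* R) ≤
      RingHom.ker (q : FreeAlgebra 𝒪 L →+* Module.End 𝒪 (twe_pr_prim TY a)) := by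
    intro G hG
    rw [RingHom.mem_ker] at hG ⊢
    apply LinearMap.ext
    intro y
    apply Subtype.ext
    have h0 := twe_at_ker TX hcX TY a hrel actR τR ι hι hfull htf G hG y y.2
    rw [LinearMap.zero_apply, Submodule.coe_zero, ← h0]
    exact twe_at_TYprim_coe TY hcY a G y
  let ψ0 : R →+* Module.End 𝒪 (twe_pr_prim TY a) :=
    (pR : FreeAlgebra 𝒪 L →+* R).liftOfSurjective hsurj
      ⟨(q : FreeAlgebra 𝒪 L →+* Module.End 𝒪 (twe_pr_prim TY a)), hker⟩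
  have hψ0 : ∀ G, ψ0 (pR G) = q G := fun G =>
    RingHom.liftOfRightInverse_comp_apply _ _ _
      ⟨(q : FreeAlgebra 𝒪 L →+* Module.End 𝒪 (twe_pr_prim TY a)), hker⟩ G
  let ψ : R →ₐ[𝒪] Module.End 𝒪 (twe_pr_prim TY a) :=
    { ψ0 with
      commutes' := fun c => by
        change ψ0 (algebraMap 𝒪 R c) = algebraMap 𝒪 _ c
        rw [← AlgHom.commutes pR c, hψ0, AlgHom.commutes] }
  refine ⟨ψ, fun G y => ?_⟩
  change ((ψ0 (pR G) y : twe_pr_prim TY a) : Y) = _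
  rw [hψ0]
  exact twe_at_TYprim_coe TY hcY a G y

/-- **(HOM)**: the ring homomorphism `R → S`, `τR ℓ ↦ τS ℓ`, when `S` acts faithfully on a
submodule `Y₀' ⊆ prim Y`. -/
theorem twe_at_hom {S : Type*} [CommRing S] [Algebra 𝒪 S]
    {Y₁ : Type*} [AddCommGroup Y₁] [Module 𝒪 Y₁]
    (TX : L → Module.End 𝒪 X) (hcX : ∀ ℓ ℓ', Commute (TX ℓ) (TX ℓ'))
    (TY : L → Module.End 𝒪 Y) (a : L → 𝒪) (hrel : twe_at_Rel TX TY)
    (actR : R →ₐ[𝒪] Module.End 𝒪 Y₀) (τR : L → R)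
    (hgen : Algebra.adjoin 𝒪 (Set.range τR) = ⊤) (ι : Y₀ →ₗ[𝒪] X)
    (hι : ∀ ℓ y, ι (actR (τR ℓ) y) = TX ℓ (ι y))
    (hfull : ∀ x ∈ twe_pr_prim TX a, ∃ c : 𝒪, c ≠ 0 ∧ c • x ∈ LinearMap.range ι)
    (htf : ∀ (c : 𝒪) (x : X), c ≠ 0 → c • x = 0 → x = 0)
    (actS : S →ₐ[𝒪] Module.End 𝒪 Y₁) (hactS : Function.Injective actS) (τS : L → S)
    (ι₁ : Y₁ →ₗ[𝒪] Y) (hι₁inj : Function.Injective ι₁)
    (hι₁ : ∀ ℓ y, ι₁ (actS (τS ℓ) y) = TY ℓ (ι₁ y))
    (hprim : ∀ y, ι₁ y ∈ twe_pr_prim TY a) :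
    ∃ π : R →ₐ[𝒪] S, ∀ G : FreeAlgebra 𝒪 L,
      π (FreeAlgebra.lift 𝒪 τR G) = FreeAlgebra.lift 𝒪 τS G := by
  let pR : FreeAlgebra 𝒪 L →ₐ[𝒪] R := FreeAlgebra.lift 𝒪 τR
  have hsurj : Function.Surjective pR := by
    rw [← AlgHom.range_eq_top, ← Algebra.adjoin_range_eq_range_freeAlgebra_lift, hgen]
  let q : FreeAlgebra 𝒪 L →ₐ[𝒪] S := FreeAlgebra.lift 𝒪 τS
  have hker : RingHom.ker (pR : FreeAlgebra 𝒪 L →+* R) ≤
      RingHom.ker (q : FreeAlgebra 𝒪 L →+* S) := by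
    intro G hG
    rw [RingHom.mem_ker] at hG ⊢
    apply hactS
    rw [map_zero]
    apply LinearMap.ext
    intro y
    apply hι₁inj
    have h0 := twe_at_ker TX hcX TY a hrel actR τR ι hι hfull htf G hG (ι₁ y) (hprim y)
    rw [LinearMap.zero_apply, map_zero, ← h0,
      ← twe_at_lift_intertwine ι₁ (fun ℓ => actS (τS ℓ)) TY hι₁, twe_at_lift_act]
    rfl
  let π0 : R →+* S :=
    (pR : FreeAlgebra 𝒪 L →+* R).liftOfSurjective hsurj ⟨(q : FreeAlgebra 𝒪 L →+* S), hker⟩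
  have hπ0 : ∀ G, π0 (pR G) = q G := fun G =>
    RingHom.liftOfRightInverse_comp_apply _ _ _ ⟨(q : FreeAlgebra 𝒪 L →+* S), hker⟩ G
  let π : R →ₐ[𝒪] S :=
    { π0 with
      commutes' := fun c => by
        change π0 (algebraMap 𝒪 R c) = algebraMap 𝒪 _ c
        rw [← AlgHom.commutes pR c, hπ0, AlgHom.commutes] }
  exact ⟨π, fun G => hπ0 G⟩

end main

section local_prim

variable {𝒪 : Type*} [CommRing 𝒪] [IsLocalRing 𝒪] [IsNoetherianRing 𝒪] {L : Type*}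
  {S : Type*} [CommRing S] [IsLocalRing S] [Algebra 𝒪 S] [IsLocalHom (algebraMap 𝒪 S)]
  [Module.Finite 𝒪 S] {Y₁ : Type*} [AddCommGroup Y₁] [Module 𝒪 Y₁]

/-- in a local finite `𝒪`-algebra, a power of the maximal ideal lies in `𝔪_𝒪 S`. -/
theorem twe_at_pow_mem_map {b : S} (hb : b ∈ maximalIdeal S) :
    ∃ n : ℕ, b ^ n ∈ (maximalIdeal 𝒪).map (algebraMap 𝒪 S) := by
  haveI : IsArtinianRing (S ⧸ (maximalIdeal 𝒪).map (algebraMap 𝒪 S)) := by
    letI := Ideal.Quotient.field (maximalIdeal 𝒪)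
    exact IsArtinianRing.of_finite (𝒪 ⧸ maximalIdeal 𝒪) (S ⧸ (maximalIdeal 𝒪).map (algebraMap 𝒪 S))
  set J : Ideal S := (maximalIdeal 𝒪).map (algebraMap 𝒪 S) with hJ
  have hJle : J ≤ maximalIdeal S := by
    rw [hJ, Ideal.map_le_iff_le_comap]
    intro c hc
    rw [Ideal.mem_comap, mem_maximalIdeal, mem_nonunits_iff]
    intro hu
    exact hc (isUnit_of_map_unit (algebraMap 𝒪 S) c hu)
  have hJtop : J ≠ ⊤ := fun h => (Ideal.IsMaximal.ne_top (inferInstance : (maximalIdeal S).IsMaximal))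
    (top_le_iff.mp (h ▸ hJle))
  haveI : Nontrivial (S ⧸ J) := Ideal.Quotient.nontrivial_iff.mpr hJtop
  haveI : IsLocalRing (S ⧸ J) :=
    IsLocalRing.of_surjective' (Ideal.Quotient.mk J) Ideal.Quotient.mk_surjective
  have hnil : IsNilpotent (Ideal.Quotient.mk J b) := by
    have h1 : Ideal.Quotient.mk J b ∈ maximalIdeal (S ⧸ J) := by
      rw [mem_maximalIdeal, mem_nonunits_iff]
      intro hu
      have : IsUnit b := by
        haveI : IsLocalHom (Ideal.Quotient.mk J) :=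
          IsLocalHom.of_surjective _ Ideal.Quotient.mk_surjective
        exact isUnit_of_map_unit (Ideal.Quotient.mk J) b hu
      exact hb this
    have h2 : maximalIdeal (S ⧸ J) = Ideal.jacobson ⊥ := (jacobson_eq_maximalIdeal ⊥ bot_ne_top).symm
    rw [h2] at h1
    obtain ⟨n, hn⟩ := IsArtinianRing.isNilpotent_jacobson_bot (R := S ⧸ J)
    refine ⟨n, ?_⟩
    have h3 : (Ideal.Quotient.mk J b) ^ n ∈ (Ideal.jacobson (⊥ : Ideal (S ⧸ J))) ^ n :=
      Ideal.pow_mem_pow h1 n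
    rw [hn] at h3
    exact h3
  obtain ⟨n, hn⟩ := hnil
  exact ⟨n, by rw [← Ideal.Quotient.eq_zero_iff_mem, map_pow]; exact hn⟩

/-- elements of `(𝔪^k) S` act into `𝔪^k Y₁`. -/
theorem twe_at_act_mem (actS : S →ₐ[𝒪] Module.End 𝒪 Y₁) (k : ℕ) (j : S)
    (hj : j ∈ ((maximalIdeal 𝒪) ^ k).map (algebraMap 𝒪 S)) (y : Y₁) :
    actS j y ∈ (maximalIdeal 𝒪) ^ k • (⊤ : Submodule 𝒪 Y₁) := by
  rw [Ideal.map] at hj
  induction hj using Submodule.span_induction generalizing y with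
  | mem z hz =>
    obtain ⟨c, hc, rfl⟩ := hz
    rw [AlgHom.commutes, Module.algebraMap_end_apply]
    exact Submodule.smul_mem_smul hc Submodule.mem_top
  | zero => rw [map_zero, LinearMap.zero_apply]; exact Submodule.zero_mem _
  | add z w _ _ hz hw => rw [map_add, LinearMap.add_apply]; exact Submodule.add_mem _ (hz y) (hw y)
  | smul c z _ hz =>
    rw [smul_eq_mul, mul_comm, map_mul, Module.End.mul_apply]
    exact hz _

/-- **a module over a local finite `𝒪`-algebra whose generators reduce to `a` is primary**. -/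
theorem twe_at_prim_of_local (actS : S →ₐ[𝒪] Module.End 𝒪 Y₁) (τS : L → S) (a : L → 𝒪)
    (hres : ∀ ℓ, τS ℓ - algebraMap 𝒪 S (a ℓ) ∈ maximalIdeal S) (y : Y₁) :
    y ∈ twe_pr_prim (fun ℓ => actS (τS ℓ)) a := by
  intro ℓ k
  obtain ⟨n, hn⟩ := twe_at_pow_mem_map (𝒪 := 𝒪) (hres ℓ)
  refine ⟨n * k, ?_⟩
  have h1 : actS (τS ℓ) - a ℓ • (1 : Module.End 𝒪 Y₁) = actS (τS ℓ - algebraMap 𝒪 S (a ℓ)) := by
    rw [map_sub, AlgHom.commutes, Algebra.algebraMap_eq_smul_one]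
  rw [h1, ← map_pow]
  apply twe_at_act_mem
  rw [Ideal.map_pow, pow_mul]
  exact Ideal.pow_mem_pow hn k

end local_prim

end Fermat.Agent.TW
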