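/-
Project ONE MACHINE (S43), block [E] AUT, cell E/CarLocal (helper6).

**Carayol's lemma over a LOCAL ring, in module form — no completeness, no nilpotency.**

`T` a local Noetherian ring, `X` a faithful finite `T`-module with a `T`-linear action `α` of a group
`G` whose elements satisfy quadratic equations `X² - t(g) X + d(g)` over `T` (`d` a character)
reducing to the characteristic polynomials of a representation `ρbar : G → GL₂(k)` spanning `M₂(k)`;
moreover ONE element `g₀` whose quadratic equation splits over `T` with roots differing by a unit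
(in the applications: a complex conjugation, roots `1, -1`, `2 ∈ Tˣ`).  Then there is
`ρ : G → GL₂(T)` with `tr ρ = t`, `det ρ = d`, `ρ mod 𝔪 ≅ ρbar`, and an equivariant embedding
`T² ↪ X^s` (`twe_cl_main`); adic continuity passes from `α` to `ρ` (`twe_cl_cont`).

The proof is helper21's `ffc_lift_alg` (FF/Car/Lift.lean) with "nilpotent" replaced by "Jacobson
radical": `C := T[α(G)] ⊆ End_T(X)` is a finite `T`-module, so `1 + 𝔪C ⊆ Cˣ`
(`twe_cl_isUnit_one_add`), an idempotent in `𝔪C` vanishes (`twe_cl_idem_zero`) and Nakayama holds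
(`twe_cl_nak`); the only idempotent which has to be lifted is given EXACTLY by
`e = (α(g₀) - a₂)/(a₁ - a₂)`.

Mathlib + FF/Car/{BLR,Rigid,Lift}; namespace `Fermat.Agent.TW`, prefix `twe_cl_`.
-/
import Mathlib
import Fermat.Agent.FF.Car.Lift

set_option autoImplicit false
set_option linter.unusedSimpArgs false
set_option linter.unusedSectionVars false

namespace Fermat.Agent.TW

open Matrix Fermat.Agent.FF
open scoped TensorProduct

/-! ### Jacobson-radical facts for a finite algebra over a local ring -/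

section Jac

variable {B : Type*} [CommRing B] [IsLocalRing B] {C : Type*} [Ring C] [Algebra B C]
  [Module.Finite B C]

/-- Nakayama for the finite module `C` over the local ring `B`. -/
theorem twe_cl_nak (N : Submodule B C)
    (h : N ⊔ (IsLocalRing.maximalIdeal B) • (⊤ : Submodule B C) = ⊤) : N = ⊤ := by
  rw [eq_top_iff]
  refine Submodule.le_of_le_smul_of_le_jacobson_bot (I := IsLocalRing.maximalIdeal B)
    Module.Finite.fg_top ?_ ?_
  · exact (IsLocalRing.jacobson_eq_maximalIdeal ⊥ bot_ne_top).ge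
  · rw [h]

/-- `𝔪 C` is a right ideal. -/
theorem twe_cl_mul_mem {x : C} (hx : x ∈ (IsLocalRing.maximalIdeal B) • (⊤ : Submodule B C))
    (c : C) : x * c ∈ (IsLocalRing.maximalIdeal B) • (⊤ : Submodule B C) := by
  have h := ffc_mul_mem_smul_top (IsLocalRing.maximalIdeal B) (⊤ : Ideal B) hx
    (y := c) (by rw [Submodule.top_smul]; exact Submodule.mem_top)
  rwa [Ideal.mul_top] at h

/-- `1 + 𝔪 C ⊆ Cˣ`. -/
theorem twe_cl_isUnit_one_add {x : C}
    (hx : x ∈ (IsLocalRing.maximalIdeal B) • (⊤ : Submodule B C)) : IsUnit (1 + x) := by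
  have hsurj : Function.Surjective (LinearMap.mulLeft B (1 + x)) := by
    rw [← LinearMap.range_eq_top]
    apply twe_cl_nak
    rw [eq_top_iff]
    intro c _
    have h1 : c = (LinearMap.mulLeft B (1 + x)) c + (-(x * c)) := by
      rw [LinearMap.mulLeft_apply, add_mul, one_mul]
      abel
    rw [h1]
    exact Submodule.add_mem_sup ⟨c, rfl⟩ (Submodule.neg_mem _ (twe_cl_mul_mem hx c))
  have hinj : Function.Injective (LinearMap.mulLeft B (1 + x)) :=
    OrzechProperty.injective_of_surjective_endomorphism _ hsurj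
  obtain ⟨y, hy⟩ := hsurj 1
  rw [LinearMap.mulLeft_apply] at hy
  have hy' : y * (1 + x) = 1 := by
    apply hinj
    rw [LinearMap.mulLeft_apply, LinearMap.mulLeft_apply, ← mul_assoc, hy, one_mul, mul_one]
  exact ⟨⟨1 + x, y, hy, hy'⟩, rfl⟩

/-- an idempotent in `𝔪 C` vanishes. -/
theorem twe_cl_idem_zero {z : C} (hzz : z * z = z)
    (hz : z ∈ (IsLocalRing.maximalIdeal B) • (⊤ : Submodule B C)) : z = 0 := by
  obtain ⟨w, hw⟩ := twe_cl_isUnit_one_add (Submodule.neg_mem _ hz)
  have h1 : z * (w : C) = 0 := by rw [hw, mul_add, mul_one, mul_neg, hzz, add_neg_cancel]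
  calc z = z * (w : C) * ((w⁻¹ : Cˣ) : C) := by rw [mul_assoc, Units.mul_inv, mul_one]
    _ = 0 := by rw [h1, zero_mul]

end Jac

/-! ### Diagonalising a `2 × 2` matrix with two distinct eigenvalues -/

section Diag

variable {k : Type*} [Field k]

theorem twe_cl_diag (M : Matrix (Fin 2) (Fin 2) k) (b₁ b₂ : k) (hb : b₁ ≠ b₂)
    (htr : M.trace = b₁ + b₂) (hdet : M.det = b₁ * b₂) :
    ∃ Q : Matrix (Fin 2) (Fin 2) k, IsUnit Q.det ∧ M * Q = Q * !![b₁, 0; 0, b₂] := by
  rw [Matrix.trace_fin_two] at htr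
  rw [Matrix.det_fin_two] at hdet
  by_cases h : M 0 0 = b₂
  · refine ⟨!![M 0 1, M 0 0 - b₁; M 1 1 - b₂, M 1 0], ?_, ?_⟩
    · rw [Matrix.det_fin_two_of, isUnit_iff_ne_zero]
      have h1 : M 0 1 * M 1 0 - (M 0 0 - b₁) * (M 1 1 - b₂) = (b₁ - b₂) * (b₁ - M 0 0) := by
        linear_combination (-1 : k) * hdet + b₁ * htr
      rw [h1]
      refine mul_ne_zero (sub_ne_zero.mpr hb) (sub_ne_zero.mpr ?_)
      rw [h]
      exact hb
    · ext i j
      fin_cases i <;> fin_cases j <;>
        simp only [Matrix.mul_apply, Fin.sum_univ_two, Matrix.of_apply, Matrix.cons_val',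
          Matrix.cons_val_zero, Matrix.cons_val_one, Matrix.cons_val_fin_one, Fin.zero_eta,
          Fin.mk_one, Fin.isValue]
      · linear_combination (M 0 1) * htr
      · linear_combination (-1 : k) * hdet + (M 0 0) * htr
      · linear_combination (-1 : k) * hdet + (M 1 1 ) * htr
      · linear_combination (M 1 0) * htr
  · refine ⟨!![M 0 0 - b₂, M 0 1; M 1 0, M 1 1 - b₁], ?_, ?_⟩
    · rw [Matrix.det_fin_two_of, isUnit_iff_ne_zero]
      have h1 : (M 0 0 - b₂) * (M 1 1 - b₁) - M 0 1 * M 1 0 = (b₁ - b₂) * (b₂ - M 0 0) := by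
        linear_combination (1 : k) * hdet - b₂ * htr
      rw [h1]
      exact mul_ne_zero (sub_ne_zero.mpr hb) (sub_ne_zero.mpr (Ne.symm h))
    · ext i j
      fin_cases i <;> fin_cases j <;>
        simp only [Matrix.mul_apply, Fin.sum_univ_two, Matrix.of_apply, Matrix.cons_val',
          Matrix.cons_val_zero, Matrix.cons_val_one, Matrix.cons_val_fin_one, Fin.zero_eta,
          Fin.mk_one, Fin.isValue]
      · linear_combination (-1 : k) * hdet + (M 0 0) * htr
      · linear_combination (M 0 1) * htr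
      · linear_combination (M 1 0) * htr
      · linear_combination (-1 : k) * hdet + (M 1 1) * htr
end Diag

/-! ### The algebra form -/

section Alg

variable {B : Type*} [CommRing B] [IsLocalRing B] {C : Type*} [Ring C] [Algebra B C]
  [Module.Finite B C] {G : Type*} [Group G]

/-- **Carayol's lemma over a local ring, algebra form.**  `C` a faithful `B`-algebra, finite as a
`B`-module, spanned by the image of a group `G` whose elements satisfy quadratic equations over `B`
reducing to the characteristic polynomials of `ρbar : G → GL₂(k)`, which spans `M₂(k)`; one element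
`g₀` whose equation splits with roots `a₁, a₂`, `a₁ - a₂` a unit, and `ρbar g₀ = diag(a₁, a₂)`.
Then `C ≅ M₂(B)`, and the resulting `G → M₂(B)` reduces to `ρbar` exactly. -/
theorem twe_cl_alg (hfaith : Function.Injective (algebraMap B C))
    (α : G →* C) (hspanC : Submodule.span B (Set.range α) = ⊤)
    (t d : G → B) (hCH : ∀ g, α g * α g - t g • α g + d g • 1 = 0)
    (ρbar : G →* Matrix (Fin 2) (Fin 2) (IsLocalRing.ResidueField B))
    (hspan : Submodule.span (IsLocalRing.ResidueField B) (Set.range ρbar) = ⊤)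
    (htr : ∀ g, IsLocalRing.residue B (t g) = (ρbar g).trace)
    (hdet : ∀ g, IsLocalRing.residue B (d g) = (ρbar g).det)
    (g₀ : G) (a₁ a₂ : B) (ha : IsUnit (a₁ - a₂)) (ht₀ : t g₀ = a₁ + a₂) (hd₀ : d g₀ = a₁ * a₂)
    (hdiag : ρbar g₀ = !![IsLocalRing.residue B a₁, 0; 0, IsLocalRing.residue B a₂]) :
    ∃ Ψ : Matrix (Fin 2) (Fin 2) B ≃ₐ[B] C,
      ∀ g, (Ψ.symm (α g)).map (IsLocalRing.residue B) = ρbar g := by
  classical
  have hπ : Function.Surjective (algebraMap B (IsLocalRing.ResidueField B)) :=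
    IsLocalRing.residue_surjective
  have hkerπ : RingHom.ker (algebraMap B (IsLocalRing.ResidueField B)) =
      IsLocalRing.maximalIdeal B := IsLocalRing.ker_residue
  have hres : ∀ b : B, algebraMap B (IsLocalRing.ResidueField B) b = IsLocalRing.residue B b :=
    fun _ => rfl
  -- the reduction map
  obtain ⟨f, hf_apply⟩ : ∃ f : C →ₐ[B] (IsLocalRing.ResidueField B) ⊗[B] C,
      ∀ c, f c = (1 : IsLocalRing.ResidueField B) ⊗ₜ[B] c :=
    ⟨Algebra.TensorProduct.includeRight, fun c => rfl⟩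
  have hker : ∀ c, f c = 0 → c ∈ (IsLocalRing.maximalIdeal B) • (⊤ : Submodule B C) := by
    intro c hc
    rw [← hkerπ]
    exact ffc_ker_one_tmul hπ (by rw [← hf_apply]; exact hc)
  have hf_smul : ∀ (b : B) (c : C), f (b • c) = (IsLocalRing.residue B b) • f c := by
    intro b c
    rw [map_smul, ← hres, algebraMap_smul]
  -- Boston–Lenstra–Ribet over the residue field
  obtain ⟨α', hα'⟩ : ∃ α' : G →* (IsLocalRing.ResidueField B) ⊗[B] C, ∀ g, α' g = f (α g) :=
    ⟨(f : C →* (IsLocalRing.ResidueField B) ⊗[B] C).comp α, fun g => rfl⟩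
  have hCH' : ∀ g, α' g * α' g - (ρbar g).trace • α' g + (ρbar g).det • 1 = 0 := by
    intro g
    have h1 := congrArg f (hCH g)
    rw [map_zero, map_add, map_sub, map_mul, hf_smul, hf_smul, map_one, htr, hdet] at h1
    rw [hα']
    exact h1
  obtain ⟨Φ, hΦ⟩ := ffc_blr ρbar α' hspan hCH'
  have hfsurj : Function.Surjective f := by
    intro z
    induction z using TensorProduct.induction_on with
    | zero => exact ⟨0, map_zero f⟩
    | tmul b c =>
      obtain ⟨b', rfl⟩ := hπ b
      refine ⟨b' • c, ?_⟩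
      rw [hf_smul, hf_apply, TensorProduct.smul_tmul', smul_eq_mul, mul_one]
      rfl
    | add z w hz hw =>
      obtain ⟨a, rfl⟩ := hz
      obtain ⟨b, rfl⟩ := hw
      exact ⟨a + b, map_add f a b⟩
  have hΦrange : ∀ c : C, ∃ X : Matrix (Fin 2) (Fin 2) (IsLocalRing.ResidueField B),
      Φ X = f c := by
    intro c
    have hc : c ∈ Submodule.span B (Set.range α) := hspanC ▸ Submodule.mem_top
    induction hc using Submodule.span_induction with
    | mem c hc =>
      obtain ⟨g, rfl⟩ := hc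
      exact ⟨ρbar g, by rw [hΦ g, hα']⟩
    | zero => exact ⟨0, by rw [map_zero, map_zero]⟩
    | add x y _ _ hx hy =>
      obtain ⟨X, hX⟩ := hx
      obtain ⟨Y, hY⟩ := hy
      exact ⟨X + Y, by rw [map_add, map_add, hX, hY]⟩
    | smul b x _ hx =>
      obtain ⟨X, hX⟩ := hx
      exact ⟨IsLocalRing.residue B b • X, by rw [map_smul, hf_smul, hX]⟩
  -- the exact idempotent
  obtain ⟨w₀, hw₀⟩ := ha
  obtain ⟨ui, hui⟩ : ∃ ui : B, ui = ((w₀⁻¹ : Bˣ) : B) := ⟨_, rfl⟩
  have hui1 : ui * (a₁ - a₂) = 1 := by rw [hui, ← hw₀]; exact Units.inv_mul w₀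
  obtain ⟨A, hA⟩ : ∃ A : C, A = α g₀ := ⟨_, rfl⟩
  have hAA : A * A = (a₁ + a₂) • A - (a₁ * a₂) • 1 := by
    have h1 := hCH g₀
    rw [ht₀, hd₀, ← hA] at h1
    rw [← sub_eq_zero, ← h1]
    abel
  obtain ⟨e, he⟩ : ∃ e : C, e = ui • (A - a₂ • 1) := ⟨_, rfl⟩
  have hee : e * e = e := by
    have h1 : (A - a₂ • (1 : C)) * (A - a₂ • (1 : C)) = (a₁ - a₂) • (A - a₂ • (1 : C)) := by
      rw [sub_mul, mul_sub, mul_sub, hAA]
      simp only [smul_mul_assoc, mul_smul_comm, mul_one, one_mul, smul_smul]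
      module
    rw [he, smul_mul_smul_comm, h1, smul_smul, mul_assoc, hui1, mul_one]
  have hfe : f e = Φ (Matrix.single 0 0 (1 : IsLocalRing.ResidueField B)) := by
    have h1 : f A = Φ (ρbar g₀) := by rw [hΦ, hα', hA]
    have h2 : IsLocalRing.residue B ui * (IsLocalRing.residue B a₁ - IsLocalRing.residue B a₂)
        = 1 := by
      rw [← map_sub, ← map_mul, hui1, map_one]
    rw [he, hf_smul, map_sub, hf_smul, map_one, h1, ← map_one Φ, ← map_smul, ← map_sub,
      ← map_smul]
    congr 1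
    rw [hdiag]
    ext i j
    fin_cases i <;> fin_cases j <;>
      simp [Matrix.single_apply, Matrix.one_apply, h2]
  have hnilp' : ∀ x : C, f x = 0 → IsUnit (1 + x) := fun x hx =>
    twe_cl_isUnit_one_add (hker x hx)
  obtain ⟨u₀, hu₀⟩ := hfsurj (Φ (Matrix.single 1 0 (1 : IsLocalRing.ResidueField B)))
  obtain ⟨v₀, hv₀⟩ := hfsurj (Φ (Matrix.single 0 1 (1 : IsLocalRing.ResidueField B)))
  obtain ⟨u, hu⟩ : ∃ u : C, u = (1 - e) * u₀ * e := ⟨_, rfl⟩
  obtain ⟨v, hv⟩ : ∃ v : C, v = e * v₀ * (1 - e) := ⟨_, rfl⟩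
  have hfu : f u = Φ (Matrix.single 1 0 (1 : IsLocalRing.ResidueField B)) := by
    rw [hu, map_mul, map_mul, map_sub, map_one, hfe, hu₀, ← map_one Φ, ← map_sub, ← map_mul,
      ← map_mul, ffc_mat_id1]
  have hfv : f v = Φ (Matrix.single 0 1 (1 : IsLocalRing.ResidueField B)) := by
    rw [hv, map_mul, map_mul, map_sub, map_one, hfe, hv₀, ← map_one Φ, ← map_sub, ← map_mul,
      ← map_mul, ffc_mat_id2]
  have hue : u * e = u := by rw [hu, mul_assoc, hee]
  have heu : e * u = 0 := by
    rw [hu, ← mul_assoc, ← mul_assoc, mul_sub, mul_one, hee, sub_self, zero_mul, zero_mul]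
  have hev : e * v = v := by rw [hv, ← mul_assoc, ← mul_assoc, hee]
  have hve : v * e = 0 := by
    rw [hv, mul_assoc, sub_mul, one_mul, hee, sub_self, mul_zero]
  -- the correction
  obtain ⟨n, hn⟩ : ∃ n : C, n = v * u - e := ⟨_, rfl⟩
  have hfn : f n = 0 := by
    rw [hn, map_sub, map_mul, hfv, hfu, hfe, ← map_mul, ffc_mat_id3, sub_self]
  have hen : e * n = n := by rw [hn, mul_sub, ← mul_assoc, hev, hee]
  have hne : n * e = n := by rw [hn, sub_mul, mul_assoc, hue, hee]
  obtain ⟨w, hw⟩ := hnilp' n hfn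
  have hcomm : Commute e (w : C) := by
    rw [hw]
    show e * (1 + n) = (1 + n) * e
    rw [mul_add, add_mul, mul_one, one_mul, hen, hne]
  have hcomm' : Commute e ((w⁻¹ : Cˣ) : C) := hcomm.units_inv_right
  obtain ⟨s, hs⟩ : ∃ s : C, s = ((w⁻¹ : Cˣ) : C) := ⟨_, rfl⟩
  have hs1 : s * (1 + n) = 1 := by rw [hs, ← hw]; exact Units.inv_mul w
  have hes : e * s = s * e := by rw [hs]; exact hcomm'
  have hfs : f s = 1 := by
    have h1 := congrArg f hs1
    rw [map_mul, map_add, map_one, hfn, add_zero, mul_one] at h1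
    exact h1
  obtain ⟨v', hv'⟩ : ∃ v' : C, v' = s * v := ⟨_, rfl⟩
  have hfv' : f v' = Φ (Matrix.single 0 1 (1 : IsLocalRing.ResidueField B)) := by
    rw [hv', map_mul, hfs, one_mul, hfv]
  have hvu : v * u = (1 + n) * e := by
    rw [add_mul, one_mul, hne, hn]
    abel
  have hv'u : v' * u = e := by
    rw [hv', mul_assoc, hvu, ← mul_assoc, hs1, one_mul]
  have hev' : e * v' = v' := by
    rw [hv', ← mul_assoc, hes, mul_assoc, hev]
  have hv'e : v' * e = 0 := by
    rw [hv', mul_assoc, hve, mul_zero]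
  have h1eu : (1 - e) * u = u := by rw [sub_mul, one_mul, heu, sub_zero]
  obtain ⟨z, hz⟩ : ∃ z : C, z = (1 - e) - u * v' := ⟨_, rfl⟩
  have hzz : z * z = z := by
    have h2 : (1 - e) * (1 - e) = 1 - e := by
      rw [mul_sub, mul_one, sub_mul, one_mul, hee, sub_self, sub_zero]
    have h3 : (1 - e) * (u * v') = u * v' := by rw [← mul_assoc, h1eu]
    have h4 : (u * v') * (1 - e) = u * v' := by
      rw [mul_sub, mul_one, mul_assoc, hv'e, mul_zero, sub_zero]
    have h5 : (u * v') * (u * v') = u * v' := by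
      rw [mul_assoc, ← mul_assoc v', hv'u, hev']
    have hgen : ∀ p q : C, p * p = p → p * q = q → q * p = q → q * q = q →
        (p - q) * (p - q) = p - q := by
      intro p q k2 k3 k4 k5
      rw [mul_sub, sub_mul, sub_mul, k2, k3, k4, k5]
      abel
    rw [hz]
    exact hgen _ _ h2 h3 h4 h5
  have hfz : f z = 0 := by
    rw [hz, map_sub, map_sub, map_one, map_mul, hfe, hfu, hfv', ← map_one Φ, ← map_sub, ← map_mul,
      ← map_sub, ffc_mat_id4, map_zero]
  have hz0 : z = 0 := twe_cl_idem_zero hzz (hker z hfz)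
  have huv' : u * v' = 1 - e := by
    rw [hz, sub_eq_zero] at hz0
    exact hz0.symm
  have hunits : ffc_MatUnits e u v' := ⟨hee, hue, heu, hev', hv'e, hv'u, huv'⟩
  -- the reduction of `Ψ`
  have hfΨ : ∀ X : Matrix (Fin 2) (Fin 2) B,
      f (ffc_psi hunits X) = Φ (X.map (IsLocalRing.residue B)) := by
    intro X
    rw [ffc_psi_apply, map_add, map_add, map_add, hf_smul, hf_smul, hf_smul, hf_smul, map_sub,
      map_one, hfe, hfu, hfv']
    conv_rhs => rw [ffc_mat_decomp (X.map (IsLocalRing.residue B))]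
    simp only [map_add, map_smul, map_sub, map_one, Matrix.map_apply]
  -- surjectivity by Nakayama
  have hsup : (LinearMap.range (ffc_psi (B := B) hunits).toLinearMap) ⊔
      (IsLocalRing.maximalIdeal B) • (⊤ : Submodule B C) = ⊤ := by
    rw [eq_top_iff]
    intro c _
    obtain ⟨Xbar, hX⟩ := hΦrange c
    obtain ⟨X, rfl⟩ : ∃ X : Matrix (Fin 2) (Fin 2) B,
        X.map (IsLocalRing.residue B) = Xbar := by
      choose g hg using (IsLocalRing.residue_surjective (R := B))
      exact ⟨Matrix.of fun i j => g (Xbar i j), by ext i j; exact hg (Xbar i j)⟩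
    have h1 : f (c - ffc_psi hunits X) = 0 := by rw [map_sub, hfΨ, hX, sub_self]
    have h2 : c = ffc_psi hunits X + (c - ffc_psi hunits X) := by abel
    rw [h2]
    exact Submodule.add_mem_sup ⟨X, rfl⟩ (hker _ h1)
  have htop := twe_cl_nak _ hsup
  have hΨsurj : Function.Surjective (ffc_psi (B := B) hunits) := by
    intro c
    have hc : c ∈ LinearMap.range (ffc_psi (B := B) hunits).toLinearMap :=
      htop ▸ Submodule.mem_top
    obtain ⟨X, hX⟩ := hc
    exact ⟨X, hX⟩
  obtain ⟨Ψe, hΨe⟩ : ∃ Ψe : Matrix (Fin 2) (Fin 2) B ≃ₐ[B] C, ∀ X, Ψe X = ffc_psi hunits X :=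
    ⟨AlgEquiv.ofBijective (ffc_psi hunits) ⟨ffc_psi_injective hunits hfaith, hΨsurj⟩,
      fun X => rfl⟩
  refine ⟨Ψe, fun g => ?_⟩
  -- `Φ` is injective
  have : Nontrivial ((IsLocalRing.ResidueField B) ⊗[B] C) := by
    refine ⟨⟨0, 1, fun h01 => ?_⟩⟩
    have h1 : f 1 = 0 := by rw [map_one]; exact h01.symm
    have h2 := twe_cl_isUnit_one_add (Submodule.neg_mem _ (hker 1 h1))
    rw [add_neg_cancel] at h2
    have h3 : (1 : C) = 0 := by
      obtain ⟨w', hw'⟩ := h2
      calc (1 : C) = (w' : C) * ((w'⁻¹ : Cˣ) : C) := (Units.mul_inv w').symm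
        _ = 0 := by rw [hw', zero_mul]
    have h4 : algebraMap B C 1 = algebraMap B C 0 := by rw [map_one, map_zero, h3]
    exact one_ne_zero (hfaith h4)
  have hΦinj : Function.Injective Φ := RingHom.injective Φ.toRingHom
  apply hΦinj
  rw [← hfΨ, ← hΨe, AlgEquiv.apply_symm_apply, hΦ, hα']

end Alg

/-! ### Trace and determinant from the quadratic equations -/

section TrDet

variable {B : Type*} [CommRing B] [IsLocalRing B] {G : Type*} [Group G]

/-- If every `ρ g` satisfies `X² - t(g) X + d(g)`, `d` is a character, and `ρ mod 𝔪` spans `M₂(k)`,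
then `tr ρ = t` and `det ρ = d`. -/
theorem twe_cl_tr_det (ρ : G →* Matrix (Fin 2) (Fin 2) B) (t : G → B) (d : G →* Bˣ)
    (hCH : ∀ g, ρ g * ρ g - t g • ρ g + (d g : B) • (1 : Matrix (Fin 2) (Fin 2) B) = 0)
    (ρbar : G →* Matrix (Fin 2) (Fin 2) (IsLocalRing.ResidueField B))
    (hred : ∀ g, (ρ g).map (IsLocalRing.residue B) = ρbar g)
    (hspan : Submodule.span (IsLocalRing.ResidueField B) (Set.range ρbar) = ⊤) :
    (∀ g, (ρ g).trace = t g) ∧ ∀ g, (ρ g).det = d g := by
  classical
  -- the basic relation `s • ρ g = δ • 1`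
  have hrel : ∀ g, (t g - (ρ g).trace) • ρ g =
      ((d g : B) - (ρ g).det) • (1 : Matrix (Fin 2) (Fin 2) B) := by
    intro g
    have h1 := hCH g
    have h2 := ffc_cayley (ρ g)
    rw [sub_smul, sub_smul]
    linear_combination (norm := module) h2 - h1
  have hent : ∀ g i j, (t g - (ρ g).trace) * ρ g i j =
      ((d g : B) - (ρ g).det) * (1 : Matrix (Fin 2) (Fin 2) B) i j := by
    intro g i j
    have := congrFun (congrFun (hrel g) i) j
    simpa [Matrix.smul_apply] using this
  have hredent : ∀ g i j, IsLocalRing.residue B (ρ g i j) = ρbar g i j := by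
    intro g i j
    rw [← hred g]
    rfl
  -- the non-scalar case
  have hNS : ∀ g, (ρbar g 0 1 ≠ 0 ∨ ρbar g 1 0 ≠ 0 ∨ ρbar g 0 0 ≠ ρbar g 1 1) →
      (ρ g).trace = t g ∧ (ρ g).det = d g := by
    intro g hg
    have hs : t g - (ρ g).trace = 0 := by
      rcases hg with hg | hg | hg
      · have hu : IsUnit (ρ g 0 1) := by
          rw [← IsLocalRing.residue_ne_zero_iff_isUnit, hredent]; exact hg
        have h1 := hent g 0 1
        rw [Matrix.one_apply_ne (by decide), mul_zero] at h1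
        exact (hu.mul_left_eq_zero).mp h1
      · have hu : IsUnit (ρ g 1 0) := by
          rw [← IsLocalRing.residue_ne_zero_iff_isUnit, hredent]; exact hg
        have h1 := hent g 1 0
        rw [Matrix.one_apply_ne (by decide), mul_zero] at h1
        exact (hu.mul_left_eq_zero).mp h1
      · have hu : IsUnit (ρ g 0 0 - ρ g 1 1) := by
          rw [← IsLocalRing.residue_ne_zero_iff_isUnit, map_sub, hredent, hredent]
          exact sub_ne_zero.mpr hg
        have h1 := hent g 0 0
        have h2 := hent g 1 1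
        rw [Matrix.one_apply_eq] at h1 h2
        have h3 : (t g - (ρ g).trace) * (ρ g 0 0 - ρ g 1 1) = 0 := by
          rw [mul_sub, h1, h2, sub_self]
        exact (hu.mul_left_eq_zero).mp h3
    have hδ : (d g : B) - (ρ g).det = 0 := by
      have h1 := hent g 0 0
      rw [hs, zero_mul, Matrix.one_apply_eq, mul_one] at h1
      exact h1.symm
    exact ⟨(sub_eq_zero.mp hs).symm, (sub_eq_zero.mp hδ).symm⟩
  -- a non-scalar element exists
  obtain ⟨h, hh⟩ : ∃ h, ρbar h 0 1 ≠ 0 ∨ ρbar h 1 0 ≠ 0 ∨ ρbar h 0 0 ≠ ρbar h 1 1 := by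
    by_contra hcon
    push Not at hcon
    have hall : ∀ Y ∈ Submodule.span (IsLocalRing.ResidueField B) (Set.range ρbar),
        Y 0 1 = 0 := by
      intro Y hY
      induction hY using Submodule.span_induction with
      | mem Y hY =>
        obtain ⟨g, rfl⟩ := hY
        exact (hcon g).1
      | zero => rfl
      | add Y Z _ _ hY hZ => rw [Matrix.add_apply, hY, hZ, add_zero]
      | smul c Y _ hY => rw [Matrix.smul_apply, hY, smul_zero]
    have h1 := hall (Matrix.single 0 1 (1 : IsLocalRing.ResidueField B))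
      (hspan ▸ Submodule.mem_top)
    rw [Matrix.single_apply_same] at h1
    exact one_ne_zero h1
  have hdh := (hNS h hh).2
  -- the determinant in general
  have hdetall : ∀ g, (ρ g).det = d g := by
    intro g
    by_cases hg : ρbar g 0 1 ≠ 0 ∨ ρbar g 1 0 ≠ 0 ∨ ρbar g 0 0 ≠ ρbar g 1 1
    · exact (hNS g hg).2
    · push Not at hg
      obtain ⟨hg01, hg10, hg00⟩ := hg
      -- `ρbar g = c • 1` with `c ≠ 0`
      have hc : ρbar g 0 0 ≠ 0 := by
        intro hc0
        have h1 : ρbar g * ρbar g⁻¹ = 1 := by rw [← map_mul, mul_inv_cancel, map_one]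
        have h2 := congrFun (congrFun h1 0) 0
        rw [Matrix.mul_apply, Fin.sum_univ_two, hc0, hg01, zero_mul, zero_mul, add_zero,
          Matrix.one_apply_eq] at h2
        exact zero_ne_one h2
      have hmul : ∀ i j, ρbar (g * h) i j = ρbar g 0 0 * ρbar h i j := by
        intro i j
        rw [map_mul, Matrix.mul_apply, Fin.sum_univ_two]
        fin_cases i
        · simp only [Fin.zero_eta, Fin.isValue]
          rw [hg01, zero_mul, add_zero]
        · simp only [Fin.mk_one, Fin.isValue]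
          rw [hg10, zero_mul, zero_add, hg00]
      have hgh : ρbar (g * h) 0 1 ≠ 0 ∨ ρbar (g * h) 1 0 ≠ 0 ∨
          ρbar (g * h) 0 0 ≠ ρbar (g * h) 1 1 := by
        rcases hh with hh | hh | hh
        · left; rw [hmul]; exact mul_ne_zero hc hh
        · right; left; rw [hmul]; exact mul_ne_zero hc hh
        · right; right; rw [hmul, hmul]; exact fun h' => hh (mul_left_cancel₀ hc h')
      have h1 := (hNS (g * h) hgh).2
      rw [map_mul, Matrix.det_mul, hdh, map_mul, Units.val_mul] at h1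
      exact (d h).isUnit.mul_left_injective h1
  refine ⟨fun g => ?_, hdetall⟩
  -- the trace in general
  have h1 : (t g - (ρ g).trace) • ρ g = 0 := by
    rw [hrel g, hdetall g, sub_self, zero_smul]
  have h2 : ρ g * ρ g⁻¹ = 1 := by rw [← map_mul, mul_inv_cancel, map_one]
  have h3 : (t g - (ρ g).trace) • (1 : Matrix (Fin 2) (Fin 2) B) = 0 := by
    rw [← h2, ← smul_mul_assoc, h1, zero_mul]
  have h4 := congrFun (congrFun h3 0) 0
  rw [Matrix.smul_apply, Matrix.one_apply_eq, smul_eq_mul, mul_one, Matrix.zero_apply] at h4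
  exact (sub_eq_zero.mp h4).symm

end TrDet

/-! ### The module form -/

section Module

variable {T : Type*} [CommRing T] [IsLocalRing T] [IsNoetherianRing T]
  {X : Type*} [AddCommGroup X] [Module T X] [Module.Finite T X] {G : Type*} [Group G]

/-- **Carayol's lemma over a local Noetherian ring, module form** (no completeness).  `X` a faithful
finite `T`-module with a `T`-linear action `α` of `G` whose elements satisfy quadratic equations
`X² - t(g) X + d(g)` over `T` (`d` a character) reducing to the characteristic polynomials of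
`ρbar : G → GL₂(k)` spanning `M₂(k)`; ONE element `g₀` whose equation splits over `T` with roots
differing by a unit.  Then there is `ρ : G → GL₂(T)` with `tr ρ = t`, `det ρ = d`, `ρ mod 𝔪`
conjugate to `ρbar`, and an equivariant embedding `T² ↪ X^s`. -/
theorem twe_cl_main (hfaith : ∀ a : T, (∀ x : X, a • x = 0) → a = 0)
    (α : G →* Module.End T X) (t : G → T) (d : G →* Tˣ)
    (hCH : ∀ g, α g * α g - t g • α g + (d g : T) • 1 = 0)
    (ρbar : G →* Matrix (Fin 2) (Fin 2) (IsLocalRing.ResidueField T))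
    (hspan : Submodule.span (IsLocalRing.ResidueField T) (Set.range ρbar) = ⊤)
    (htr : ∀ g, IsLocalRing.residue T (t g) = (ρbar g).trace)
    (hdet : ∀ g, IsLocalRing.residue T (d g : T) = (ρbar g).det)
    (g₀ : G) (a₁ a₂ : T) (ha : IsUnit (a₁ - a₂)) (ht₀ : t g₀ = a₁ + a₂)
    (hd₀ : (d g₀ : T) = a₁ * a₂) :
    ∃ ρ : G →* Matrix (Fin 2) (Fin 2) T, (∀ g, (ρ g).trace = t g) ∧ (∀ g, (ρ g).det = d g) ∧
      (∃ Q : Matrix (Fin 2) (Fin 2) (IsLocalRing.ResidueField T), IsUnit Q.det ∧
        ∀ g, (ρ g).map (IsLocalRing.residue T) * Q = Q * ρbar g) ∧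
      ∃ (s : ℕ) (j : (Fin 2 → T) →ₗ[T] (Fin s → X)), Function.Injective j ∧
        ∀ g v i, j ((ρ g).mulVec v) i = α g (j v i) := by
  classical
  -- diagonalise `ρbar g₀`
  have hb : IsLocalRing.residue T a₁ ≠ IsLocalRing.residue T a₂ := by
    intro h
    have h1 : IsLocalRing.residue T (a₁ - a₂) = 0 := by rw [map_sub, h, sub_self]
    exact (IsLocalRing.residue_ne_zero_iff_isUnit _).mpr ha h1
  obtain ⟨Q₀, hQ₀det, hQ₀⟩ := twe_cl_diag (ρbar g₀) (IsLocalRing.residue T a₁)
    (IsLocalRing.residue T a₂) hb (by rw [← htr, ht₀, map_add]) (by rw [← hdet, hd₀, map_mul])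
  obtain ⟨Qu, hQu⟩ := (Matrix.isUnit_iff_isUnit_det Q₀).mpr hQ₀det
  obtain ⟨Qi, hQmi, hQim⟩ : ∃ Qi : Matrix (Fin 2) (Fin 2) (IsLocalRing.ResidueField T),
      Q₀ * Qi = 1 ∧ Qi * Q₀ = 1 :=
    ⟨((Qu⁻¹ : (Matrix (Fin 2) (Fin 2) (IsLocalRing.ResidueField T))ˣ) :
      Matrix (Fin 2) (Fin 2) (IsLocalRing.ResidueField T)), by rw [← hQu, Units.mul_inv],
      by rw [← hQu, Units.inv_mul]⟩
  have hQidet : IsUnit Qi.det := by
    have h1 : Qi.det * Q₀.det = 1 := by rw [← Matrix.det_mul, hQim, Matrix.det_one]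
    exact IsUnit.of_mul_eq_one _ h1
  obtain ⟨ρbar', hρbar'⟩ : ∃ ρbar' : G →* Matrix (Fin 2) (Fin 2) (IsLocalRing.ResidueField T),
      ∀ g, ρbar' g = Qi * ρbar g * Q₀ := by
    refine ⟨{ toFun := fun g => Qi * ρbar g * Q₀
              map_one' := by rw [map_one, mul_one, hQim]
              map_mul' := fun g h => ?_ }, fun g => rfl⟩
    rw [map_mul]
    calc Qi * (ρbar g * ρbar h) * Q₀
        = Qi * ρbar g * (Q₀ * Qi) * ρbar h * Q₀ := by
          rw [hQmi, mul_one]
          simp only [mul_assoc]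
      _ = _ := by simp only [mul_assoc]
  have hspan' : Submodule.span (IsLocalRing.ResidueField T) (Set.range ρbar') = ⊤ := by
    let L : Matrix (Fin 2) (Fin 2) (IsLocalRing.ResidueField T) →ₗ[IsLocalRing.ResidueField T]
        Matrix (Fin 2) (Fin 2) (IsLocalRing.ResidueField T) :=
      (LinearMap.mulLeft _ Qi).comp (LinearMap.mulRight _ Q₀)
    have hL : ∀ Y, L Y = Qi * (Y * Q₀) := fun Y => rfl
    have h1 : Set.range ρbar' = L '' Set.range ρbar := by
      ext Y
      constructor
      · rintro ⟨g, rfl⟩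
        exact ⟨ρbar g, ⟨g, rfl⟩, by rw [hL, hρbar', mul_assoc]⟩
      · rintro ⟨_, ⟨g, rfl⟩, rfl⟩
        exact ⟨g, by rw [hL, hρbar', mul_assoc]⟩
    rw [h1, ← Submodule.map_span, hspan, Submodule.map_top, LinearMap.range_eq_top]
    intro Y
    refine ⟨Q₀ * Y * Qi, ?_⟩
    rw [hL]
    calc Qi * (Q₀ * Y * Qi * Q₀) = (Qi * Q₀) * Y * (Qi * Q₀) := by simp only [mul_assoc]
      _ = Y := by rw [hQim, one_mul, mul_one]
  have htr' : ∀ g, IsLocalRing.residue T (t g) = (ρbar' g).trace := by
    intro g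
    rw [htr, hρbar', Matrix.trace_mul_comm, ← mul_assoc, hQmi, one_mul]
  have hdet' : ∀ g, IsLocalRing.residue T (d g : T) = (ρbar' g).det := by
    intro g
    rw [hdet, hρbar', Matrix.det_mul, Matrix.det_mul, mul_comm, ← mul_assoc, ← Matrix.det_mul,
      hQmi, Matrix.det_one, one_mul]
  have hdiag' : ρbar' g₀ = !![IsLocalRing.residue T a₁, 0; 0, IsLocalRing.residue T a₂] := by
    rw [hρbar', mul_assoc, hQ₀, ← mul_assoc, hQim, one_mul]
  -- the algebra generated by the action
  obtain ⟨Cs, hCs⟩ : ∃ Cs : Subalgebra T (Module.End T X), Cs = Algebra.adjoin T (Set.range α) :=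
    ⟨_, rfl⟩
  have : Module.Finite T Cs :=
    Module.IsNoetherian.finite T ↥(Subalgebra.toSubmodule Cs)
  have hαmem : ∀ g, α g ∈ Cs := fun g => hCs ▸ Algebra.subset_adjoin ⟨g, rfl⟩
  obtain ⟨αC, hαC⟩ : ∃ αC : G →* Cs, ∀ g, (αC g : Module.End T X) = α g :=
    ⟨α.codRestrict Cs.toSubmonoid hαmem, fun g => rfl⟩
  have hspanC : Submodule.span T (Set.range αC) = ⊤ := by
    apply Submodule.map_injective_of_injective (f := Cs.val.toLinearMap) Subtype.val_injective
    rw [Submodule.map_span, Submodule.map_top]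
    have h1 : (Cs.val.toLinearMap : Cs →ₗ[T] Module.End T X) '' Set.range αC = Set.range α := by
      ext x
      constructor
      · rintro ⟨_, ⟨g, rfl⟩, rfl⟩
        exact ⟨g, (hαC g).symm⟩
      · rintro ⟨g, rfl⟩
        exact ⟨αC g, ⟨g, rfl⟩, hαC g⟩
    rw [h1]
    have h2 : LinearMap.range (Cs.val.toLinearMap : Cs →ₗ[T] Module.End T X) =
        Subalgebra.toSubmodule Cs := by
      ext x
      constructor
      · rintro ⟨y, rfl⟩
        exact y.2
      · intro hx
        exact ⟨⟨x, hx⟩, rfl⟩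
    rw [h2, hCs, Algebra.adjoin_eq_span]
    congr 1
    have h3 : Submonoid.closure (Set.range α) = MonoidHom.mrange α := by
      rw [← MonoidHom.coe_mrange, Submonoid.closure_eq]
    rw [h3]
    rfl
  have hfaithC : Function.Injective (algebraMap T Cs) := by
    rw [injective_iff_map_eq_zero]
    intro b hb
    apply hfaith b
    intro x
    have h1 : ((algebraMap T Cs b : Cs) : Module.End T X) = 0 := by rw [hb]; rfl
    have h2 : ((algebraMap T Cs b : Cs) : Module.End T X) = algebraMap T (Module.End T X) b := rfl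
    rw [h2] at h1
    have h3 := congrArg (fun φ : Module.End T X => φ x) h1
    simpa [Module.algebraMap_end_apply] using h3
  have hCHC : ∀ g, αC g * αC g - t g • αC g + (d g : T) • 1 = 0 := by
    intro g
    apply Subtype.ext
    have := hCH g
    simpa [hαC] using this
  obtain ⟨Ψ, hΨ⟩ := twe_cl_alg hfaithC αC hspanC t (fun g => (d g : T)) hCHC ρbar' hspan'
    htr' hdet' g₀ a₁ a₂ ha ht₀ hd₀ hdiag'
  obtain ⟨ρ, hρ⟩ : ∃ ρ : G →* Matrix (Fin 2) (Fin 2) T, ∀ g, ρ g = Ψ.symm (αC g) :=
    ⟨(Ψ.symm : Cs →* Matrix (Fin 2) (Fin 2) T).comp αC, fun g => rfl⟩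
  have hρCH : ∀ g, ρ g * ρ g - t g • ρ g + (d g : T) • (1 : Matrix (Fin 2) (Fin 2) T) = 0 := by
    intro g
    have h1 := congrArg Ψ.symm (hCHC g)
    rw [map_zero, map_add, map_sub, map_mul, map_smul, map_smul, map_one, ← hρ] at h1
    exact h1
  have hred : ∀ g, (ρ g).map (IsLocalRing.residue T) = ρbar' g := fun g => by
    rw [hρ]; exact hΨ g
  obtain ⟨htrρ, hdetρ⟩ := twe_cl_tr_det ρ t d hρCH ρbar' hred hspan'
  obtain ⟨s, j, hj, hjX⟩ := ffc_embed (Cs.val.comp Ψ.toAlgHom) hfaith
  refine ⟨ρ, htrρ, hdetρ, ⟨Qi, hQidet, fun g => ?_⟩, s, j, hj, fun g v i => ?_⟩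
  · rw [hred, hρbar', mul_assoc, hQmi, mul_one]
  · rw [hjX]
    congr 1
    show ((Ψ (ρ g) : Cs) : Module.End T X) = α g
    rw [hρ, AlgEquiv.apply_symm_apply, hαC]

end Module

/-! ### Adic continuity passes through the equivariant embedding (Artin–Rees) -/

section Cont

variable {T : Type*} [CommRing T] [IsNoetherianRing T]
  {X : Type*} [AddCommGroup X] [Module T X] [Module.Finite T X]

/-- componentwise membership in `J X` gives membership in `J X^s`. -/
theorem twe_cl_pi_mem (J : Ideal T) {s : ℕ} (y : Fin s → X)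
    (hy : ∀ i, y i ∈ J • (⊤ : Submodule T X)) : y ∈ J • (⊤ : Submodule T (Fin s → X)) := by
  classical
  have h2 : y = ∑ i, LinearMap.single T (fun _ : Fin s => X) i (y i) := by
    funext j
    rw [Finset.sum_apply]
    simp only [LinearMap.coe_single]
    rw [Finset.sum_eq_single j]
    · rw [Pi.single_eq_same]
    · intro i _ hij
      rw [Pi.single_eq_of_ne' hij]
    · intro h
      exact absurd (Finset.mem_univ j) h
  rw [h2]
  refine Submodule.sum_mem _ fun i _ => ?_
  have h3 : LinearMap.single T (fun _ : Fin s => X) i (y i) ∈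
      Submodule.map (LinearMap.single T (fun _ : Fin s => X) i) (J • (⊤ : Submodule T X)) :=
    Submodule.mem_map_of_mem (hy i)
  rw [Submodule.map_smul''] at h3
  exact Submodule.smul_mono le_rfl le_top h3

/-- coordinates of an element of `J T^r` lie in `J`. -/
theorem twe_cl_coord_mem (J : Ideal T) {r : ℕ} {w : Fin r → T}
    (hw : w ∈ J • (⊤ : Submodule T (Fin r → T))) (i : Fin r) : w i ∈ J := by
  refine Submodule.smul_induction_on hw (fun a ha v _ => ?_) (fun x y hx hy => ?_)
  · rw [Pi.smul_apply, smul_eq_mul]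
    exact Ideal.mul_mem_right _ _ ha
  · rw [Pi.add_apply]
    exact Ideal.add_mem _ hx hy

/-- **Continuity through the embedding.**  `j : T² ↪ X^s` injective; for every `n` there is `m` such
that a matrix `R` acting compatibly with an endomorphism `a ≡ 1 mod I^m` of `X` is `≡ 1 mod I^n`. -/
theorem twe_cl_cont (I : Ideal T) {s : ℕ} (j : (Fin 2 → T) →ₗ[T] (Fin s → X))
    (hj : Function.Injective j) (n : ℕ) :
    ∃ m : ℕ, ∀ (R : Matrix (Fin 2) (Fin 2) T) (a : Module.End T X),
      (∀ v i, j (R.mulVec v) i = a (j v i)) →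
      (∀ x : X, a x - x ∈ (I ^ m) • (⊤ : Submodule T X)) →
      (∀ v : Fin 2 → T, R.mulVec v - v ∈ (I ^ n) • (⊤ : Submodule T (Fin 2 → T))) ∧
        ∀ i i' : Fin 2, (R - 1) i i' ∈ I ^ n := by
  classical
  obtain ⟨k, hk⟩ := Ideal.exists_pow_inf_eq_pow_smul I (LinearMap.range j)
  refine ⟨n + k, fun R a hRa ha => ?_⟩
  have hv : ∀ v : Fin 2 → T, R.mulVec v - v ∈ (I ^ n) • (⊤ : Submodule T (Fin 2 → T)) := by
    intro v
    have h1 : j (R.mulVec v - v) ∈ (I ^ (n + k)) • (⊤ : Submodule T (Fin s → X)) := by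
      apply twe_cl_pi_mem
      intro i
      rw [map_sub, Pi.sub_apply, hRa]
      exact ha _
    have h2 : j (R.mulVec v - v) ∈
        (I ^ (n + k)) • (⊤ : Submodule T (Fin s → X)) ⊓ LinearMap.range j := ⟨h1, ⟨_, rfl⟩⟩
    rw [hk (n + k) (Nat.le_add_left k n), Nat.add_sub_cancel] at h2
    have h3 : (I ^ n) • ((I ^ k) • (⊤ : Submodule T (Fin s → X)) ⊓ LinearMap.range j) ≤
        Submodule.map j ((I ^ n) • (⊤ : Submodule T (Fin 2 → T))) := by
      calc (I ^ n) • ((I ^ k) • (⊤ : Submodule T (Fin s → X)) ⊓ LinearMap.range j)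
          ≤ (I ^ n) • LinearMap.range j := Submodule.smul_mono le_rfl inf_le_right
        _ = (I ^ n) • Submodule.map j ⊤ := by rw [LinearMap.range_eq_map]
        _ = Submodule.map j ((I ^ n) • (⊤ : Submodule T (Fin 2 → T))) :=
          (Submodule.map_smul'' _ _ _).symm
    obtain ⟨w, hw, hjw⟩ := h3 h2
    rw [← hj hjw]
    exact hw
  refine ⟨hv, fun i i' => ?_⟩
  have h1 := twe_cl_coord_mem _ (hv (Pi.single i' 1)) i
  rw [Pi.sub_apply, Matrix.mulVec_single_one, Matrix.col_apply] at h1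
  rw [Matrix.sub_apply, Matrix.one_apply]
  convert h1 using 2
  rw [Pi.single_apply]

end Cont

end Fermat.Agent.TW
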