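import Mathlib
import Fermat.Agent.JT3.Unram.Main

/-!
# Project ONE MACHINE, block [E], cell E/Datum (helper7): (DT-W) the Hecke-valued trace

`D : pk_Tate p N S` the Tate package of `J₀(N)` (`p ∈ S`, the primes of `N` in `S`), `ε` the
`p`-adic cyclotomic character.  The Hecke-valued trace
`ur_w D.ρ ε g = D.ρ g + ε g • D.ρ g⁻¹ ∈ End_{ℤ_p}(T_p)` lies in the Hecke algebra
`𝕋 = ℤ_p[Tl ℓ : ℓ good]` for EVERY `g ∈ G_ℚ` (`twe_dt_w_mem`): it is a Lucas polynomial in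
`(Tl ℓ, ℓ)` at the powers of a Frobenius element (Eichler–Shimura `D.frob`), every `g` is a
`p`-adic limit of such powers (weak Chebotarev `wc_main`), and `𝕋` is `p`-adically closed in
`End(T_p)` (`twe_dt_closed`: Krull intersection for the finite module `End(T_p) / 𝕋`).

Namespace `Fermat.Agent.TW`, prefix `twe_dt_`.
-/

set_option autoImplicit false
set_option linter.style.haveILetI false
set_option linter.unusedSectionVars false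

namespace Fermat.Agent.TW

open IsLocalRing Fermat.Agent.JT3

local notation "GQ" => (AlgebraicClosure ℚ ≃ₐ[ℚ] AlgebraicClosure ℚ)
local notation "Qbar" => AlgebraicClosure ℚ

/-- **closedness**: a submodule `C` of a finite module `E` over a Noetherian local ring is closed
for the `𝔪`-adic topology. -/
theorem twe_dt_closed {O : Type*} [CommRing O] [IsLocalRing O] [IsNoetherianRing O]
    {E : Type*} [AddCommGroup E] [Module O E] [Module.Finite O E] (C : Submodule O E) (x : E)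
    (h : ∀ m : ℕ, ∃ c ∈ C, x - c ∈ (maximalIdeal O ^ m) • (⊤ : Submodule O E)) : x ∈ C := by
  have h1 : ∀ m : ℕ, C.mkQ x ∈ (maximalIdeal O ^ m) • (⊤ : Submodule O (E ⧸ C)) := by
    intro m
    obtain ⟨c, hc, hxc⟩ := h m
    have hc0 : C.mkQ c = 0 := by
      rw [Submodule.mkQ_apply]
      exact (Submodule.Quotient.mk_eq_zero C).mpr hc
    have h2 : C.mkQ x = C.mkQ (x - c) := by
      rw [map_sub, hc0, sub_zero]
    rw [h2]
    have h3 : C.mkQ (x - c) ∈ ((maximalIdeal O ^ m) • (⊤ : Submodule O E)).map C.mkQ :=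
      Submodule.mem_map_of_mem hxc
    rw [Submodule.map_smul''] at h3
    exact Submodule.smul_mono le_rfl le_top h3
  have h4 : C.mkQ x ∈ (⨅ m : ℕ, (maximalIdeal O ^ m) • (⊤ : Submodule O (E ⧸ C))) :=
    (Submodule.mem_iInf _).mpr h1
  rw [Ideal.iInf_pow_smul_eq_bot_of_isLocalRing (maximalIdeal O)
    (Ideal.IsMaximal.ne_top inferInstance), Submodule.mem_bot] at h4
  rw [Submodule.mkQ_apply] at h4
  exact (Submodule.Quotient.mk_eq_zero C).mp h4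

section tate

variable {p : ℕ} [Fact p.Prime] {N : ℕ} [NeZero N] {S : Finset ℕ}

/-- **Chebotarev approximation on the Tate side**: for every `g` and `m` there is an element of the
Hecke algebra which is `ur_w g` modulo `p ^ m`. -/
theorem twe_dt_w_approx (D : pk_Tate p N S) (hpS : p ∈ S)
    (hNS : ∀ q : ℕ, q.Prime → q ∣ N → q ∈ S) (g : GQ) (m : ℕ) :
    ∃ c : ↥(Algebra.adjoin ℤ_[p] (pk_heckeSet N S D.Tl)),
      gcl_Small (maximalIdeal ℤ_[p] ^ m)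
        ((c : Module.End ℤ_[p] D.Tp) - ur_w D.ρ (cya_eps p ℤ_[p] ur_p_mem) g) := by
  obtain ⟨L₂, hL₂, h2⟩ := D.cont m
  obtain ⟨L₃, hL₃, h3⟩ := cya_eps_continuous p ℤ_[p] ur_p_mem m
  obtain ⟨L, hLfd, hLn, -, h2L, h3L⟩ := ur_exists_normal L₂ L₂ L₃ hL₂ hL₂ hL₃
  haveI := hLfd
  haveI := hLn
  obtain ⟨ℓ, A, φ, k, hℓ, hℓS, hA, hφ, hk⟩ := Fermat.Agent.WC.wc_main L S g
  have hℓN : ¬ ℓ ∣ N := fun h => hℓS (hNS ℓ hℓ h)
  have hℓp : ℓ ≠ p := fun h => hℓS (h ▸ hpS)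
  have hℓS' : ℓ ∉ (↑S : Set ℕ) := fun h => hℓS (Finset.mem_coe.mp h)
  obtain ⟨δ, hgδ, hδL, hδL'⟩ : ∃ δ : GQ, φ ^ k = g * δ ∧ (∀ x ∈ L, δ x = x) ∧
      (∀ x ∈ L, δ⁻¹ x = x) := by
    refine ⟨g⁻¹ * φ ^ k, (mul_inv_cancel_left g (φ ^ k)).symm, ?_, ?_⟩
    · intro x hx
      rw [AlgEquiv.mul_apply, hk x hx]
      show (g⁻¹ * g) x = x
      rw [inv_mul_cancel]
      rfl
    · intro x hx
      rw [mul_inv_rev, inv_inv, AlgEquiv.mul_apply]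
      have h5 : g x = (φ ^ k) x := (hk x hx).symm
      rw [h5]
      show ((φ ^ k)⁻¹ * (φ ^ k)) x = x
      rw [inv_mul_cancel]
      rfl
  have hW1 : ur_w D.ρ (cya_eps p ℤ_[p] ur_p_mem) (φ ^ k) =
      ur_luc (D.Tl ℓ) ((ℓ : ℤ_[p]) • (1 : Module.End ℤ_[p] D.Tp)) k :=
    ur_w_frob_pow D.ρ (cya_eps p ℤ_[p] ur_p_mem) φ (D.Tl ℓ) (ℓ : ℤ_[p])
      (cya_eps_frob p ℤ_[p] ur_p_mem hℓ hℓp A hA φ hφ)
      (D.frob ℓ ⟨hℓ, hℓN, hℓS'⟩ A hA φ hφ) k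
  have hW2 : gcl_Small (maximalIdeal ℤ_[p] ^ m)
      (ur_w D.ρ (cya_eps p ℤ_[p] ur_p_mem) (g * δ) - ur_w D.ρ (cya_eps p ℤ_[p] ur_p_mem) g) := by
    refine ur_w_congr _ D.ρ _ g δ (fun v => ?_) (fun v => ?_) (h3 δ (fun x hx => hδL x (h3L hx)))
    · rw [LinearMap.sub_apply, Module.End.one_apply]
      exact h2 δ (fun x hx => hδL x (h2L hx)) v
    · rw [LinearMap.sub_apply, Module.End.one_apply]
      exact h2 δ⁻¹ (fun x hx => hδL' x (h2L hx)) v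
  refine ⟨ur_luc ⟨D.Tl ℓ, pk_mem_heckeSet D.Tl hℓ hℓN hℓS'⟩
    ((ℓ : ℕ) : ↥(Algebra.adjoin ℤ_[p] (pk_heckeSet N S D.Tl))) k, ?_⟩
  have h5 := ur_luc_map (Algebra.adjoin ℤ_[p] (pk_heckeSet N S D.Tl)).val.toRingHom
    ⟨D.Tl ℓ, pk_mem_heckeSet D.Tl hℓ hℓN hℓS'⟩
    ((ℓ : ℕ) : ↥(Algebra.adjoin ℤ_[p] (pk_heckeSet N S D.Tl))) k
  have h6 : (Algebra.adjoin ℤ_[p] (pk_heckeSet N S D.Tl)).val.toRingHom
      ((ℓ : ℕ) : ↥(Algebra.adjoin ℤ_[p] (pk_heckeSet N S D.Tl))) =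
      (ℓ : ℤ_[p]) • (1 : Module.End ℤ_[p] D.Tp) := by
    rw [map_natCast, Nat.cast_smul_eq_nsmul, nsmul_one]
  rw [h6] at h5
  have h7 : ((ur_luc ⟨D.Tl ℓ, pk_mem_heckeSet D.Tl hℓ hℓN hℓS'⟩
      ((ℓ : ℕ) : ↥(Algebra.adjoin ℤ_[p] (pk_heckeSet N S D.Tl))) k :
        ↥(Algebra.adjoin ℤ_[p] (pk_heckeSet N S D.Tl))) : Module.End ℤ_[p] D.Tp) =
      ur_luc (D.Tl ℓ) ((ℓ : ℤ_[p]) • (1 : Module.End ℤ_[p] D.Tp)) k := h5
  rw [h7, ← hW1, hgδ]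
  exact hW2

/-- **the Hecke-valued trace lies in the Hecke algebra**, for every `g ∈ G_ℚ`. -/
theorem twe_dt_w_mem (D : pk_Tate p N S) (hpS : p ∈ S)
    (hNS : ∀ q : ℕ, q.Prime → q ∣ N → q ∈ S) (g : GQ) :
    ur_w D.ρ (cya_eps p ℤ_[p] ur_p_mem) g ∈ Algebra.adjoin ℤ_[p] (pk_heckeSet N S D.Tl) := by
  have h := twe_dt_closed
    (Subalgebra.toSubmodule (Algebra.adjoin ℤ_[p] (pk_heckeSet N S D.Tl)))
    (ur_w D.ρ (cya_eps p ℤ_[p] ur_p_mem) g) (fun m => ?_)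
  · exact h
  · obtain ⟨c, hc⟩ := twe_dt_w_approx D hpS hNS g m
    refine ⟨(c : Module.End ℤ_[p] D.Tp), c.2, ?_⟩
    have h1 := ur_ar_small_mem _ _ hc.neg
    rwa [neg_sub] at h1

/-- the Hecke-valued trace at a Frobenius element is the Hecke operator. -/
theorem twe_dt_w_frob (D : pk_Tate p N S) (hpS : p ∈ S) {ℓ : ℕ} (hℓ : pk_Good N S ℓ)
    (A : ValuationSubring Qbar) (hA : A.LiesOverPrime ℓ) (φ : GQ) (hφ : A.IsFrobeniusAt φ ℓ) :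
    ur_w D.ρ (cya_eps p ℤ_[p] ur_p_mem) φ = D.Tl ℓ := by
  have hℓp : ℓ ≠ p := fun h => hℓ.2.2 (h ▸ Finset.mem_coe.mpr hpS)
  have h1 := ur_w_frob_pow D.ρ (cya_eps p ℤ_[p] ur_p_mem) φ (D.Tl ℓ) (ℓ : ℤ_[p])
    (cya_eps_frob p ℤ_[p] ur_p_mem hℓ.1 hℓp A hA φ hφ) (D.frob ℓ hℓ A hA φ hφ) 1
  rw [pow_one] at h1
  rw [h1]
  rfl

/-- the Cayley–Hamilton relation with the Hecke-valued trace (a tautology). -/
theorem twe_dt_w_CH {O : Type*} [CommRing O] {M : Type*} [AddCommGroup M] [Module O M]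
    {G : Type*} [Group G] (ρ : G →* Module.End O M) (ε : G →* O) (g : G) :
    ρ g * ρ g - ur_w ρ ε g * ρ g + ε g • (1 : Module.End O M) = 0 := by
  have h1 : ρ g⁻¹ * ρ g = 1 := by rw [← map_mul, inv_mul_cancel, map_one]
  unfold ur_w
  rw [add_mul, smul_mul_assoc, h1]
  abel

end tate

end Fermat.Agent.TW
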