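/-
Project ONE MACHINE (S43), block [E], cell E/IndepS (helper6; referee flag (G2) of helper12):
**the Hecke algebra on the Tate module does not depend on the finite exceptional set `S`.**

`tjp_tate N p S …` has the same Tate module `tj_T N p` and the same Galois action `tj_rho N p` for
every `S`, and `tjp_Tl N p S ℓ = tj_hecke N p ℓ` at the primes good for `S`.  For `S ⊆ S'` the
Hecke-valued trace `ur_w ρ ε Frob_t` is `T_t` for `t` good for `S` (`twe_dt_w_frob`) and lies in the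
Hecke algebra AWAY from `S'` for every Galois element (`twe_dt_w_mem`), hence
`T_t ∈ ℤ_p[T_ℓ : ℓ good for S']` and the two Hecke algebras coincide (`twe_is_adjoin_eq`).

Namespace `Fermat.Agent.TW`, prefix `twe_is_`.
-/
import Mathlib
import Fermat.Agent.JT3.Tate.Package
import Fermat.Agent.JT3.Tate.Inputs
import Fermat.Agent.S54.Frobenius
import Fermat.Agent.TW.Aut.DatumW
import Fermat.Agent.JT3.Gateway.HomologyFree
import Fermat.Agent.TW.Aut.CarLocal

set_option autoImplicit false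
set_option linter.style.haveILetI false
set_option linter.unusedSectionVars false

namespace Fermat.Agent.TW

open IsLocalRing Fermat.Agent.JT3

local notation "GQ" => (AlgebraicClosure ℚ ≃ₐ[ℚ] AlgebraicClosure ℚ)
local notation "Qbar" => AlgebraicClosure ℚ

variable (N p : ℕ) [NeZero N] [Fact p.Prime]

/-- goodness for the bigger set implies goodness for the smaller one -/
theorem twe_is_good_mono {S S' : Finset ℕ} (hSS' : S ⊆ S') {ℓ : ℕ} (h : pk_Good N S' ℓ) :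
    pk_Good N S ℓ :=
  ⟨h.1, h.2.1, fun hm => h.2.2 (Finset.mem_coe.mpr (hSS' (Finset.mem_coe.mp hm)))⟩

/-- the Hecke operators of the two packages agree at the primes good for the bigger set -/
theorem twe_is_Tl_eq {S S' : Finset ℕ} (hSS' : S ⊆ S') {ℓ : ℕ} (h : pk_Good N S' ℓ) :
    tjp_Tl N p S' ℓ = tjp_Tl N p S ℓ := by
  rw [tjp_Tl_good N p S' h, tjp_Tl_good N p S (twe_is_good_mono N hSS' h)]

theorem twe_is_heckeSet_subset {S S' : Finset ℕ} (hSS' : S ⊆ S') :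
    pk_heckeSet N S' (tjp_Tl N p S') ⊆ pk_heckeSet N S (tjp_Tl N p S) := by
  rintro T ⟨ℓ, hℓ, rfl⟩
  exact ⟨ℓ, twe_is_good_mono N hSS' hℓ, twe_is_Tl_eq N p hSS' hℓ⟩

theorem twe_is_adjoin_le {S S' : Finset ℕ} (hSS' : S ⊆ S') :
    Algebra.adjoin ℤ_[p] (pk_heckeSet N S' (tjp_Tl N p S')) ≤
      Algebra.adjoin ℤ_[p] (pk_heckeSet N S (tjp_Tl N p S)) :=
  Algebra.adjoin_mono (twe_is_heckeSet_subset N p hSS')

/-- **E/IndepS, ring form**: for `t` good for `S`, the operator `T_t` lies in the Hecke algebra away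
from ANY bigger finite set `S'` (`p ∈ S'`, the primes of `N` in `S'`). -/
theorem twe_is_Tl_mem {S S' : Finset ℕ} (hpS : p ∈ S) (hpS' : p ∈ S')
    (hNS' : ∀ q : ℕ, q.Prime → q ∣ N → q ∈ S') {t : ℕ} (ht : pk_Good N S t) :
    tjp_Tl N p S t ∈ Algebra.adjoin ℤ_[p] (pk_heckeSet N S' (tjp_Tl N p S')) := by
  obtain ⟨A, φ, hA, hφ⟩ := Fermat.Agent.S54.exists_isFrobeniusAt ht.1
  have h1 := twe_dt_w_frob (tjp_tate N p S hpS (tji_nodeE N) (tji_S18 N)) hpS ht A hA φ hφ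
  have h2 := twe_dt_w_mem (tjp_tate N p S' hpS' (tji_nodeE N) (tji_S18 N)) hpS' hNS' φ
  have h3 : tjp_Tl N p S t = ur_w (tj_rho N p) (cya_eps p ℤ_[p] ur_p_mem) φ := h1.symm
  rw [h3]
  exact h2

/-- **the Hecke algebra on `T_p J₀(N)` is independent of `S`.** -/
theorem twe_is_adjoin_eq {S S' : Finset ℕ} (hSS' : S ⊆ S') (hpS : p ∈ S)
    (hNS : ∀ q : ℕ, q.Prime → q ∣ N → q ∈ S) :
    Algebra.adjoin ℤ_[p] (pk_heckeSet N S' (tjp_Tl N p S')) =
      Algebra.adjoin ℤ_[p] (pk_heckeSet N S (tjp_Tl N p S)) := by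
  refine le_antisymm (twe_is_adjoin_le N p hSS') (Algebra.adjoin_le ?_)
  rintro T ⟨t, ht, rfl⟩
  exact twe_is_Tl_mem N p hpS (hSS' hpS) (fun q hq hqN => hSS' (hNS q hq hqN)) ht

/-! ### transfer of the equality along algebra maps (base change, lattice) -/

/-- **generic transfer**: `R₀[s] ≤ R₀[s']` in `E` implies `A[f(s)] ≤ A[f(s')]` in `E'`, for an
`R₀`-algebra map `f : E → E'` into an `A`-algebra. -/
theorem twe_is_adjoin_image_le {R₀ A E E' : Type*} [CommSemiring R₀] [CommSemiring A]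
    [Algebra R₀ A] [Semiring E] [Algebra R₀ E] [Semiring E'] [Algebra R₀ E'] [Algebra A E']
    [IsScalarTower R₀ A E']
    (f : E →ₐ[R₀] E') {s s' : Set E} (h : Algebra.adjoin R₀ s ≤ Algebra.adjoin R₀ s') :
    Algebra.adjoin A (f '' s) ≤ Algebra.adjoin A (f '' s') := by
  have h3 : Algebra.adjoin R₀ (f '' s') ≤ (Algebra.adjoin A (f '' s')).restrictScalars R₀ :=
    Algebra.adjoin_le (fun y hy => Algebra.subset_adjoin (R := A) hy)
  refine Algebra.adjoin_le ?_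
  rintro _ ⟨x, hx, rfl⟩
  have h1 : x ∈ Algebra.adjoin R₀ s' := h (Algebra.subset_adjoin hx)
  have h2 : f x ∈ (Algebra.adjoin R₀ s').map f := ⟨x, h1, rfl⟩
  rw [AlgHom.map_adjoin] at h2
  have h4 : f x ∈ (Algebra.adjoin A (f '' s')).restrictScalars R₀ := h3 h2
  exact h4

theorem twe_is_adjoin_image_eq {R₀ A E E' : Type*} [CommSemiring R₀] [CommSemiring A]
    [Algebra R₀ A] [Semiring E] [Algebra R₀ E] [Semiring E'] [Algebra R₀ E'] [Algebra A E']
    [IsScalarTower R₀ A E']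
    (f : E →ₐ[R₀] E') {s s' : Set E} (h : Algebra.adjoin R₀ s = Algebra.adjoin R₀ s') :
    Algebra.adjoin A (f '' s) = Algebra.adjoin A (f '' s') :=
  le_antisymm (twe_is_adjoin_image_le f h.le) (twe_is_adjoin_image_le f h.ge)

section baseChange

variable (𝒪 : Type*) [CommRing 𝒪] [Algebra ℤ_[p] 𝒪]

/-- **E/IndepS over `𝒪`** (on `𝒪 ⊗ T_p`): the `𝒪`-algebras generated by the base-changed Hecke
operators away from `S` and away from `S'` coincide. -/
theorem twe_is_adjoin_baseChange_eq {S S' : Finset ℕ} (hSS' : S ⊆ S') (hpS : p ∈ S)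
    (hNS : ∀ q : ℕ, q.Prime → q ∣ N → q ∈ S) :
    Algebra.adjoin 𝒪 (Module.End.baseChangeHom ℤ_[p] 𝒪 (tj_T N p) ''
        pk_heckeSet N S' (tjp_Tl N p S')) =
      Algebra.adjoin 𝒪 (Module.End.baseChangeHom ℤ_[p] 𝒪 (tj_T N p) ''
        pk_heckeSet N S (tjp_Tl N p S)) :=
  twe_is_adjoin_image_eq _ (twe_is_adjoin_eq N p hSS' hpS hNS)

/-- the base change of `T_t` (`t` good for `S`) lies in the `𝒪`-Hecke algebra away from `S'`. -/
theorem twe_is_Tl_baseChange_mem {S S' : Finset ℕ} (hpS : p ∈ S) (hpS' : p ∈ S')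
    (hNS' : ∀ q : ℕ, q.Prime → q ∣ N → q ∈ S') {t : ℕ} (ht : pk_Good N S t) :
    (tjp_Tl N p S t).baseChange 𝒪 ∈
      Algebra.adjoin 𝒪 (Module.End.baseChangeHom ℤ_[p] 𝒪 (tj_T N p) ''
        pk_heckeSet N S' (tjp_Tl N p S')) := by
  have h := twe_is_adjoin_image_le (A := 𝒪) (Module.End.baseChangeHom ℤ_[p] 𝒪 (tj_T N p))
    (s := {tjp_Tl N p S t}) (s' := pk_heckeSet N S' (tjp_Tl N p S'))
    (Algebra.adjoin_le (by
      rintro _ rfl
      exact twe_is_Tl_mem N p hpS hpS' hNS' ht))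
  exact h (Algebra.subset_adjoin ⟨_, rfl, rfl⟩)

end baseChange

/-! ### the lattice side: `Hom(gh_H N, ℤ_p)` -/

/-- precomposition with an endomorphism of the homology, as an `A`-linear endomorphism of
`Hom(gh_H N, A)` -/
def twe_is_pre (A : Type*) [CommRing A] (F : Module.End ℤ (gh_H N)) :
    Module.End A (gh_H N →+ A) where
  toFun ψ := ψ.comp F.toAddMonoidHom
  map_add' _ _ := rfl
  map_smul' _ _ := rfl

@[simp] theorem twe_is_pre_apply (A : Type*) [CommRing A] (F : Module.End ℤ (gh_H N))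
    (ψ : gh_H N →+ A) : twe_is_pre N A F ψ = ψ.comp F.toAddMonoidHom := rfl

/-- the Hecke set on the lattice side -/
def twe_is_latSet (A : Type*) [CommRing A] (S : Finset ℕ) : Set (Module.End A (gh_H N →+ A)) :=
  {T | ∃ ℓ, pk_Good N S ℓ ∧ T = twe_is_pre N A (t2f_TH N ℓ)}

/-- conjugation by the lattice isomorphism turns `tjp_Tl` into precomposition with `t2f_TH`. -/
theorem twe_is_conj_Tl {S : Finset ℕ} {ℓ : ℕ} (h : pk_Good N S ℓ) :
    (tjp_lattice N p).conjAlgEquiv ℤ_[p] (tjp_Tl N p S ℓ) = twe_is_pre N ℤ_[p] (t2f_TH N ℓ) := by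
  refine LinearMap.ext fun ψ => ?_
  rw [LinearEquiv.conjAlgEquiv_apply_apply]
  have h1 := tjp_he N p S ℓ h ((tjp_lattice N p).symm ψ)
  rw [LinearEquiv.apply_symm_apply] at h1
  exact h1

theorem twe_is_conj_image (S : Finset ℕ) :
    ((tjp_lattice N p).conjAlgEquiv ℤ_[p] : Module.End ℤ_[p] (tj_T N p) →ₐ[ℤ_[p]] _) ''
      pk_heckeSet N S (tjp_Tl N p S) = twe_is_latSet N ℤ_[p] S := by
  ext T
  constructor
  · rintro ⟨_, ⟨ℓ, hℓ, rfl⟩, rfl⟩
    exact ⟨ℓ, hℓ, twe_is_conj_Tl N p hℓ⟩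
  · rintro ⟨ℓ, hℓ, rfl⟩
    exact ⟨tjp_Tl N p S ℓ, ⟨ℓ, hℓ, rfl⟩, twe_is_conj_Tl N p hℓ⟩

/-- **E/IndepS on the lattice `Hom(gh_H N, ℤ_p)`**: the Hecke algebras away from `S` and away
from `S'` coincide. -/
theorem twe_is_lattice_eq {S S' : Finset ℕ} (hSS' : S ⊆ S') (hpS : p ∈ S)
    (hNS : ∀ q : ℕ, q.Prime → q ∣ N → q ∈ S) :
    Algebra.adjoin ℤ_[p] (twe_is_latSet N ℤ_[p] S') =
      Algebra.adjoin ℤ_[p] (twe_is_latSet N ℤ_[p] S) := by
  rw [← twe_is_conj_image N p S', ← twe_is_conj_image N p S]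
  exact twe_is_adjoin_image_eq _ (twe_is_adjoin_eq N p hSS' hpS hNS)

/-- `ψ ↦ ψ ∘ T_t` (`t` good for `S`) lies in the `ℤ_p`-algebra generated by the `ψ ↦ ψ ∘ T_ℓ`,
`ℓ` good for `S'`. -/
theorem twe_is_lattice_mem {S S' : Finset ℕ} (hSS' : S ⊆ S') (hpS : p ∈ S)
    (hNS : ∀ q : ℕ, q.Prime → q ∣ N → q ∈ S) {t : ℕ} (ht : pk_Good N S t) :
    twe_is_pre N ℤ_[p] (t2f_TH N t) ∈ Algebra.adjoin ℤ_[p] (twe_is_latSet N ℤ_[p] S') := by
  rw [twe_is_lattice_eq N p hSS' hpS hNS]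
  exact Algebra.subset_adjoin ⟨t, ht, rfl⟩

/-! ### arbitrary coefficients: `Hom(gh_H N, 𝒪)` for a `ℤ_p`-algebra `𝒪` -/

section coeff

open Module

/-- a `ℤ`-basis of the homology -/
noncomputable def twe_is_bH :
    Basis (Fin (2 * finrank ℂ (CuspForm (CongruenceSubgroup.Gamma0 N) 2))) ℤ (gh_H N) :=
  Basis.ofEquivFun (ghf_basisEquiv N).toIntLinearEquiv

local notation "II" => Fin (2 * finrank ℂ (CuspForm (CongruenceSubgroup.Gamma0 N) 2))

/-- coordinates on `Hom(gh_H N, A)`: `ψ ↦ (ψ (b i))ᵢ` -/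
noncomputable def twe_is_coord (A : Type*) [CommRing A] : (gh_H N →+ A) ≃ₗ[A] (II → A) :=
  (addMonoidHomLequivInt A).trans ((twe_is_bH N).constr A).symm

theorem twe_is_coord_apply (A : Type*) [CommRing A] (ψ : gh_H N →+ A) (i : II) :
    twe_is_coord N A ψ i = ψ (twe_is_bH N i) := rfl

theorem twe_is_coord_symm_apply (A : Type*) [CommRing A] (v : II → A) (x : gh_H N) :
    (twe_is_coord N A).symm v x = ∑ i, (twe_is_bH N).repr x i • v i := by
  show ((twe_is_bH N).constr A v) x = _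
  rw [Basis.constr_apply_fintype]
  rfl

/-- the induced `A`-basis of `Hom(gh_H N, A)` -/
noncomputable def twe_is_bA (A : Type*) [CommRing A] : Basis II A (gh_H N →+ A) :=
  Basis.ofEquivFun (twe_is_coord N A)

/-- the integer matrix of an endomorphism of the homology (transposed) -/
noncomputable def twe_is_Mz (F : Module.End ℤ (gh_H N)) : Matrix II II ℤ :=
  fun i j => (twe_is_bH N).repr (F (twe_is_bH N i)) j

theorem twe_is_toMatrix_pre (A : Type*) [CommRing A] (F : Module.End ℤ (gh_H N)) :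
    LinearMap.toMatrix (twe_is_bA N A) (twe_is_bA N A) (twe_is_pre N A F) =
      (twe_is_Mz N F).map (Int.cast : ℤ → A) := by
  ext i j
  rw [LinearMap.toMatrix_apply, Matrix.map_apply]
  show twe_is_coord N A (twe_is_pre N A F (twe_is_bA N A j)) i = _
  rw [twe_is_coord_apply, twe_is_pre_apply]
  show (twe_is_bA N A j) (F (twe_is_bH N i)) = _
  have h1 : twe_is_bA N A j = (twe_is_coord N A).symm (Pi.single j 1) := by
    rw [twe_is_bA, Basis.coe_ofEquivFun]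
  rw [h1, twe_is_coord_symm_apply, Finset.sum_eq_single j]
  · rw [Pi.single_eq_same, zsmul_eq_mul, mul_one]
    rfl
  · intro k _ hk
    rw [Pi.single_eq_of_ne hk, smul_zero]
  · intro hj
    exact absurd (Finset.mem_univ j) hj

variable (𝒪 : Type*) [CommRing 𝒪] [Algebra ℤ_[p] 𝒪]

/-- every element of the `ℤ_p`-Hecke algebra on `Hom(gh_H N, ℤ_p)` has a base change in the
`𝒪`-Hecke algebra on `Hom(gh_H N, 𝒪)` (same matrix). -/
theorem twe_is_coeff_lift (S' : Finset ℕ) {T : Module.End ℤ_[p] (gh_H N →+ ℤ_[p])}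
    (hT : T ∈ Algebra.adjoin ℤ_[p] (twe_is_latSet N ℤ_[p] S')) :
    ∃ T' ∈ Algebra.adjoin 𝒪 (twe_is_latSet N 𝒪 S'),
      LinearMap.toMatrix (twe_is_bA N 𝒪) (twe_is_bA N 𝒪) T' =
        (LinearMap.toMatrix (twe_is_bA N ℤ_[p]) (twe_is_bA N ℤ_[p]) T).map
          (algebraMap ℤ_[p] 𝒪) := by
  induction hT using Algebra.adjoin_induction with
  | mem x hx =>
    obtain ⟨ℓ, hℓ, rfl⟩ := hx
    refine ⟨twe_is_pre N 𝒪 (t2f_TH N ℓ), Algebra.subset_adjoin ⟨ℓ, hℓ, rfl⟩, ?_⟩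
    rw [twe_is_toMatrix_pre, twe_is_toMatrix_pre, Matrix.map_map]
    congr 1
    funext n
    exact (map_intCast (algebraMap ℤ_[p] 𝒪) n).symm
  | algebraMap r =>
    refine ⟨algebraMap 𝒪 _ (algebraMap ℤ_[p] 𝒪 r), Subalgebra.algebraMap_mem _ _, ?_⟩
    rw [LinearMap.toMatrix_algebraMap, LinearMap.toMatrix_algebraMap]
    ext i j
    rw [Matrix.map_apply, Matrix.scalar_apply, Matrix.scalar_apply, Matrix.diagonal_apply,
      Matrix.diagonal_apply]
    split_ifs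
    · rfl
    · exact (map_zero _).symm
  | add x y hx hy hx' hy' =>
    obtain ⟨x', hx1, hx2⟩ := hx'
    obtain ⟨y', hy1, hy2⟩ := hy'
    refine ⟨x' + y', add_mem hx1 hy1, ?_⟩
    rw [map_add, map_add, hx2, hy2,
      Matrix.map_add (algebraMap ℤ_[p] 𝒪) (fun a b => map_add (algebraMap ℤ_[p] 𝒪) a b)]
  | mul x y hx hy hx' hy' =>
    obtain ⟨x', hx1, hx2⟩ := hx'
    obtain ⟨y', hy1, hy2⟩ := hy'
    refine ⟨x' * y', mul_mem hx1 hy1, ?_⟩
    rw [LinearMap.toMatrix_mul, LinearMap.toMatrix_mul, hx2, hy2, Matrix.map_mul]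

/-- **E/IndepS with coefficients in any `ℤ_p`-algebra `𝒪`**: `ψ ↦ ψ ∘ T_t` (`t` good for `S`) lies
in the `𝒪`-algebra generated by the `ψ ↦ ψ ∘ T_ℓ`, `ℓ` good for `S'`, inside
`End_𝒪 (Hom(gh_H N, 𝒪))`. -/
theorem twe_is_coeff_mem {S S' : Finset ℕ} (hSS' : S ⊆ S') (hpS : p ∈ S)
    (hNS : ∀ q : ℕ, q.Prime → q ∣ N → q ∈ S) {t : ℕ} (ht : pk_Good N S t) :
    twe_is_pre N 𝒪 (t2f_TH N t) ∈ Algebra.adjoin 𝒪 (twe_is_latSet N 𝒪 S') := by
  obtain ⟨T', hT', hmat⟩ := twe_is_coeff_lift N p 𝒪 S' (twe_is_lattice_mem N p hSS' hpS hNS ht)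
  have h1 : T' = twe_is_pre N 𝒪 (t2f_TH N t) := by
    apply (LinearMap.toMatrix (twe_is_bA N 𝒪) (twe_is_bA N 𝒪)).injective
    rw [hmat, twe_is_toMatrix_pre, twe_is_toMatrix_pre, Matrix.map_map]
    congr 1
    funext n
    exact map_intCast (algebraMap ℤ_[p] 𝒪) n
  rw [← h1]
  exact hT'

theorem twe_is_latSet_subset (A : Type*) [CommRing A] {S S' : Finset ℕ} (hSS' : S ⊆ S') :
    twe_is_latSet N A S' ⊆ twe_is_latSet N A S := by
  rintro T ⟨ℓ, hℓ, rfl⟩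
  exact ⟨ℓ, twe_is_good_mono N hSS' hℓ, rfl⟩

/-- **the `𝒪`-Hecke algebra on `Hom(gh_H N, 𝒪)` is independent of `S`.** -/
theorem twe_is_coeff_eq {S S' : Finset ℕ} (hSS' : S ⊆ S') (hpS : p ∈ S)
    (hNS : ∀ q : ℕ, q.Prime → q ∣ N → q ∈ S) :
    Algebra.adjoin 𝒪 (twe_is_latSet N 𝒪 S') = Algebra.adjoin 𝒪 (twe_is_latSet N 𝒪 S) := by
  refine le_antisymm (Algebra.adjoin_mono (twe_is_latSet_subset N 𝒪 hSS')) (Algebra.adjoin_le ?_)
  rintro T ⟨t, ht, rfl⟩
  exact twe_is_coeff_mem N p 𝒪 hSS' hpS hNS ht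

end coeff

/-! ### uniqueness of the localising idempotent (so that `e_{S ∪ Q} = e_S`) -/

/-- **uniqueness of the idempotent of `twe_la_exists_idem`**: in a finite algebra `B` over a local
ring `𝒪`, two idempotents `e, e'` with `θ e = θ e' = 1` such that `e b`, `e' b` are nilpotent modulo
`𝔪 B` for every `b ∈ ker θ` are equal. -/
theorem twe_is_idem_unique {𝒪 B κ F : Type*} [CommRing 𝒪] [IsLocalRing 𝒪] [CommRing B]
    [Algebra 𝒪 B] [Module.Finite 𝒪 B] [Ring κ] [FunLike F B κ] [RingHomClass F B κ] (θB : F)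
    {e e' : B} (he : IsIdempotentElem e) (he' : IsIdempotentElem e') (h1 : θB e = 1)
    (h1' : θB e' = 1)
    (hnil : ∀ b, θB b = 0 → ∃ n, 0 < n ∧
      (e * b) ^ n ∈ (IsLocalRing.maximalIdeal 𝒪).map (algebraMap 𝒪 B))
    (hnil' : ∀ b, θB b = 0 → ∃ n, 0 < n ∧
      (e' * b) ^ n ∈ (IsLocalRing.maximalIdeal 𝒪).map (algebraMap 𝒪 B)) : e = e' := by
  have key : ∀ {a a' : B}, IsIdempotentElem a → IsIdempotentElem a' → θB a' = 1 →
      (∀ b, θB b = 0 → ∃ n, 0 < n ∧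
        (a * b) ^ n ∈ (IsLocalRing.maximalIdeal 𝒪).map (algebraMap 𝒪 B)) → a = a * a' := by
    intro a a' ha ha' h1a' hn
    have hθ : θB (1 - a') = 0 := by rw [map_sub, map_one, h1a', sub_self]
    obtain ⟨n, hn0, hmem⟩ := hn (1 - a') hθ
    have hid : IsIdempotentElem (a * (1 - a')) := ha.mul ha'.one_sub
    have hpow : (a * (1 - a')) ^ n = a * (1 - a') := by
      obtain ⟨m, rfl⟩ : ∃ m, n = m + 1 := ⟨n - 1, (Nat.sub_add_cancel hn0).symm⟩
      exact hid.pow_succ_eq m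
    rw [hpow] at hmem
    have hmem' : a * (1 - a') ∈ (IsLocalRing.maximalIdeal 𝒪) • (⊤ : Submodule 𝒪 B) := by
      rw [Ideal.smul_top_eq_map]
      exact hmem
    have h0 := twe_cl_idem_zero hid.eq hmem'
    rw [mul_sub, mul_one, sub_eq_zero] at h0
    exact h0
  have h2 := key he he' h1' hnil
  have h3 := key he' he h1 hnil'
  rw [h2, mul_comm, ← h3]

end Fermat.Agent.TW
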