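import Mathlib
import Fermat.Agent.TW.Aut.SeamsLG2
import Fermat.Agent.TW.Aut.ActTransfer
import Fermat.Agent.TW.Aut.IndepS
import Fermat.Agent.TW.Aut.WLin

/-!
# Project ONE MACHINE, block [E] AUT: vocabulary + cell statements of the E/Seam assembly (helper3)

Namespace `Fermat.Agent.TW`, prefix `twe_sm_`.  DEFINITIONS and `Prop`s only.

* `twe_sm_TX 𝒪 N' q`   : the operators `ψ ↦ ψ ∘ T_{q i}` on `Hom(gh_H N', 𝒪)`, for ANY index family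
                         `q : I → ℕ` (the same index type at every level);
* `twe_sm_Frame M H q` : a choice of `s i ∈ Γ₀(M)` with `d(s i)² ≡ q i mod H` (the normalisation of
                         the fixed-determinant operators `T'_{q i}` on `W(Γ_H)`);
* `twe_sm_TY 𝒪 F`      : the operators `T'_{q i}` on `W(Γ_H, 𝒪) = twe_wl_V 𝒪 𝒪 (twe_GamH M H)`;
* `twe_Base.IsFull`    : the module `M_∅` of a base package is the WHOLE `θ`-primary part of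
                         `Hom(gh_H N, 𝒪)`;
* the cell statements `twe_M1F_stmt`, `twe_sm_PrimIndep_stmt`, `twe_sm_Hom_stmt`,
  `twe_sm_Rel_stmt`, `twe_sm_OldIter_stmt`.
-/

set_option autoImplicit false
set_option linter.unusedSectionVars false

namespace Fermat.Agent.TW

open Polynomial CuspForm IsLocalRing Fermat.Agent.JT3 CongruenceSubgroup
open scoped TensorProduct

noncomputable section

/-- the Hecke operators `ψ ↦ ψ ∘ T_{q i}` on `Hom(gh_H N', 𝒪)`, indexed by any family `q`. -/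
def twe_sm_TX (𝒪 : Type*) [CommRing 𝒪] (N' : ℕ) {I : Type*} (q : I → ℕ) :
    I → Module.End 𝒪 (gh_H N' →+ 𝒪) :=
  fun i => twe_is_pre N' 𝒪 (t2f_TH N' (q i))

theorem twe_sm_TX_apply (𝒪 : Type*) [CommRing 𝒪] (N' : ℕ) {I : Type*} (q : I → ℕ) (i : I)
    (ψ : gh_H N' →+ 𝒪) :
    twe_sm_TX 𝒪 N' q i ψ = ψ.comp (t2f_TH N' (q i)).toAddMonoidHom := rfl

/-- a Hecke frame at `(M, H)`: primes `q i ∤ M` with square roots `d(s i)² ≡ q i mod H`. -/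
structure twe_sm_Frame (M : ℕ) (H : Subgroup (ZMod M)ˣ) {I : Type*} (q : I → ℕ) where
  hq : ∀ i, Fact (q i).Prime
  hM : ∀ i, ¬ q i ∣ M
  s : I → Gamma0 M
  hs : ∀ i, twe_dUnit M (s i) * twe_dUnit M (s i) * (@twe_hk_lU M (q i) (hq i) (hM i))⁻¹ ∈ H

/-- the fixed-determinant Hecke operators `T'_{q i}` on `W(Γ_H, 𝒪)`. -/
def twe_sm_TY (𝒪 : Type*) [CommRing 𝒪] {M : ℕ} {H : Subgroup (ZMod M)ˣ} {I : Type*} {q : I → ℕ}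
    (F : twe_sm_Frame M H q) : I → Module.End 𝒪 ↥(twe_wl_V 𝒪 𝒪 (twe_GamH M H)) :=
  fun i => @twe_wl_T 𝒪 _ 𝒪 _ _ M (q i) (F.hq i) (F.hM i) H (F.s i) (F.hs i)

/-- the good primes of `(N', S')`, as an index family. -/
abbrev twe_sm_Idx (N' : ℕ) (S' : Finset ℕ) : Type := {ℓ : ℕ // pk_Good N' S' ℓ}

/-- the tautological index family of the good primes. -/
abbrev twe_sm_q (N' : ℕ) (S' : Finset ℕ) : twe_sm_Idx N' S' → ℕ := fun ℓ => ℓ.1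

section full

variable {𝒪 : Type} [CommRing 𝒪] [IsDomain 𝒪] [IsDiscreteValuationRing 𝒪]
  [IsAdicComplete (maximalIdeal 𝒪) 𝒪]
  {N : ℕ} [NeZero N] {S : Finset ℕ} {θ : heckeAlgebra N 2 (↑S : Set ℕ) →+* ResidueField 𝒪}

/-- `a` lifts the eigen-system `θ` at the good primes of `(N, S)`. -/
def twe_sm_IsLift (θ : heckeAlgebra N 2 (↑S : Set ℕ) →+* ResidueField 𝒪)
    (a : twe_sm_Idx N S → 𝒪) : Prop :=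
  ∀ ℓ : twe_sm_Idx N S, residue 𝒪 (a ℓ) = θ (heckeAlgebra.T ℓ.2.1 ℓ.2.2.1 ℓ.2.2.2)

/-- **fullness**: `M_∅ = ι(𝒪^d)` is the whole `θ`-primary part of `Hom(gh_H N, 𝒪)` (for the
operators at the good primes of `(N, S)` and every lift `a` of `θ`). -/
def twe_Base.IsFull (B : twe_Base 𝒪 N S θ) : Prop :=
  ∀ a : twe_sm_Idx N S → 𝒪, twe_sm_IsLift θ a →
    ∀ x ∈ twe_pr_prim (twe_sm_TX 𝒪 N (twe_sm_q N S)) a, x ∈ LinearMap.range B.ι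

end full

/-- **(M1F)** = `twe_M1_stmt` with fullness; needed at EVERY level (`N` arbitrary). -/
def twe_M1F_stmt : Prop :=
  ∀ (p : ℕ) [Fact p.Prime], 5 ≤ p →
  ∀ (𝒪 : Type) [CommRing 𝒪] [IsDomain 𝒪] [IsDiscreteValuationRing 𝒪]
    [IsAdicComplete (maximalIdeal 𝒪) 𝒪] [Finite (ResidueField 𝒪)] [CharZero 𝒪],
    (p : 𝒪) ∈ maximalIdeal 𝒪 →
  ∀ (N : ℕ) [NeZero N], ¬ p ∣ N →
  ∀ (S : Finset ℕ), p ∈ S → (∀ ℓ : ℕ, ℓ.Prime → ℓ ∣ N → ℓ ∈ S) →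
  ∀ (θ : heckeAlgebra N 2 (↑S : Set ℕ) →+* ResidueField 𝒪)
    (ρbar : ResidualGaloisRep (ResidueField 𝒪)),
    twt_Compat θ ρbar → ρbar.IsAbsolutelyIrreducible →
    ∃ B : twe_Base 𝒪 N S θ, B.IsFull

/-- **(PrimIndep)** (flag (G2), module form): on `Hom(gh_H N, 𝒪)` the `θ`-primary part for the
operators outside a bigger finite set `S' ⊇ S` is already `θ`-primary for ALL the good operators
of `(N, S)`. -/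
def twe_sm_PrimIndep_stmt : Prop :=
  ∀ (p : ℕ) [Fact p.Prime], 5 ≤ p →
  ∀ (𝒪 : Type) [CommRing 𝒪] [IsDomain 𝒪] [IsDiscreteValuationRing 𝒪]
    [IsAdicComplete (maximalIdeal 𝒪) 𝒪] [Finite (ResidueField 𝒪)] [CharZero 𝒪],
    (p : 𝒪) ∈ maximalIdeal 𝒪 →
  ∀ (N : ℕ) [NeZero N], ¬ p ∣ N →
  ∀ (S : Finset ℕ), p ∈ S → (∀ ℓ : ℕ, ℓ.Prime → ℓ ∣ N → ℓ ∈ S) →
  ∀ (θ : heckeAlgebra N 2 (↑S : Set ℕ) →+* ResidueField 𝒪)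
    (ρbar : ResidualGaloisRep (ResidueField 𝒪)),
    twt_Compat θ ρbar → ρbar.IsAbsolutelyIrreducible →
  ∀ (S' : Finset ℕ) (hSS' : S ⊆ S') (a : twe_sm_Idx N S → 𝒪), twe_sm_IsLift θ a →
    twe_pr_prim (twe_sm_TX 𝒪 N (twe_sm_q N S'))
        (fun ℓ => a ⟨ℓ.1, ℓ.2.1, ℓ.2.2.1, fun h => ℓ.2.2.2 (Finset.coe_subset.mpr hSS' h)⟩) ≤
      twe_pr_prim (twe_sm_TX 𝒪 N (twe_sm_q N S)) a

/-- **(Hom)**: the Hecke ring of a FULL base package of level `N₁` maps to the Hecke ring of any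
base package of level `N₂ ∣ N₁`, `T_ℓ ↦ T_ℓ`. -/
def twe_sm_Hom_stmt : Prop :=
  ∀ (𝒪 : Type) [CommRing 𝒪] [IsDomain 𝒪] [IsDiscreteValuationRing 𝒪]
    [IsAdicComplete (maximalIdeal 𝒪) 𝒪] [CharZero 𝒪]
    (N₁ N₂ : ℕ) [NeZero N₁] [NeZero N₂] (S₁ S₂ : Finset ℕ)
    (θ₁ : heckeAlgebra N₁ 2 (↑S₁ : Set ℕ) →+* ResidueField 𝒪)
    (θ₂ : heckeAlgebra N₂ 2 (↑S₂ : Set ℕ) →+* ResidueField 𝒪)
    (B₁ : twe_Base 𝒪 N₁ S₁ θ₁) (B₂ : twe_Base 𝒪 N₂ S₂ θ₂),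
    B₁.IsFull → N₂ ∣ N₁ → S₂ ⊆ S₁ → (∀ ℓ : ℕ, ℓ.Prime → ℓ ∣ N₁ → ℓ ∈ S₁) →
    (∀ (ℓ : ℕ) (hℓ : ℓ.Prime) (h1 : ¬ ℓ ∣ N₁) (h2 : ℓ ∉ (↑S₁ : Set ℕ)) (h3 : ¬ ℓ ∣ N₂)
      (h4 : ℓ ∉ (↑S₂ : Set ℕ)), θ₁ (heckeAlgebra.T hℓ h1 h2) = θ₂ (heckeAlgebra.T hℓ h3 h4)) →
    ∃ π : B₁.T →ₐ[𝒪] B₂.T,
      ∀ (ℓ : ℕ) (hℓ : ℓ.Prime) (h1 : ¬ ℓ ∣ N₁) (h2 : ℓ ∉ (↑S₁ : Set ℕ)) (h3 : ¬ ℓ ∣ N₂)
        (h4 : ℓ ∉ (↑S₂ : Set ℕ)),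
        π (B₁.H.π (heckeAlgebra.T hℓ h1 h2)) = B₂.H.π (heckeAlgebra.T hℓ h3 h4)

/-- **(Rel)**: every relation among the Hecke operators of the BALANCED `Γ₀`-level
`A = N₀ ∏_{t ∈ P} t²` on `Hom(gh_H A, 𝒪)` holds among the fixed-determinant operators on
`W(Γ_H, 𝒪)`, `Γ_H ≤ Γ₀(N₀ ∏_{t ∈ P} t)` with `(ℤ/M)ˣ/H` of odd order, `H ⊇ {u ≡ 1 mod t ∀ t ∈ P}`. -/
def twe_sm_Rel_stmt : Prop :=
  ∀ (𝒪 : Type) [CommRing 𝒪] [IsDomain 𝒪] [CharZero 𝒪]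
    (N₀ : ℕ) [NeZero N₀] (P : Finset ℕ) [∀ t : ↥P, Fact (Nat.Prime (t : ℕ))]
    (_ : ∀ t : ↥P, ¬ (t : ℕ) ∣ N₀)
    (M A : ℕ) [NeZero M] [NeZero A] (_ : M = N₀ * ∏ t ∈ P, t)
    (_ : A = N₀ * (∏ t ∈ P, t) * ∏ t ∈ P, t)
    (htM : ∀ t : ↥P, (t : ℕ) ∣ M)
    (H : Subgroup (ZMod M)ˣ)
    (_ : ∀ u : (ZMod M)ˣ, (∀ t : ↥P, ZMod.unitsMap (htM t) u = 1) → u ∈ H)
    (m : ℕ) (_ : Odd m) (_ : ∀ u : (ZMod M)ˣ, u ^ m ∈ H)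
    {I : Type} (q : I → ℕ) (_ : ∀ i, ¬ q i ∣ A) (F : twe_sm_Frame M H q),
    twe_at_Rel (twe_sm_TX 𝒪 A q) (twe_sm_TY 𝒪 F)

/-- **(OldIter)**: the iterated E/Old isomorphism
`Hom(gh_H (N ∏_{t ∈ Q} t), 𝒪)_θ ≅ (Hom(gh_H N, 𝒪)_θ)^{2^{|Q|}}`, Hecke-equivariant (diagonally) for
a family `q` of good primes of `(N, S ∪ Q)` containing all of them. -/
def twe_sm_OldIter_stmt : Prop :=
  ∀ (p : ℕ) [Fact p.Prime], 5 ≤ p →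
  ∀ (𝒪 : Type) [CommRing 𝒪] [IsDomain 𝒪] [IsDiscreteValuationRing 𝒪]
    [IsAdicComplete (maximalIdeal 𝒪) 𝒪] [Finite (ResidueField 𝒪)] [CharZero 𝒪],
    (p : 𝒪) ∈ maximalIdeal 𝒪 →
  ∀ (N : ℕ) [NeZero N], Squarefree N → ¬ p ∣ N →
  ∀ (S : Finset ℕ), p ∈ S → (∀ ℓ : ℕ, ℓ.Prime → ℓ ∣ N → ℓ ∈ S) →
  ∀ (θ : heckeAlgebra N 2 (↑S : Set ℕ) →+* ResidueField 𝒪)
    (ρbar : ResidualGaloisRep (ResidueField 𝒪)),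
    twt_Compat θ ρbar → ρbar.IsAbsolutelyIrreducible →
  ∀ (Q : Finset ℕ), (∀ t ∈ Q, t ∉ S) → twe_IsTWSet θ p Q →
  ∀ {I : Type} (q : I → ℕ) (hq : ∀ i, pk_Good N (S ∪ Q) (q i)),
    (∀ ℓ, pk_Good N (S ∪ Q) ℓ → ∃ i, q i = ℓ) →
  ∀ (a : I → 𝒪),
    (∀ i, residue 𝒪 (a i) = θ (heckeAlgebra.T (hq i).1 (hq i).2.1
      (fun h => (hq i).2.2 (Finset.coe_subset.mpr Finset.subset_union_left h)))) →
  ∀ (M : ℕ) [NeZero M], M = N * ∏ t ∈ Q, t →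
    ∃ c : ↥(twe_pr_prim (twe_sm_TX 𝒪 M q) a) →ₗ[𝒪]
        (Fin (2 ^ Q.card) → ↥(twe_pr_prim (twe_sm_TX 𝒪 N q) a)),
      Function.Bijective c ∧
      ∀ (i : I) (x y : ↥(twe_pr_prim (twe_sm_TX 𝒪 M q) a)),
        (y : gh_H M →+ 𝒪) = twe_sm_TX 𝒪 M q i (x : gh_H M →+ 𝒪) →
        ∀ k, ((c y k : ↥(twe_pr_prim (twe_sm_TX 𝒪 N q) a)) : gh_H N →+ 𝒪) =
          twe_sm_TX 𝒪 N q i ((c x k : ↥(twe_pr_prim (twe_sm_TX 𝒪 N q) a)) : gh_H N →+ 𝒪)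

end

end Fermat.Agent.TW
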