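import Mathlib
import Fermat.Agent.TW.Aut.SeamDefs

/-!
# Project ONE MACHINE, block [E] AUT, cell (C7) E/Bridge (helper18)

The two models of `Hom(H₁(X₀(M)), A)` used in block [E] are the same `R`-module, compatibly with
the Hecke operators:

* `twe_wl_V R A (Gamma0 M)` : the parabolic–elliptic-killing characters of `Γ₀(M)` (`WLin.lean`),
  with `twe_wl_T0` (`= t2c_Tadd`);
* `gh_H M →+ A` : homomorphisms out of `H = Γ₀(M)^ab / (par, ell)`, with precomposition by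
  `t2f_TH M ℓ` (`twe_is_pre`, `twe_sm_TX`).

`twe_br_equiv`, `twe_br_equiv_mk`, `twe_br_T0`, `twe_br_T0'` (operator form), `twe_br_TX`
(against `twe_sm_TX`), `twe_br_prim_iff` (primary parts correspond).
-/

set_option autoImplicit false

noncomputable section

open CongruenceSubgroup Matrix.SpecialLinearGroup ModularGroup
open scoped MatrixGroups

namespace Fermat.Agent.TW

open Fermat.Agent.JT3 Fermat.Agent.LR IsLocalRing

section equiv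

variable (R : Type*) [CommRing R] (A : Type*) [AddCommGroup A] [Module R A] (M : ℕ)

/-- **the bridge** `W(Γ₀(M), A) ≃ Hom(gh_H M, A)`. -/
def twe_br_equiv : ↥(twe_wl_V R A (Gamma0 M)) ≃ₗ[R] (gh_H M →+ A) where
  toFun x := gh_lift x.1 ((twe_wl_PE_iff_parEll x.1).1 x.2)
  invFun ψ := ⟨ψ.comp (gh_mk M), (twe_wl_PE_iff_parEll _).2 (gh_comp_mk_parEll ψ)⟩
  map_add' x y := gh_hom_ext fun γ => by
    rw [AddMonoidHom.add_apply, gh_lift_mk, gh_lift_mk, gh_lift_mk]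
    rfl
  map_smul' a x := gh_hom_ext fun γ => by
    rw [RingHom.id_apply, AddMonoidHom.smul_apply, gh_lift_mk, gh_lift_mk]
    rfl
  left_inv x := Subtype.ext (AddMonoidHom.ext fun γ =>
    gh_lift_mk x.1 ((twe_wl_PE_iff_parEll x.1).1 x.2) γ)
  right_inv ψ := gh_hom_ext fun γ => gh_lift_mk _ _ γ

variable {R A M}

@[simp] theorem twe_br_equiv_mk (x : ↥(twe_wl_V R A (Gamma0 M))) (γ : Additive (Gamma0 M)) :
    twe_br_equiv R A M x (gh_mk M γ) = x.1 γ :=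
  gh_lift_mk x.1 ((twe_wl_PE_iff_parEll x.1).1 x.2) γ

theorem twe_br_equiv_symm_coe (ψ : gh_H M →+ A) :
    (((twe_br_equiv R A M).symm ψ : ↥(twe_wl_V R A (Gamma0 M))) : Additive (Gamma0 M) →+ A) =
      ψ.comp (gh_mk M) := by
  have h : (twe_br_equiv R A M).symm ψ =
      ⟨ψ.comp (gh_mk M), (twe_wl_PE_iff_parEll _).2 (gh_comp_mk_parEll ψ)⟩ := by
    rw [LinearEquiv.symm_apply_eq]
    exact gh_hom_ext fun γ => by rw [twe_br_equiv_mk]; rfl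
  rw [h]

theorem twe_br_equiv_comp_mk (x : ↥(twe_wl_V R A (Gamma0 M))) :
    (twe_br_equiv R A M x).comp (gh_mk M) = x.1 :=
  AddMonoidHom.ext fun γ => twe_br_equiv_mk x γ

end equiv

section hecke

variable {R : Type*} [CommRing R] {A : Type*} [AddCommGroup A] [Module R A]
variable {M ℓ : ℕ} [hℓ : Fact ℓ.Prime]

/-- **Hecke compatibility of the bridge**: `T_ℓ` on `W(Γ₀(M), A)` is precomposition with
`t2f_TH M ℓ` on `Hom(gh_H M, A)`. -/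
theorem twe_br_T0 (hℓM : ¬ ℓ ∣ M) (x : ↥(twe_wl_V R A (Gamma0 M))) :
    twe_br_equiv R A M (twe_wl_T0 (R := R) hℓM x) =
      (twe_br_equiv R A M x).comp (t2f_TH M ℓ).toAddMonoidHom := by
  refine gh_hom_ext fun γ => ?_
  rw [twe_br_equiv_mk, twe_wl_T0_coe, AddMonoidHom.comp_apply]
  have h1 : (t2f_TH M ℓ).toAddMonoidHom (gh_mk M γ) = t2e_TH hℓM (gh_mk M γ) := by
    show t2f_TH M ℓ (gh_mk M γ) = _
    unfold t2f_TH
    rw [dif_pos ⟨hℓ.out, hℓM⟩]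
    rfl
  rw [h1]
  have h2 := DFunLike.congr_fun (t2e_comp_TH hℓM (twe_br_equiv R A M x)) γ
  rw [AddMonoidHom.comp_apply, AddMonoidHom.comp_apply, twe_br_equiv_comp_mk] at h2
  exact h2.symm

/-- operator form of `twe_br_T0` (`R = A = 𝒪`): the bridge conjugates `twe_wl_T0` into
`twe_is_pre M 𝒪 (t2f_TH M ℓ)`. -/
theorem twe_br_T0' {𝒪 : Type*} [CommRing 𝒪] (hℓM : ¬ ℓ ∣ M)
    (x : ↥(twe_wl_V 𝒪 𝒪 (Gamma0 M))) :
    twe_br_equiv 𝒪 𝒪 M (twe_wl_T0 (R := 𝒪) hℓM x) =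
      twe_is_pre M 𝒪 (t2f_TH M ℓ) (twe_br_equiv 𝒪 𝒪 M x) := by
  rw [twe_br_T0]
  rfl

theorem twe_br_T0_symm {𝒪 : Type*} [CommRing 𝒪] (hℓM : ¬ ℓ ∣ M) (ψ : gh_H M →+ 𝒪) :
    (twe_br_equiv 𝒪 𝒪 M).symm (twe_is_pre M 𝒪 (t2f_TH M ℓ) ψ) =
      twe_wl_T0 (R := 𝒪) hℓM ((twe_br_equiv 𝒪 𝒪 M).symm ψ) := by
  rw [LinearEquiv.symm_apply_eq, twe_br_T0', LinearEquiv.apply_symm_apply]

end hecke

section family

variable {𝒪 : Type*} [CommRing 𝒪] {M : ℕ} {I : Type*} (q : I → ℕ)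
  (hq : ∀ i, Fact (q i).Prime) (hM : ∀ i, ¬ q i ∣ M)

/-- the family of the `T_{q i}` on `W(Γ₀(M), 𝒪)`. -/
def twe_br_T0fam : I → Module.End 𝒪 ↥(twe_wl_V 𝒪 𝒪 (Gamma0 M)) :=
  fun i => @twe_wl_T0 𝒪 _ 𝒪 _ _ M (q i) (hq i) (hM i)

/-- the bridge intertwines the family `twe_br_T0fam` with `twe_sm_TX`. -/
theorem twe_br_TX (i : I) (x : ↥(twe_wl_V 𝒪 𝒪 (Gamma0 M))) :
    twe_br_equiv 𝒪 𝒪 M (twe_br_T0fam (𝒪 := 𝒪) q hq hM i x) =
      twe_sm_TX 𝒪 M q i (twe_br_equiv 𝒪 𝒪 M x) :=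
  @twe_br_T0' M (q i) (hq i) 𝒪 _ (hM i) x

theorem twe_br_TX_symm (i : I) (ψ : gh_H M →+ 𝒪) :
    (twe_br_equiv 𝒪 𝒪 M).symm (twe_sm_TX 𝒪 M q i ψ) =
      twe_br_T0fam (𝒪 := 𝒪) q hq hM i ((twe_br_equiv 𝒪 𝒪 M).symm ψ) :=
  @twe_br_T0_symm M (q i) (hq i) 𝒪 _ (hM i) ψ

/-- **primary parts correspond** under the bridge. -/
theorem twe_br_prim_iff [IsLocalRing 𝒪] (a : I → 𝒪) (x : ↥(twe_wl_V 𝒪 𝒪 (Gamma0 M))) :
    x ∈ twe_pr_prim (twe_br_T0fam (𝒪 := 𝒪) q hq hM) a ↔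
      twe_br_equiv 𝒪 𝒪 M x ∈ twe_pr_prim (twe_sm_TX 𝒪 M q) a := by
  constructor
  · intro hx
    exact twe_pr_map_prim (twe_br_equiv 𝒪 𝒪 M : _ →ₗ[𝒪] _)
      (twe_br_T0fam (𝒪 := 𝒪) q hq hM) (twe_sm_TX 𝒪 M q)
      (fun i y => twe_br_TX q hq hM i y) a hx
  · intro hx
    have h := twe_pr_map_prim ((twe_br_equiv 𝒪 𝒪 M).symm : _ →ₗ[𝒪] _)
      (twe_sm_TX 𝒪 M q) (twe_br_T0fam (𝒪 := 𝒪) q hq hM)
      (fun i ψ => twe_br_TX_symm q hq hM i ψ) a hx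
    simpa using h

/-- the bridge restricted to the primary parts. -/
def twe_br_primEquiv [IsLocalRing 𝒪] (a : I → 𝒪) :
    ↥(twe_pr_prim (twe_br_T0fam (𝒪 := 𝒪) q hq hM) a) ≃ₗ[𝒪]
      ↥(twe_pr_prim (twe_sm_TX 𝒪 M q) a) :=
  LinearEquiv.ofSubmodules (twe_br_equiv 𝒪 𝒪 M) _ _ (by
    ext ψ
    constructor
    · rintro ⟨x, hx, rfl⟩
      exact (twe_br_prim_iff q hq hM a x).1 hx
    · intro hψ
      refine ⟨(twe_br_equiv 𝒪 𝒪 M).symm ψ, ?_, LinearEquiv.apply_symm_apply _ _⟩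
      rw [SetLike.mem_coe, twe_br_prim_iff q hq hM a, LinearEquiv.apply_symm_apply]
      exact hψ)

@[simp] theorem twe_br_primEquiv_coe [IsLocalRing 𝒪] (a : I → 𝒪)
    (x : ↥(twe_pr_prim (twe_br_T0fam (𝒪 := 𝒪) q hq hM) a)) :
    ((twe_br_primEquiv q hq hM a x : ↥(twe_pr_prim (twe_sm_TX 𝒪 M q) a)) : gh_H M →+ 𝒪) =
      twe_br_equiv 𝒪 𝒪 M x.1 := rfl

end family

section top

variable (R : Type*) [CommRing R] (A : Type*) [AddCommGroup A] [Module R A]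

/-- restriction between two equal subgroups is an isomorphism. -/
def twe_br_resEquiv {Γ Γ' : Subgroup SL(2, ℤ)} (h1 : Γ' ≤ Γ) (h2 : Γ ≤ Γ') :
    ↥(twe_wl_V R A Γ) ≃ₗ[R] ↥(twe_wl_V R A Γ') :=
  LinearEquiv.ofLinear (twe_wl_res h1) (twe_wl_res h2)
    (by
      refine LinearMap.ext fun z => Subtype.ext (AddMonoidHom.ext fun γ => ?_)
      rfl)
    (by
      refine LinearMap.ext fun z => Subtype.ext (AddMonoidHom.ext fun γ => ?_)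
      rfl)

@[simp] theorem twe_br_resEquiv_apply {Γ Γ' : Subgroup SL(2, ℤ)} (h1 : Γ' ≤ Γ) (h2 : Γ ≤ Γ')
    (x : ↥(twe_wl_V R A Γ)) : twe_br_resEquiv R A h1 h2 x = twe_wl_res h1 x := rfl

@[simp] theorem twe_br_resEquiv_symm_apply {Γ Γ' : Subgroup SL(2, ℤ)} (h1 : Γ' ≤ Γ)
    (h2 : Γ ≤ Γ') (z : ↥(twe_wl_V R A Γ')) :
    (twe_br_resEquiv R A h1 h2).symm z = twe_wl_res h2 z := rfl

variable (M : ℕ)

/-- the bridge for `Γ_H`, `H = ⊤` (`= Γ₀(M)`). -/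
def twe_br_topEquiv : ↥(twe_wl_V R A (twe_GamH M ⊤)) ≃ₗ[R] (gh_H M →+ A) :=
  (twe_br_resEquiv R A (twe_GamH_le M ⊤) (twe_GamH_top M).ge).symm.trans (twe_br_equiv R A M)

variable {R A M}

theorem twe_br_topEquiv_res (x : ↥(twe_wl_V R A (Gamma0 M))) :
    twe_br_topEquiv R A M (twe_wl_res (twe_GamH_le M ⊤) x) = twe_br_equiv R A M x := by
  unfold twe_br_topEquiv
  rw [LinearEquiv.trans_apply, ← twe_br_resEquiv_apply R A (twe_GamH_le M ⊤) (twe_GamH_top M).ge,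
    LinearEquiv.symm_apply_apply]

/-- Hecke compatibility of the bridge at `H = ⊤`: `T'_ℓ` (any admissible `s`) is precomposition
with `t2f_TH M ℓ`. -/
theorem twe_br_top_T {ℓ : ℕ} [hℓ : Fact ℓ.Prime] (hℓM : ¬ ℓ ∣ M) (s : Gamma0 M)
    (hs : twe_dUnit M s * twe_dUnit M s * (twe_hk_lU hℓM)⁻¹ ∈ (⊤ : Subgroup (ZMod M)ˣ))
    (z : ↥(twe_wl_V R A (twe_GamH M ⊤))) :
    twe_br_topEquiv R A M (twe_wl_T (R := R) hℓM ⊤ s hs z) =
      (twe_br_topEquiv R A M z).comp (t2f_TH M ℓ).toAddMonoidHom := by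
  obtain ⟨x, rfl⟩ : ∃ x, twe_wl_res (twe_GamH_le M ⊤) x = z :=
    ⟨(twe_br_resEquiv R A (twe_GamH_le M ⊤) (twe_GamH_top M).ge).symm z,
      (twe_br_resEquiv R A (twe_GamH_le M ⊤) (twe_GamH_top M).ge).apply_symm_apply z⟩
  rw [← twe_wl_T_res_top hℓM ⊤ s hs x, twe_br_topEquiv_res, twe_br_topEquiv_res, twe_br_T0]

end top

end Fermat.Agent.TW
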