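/-
ONE MACHINE / block [E] AUT, cell E/Eis part (i) = E/Obs (helper5).
Namespace `Fermat.Agent.TW`, prefix `twe_ob_`.  Mathlib + `TW/Aut/ResCor.lean`.

GROUP LEVEL, no Hecke operators: `Γ' ≤ Γ` subgroups of an arbitrary group, `Γ` normalising `Γ'`
(`hnorm`), `g ∈ Γ`, `ρ i = g ^ i` (`i : Fin m`) a system of left coset representatives (`hbij`),
`g ^ m ∈ Γ'` (i.e. `Γ/Γ'` cyclic of order `m` generated by `g`).

* `twe_ob_conj_mul`, `twe_ob_conj_one`, `twe_ob_conj_pow`, `twe_ob_conj_of_mem` : the conjugation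
  action `twe_rc_conj` is an action, trivial on `Γ'`;
* **`twe_ob_exists_ext`** : a character `z` of `Γ'` with `conj g z = z` and `z (g^m) = m • a`
  extends to a character `x` of `Γ` with `x g = a`  [`x (g^i n) = i • a + z n`];
  `twe_ob_res_pow` : conversely `(x|Γ') (g^m) = m • x g`.  Hence
  `im (res) = {z invariant | z (g^m) ∈ m A}` and the obstruction is `z ↦ z (g^m) ∈ A / m A`;
* `twe_ob_res_eq_zero_iff` : `ker res` = the characters of `Γ` killing `Γ'`;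
* (`𝔾 = SL(2, ℤ)`) `twe_ob_PE_of_res`, **`twe_ob_exists_ext_PE`** : the same for `lrpd_PE`
  characters when the cover is unramified (every `tr² ≤ 4` element of `Γ` lies in `Γ'`,
  cf. `twe_parEll_mem`).
-/
import Mathlib
import Fermat.Agent.TW.Aut.ResCor

set_option autoImplicit false

noncomputable section

namespace Fermat.Agent.TW

open Fermat.Agent.LR

section conjlemmas

variable {𝔾 : Type*} [Group 𝔾] {Γ Γ' : Subgroup 𝔾} {A : Type*} [AddCommGroup A]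
  (hnorm : ∀ g ∈ Γ, ∀ n ∈ Γ', g⁻¹ * n * g ∈ Γ')

theorem twe_ob_conjHom_mul (g h : Γ) (n : Γ') :
    twe_rc_conjHom hnorm (g * h) n = twe_rc_conjHom hnorm h (twe_rc_conjHom hnorm g n) := by
  apply Subtype.ext
  rw [twe_rc_conjHom_coe, twe_rc_conjHom_coe, twe_rc_conjHom_coe, Subgroup.coe_mul, mul_inv_rev]
  simp only [mul_assoc]

theorem twe_ob_conj_mul (g h : Γ) (z : Additive Γ' →+ A) :
    twe_rc_conj hnorm (g * h) z = twe_rc_conj hnorm g (twe_rc_conj hnorm h z) := by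
  refine AddMonoidHom.ext fun n => ?_
  obtain ⟨n, rfl⟩ := Additive.ofMul.surjective n
  rw [twe_rc_conj_apply, twe_rc_conj_apply, twe_rc_conj_apply, twe_ob_conjHom_mul]

theorem twe_ob_conj_one (z : Additive Γ' →+ A) : twe_rc_conj hnorm 1 z = z := by
  refine AddMonoidHom.ext fun n => ?_
  obtain ⟨n, rfl⟩ := Additive.ofMul.surjective n
  rw [twe_rc_conj_apply]
  congr 2
  apply Subtype.ext
  rw [twe_rc_conjHom_coe]
  simp

theorem twe_ob_conj_pow (g : Γ) (z : Additive Γ' →+ A) (hz : twe_rc_conj hnorm g z = z) (j : ℕ) :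
    twe_rc_conj hnorm (g ^ j) z = z := by
  induction j with
  | zero => rw [pow_zero, twe_ob_conj_one]
  | succ j ih => rw [pow_succ, twe_ob_conj_mul, hz, ih]

/-- inner automorphisms of `Γ'` act trivially on its characters. -/
theorem twe_ob_conj_of_mem (hle : Γ' ≤ Γ) (n₀ : Γ') (z : Additive Γ' →+ A) :
    twe_rc_conj hnorm (Subgroup.inclusion hle n₀) z = z := by
  refine AddMonoidHom.ext fun n => ?_
  obtain ⟨n, rfl⟩ := Additive.ofMul.surjective n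
  rw [twe_rc_conj_apply]
  have : twe_rc_conjHom hnorm (Subgroup.inclusion hle n₀) n = n₀⁻¹ * n * n₀ := by
    apply Subtype.ext
    rfl
  rw [this, ofMul_mul, ofMul_mul, ofMul_inv, map_add, map_add, map_neg]
  abel

end conjlemmas

/-! ### Extending an invariant character across a cyclic quotient -/

section ext

variable {𝔾 : Type*} [Group 𝔾] {Γ Γ' : Subgroup 𝔾} {A : Type*} [AddCommGroup A]
  (hle : Γ' ≤ Γ) (hnorm : ∀ g ∈ Γ, ∀ n ∈ Γ', g⁻¹ * n * g ∈ Γ')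
  (g : Γ) (m : ℕ) (hbij : ∀ γ ∈ Γ, ∃! i : Fin m, ((g : 𝔾) ^ (i : ℕ))⁻¹ * γ ∈ Γ')
  (hgm : (g : 𝔾) ^ m ∈ Γ')

include hgm in
theorem twe_ob_pow_mul_mem (t : ℕ) : (g : 𝔾) ^ (m * t) ∈ Γ' := by
  rw [pow_mul]
  exact pow_mem hgm t

/-- the `Γ'`-component of `γ = g^j n` for ANY exponent `j` with `g^{-j} γ ∈ Γ'`. -/
def twe_ob_comp (γ : Γ) (j : ℕ) (h : ((g : 𝔾) ^ j)⁻¹ * (γ : 𝔾) ∈ Γ') : Γ' := ⟨_, h⟩

include hgm in
theorem twe_ob_mod_mem (γ : Γ) (j : ℕ) (h : ((g : 𝔾) ^ j)⁻¹ * (γ : 𝔾) ∈ Γ') :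
    ((g : 𝔾) ^ (j % m))⁻¹ * (γ : 𝔾) ∈ Γ' := by
  have h0 : (g : 𝔾) ^ j = (g : 𝔾) ^ (j % m) * (g : 𝔾) ^ (m * (j / m)) := by
    rw [← pow_add, Nat.mod_add_div]
  have h1 : ((g : 𝔾) ^ (j % m))⁻¹ * (γ : 𝔾) =
      (g : 𝔾) ^ (m * (j / m)) * (((g : 𝔾) ^ j)⁻¹ * (γ : 𝔾)) := by
    rw [h0]
    group
  rw [h1]
  exact mul_mem (twe_ob_pow_mul_mem g m hgm _) h

variable (z : Additive Γ' →+ A) (a : A)

/-- `j • a + z (g^{-j} γ)` for an admissible exponent `j`. -/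
def twe_ob_F (γ : Γ) (j : ℕ) (h : ((g : 𝔾) ^ j)⁻¹ * (γ : 𝔾) ∈ Γ') : A :=
  j • a + z (Additive.ofMul (⟨_, h⟩ : Γ'))

theorem twe_ob_F_congr (γ : Γ) {j j' : ℕ} (e : j = j') (h : ((g : 𝔾) ^ j)⁻¹ * (γ : 𝔾) ∈ Γ')
    (h' : ((g : 𝔾) ^ j')⁻¹ * (γ : 𝔾) ∈ Γ') : twe_ob_F g z a γ j h = twe_ob_F g z a γ j' h' := by
  subst e
  rfl

include hgm in
theorem twe_ob_F_mod (hza : z (Additive.ofMul (⟨(g : 𝔾) ^ m, hgm⟩ : Γ')) = m • a) (γ : Γ) (j : ℕ)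
    (h : ((g : 𝔾) ^ j)⁻¹ * (γ : 𝔾) ∈ Γ') :
    twe_ob_F g z a γ j h = twe_ob_F g z a γ (j % m) (twe_ob_mod_mem g m hgm γ j h) := by
  unfold twe_ob_F
  have h1 : (⟨((g : 𝔾) ^ (j % m))⁻¹ * (γ : 𝔾), twe_ob_mod_mem g m hgm γ j h⟩ : Γ') =
      (⟨(g : 𝔾) ^ m, hgm⟩ : Γ') ^ (j / m) * ⟨((g : 𝔾) ^ j)⁻¹ * (γ : 𝔾), h⟩ := by
    apply Subtype.ext
    rw [Subgroup.coe_mul, Subgroup.coe_pow]
    have h0 : (g : 𝔾) ^ j = (g : 𝔾) ^ (j % m) * (g : 𝔾) ^ (m * (j / m)) := by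
      rw [← pow_add, Nat.mod_add_div]
    show ((g : 𝔾) ^ (j % m))⁻¹ * (γ : 𝔾) = ((g : 𝔾) ^ m) ^ (j / m) * (((g : 𝔾) ^ j)⁻¹ * (γ : 𝔾))
    rw [h0, ← pow_mul]
    group
  rw [h1, ofMul_mul, ofMul_pow, map_add, map_nsmul, hza]
  have h2 : j • a = (j % m) • a + (j / m) • m • a := by
    conv_lhs => rw [← Nat.mod_add_div j m]
    rw [add_nsmul, mul_nsmul]
  rw [h2]
  abel

include hgm hbij in
/-- independence of the admissible exponent. -/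
theorem twe_ob_F_indep (hza : z (Additive.ofMul (⟨(g : 𝔾) ^ m, hgm⟩ : Γ')) = m • a) (γ : Γ)
    (j j' : ℕ) (h : ((g : 𝔾) ^ j)⁻¹ * (γ : 𝔾) ∈ Γ') (h' : ((g : 𝔾) ^ j')⁻¹ * (γ : 𝔾) ∈ Γ') :
    twe_ob_F g z a γ j h = twe_ob_F g z a γ j' h' := by
  have hm : 0 < m := by
    obtain ⟨i, -⟩ := (hbij 1 (one_mem Γ)).exists
    exact Nat.pos_of_ne_zero (by rintro rfl; exact i.elim0)
  rw [twe_ob_F_mod g m hgm z a hza γ j h, twe_ob_F_mod g m hgm z a hza γ j' h']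
  refine twe_ob_F_congr g z a γ ?_ _ _
  have e := (hbij γ γ.2).unique (y₁ := ⟨j % m, Nat.mod_lt j hm⟩) (y₂ := ⟨j' % m, Nat.mod_lt j' hm⟩)
    (twe_ob_mod_mem g m hgm γ j h) (twe_ob_mod_mem g m hgm γ j' h')
  exact congrArg Fin.val e

/-- the canonical exponent of `γ`. -/
def twe_ob_idx (γ : Γ) : Fin m :=
  twe_rc_idx (ρ := fun i : Fin m => (g : 𝔾) ^ (i : ℕ)) hbij (γ : 𝔾) γ.2

theorem twe_ob_idx_spec (γ : Γ) : ((g : 𝔾) ^ (twe_ob_idx g m hbij γ : ℕ))⁻¹ * (γ : 𝔾) ∈ Γ' :=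
  twe_rc_idx_spec (ρ := fun i : Fin m => (g : 𝔾) ^ (i : ℕ)) hbij (γ : 𝔾) γ.2

/-- the extension `g^i n ↦ i • a + z n`. -/
def twe_ob_extFun (γ : Γ) : A :=
  twe_ob_F g z a γ (twe_ob_idx g m hbij γ) (twe_ob_idx_spec g m hbij γ)

include hgm in
theorem twe_ob_extFun_eq (hza : z (Additive.ofMul (⟨(g : 𝔾) ^ m, hgm⟩ : Γ')) = m • a) (γ : Γ)
    (j : ℕ) (h : ((g : 𝔾) ^ j)⁻¹ * (γ : 𝔾) ∈ Γ') :
    twe_ob_extFun g m hbij z a γ = twe_ob_F g z a γ j h :=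
  twe_ob_F_indep g m hbij hgm z a hza γ _ j _ h

include hgm in
theorem twe_ob_extFun_mul (hz : twe_rc_conj hnorm g z = z)
    (hza : z (Additive.ofMul (⟨(g : 𝔾) ^ m, hgm⟩ : Γ')) = m • a) (γ₁ γ₂ : Γ) :
    twe_ob_extFun g m hbij z a (γ₁ * γ₂) =
      twe_ob_extFun g m hbij z a γ₁ + twe_ob_extFun g m hbij z a γ₂ := by
  set i₁ := (twe_ob_idx g m hbij γ₁ : ℕ) with hi₁
  set i₂ := (twe_ob_idx g m hbij γ₂ : ℕ) with hi₂
  set n₁ : Γ' := ⟨_, twe_ob_idx_spec g m hbij γ₁⟩ with hn₁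
  set n₂ : Γ' := ⟨_, twe_ob_idx_spec g m hbij γ₂⟩ with hn₂
  have hmem : ((g : 𝔾) ^ (i₁ + i₂))⁻¹ * ((γ₁ * γ₂ : Γ) : 𝔾) =
      ((twe_rc_conjHom hnorm (g ^ i₂) n₁ * n₂ : Γ') : 𝔾) := by
    show ((g : 𝔾) ^ (i₁ + i₂))⁻¹ * ((γ₁ : 𝔾) * (γ₂ : 𝔾)) =
      ((g : 𝔾) ^ i₂)⁻¹ * (((g : 𝔾) ^ i₁)⁻¹ * (γ₁ : 𝔾)) * (g : 𝔾) ^ i₂ *
      (((g : 𝔾) ^ i₂)⁻¹ * (γ₂ : 𝔾))
    rw [pow_add]
    group
  have hmem' : ((g : 𝔾) ^ (i₁ + i₂))⁻¹ * ((γ₁ * γ₂ : Γ) : 𝔾) ∈ Γ' := by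
    rw [hmem]
    exact (twe_rc_conjHom hnorm (g ^ i₂) n₁ * n₂ : Γ').2
  rw [twe_ob_extFun_eq g m hbij hgm z a hza (γ₁ * γ₂) (i₁ + i₂) hmem']
  have h1 : (⟨_, hmem'⟩ : Γ') = twe_rc_conjHom hnorm (g ^ i₂) n₁ * n₂ := Subtype.ext hmem
  have h2 : z (Additive.ofMul (twe_rc_conjHom hnorm (g ^ i₂) n₁)) = z (Additive.ofMul n₁) := by
    have := twe_ob_conj_pow hnorm g z hz i₂
    rw [← twe_rc_conj_apply, this]
  unfold twe_ob_extFun twe_ob_F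
  rw [h1, ofMul_mul, map_add, h2, add_nsmul]
  abel

include hbij in
/-- **the extension lemma** (`E/Obs`): a `g`-invariant character `z` of `Γ'` with
`z (g^m) = m • a` extends to a character `x` of `Γ` with `x g = a`. -/
theorem twe_ob_exists_ext (hz : twe_rc_conj hnorm g z = z)
    (hza : z (Additive.ofMul (⟨(g : 𝔾) ^ m, hgm⟩ : Γ')) = m • a) :
    ∃ x : Additive Γ →+ A, lrpd_pull (Subgroup.inclusion hle) x = z ∧ x (Additive.ofMul g) = a := by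
  have h1 : twe_ob_extFun g m hbij z a 1 = 0 := by
    have := twe_ob_extFun_mul hnorm g m hbij hgm z a hz hza 1 1
    rw [mul_one] at this
    exact left_eq_add.mp this
  let x : Additive Γ →+ A :=
    { toFun := fun γ => twe_ob_extFun g m hbij z a (Additive.toMul γ)
      map_zero' := h1
      map_add' := fun γ₁ γ₂ => twe_ob_extFun_mul hnorm g m hbij hgm z a hz hza _ _ }
  refine ⟨x, ?_, ?_⟩
  · refine AddMonoidHom.ext fun n => ?_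
    obtain ⟨n, rfl⟩ := Additive.ofMul.surjective n
    rw [lrpd_pull_apply]
    have hmem : ((g : 𝔾) ^ 0)⁻¹ * ((Subgroup.inclusion hle n : Γ) : 𝔾) ∈ Γ' := by
      rw [pow_zero, inv_one, one_mul]
      exact n.2
    show twe_ob_extFun g m hbij z a (Subgroup.inclusion hle n) = _
    rw [twe_ob_extFun_eq g m hbij hgm z a hza _ 0 hmem]
    unfold twe_ob_F
    rw [zero_nsmul, zero_add]
    congr 2
    apply Subtype.ext
    show ((g : 𝔾) ^ 0)⁻¹ * (n : 𝔾) = n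
    rw [pow_zero, inv_one, one_mul]
  · have hmem : ((g : 𝔾) ^ 1)⁻¹ * (g : 𝔾) ∈ Γ' := by
      rw [pow_one, inv_mul_cancel]
      exact one_mem _
    show twe_ob_extFun g m hbij z a g = a
    rw [twe_ob_extFun_eq g m hbij hgm z a hza _ 1 hmem]
    unfold twe_ob_F
    have : (⟨_, hmem⟩ : Γ') = 1 := by
      apply Subtype.ext
      show ((g : 𝔾) ^ 1)⁻¹ * (g : 𝔾) = 1
      rw [pow_one, inv_mul_cancel]
    rw [this, ofMul_one, map_zero, add_zero, one_nsmul]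

end ext

/-! ### The kernel of the restriction, and `PE` -/

section ker

variable {𝔾 : Type*} [Group 𝔾] {Γ Γ' : Subgroup 𝔾} {A : Type*} [AddCommGroup A]

/-- the converse of the extension lemma: restrictions satisfy `z (g^m) = m • x g`. -/
theorem twe_ob_res_pow (hle : Γ' ≤ Γ) (g : Γ) (m : ℕ) (hgm : (g : 𝔾) ^ m ∈ Γ')
    (x : Additive Γ →+ A) :
    lrpd_pull (Subgroup.inclusion hle) x (Additive.ofMul (⟨(g : 𝔾) ^ m, hgm⟩ : Γ')) =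
      m • x (Additive.ofMul g) := by
  rw [lrpd_pull_apply]
  have : Subgroup.inclusion hle (⟨(g : 𝔾) ^ m, hgm⟩ : Γ') = g ^ m := by
    apply Subtype.ext
    rfl
  rw [this, ofMul_pow, map_nsmul]

/-- `res x = 0` iff `x` kills `Γ'`. -/
theorem twe_ob_res_eq_zero_iff (hle : Γ' ≤ Γ) (x : Additive Γ →+ A) :
    lrpd_pull (Subgroup.inclusion hle) x = 0 ↔
      ∀ γ : Γ, (γ : 𝔾) ∈ Γ' → x (Additive.ofMul γ) = 0 := by
  constructor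
  · intro h γ hγ
    have := DFunLike.congr_fun h (Additive.ofMul (⟨(γ : 𝔾), hγ⟩ : Γ'))
    rw [lrpd_pull_apply] at this
    exact this
  · intro h
    refine AddMonoidHom.ext fun n => ?_
    obtain ⟨n, rfl⟩ := Additive.ofMul.surjective n
    rw [lrpd_pull_apply]
    exact h _ n.2

end ker

section SL2

open scoped MatrixGroups

variable {Γ Γ' : Subgroup SL(2, ℤ)} {A : Type*} [AddCommGroup A]

/-- unramified covers: if every `PE` element of `Γ` lies in `Γ'`, a character of `Γ` whose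
restriction to `Γ'` is `PE` is `PE`. -/
theorem twe_ob_PE_of_res (hle : Γ' ≤ Γ)
    (hU : ∀ γ : SL(2, ℤ), γ ∈ Γ → lrpd_tr γ ^ 2 ≤ 4 → γ ∈ Γ') {x : Additive Γ →+ A}
    (hx : lrpd_PE Γ' (lrpd_pull (Subgroup.inclusion hle) x)) : lrpd_PE Γ x := by
  intro γ hγ
  have h1 : (γ : SL(2, ℤ)) ∈ Γ' := hU γ γ.2 hγ
  have h2 := hx ⟨γ, h1⟩ hγ
  rw [lrpd_pull_apply] at h2
  exact h2

/-- **E/Obs for `PE` characters**: `Γ' ⊴ Γ` unramified with cyclic quotient generated by `g`;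
a `g`-invariant `z ∈ W(Γ', A)` with `z (g^m) = m • a` is the restriction of some `x ∈ W(Γ, A)`
with `x g = a`. -/
theorem twe_ob_exists_ext_PE (hle : Γ' ≤ Γ) (hnorm : ∀ g ∈ Γ, ∀ n ∈ Γ', g⁻¹ * n * g ∈ Γ')
    (hU : ∀ γ : SL(2, ℤ), γ ∈ Γ → lrpd_tr γ ^ 2 ≤ 4 → γ ∈ Γ')
    (g : Γ) (m : ℕ) (hbij : ∀ γ ∈ Γ, ∃! i : Fin m, ((g : SL(2, ℤ)) ^ (i : ℕ))⁻¹ * γ ∈ Γ')
    (hgm : (g : SL(2, ℤ)) ^ m ∈ Γ') (z : Additive Γ' →+ A) (hzPE : lrpd_PE Γ' z)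
    (hz : twe_rc_conj hnorm g z = z) (a : A)
    (hza : z (Additive.ofMul (⟨(g : SL(2, ℤ)) ^ m, hgm⟩ : Γ')) = m • a) :
    ∃ x : Additive Γ →+ A, lrpd_PE Γ x ∧ lrpd_pull (Subgroup.inclusion hle) x = z ∧
      x (Additive.ofMul g) = a := by
  obtain ⟨x, hx1, hx2⟩ := twe_ob_exists_ext hle hnorm g m hbij hgm z a hz hza
  refine ⟨x, twe_ob_PE_of_res hle hU ?_, hx1, hx2⟩
  rw [hx1]
  exact hzPE

end SL2

end Fermat.Agent.TW
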