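/-
ONE MACHINE / block [E] AUT, cell E/Eis part (ii) (helper5): the two Hecke computations, on top
of helper22's `TW/Aut/HeckeDef.lean` (`twe_hk_T`, `twe_hk_coc`, (C) `twe_hk_inv_mul_coc_mem`).
Namespace `Fermat.Agent.TW`, prefix `twe_eis_`.

* **`twe_eis_ker`** / `twe_eis_ker_res` : (a) a character of `Γ_H` killing `Γ_{H'}` (`H' ≤ H`),
  i.e. an element of `ker (res)`, satisfies `T'_ℓ x = (ℓ + 1) x`;
* **`twe_eis_ob`** : (b) for `g ∈ Γ₀(M)`, `g^m ∈ Γ_{H'}` and a `g`-invariant character `z` of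
  `Γ_{H'}`:  `(T'_ℓ z)(g^m) = (ℓ + 1) z(g^m) + m ∑_y z(h_y)`, `h_y = g⁻¹ c'_y(g) ∈ Γ_{H'}`;
  `twe_eis_ob_char` : hence `= (ℓ + 1) z(g^m)` when `m` kills the coefficients
  (the obstruction `z ↦ z(g^m)` of E/Obs is Eisenstein);
* `twe_eis_hnorm`, `twe_eis_conj_eq` : `twe_rc_conj = twe_conj` on `Γ_{H'} ⊴ Γ_H`.
-/
import Mathlib
import Fermat.Agent.TW.Aut.HeckeDef
import Fermat.Agent.TW.Aut.Obs

set_option autoImplicit false

noncomputable section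

open CongruenceSubgroup Matrix.SpecialLinearGroup
open scoped MatrixGroups OnePoint

namespace Fermat.Agent.TW

open Fermat.Agent.JT3 Fermat.Agent.LR

variable {M ℓ : ℕ} [Fact ℓ.Prime] {A : Type*} [AddCommGroup A]

theorem twe_eis_card : Fintype.card (OnePoint (ZMod ℓ)) = ℓ + 1 := by
  rw [show Fintype.card (OnePoint (ZMod ℓ)) = Fintype.card (Option (ZMod ℓ)) from rfl,
    Fintype.card_option, ZMod.card]

/-- **(a) the kernel of the restriction is Eisenstein**: a character of `Γ_H` killing `Γ_{H'}`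
(`H' ≤ H`) is an eigenvector of `T'_ℓ` with eigenvalue `ℓ + 1`. -/
theorem twe_eis_ker (hℓM : ¬ ℓ ∣ M) {H' H : Subgroup (ZMod M)ˣ} (hH : H' ≤ H) (s : Gamma0 M)
    (hs' : twe_dUnit M s * twe_dUnit M s * (twe_hk_lU hℓM)⁻¹ ∈ H')
    (x : Additive ↥(twe_GamH M H) →+ A)
    (hx : ∀ γ : ↥(twe_GamH M H), (γ : SL(2, ℤ)) ∈ twe_GamH M H' → x (Additive.ofMul γ) = 0) :
    twe_hk_T hℓM H s (hH hs') x = (ℓ + 1) • x := by
  refine AddMonoidHom.ext fun γ => ?_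
  obtain ⟨γ, rfl⟩ := Additive.ofMul.surjective γ
  rw [twe_hk_T_apply]
  have h : ∀ y : OnePoint (ZMod ℓ),
      x (Additive.ofMul ((twe_hk_data hℓM H s (hH hs')).coc y γ)) = x (Additive.ofMul γ) := by
    intro y
    have h1 : (twe_hk_data hℓM H s (hH hs')).coc y γ =
        γ * (γ⁻¹ * (twe_hk_data hℓM H s (hH hs')).coc y γ) := by
      rw [mul_inv_cancel_left]
    have h2 : ((γ⁻¹ * (twe_hk_data hℓM H s (hH hs')).coc y γ : ↥(twe_GamH M H)) : SL(2, ℤ)) ∈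
        twe_GamH M H' := twe_hk_inv_mul_coc_mem hℓM s hs' y (twe_hk_up H γ)
    rw [h1, ofMul_mul, map_add, hx _ h2, add_zero]
  rw [Finset.sum_congr rfl fun y _ => h y, Finset.sum_const, Finset.card_univ, twe_eis_card,
    AddMonoidHom.smul_apply]
/-! ### (b) the obstruction is Eisenstein -/

/-- `x ↦ x ⋆ a` as a permutation of `ℙ¹(𝔽_ℓ)`. -/
def twe_eis_perm (a : SL(2, ℤ)) : Equiv.Perm (OnePoint (ZMod ℓ)) where
  toFun := t2c_act a
  invFun := t2c_act a⁻¹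
  left_inv x := by rw [← t2c_act_mul, mul_inv_cancel, t2c_act_one]
  right_inv x := by rw [← t2c_act_mul, inv_mul_cancel, t2c_act_one]

/-- `h_y = g⁻¹ c'_y(g) ∈ Γ_{H'}`. -/
def twe_eis_h (hℓM : ¬ ℓ ∣ M) (H' : Subgroup (ZMod M)ˣ) (s : Gamma0 M)
    (hs' : twe_dUnit M s * twe_dUnit M s * (twe_hk_lU hℓM)⁻¹ ∈ H') (g : Gamma0 M)
    (y : OnePoint (ZMod ℓ)) : ↥(twe_GamH M H') :=
  ⟨((g⁻¹ * twe_hk_coc hℓM s y g : Gamma0 M) : SL(2, ℤ)), twe_hk_inv_mul_coc_mem hℓM s hs' y g⟩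

theorem twe_eis_coc_pow (hℓM : ¬ ℓ ∣ M) (H' : Subgroup (ZMod M)ˣ) (s : Gamma0 M)
    (hs' : twe_dUnit M s * twe_dUnit M s * (twe_hk_lU hℓM)⁻¹ ∈ H') (g : Gamma0 M)
    (z : Additive ↥(twe_GamH M H') →+ A) (hz : twe_conj H' g z = z) (i : ℕ)
    (x : OnePoint (ZMod ℓ)) :
    ∃ w : ↥(twe_GamH M H'), twe_hk_coc hℓM s x (g ^ i) = g ^ i * twe_hk_up H' w ∧
      z (Additive.ofMul w) = ∑ j ∈ Finset.range i,
        z (Additive.ofMul (twe_eis_h hℓM H' s hs' g (t2c_act ((g ^ j : Gamma0 M) : SL(2, ℤ)) x))) := by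
  induction i with
  | zero =>
    refine ⟨1, ?_, ?_⟩
    · rw [pow_zero, twe_hk_coc_one, map_one, mul_one]
    · rw [Finset.range_zero, Finset.sum_empty, ofMul_one, map_zero]
  | succ i ih =>
    obtain ⟨w, hw1, hw2⟩ := ih
    set y := t2c_act ((g ^ i : Gamma0 M) : SL(2, ℤ)) x with hy
    refine ⟨twe_conjHom H' g w * twe_eis_h hℓM H' s hs' g y, ?_, ?_⟩
    · have hup : twe_hk_up H' (twe_conjHom H' g w * twe_eis_h hℓM H' s hs' g y) =
          g⁻¹ * twe_hk_up H' w * g * (g⁻¹ * twe_hk_coc hℓM s y g) := Subtype.ext rfl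
      rw [pow_succ, twe_hk_coc_mul, hw1, hup, ← hy]
      group
    · rw [ofMul_mul, map_add, Finset.sum_range_succ, ← hw2]
      congr 1
      have := DFunLike.congr_fun hz (Additive.ofMul w)
      rw [twe_conj_apply] at this
      exact this

/-- **(b) the obstruction `z ↦ z (g^m)` is Eisenstein**: for a `g`-invariant character `z` of
`Γ_{H'}` and `g^m ∈ Γ_{H'}`:  `(T'_ℓ z)(g^m) = (ℓ + 1) z(g^m) + m ∑_y z(h_y)`. -/
theorem twe_eis_ob (hℓM : ¬ ℓ ∣ M) (H' : Subgroup (ZMod M)ˣ) (s : Gamma0 M)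
    (hs' : twe_dUnit M s * twe_dUnit M s * (twe_hk_lU hℓM)⁻¹ ∈ H') (g : Gamma0 M) (m : ℕ)
    (hgm : ((g ^ m : Gamma0 M) : SL(2, ℤ)) ∈ twe_GamH M H')
    (z : Additive ↥(twe_GamH M H') →+ A) (hz : twe_conj H' g z = z) :
    twe_hk_T hℓM H' s hs' z (Additive.ofMul (⟨_, hgm⟩ : ↥(twe_GamH M H'))) =
      (ℓ + 1) • z (Additive.ofMul (⟨_, hgm⟩ : ↥(twe_GamH M H'))) +
        m • ∑ y : OnePoint (ZMod ℓ), z (Additive.ofMul (twe_eis_h hℓM H' s hs' g y)) := by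
  rw [twe_hk_T_apply]
  set γ : ↥(twe_GamH M H') := ⟨_, hgm⟩ with hγ
  have hup : twe_hk_up H' γ = g ^ m := Subtype.ext rfl
  have h : ∀ x : OnePoint (ZMod ℓ),
      z (Additive.ofMul ((twe_hk_data hℓM H' s hs').coc x γ)) = z (Additive.ofMul γ) +
        ∑ j ∈ Finset.range m, z (Additive.ofMul
          (twe_eis_h hℓM H' s hs' g (t2c_act ((g ^ j : Gamma0 M) : SL(2, ℤ)) x))) := by
    intro x
    obtain ⟨w, hw1, hw2⟩ := twe_eis_coc_pow hℓM H' s hs' g z hz m x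
    have h1 : (twe_hk_data hℓM H' s hs').coc x γ = γ * w := by
      apply Subtype.ext
      show ((twe_hk_coc hℓM s x (twe_hk_up H' γ) : Gamma0 M) : SL(2, ℤ)) = _
      rw [hup, hw1]
      rfl
    rw [h1, ofMul_mul, map_add, hw2]
  rw [Finset.sum_congr rfl fun x _ => h x, Finset.sum_add_distrib, Finset.sum_const,
    Finset.card_univ, twe_eis_card, Finset.sum_comm]
  congr 1
  have h2 : ∀ j ∈ Finset.range m, ∑ x : OnePoint (ZMod ℓ), z (Additive.ofMul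
      (twe_eis_h hℓM H' s hs' g (t2c_act ((g ^ j : Gamma0 M) : SL(2, ℤ)) x))) =
      ∑ y : OnePoint (ZMod ℓ), z (Additive.ofMul (twe_eis_h hℓM H' s hs' g y)) := by
    intro j _
    exact Equiv.sum_comp (twe_eis_perm ((g ^ j : Gamma0 M) : SL(2, ℤ)))
      fun y => z (Additive.ofMul (twe_eis_h hℓM H' s hs' g y))
  rw [Finset.sum_congr rfl h2, Finset.sum_const, Finset.card_range]

/-- in characteristic dividing `m`: `(T'_ℓ z)(g^m) = (ℓ + 1) z(g^m)`. -/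
theorem twe_eis_ob_char (hℓM : ¬ ℓ ∣ M) (H' : Subgroup (ZMod M)ˣ) (s : Gamma0 M)
    (hs' : twe_dUnit M s * twe_dUnit M s * (twe_hk_lU hℓM)⁻¹ ∈ H') (g : Gamma0 M) (m : ℕ)
    (hgm : ((g ^ m : Gamma0 M) : SL(2, ℤ)) ∈ twe_GamH M H') (hm : ∀ a : A, m • a = 0)
    (z : Additive ↥(twe_GamH M H') →+ A) (hz : twe_conj H' g z = z) :
    twe_hk_T hℓM H' s hs' z (Additive.ofMul (⟨_, hgm⟩ : ↥(twe_GamH M H'))) =
      (ℓ + 1) • z (Additive.ofMul (⟨_, hgm⟩ : ↥(twe_GamH M H'))) := by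
  rw [twe_eis_ob hℓM H' s hs' g m hgm z hz, hm, add_zero]

/-! ### Bridge between `twe_conj` (E/Defs) and `twe_rc_conj` (E/ResCor, E/Obs) -/

/-- `Γ_H` (indeed `Γ₀(M)`) normalises `Γ_{H'}`. -/
theorem twe_eis_hnorm (H' H : Subgroup (ZMod M)ˣ) :
    ∀ g ∈ twe_GamH M H, ∀ n ∈ twe_GamH M H', g⁻¹ * n * g ∈ twe_GamH M H' := by
  intro g hg n hn
  exact (twe_conjHom H' ⟨g, twe_GamH_le M H hg⟩ ⟨n, hn⟩).2

theorem twe_eis_conj_eq (H' H : Subgroup (ZMod M)ˣ) (g : ↥(twe_GamH M H))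
    (z : Additive ↥(twe_GamH M H') →+ A) :
    twe_rc_conj (twe_eis_hnorm H' H) g z = twe_conj H' (twe_hk_up H g) z := by
  refine AddMonoidHom.ext fun n => ?_
  obtain ⟨n, rfl⟩ := Additive.ofMul.surjective n
  rw [twe_rc_conj_apply, twe_conj_apply]
  congr 2

/-- (a) in restriction form. -/
theorem twe_eis_ker_res (hℓM : ¬ ℓ ∣ M) {H' H : Subgroup (ZMod M)ˣ} (hH : H' ≤ H) (s : Gamma0 M)
    (hs' : twe_dUnit M s * twe_dUnit M s * (twe_hk_lU hℓM)⁻¹ ∈ H')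
    (x : Additive ↥(twe_GamH M H) →+ A)
    (hx : lrpd_pull (Subgroup.inclusion (twe_GamH_mono hH)) x = 0) :
    twe_hk_T hℓM H s (hH hs') x = (ℓ + 1) • x :=
  twe_eis_ker hℓM hH s hs' x ((twe_ob_res_eq_zero_iff (twe_GamH_mono hH) x).1 hx)

end Fermat.Agent.TW
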