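/-
# E/FreeTot: the TOTAL form of the abstract freeness step (no pairing at intermediate levels)

Abstract linear algebra for E/Free (Taylor-Wiles freeness of `W(Γ_H)_𝔪` over `𝒪[Δ]`), arranged so
that self-adjointness of the Hecke operators is needed AT THE TOP LEVEL `Γ₀(M)` ONLY
(request of helper22, finding 4713 (2)).

* (T1) `twe_ft_Step0`, `twe_ft_inv_mem`: one cyclic step WITHOUT pairings: a `g`-invariant class of the
  non-Eisenstein localisation of the deep level is the restriction of a class of the localisation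
  of the level below.  Needs: commutativity of the `T` at the LOWER level, `g ∘ T' = T' ∘ g`,
  `res ∘ T = T' ∘ res`, `ker res` Eisenstein, the obstruction `ob` with `ob (T' z) = e • ob z`.
* (T2) `twe_ft_Tot`, `twe_ft_cor_surj` (strong form, needs `cor ∘ T' = T ∘ cor`) and
  (T2w) `twe_ft_TotW`, `twe_ft_norm_surj` (weak form: only `res ∘ cor ∘ T' = T' ∘ res ∘ cor`):
  the total transfer / norm is onto on localisations; self-adjointness at the top level only.
* (T3) `twe_ft_list` / `twe_ft_rep` / `twe_ft_pi`: commuting operators of `p`-power order in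
  characteristic `p` with `invariants ≤ range (norm)`: `dim V = |Δ| · dim V^Δ`,
  `ker (norm) ≤ I_Δ V`.  `twe_ft_pi` is the shape `Δ = Multiplicative (∀ t, ZMod (p ^ n t))`.
* (T) `twe_ft_main`: the abstract total statement combining (T1 iterated, as a hypothesis), (T2w), (T3).
-/
import Mathlib
import Fermat.Agent.TW.Aut.FreeCrit
import Fermat.Agent.TW.Aut.FreeAbs

set_option autoImplicit false

noncomputable section

namespace Fermat.Agent.TW

open Module

/-! ### (T1) one cyclic step WITHOUT pairings -/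

/-- the data of one cyclic step `Γ' ⊴ Γ₁` WITHOUT pairings (no self-adjointness needed):
commutativity of the Hecke operators is required at the LOWER level `V1` only. -/
structure twe_ft_Step0 (k : Type*) [Field k] (L : Type*) (V' V1 B : Type*)
    [AddCommGroup V'] [Module k V'] [AddCommGroup V1] [Module k V1]
    [AddCommGroup B] [Module k B] where
  T' : L → Module.End k V'
  T : L → Module.End k V1
  g : Module.End k V'
  res : V1 →ₗ[k] V'
  e : L → k
  ob : V' →ₗ[k] B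
  commT : ∀ ℓ ℓ', Commute (T ℓ) (T ℓ')
  g_T : ∀ ℓ z, g (T' ℓ z) = T' ℓ (g z)
  res_T : ∀ ℓ x, res (T ℓ x) = T' ℓ (res x)
  ker_res : ∀ x, res x = 0 → ∀ ℓ, T ℓ x = e ℓ • x
  ob_res : ∀ z, g z = z → ob z = 0 → z ∈ LinearMap.range res
  ob_T : ∀ ℓ z, g z = z → ob (T' ℓ z) = e ℓ • ob z

section step0

variable {k : Type*} [Field k] {L : Type*} {V' V1 B : Type*}
  [AddCommGroup V'] [Module k V'] [AddCommGroup V1] [Module k V1] [AddCommGroup B] [Module k B]
  (S : twe_ft_Step0 k L V' V1 B) (a : L → k) (ℓ₀ : L) (hne : a ℓ₀ ≠ S.e ℓ₀)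

include hne in
theorem twe_ft_res_inj {x : V1} (hx : x ∈ twe_fa_loc S.T a) (h0 : S.res x = 0) : x = 0 :=
  twe_fa_eq_zero_of_eigen (twe_fa_loc_le S.T a ℓ₀ hx) (S.e ℓ₀) hne (S.ker_res x h0 ℓ₀)

include hne in
theorem twe_ft_ob_eq_zero {z : V'} (hz : z ∈ twe_fa_loc S.T' a) (hg : S.g z = z) : S.ob z = 0 := by
  obtain ⟨n, hn⟩ := twe_fa_mem_loc.1 hz ℓ₀
  have key : ∀ (m : ℕ) (z : V'), S.g z = z →
      S.g (((S.T' ℓ₀ - a ℓ₀ • (1 : Module.End k V')) ^ m) z) =
        ((S.T' ℓ₀ - a ℓ₀ • (1 : Module.End k V')) ^ m) z ∧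
      S.ob (((S.T' ℓ₀ - a ℓ₀ • (1 : Module.End k V')) ^ m) z) = (S.e ℓ₀ - a ℓ₀) ^ m • S.ob z := by
    intro m
    induction m with
    | zero => intro z hz; simp [hz]
    | succ m ih =>
      intro z hz
      have h1 : S.g ((S.T' ℓ₀ - a ℓ₀ • (1 : Module.End k V')) z) =
          (S.T' ℓ₀ - a ℓ₀ • (1 : Module.End k V')) z := by
        simp only [LinearMap.sub_apply, LinearMap.smul_apply, Module.End.one_apply, map_sub,
          map_smul, S.g_T, hz]
      have h2 : S.ob ((S.T' ℓ₀ - a ℓ₀ • (1 : Module.End k V')) z) = (S.e ℓ₀ - a ℓ₀) • S.ob z := by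
        simp only [LinearMap.sub_apply, LinearMap.smul_apply, Module.End.one_apply, map_sub,
          map_smul, S.ob_T ℓ₀ z hz, sub_smul]
      obtain ⟨h3, h4⟩ := ih _ h1
      rw [pow_succ, Module.End.mul_apply]
      refine ⟨h3, ?_⟩
      rw [h4, h2, smul_smul, pow_succ]
  have h5 := (key n z hg).2
  rw [hn, map_zero] at h5
  rcases smul_eq_zero.1 h5.symm with h | h
  · exact absurd (eq_zero_of_pow_eq_zero h) (sub_ne_zero.2 (Ne.symm hne))
  · exact h

theorem twe_ft_res_rad (μ : k) (ℓ : L) {x : V1} (hx : x ∈ twe_fa_rad (S.T ℓ) μ) :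
    S.res x ∈ twe_fa_rad (S.T' ℓ) μ := by
  rw [twe_fa_rad, Submodule.mem_iInf] at hx ⊢
  intro n
  obtain ⟨u, rfl⟩ := hx n
  exact ⟨S.res u, (twe_fa_intertwine_pow S.res (S.T ℓ) (S.T' ℓ) (S.res_T ℓ) μ n u).symm⟩

variable [FiniteDimensional k V'] [FiniteDimensional k V1]

include hne in
/-- **(T1)** invariant classes in the localisation are restrictions of classes in the localisation
(no pairing). -/
theorem twe_ft_inv_mem {z : V'} (hz : z ∈ twe_fa_loc S.T' a) (hg : S.g z = z) :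
    ∃ x ∈ twe_fa_loc S.T a, S.res x = z := by
  obtain ⟨x, rfl⟩ := S.ob_res z hg (twe_ft_ob_eq_zero S a ℓ₀ hne hz hg)
  obtain ⟨xG, -, xR, -, rfl, hG, hR⟩ := twe_fa_fitting (S.T ℓ₀) (a ℓ₀) ⊤
    (fun _ _ => Submodule.mem_top) (Submodule.mem_top (x := x))
  have hresG : S.res xG ∈ (S.T' ℓ₀).maxGenEigenspace (a ℓ₀) := by
    obtain ⟨n, hn⟩ := (Module.End.mem_maxGenEigenspace _ _ _).1 hG
    rw [Module.End.mem_maxGenEigenspace]
    exact ⟨n, by rw [← twe_fa_intertwine_pow S.res (S.T ℓ₀) (S.T' ℓ₀) (S.res_T ℓ₀), hn, map_zero]⟩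
  have hresR : S.res xR = 0 := by
    refine twe_fa_disjoint (S.T' ℓ₀) (a ℓ₀) ?_ (twe_ft_res_rad S (a ℓ₀) ℓ₀ hR)
    have h1 : S.res xR = S.res (xG + xR) - S.res xG := by rw [map_add]; abel
    rw [h1]
    exact Submodule.sub_mem _ (twe_fa_loc_le S.T' a ℓ₀ hz) hresG
  have hzG : S.res (xG + xR) = S.res xG := by rw [map_add, hresR, add_zero]
  refine ⟨xG, ?_, hzG.symm⟩
  rw [twe_fa_mem_loc]
  intro ℓ
  rw [hzG] at hz
  obtain ⟨n, hn⟩ := twe_fa_mem_loc.1 hz ℓ
  refine ⟨n, ?_⟩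
  set w := ((S.T ℓ - a ℓ • (1 : Module.End k V1)) ^ n) xG with hw
  have hw0 : S.res w = 0 := by
    rw [hw, twe_fa_intertwine_pow S.res (S.T ℓ) (S.T' ℓ) (S.res_T ℓ), hn]
  have hcomm : Commute (S.T ℓ₀) ((S.T ℓ - a ℓ • (1 : Module.End k V1)) ^ n) :=
    ((S.commT ℓ₀ ℓ).sub_right ((Commute.one_right _).smul_right _)).pow_right n
  have hwG : w ∈ (S.T ℓ₀).maxGenEigenspace (a ℓ₀) :=
    Module.End.mapsTo_maxGenEigenspace_of_comm hcomm (a ℓ₀) hG
  exact twe_fa_eq_zero_of_eigen hwG (S.e ℓ₀) hne (S.ker_res w hw0 ℓ₀)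

end step0

/-! ### (T2) the TOTAL transfer is onto: self-adjointness at the bottom level only -/

/-- two levels `V'` (deep, e.g. `W(Γ_H, k)`) and `V0` (top, `W(Γ₀(M), k)`): the Hecke operators
commute at both levels, are self-adjoint AT THE TOP LEVEL ONLY, both pairings are non-degenerate,
`res ⊣ cor`, and `ker res` is Eisenstein. -/
structure twe_ft_Tot (k : Type*) [Field k] (L : Type*) (V' V0 : Type*)
    [AddCommGroup V'] [Module k V'] [AddCommGroup V0] [Module k V0] where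
  T' : L → Module.End k V'
  T : L → Module.End k V0
  res : V0 →ₗ[k] V'
  cor : V' →ₗ[k] V0
  e : L → k
  Ω' : V' →ₗ[k] V' →ₗ[k] k
  Ω0 : V0 →ₗ[k] V0 →ₗ[k] k
  commT' : ∀ ℓ ℓ', Commute (T' ℓ) (T' ℓ')
  commT : ∀ ℓ ℓ', Commute (T ℓ) (T ℓ')
  res_T : ∀ ℓ x, res (T ℓ x) = T' ℓ (res x)
  cor_T : ∀ ℓ z, cor (T' ℓ z) = T ℓ (cor z)
  ker_res : ∀ x, res x = 0 → ∀ ℓ, T ℓ x = e ℓ • x
  nd' : ∀ x, (∀ y, Ω' x y = 0) → x = 0
  nd0 : ∀ x, (∀ y, Ω0 x y = 0) → x = 0
  sa0 : ∀ ℓ x y, Ω0 (T ℓ x) y = Ω0 x (T ℓ y)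
  adj : ∀ x z, Ω' (res x) z = Ω0 x (cor z)

section tot

variable {k : Type*} [Field k] {L : Type*} {V' V0 : Type*}
  [AddCommGroup V'] [Module k V'] [AddCommGroup V0] [Module k V0]
  (S : twe_ft_Tot k L V' V0) (a : L → k) (ℓ₀ : L) (hne : a ℓ₀ ≠ S.e ℓ₀)

theorem twe_ft_cor_rad (μ : k) (ℓ : L) {z : V'} (hz : z ∈ twe_fa_rad (S.T' ℓ) μ) :
    S.cor z ∈ twe_fa_rad (S.T ℓ) μ := by
  rw [twe_fa_rad, Submodule.mem_iInf] at hz ⊢
  intro n
  obtain ⟨u, rfl⟩ := hz n
  exact ⟨S.cor u, (twe_fa_intertwine_pow S.cor (S.T' ℓ) (S.T ℓ) (S.cor_T ℓ) μ n u).symm⟩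

variable [FiniteDimensional k V'] [FiniteDimensional k V0]

omit [FiniteDimensional k V0] in
/-- iterated Fitting decomposition: `V' = locF s ⊕ ∑_{ℓ ∈ s} rad_ℓ` (existence). -/
theorem twe_ft_decomp (s : Finset L) (z : V') :
    ∃ zA ∈ twe_fa_locF S.T' a s, ∃ zR ∈ ⨆ ℓ ∈ s, twe_fa_rad (S.T' ℓ) (a ℓ), z = zA + zR := by
  classical
  induction s using Finset.induction_on with
  | empty =>
    refine ⟨z, ?_, 0, Submodule.zero_mem _, (add_zero z).symm⟩
    rw [twe_fa_mem_locF]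
    intro ℓ hℓ
    exact absurd hℓ (Finset.notMem_empty ℓ)
  | insert ℓ s _ ih =>
    obtain ⟨zA, hzA, zR, hzR, rfl⟩ := ih
    obtain ⟨yG, hyG, yR, _, rfl, hG, hR⟩ :=
      twe_fa_fitting (S.T' ℓ) (a ℓ) (twe_fa_locF S.T' a s)
        (twe_fa_locF_stable S.T' S.commT' a s ℓ) hzA
    refine ⟨yG, ?_, yR + zR, ?_, by abel⟩
    · rw [twe_fa_mem_locF] at hyG ⊢
      intro ℓ' hℓ'
      rcases Finset.mem_insert.1 hℓ' with rfl | h
      · exact hG
      · exact hyG ℓ' h
    · refine Submodule.add_mem _ ?_ ?_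
      · exact Submodule.mem_iSup_of_mem ℓ
          (Submodule.mem_iSup_of_mem (Finset.mem_insert_self ℓ s) hR)
      · refine (iSup₂_le fun ℓ' hℓ' => ?_ : (⨆ ℓ' ∈ s, twe_fa_rad (S.T' ℓ') (a ℓ')) ≤ _) hzR
        exact le_iSup₂_of_le ℓ' (Finset.mem_insert_of_mem hℓ') le_rfl

include hne in
/-- **(T2)** the total transfer maps the localisation ONTO the localisation. -/
theorem twe_ft_cor_surj {y : V0} (hy : y ∈ twe_fa_loc S.T a) :
    ∃ z ∈ twe_fa_loc S.T' a, S.cor z = y := by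
  set A' := twe_fa_loc S.T' a with hA'
  set A0 := twe_fa_loc S.T a with hA0
  obtain ⟨s, hs⟩ := twe_fa_exists_finset S.T' a
  let corA : A' →ₗ[k] A0 :=
    S.cor.restrict (fun z hz => twe_fa_map_loc S.cor S.T' S.T S.cor_T a hz)
  have hsurj : Function.Surjective corA := by
    rw [← LinearMap.dualMap_injective_iff]
    rw [← LinearMap.ker_eq_bot, LinearMap.ker_eq_bot']
    intro φ hφ
    let φ1 : A0 →ₗ[k] Module.Dual k A0 := S.Ω0.domRestrict₁₂ A0 A0
    have hφ1inj : Function.Injective φ1 := by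
      rw [← LinearMap.ker_eq_bot, LinearMap.ker_eq_bot']
      intro x hx
      have h1 : (x : V0) = 0 := by
        refine twe_fa_nondeg_loc S.Ω0 S.nd0 S.T S.commT S.sa0 a x x.2 ?_
        intro y hy
        have := LinearMap.congr_fun hx ⟨y, hy⟩
        rw [LinearMap.zero_apply] at this
        exact this
      exact Subtype.ext h1
    have hφ1surj : Function.Surjective φ1 :=
      (LinearMap.injective_iff_surjective_of_finrank_eq_finrank
        (Subspace.dual_finrank_eq (K := k) (V := A0)).symm).1 hφ1inj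
    obtain ⟨x, rfl⟩ := hφ1surj φ
    -- `Ω0 x (cor z) = 0` for ALL `z : V'`
    have hA : ∀ z ∈ A', S.Ω0 (x : V0) (S.cor z) = 0 := by
      intro z hz
      have := LinearMap.congr_fun hφ ⟨z, hz⟩
      rw [LinearMap.zero_apply] at this
      exact this
    have hR : ∀ zR ∈ ⨆ ℓ ∈ s, twe_fa_rad (S.T' ℓ) (a ℓ), S.Ω0 (x : V0) (S.cor zR) = 0 := by
      intro zR hzR
      have hle : (⨆ ℓ ∈ s, twe_fa_rad (S.T' ℓ) (a ℓ)) ≤
          LinearMap.ker ((S.Ω0 (x : V0)).comp S.cor) := by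
        refine iSup₂_le fun ℓ _ w hw => ?_
        rw [LinearMap.mem_ker, LinearMap.comp_apply]
        exact twe_fa_orth S.Ω0 (S.T ℓ) (S.sa0 ℓ) (a ℓ) (twe_fa_loc_le S.T a ℓ x.2)
          (twe_ft_cor_rad S (a ℓ) ℓ hw)
      exact LinearMap.mem_ker.1 (hle hzR)
    have h2 : S.res (x : V0) = 0 := by
      refine S.nd' _ fun z => ?_
      obtain ⟨zA, hzA, zR, hzR, rfl⟩ := twe_ft_decomp S a s z
      rw [hs] at hzA
      rw [S.adj, map_add, map_add, hA zA hzA, hR zR hzR, add_zero]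
    have h3 : (x : V0) = 0 :=
      twe_fa_eq_zero_of_eigen (twe_fa_loc_le S.T a ℓ₀ x.2) (S.e ℓ₀) hne (S.ker_res _ h2 ℓ₀)
    have h4 : x = 0 := Subtype.ext h3
    rw [h4, map_zero]
  obtain ⟨z, hz⟩ := hsurj ⟨y, hy⟩
  exact ⟨z, z.2, congrArg Subtype.val hz⟩

end tot

/-! ### (T2w) the TOTAL norm `res ∘ cor` is onto `res (V0_a)`: weak form, no `cor_T` -/

/-- as `twe_ft_Tot`, but the transfer is only assumed to satisfy
`res ∘ cor ∘ T' = T' ∘ res ∘ cor` (in the application `res ∘ cor = ∑_δ conj δ`, and `T'` commutes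
with the conjugations), instead of `cor ∘ T' = T ∘ cor`. -/
structure twe_ft_TotW (k : Type*) [Field k] (L : Type*) (V' V0 : Type*)
    [AddCommGroup V'] [Module k V'] [AddCommGroup V0] [Module k V0] where
  T' : L → Module.End k V'
  T : L → Module.End k V0
  res : V0 →ₗ[k] V'
  cor : V' →ₗ[k] V0
  e : L → k
  Ω' : V' →ₗ[k] V' →ₗ[k] k
  Ω0 : V0 →ₗ[k] V0 →ₗ[k] k
  commT' : ∀ ℓ ℓ', Commute (T' ℓ) (T' ℓ')
  commT : ∀ ℓ ℓ', Commute (T ℓ) (T ℓ')
  res_T : ∀ ℓ x, res (T ℓ x) = T' ℓ (res x)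
  N_T : ∀ ℓ z, res (cor (T' ℓ z)) = T' ℓ (res (cor z))
  ker_res : ∀ x, res x = 0 → ∀ ℓ, T ℓ x = e ℓ • x
  nd' : ∀ x, (∀ y, Ω' x y = 0) → x = 0
  nd0 : ∀ x, (∀ y, Ω0 x y = 0) → x = 0
  sa0 : ∀ ℓ x y, Ω0 (T ℓ x) y = Ω0 x (T ℓ y)
  adj : ∀ x z, Ω' (res x) z = Ω0 x (cor z)

section totw

variable {k : Type*} [Field k] {L : Type*} {V' V0 : Type*}
  [AddCommGroup V'] [Module k V'] [AddCommGroup V0] [Module k V0]
  (S : twe_ft_TotW k L V' V0) (a : L → k) (ℓ₀ : L) (hne : a ℓ₀ ≠ S.e ℓ₀)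

include hne in
/-- the Eisenstein part `ker res` is orthogonal to the localisation. -/
theorem twe_ft_orth_ker {x d : V0} (hx : x ∈ twe_fa_loc S.T a) (hd : S.res d = 0) :
    S.Ω0 x d = 0 := by
  refine twe_fa_orth S.Ω0 (S.T ℓ₀) (S.sa0 ℓ₀) (a ℓ₀) (twe_fa_loc_le S.T a ℓ₀ hx) ?_
  have hne' : S.e ℓ₀ - a ℓ₀ ≠ 0 := sub_ne_zero.2 (Ne.symm hne)
  have hT : S.T ℓ₀ d = S.e ℓ₀ • d := S.ker_res d hd ℓ₀
  have h1 : ∀ m : ℕ, ((S.T ℓ₀ - a ℓ₀ • (1 : Module.End k V0)) ^ m) d = (S.e ℓ₀ - a ℓ₀) ^ m • d := by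
    intro m
    induction m with
    | zero => simp
    | succ m ih =>
      rw [pow_succ', Module.End.mul_apply, ih, map_smul, LinearMap.sub_apply,
        LinearMap.smul_apply, Module.End.one_apply, hT, ← sub_smul, smul_smul, pow_succ]
  rw [twe_fa_rad, Submodule.mem_iInf]
  intro n
  refine ⟨((S.e ℓ₀ - a ℓ₀) ^ n)⁻¹ • d, ?_⟩
  rw [map_smul, h1, smul_smul, inv_mul_cancel₀ (pow_ne_zero n hne'), one_smul]

variable [FiniteDimensional k V'] [FiniteDimensional k V0]

omit [FiniteDimensional k V0] in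
/-- iterated Fitting decomposition at the deep level (weak structure). -/
theorem twe_ft_decompW (s : Finset L) (z : V') :
    ∃ zA ∈ twe_fa_locF S.T' a s, ∃ zR ∈ ⨆ ℓ ∈ s, twe_fa_rad (S.T' ℓ) (a ℓ), z = zA + zR := by
  classical
  induction s using Finset.induction_on with
  | empty =>
    refine ⟨z, ?_, 0, Submodule.zero_mem _, (add_zero z).symm⟩
    rw [twe_fa_mem_locF]
    intro ℓ hℓ
    exact absurd hℓ (Finset.notMem_empty ℓ)
  | insert ℓ s _ ih =>
    obtain ⟨zA, hzA, zR, hzR, rfl⟩ := ih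
    obtain ⟨yG, hyG, yR, _, rfl, hG, hR⟩ :=
      twe_fa_fitting (S.T' ℓ) (a ℓ) (twe_fa_locF S.T' a s)
        (twe_fa_locF_stable S.T' S.commT' a s ℓ) hzA
    refine ⟨yG, ?_, yR + zR, ?_, by abel⟩
    · rw [twe_fa_mem_locF] at hyG ⊢
      intro ℓ' hℓ'
      rcases Finset.mem_insert.1 hℓ' with rfl | h
      · exact hG
      · exact hyG ℓ' h
    · refine Submodule.add_mem _ ?_ ?_
      · exact Submodule.mem_iSup_of_mem ℓ
          (Submodule.mem_iSup_of_mem (Finset.mem_insert_self ℓ s) hR)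
      · refine (iSup₂_le fun ℓ' hℓ' => ?_ : (⨆ ℓ' ∈ s, twe_fa_rad (S.T' ℓ') (a ℓ')) ≤ _) hzR
        exact le_iSup₂_of_le ℓ' (Finset.mem_insert_of_mem hℓ') le_rfl

include hne in
/-- **(T2w)** if the total norm `res ∘ cor` maps the localisation `V'_a` into `res (V0_a)`
(in the application: by (T1) iterated, `res ∘ cor z` being invariant), then it maps `V'_a` ONTO
`res (V0_a)`. -/
theorem twe_ft_norm_surj
    (hN : ∀ z ∈ twe_fa_loc S.T' a, ∃ x ∈ twe_fa_loc S.T a, S.res x = S.res (S.cor z))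
    {y : V0} (hy : y ∈ twe_fa_loc S.T a) :
    ∃ z ∈ twe_fa_loc S.T' a, S.res (S.cor z) = S.res y := by
  set A' := twe_fa_loc S.T' a with hA'
  set A0 := twe_fa_loc S.T a with hA0
  obtain ⟨s, hs⟩ := twe_fa_exists_finset S.T' a
  -- the pairing `A0 × A0 → k` is perfect
  let φ1 : A0 →ₗ[k] Module.Dual k A0 := S.Ω0.domRestrict₁₂ A0 A0
  have hφ1inj : Function.Injective φ1 := by
    rw [← LinearMap.ker_eq_bot, LinearMap.ker_eq_bot']
    intro x hx
    have h1 : (x : V0) = 0 := by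
      refine twe_fa_nondeg_loc S.Ω0 S.nd0 S.T S.commT S.sa0 a x x.2 ?_
      intro y hy
      have := LinearMap.congr_fun hx ⟨y, hy⟩
      rw [LinearMap.zero_apply] at this
      exact this
    exact Subtype.ext h1
  have hφ1surj : Function.Surjective φ1 :=
    (LinearMap.injective_iff_surjective_of_finrank_eq_finrank
      (Subspace.dual_finrank_eq (K := k) (V := A0)).symm).1 hφ1inj
  -- the pairing `A0 × A' → k`, `(x, z) ↦ Ω' (res x) z`, is non-degenerate on the left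
  let Ψt : A0 →ₗ[k] Module.Dual k A' := (S.Ω'.comp S.res).domRestrict₁₂ A0 A'
  have hΨt : ∀ (x : A0) (z : A'), Ψt x z = S.Ω' (S.res (x : V0)) (z : V') := fun _ _ => rfl
  have hΨtinj : Function.Injective Ψt := by
    rw [← LinearMap.ker_eq_bot, LinearMap.ker_eq_bot']
    intro x hx
    have hA : ∀ z ∈ A', S.Ω' (S.res (x : V0)) z = 0 := by
      intro z hz
      have := LinearMap.congr_fun hx ⟨z, hz⟩
      rw [LinearMap.zero_apply] at this
      exact this
    have hR : ∀ zR ∈ ⨆ ℓ ∈ s, twe_fa_rad (S.T' ℓ) (a ℓ), S.Ω' (S.res (x : V0)) zR = 0 := by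
      intro zR hzR
      have hle : (⨆ ℓ ∈ s, twe_fa_rad (S.T' ℓ) (a ℓ)) ≤ LinearMap.ker (S.Ω' (S.res (x : V0))) := by
        refine iSup₂_le fun ℓ _ w hw => ?_
        rw [LinearMap.mem_ker]
        obtain ⟨n, hn⟩ := twe_fa_mem_loc.1 x.2 ℓ
        obtain ⟨u, rfl⟩ := (Submodule.mem_iInf _).1 hw n
        set d : V0 := S.cor (((S.T' ℓ - a ℓ • (1 : Module.End k V')) ^ n) u) -
          ((S.T ℓ - a ℓ • (1 : Module.End k V0)) ^ n) (S.cor u) with hd
        have hd0 : S.res d = 0 := by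
          rw [hd, map_sub, twe_fa_intertwine_pow S.res (S.T ℓ) (S.T' ℓ) (S.res_T ℓ)]
          have := twe_fa_intertwine_pow (S.res ∘ₗ S.cor) (S.T' ℓ) (S.T' ℓ)
            (fun z => S.N_T ℓ z) (a ℓ) n u
          simp only [LinearMap.comp_apply] at this
          rw [this, sub_self]
        have h2 : S.cor (((S.T' ℓ - a ℓ • (1 : Module.End k V')) ^ n) u) =
            ((S.T ℓ - a ℓ • (1 : Module.End k V0)) ^ n) (S.cor u) + d := by
          rw [hd]; abel
        rw [S.adj, h2, map_add, ← twe_fa_adj_pow S.Ω0 (S.T ℓ) (S.sa0 ℓ), hn, map_zero,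
          LinearMap.zero_apply, zero_add]
        exact twe_ft_orth_ker S a ℓ₀ hne x.2 hd0
      exact LinearMap.mem_ker.1 (hle hzR)
    have h2 : S.res (x : V0) = 0 := by
      refine S.nd' _ fun z => ?_
      obtain ⟨zA, hzA, zR, hzR, rfl⟩ := twe_ft_decompW S a s z
      rw [hs] at hzA
      rw [map_add, hA zA hzA, hR zR hzR, add_zero]
    have h3 : (x : V0) = 0 :=
      twe_fa_eq_zero_of_eigen (twe_fa_loc_le S.T a ℓ₀ x.2) (S.e ℓ₀) hne (S.ker_res _ h2 ℓ₀)
    exact Subtype.ext h3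
  -- hence every functional on `A0` is `x ↦ Ω' (res x) z` for some `z ∈ A'`
  have hΨsurj : ∀ f : Module.Dual k A0, ∃ z : A', ∀ x : A0, f x = S.Ω' (S.res (x : V0)) (z : V') := by
    intro f
    obtain ⟨F, hF⟩ := LinearMap.dualMap_surjective_of_injective hΨtinj f
    obtain ⟨z, hz⟩ := (Module.evalEquiv k A').surjective F
    refine ⟨z, fun x => ?_⟩
    rw [← hF, LinearMap.dualMap_apply, ← hz, Module.evalEquiv_apply, Module.Dual.eval_apply, hΨt]
  obtain ⟨z, hz⟩ := hΨsurj (φ1.flip ⟨y, hy⟩)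
  obtain ⟨y', hy', hy'z⟩ := hN z z.2
  refine ⟨z, z.2, ?_⟩
  have hd0 : S.res (S.cor (z : V') - y') = 0 := by rw [map_sub, hy'z, sub_self]
  -- `y' - y ∈ A0` is right-orthogonal to `A0`
  have hw : ∀ x : A0, S.Ω0 (x : V0) (y' - y) = 0 := by
    intro x
    have h1 := hz x
    have h2 : φ1.flip ⟨y, hy⟩ x = S.Ω0 (x : V0) y := rfl
    rw [h2, S.adj] at h1
    have h3 : S.cor (z : V') = y' + (S.cor (z : V') - y') := by abel
    rw [h3, map_add, twe_ft_orth_ker S a ℓ₀ hne x.2 hd0, add_zero] at h1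
    rw [map_sub, h1, sub_self]
  have hw0 : (⟨y' - y, A0.sub_mem hy' hy⟩ : A0) = 0 := by
    rw [← Module.forall_dual_apply_eq_zero_iff k]
    intro f
    obtain ⟨x, rfl⟩ := hφ1surj f
    exact hw x
  have hyy : y' = y := sub_eq_zero.1 (congrArg Subtype.val hw0)
  rw [← hy'z, hyy]

end totw

/-! ### (T3) commuting operators of `p`-power order: `Inv ≤ range N ⟹ dim V = q · dim Inv` -/

section list

variable {k : Type*} [Field k] {V : Type*} [AddCommGroup V] [Module k V]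

/-- the norm `1 + g + ⋯ + g^(p^n - 1)` of a pair `(g, n)`. -/
def twe_ft_nm (p : ℕ) (gn : Module.End k V × ℕ) : Module.End k V :=
  ∑ j ∈ Finset.range (p ^ gn.2), gn.1 ^ j

/-- the total norm `∏ N_g`. -/
def twe_ft_N (p : ℕ) : List (Module.End k V × ℕ) → Module.End k V
  | [] => 1
  | gn :: l => twe_ft_nm p gn * twe_ft_N p l

/-- the common invariants `⨅ ker (g - 1)`. -/
def twe_ft_Inv : List (Module.End k V × ℕ) → Submodule k V
  | [] => ⊤
  | gn :: l => LinearMap.ker (gn.1 - 1) ⊓ twe_ft_Inv l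

/-- the augmentation submodule `∑ range (g - 1)`. -/
def twe_ft_I : List (Module.End k V × ℕ) → Submodule k V
  | [] => ⊥
  | gn :: l => LinearMap.range (gn.1 - 1) ⊔ twe_ft_I l

/-- the order `∏ p^n`. -/
def twe_ft_q (p : ℕ) : List (Module.End k V × ℕ) → ℕ
  | [] => 1
  | gn :: l => p ^ gn.2 * twe_ft_q p l

/-- an operator commuting with all `g ∈ l` preserves the invariants. -/
theorem twe_ft_Inv_stable (f : Module.End k V) :
    ∀ l : List (Module.End k V × ℕ), (∀ gn ∈ l, Commute f gn.1) →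
      ∀ u ∈ twe_ft_Inv l, f u ∈ twe_ft_Inv l
  | [], _, _, _ => Submodule.mem_top
  | gn :: l, h, u, hu => by
    have hc : Commute f gn.1 := h gn List.mem_cons_self
    refine ⟨?_, twe_ft_Inv_stable f l (fun gn' hgn' => h gn' (List.mem_cons_of_mem _ hgn')) u hu.2⟩
    have h1 : gn.1 u = u := by
      have := LinearMap.mem_ker.1 hu.1
      rwa [LinearMap.sub_apply, Module.End.one_apply, sub_eq_zero] at this
    refine LinearMap.mem_ker.2 ?_
    rw [LinearMap.sub_apply, Module.End.one_apply, sub_eq_zero,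
      ← Module.End.mul_apply, ← hc.eq, Module.End.mul_apply, h1]

theorem twe_ft_nm_commute (p : ℕ) (gn : Module.End k V × ℕ) (f : Module.End k V)
    (h : Commute gn.1 f) : Commute (twe_ft_nm p gn) f := by
  unfold twe_ft_nm
  exact Commute.sum_left _ _ _ fun j _ => h.pow_left j

/-- an operator commuting with all `g ∈ l` commutes with the total norm. -/
theorem twe_ft_N_commute (p : ℕ) (f : Module.End k V) :
    ∀ l : List (Module.End k V × ℕ), (∀ gn ∈ l, Commute gn.1 f) → Commute (twe_ft_N p l) f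
  | [], _ => Commute.one_left f
  | gn :: l, h => by
    show Commute (twe_ft_nm p gn * twe_ft_N p l) f
    exact (twe_ft_nm_commute p gn f (h gn List.mem_cons_self)).mul_left
      (twe_ft_N_commute p f l fun gn' hgn' => h gn' (List.mem_cons_of_mem _ hgn'))

theorem twe_ft_sub_one_mul_nm (p : ℕ) (gn : Module.End k V × ℕ) (h : gn.1 ^ (p ^ gn.2) = 1) :
    (gn.1 - 1) * twe_ft_nm p gn = 0 := by
  unfold twe_ft_nm
  rw [mul_geom_sum, h, sub_self]

/-- the total norm lands in the invariants. -/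
theorem twe_ft_range_N_le (p : ℕ) :
    ∀ l : List (Module.End k V × ℕ), l.Pairwise (fun a b => Commute a.1 b.1) →
      (∀ gn ∈ l, gn.1 ^ (p ^ gn.2) = 1) → LinearMap.range (twe_ft_N p l) ≤ twe_ft_Inv l
  | [], _, _ => le_top
  | gn :: l, hc, hp => by
    rintro _ ⟨v, rfl⟩
    have hc' := List.pairwise_cons.1 hc
    show twe_ft_nm p gn (twe_ft_N p l v) ∈ LinearMap.ker (gn.1 - 1) ⊓ twe_ft_Inv l
    refine ⟨?_, ?_⟩
    · refine LinearMap.mem_ker.2 ?_
      rw [← Module.End.mul_apply,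
        twe_ft_sub_one_mul_nm p gn (hp gn List.mem_cons_self), LinearMap.zero_apply]
    · refine twe_ft_Inv_stable (twe_ft_nm p gn) l
        (fun gn' hgn' => twe_ft_nm_commute p gn gn'.1 (hc'.1 gn' hgn')) _ ?_
      exact twe_ft_range_N_le p l hc'.2 (fun gn' hgn' => hp gn' (List.mem_cons_of_mem _ hgn'))
        ⟨v, rfl⟩

/-- Nakayama for one nilpotent operator. -/
theorem twe_ft_nak_nilp {U : Type*} [AddCommGroup U] [Module k U] (x : Module.End k U) (q : ℕ)
    (hx : x ^ q = 0) (S : Submodule k U) (hS : ∀ s ∈ S, x s ∈ S)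
    (h : ∀ u : U, ∃ s ∈ S, ∃ w : U, u = s + x w) : S = ⊤ := by
  have key : ∀ i : ℕ, ∀ u : U, ∃ s ∈ S, ∃ w : U, u = s + (x ^ i) w := by
    intro i
    induction i with
    | zero => intro u; exact ⟨0, S.zero_mem, u, by simp⟩
    | succ i ih =>
      intro u
      obtain ⟨s, hs, w, rfl⟩ := ih u
      obtain ⟨s', hs', w', rfl⟩ := h w
      have hpow : ∀ j : ℕ, ∀ t ∈ S, (x ^ j) t ∈ S := by
        intro j
        induction j with
        | zero => intro t ht; simpa using ht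
        | succ j ihj =>
          intro t ht
          rw [pow_succ', Module.End.mul_apply]
          exact hS _ (ihj t ht)
      refine ⟨s + (x ^ i) s', S.add_mem hs (hpow i s' hs'), w', ?_⟩
      rw [map_add, pow_succ, Module.End.mul_apply]
      abel
  refine eq_top_iff.2 fun u _ => ?_
  obtain ⟨s, hs, w, rfl⟩ := key q u
  rw [hx, LinearMap.zero_apply, add_zero]
  exact hs

/-- one nilpotent operator: `x ^ q = 0` and `ker x ≤ range x ^ (q - 1)` force
`dim U = q · dim ker x` and `ker x ^ (q - 1) = range x`. -/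
theorem twe_ft_single {U : Type*} [AddCommGroup U] [Module k U] [FiniteDimensional k U]
    (x : Module.End k U) (q : ℕ) (hq : 0 < q) (hx : x ^ q = 0)
    (hker : LinearMap.ker x ≤ LinearMap.range (x ^ (q - 1))) :
    finrank k U = q * finrank k (LinearMap.ker x) ∧
      LinearMap.ker (x ^ (q - 1)) = LinearMap.range x := by
  refine ⟨twe_fc_finrank_eq_mul_ker x q hx hker, ?_⟩
  have hle : LinearMap.range (x ^ (q - 1)) ≤ LinearMap.ker x := by
    rintro _ ⟨v, rfl⟩
    rw [LinearMap.mem_ker, ← Module.End.mul_apply, ← pow_succ', Nat.sub_add_cancel hq, hx,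
      LinearMap.zero_apply]
  have heq : LinearMap.range (x ^ (q - 1)) = LinearMap.ker x := le_antisymm hle hker
  symm
  refine Submodule.eq_of_le_of_finrank_eq ?_ ?_
  · rintro _ ⟨v, rfl⟩
    rw [LinearMap.mem_ker, ← Module.End.mul_apply, ← pow_succ, Nat.sub_add_cancel hq, hx,
      LinearMap.zero_apply]
  · have h1 := LinearMap.finrank_range_add_finrank_ker x
    have h2 := LinearMap.finrank_range_add_finrank_ker (x ^ (q - 1))
    rw [heq] at h2
    omega

/-- **(T3), list form.** Pairwise commuting operators `g` with `g ^ (p ^ n) = 1` in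
characteristic `p`; if the common invariants lie in the range of the total norm `∏ N_g`, then
`dim V = (∏ p ^ n) · dim (invariants)` and `ker (∏ N_g) ≤ ∑ range (g - 1)`. -/
theorem twe_ft_list (p : ℕ) [Fact p.Prime] [CharP k p] [FiniteDimensional k V] :
    ∀ l : List (Module.End k V × ℕ), l.Pairwise (fun a b => Commute a.1 b.1) →
      (∀ gn ∈ l, gn.1 ^ (p ^ gn.2) = 1) →
      twe_ft_Inv l ≤ LinearMap.range (twe_ft_N p l) →
      finrank k V = twe_ft_q p l * finrank k (twe_ft_Inv l) ∧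
        LinearMap.ker (twe_ft_N p l) ≤ twe_ft_I l
  | [], _, _, _ => by
    refine ⟨?_, ?_⟩
    · show finrank k V = 1 * finrank k (⊤ : Submodule k V)
      rw [one_mul, finrank_top]
    · intro v hv
      have hv' : (1 : Module.End k V) v = 0 := LinearMap.mem_ker.1 hv
      rw [Module.End.one_apply] at hv'
      rw [hv']
      exact Submodule.zero_mem _
  | gn :: l, hc, hp, H => by
    have hc' := List.pairwise_cons.1 hc
    have hpl : ∀ gn' ∈ l, gn'.1 ^ (p ^ gn'.2) = 1 :=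
      fun gn' h => hp gn' (List.mem_cons_of_mem _ h)
    have hg : gn.1 ^ (p ^ gn.2) = 1 := hp gn List.mem_cons_self
    have hq : 0 < p ^ gn.2 := pow_pos (Fact.out : p.Prime).pos _
    have hNU : LinearMap.range (twe_ft_N p l) ≤ twe_ft_Inv l :=
      twe_ft_range_N_le p l hc'.2 hpl
    -- `g - 1` preserves `U = Inv l`
    have hxU : ∀ u ∈ twe_ft_Inv l, (gn.1 - 1) u ∈ twe_ft_Inv l := by
      intro u hu
      rw [LinearMap.sub_apply, Module.End.one_apply]
      exact (twe_ft_Inv l).sub_mem (twe_ft_Inv_stable gn.1 l (fun gn' h => hc'.1 gn' h) u hu) hu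
    have hxpow : ∀ j : ℕ, ∀ u : twe_ft_Inv l,
        ((((gn.1 - 1).restrict hxU) ^ j) u : V) = ((gn.1 - 1) ^ j) u := by
      intro j u
      rw [Module.End.pow_restrict, LinearMap.coe_restrict_apply]
    have hxq : ((gn.1 - 1).restrict hxU) ^ (p ^ gn.2) = 0 := by
      ext u
      rw [hxpow, twe_fc_sub_one_pow p gn.2 gn.1 hg]
      simp
    have hNg : (gn.1 - 1) ^ (p ^ gn.2 - 1) = twe_ft_nm p gn :=
      twe_fc_sub_one_pow_pred p gn.2 gn.1
    have hNcomm : Commute (twe_ft_N p l) (gn.1 - 1) :=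
      (twe_ft_N_commute p gn.1 l (fun gn' h => (hc'.1 gn' h).symm)).sub_right
        (Commute.one_right _)
    -- the invariants of `U` come from `S = range N_l`
    have hkerS : ∀ u ∈ LinearMap.ker ((gn.1 - 1).restrict hxU),
        ∃ v : V, ∃ hv : twe_ft_N p l v ∈ twe_ft_Inv l,
          (((gn.1 - 1).restrict hxU) ^ (p ^ gn.2 - 1)) ⟨twe_ft_N p l v, hv⟩ = u := by
      intro u hu
      have hu0 : (gn.1 - 1) (u : V) = 0 := by
        have := congrArg Subtype.val (LinearMap.mem_ker.1 hu)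
        rwa [LinearMap.coe_restrict_apply] at this
      have hmem : (u : V) ∈ twe_ft_Inv (gn :: l) := ⟨LinearMap.mem_ker.2 hu0, u.2⟩
      obtain ⟨v, hv⟩ := H hmem
      refine ⟨v, hNU ⟨v, rfl⟩, Subtype.ext ?_⟩
      rw [hxpow, hNg]
      exact hv
    have hkerU : LinearMap.ker ((gn.1 - 1).restrict hxU) ≤
        LinearMap.range (((gn.1 - 1).restrict hxU) ^ (p ^ gn.2 - 1)) := by
      intro u hu
      obtain ⟨v, hv, h⟩ := hkerS u hu
      exact ⟨_, h⟩
    obtain ⟨hdimU, hkerpow⟩ := twe_ft_single ((gn.1 - 1).restrict hxU) (p ^ gn.2) hq hxq hkerU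
    -- `H(l)` by Nakayama
    have hHl : twe_ft_Inv l ≤ LinearMap.range (twe_ft_N p l) := by
      have hStop : (LinearMap.range (twe_ft_N p l)).comap (twe_ft_Inv l).subtype = ⊤ := by
        refine twe_ft_nak_nilp ((gn.1 - 1).restrict hxU) (p ^ gn.2) hxq _ ?_ ?_
        · rintro s ⟨v, hv⟩
          refine ⟨(gn.1 - 1) v, ?_⟩
          show twe_ft_N p l ((gn.1 - 1) v) = (((gn.1 - 1).restrict hxU s : twe_ft_Inv l) : V)
          rw [LinearMap.coe_restrict_apply, ← Module.End.mul_apply, hNcomm.eq,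
            Module.End.mul_apply, hv]
          rfl
        · intro u
          have h1 : (((gn.1 - 1).restrict hxU) ^ (p ^ gn.2 - 1)) u ∈
              LinearMap.ker ((gn.1 - 1).restrict hxU) := by
            rw [LinearMap.mem_ker, ← Module.End.mul_apply, ← pow_succ', Nat.sub_add_cancel hq,
              hxq, LinearMap.zero_apply]
          obtain ⟨v, hv, h⟩ := hkerS _ h1
          have h2 : u - ⟨twe_ft_N p l v, hv⟩ ∈
              LinearMap.ker (((gn.1 - 1).restrict hxU) ^ (p ^ gn.2 - 1)) := by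
            rw [LinearMap.mem_ker, map_sub, h, sub_self]
          rw [hkerpow] at h2
          obtain ⟨w, hw⟩ := h2
          refine ⟨⟨twe_ft_N p l v, hv⟩, ⟨v, rfl⟩, w, ?_⟩
          rw [hw]
          abel
      intro u hu
      have : (⟨u, hu⟩ : twe_ft_Inv l) ∈
          (LinearMap.range (twe_ft_N p l)).comap (twe_ft_Inv l).subtype := by
        rw [hStop]; exact Submodule.mem_top
      exact this
    obtain ⟨hdimV, hkerl⟩ := twe_ft_list p l hc'.2 hpl hHl
    refine ⟨?_, ?_⟩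
    · have hInv : finrank k (LinearMap.ker ((gn.1 - 1).restrict hxU)) =
          finrank k (twe_ft_Inv (gn :: l)) := by
        have : LinearMap.ker ((gn.1 - 1).restrict hxU) =
            Submodule.comap (twe_ft_Inv l).subtype (twe_ft_Inv (gn :: l)) := by
          ext u
          constructor
          · intro hu
            have := congrArg Subtype.val (LinearMap.mem_ker.1 hu)
            rw [LinearMap.coe_restrict_apply] at this
            exact ⟨LinearMap.mem_ker.2 this, u.2⟩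
          · rintro ⟨h1, _⟩
            refine LinearMap.mem_ker.2 (Subtype.ext ?_)
            rw [LinearMap.coe_restrict_apply]
            exact LinearMap.mem_ker.1 h1
        rw [this]
        exact LinearEquiv.finrank_eq
          (Submodule.comapSubtypeEquivOfLe (inf_le_right : twe_ft_Inv (gn :: l) ≤ twe_ft_Inv l))
      show finrank k V = p ^ gn.2 * twe_ft_q p l * finrank k (twe_ft_Inv (gn :: l))
      rw [hdimV, hdimU, hInv]
      ring
    · intro v hv
      have hv0 : twe_ft_nm p gn (twe_ft_N p l v) = 0 := LinearMap.mem_ker.1 hv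
      have hs : (⟨twe_ft_N p l v, hNU ⟨v, rfl⟩⟩ : twe_ft_Inv l) ∈
          LinearMap.ker (((gn.1 - 1).restrict hxU) ^ (p ^ gn.2 - 1)) := by
        refine LinearMap.mem_ker.2 (Subtype.ext ?_)
        rw [hxpow, hNg]
        exact hv0
      rw [hkerpow] at hs
      obtain ⟨u', hu'⟩ := hs
      obtain ⟨v', hv'⟩ := hHl u'.2
      have hu'' : (gn.1 - 1) (u' : V) = twe_ft_N p l v := by
        have := congrArg Subtype.val hu'
        rwa [LinearMap.coe_restrict_apply] at this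
      have h2 : twe_ft_N p l (v - (gn.1 - 1) v') = 0 := by
        rw [map_sub, ← Module.End.mul_apply, hNcomm.eq, Module.End.mul_apply, hv', hu'', sub_self]
      have h3 : v - (gn.1 - 1) v' ∈ twe_ft_I l := hkerl (LinearMap.mem_ker.2 h2)
      have h4 : v = (gn.1 - 1) v' + (v - (gn.1 - 1) v') := by abel
      rw [h4]
      show _ ∈ LinearMap.range (gn.1 - 1) ⊔ twe_ft_I l
      exact Submodule.add_mem_sup ⟨v', rfl⟩ h3

/-! ### (T3'), representation form -/

theorem twe_ft_N_eq_prod (p : ℕ) :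
    ∀ l : List (Module.End k V × ℕ), twe_ft_N p l = (l.map (twe_ft_nm p)).prod
  | [] => rfl
  | gn :: l => by
    show twe_ft_nm p gn * twe_ft_N p l = _
    rw [List.map_cons, List.prod_cons, twe_ft_N_eq_prod p l]

theorem twe_ft_q_eq_prod (p : ℕ) :
    ∀ l : List (Module.End k V × ℕ), twe_ft_q p l = (l.map fun gn => p ^ gn.2).prod
  | [] => rfl
  | gn :: l => by
    show p ^ gn.2 * twe_ft_q p l = _
    rw [List.map_cons, List.prod_cons, twe_ft_q_eq_prod p l]

theorem twe_ft_mem_Inv (v : V) :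
    ∀ l : List (Module.End k V × ℕ), v ∈ twe_ft_Inv l ↔ ∀ gn ∈ l, gn.1 v = v
  | [] => by simp [twe_ft_Inv]
  | gn :: l => by
    have h1 : v ∈ twe_ft_Inv (gn :: l) ↔ v ∈ LinearMap.ker (gn.1 - 1) ∧ v ∈ twe_ft_Inv l :=
      Iff.rfl
    rw [h1, twe_ft_mem_Inv v l, LinearMap.mem_ker, LinearMap.sub_apply, Module.End.one_apply,
      sub_eq_zero, List.forall_mem_cons]

theorem twe_ft_I_le (J : Submodule k V) :
    ∀ l : List (Module.End k V × ℕ), (∀ gn ∈ l, LinearMap.range (gn.1 - 1) ≤ J) →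
      twe_ft_I l ≤ J
  | [], _ => bot_le
  | gn :: l, h => by
    show LinearMap.range (gn.1 - 1) ⊔ twe_ft_I l ≤ J
    exact sup_le (h gn List.mem_cons_self)
      (twe_ft_I_le J l fun gn' hgn' => h gn' (List.mem_cons_of_mem _ hgn'))

end list

section rep

variable {k : Type*} [Field k] {V : Type*} [AddCommGroup V] [Module k V]
  {Δ : Type*} [CommGroup Δ] [Fintype Δ] {ι : Type*} [Fintype ι]

/-- the list of operators attached to a family `γ` of elements of `Δ` with exponents `n`. -/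
def twe_ft_lst (ρ : Δ →* Module.End k V) (γ : ι → Δ) (n : ι → ℕ) :
    List (Module.End k V × ℕ) :=
  (Finset.univ : Finset ι).toList.map fun t => (ρ (γ t), n t)

omit [Fintype Δ] in
theorem twe_ft_mem_lst (ρ : Δ →* Module.End k V) (γ : ι → Δ) (n : ι → ℕ)
    (gn : Module.End k V × ℕ) :
    gn ∈ twe_ft_lst ρ γ n ↔ ∃ t : ι, gn = (ρ (γ t), n t) := by
  unfold twe_ft_lst
  rw [List.mem_map]
  constructor
  · rintro ⟨t, _, rfl⟩; exact ⟨t, rfl⟩
  · rintro ⟨t, rfl⟩; exact ⟨t, Finset.mem_toList.2 (Finset.mem_univ t), rfl⟩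

/-- the total norm of the list is the norm of `Δ`. -/
theorem twe_ft_N_lst (p : ℕ) (ρ : Δ →* Module.End k V) (γ : ι → Δ) (n : ι → ℕ)
    (hbij : Function.Bijective fun x : (∀ t : ι, Fin (p ^ n t)) => ∏ t, γ t ^ (x t : ℕ)) :
    twe_ft_N p (twe_ft_lst ρ γ n) = ∑ δ : Δ, ρ δ := by
  classical
  set Φ : MonoidAlgebra k Δ →ₐ[k] Module.End k V :=
    MonoidAlgebra.lift k (Module.End k V) Δ ρ with hΦdef
  have hΦ : ∀ δ : Δ, Φ (MonoidAlgebra.of k Δ δ) = ρ δ := fun δ => by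
    rw [hΦdef]; exact MonoidAlgebra.lift_of ρ δ
  have key : (∑ δ : Δ, MonoidAlgebra.of k Δ δ) =
      ∏ t : ι, ∑ j : Fin (p ^ n t), (MonoidAlgebra.of k Δ (γ t)) ^ (j : ℕ) := by
    rw [Finset.prod_univ_sum, Fintype.piFinset_univ]
    rw [← hbij.sum_comp fun δ => MonoidAlgebra.of k Δ δ]
    refine Finset.sum_congr rfl fun x _ => ?_
    rw [map_prod]
    refine Finset.prod_congr rfl fun t _ => ?_
    rw [map_pow]
  have h1 : Φ (∑ δ : Δ, MonoidAlgebra.of k Δ δ) = ∑ δ : Δ, ρ δ := by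
    rw [map_sum]
    exact Finset.sum_congr rfl fun δ _ => hΦ δ
  rw [← h1, key, twe_ft_N_eq_prod, ← Finset.prod_map_toList, map_list_prod]
  unfold twe_ft_lst
  rw [List.map_map, List.map_map]
  congr 1
  refine List.map_congr_left fun t _ => ?_
  show twe_ft_nm p (ρ (γ t), n t) =
    Φ (∑ j : Fin (p ^ n t), (MonoidAlgebra.of k Δ (γ t)) ^ (j : ℕ))
  rw [map_sum]
  unfold twe_ft_nm
  rw [← Fin.sum_univ_eq_sum_range]
  refine Finset.sum_congr rfl fun j _ => ?_
  rw [map_pow, hΦ]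

theorem twe_ft_q_lst (p : ℕ) (ρ : Δ →* Module.End k V) (γ : ι → Δ) (n : ι → ℕ)
    (hbij : Function.Bijective fun x : (∀ t : ι, Fin (p ^ n t)) => ∏ t, γ t ^ (x t : ℕ)) :
    twe_ft_q p (twe_ft_lst ρ γ n) = Fintype.card Δ := by
  classical
  rw [← Fintype.card_of_bijective hbij, Fintype.card_pi, twe_ft_q_eq_prod]
  unfold twe_ft_lst
  rw [List.map_map, ← Finset.prod_map_toList]
  congr 1
  refine List.map_congr_left fun t _ => ?_
  simp

omit [Fintype Δ] in
theorem twe_ft_mem_Inv_lst (p : ℕ) (ρ : Δ →* Module.End k V) (γ : ι → Δ) (n : ι → ℕ)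
    (hbij : Function.Bijective fun x : (∀ t : ι, Fin (p ^ n t)) => ∏ t, γ t ^ (x t : ℕ))
    (v : V) : v ∈ twe_ft_Inv (twe_ft_lst ρ γ n) ↔ ∀ δ : Δ, ρ δ v = v := by
  rw [twe_ft_mem_Inv]
  constructor
  · intro h δ
    have hγ : ∀ t, ρ (γ t) v = v := fun t =>
      h (ρ (γ t), n t) ((twe_ft_mem_lst ρ γ n _).2 ⟨t, rfl⟩)
    let S : Submonoid Δ :=
      { carrier := {δ | ρ δ v = v}
        one_mem' := by simp
        mul_mem' := by
          intro a b ha hb
          show ρ (a * b) v = v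
          rw [map_mul, Module.End.mul_apply, hb, ha] }
    obtain ⟨x, rfl⟩ := hbij.2 δ
    have : (∏ t, γ t ^ (x t : ℕ)) ∈ S :=
      Submonoid.prod_mem S fun t _ => Submonoid.pow_mem S (hγ t) _
    exact this
  · intro h gn hgn
    obtain ⟨t, rfl⟩ := (twe_ft_mem_lst ρ γ n gn).1 hgn
    exact h (γ t)

/-- **(T3), representation form.** `Δ` a finite commutative group with a "basis"
`γ t` of orders dividing `p ^ n t` (the monomials `∏ γ t ^ x t`, `x t < p ^ n t`, enumerate `Δ`),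
acting on a finite dimensional `k`-space `V`, `char k = p`. If the invariants lie in the range of
the norm `∑ ρ δ`, then `dim V = |Δ| · dim V^Δ` and `ker (norm) ≤ I_Δ V`. -/
theorem twe_ft_rep (p : ℕ) [Fact p.Prime] [CharP k p] [FiniteDimensional k V]
    (ρ : Δ →* Module.End k V) (γ : ι → Δ) (n : ι → ℕ) (hγ : ∀ t, γ t ^ (p ^ n t) = 1)
    (hbij : Function.Bijective fun x : (∀ t : ι, Fin (p ^ n t)) => ∏ t, γ t ^ (x t : ℕ))
    (h : (⨅ δ : Δ, LinearMap.ker (ρ δ - 1)) ≤ LinearMap.range (∑ δ : Δ, ρ δ)) :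
    finrank k V = Fintype.card Δ * finrank k ↥(⨅ δ : Δ, LinearMap.ker (ρ δ - 1)) ∧
      LinearMap.ker (∑ δ : Δ, ρ δ) ≤ ⨆ δ : Δ, LinearMap.range (ρ δ - 1) := by
  have hInv : twe_ft_Inv (twe_ft_lst ρ γ n) = ⨅ δ : Δ, LinearMap.ker (ρ δ - 1) := by
    ext v
    rw [twe_ft_mem_Inv_lst p ρ γ n hbij, Submodule.mem_iInf]
    refine forall_congr' fun δ => ?_
    rw [LinearMap.mem_ker, LinearMap.sub_apply, Module.End.one_apply, sub_eq_zero]
  have hcomm : (twe_ft_lst ρ γ n).Pairwise fun a b => Commute a.1 b.1 := by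
    unfold twe_ft_lst
    rw [List.pairwise_map]
    refine List.pairwise_of_forall fun t t' => ?_
    show Commute (ρ (γ t)) (ρ (γ t'))
    exact (Commute.all (γ t) (γ t')).map ρ
  have hpow : ∀ gn ∈ twe_ft_lst ρ γ n, gn.1 ^ (p ^ gn.2) = 1 := by
    intro gn hgn
    obtain ⟨t, rfl⟩ := (twe_ft_mem_lst ρ γ n gn).1 hgn
    show ρ (γ t) ^ (p ^ n t) = 1
    rw [← map_pow, hγ, map_one]
  have hmain := twe_ft_list p (twe_ft_lst ρ γ n) hcomm hpow
    (by rw [hInv, twe_ft_N_lst p ρ γ n hbij]; exact h)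
  rw [hInv, twe_ft_N_lst p ρ γ n hbij, twe_ft_q_lst p ρ γ n hbij] at hmain
  refine ⟨hmain.1, hmain.2.trans ?_⟩
  refine twe_ft_I_le _ _ fun gn hgn => ?_
  obtain ⟨t, rfl⟩ := (twe_ft_mem_lst ρ γ n gn).1 hgn
  exact le_iSup (fun δ : Δ => LinearMap.range (ρ δ - 1)) (γ t)

end rep

/-! ### (T3''), the shape `Δ = ∏ ℤ/p^(n t)` of `twe_Delta` -/

section pi

variable {k : Type*} [Field k] {V : Type*} [AddCommGroup V] [Module k V]
  {ι : Type*} [Fintype ι] [DecidableEq ι]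

/-- the standard generator of the factor `t` of `Multiplicative (∀ t, ZMod (p ^ n t))`. -/
def twe_ft_gen (p : ℕ) (n : ι → ℕ) (t : ι) : Multiplicative (∀ t : ι, ZMod (p ^ n t)) :=
  Multiplicative.ofAdd (Pi.single t 1)

omit [Fintype ι] in
theorem twe_ft_gen_pow (p : ℕ) (n : ι → ℕ) (t : ι) : twe_ft_gen p n t ^ (p ^ n t) = 1 := by
  unfold twe_ft_gen
  rw [← ofAdd_nsmul, ← Pi.single_smul, nsmul_one, ZMod.natCast_self, Pi.single_zero]
  rfl

theorem twe_ft_gen_prod (p : ℕ) (n : ι → ℕ) (x : ∀ t : ι, Fin (p ^ n t)) :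
    ∏ t, twe_ft_gen p n t ^ (x t : ℕ) =
      Multiplicative.ofAdd fun t => ((x t : ℕ) : ZMod (p ^ n t)) := by
  unfold twe_ft_gen
  have h1 : ∀ t : ι, (Multiplicative.ofAdd (Pi.single t (1 : ZMod (p ^ n t))) :
      Multiplicative (∀ t : ι, ZMod (p ^ n t))) ^ (x t : ℕ) =
      Multiplicative.ofAdd (Pi.single t ((x t : ℕ) : ZMod (p ^ n t))) := by
    intro t
    rw [← ofAdd_nsmul, ← Pi.single_smul, nsmul_one]
  rw [Finset.prod_congr rfl fun t _ => h1 t, ← ofAdd_sum]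
  congr 1
  funext t'
  rw [Finset.sum_apply, Finset.sum_eq_single t']
  · rw [Pi.single_eq_same]
  · intro t _ htt'
    rw [Pi.single_eq_of_ne' htt']
  · intro h
    exact absurd (Finset.mem_univ t') h

theorem twe_ft_pi_bij (p : ℕ) [Fact p.Prime] (n : ι → ℕ) :
    Function.Bijective fun x : (∀ t : ι, Fin (p ^ n t)) =>
      ∏ t, twe_ft_gen p n t ^ (x t : ℕ) := by
  have : ∀ t, NeZero (p ^ n t) := fun t => ⟨pow_ne_zero _ (Fact.out : p.Prime).ne_zero⟩
  constructor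
  · intro x y hxy
    simp only [twe_ft_gen_prod] at hxy
    have h1 := Multiplicative.ofAdd.injective hxy
    funext t
    have h2 := congrFun h1 t
    have h3 := congrArg ZMod.val h2
    rw [ZMod.val_natCast, ZMod.val_natCast, Nat.mod_eq_of_lt (x t).2,
      Nat.mod_eq_of_lt (y t).2] at h3
    exact Fin.ext h3
  · intro δ
    refine ⟨fun t => ⟨(Multiplicative.toAdd δ t).val, ZMod.val_lt _⟩,
      (twe_ft_gen_prod p n _).trans ?_⟩
    apply Multiplicative.toAdd.injective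
    funext t
    show (((Multiplicative.toAdd δ t).val : ℕ) : ZMod (p ^ n t)) = Multiplicative.toAdd δ t
    exact ZMod.natCast_zmod_val _

/-- **(T3), for `Δ = ∏ ℤ/p^(n t)`** (the shape of `twe_Delta`). -/
theorem twe_ft_pi (p : ℕ) [Fact p.Prime] [CharP k p] [FiniteDimensional k V] (n : ι → ℕ)
    [Fintype (Multiplicative (∀ t : ι, ZMod (p ^ n t)))]
    (ρ : Multiplicative (∀ t : ι, ZMod (p ^ n t)) →* Module.End k V)
    (h : (⨅ δ, LinearMap.ker (ρ δ - 1)) ≤ LinearMap.range (∑ δ, ρ δ)) :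
    finrank k V = Fintype.card (Multiplicative (∀ t : ι, ZMod (p ^ n t))) *
        finrank k ↥(⨅ δ, LinearMap.ker (ρ δ - 1)) ∧
      LinearMap.ker (∑ δ, ρ δ) ≤ ⨆ δ, LinearMap.range (ρ δ - 1) :=
  twe_ft_rep p ρ (twe_ft_gen p n) n (twe_ft_gen_pow p n) (twe_ft_pi_bij p n) h

end pi

/-! ### (T) the abstract total statement -/

section main

variable {k : Type*} [Field k] {L : Type*} {V' V0 : Type*}
  [AddCommGroup V'] [Module k V'] [AddCommGroup V0] [Module k V0]
  [FiniteDimensional k V'] [FiniteDimensional k V0]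
  {Δ : Type*} [CommGroup Δ] [Fintype Δ] {ι : Type*} [Fintype ι]

/-- the action of `Δ` on the localisation. -/
def twe_ft_rhoA (T' : L → Module.End k V') (a : L → k) (ρ : Δ →* Module.End k V')
    (hρT : ∀ δ ℓ z, ρ δ (T' ℓ z) = T' ℓ (ρ δ z)) : Δ →* Module.End k (twe_fa_loc T' a) where
  toFun δ := (ρ δ).restrict fun _ hz => twe_fa_map_loc (ρ δ) T' T' (hρT δ) a hz
  map_one' := by
    ext z
    rw [LinearMap.coe_restrict_apply, map_one, Module.End.one_apply, Module.End.one_apply]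
  map_mul' δ δ' := by
    ext z
    rw [LinearMap.coe_restrict_apply, map_mul, Module.End.mul_apply, Module.End.mul_apply,
      LinearMap.coe_restrict_apply, LinearMap.coe_restrict_apply]

omit [FiniteDimensional k V'] [Fintype Δ] in
theorem twe_ft_rhoA_coe (T' : L → Module.End k V') (a : L → k) (ρ : Δ →* Module.End k V')
    (hρT : ∀ δ ℓ z, ρ δ (T' ℓ z) = T' ℓ (ρ δ z)) (δ : Δ) (z : twe_fa_loc T' a) :
    ((twe_ft_rhoA T' a ρ hρT δ z : twe_fa_loc T' a) : V') = ρ δ (z : V') :=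
  rfl

/-- **(T), the abstract total statement of E/Free.** `V' = W(Γ_H, k)`, `V0 = W(Γ₀(M), k)`,
`Δ = Γ₀(M)/Γ_H` with a basis `γ`, acting on `V'` by `ρ` (conjugation), commuting with the Hecke
operators, `res ∘ cor = ∑_δ ρ δ`, and (T1, iterated) the invariants of the localisation `V'_a` are
restrictions of `V0_a`. Then `dim V'_a = |Δ| · dim V0_a`, restriction is injective on `V0_a` with
image the invariants, `res ∘ cor` maps `V'_a` onto `res V0_a`, and the kernel of `res ∘ cor` on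
`V'_a` is `I_Δ V'_a`. -/
theorem twe_ft_main (p : ℕ) [Fact p.Prime] [CharP k p] (S : twe_ft_TotW k L V' V0) (a : L → k)
    (ℓ₀ : L) (hne : a ℓ₀ ≠ S.e ℓ₀) (ρ : Δ →* Module.End k V') (γ : ι → Δ) (n : ι → ℕ)
    (hγ : ∀ t, γ t ^ (p ^ n t) = 1)
    (hbij : Function.Bijective fun x : (∀ t : ι, Fin (p ^ n t)) => ∏ t, γ t ^ (x t : ℕ))
    (hρT : ∀ δ ℓ z, ρ δ (S.T' ℓ z) = S.T' ℓ (ρ δ z))
    (hnorm : ∀ z, S.res (S.cor z) = ∑ δ : Δ, ρ δ z)
    (hinv : ∀ z ∈ twe_fa_loc S.T' a, (∀ δ, ρ δ z = z) → ∃ x ∈ twe_fa_loc S.T a, S.res x = z) :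
    finrank k (twe_fa_loc S.T' a) = Fintype.card Δ * finrank k (twe_fa_loc S.T a) ∧
      (∀ x ∈ twe_fa_loc S.T a, S.res x = 0 → x = 0) ∧
      (∀ x ∈ twe_fa_loc S.T a, S.res x ∈ twe_fa_loc S.T' a ∧ ∀ δ, ρ δ (S.res x) = S.res x) ∧
      (∀ y ∈ twe_fa_loc S.T a, ∃ z ∈ twe_fa_loc S.T' a, S.res (S.cor z) = S.res y) ∧
      (∀ z ∈ twe_fa_loc S.T' a, S.res (S.cor z) = 0 →
        z ∈ Submodule.span k {w | ∃ δ : Δ, ∃ u ∈ twe_fa_loc S.T' a, w = ρ δ u - u}) := by
  set A' := twe_fa_loc S.T' a with hA'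
  set A0 := twe_fa_loc S.T a with hA0
  have hresinj : ∀ x ∈ A0, S.res x = 0 → x = 0 := fun x hx h0 =>
    twe_fa_eq_zero_of_eigen (twe_fa_loc_le S.T a ℓ₀ hx) (S.e ℓ₀) hne (S.ker_res x h0 ℓ₀)
  have hresA : ∀ x ∈ A0, S.res x ∈ A' := fun x hx =>
    twe_fa_map_loc S.res S.T S.T' S.res_T a hx
  have hρA : ∀ δ, ∀ z ∈ A', ρ δ z ∈ A' := fun δ z hz =>
    twe_fa_map_loc (ρ δ) S.T' S.T' (hρT δ) a hz
  have hnormA : ∀ z ∈ A', S.res (S.cor z) ∈ A' := by
    intro z hz
    rw [hnorm]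
    exact Submodule.sum_mem _ fun δ _ => hρA δ z hz
  have hnorminv : ∀ z δ, ρ δ (S.res (S.cor z)) = S.res (S.cor z) := by
    intro z δ
    rw [hnorm, map_sum]
    have : ∀ δ', ρ δ (ρ δ' z) = ρ (δ * δ') z := fun δ' => by
      rw [map_mul, Module.End.mul_apply]
    simp only [this]
    exact Fintype.sum_bijective (fun δ' => δ * δ') (Group.mulLeft_bijective δ) _ _ fun _ => rfl
  have hN : ∀ z ∈ A', ∃ x ∈ A0, S.res x = S.res (S.cor z) := fun z hz =>
    hinv _ (hnormA z hz) (hnorminv z)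
  have hsurj : ∀ y ∈ A0, ∃ z ∈ A', S.res (S.cor z) = S.res y := fun y hy =>
    twe_ft_norm_surj S a ℓ₀ hne hN hy
  have hresinv : ∀ x ∈ A0, ∀ δ, ρ δ (S.res x) = S.res x := by
    intro x hx δ
    obtain ⟨z, _, hz⟩ := hsurj x hx
    rw [← hz]
    exact hnorminv z δ
  -- the representation on `A'`
  set ρA := twe_ft_rhoA S.T' a ρ hρT with hρAdef
  have hsumA : ∀ z : A', (((∑ δ : Δ, ρA δ) z : A') : V') = S.res (S.cor (z : V')) := by
    intro z
    rw [hnorm, LinearMap.sum_apply, Submodule.coe_sum]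
    exact Finset.sum_congr rfl fun δ _ => rfl
  have hmemInv : ∀ z : A', z ∈ (⨅ δ : Δ, LinearMap.ker (ρA δ - 1)) ↔ ∀ δ, ρ δ (z : V') = z := by
    intro z
    rw [Submodule.mem_iInf]
    refine forall_congr' fun δ => ?_
    rw [LinearMap.mem_ker, LinearMap.sub_apply, Module.End.one_apply, sub_eq_zero,
      Subtype.ext_iff]
    exact Iff.rfl
  have hT3 := twe_ft_rep p ρA γ n hγ hbij (by
    intro z hz
    obtain ⟨x, hx, hxz⟩ := hinv z z.2 ((hmemInv z).1 hz)
    obtain ⟨z', hz', hz'x⟩ := hsurj x hx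
    refine ⟨⟨z', hz'⟩, Subtype.ext ?_⟩
    rw [hsumA, hz'x, hxz])
  -- the invariants are `res A0`
  let f : A0 →ₗ[k] A' := S.res.restrict hresA
  have hfinj : Function.Injective f := by
    rw [← LinearMap.ker_eq_bot, LinearMap.ker_eq_bot']
    intro x hx
    have := congrArg Subtype.val hx
    rw [LinearMap.coe_restrict_apply] at this
    exact Subtype.ext (hresinj x x.2 this)
  have hrange : LinearMap.range f = ⨅ δ : Δ, LinearMap.ker (ρA δ - 1) := by
    ext z
    rw [hmemInv]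
    constructor
    · rintro ⟨x, rfl⟩ δ
      rw [LinearMap.coe_restrict_apply]
      exact hresinv x x.2 δ
    · intro hz
      obtain ⟨x, hx, hxz⟩ := hinv z z.2 hz
      exact ⟨⟨x, hx⟩, Subtype.ext (by rw [LinearMap.coe_restrict_apply]; exact hxz)⟩
  refine ⟨?_, hresinj, fun x hx => ⟨hresA x hx, hresinv x hx⟩, hsurj, ?_⟩
  · rw [hT3.1, ← hrange, LinearMap.finrank_range_of_inj hfinj]
  · intro z hz h0
    have hker : (⟨z, hz⟩ : A') ∈ LinearMap.ker (∑ δ : Δ, ρA δ) := by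
      refine LinearMap.mem_ker.2 (Subtype.ext ?_)
      rw [hsumA]
      exact h0
    have hle : (⨆ δ : Δ, LinearMap.range (ρA δ - 1)) ≤
        (Submodule.span k {w | ∃ δ : Δ, ∃ u ∈ A', w = ρ δ u - u}).comap A'.subtype := by
      refine iSup_le fun δ => ?_
      rintro _ ⟨u, rfl⟩
      refine Submodule.subset_span ⟨δ, u, u.2, ?_⟩
      rw [LinearMap.sub_apply, Module.End.one_apply]
      rfl
    exact hle (hT3.2 hker)

end main

end Fermat.Agent.TW
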