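/-
Project ONE MACHINE, block [E] AUT, infrastructure for E/Free (helper22): THE POINCARÉ PAIRINGS ON
`W(Γ, k)` AS BILINEAR MAPS.  Prefix `twe_wp_`, namespace `Fermat.Agent.TW`.

For a subgroup-level family `S : lrpd_SFam k` (e.g. `lrpd_sfam_closed k h2`, LR/PD/Closed.lean, for
any field `k : Type` with `2 ≠ 0`), `Γ` of finite index containing `-1`:
* `twe_wp_Om S Γ hneg : V(Γ) →ₗ[k] V(Γ) →ₗ[k] k`   (`V(Γ) = ↥(twe_wl_V k k Γ)`), `twe_wp_Om_apply`;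
* `twe_wp_skew`, `twe_wp_nd` (non-degeneracy, (S3));
* `twe_wp_adj` : `Ω_{Γ'}(res x, z) = Ω_Γ(x, cor z)` for the transfer `twe_wl_cor` ((S5) + helper5's
  `twe_rc_isCores`);
* `twe_wp_sa0` : `T_ℓ` is self-adjoint at the top level `Γ₀(M)` (helper14's `twe_ha_main`);
* `twe_wp_conj` : the pairing on `V(Γ_H)` is invariant under the diamonds ((S4)).
-/
import Mathlib
import Fermat.Agent.TW.Aut.WLin
import Fermat.Agent.TW.Aut.HeckeAdj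

set_option autoImplicit false

noncomputable section

open CongruenceSubgroup Matrix.SpecialLinearGroup ModularGroup
open scoped MatrixGroups

namespace Fermat.Agent.TW

open Fermat.Agent.JT3 Fermat.Agent.LR

variable {k : Type} [Field k] (S : lrpd_SFam k)

/-- **the Poincaré pairing on `W(Γ, k)`** as a bilinear map. -/
def twe_wp_Om (Γ : Subgroup SL(2, ℤ)) [Γ.FiniteIndex] (hneg : (-1 : SL(2, ℤ)) ∈ Γ) :
    ↥(twe_wl_V k k Γ) →ₗ[k] ↥(twe_wl_V k k Γ) →ₗ[k] k :=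
  LinearMap.mk₂ k (fun x y => S.Om Γ x.1 y.1)
    (fun x x' y => S.add_left Γ hneg x.1 x'.1 y.1 x.2 x'.2 y.2)
    (fun a x y => S.smul_left Γ hneg a x.1 y.1 x.2 y.2)
    (fun x y y' => by
      show S.Om Γ x.1 (y.1 + y'.1) = S.Om Γ x.1 y.1 + S.Om Γ x.1 y'.1
      rw [S.skew Γ hneg x.1 (y.1 + y'.1) x.2 (y + y').2,
        S.add_left Γ hneg y.1 y'.1 x.1 y.2 y'.2 x.2, S.skew Γ hneg x.1 y.1 x.2 y.2,
        S.skew Γ hneg x.1 y'.1 x.2 y'.2, neg_add])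
    (fun a x y => by
      show S.Om Γ x.1 (a • y.1) = a • S.Om Γ x.1 y.1
      rw [S.skew Γ hneg x.1 (a • y.1) x.2 (a • y).2, S.smul_left Γ hneg a y.1 x.1 y.2 x.2,
        S.skew Γ hneg x.1 y.1 x.2 y.2, smul_eq_mul, mul_neg])

@[simp] theorem twe_wp_Om_apply (Γ : Subgroup SL(2, ℤ)) [Γ.FiniteIndex]
    (hneg : (-1 : SL(2, ℤ)) ∈ Γ) (x y : ↥(twe_wl_V k k Γ)) :
    twe_wp_Om S Γ hneg x y = S.Om Γ x.1 y.1 := rfl

theorem twe_wp_skew (Γ : Subgroup SL(2, ℤ)) [Γ.FiniteIndex] (hneg : (-1 : SL(2, ℤ)) ∈ Γ)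
    (x y : ↥(twe_wl_V k k Γ)) : twe_wp_Om S Γ hneg x y = - twe_wp_Om S Γ hneg y x :=
  S.skew Γ hneg x.1 y.1 x.2 y.2

/-- **non-degeneracy** -/
theorem twe_wp_nd (Γ : Subgroup SL(2, ℤ)) [Γ.FiniteIndex] (hneg : (-1 : SL(2, ℤ)) ∈ Γ)
    (x : ↥(twe_wl_V k k Γ)) (h : ∀ y, twe_wp_Om S Γ hneg x y = 0) : x = 0 := by
  apply Subtype.ext
  exact S.nondeg Γ hneg x.1 x.2 (fun y hy => h ⟨y, hy⟩)

/-- **restriction is adjoint to the transfer** -/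
theorem twe_wp_adj {Γ Γ' : Subgroup SL(2, ℤ)} [Γ.FiniteIndex] [Γ'.FiniteIndex] (hle : Γ' ≤ Γ)
    (hneg' : (-1 : SL(2, ℤ)) ∈ Γ') {ι : Type} [Fintype ι] {ρ : ι → SL(2, ℤ)}
    (hρ : ∀ i, ρ i ∈ Γ) (hbij : ∀ γ ∈ Γ, ∃! i, (ρ i)⁻¹ * γ ∈ Γ')
    (x : ↥(twe_wl_V k k Γ)) (z : ↥(twe_wl_V k k Γ')) :
    twe_wp_Om S Γ' hneg' (twe_wl_res hle x) z =
      twe_wp_Om S Γ (hle hneg') x (twe_wl_cor hρ hbij z) :=
  S.adj Γ Γ' hle hneg' ρ hρ hbij x.1 z.1 (twe_rc_cor hρ hbij z.1) x.2 z.2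
    (twe_rc_cor_PE hρ hbij z.2) (twe_rc_isCores hρ hbij z.1)

theorem twe_wp_neg_mem_Gamma0 (M : ℕ) : (-1 : SL(2, ℤ)) ∈ Gamma0 M := by
  rw [Gamma0_mem]
  simp

/-- **`T_ℓ` is self-adjoint at the top level.** -/
theorem twe_wp_sa0 {M ℓ : ℕ} [NeZero M] [Fact ℓ.Prime] (hℓM : ¬ ℓ ∣ M)
    (x y : ↥(twe_wl_V k k (Gamma0 M))) :
    twe_wp_Om S (Gamma0 M) (twe_wp_neg_mem_Gamma0 M) (twe_wl_T0 hℓM x) y =
      twe_wp_Om S (Gamma0 M) (twe_wp_neg_mem_Gamma0 M) x (twe_wl_T0 hℓM y) :=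
  twe_ha_main S hℓM x.1 y.1 x.2 y.2

end Fermat.Agent.TW
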