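/-
Project ONE MACHINE, block [E] AUT, E/Free (helper5): THE CONCRETE `k`-LEVEL ASSEMBLY.
Prefix `twe_fz_`, namespace `Fermat.Agent.TW`.

`k : Type` a field of characteristic `p` with `2 ≠ 0`; `M` a level, `H ≤ (ℤ/M)ˣ` containing `-1` and
all `u` with `u ^ (12 M) = 1`; `Δ` a finite commutative group of exponent `p ^ N` with a surjection
`d : Γ₀(M) ↠ Δ` of kernel `Γ_H` (`twe_GamH' M H`); `ℓ : L → ℕ` distinct primes not dividing `M` with
twists `s i`; `a : L → k` a NON-EISENSTEIN system (`a i₀ ≠ ℓ i₀ + 1` for some `i₀`).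
`V' = W(Γ_H, k) = ↥(twe_wl_V k k (twe_GamH M H))`, `V0 = W(Γ₀(M), k)`, `T' i = twe_wl_T ..`,
`T0 i = twe_wl_T0 ..`, `res = twe_wl_res (twe_GamH_le M H)`, `cor = twe_wl_cor hr hbij` for ANY system
of representatives `(r, hr, hbij)` of `Γ₀(M)/Γ_H`.

* `twe_fz_chain`   : (T1) iterated along a tower of cyclic steps (abstract, `WellFoundedLT` induction
                     on the intermediate subgroups + `twe_ft_inv_mem`);
* `twe_fz_step`    : the obstruction at one cyclic step `K ≤ K ⊔ ⟨d g⟩` (evaluation at `g ^ q`);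
* `twe_fz_hinv`    : a `Γ₀(M)`-invariant class of `V'_a` is the restriction of a class of `V0_a`;
* `twe_fz_norm`    : `res ∘ cor = ∑_i conj (r i)`;
* `twe_fz_totW`    : the concrete instance of `twe_ft_TotW` (Poincaré pairings of WPair, `twe_hc_commute`,
                     `t2k_Tadd_comm`, `twe_hk_T_eis_top`);
* `twe_fz_rhoΔ`    : the action of `Δ` on `V'` (`twe_fz_rhoΔ_apply : ρ (d g) = twe_wl_conj H g`),
                     `twe_fz_rep_bijective`, `twe_fz_repΔ` (+`_mem`, `_bij`: a canonical system of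
                     representatives indexed by `Δ`), `twe_fz_exists_basis` (structure theorem in the
                     shape of `twe_ft_main`);
* **`twe_fz_main`**     : `dim V'_a = |Δ| · dim V0_a`, `res` injective on `V0_a` with image the
                     `Γ₀(M)`-invariants of `V'_a`, `res ∘ cor` maps `V'_a` onto `res V0_a`, and its kernel
                     on `V'_a` is spanned by the `conj g u - u`;
* **`twe_fz_main_rep`** : the same in the shape consumed by `twe_fo_abs` (given `cor ∘ T' = T0 ∘ cor`):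
                     `ρbar : Representation k Δ ↥V'_a`, `cbar : ↥V'_a →ₗ[k] ↥V0_a` onto, with
                     `ker cbar ≤ ⨆ δ, range (ρbar δ - 1)` and the count.
  (CONSUMERS: apply abstract lemmas to these submodule types with EXPLICIT instances,
  `@lemma .. inferInstance inferInstance ..`, otherwise `whnf` times out.)
-/
import Mathlib
import Fermat.Agent.TW.Aut.Defs
import Fermat.Agent.TW.Aut.WLin
import Fermat.Agent.TW.Aut.WPair
import Fermat.Agent.TW.Aut.HeckeComm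
import Fermat.Agent.TW.Aut.FreeTot
import Fermat.Agent.TW.Aut.Obs
import Fermat.Agent.TW.Aut.Eis
import Fermat.Agent.LR.PD.Closed
import Fermat.Agent.JT3.T2.Comm

set_option autoImplicit false

noncomputable section

open CongruenceSubgroup Matrix.SpecialLinearGroup
open scoped MatrixGroups

namespace Fermat.Agent.TW

open Fermat.Agent.LR Fermat.Agent.JT3 Module

/-! ### group theory of one cyclic step -/

section cyclic

variable {U : Type*} [CommGroup U]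

/-- in a commutative group, `u ^ i ∈ K ↔ orderOf (mk u) ∣ i`. -/
theorem twe_fz_pow_mem_iff (K : Subgroup U) (u : U) (i : ℕ) :
    u ^ i ∈ K ↔ orderOf (QuotientGroup.mk (s := K) u) ∣ i := by
  rw [orderOf_dvd_iff_pow_eq_one, ← QuotientGroup.mk_pow, QuotientGroup.eq_one_iff]

theorem twe_fz_zpow_mem_iff (K : Subgroup U) (u : U) (i : ℤ) :
    u ^ i ∈ K ↔ (orderOf (QuotientGroup.mk (s := K) u) : ℤ) ∣ i := by
  rw [orderOf_dvd_iff_zpow_eq_one, ← QuotientGroup.mk_zpow, QuotientGroup.eq_one_iff]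

/-- the cosets of `K` in `K ⊔ ⟨u⟩` are represented by `u ^ i`, `i < orderOf (mk u)`. -/
theorem twe_fz_cyclic_bij [Finite U] (K : Subgroup U) (u : U) (v : U)
    (hv : v ∈ K ⊔ Subgroup.zpowers u) :
    ∃! i : Fin (orderOf (QuotientGroup.mk (s := K) u)), (u ^ (i : ℕ))⁻¹ * v ∈ K := by
  set q := orderOf (QuotientGroup.mk (s := K) u) with hq
  have hqpos : 0 < q := orderOf_pos _
  obtain ⟨κ, hκ, w, hw, rfl⟩ := Subgroup.mem_sup.1 hv
  obtain ⟨e, rfl⟩ := Subgroup.mem_zpowers_iff.1 hw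
  have key : ∀ i : ℕ, (u ^ i)⁻¹ * (κ * u ^ e) ∈ K ↔ (q : ℤ) ∣ e - i := by
    intro i
    have h1 : (u ^ i)⁻¹ * (κ * u ^ e) = κ * u ^ (e - (i : ℤ)) := by
      rw [zpow_sub, zpow_natCast, mul_comm, mul_assoc]
    rw [h1, Subgroup.mul_mem_cancel_left K hκ, twe_fz_zpow_mem_iff]
  have hq0 : (q : ℤ) ≠ 0 := by exact_mod_cast hqpos.ne'
  have hr0 : 0 ≤ e % (q : ℤ) := Int.emod_nonneg _ hq0
  have hr1 : e % (q : ℤ) < q := Int.emod_lt_of_pos _ (by exact_mod_cast hqpos)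
  have hr2 : (q : ℤ) ∣ e - e % (q : ℤ) :=
    ⟨e / (q : ℤ), by have := Int.mul_ediv_add_emod e (q : ℤ); linarith⟩
  refine ⟨⟨(e % q).toNat, by omega⟩, ?_, ?_⟩
  · show (u ^ (e % (q : ℤ)).toNat)⁻¹ * (κ * u ^ e) ∈ K
    rw [key, Int.toNat_of_nonneg hr0]
    exact hr2
  · intro i hi
    rw [key] at hi
    apply Fin.ext
    show (i : ℕ) = (e % (q : ℤ)).toNat
    have h3 : (q : ℤ) ∣ e % (q : ℤ) - ((i : ℕ) : ℤ) := by
      have := dvd_sub hi hr2
      rwa [show e - ((i : ℕ) : ℤ) - (e - e % (q : ℤ)) = e % (q : ℤ) - ((i : ℕ) : ℤ) by ring] at this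
    have hi1 : ((i : ℕ) : ℤ) < q := by exact_mod_cast i.2
    have hi0 : (0 : ℤ) ≤ ((i : ℕ) : ℤ) := by positivity
    have h4 : e % (q : ℤ) - ((i : ℕ) : ℤ) = 0 :=
      Int.eq_zero_of_abs_lt_dvd h3 (by rw [abs_lt]; constructor <;> linarith)
    omega

/-- a maximal proper intermediate subgroup: every element outside generates the rest. -/
theorem twe_fz_exists_max [Finite U] {H H' : Subgroup U} (hlt : H < H') :
    ∃ K : Subgroup U, H ≤ K ∧ K < H' ∧ ∀ u ∈ H', u ∉ K → K ⊔ Subgroup.zpowers u = H' := by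
  classical
  have hfin : (Set.univ : Set (Subgroup U)).Finite := Set.finite_univ
  obtain ⟨K, ⟨hK1, hK2⟩, hmax⟩ :=
    (Set.toFinite {K : Subgroup U | H ≤ K ∧ K < H'}).exists_maximal ⟨H, le_rfl, hlt⟩
  refine ⟨K, hK1, hK2, fun u hu huK => ?_⟩
  have hle : K ⊔ Subgroup.zpowers u ≤ H' :=
    sup_le hK2.le (by rw [Subgroup.zpowers_le]; exact hu)
  by_contra hne
  have hlt' : K ⊔ Subgroup.zpowers u < H' := lt_of_le_of_ne hle hne
  have h1 := hmax (show K ⊔ Subgroup.zpowers u ∈ {K : Subgroup U | H ≤ K ∧ K < H'} from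
    ⟨hK1.trans le_sup_left, hlt'⟩) le_sup_left
  exact huK (h1 (Subgroup.mem_sup_right (Subgroup.mem_zpowers u)))

/-- the order of `u` modulo `K` is divisible by `p` when `u ∉ K` and `u ^ (p ^ N) ∈ K`. -/
theorem twe_fz_dvd_order (K : Subgroup U) (u : U) {p N : ℕ} (hp : p.Prime) (huK : u ∉ K)
    (hu : u ^ (p ^ N) ∈ K) : p ∣ orderOf (QuotientGroup.mk (s := K) u) := by
  have h1 : orderOf (QuotientGroup.mk (s := K) u) ∣ p ^ N := (twe_fz_pow_mem_iff K u _).1 hu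
  obtain ⟨j, _, hj⟩ := (Nat.dvd_prime_pow hp).1 h1
  rw [hj]
  have hj0 : j ≠ 0 := by
    rintro rfl
    rw [pow_zero, orderOf_eq_one_iff, QuotientGroup.eq_one_iff] at hj
    exact huK hj
  exact dvd_pow_self p hj0

end cyclic

/-! ### translation to the groups `Γ_H` -/

section gamma

variable {M : ℕ}

/-- the lower right entry `Γ₀(M) → (ℤ/M)ˣ` is onto. -/
theorem twe_fz_dUnit_surjective (M : ℕ) : Function.Surjective (twe_dUnit M) := by
  intro u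
  obtain ⟨d, hd⟩ := ZMod.intCast_surjective (u : ZMod M)
  obtain ⟨a, ha⟩ := ZMod.intCast_surjective ((u⁻¹ : (ZMod M)ˣ) : ZMod M)
  have h1 : ((1 : ℤ) : ZMod M) = ((a * d : ℤ) : ZMod M) := by
    push_cast
    rw [ha, hd, Units.inv_mul]
  obtain ⟨c, hc⟩ := (ZMod.intCast_eq_intCast_iff_dvd_sub _ _ M).1 h1
  let γ : SL(2, ℤ) := ⟨!![a, c; M, d], by rw [Matrix.det_fin_two_of]; linarith⟩
  have hγ : γ ∈ Gamma0 M := by
    rw [Gamma0_mem]
    simp [γ]
  refine ⟨⟨γ, hγ⟩, Units.ext ?_⟩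
  rw [twe_dUnit_coe]
  simpa [γ] using hd

theorem twe_fz_mem_GamH_iff (K : Subgroup (ZMod M)ˣ) (γ : Gamma0 M) :
    (γ : SL(2, ℤ)) ∈ twe_GamH M K ↔ twe_dUnit M γ ∈ K := by
  rw [twe_mem_GamH]
  constructor
  · rintro ⟨h, hK⟩
    exact hK
  · intro hK
    exact ⟨γ.2, hK⟩

/-- one cyclic step of the tower: `Γ_{H'} = ⊔_{i < q} g^i Γ_K`, `q` the order of `d(g)` mod `K`. -/
theorem twe_fz_step_bij (K H' : Subgroup (ZMod M)ˣ) [Finite (ZMod M)ˣ] (g : Gamma0 M)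
    (hsup : K ⊔ Subgroup.zpowers (twe_dUnit M g) = H') :
    ∀ γ ∈ twe_GamH M H', ∃! i : Fin (orderOf (QuotientGroup.mk (s := K) (twe_dUnit M g))),
      ((g : SL(2, ℤ)) ^ (i : ℕ))⁻¹ * γ ∈ twe_GamH M K := by
  intro γ hγ
  obtain ⟨h0, h1⟩ := twe_mem_GamH.1 hγ
  have key : ∀ i : ℕ, ((g : SL(2, ℤ)) ^ i)⁻¹ * γ ∈ twe_GamH M K ↔
      (twe_dUnit M g ^ i)⁻¹ * twe_dUnit M ⟨γ, h0⟩ ∈ K := by
    intro i
    have : ((g : SL(2, ℤ)) ^ i)⁻¹ * γ = (((g ^ i)⁻¹ * ⟨γ, h0⟩ : Gamma0 M) : SL(2, ℤ)) := rfl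
    rw [this, twe_fz_mem_GamH_iff, map_mul, map_inv, map_pow]
  have h2 := twe_fz_cyclic_bij K (twe_dUnit M g) (twe_dUnit M ⟨γ, h0⟩) (by rw [hsup]; exact h1)
  obtain ⟨i, hi, huniq⟩ := h2
  exact ⟨i, (key i).2 hi, fun j hj => huniq j ((key j).1 hj)⟩

theorem twe_fz_step_pow_mem (K : Subgroup (ZMod M)ˣ) (g : Gamma0 M) :
    ((g : SL(2, ℤ)) ^ orderOf (QuotientGroup.mk (s := K) (twe_dUnit M g))) ∈ twe_GamH M K := by
  have : (g : SL(2, ℤ)) ^ orderOf (QuotientGroup.mk (s := K) (twe_dUnit M g)) =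
      ((g ^ orderOf (QuotientGroup.mk (s := K) (twe_dUnit M g)) : Gamma0 M) : SL(2, ℤ)) := rfl
  rw [this, twe_fz_mem_GamH_iff, map_pow, twe_fz_pow_mem_iff]

end gamma

/-! ### the abstract chain: (T1) iterated along a tower of cyclic steps -/

section chain

variable {k : Type*} [Field k] {U : Type*} [CommGroup U] [Finite U] {G : Type*} [Group G]
  {L : Type*} {V : Subgroup U → Type*} [∀ K, AddCommGroup (V K)] [∀ K, Module k (V K)]
  [∀ K, FiniteDimensional k (V K)]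

/-- **(T1) iterated.** A system of levels `V K` indexed by the subgroups `K ≥ H` of a finite
commutative group `U`, with Hecke operators `T K`, restrictions `res`, and an action `c K` of a
group `G` mapping onto `U`; at each cyclic step `K ≤ K' = K ⊔ ⟨d g⟩` an obstruction `ob` as in
`twe_ft_Step0`. Then a class of the non-Eisenstein localisation of the bottom level `V H` invariant
under `G` is the restriction of a class of the localisation of the top level `V ⊤`. -/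
theorem twe_fz_chain (d : G →* U) (hd : Function.Surjective d) (H : Subgroup U)
    (T : ∀ K, L → Module.End k (V K)) (res : ∀ K K', K ≤ K' → V K' →ₗ[k] V K)
    (c : ∀ K, G → Module.End k (V K)) (e a : L → k) (ℓ₀ : L) (hne : a ℓ₀ ≠ e ℓ₀)
    (h_res_id : ∀ K x, res K K le_rfl x = x)
    (h_res_comp : ∀ K K' K'' (h : K ≤ K') (h' : K' ≤ K'') x,
      res K K' h (res K' K'' h' x) = res K K'' (h.trans h') x)
    (h_commT : ∀ K, H ≤ K → ∀ ℓ ℓ', Commute (T K ℓ) (T K ℓ'))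
    (h_cT : ∀ K, H ≤ K → ∀ g ℓ z, c K g (T K ℓ z) = T K ℓ (c K g z))
    (h_resT : ∀ K K' (h : K ≤ K'), H ≤ K → ∀ ℓ x, res K K' h (T K' ℓ x) = T K ℓ (res K K' h x))
    (h_cres : ∀ K K' (h : K ≤ K') g x, res K K' h (c K' g x) = c K g (res K K' h x))
    (h_ker : ∀ K K' (h : K ≤ K'), H ≤ K → ∀ x, res K K' h x = 0 → ∀ ℓ, T K' ℓ x = e ℓ • x)
    (h_step : ∀ K K' (h : K ≤ K'), H ≤ K → ∀ g : G, K ⊔ Subgroup.zpowers (d g) = K' → d g ∉ K →
      ∃ ob : V K →ₗ[k] k,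
        (∀ z, c K g z = z → ob z = 0 → z ∈ LinearMap.range (res K K' h)) ∧
        (∀ ℓ z, c K g z = z → ob (T K ℓ z) = e ℓ • ob z))
    {z : V H} (hz : z ∈ twe_fa_loc (T H) a) (hinv : ∀ g, c H g z = z) :
    ∃ x ∈ twe_fa_loc (T ⊤) a, res H ⊤ le_top x = z := by
  have key : ∀ K : Subgroup U, ∀ hHK : H ≤ K, ∃ x ∈ twe_fa_loc (T K) a, res H K hHK x = z := by
    intro K
    induction K using WellFoundedLT.induction with
    | ind K ih =>
      intro hHK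
      rcases eq_or_lt_of_le hHK with rfl | hlt
      · exact ⟨z, hz, h_res_id H z⟩
      · obtain ⟨K₁, hHK₁, hK₁K, hmax⟩ := twe_fz_exists_max hlt
        obtain ⟨x₁, hx₁, hx₁z⟩ := ih K₁ hK₁K hHK₁
        obtain ⟨u, huK, huK₁⟩ := SetLike.exists_of_lt hK₁K
        obtain ⟨g, rfl⟩ := hd u
        -- `x₁` is invariant under `g`
        have hx₁g : c K₁ g x₁ = x₁ := by
          have h1 : c K₁ g x₁ - x₁ ∈ twe_fa_loc (T K₁) a :=
            Submodule.sub_mem _ (twe_fa_map_loc (c K₁ g) (T K₁) (T K₁) (h_cT K₁ hHK₁ g) a hx₁) hx₁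
          have h2 : res H K₁ hHK₁ (c K₁ g x₁ - x₁) = 0 := by
            rw [map_sub, h_cres, hx₁z, hinv, sub_self]
          have h3 := twe_fa_eq_zero_of_eigen (twe_fa_loc_le (T K₁) a ℓ₀ h1) (e ℓ₀) hne
            (h_ker H K₁ hHK₁ le_rfl _ h2 ℓ₀)
          exact sub_eq_zero.1 h3
        obtain ⟨ob, hob1, hob2⟩ := h_step K₁ K hK₁K.le hHK₁ g (hmax _ huK huK₁) huK₁
        let S : twe_ft_Step0 k L (V K₁) (V K) k :=
          { T' := T K₁
            T := T K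
            g := c K₁ g
            res := res K₁ K hK₁K.le
            e := e
            ob := ob
            commT := h_commT K hHK
            g_T := fun ℓ z => h_cT K₁ hHK₁ g ℓ z
            res_T := fun ℓ x => h_resT K₁ K hK₁K.le hHK₁ ℓ x
            ker_res := fun x hx ℓ => h_ker K₁ K hK₁K.le hHK₁ x hx ℓ
            ob_res := hob1
            ob_T := hob2 }
        obtain ⟨x, hx, hxx₁⟩ := twe_ft_inv_mem S a ℓ₀ hne hx₁ hx₁g
        refine ⟨x, hx, ?_⟩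
        have h4 : S.res x = res K₁ K hK₁K.le x := rfl
        rw [← h_res_comp H K₁ K hHK₁ hK₁K.le, ← h4, hxx₁, hx₁z]
  exact key ⊤ le_top

end chain

/-! ### the action of `Δ` induced by an action of `G ↠ Δ` trivial on the kernel -/

section rhoD

variable {E : Type*} [Monoid E] {Δ : Type*} [Group Δ] {G : Type*} [Group G]

/-- `c g` only depends on `d g`. -/
theorem twe_fz_cD_congr (d : G →* Δ) (c : G →* E) (hc : ∀ g, d g = 1 → c g = 1) {g g' : G}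
    (h : d g = d g') : c g = c g' := by
  have h1 : d (g'⁻¹ * g) = 1 := by
    rw [map_mul, map_inv, h, inv_mul_cancel]
  have h2 : g = g' * (g'⁻¹ * g) := by group
  rw [h2, map_mul, hc _ h1, mul_one]

/-- the induced action of `Δ`. -/
def twe_fz_rhoD (d : G →* Δ) (hd : Function.Surjective d) (c : G →* E)
    (hc : ∀ g, d g = 1 → c g = 1) : Δ →* E where
  toFun δ := c (Function.surjInv hd δ)
  map_one' := hc _ (Function.surjInv_eq hd 1)
  map_mul' δ δ' := by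
    rw [← map_mul]
    refine twe_fz_cD_congr d c hc ?_
    rw [map_mul, Function.surjInv_eq hd, Function.surjInv_eq hd, Function.surjInv_eq hd]

theorem twe_fz_rhoD_apply (d : G →* Δ) (hd : Function.Surjective d) (c : G →* E)
    (hc : ∀ g, d g = 1 → c g = 1) (g : G) : twe_fz_rhoD d hd c hc (d g) = c g :=
  twe_fz_cD_congr d c hc (Function.surjInv_eq hd (d g))

end rhoD

/-! ### a finite commutative group of exponent `p ^ N` has a basis -/

section basis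

/-- **structure theorem, in the shape consumed by `twe_ft_main`.** -/
theorem twe_fz_exists_basis (p N : ℕ) [Fact p.Prime] (Δ : Type*) [CommGroup Δ] [Finite Δ]
    (hΔ : ∀ δ : Δ, δ ^ (p ^ N) = 1) :
    ∃ (ι : Type) (_ : Fintype ι) (γ : ι → Δ) (n : ι → ℕ), (∀ t, γ t ^ (p ^ n t) = 1) ∧
      Function.Bijective fun x : (∀ t : ι, Fin (p ^ n t)) => ∏ t, γ t ^ (x t : ℕ) := by
  classical
  obtain ⟨ι, hι, m, hm, ⟨e⟩⟩ := CommGroup.equiv_prod_multiplicative_zmod_of_finite Δ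
  -- each `m t` is a power of `p`
  have hpow : ∀ t, ∃ j, m t = p ^ j := by
    intro t
    have h1 : (Pi.mulSingle t (Multiplicative.ofAdd (1 : ZMod (m t))) :
        (∀ i : ι, Multiplicative (ZMod (m i)))) ^ (p ^ N) = 1 := by
      rw [← e.apply_symm_apply (Pi.mulSingle t (Multiplicative.ofAdd (1 : ZMod (m t)))),
        ← map_pow, hΔ, map_one]
    have h2 := congrFun h1 t
    rw [Pi.pow_apply, Pi.mulSingle_eq_same, Pi.one_apply, ← ofAdd_nsmul, nsmul_one] at h2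
    have h3 : ((p ^ N : ℕ) : ZMod (m t)) = 0 := Multiplicative.ofAdd.injective h2
    have h4 : m t ∣ p ^ N := (ZMod.natCast_eq_zero_iff _ _).1 h3
    obtain ⟨j, _, hj⟩ := (Nat.dvd_prime_pow (Fact.out : p.Prime)).1 h4
    exact ⟨j, hj⟩
  choose n hn using hpow
  obtain rfl : m = fun t => p ^ n t := funext hn
  let f : Multiplicative (∀ t : ι, ZMod (p ^ n t)) ≃* Δ :=
    (MulEquiv.piMultiplicative fun t => ZMod (p ^ n t)).trans e.symm
  refine ⟨ι, hι, fun t => f (twe_ft_gen p n t), n, fun t => ?_, ?_⟩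
  · rw [← map_pow, twe_ft_gen_pow, map_one]
  · have h5 : (fun x : (∀ t : ι, Fin (p ^ n t)) => ∏ t, f (twe_ft_gen p n t) ^ (x t : ℕ)) =
        f ∘ fun x : (∀ t : ι, Fin (p ^ n t)) => ∏ t, twe_ft_gen p n t ^ (x t : ℕ) := by
      funext x
      rw [Function.comp_apply, map_prod]
      exact Finset.prod_congr rfl fun t _ => (map_pow f _ _).symm
    rw [h5]
    exact f.bijective.comp (twe_ft_pi_bij p n)

end basis

/-! ### the concrete level system -/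

section concrete

variable {k : Type} [Field k] {M : ℕ} [NeZero M] {L : Type*} (ℓ : L → ℕ)
  [hℓ : ∀ i, Fact (ℓ i).Prime] (hM : ∀ i, ¬ ℓ i ∣ M) (H : Subgroup (ZMod M)ˣ)
  (s : L → Gamma0 M)
  (hs : ∀ i, twe_dUnit M (s i) * twe_dUnit M (s i) * (twe_hk_lU (hM i))⁻¹ ∈ H)

/-- the Hecke operators at the level `K` (junk unless `H ≤ K`). -/
def twe_fz_T (K : Subgroup (ZMod M)ˣ) (i : L) :
    Module.End k ↥(twe_wl_V k k (twe_GamH M K)) :=
  open Classical in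
  if h : H ≤ K then twe_wl_T (hM i) K (s i) (h (hs i)) else 0

theorem twe_fz_T_eq {K : Subgroup (ZMod M)ˣ} (hK : H ≤ K) (i : L) :
    twe_fz_T (k := k) ℓ hM H s hs K i = twe_wl_T (hM i) K (s i) (hK (hs i)) := by
  unfold twe_fz_T
  rw [dif_pos hK]

theorem twe_fz_T_coe {K : Subgroup (ZMod M)ˣ} (hK : H ≤ K) (i : L)
    (z : ↥(twe_wl_V k k (twe_GamH M K))) :
    ((twe_fz_T ℓ hM H s hs K i z : ↥(twe_wl_V k k (twe_GamH M K))) :
      Additive ↥(twe_GamH M K) →+ k) = twe_hk_T (hM i) K (s i) (hK (hs i)) z.1 := by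
  rw [twe_fz_T_eq ℓ hM H s hs hK]
  rfl

end concrete

section reslemmas

variable {k : Type} [Field k]

theorem twe_fz_res_id (Γ : Subgroup SL(2, ℤ)) (x : ↥(twe_wl_V k k Γ)) :
    twe_wl_res (le_refl Γ) x = x := by
  apply Subtype.ext
  rw [twe_wl_res_coe]
  refine AddMonoidHom.ext fun γ => ?_
  obtain ⟨γ, rfl⟩ := Additive.ofMul.surjective γ
  rw [lrpd_pull_apply]
  rfl

theorem twe_fz_res_comp {Γ Γ' Γ'' : Subgroup SL(2, ℤ)} (h : Γ'' ≤ Γ') (h' : Γ' ≤ Γ)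
    (x : ↥(twe_wl_V k k Γ)) :
    twe_wl_res h (twe_wl_res h' x) = twe_wl_res (h.trans h') x := by
  apply Subtype.ext
  rw [twe_wl_res_coe, twe_wl_res_coe, twe_wl_res_coe]
  refine AddMonoidHom.ext fun γ => ?_
  obtain ⟨γ, rfl⟩ := Additive.ofMul.surjective γ
  rw [lrpd_pull_apply, lrpd_pull_apply, lrpd_pull_apply]
  rfl

theorem twe_fz_res_injective_of_eq {Γ Γ' : Subgroup SL(2, ℤ)} (h : Γ' ≤ Γ) (h' : Γ ≤ Γ') :
    Function.Injective (twe_wl_res (R := k) (A := k) h) := by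
  intro x y hxy
  have := congrArg (twe_wl_res (R := k) (A := k) h') hxy
  rwa [twe_fz_res_comp, twe_fz_res_comp, twe_fz_res_id, twe_fz_res_id] at this

theorem twe_fz_res_surjective_of_eq {Γ Γ' : Subgroup SL(2, ℤ)} (h : Γ' ≤ Γ) (h' : Γ ≤ Γ') :
    Function.Surjective (twe_wl_res (R := k) (A := k) h) := by
  intro y
  refine ⟨twe_wl_res h' y, ?_⟩
  rw [twe_fz_res_comp, twe_fz_res_id]

end reslemmas

section system

variable {k : Type} [Field k] {M : ℕ} [NeZero M] {L : Type*} (ℓ : L → ℕ)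
  [hℓ : ∀ i, Fact (ℓ i).Prime] (hM : ∀ i, ¬ ℓ i ∣ M) (hinj : Function.Injective ℓ)
  (H : Subgroup (ZMod M)ˣ) (s : L → Gamma0 M)
  (hs : ∀ i, twe_dUnit M (s i) * twe_dUnit M (s i) * (twe_hk_lU (hM i))⁻¹ ∈ H)

include hinj in
theorem twe_fz_commT {K : Subgroup (ZMod M)ˣ} (hK : H ≤ K) (i j : L) :
    Commute (twe_fz_T (k := k) ℓ hM H s hs K i) (twe_fz_T ℓ hM H s hs K j) := by
  show _ * _ = _ * _
  refine LinearMap.ext fun z => Subtype.ext ?_
  rw [Module.End.mul_apply, Module.End.mul_apply, twe_fz_T_coe ℓ hM H s hs hK,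
    twe_fz_T_coe ℓ hM H s hs hK, twe_fz_T_coe ℓ hM H s hs hK, twe_fz_T_coe ℓ hM H s hs hK]
  exact twe_hc_commute ℓ hM hinj K s (fun i => hK (hs i)) i j z.1

theorem twe_fz_cT {K : Subgroup (ZMod M)ˣ} (hK : H ≤ K) (g : Gamma0 M) (i : L)
    (z : ↥(twe_wl_V k k (twe_GamH M K))) :
    twe_wl_conj K g (twe_fz_T ℓ hM H s hs K i z) = twe_fz_T ℓ hM H s hs K i (twe_wl_conj K g z) := by
  rw [twe_fz_T_eq ℓ hM H s hs hK]
  exact twe_wl_T_conj (hM i) K (s i) (hK (hs i)) g z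

theorem twe_fz_resT {K K' : Subgroup (ZMod M)ˣ} (h : K ≤ K') (hK : H ≤ K) (i : L)
    (x : ↥(twe_wl_V k k (twe_GamH M K'))) :
    twe_wl_res (twe_GamH_mono h) (twe_fz_T ℓ hM H s hs K' i x) =
      twe_fz_T ℓ hM H s hs K i (twe_wl_res (twe_GamH_mono h) x) := by
  rw [twe_fz_T_eq ℓ hM H s hs hK, twe_fz_T_eq ℓ hM H s hs (hK.trans h)]
  exact twe_wl_T_res (hM i) h (s i) (hK (hs i)) x

omit [NeZero M] in
theorem twe_fz_cres {K K' : Subgroup (ZMod M)ˣ} (h : K ≤ K') (g : Gamma0 M)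
    (x : ↥(twe_wl_V k k (twe_GamH M K'))) :
    twe_wl_res (twe_GamH_mono h) (twe_wl_conj K' g x) =
      twe_wl_conj K g (twe_wl_res (twe_GamH_mono h) x) := by
  apply Subtype.ext
  rw [twe_wl_res_coe, twe_wl_conj_coe, twe_wl_conj_coe, twe_wl_res_coe]
  refine AddMonoidHom.ext fun γ => ?_
  obtain ⟨γ, rfl⟩ := Additive.ofMul.surjective γ
  rw [lrpd_pull_apply, twe_conj_apply, twe_conj_apply, lrpd_pull_apply]
  rfl

theorem twe_fz_ker {K K' : Subgroup (ZMod M)ˣ} (h : K ≤ K') (hK : H ≤ K)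
    (x : ↥(twe_wl_V k k (twe_GamH M K'))) (hx : twe_wl_res (twe_GamH_mono h) x = 0) (i : L) :
    twe_fz_T ℓ hM H s hs K' i x = ((ℓ i + 1 : ℕ) : k) • x := by
  apply Subtype.ext
  rw [twe_fz_T_coe ℓ hM H s hs (hK.trans h), Submodule.coe_smul, Nat.cast_smul_eq_nsmul]
  have h0 : lrpd_pull (Subgroup.inclusion (twe_GamH_mono h)) x.1 = 0 := by
    have := congrArg Subtype.val hx
    rwa [twe_wl_res_coe] at this
  exact twe_eis_ker_res (hM i) h (s i) (hK (hs i)) x.1 h0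

/-- the obstruction functional: evaluation at `g ^ q`. -/
def twe_fz_ev {Γ : Subgroup SL(2, ℤ)} (γ : Γ) : ↥(twe_wl_V k k Γ) →ₗ[k] k where
  toFun z := z.1 (Additive.ofMul γ)
  map_add' _ _ := rfl
  map_smul' _ _ := rfl

theorem twe_fz_step (p N : ℕ) [Fact p.Prime] [CharP k p]
    (hexp : ∀ u : (ZMod M)ˣ, u ^ (p ^ N) ∈ H)
    (h12 : ∀ u : (ZMod M)ˣ, u ^ (12 * M) = 1 → u ∈ H)
    {K K' : Subgroup (ZMod M)ˣ} (h : K ≤ K') (hK : H ≤ K) (g : Gamma0 M)
    (hsup : K ⊔ Subgroup.zpowers (twe_dUnit M g) = K') (hgK : twe_dUnit M g ∉ K) :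
    ∃ ob : ↥(twe_wl_V k k (twe_GamH M K)) →ₗ[k] k,
      (∀ z, twe_wl_conj K g z = z → ob z = 0 →
        z ∈ LinearMap.range (twe_wl_res (R := k) (A := k) (twe_GamH_mono h))) ∧
      (∀ i z, twe_wl_conj K g z = z →
        ob (twe_fz_T ℓ hM H s hs K i z) = ((ℓ i + 1 : ℕ) : k) • ob z) := by
  set q := orderOf (QuotientGroup.mk (s := K) (twe_dUnit M g)) with hq
  have hpq : p ∣ q := twe_fz_dvd_order K (twe_dUnit M g) (Fact.out : p.Prime) hgK (hK (hexp _))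
  have hqk : ∀ a : k, q • a = 0 := by
    intro a
    rw [← Nat.cast_smul_eq_nsmul k, (CharP.cast_eq_zero_iff k p q).2 hpq, zero_smul]
  have hgq : ((g ^ q : Gamma0 M) : SL(2, ℤ)) ∈ twe_GamH M K := twe_fz_step_pow_mem K g
  have hgK' : (g : SL(2, ℤ)) ∈ twe_GamH M K' := by
    rw [twe_fz_mem_GamH_iff, ← hsup]
    exact Subgroup.mem_sup_right (Subgroup.mem_zpowers _)
  refine ⟨twe_fz_ev (⟨_, hgq⟩ : ↥(twe_GamH M K)), ?_, ?_⟩
  · intro z hz hob
    have hU : ∀ γ : SL(2, ℤ), γ ∈ twe_GamH M K' → lrpd_tr γ ^ 2 ≤ 4 → γ ∈ twe_GamH M K :=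
      fun γ hγ htr => twe_parEll_mem (fun u hu => hK (h12 u hu)) (twe_GamH_le M K' hγ) htr
    have hz' : twe_rc_conj (twe_eis_hnorm K K') (⟨g, hgK'⟩ : ↥(twe_GamH M K')) z.1 = z.1 := by
      rw [twe_eis_conj_eq]
      have := congrArg Subtype.val hz
      rw [twe_wl_conj_coe] at this
      exact this
    obtain ⟨x, hxPE, hxz, -⟩ := twe_ob_exists_ext_PE (twe_GamH_mono h) (twe_eis_hnorm K K') hU
      (⟨g, hgK'⟩ : ↥(twe_GamH M K')) q (twe_fz_step_bij K K' g hsup) hgq z.1 z.2 hz' 0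
      (by rw [smul_zero]; exact hob)
    exact ⟨⟨x, hxPE⟩, Subtype.ext hxz⟩
  · intro i z hz
    have hz' : twe_conj K g z.1 = z.1 := by
      have := congrArg Subtype.val hz
      rwa [twe_wl_conj_coe] at this
    show (twe_fz_T ℓ hM H s hs K i z).1 _ = _ • z.1 _
    rw [twe_fz_T_coe ℓ hM H s hs hK,
      twe_eis_ob_char (hM i) K (s i) (hK (hs i)) g q hgq hqk z.1 hz', Nat.cast_smul_eq_nsmul]

end system

section locinj

variable {k : Type*} [Field k] {L : Type*} {V W : Type*} [AddCommGroup V] [Module k V]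
  [AddCommGroup W] [Module k W]

/-- an injective intertwiner reflects the localisation. -/
theorem twe_fz_loc_of_inj (F : V →ₗ[k] W) (hF : Function.Injective F) (T : L → Module.End k V)
    (T' : L → Module.End k W) (h : ∀ ℓ x, F (T ℓ x) = T' ℓ (F x)) (a : L → k) {x : V}
    (hx : F x ∈ twe_fa_loc T' a) : x ∈ twe_fa_loc T a := by
  rw [twe_fa_mem_loc] at hx ⊢
  intro ℓ
  obtain ⟨n, hn⟩ := hx ℓ
  refine ⟨n, hF ?_⟩
  rw [twe_fa_intertwine_pow F (T ℓ) (T' ℓ) (h ℓ), hn, map_zero]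

end locinj

section hinv

variable {k : Type} [Field k] {M : ℕ} [NeZero M] {L : Type*} (ℓ : L → ℕ)
  [hℓ : ∀ i, Fact (ℓ i).Prime] (hM : ∀ i, ¬ ℓ i ∣ M) (hinj : Function.Injective ℓ)
  (H : Subgroup (ZMod M)ˣ) (s : L → Gamma0 M)
  (hs : ∀ i, twe_dUnit M (s i) * twe_dUnit M (s i) * (twe_hk_lU (hM i))⁻¹ ∈ H)

include hinj in
/-- **(T1) iterated, concretely**: a `Γ₀(M)`-invariant class of `W(Γ_H, k)_𝔪` is the restriction of a
class of `W(Γ_⊤, k)_𝔪`. -/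
theorem twe_fz_hinv_top (p N : ℕ) [Fact p.Prime] [CharP k p]
    (hexp : ∀ u : (ZMod M)ˣ, u ^ (p ^ N) ∈ H)
    (h12 : ∀ u : (ZMod M)ˣ, u ^ (12 * M) = 1 → u ∈ H) (a : L → k) (i₀ : L)
    (hne : a i₀ ≠ ((ℓ i₀ + 1 : ℕ) : k)) {z : ↥(twe_wl_V k k (twe_GamH M H))}
    (hz : z ∈ twe_fa_loc (twe_fz_T ℓ hM H s hs H) a)
    (hinv : ∀ g : Gamma0 M, twe_wl_conj H g z = z) :
    ∃ x ∈ twe_fa_loc (twe_fz_T ℓ hM H s hs ⊤) a,
      twe_wl_res (twe_GamH_mono (le_top : H ≤ ⊤)) x = z := by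
  have key := @twe_fz_chain k _ (ZMod M)ˣ _ _ (Gamma0 M) _ L
    (fun K => ↥(twe_wl_V k k (twe_GamH M K))) (fun K => inferInstance) (fun K => inferInstance)
    (fun K => twe_wl_finite_V (twe_GamH M K))
    (twe_dUnit M) (twe_fz_dUnit_surjective M) H (twe_fz_T ℓ hM H s hs)
    (fun K K' h => twe_wl_res (twe_GamH_mono h)) (fun K g => twe_wl_conj K g)
    (fun i => ((ℓ i + 1 : ℕ) : k)) a i₀ hne
  refine key ?_ ?_ ?_ ?_ ?_ ?_ ?_ ?_ hz hinv
  · exact fun K x => twe_fz_res_id _ x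
  · exact fun K K' K'' h h' x => twe_fz_res_comp _ _ x
  · exact fun K hK i j => twe_fz_commT ℓ hM hinj H s hs hK i j
  · exact fun K hK g i z => twe_fz_cT ℓ hM H s hs hK g i z
  · exact fun K K' h hK i x => twe_fz_resT ℓ hM H s hs h hK i x
  · exact fun K K' h g x => twe_fz_cres h g x
  · exact fun K K' h hK x hx i => twe_fz_ker ℓ hM H s hs h hK x hx i
  · exact fun K K' h hK g hsup hgK => twe_fz_step ℓ hM H s hs p N hexp h12 h hK g hsup hgK

include hinj in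
/-- **(T1) iterated, down to `Γ₀(M)`.** -/
theorem twe_fz_hinv (p N : ℕ) [Fact p.Prime] [CharP k p]
    (hexp : ∀ u : (ZMod M)ˣ, u ^ (p ^ N) ∈ H)
    (h12 : ∀ u : (ZMod M)ˣ, u ^ (12 * M) = 1 → u ∈ H) (a : L → k) (i₀ : L)
    (hne : a i₀ ≠ ((ℓ i₀ + 1 : ℕ) : k)) {z : ↥(twe_wl_V k k (twe_GamH M H))}
    (hz : z ∈ twe_fa_loc (fun i => twe_wl_T (R := k) (A := k) (hM i) H (s i) (hs i)) a)
    (hinv : ∀ g : Gamma0 M, twe_wl_conj H g z = z) :
    ∃ x ∈ twe_fa_loc (fun i => twe_wl_T0 (R := k) (A := k) (hM i)) a,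
      twe_wl_res (twe_GamH_le M H) x = z := by
  have hT : twe_fz_T (k := k) ℓ hM H s hs H = fun i => twe_wl_T (hM i) H (s i) (hs i) :=
    funext fun i => twe_fz_T_eq ℓ hM H s hs le_rfl i
  have hz' : z ∈ twe_fa_loc (twe_fz_T ℓ hM H s hs H) a := by rw [hT]; exact hz
  obtain ⟨x, hx, hxz⟩ := @twe_fz_hinv_top k _ M _ L ℓ hℓ hM hinj H s hs p N _ _ hexp h12 a i₀ hne z
    hz' hinv
  have hge : Gamma0 M ≤ twe_GamH M ⊤ := (twe_GamH_top M).ge
  obtain ⟨x0, rfl⟩ := twe_fz_res_surjective_of_eq (k := k) (twe_GamH_le M ⊤) hge x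
  refine ⟨x0, ?_, ?_⟩
  · show x0 ∈ twe_fa_loc (fun i => twe_wl_T0 (R := k) (A := k) (hM i)) a
    generalize hT0 : (fun i => twe_wl_T0 (R := k) (A := k) (hM i)) = T0
    have hint : ∀ (i : L) (y : ↥(twe_wl_V k k (Gamma0 M))),
        twe_wl_res (twe_GamH_le M ⊤) (T0 i y) =
          twe_fz_T ℓ hM H s hs ⊤ i (twe_wl_res (twe_GamH_le M ⊤) y) := by
      intro i y
      rw [← hT0, twe_fz_T_eq ℓ hM H s hs le_top]
      exact twe_wl_T_res_top (hM i) ⊤ (s i) _ y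
    have hF : Function.Injective (twe_wl_res (R := k) (A := k) (twe_GamH_le M ⊤)) :=
      twe_fz_res_injective_of_eq (twe_GamH_le M ⊤) hge
    exact @twe_fz_loc_of_inj k _ L ↥(twe_wl_V k k (Gamma0 M)) ↥(twe_wl_V k k (twe_GamH M ⊤))
      inferInstance inferInstance inferInstance inferInstance
      (twe_wl_res (R := k) (A := k) (twe_GamH_le M ⊤)) hF T0 (twe_fz_T ℓ hM H s hs ⊤) hint a x0 hx
  · rw [← hxz, twe_fz_res_comp]

omit [NeZero M] in
/-- `Γ₀(M)` normalises `Γ_H`. -/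
theorem twe_fz_hnorm : ∀ g ∈ Gamma0 M, ∀ n ∈ twe_GamH M H, g⁻¹ * n * g ∈ twe_GamH M H :=
  fun g hg n hn => (twe_conjHom H ⟨g, hg⟩ ⟨n, hn⟩).2

omit [NeZero M] in
/-- **`res ∘ cor = ∑ conj`** on the spaces `W(·, k)`. -/
theorem twe_fz_norm {ι : Type*} [Fintype ι] (r : ι → SL(2, ℤ)) (hr : ∀ i, r i ∈ Gamma0 M)
    (hbij : ∀ γ ∈ Gamma0 M, ∃! i, (r i)⁻¹ * γ ∈ twe_GamH M H)
    (z : ↥(twe_wl_V k k (twe_GamH M H))) :
    twe_wl_res (twe_GamH_le M H) (twe_wl_cor hr hbij z) =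
      ∑ i, twe_wl_conj H (⟨r i, hr i⟩ : Gamma0 M) z := by
  apply Subtype.ext
  rw [twe_wl_res_coe, twe_wl_cor_coe, Submodule.coe_sum,
    twe_rc_res_cor (twe_fz_hnorm H) hr hbij (twe_GamH_le M H) z.1]
  refine Finset.sum_congr rfl fun δ _ => ?_
  rw [twe_wl_conj_coe]
  refine AddMonoidHom.ext fun n => ?_
  obtain ⟨n, rfl⟩ := Additive.ofMul.surjective n
  rw [twe_rc_conj_apply, twe_conj_apply]
  congr 2

end hinv

section totw

variable {k : Type} [Field k] (h2 : (2 : k) ≠ 0) {M : ℕ} [NeZero M] {L : Type*} (ℓ : L → ℕ)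
  [hℓ : ∀ i, Fact (ℓ i).Prime] (hM : ∀ i, ¬ ℓ i ∣ M) (hinj : Function.Injective ℓ)
  (H : Subgroup (ZMod M)ˣ) (hneg : (-1 : (ZMod M)ˣ) ∈ H) (s : L → Gamma0 M)
  (hs : ∀ i, twe_dUnit M (s i) * twe_dUnit M (s i) * (twe_hk_lU (hM i))⁻¹ ∈ H)
  {ι : Type} [Fintype ι] {r : ι → SL(2, ℤ)} (hr : ∀ i, r i ∈ Gamma0 M)
  (hbij : ∀ γ ∈ Gamma0 M, ∃! i, (r i)⁻¹ * γ ∈ twe_GamH M H)

/-- **the concrete instance of (T2w)**: `V' = W(Γ_H, k)`, `V0 = W(Γ₀(M), k)`. -/
def twe_fz_totW :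
    twe_ft_TotW k L ↥(twe_wl_V k k (twe_GamH M H)) ↥(twe_wl_V k k (Gamma0 M)) where
  T' i := twe_wl_T (hM i) H (s i) (hs i)
  T i := twe_wl_T0 (hM i)
  res := twe_wl_res (twe_GamH_le M H)
  cor := twe_wl_cor hr hbij
  e i := ((ℓ i + 1 : ℕ) : k)
  Ω' := twe_wp_Om (lrpd_sfam_closed k h2) (twe_GamH M H) (twe_neg_one_mem hneg)
  Ω0 := twe_wp_Om (lrpd_sfam_closed k h2) (Gamma0 M) (twe_wp_neg_mem_Gamma0 M)
  commT' i j := by
    show _ * _ = _ * _
    refine LinearMap.ext fun z => Subtype.ext ?_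
    rw [Module.End.mul_apply, Module.End.mul_apply, twe_wl_T_coe, twe_wl_T_coe, twe_wl_T_coe,
      twe_wl_T_coe]
    exact twe_hc_commute ℓ hM hinj H s hs i j z.1
  commT i j := by
    show _ * _ = _ * _
    refine LinearMap.ext fun x => Subtype.ext ?_
    rw [Module.End.mul_apply, Module.End.mul_apply, twe_wl_T0_coe, twe_wl_T0_coe, twe_wl_T0_coe,
      twe_wl_T0_coe]
    exact t2k_Tadd_comm (hM i) (hM j) x.1
  res_T i x := twe_wl_T_res_top (hM i) H (s i) (hs i) x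
  N_T i z := by
    rw [twe_fz_norm H r hr hbij, twe_fz_norm H r hr hbij, map_sum]
    exact Finset.sum_congr rfl fun j _ => twe_wl_T_conj (hM i) H (s i) (hs i) _ z
  ker_res x hx i := by
    apply Subtype.ext
    rw [twe_wl_T0_coe, Submodule.coe_smul, Nat.cast_smul_eq_nsmul]
    have h0 : lrpd_pull (Subgroup.inclusion (twe_GamH_le M H)) x.1 = 0 := by
      have := congrArg Subtype.val hx
      rwa [twe_wl_res_coe] at this
    exact twe_hk_T_eis_top (hM i) H (s i) (hs i) x.1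
      ((twe_ob_res_eq_zero_iff (twe_GamH_le M H) x.1).1 h0)
  nd' x hx := twe_wp_nd _ _ _ x hx
  nd0 x hx := twe_wp_nd _ _ _ x hx
  sa0 i x y := twe_wp_sa0 _ (hM i) x y
  adj x z := twe_wp_adj _ (twe_GamH_le M H) (twe_neg_one_mem hneg) hr hbij x z

end totw

section delta

variable {k : Type} [Field k] {M : ℕ} (H : Subgroup (ZMod M)ˣ)

/-- conjugation as a monoid homomorphism `Γ₀(M) → End W(Γ_H, k)`. -/
def twe_fz_conjHom (k : Type) [Field k] (H : Subgroup (ZMod M)ˣ) :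
    Gamma0 M →* Module.End k ↥(twe_wl_V k k (twe_GamH M H)) where
  toFun g := twe_wl_conj H g
  map_one' := twe_wl_conj_one H
  map_mul' := twe_wl_conj_mul H

variable {Δ : Type*} [Group Δ] (d : Gamma0 M →* Δ) (hd : Function.Surjective d)
  (hker : d.ker = twe_GamH' M H)

include hker in
theorem twe_fz_mem_GamH_iff_d (g : Gamma0 M) : (g : SL(2, ℤ)) ∈ twe_GamH M H ↔ d g = 1 := by
  rw [twe_fz_mem_GamH_iff, ← MonoidHom.mem_ker, hker]
  rfl

include hker in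
theorem twe_fz_conjHom_triv (g : Gamma0 M) (hg : d g = 1) : twe_fz_conjHom k H g = 1 :=
  twe_wl_conj_of_mem H g ((twe_fz_mem_GamH_iff_d H d hker g).2 hg)

/-- the action of `Δ = Γ₀(M)/Γ_H` on `W(Γ_H, k)`. -/
def twe_fz_rhoΔ (k : Type) [Field k] : Δ →* Module.End k ↥(twe_wl_V k k (twe_GamH M H)) :=
  twe_fz_rhoD d hd (twe_fz_conjHom k H) (twe_fz_conjHom_triv H d hker)

theorem twe_fz_rhoΔ_apply (g : Gamma0 M) :
    twe_fz_rhoΔ H d hd hker k (d g) = twe_wl_conj H g :=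
  twe_fz_rhoD_apply d hd (twe_fz_conjHom k H) (twe_fz_conjHom_triv H d hker) g

variable {ι : Type*} {r : ι → SL(2, ℤ)} (hr : ∀ i, r i ∈ Gamma0 M)
  (hbij : ∀ γ ∈ Gamma0 M, ∃! i, (r i)⁻¹ * γ ∈ twe_GamH M H)

include hker in
theorem twe_fz_rep_iff (i : ι) (γ : Gamma0 M) :
    (r i)⁻¹ * (γ : SL(2, ℤ)) ∈ twe_GamH M H ↔ d ⟨r i, hr i⟩ = d γ := by
  have h1 : (r i)⁻¹ * (γ : SL(2, ℤ)) = (((⟨r i, hr i⟩ : Gamma0 M)⁻¹ * γ : Gamma0 M) : SL(2, ℤ)) :=
    rfl
  rw [h1, twe_fz_mem_GamH_iff_d H d hker, map_mul, map_inv, inv_mul_eq_one]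

include hker hbij hd in
/-- a system of representatives of `Γ₀(M)/Γ_H` is in bijection with `Δ`. -/
theorem twe_fz_rep_bijective : Function.Bijective fun i : ι => d ⟨r i, hr i⟩ := by
  constructor
  · intro i j hij
    obtain ⟨i', -, huniq⟩ := hbij (r j) (hr j)
    have hi := huniq i ((twe_fz_rep_iff H d hker hr i ⟨r j, hr j⟩).2 hij)
    have hj := huniq j ((twe_fz_rep_iff H d hker hr j ⟨r j, hr j⟩).2 rfl)
    rw [hi, hj]
  · intro δ
    obtain ⟨γ, rfl⟩ := hd δ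
    obtain ⟨i, hi, -⟩ := hbij γ γ.2
    exact ⟨i, (twe_fz_rep_iff H d hker hr i γ).1 hi⟩

/-- the canonical system of representatives indexed by `Δ`. -/
def twe_fz_repΔ (δ : Δ) : SL(2, ℤ) := ((Function.surjInv hd δ : Gamma0 M) : SL(2, ℤ))

theorem twe_fz_repΔ_mem (δ : Δ) : twe_fz_repΔ d hd δ ∈ Gamma0 M := (Function.surjInv hd δ).2

include hker in
theorem twe_fz_repΔ_bij :
    ∀ γ ∈ Gamma0 M, ∃! δ : Δ, (twe_fz_repΔ d hd δ)⁻¹ * γ ∈ twe_GamH M H := by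
  intro γ hγ
  have key : ∀ δ : Δ, (twe_fz_repΔ d hd δ)⁻¹ * γ ∈ twe_GamH M H ↔ δ = d ⟨γ, hγ⟩ := by
    intro δ
    rw [twe_fz_rep_iff H d hker (twe_fz_repΔ_mem d hd) δ ⟨γ, hγ⟩]
    show d (Function.surjInv hd δ) = _ ↔ _
    rw [Function.surjInv_eq hd]
  exact ⟨d ⟨γ, hγ⟩, (key _).2 rfl, fun δ hδ => (key δ).1 hδ⟩

end delta

section main

variable {k : Type} [Field k] (h2 : (2 : k) ≠ 0) {M : ℕ} [NeZero M] {L : Type*} (ℓ : L → ℕ)
  [hℓ : ∀ i, Fact (ℓ i).Prime] (hM : ∀ i, ¬ ℓ i ∣ M) (hinj : Function.Injective ℓ)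
  (H : Subgroup (ZMod M)ˣ) (hneg : (-1 : (ZMod M)ˣ) ∈ H) (s : L → Gamma0 M)
  (hs : ∀ i, twe_dUnit M (s i) * twe_dUnit M (s i) * (twe_hk_lU (hM i))⁻¹ ∈ H)

include h2 hinj hneg in
/-- **E/Free at the `k`-level, concretely.**  `V' = W(Γ_H, k)`, `V0 = W(Γ₀(M), k)`, localised at a
non-Eisenstein system `a`; `Δ = Γ₀(M)/Γ_H` a `p`-group (`p = char k`), `d : Γ₀(M) ↠ Δ` with kernel
`Γ_H`; `cor` the transfer for ANY system of representatives. -/
theorem twe_fz_main (p N : ℕ) [Fact p.Prime] [CharP k p]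
    (h12 : ∀ u : (ZMod M)ˣ, u ^ (12 * M) = 1 → u ∈ H) (a : L → k) (i₀ : L)
    (hne : a i₀ ≠ ((ℓ i₀ + 1 : ℕ) : k))
    {Δ : Type*} [CommGroup Δ] [Fintype Δ] (d : Gamma0 M →* Δ) (hd : Function.Surjective d)
    (hker : d.ker = twe_GamH' M H) (hΔ : ∀ δ : Δ, δ ^ (p ^ N) = 1)
    {ι : Type} [Fintype ι] {r : ι → SL(2, ℤ)} (hr : ∀ i, r i ∈ Gamma0 M)
    (hbij : ∀ γ ∈ Gamma0 M, ∃! i, (r i)⁻¹ * γ ∈ twe_GamH M H) :
    finrank k (twe_fa_loc (fun i => twe_wl_T (R := k) (A := k) (hM i) H (s i) (hs i)) a) =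
        Fintype.card Δ * finrank k (twe_fa_loc (fun i => twe_wl_T0 (R := k) (A := k) (hM i)) a) ∧
      (∀ x ∈ twe_fa_loc (fun i => twe_wl_T0 (R := k) (A := k) (hM i)) a,
        twe_wl_res (twe_GamH_le M H) x = 0 → x = 0) ∧
      (∀ x ∈ twe_fa_loc (fun i => twe_wl_T0 (R := k) (A := k) (hM i)) a,
        twe_wl_res (twe_GamH_le M H) x ∈
            twe_fa_loc (fun i => twe_wl_T (R := k) (A := k) (hM i) H (s i) (hs i)) a ∧
          ∀ g : Gamma0 M, twe_wl_conj H g (twe_wl_res (twe_GamH_le M H) x) =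
            twe_wl_res (twe_GamH_le M H) x) ∧
      (∀ z ∈ twe_fa_loc (fun i => twe_wl_T (R := k) (A := k) (hM i) H (s i) (hs i)) a,
        (∀ g : Gamma0 M, twe_wl_conj H g z = z) →
          ∃ x ∈ twe_fa_loc (fun i => twe_wl_T0 (R := k) (A := k) (hM i)) a,
            twe_wl_res (twe_GamH_le M H) x = z) ∧
      (∀ y ∈ twe_fa_loc (fun i => twe_wl_T0 (R := k) (A := k) (hM i)) a,
        ∃ z ∈ twe_fa_loc (fun i => twe_wl_T (R := k) (A := k) (hM i) H (s i) (hs i)) a,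
          twe_wl_res (twe_GamH_le M H) (twe_wl_cor hr hbij z) = twe_wl_res (twe_GamH_le M H) y) ∧
      (∀ z ∈ twe_fa_loc (fun i => twe_wl_T (R := k) (A := k) (hM i) H (s i) (hs i)) a,
        twe_wl_res (twe_GamH_le M H) (twe_wl_cor hr hbij z) = 0 →
          z ∈ Submodule.span k {w | ∃ g : Gamma0 M,
            ∃ u ∈ twe_fa_loc (fun i => twe_wl_T (R := k) (A := k) (hM i) H (s i) (hs i)) a,
              w = twe_wl_conj H g u - u}) := by
  classical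
  -- the exponent hypothesis in the form `u ^ (p ^ N) ∈ H`
  have hexp : ∀ u : (ZMod M)ˣ, u ^ (p ^ N) ∈ H := by
    intro u
    obtain ⟨g, rfl⟩ := twe_fz_dUnit_surjective M u
    have h1 : ((g ^ (p ^ N) : Gamma0 M) : SL(2, ℤ)) ∈ twe_GamH M H := by
      rw [twe_fz_mem_GamH_iff_d H d hker, map_pow, hΔ]
    rw [twe_fz_mem_GamH_iff, map_pow] at h1
    exact h1
  obtain ⟨ι', hι', γ, n, hγ, hb⟩ := twe_fz_exists_basis p N Δ hΔ
  have : FiniteDimensional k ↥(twe_wl_V k k (twe_GamH M H)) := twe_wl_finite_V (twe_GamH M H)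
  have : FiniteDimensional k ↥(twe_wl_V k k (Gamma0 M)) := twe_wl_finite_V (Gamma0 M)
  set S := twe_fz_totW h2 ℓ hM hinj H hneg s hs hr hbij with hS
  set ρ := twe_fz_rhoΔ H d hd hker k with hρ
  have hρg : ∀ g : Gamma0 M, ρ (d g) = twe_wl_conj H g := twe_fz_rhoΔ_apply H d hd hker
  have hρT : ∀ δ i z, ρ δ (S.T' i z) = S.T' i (ρ δ z) := by
    intro δ i z
    obtain ⟨g, rfl⟩ := hd δ
    rw [hρg]
    exact twe_wl_T_conj (hM i) H (s i) (hs i) g z
  have hnorm : ∀ z, S.res (S.cor z) = ∑ δ : Δ, ρ δ z := by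
    intro z
    have h1 : S.res (S.cor z) = ∑ i, twe_wl_conj H (⟨r i, hr i⟩ : Gamma0 M) z :=
      twe_fz_norm H r hr hbij z
    rw [h1]
    refine Fintype.sum_bijective (fun i : ι => d ⟨r i, hr i⟩)
      (twe_fz_rep_bijective H d hd hker hr hbij) _ _ fun i => ?_
    rw [hρg]
  have hinvg : ∀ z, (∀ δ, ρ δ z = z) ↔ ∀ g : Gamma0 M, twe_wl_conj H g z = z := by
    intro z
    constructor
    · intro h g
      rw [← hρg]
      exact h (d g)
    · intro h δ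
      obtain ⟨g, rfl⟩ := hd δ
      rw [hρg]
      exact h g
  have hinv : ∀ z ∈ twe_fa_loc S.T' a, (∀ δ, ρ δ z = z) → ∃ x ∈ twe_fa_loc S.T a, S.res x = z :=
    fun z hz h => twe_fz_hinv ℓ hM hinj H s hs p N hexp h12 a i₀ hne hz ((hinvg z).1 h)
  obtain ⟨m1, m2, m3, m4, m5⟩ := twe_ft_main p S a i₀ hne ρ γ n hγ hb hρT hnorm hinv
  refine ⟨m1, m2, fun x hx => ⟨(m3 x hx).1, (hinvg _).1 (m3 x hx).2⟩,
    fun z hz h => hinv z hz ((hinvg z).2 h), m4, fun z hz h0 => ?_⟩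
  have h6 := m5 z hz h0
  refine Submodule.span_mono ?_ h6
  rintro w ⟨δ, u, hu, rfl⟩
  obtain ⟨g, rfl⟩ := hd δ
  exact ⟨g, u, hu, by rw [hρg]⟩

end main

section mainrep

variable {k : Type} [Field k] (h2 : (2 : k) ≠ 0) {M : ℕ} [NeZero M] {L : Type*} (ℓ : L → ℕ)
  [hℓ : ∀ i, Fact (ℓ i).Prime] (hM : ∀ i, ¬ ℓ i ∣ M) (hinj : Function.Injective ℓ)
  (H : Subgroup (ZMod M)ˣ) (hneg : (-1 : (ZMod M)ˣ) ∈ H) (s : L → Gamma0 M)
  (hs : ∀ i, twe_dUnit M (s i) * twe_dUnit M (s i) * (twe_hk_lU (hM i))⁻¹ ∈ H)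

/-- the localisation `W(Γ_H, k)_a`. -/
abbrev twe_fz_locH (a : L → k) : Submodule k ↥(twe_wl_V k k (twe_GamH M H)) :=
  twe_fa_loc (fun i => twe_wl_T (R := k) (A := k) (hM i) H (s i) (hs i)) a

/-- the localisation `W(Γ₀(M), k)_a`. -/
abbrev twe_fz_loc0 (a : L → k) : Submodule k ↥(twe_wl_V k k (Gamma0 M)) :=
  twe_fa_loc (fun i => twe_wl_T0 (R := k) (A := k) (hM i)) a

set_option maxSynthPendingDepth 3 in
include h2 hinj hneg in
/-- **E/Free at the `k`-level, in the shape consumed by `twe_fo_abs`** (given that the transfer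
intertwines the Hecke operators, which is obtained over `𝒪` and reduced): the localisation
`W(Γ_H, k)_a` with its `Δ`-action `ρbar` and the transfer `cbar` onto `W(Γ₀(M), k)_a`. -/
theorem twe_fz_main_rep (p N : ℕ) [Fact p.Prime] [CharP k p]
    (h12 : ∀ u : (ZMod M)ˣ, u ^ (12 * M) = 1 → u ∈ H) (a : L → k) (i₀ : L)
    (hne : a i₀ ≠ ((ℓ i₀ + 1 : ℕ) : k))
    {Δ : Type*} [CommGroup Δ] [Fintype Δ] (d : Gamma0 M →* Δ) (hd : Function.Surjective d)
    (hker : d.ker = twe_GamH' M H) (hΔ : ∀ δ : Δ, δ ^ (p ^ N) = 1)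
    {ι : Type} [Fintype ι] {r : ι → SL(2, ℤ)} (hr : ∀ i, r i ∈ Gamma0 M)
    (hbij : ∀ γ ∈ Gamma0 M, ∃! i, (r i)⁻¹ * γ ∈ twe_GamH M H)
    (hcorT : ∀ i z, twe_wl_cor hr hbij (twe_wl_T (R := k) (A := k) (hM i) H (s i) (hs i) z) =
      twe_wl_T0 (hM i) (twe_wl_cor hr hbij z)) :
    ∃ (ρbar : Representation k Δ ↥(twe_fz_locH ℓ hM H s hs a))
      (cbar : ↥(twe_fz_locH ℓ hM H s hs a) →ₗ[k] ↥(twe_fz_loc0 (k := k) ℓ hM a)),
      (∀ (g : Gamma0 M) (z : ↥(twe_fz_locH ℓ hM H s hs a)),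
        ((ρbar (d g) z : ↥(twe_fz_locH ℓ hM H s hs a)) : ↥(twe_wl_V k k (twe_GamH M H))) =
          twe_wl_conj H g z.1) ∧
      (∀ z : ↥(twe_fz_locH ℓ hM H s hs a),
        ((cbar z : ↥(twe_fz_loc0 (k := k) ℓ hM a)) : ↥(twe_wl_V k k (Gamma0 M))) =
          twe_wl_cor hr hbij z.1) ∧
      finrank k ↥(twe_fz_locH ℓ hM H s hs a) =
        Fintype.card Δ * finrank k ↥(twe_fz_loc0 (k := k) ℓ hM a) ∧
      Function.Surjective cbar ∧
      LinearMap.ker cbar ≤ ⨆ δ : Δ, LinearMap.range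
        (ρbar δ - 1) := by
  obtain ⟨m1, m2, m3, -, m5, m6⟩ := twe_fz_main h2 ℓ hM hinj H hneg s hs p N h12 a i₀ hne d hd hker
    hΔ hr hbij
  set T' : L → Module.End k ↥(twe_wl_V k k (twe_GamH M H)) :=
    fun i => twe_wl_T (R := k) (A := k) (hM i) H (s i) (hs i) with hT'
  set T0 : L → Module.End k ↥(twe_wl_V k k (Gamma0 M)) :=
    fun i => twe_wl_T0 (R := k) (A := k) (hM i) with hT0
  have hcorT' : ∀ i z, twe_wl_cor hr hbij (T' i z) = T0 i (twe_wl_cor hr hbij z) := hcorT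
  set ρ := twe_fz_rhoΔ H d hd hker k with hρ
  have hρg : ∀ g : Gamma0 M, ρ (d g) = twe_wl_conj H g := twe_fz_rhoΔ_apply H d hd hker
  have hρT : ∀ δ i z, ρ δ (T' i z) = T' i (ρ δ z) := by
    intro δ i z
    obtain ⟨g, rfl⟩ := hd δ
    rw [hρg]
    exact twe_wl_T_conj (hM i) H (s i) (hs i) g z
  have hcor : ∀ z ∈ twe_fa_loc T' a, twe_wl_cor hr hbij z ∈ twe_fa_loc T0 a := fun z hz =>
    twe_fa_map_loc (twe_wl_cor hr hbij) T' T0 hcorT' a hz
  refine ⟨twe_ft_rhoA T' a ρ hρT, (twe_wl_cor hr hbij).restrict hcor, ?_, ?_, m1, ?_, ?_⟩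
  · intro g z
    rw [twe_ft_rhoA_coe, hρg]
  · intro z
    rfl
  · intro y
    obtain ⟨z, hz, hzy⟩ := m5 y y.2
    refine ⟨⟨z, hz⟩, Subtype.ext ?_⟩
    rw [LinearMap.coe_restrict_apply]
    have h1 : twe_wl_cor hr hbij z - y.1 ∈ twe_fa_loc T0 a :=
      Submodule.sub_mem _ (hcor z hz) y.2
    have h2' := m2 _ h1 (by rw [map_sub, hzy, sub_self])
    exact sub_eq_zero.1 h2'
  · intro z hz
    have h0 : twe_wl_cor hr hbij z.1 = 0 := by
      have := congrArg Subtype.val (LinearMap.mem_ker.1 hz)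
      rwa [LinearMap.coe_restrict_apply] at this
    have h1 := m6 z.1 z.2 (by rw [h0, map_zero])
    have hle : Submodule.span k {w | ∃ g : Gamma0 M, ∃ u ∈ twe_fa_loc T' a,
        w = twe_wl_conj H g u - u} ≤
        (⨆ δ : Δ, LinearMap.range (twe_ft_rhoA T' a ρ hρT δ - 1)).map (twe_fa_loc T' a).subtype := by
      rw [Submodule.span_le]
      rintro w ⟨g, u, hu, rfl⟩
      refine ⟨(twe_ft_rhoA T' a ρ hρT (d g) - 1) ⟨u, hu⟩,
        Submodule.mem_iSup_of_mem (d g) (LinearMap.mem_range_self _ _), ?_⟩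
      rw [LinearMap.sub_apply, Module.End.one_apply, Submodule.subtype_apply,
        Submodule.coe_sub, twe_ft_rhoA_coe, hρg]
    obtain ⟨z', hz', hz'z⟩ := hle h1
    have : z' = z := Subtype.ext hz'z
    rw [← this]
    exact hz'

end mainrep

end Fermat.Agent.TW
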