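/-
ONE MACHINE / block [E] AUT, cell E/Free, the passage `k ⟹ 𝒪`, ABSTRACT form (helper22).
Namespace `Fermat.Agent.TW`, prefix `twe_fo_`.  Mathlib + `TW/Aut/{FreeCrit, FreeMA, LocAlgMod}`.

`𝒪` local with residue field `k` of characteristic `p`, `Δ` a finite commutative `p`-group.
`M'`, `M0` finite free `𝒪`-modules ("the localised lattices at the levels `Γ_H` and `Γ₀`"),
`ρ : Δ → End_𝒪 M'` ("diamonds"), `c : M' → M0` ("transfer") constant on the `Δ`-orbits;
reductions `π' : M' → W'`, `π0 : M0 → W0` ONTO `k`-vector spaces with kernel `𝔪 M'`, `𝔪 M0`,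
compatible with `ρbar : Δ → End_k W'` and `cbar : W' → W0`.

k-LEVEL INPUT: `dim W' = |Δ| dim W0`, `cbar` surjective, `ker cbar ≤ I_Δ W'`.

OUTPUT `twe_fo_abs`: an orbit basis `b (δ, i) = ρ δ (v i)` of `M'` over `𝒪` (so `M'` is free over
`𝒪[Δ]`: `twe_fm_free_rep`), `c` surjective, `ker c = I_Δ M'`, `rank_𝒪 M0 = r`.
-/
import Mathlib
import Fermat.Agent.TW.Aut.FreeCrit
import Fermat.Agent.TW.Aut.FreeMA
import Fermat.Agent.TW.Aut.LocAlgMod

set_option autoImplicit false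
set_option linter.unusedSectionVars false
set_option linter.unusedVariables false
set_option linter.style.haveILetI false

noncomputable section

namespace Fermat.Agent.TW

open IsLocalRing Module

section abs

variable {𝒪 : Type*} [CommRing 𝒪] [IsLocalRing 𝒪]

/-- the kernel of a reduction map onto a `k`-vector space contains `𝔪 M`. -/
theorem twe_fo_ker_eq {M : Type*} [AddCommGroup M] [Module 𝒪 M]
    {W : Type*} [AddCommGroup W] [Module (ResidueField 𝒪) W] [Module 𝒪 W]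
    [IsScalarTower 𝒪 (ResidueField 𝒪) W] (π : M →ₗ[𝒪] W)
    (hk : LinearMap.ker π ≤ (maximalIdeal 𝒪) • (⊤ : Submodule 𝒪 M)) :
    LinearMap.ker π = (maximalIdeal 𝒪) • (⊤ : Submodule 𝒪 M) := by
  refine le_antisymm hk ?_
  rw [Submodule.smul_le]
  intro a ha m _
  rw [LinearMap.mem_ker]
  exact twe_lam_red_smul_of_mem π ha m

/-- a `k`-linear representation, seen as an `𝒪`-linear one. -/
def twe_fo_rs {Δ : Type*} [Monoid Δ] {W : Type*} [AddCommGroup W] [Module (ResidueField 𝒪) W]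
    [Module 𝒪 W] [IsScalarTower 𝒪 (ResidueField 𝒪) W]
    (ρbar : Representation (ResidueField 𝒪) Δ W) : Representation 𝒪 Δ W where
  toFun δ := (ρbar δ).restrictScalars 𝒪
  map_one' := by
    rw [map_one]
    rfl
  map_mul' δ δ' := by
    rw [map_mul]
    rfl

@[simp] theorem twe_fo_rs_apply {Δ : Type*} [Monoid Δ] {W : Type*} [AddCommGroup W]
    [Module (ResidueField 𝒪) W] [Module 𝒪 W] [IsScalarTower 𝒪 (ResidueField 𝒪) W]
    (ρbar : Representation (ResidueField 𝒪) Δ W) (δ : Δ) (w : W) :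
    twe_fo_rs ρbar δ w = ρbar δ w := rfl

variable {Δ : Type*} [CommGroup Δ] [Fintype Δ]
  {M' M0 : Type*} [AddCommGroup M'] [Module 𝒪 M'] [Module.Finite 𝒪 M'] [Module.Free 𝒪 M']
  [AddCommGroup M0] [Module 𝒪 M0] [Module.Finite 𝒪 M0] [Module.Free 𝒪 M0]
  {W' W0 : Type*} [AddCommGroup W'] [Module (ResidueField 𝒪) W'] [Module 𝒪 W']
  [IsScalarTower 𝒪 (ResidueField 𝒪) W']
  [AddCommGroup W0] [Module (ResidueField 𝒪) W0] [Module 𝒪 W0]
  [IsScalarTower 𝒪 (ResidueField 𝒪) W0]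

/-- **E/Free, `k ⟹ 𝒪`, abstract form.** -/
theorem twe_fo_abs {p n : ℕ} (hp : p.Prime) (hpO : (p : 𝒪) ∈ maximalIdeal 𝒪)
    (hΔ : ∀ δ : Δ, δ ^ (p ^ n) = 1)
    (ρ : Representation 𝒪 Δ M') (c : M' →ₗ[𝒪] M0) (hc : ∀ δ m, c (ρ δ m) = c m)
    (π' : M' →ₗ[𝒪] W') (hπ' : Function.Surjective π')
    (hk' : LinearMap.ker π' ≤ (maximalIdeal 𝒪) • (⊤ : Submodule 𝒪 M'))
    (π0 : M0 →ₗ[𝒪] W0) (hπ0 : Function.Surjective π0)
    (hk0 : LinearMap.ker π0 ≤ (maximalIdeal 𝒪) • (⊤ : Submodule 𝒪 M0))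
    (ρbar : Representation (ResidueField 𝒪) Δ W') (hρ : ∀ δ m, π' (ρ δ m) = ρbar δ (π' m))
    (cbar : W' →ₗ[ResidueField 𝒪] W0) (hcbar : ∀ m, cbar (π' m) = π0 (c m))
    (hcount : finrank (ResidueField 𝒪) W' = Fintype.card Δ * finrank (ResidueField 𝒪) W0)
    (hsurj : Function.Surjective cbar)
    (hker : LinearMap.ker cbar ≤ ⨆ δ : Δ, LinearMap.range (ρbar δ - 1)) :
    ∃ (r : ℕ) (v : Fin r → M') (b : Basis (Δ × Fin r) 𝒪 M'),
      (∀ δ i, b (δ, i) = ρ δ (v i)) ∧ Function.Surjective c ∧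
      LinearMap.ker c = ⨆ δ : Δ, LinearMap.range (ρ δ - 1) ∧ finrank 𝒪 M0 = r := by
  classical
  -- finiteness of the residual spaces
  haveI : Module.Finite 𝒪 W0 := Module.Finite.of_surjective π0 hπ0
  haveI : Module.Finite (ResidueField 𝒪) W0 :=
    Module.Finite.of_restrictScalars_finite 𝒪 (ResidueField 𝒪) W0
  haveI : Module.Finite 𝒪 W' := Module.Finite.of_surjective π' hπ'
  haveI : Module.Finite (ResidueField 𝒪) W' :=
    Module.Finite.of_restrictScalars_finite 𝒪 (ResidueField 𝒪) W'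
  have hjac : Ideal.jacobson (⊥ : Ideal 𝒪) = maximalIdeal 𝒪 :=
    IsLocalRing.jacobson_eq_maximalIdeal ⊥ bot_ne_top
  -- ranks
  have hr' : finrank 𝒪 M' = finrank (ResidueField 𝒪) W' :=
    twe_lam_finrank_eq π' hπ' (twe_fo_ker_eq π' hk')
  have hr0 : finrank 𝒪 M0 = finrank (ResidueField 𝒪) W0 :=
    twe_lam_finrank_eq π0 hπ0 (twe_fo_ker_eq π0 hk0)
  set r := finrank (ResidueField 𝒪) W0 with hr
  -- a basis of `W0` and lifts to `W'`
  let b0bar : Basis (Fin r) (ResidueField 𝒪) W0 := Module.finBasis (ResidueField 𝒪) W0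
  choose w hw using fun i => hsurj (b0bar i)
  -- generation of `W'` modulo `I_Δ`
  have hpk : ((p : ℕ) : ResidueField 𝒪) ∈ Ideal.jacobson (⊥ : Ideal (ResidueField 𝒪)) := by
    have : ((p : ℕ) : ResidueField 𝒪) = 0 := by
      have h1 : residue 𝒪 (p : 𝒪) = 0 := (residue_eq_zero_iff _).mpr hpO
      rwa [map_natCast] at h1
    rw [this]
    exact Ideal.zero_mem _
  have hgen : (⊤ : Submodule (ResidueField 𝒪) W') ≤
      Submodule.span (ResidueField 𝒪) (Set.range w) ⊔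
        (Ideal.jacobson (⊥ : Ideal (ResidueField 𝒪))) • (⊤ : Submodule (ResidueField 𝒪) W') ⊔
        ⨆ δ : Δ, LinearMap.range (ρbar δ - 1) := by
    intro m _
    have hm0 : cbar m ∈ Submodule.span (ResidueField 𝒪) (Set.range b0bar) := by
      rw [b0bar.span_eq]
      exact Submodule.mem_top
    have hm1 : cbar m ∈ (Submodule.span (ResidueField 𝒪) (Set.range w)).map cbar := by
      rw [Submodule.map_span, ← Set.range_comp]
      have : cbar ∘ w = b0bar := funext hw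
      rw [this]
      exact hm0
    obtain ⟨s, hs, hsm⟩ := hm1
    have h3 : m - s ∈ LinearMap.ker cbar := by
      rw [LinearMap.mem_ker, map_sub, hsm, sub_self]
    have h4 : m = s + (m - s) := by abel
    rw [h4]
    exact Submodule.add_mem_sup (Submodule.mem_sup_left hs) (hker h3)
  have hspank : Submodule.span (ResidueField 𝒪) (Set.range (twe_fc_orbit ρbar w)) = ⊤ :=
    twe_fc_span_orbit_eq_top hp hpk hΔ ρbar w hgen
  -- the same span over `𝒪`
  have hspanO : (⊤ : Submodule 𝒪 W') ≤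
      Submodule.span 𝒪 (Set.range (twe_fc_orbit (twe_fo_rs ρbar) w)) := by
    have h1 := Submodule.restrictScalars_span 𝒪 (ResidueField 𝒪)
      (IsLocalRing.residue_surjective (R := 𝒪)) (Set.range (twe_fc_orbit ρbar w))
    intro m _
    have h2 : m ∈ (Submodule.span (ResidueField 𝒪)
        (Set.range (twe_fc_orbit ρbar w))).restrictScalars 𝒪 := by
      rw [hspank]
      exact Submodule.mem_top
    rw [h1] at h2
    exact h2
  -- lifts
  choose v hv using fun i => hπ' (w i)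
  have hrank : finrank 𝒪 M' = r * Fintype.card Δ := by
    rw [hr', hcount, mul_comm]
  have hk'' : LinearMap.ker π' ≤ (Ideal.jacobson (⊥ : Ideal 𝒪)) • (⊤ : Submodule 𝒪 M') := by
    rw [hjac]
    exact hk'
  obtain ⟨hli, hsp⟩ := twe_fc_lift_orbit ρ (twe_fo_rs ρbar) π' hk''
    (fun δ m => by rw [hρ, twe_fo_rs_apply]) w hspanO hrank v hv
  let b : Basis (Δ × Fin r) 𝒪 M' := Basis.mk hli hsp
  have hb : ∀ δ i, b (δ, i) = ρ δ (v i) := by
    intro δ i
    rw [Basis.mk_apply, twe_fc_orbit_apply]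
  -- surjectivity of `c`
  have hcs : Function.Surjective c := by
    have h1 : (⊤ : Submodule 𝒪 M0) ≤ LinearMap.range c ⊔
        (maximalIdeal 𝒪) • (⊤ : Submodule 𝒪 M0) := by
      intro y _
      obtain ⟨wbar, hwbar⟩ := hsurj (π0 y)
      obtain ⟨m, rfl⟩ := hπ' wbar
      rw [hcbar] at hwbar
      have h2 : y - c m ∈ LinearMap.ker π0 := by
        rw [LinearMap.mem_ker, map_sub, hwbar, sub_self]
      have h3 : y = c m + (y - c m) := by abel
      rw [h3]
      exact Submodule.add_mem_sup ⟨m, rfl⟩ (hk0 h2)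
    have h2 : (⊤ : Submodule 𝒪 M0) ≤ LinearMap.range c :=
      Submodule.le_of_le_smul_of_le_jacobson_bot Module.Finite.fg_top hjac.ge h1
    exact LinearMap.range_eq_top.mp (top_le_iff.mp h2)
  -- the kernel
  let b0 : Basis (Fin r) 𝒪 M0 := Module.finBasisOfFinrankEq 𝒪 M0 hr0
  have hb1 : ∀ δ i, b (δ, i) = ρ δ (b (1, i)) := by
    intro δ i
    rw [hb, hb, map_one, Module.End.one_apply]
  exact ⟨r, v, b, hb, hcs, twe_fm_ker_eq ρ b hb1 b0 c hc hcs, hr0⟩

end abs

end Fermat.Agent.TW
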