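/-
ONE MACHINE / block [E] AUT: THE θ-PRIMARY PART AND A REDUCTION MAP (helper22).
Namespace `Fermat.Agent.TW`, prefix `twe_prr_`.  Mathlib + `TW/Aut/Prim.lean`.

`𝒪` complete noetherian local, `X` a finite `𝒪`-module with a commuting family `T : L → End_𝒪 X`,
`a : L → 𝒪`, and a reduction map `red : X → V` onto a `k`-vector space, with kernel `𝔪 X`,
intertwining `T ℓ` and `Tbar ℓ`.  Then for `P := twe_pr_prim T a`:

* `twe_prr_pi : ↥P →ₗ[𝒪] ↥(twe_fa_loc Tbar (residue ∘ a))` (the target is an `𝒪`-module through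
  `Submodule.module'`), `twe_prr_pi_surjective`, `twe_prr_pi_ker : ker ≤ 𝔪 • ⊤`;
* `twe_prr_finite`, `twe_prr_free` : `↥P` is finite (free if `X` is) over `𝒪`;
* `twe_prr_finrank` : `rank_𝒪 P = dim_k V_𝔪`.
-/
import Mathlib
import Fermat.Agent.TW.Aut.Prim

set_option autoImplicit false
set_option linter.unusedSectionVars false
set_option linter.unusedVariables false
set_option linter.style.haveILetI false

noncomputable section

namespace Fermat.Agent.TW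

open IsLocalRing

universe u w

section prr

variable {𝒪 : Type u} [CommRing 𝒪] [IsLocalRing 𝒪]
  {X : Type u} [AddCommGroup X] [Module 𝒪 X] {L : Type*}
  {V : Type w} [AddCommGroup V] [Module (ResidueField 𝒪) V] [Module 𝒪 V]
  [IsScalarTower 𝒪 (ResidueField 𝒪) V]

/-- the reduction map `prim → V_𝔪`. -/
def twe_prr_pi (T : L → Module.End 𝒪 X) (a : L → 𝒪) (red : X →ₗ[𝒪] V)
    (Tbar : L → Module.End (ResidueField 𝒪) V) (hred : ∀ ℓ x, red (T ℓ x) = Tbar ℓ (red x)) :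
    ↥(twe_pr_prim T a) →ₗ[𝒪] ↥(twe_fa_loc Tbar (fun ℓ => residue 𝒪 (a ℓ))) where
  toFun x := ⟨red (x : X), twe_pr_red_mem_loc red T Tbar hred a x.2⟩
  map_add' x y := Subtype.ext (by simp)
  map_smul' c x := Subtype.ext (by simp)

@[simp] theorem twe_prr_pi_coe (T : L → Module.End 𝒪 X) (a : L → 𝒪) (red : X →ₗ[𝒪] V)
    (Tbar : L → Module.End (ResidueField 𝒪) V) (hred : ∀ ℓ x, red (T ℓ x) = Tbar ℓ (red x))
    (x : ↥(twe_pr_prim T a)) : ((twe_prr_pi T a red Tbar hred x : _) : V) = red (x : X) := rfl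

variable [IsNoetherianRing 𝒪] [IsAdicComplete (maximalIdeal 𝒪) 𝒪] [Module.Finite 𝒪 X]

/-- the projection `X → prim` given by the idempotent of the primary part. -/
theorem twe_prr_exists_proj (T : L → Module.End 𝒪 X) (hcomm : ∀ ℓ ℓ', Commute (T ℓ) (T ℓ'))
    (a : L → 𝒪) :
    ∃ f : X →ₗ[𝒪] ↥(twe_pr_prim T a), (∀ x : ↥(twe_pr_prim T a), f (x : X) = x) ∧
      ∀ {V : Type w} [AddCommGroup V] [Module (ResidueField 𝒪) V] [Module 𝒪 V]
        [IsScalarTower 𝒪 (ResidueField 𝒪) V] (red : X →ₗ[𝒪] V)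
        (Tbar : L → Module.End (ResidueField 𝒪) V),
        (∀ ℓ x, red (T ℓ x) = Tbar ℓ (red x)) →
        LinearMap.ker red ≤ (maximalIdeal 𝒪) • (⊤ : Submodule 𝒪 X) →
        ∀ x, red x ∈ twe_fa_loc Tbar (fun ℓ => residue 𝒪 (a ℓ)) → red (f x : X) = red x := by
  obtain ⟨E, hE, -, hiff, hEred⟩ := twe_pr_exists_end.{u, w} T hcomm a
  have hmem : ∀ x, E x ∈ twe_pr_prim T a := by
    intro x
    apply (hiff _).mp
    rw [← Module.End.mul_apply, hE.eq]
  refine ⟨E.codRestrict (twe_pr_prim T a) hmem, fun x => ?_, ?_⟩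
  · apply Subtype.ext
    rw [LinearMap.codRestrict_apply]
    exact (hiff _).mpr x.2
  · intro V _ _ _ _ red Tbar hred hker x hx
    rw [LinearMap.codRestrict_apply]
    exact hEred red Tbar hred hker x hx

theorem twe_prr_pi_surjective (T : L → Module.End 𝒪 X) (hcomm : ∀ ℓ ℓ', Commute (T ℓ) (T ℓ'))
    (a : L → 𝒪) (red : X →ₗ[𝒪] V)
    (Tbar : L → Module.End (ResidueField 𝒪) V) (hred : ∀ ℓ x, red (T ℓ x) = Tbar ℓ (red x))
    (hsurj : Function.Surjective red)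
    (hker : LinearMap.ker red ≤ (maximalIdeal 𝒪) • (⊤ : Submodule 𝒪 X)) :
    Function.Surjective (twe_prr_pi T a red Tbar hred) := by
  obtain ⟨f, -, hf⟩ := twe_prr_exists_proj.{u, w} T hcomm a
  rintro ⟨y, hy⟩
  obtain ⟨x, rfl⟩ := hsurj y
  refine ⟨f x, Subtype.ext ?_⟩
  rw [twe_prr_pi_coe]
  exact hf red Tbar hred hker x hy

theorem twe_prr_pi_ker (T : L → Module.End 𝒪 X) (hcomm : ∀ ℓ ℓ', Commute (T ℓ) (T ℓ'))
    (a : L → 𝒪) (red : X →ₗ[𝒪] V)
    (Tbar : L → Module.End (ResidueField 𝒪) V) (hred : ∀ ℓ x, red (T ℓ x) = Tbar ℓ (red x))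
    (hker : LinearMap.ker red ≤ (maximalIdeal 𝒪) • (⊤ : Submodule 𝒪 X)) :
    LinearMap.ker (twe_prr_pi T a red Tbar hred) ≤
      (maximalIdeal 𝒪) • (⊤ : Submodule 𝒪 ↥(twe_pr_prim T a)) := by
  obtain ⟨f, hf, -⟩ := twe_prr_exists_proj.{u, w} T hcomm a
  intro x hx
  have h0 : red (x : X) = 0 := congrArg Subtype.val (LinearMap.mem_ker.mp hx)
  have h1 : (x : X) ∈ (maximalIdeal 𝒪) • (⊤ : Submodule 𝒪 X) := hker (LinearMap.mem_ker.mpr h0)
  have h2 := twe_pr_map_mem (maximalIdeal 𝒪) f h1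
  rwa [hf x] at h2

theorem twe_prr_finite (T : L → Module.End 𝒪 X) (hcomm : ∀ ℓ ℓ', Commute (T ℓ) (T ℓ'))
    (a : L → 𝒪) : Module.Finite 𝒪 ↥(twe_pr_prim T a) := by
  obtain ⟨f, hf, -⟩ := twe_prr_exists_proj.{u, u} T hcomm a
  exact Module.Finite.of_surjective f fun x => ⟨x, hf x⟩

theorem twe_prr_free [Module.Free 𝒪 X] (T : L → Module.End 𝒪 X)
    (hcomm : ∀ ℓ ℓ', Commute (T ℓ) (T ℓ')) (a : L → 𝒪) :
    Module.Free 𝒪 ↥(twe_pr_prim T a) := by
  obtain ⟨f, hf, -⟩ := twe_prr_exists_proj.{u, u} T hcomm a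
  haveI : Module.Finite 𝒪 ↥(twe_pr_prim T a) := twe_prr_finite T hcomm a
  haveI : Module.Projective 𝒪 ↥(twe_pr_prim T a) :=
    Module.Projective.of_split (twe_pr_prim T a).subtype f (LinearMap.ext fun x => hf x)
  exact Module.free_of_flat_of_isLocalRing

end prr

end Fermat.Agent.TW
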