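/-
ONE MACHINE / block [E] AUT, cell E/Free OVER `𝒪`, concrete form (helper22).
Namespace `Fermat.Agent.TW`, prefix `twe_fo_`.
Imports `TW/Aut/{WLin, Red, PrimRed, FreeLift, HeckeComm}`.

`X' = W(Γ_H, 𝒪)`, `X0 = W(Γ₀(M), 𝒪)`, `T'_i`, `T_i` the Hecke operators, `a : L → 𝒪`,
`P' = twe_pr_prim T' a`, `P0 = twe_pr_prim T0 a`, `Δ = Γ₀(M)/Γ_H` (abstract, through a surjection
`d : Γ₀(M) → Δ` with kernel `Γ_H`), a `p`-group.

INPUT  (k-LEVEL, `k = 𝒪/𝔪`; the conclusions of `twe_ft_main` for the concrete spaces):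
  (K1) `dim V'_a = [Γ₀(M):Γ_H] dim V0_a`, (K2) `res` injective on `V0_a`,
  (K3) `res ∘ cor` maps `V'_a` onto `res V0_a`, (K4) `ker (res ∘ cor) ∩ V'_a = I_Δ V'_a`.
OUTPUT `twe_fo_main`: `cor ∘ T' = T ∘ cor` over `𝒪`; `P'` has an orbit basis over `𝒪` (so is free
over `𝒪[Δ]`), `cor : P' → P0` is onto with kernel `I_Δ P'`, and `P0` is finite free of rank `r`.
-/
import Mathlib
import Fermat.Agent.TW.Aut.WLin
import Fermat.Agent.TW.Aut.Red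
import Fermat.Agent.TW.Aut.PrimRed
import Fermat.Agent.TW.Aut.FreeLift
import Fermat.Agent.TW.Aut.HeckeComm

set_option autoImplicit false
set_option linter.unusedSectionVars false
set_option linter.unusedVariables false
set_option linter.style.haveILetI false

noncomputable section

open scoped MatrixGroups
open Matrix.SpecialLinearGroup CongruenceSubgroup

namespace Fermat.Agent.TW

open IsLocalRing Module Fermat.Agent.JT3 Fermat.Agent.LR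

/-! ### A. restriction, transfer and diamonds on `W(Γ_H, A)`, in `twe_wl_V`-form -/

section wl

variable {R : Type*} [CommRing R] {A : Type*} [AddCommGroup A] [Module R A]
  {M : ℕ} (H : Subgroup (ZMod M)ˣ)
  {ι : Type*} [Fintype ι] {ρc : ι → SL(2, ℤ)} (hρ : ∀ i, ρc i ∈ Gamma0 M)
  (hbij : ∀ γ ∈ Gamma0 M, ∃! i, (ρc i)⁻¹ * γ ∈ twe_GamH M H)

omit [Fintype ι] in
/-- `Γ₀(M)` normalises `Γ_H`. -/
theorem twe_fo_hnorm : ∀ g ∈ Gamma0 M, ∀ n ∈ twe_GamH M H, g⁻¹ * n * g ∈ twe_GamH M H :=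
  fun g hg n hn => (twe_conjHom H ⟨g, hg⟩ ⟨n, hn⟩).2

/-- `res ∘ cor = ∑ᵢ ⟨ρᵢ⟩`. -/
theorem twe_fo_res_cor (z : ↥(twe_wl_V R A (twe_GamH M H))) :
    twe_wl_res (twe_GamH_le M H) (twe_wl_cor hρ hbij z) =
      ∑ i, twe_wl_conj H ⟨ρc i, hρ i⟩ z := by
  apply Subtype.ext
  rw [twe_wl_res_coe, twe_wl_cor_coe, Submodule.coe_sum]
  exact twe_rc_res_cor (twe_fo_hnorm H) hρ hbij (twe_GamH_le M H) z.1

/-- `cor ∘ ⟨g⟩ = cor`. -/
theorem twe_fo_cor_conj (g : Gamma0 M) (z : ↥(twe_wl_V R A (twe_GamH M H))) :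
    twe_wl_cor (R := R) hρ hbij (twe_wl_conj H g z) = twe_wl_cor hρ hbij z := by
  apply Subtype.ext
  rw [twe_wl_cor_coe, twe_wl_cor_coe, twe_wl_conj_coe]
  exact twe_rc_cor_conj (twe_fo_hnorm H) hρ hbij g z.1

/-- `cor ∘ res = [Γ₀(M) : Γ_H]`. -/
theorem twe_fo_cor_res (x : ↥(twe_wl_V R A (Gamma0 M))) :
    twe_wl_cor (R := R) hρ hbij (twe_wl_res (twe_GamH_le M H) x) = Fintype.card ι • x := by
  apply Subtype.ext
  rw [twe_wl_cor_coe, twe_wl_res_coe, Submodule.coe_smul_of_tower]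
  exact twe_rc_cor_res hρ hbij (twe_GamH_le M H) x.1

/-- restrictions from `Γ₀(M)` are invariant under the diamonds. -/
theorem twe_fo_conj_res (g : Gamma0 M) (x : ↥(twe_wl_V R A (Gamma0 M))) :
    twe_wl_conj (R := R) H g (twe_wl_res (twe_GamH_le M H) x) =
      twe_wl_res (twe_GamH_le M H) x := by
  apply Subtype.ext
  rw [twe_wl_conj_coe, twe_wl_res_coe]
  exact twe_rc_conj_res (twe_fo_hnorm H) (twe_GamH_le M H) g x.1

omit [Fintype ι] in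
include hbij in
/-- there is at least one coset. -/
theorem twe_fo_nonempty : Nonempty ι := by
  obtain ⟨i, -, -⟩ := hbij 1 (one_mem _)
  exact ⟨i⟩

end wl

/-! ### B. the diamond representation of `Δ = Γ₀(M)/Γ_H` -/

section rho

variable {R : Type*} [CommRing R] {A : Type*} [AddCommGroup A] [Module R A]
  {M : ℕ} (H : Subgroup (ZMod M)ˣ)
  {Δ : Type*} [Group Δ] (d : Gamma0 M →* Δ) (hd : Function.Surjective d)
  (hdk : ∀ g, d g = 1 ↔ (g : SL(2, ℤ)) ∈ twe_GamH M H)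

include hdk in
/-- the diamond operator depends only on the class in `Δ`. -/
theorem twe_fo_conj_congr {g g' : Gamma0 M} (h : d g = d g') :
    twe_wl_conj (R := R) (A := A) H g = twe_wl_conj H g' := by
  have h1 : (((g'⁻¹ * g : Gamma0 M)) : SL(2, ℤ)) ∈ twe_GamH M H := by
    rw [← hdk, map_mul, map_inv, h, inv_mul_cancel]
  have h2 : g = g' * (g'⁻¹ * g) := by group
  rw [h2, twe_wl_conj_mul, twe_wl_conj_of_mem H _ h1, mul_one]

/-- **the diamond representation** `Δ → End_R W(Γ_H, A)`. -/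
def twe_fo_rho : Δ →* Module.End R ↥(twe_wl_V R A (twe_GamH M H)) where
  toFun δ := twe_wl_conj H (Function.surjInv hd δ)
  map_one' := by
    rw [twe_fo_conj_congr H d hdk (g' := 1) (by rw [Function.surjInv_eq hd, map_one]),
      twe_wl_conj_one]
  map_mul' δ δ' := by
    rw [← twe_wl_conj_mul]
    apply twe_fo_conj_congr H d hdk
    rw [map_mul, Function.surjInv_eq hd, Function.surjInv_eq hd, Function.surjInv_eq hd]

theorem twe_fo_rho_def (δ : Δ) :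
    twe_fo_rho (R := R) (A := A) H d hd hdk δ = twe_wl_conj H (Function.surjInv hd δ) := rfl

theorem twe_fo_rho_apply (g : Gamma0 M) :
    twe_fo_rho (R := R) (A := A) H d hd hdk (d g) = twe_wl_conj H g :=
  twe_fo_conj_congr H d hdk (Function.surjInv_eq hd (d g))

variable {ι : Type*} [Fintype ι] {ρc : ι → SL(2, ℤ)} (hρ : ∀ i, ρc i ∈ Gamma0 M)
  (hbij : ∀ γ ∈ Gamma0 M, ∃! i, (ρc i)⁻¹ * γ ∈ twe_GamH M H)

omit [Fintype ι] in
include hd hdk hbij in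
/-- the coset representatives are in bijection with `Δ`. -/
theorem twe_fo_idx_bij : Function.Bijective fun i : ι => d ⟨ρc i, hρ i⟩ := by
  constructor
  · intro i j hij
    have hij' : d ⟨ρc i, hρ i⟩ = d ⟨ρc j, hρ j⟩ := hij
    have h1 : (((⟨ρc j, hρ j⟩ : Gamma0 M)⁻¹ * ⟨ρc i, hρ i⟩ : Gamma0 M) : SL(2, ℤ)) ∈
        twe_GamH M H := by
      rw [← hdk, map_mul, map_inv, hij', inv_mul_cancel]
    obtain ⟨i0, -, huniq⟩ := hbij (ρc i) (hρ i)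
    have hi : i = i0 := huniq i (by
      show (ρc i)⁻¹ * ρc i ∈ twe_GamH M H
      rw [inv_mul_cancel]; exact one_mem _)
    have hj : j = i0 := huniq j h1
    rw [hi, hj]
  · intro δ
    obtain ⟨g, rfl⟩ := hd δ
    obtain ⟨i, hi, -⟩ := hbij g g.2
    refine ⟨i, ?_⟩
    have h1 : (((⟨ρc i, hρ i⟩ : Gamma0 M)⁻¹ * g : Gamma0 M) : SL(2, ℤ)) ∈ twe_GamH M H := hi
    rw [← hdk, map_mul, map_inv, inv_mul_eq_one] at h1
    exact h1

include hd hdk hρ hbij in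
theorem twe_fo_card [Fintype Δ] : Fintype.card ι = Fintype.card Δ :=
  Fintype.card_of_bijective (twe_fo_idx_bij H d hd hdk hρ hbij)

/-- `res ∘ cor = ∑_δ ρ δ`. -/
theorem twe_fo_res_cor_rho [Fintype Δ] (z : ↥(twe_wl_V R A (twe_GamH M H))) :
    twe_wl_res (twe_GamH_le M H) (twe_wl_cor hρ hbij z) =
      ∑ δ : Δ, twe_fo_rho (R := R) H d hd hdk δ z := by
  rw [twe_fo_res_cor]
  refine Fintype.sum_bijective _ (twe_fo_idx_bij H d hd hdk hρ hbij) _ _ fun i => ?_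
  rw [twe_fo_rho_apply]

end rho

/-- restriction of a representation to a stable submodule. -/
def twe_fo_restrict {R : Type*} [CommRing R] {X : Type*} [AddCommGroup X] [Module R X]
    {Δ : Type*} [Monoid Δ] (ρ : Δ →* Module.End R X) (P : Submodule R X)
    (hP : ∀ δ, ∀ x ∈ P, ρ δ x ∈ P) : Representation R Δ ↥P where
  toFun δ := (ρ δ).restrict (hP δ)
  map_one' := by
    ext z
    rw [LinearMap.coe_restrict_apply, map_one, Module.End.one_apply, Module.End.one_apply]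
  map_mul' δ δ' := by
    ext z
    rw [LinearMap.coe_restrict_apply, map_mul, Module.End.mul_apply, Module.End.mul_apply,
      LinearMap.coe_restrict_apply, LinearMap.coe_restrict_apply]

theorem twe_fo_restrict_coe {R : Type*} [CommRing R] {X : Type*} [AddCommGroup X] [Module R X]
    {Δ : Type*} [Monoid Δ] (ρ : Δ →* Module.End R X) (P : Submodule R X)
    (hP : ∀ δ, ∀ x ∈ P, ρ δ x ∈ P) (δ : Δ) (z : ↥P) :
    ((twe_fo_restrict ρ P hP δ z : ↥P) : X) = ρ δ (z : X) := rfl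

/-! ### C. the Hecke families -/

section families

variable (R : Type*) [CommRing R] (A : Type*) [AddCommGroup A] [Module R A]
  {M : ℕ} {L : Type*} (ℓ : L → ℕ) [hℓ : ∀ i, Fact (ℓ i).Prime] (hM : ∀ i, ¬ ℓ i ∣ M)

/-- the family `T'_i` on `W(Γ_H, A)`. -/
def twe_fo_T' (H : Subgroup (ZMod M)ˣ) (s : L → Gamma0 M)
    (hs : ∀ i, twe_dUnit M (s i) * twe_dUnit M (s i) * (twe_hk_lU (hM i))⁻¹ ∈ H) :
    L → Module.End R ↥(twe_wl_V R A (twe_GamH M H)) :=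
  fun i => twe_wl_T (hM i) H (s i) (hs i)

/-- the family `T_i` on `W(Γ₀(M), A)`. -/
def twe_fo_T0 : L → Module.End R ↥(twe_wl_V R A (Gamma0 M)) :=
  fun i => twe_wl_T0 (hM i)

variable {R A}

theorem twe_fo_T'_commute (hinj : Function.Injective ℓ) (H : Subgroup (ZMod M)ˣ)
    (s : L → Gamma0 M)
    (hs : ∀ i, twe_dUnit M (s i) * twe_dUnit M (s i) * (twe_hk_lU (hM i))⁻¹ ∈ H) (i j : L) :
    Commute (twe_fo_T' R A ℓ hM H s hs i) (twe_fo_T' R A ℓ hM H s hs j) := by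
  refine LinearMap.ext fun z => Subtype.ext ?_
  exact twe_hc_commute ℓ hM hinj H s hs i j z.1

end families

/-! ### D. over `𝒪`: `res` is injective, `cor ∘ T' = T ∘ cor`, `T` commute -/

section overO

variable {𝒪 : Type*} [CommRing 𝒪] [IsDomain 𝒪] [CharZero 𝒪]
  {M : ℕ} (H : Subgroup (ZMod M)ˣ)
  {L : Type*} (ℓ : L → ℕ) [hℓ : ∀ i, Fact (ℓ i).Prime] (hM : ∀ i, ¬ ℓ i ∣ M)
  (s : L → Gamma0 M)
  (hs : ∀ i, twe_dUnit M (s i) * twe_dUnit M (s i) * (twe_hk_lU (hM i))⁻¹ ∈ H)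
  {ι : Type*} [Fintype ι] {ρc : ι → SL(2, ℤ)} (hρ : ∀ i, ρc i ∈ Gamma0 M)
  (hbij : ∀ γ ∈ Gamma0 M, ∃! i, (ρc i)⁻¹ * γ ∈ twe_GamH M H)

include hρ hbij in
/-- **restriction is injective over a domain of characteristic zero.** -/
theorem twe_fo_res_injective (x : ↥(twe_wl_V 𝒪 𝒪 (Gamma0 M)))
    (hx : twe_wl_res (twe_GamH_le M H) x = 0) : x = 0 := by
  have h1 := twe_fo_cor_res (R := 𝒪) H hρ hbij x
  rw [hx, map_zero] at h1
  haveI : Nonempty ι := twe_fo_nonempty H hbij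
  have h2 : ((Fintype.card ι : ℕ) : 𝒪) ≠ 0 := Nat.cast_ne_zero.mpr Fintype.card_ne_zero
  have h3 : ((Fintype.card ι : ℕ) : 𝒪) • x = 0 := by
    rw [Nat.cast_smul_eq_nsmul]
    exact h1.symm
  by_contra hne
  apply hne
  apply Subtype.ext
  refine AddMonoidHom.ext fun γ => ?_
  have h4 := DFunLike.congr_fun (congrArg Subtype.val h3) γ
  have h5 : ((Fintype.card ι : ℕ) : 𝒪) * x.1 γ = 0 := h4
  rcases mul_eq_zero.mp h5 with h6 | h6
  · exact absurd h6 h2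
  · exact h6

include hρ hbij in
theorem twe_fo_res_inj' (x y : ↥(twe_wl_V 𝒪 𝒪 (Gamma0 M)))
    (hxy : twe_wl_res (twe_GamH_le M H) x = twe_wl_res (twe_GamH_le M H) y) : x = y := by
  have := twe_fo_res_injective H hρ hbij (x - y) (by rw [map_sub, hxy, sub_self])
  exact sub_eq_zero.mp this

/-- **`cor ∘ T' = T ∘ cor` over `𝒪`.** -/
theorem twe_fo_cor_T (i : L) (z : ↥(twe_wl_V 𝒪 𝒪 (twe_GamH M H))) :
    twe_wl_cor hρ hbij (twe_fo_T' 𝒪 𝒪 ℓ hM H s hs i z) =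
      twe_fo_T0 𝒪 𝒪 ℓ hM i (twe_wl_cor hρ hbij z) := by
  apply twe_fo_res_inj' H hρ hbij
  rw [twe_fo_res_cor, twe_fo_T0, twe_wl_T_res_top (hM i) H (s i) (hs i), twe_fo_res_cor, map_sum]
  refine Finset.sum_congr rfl fun j _ => ?_
  exact twe_wl_T_conj (hM i) H (s i) (hs i) _ z

include hρ hbij s hs in
/-- the `T_i` commute on `W(Γ₀(M), 𝒪)`. -/
theorem twe_fo_T0_commute (hinj : Function.Injective ℓ) (i j : L) :
    Commute (twe_fo_T0 𝒪 𝒪 ℓ hM i) (twe_fo_T0 𝒪 𝒪 ℓ hM j) := by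
  refine LinearMap.ext fun x => ?_
  apply twe_fo_res_inj' H hρ hbij
  rw [Module.End.mul_apply, Module.End.mul_apply]
  simp only [twe_fo_T0]
  rw [twe_wl_T_res_top (hM i) H (s i) (hs i), twe_wl_T_res_top (hM j) H (s j) (hs j),
    twe_wl_T_res_top (hM j) H (s j) (hs j), twe_wl_T_res_top (hM i) H (s i) (hs i)]
  have := twe_fo_T'_commute (R := 𝒪) (A := 𝒪) ℓ hM hinj H s hs i j
  have h2 := LinearMap.congr_fun this.eq (twe_wl_res (twe_GamH_le M H) x)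
  exact h2

end overO

/-! ### E. the glue: primary parts, reductions and the abstract lifting theorem -/

section glue

universe u w

variable {𝒪 : Type u} [CommRing 𝒪] [IsLocalRing 𝒪] [IsNoetherianRing 𝒪]
  [IsAdicComplete (maximalIdeal 𝒪) 𝒪]
  {X' X0 : Type u} [AddCommGroup X'] [Module 𝒪 X'] [Module.Finite 𝒪 X'] [Module.Free 𝒪 X']
  [AddCommGroup X0] [Module 𝒪 X0] [Module.Finite 𝒪 X0] [Module.Free 𝒪 X0]
  {V' V0 : Type w} [AddCommGroup V'] [Module (ResidueField 𝒪) V'] [Module 𝒪 V']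
  [IsScalarTower 𝒪 (ResidueField 𝒪) V']
  [AddCommGroup V0] [Module (ResidueField 𝒪) V0] [Module 𝒪 V0]
  [IsScalarTower 𝒪 (ResidueField 𝒪) V0]
  {Δ : Type*} [CommGroup Δ] [Fintype Δ] {L : Type*}

/-- **E/Free over `𝒪`, generic glue**: `X'`, `X0` finite free with commuting Hecke families and
reductions onto `V'`, `V0`; `Δ` acts on `X'`, `V'` commuting with the Hecke operators; `cor`
equivariant, constant on orbits, compatible with `cork`.  From the `k`-level count, surjectivity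
and kernel of `cork` on the localisations: an orbit basis of `prim X'`, and `cor : prim X' →
prim X0` is onto with kernel `I_Δ prim X'`. -/
theorem twe_fo_glue {p n : ℕ} (hp : p.Prime) (hpO : (p : 𝒪) ∈ maximalIdeal 𝒪)
    (hΔ : ∀ δ : Δ, δ ^ (p ^ n) = 1)
    (T' : L → Module.End 𝒪 X') (T0 : L → Module.End 𝒪 X0)
    (hcomm' : ∀ i j, Commute (T' i) (T' j)) (hcomm0 : ∀ i j, Commute (T0 i) (T0 j))
    (T'k : L → Module.End (ResidueField 𝒪) V') (T0k : L → Module.End (ResidueField 𝒪) V0)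
    (a : L → 𝒪)
    (red' : X' →ₗ[𝒪] V') (hred' : ∀ i x, red' (T' i x) = T'k i (red' x))
    (hs' : Function.Surjective red')
    (hk' : LinearMap.ker red' ≤ (maximalIdeal 𝒪) • (⊤ : Submodule 𝒪 X'))
    (red0 : X0 →ₗ[𝒪] V0) (hred0 : ∀ i x, red0 (T0 i x) = T0k i (red0 x))
    (hs0 : Function.Surjective red0)
    (hk0 : LinearMap.ker red0 ≤ (maximalIdeal 𝒪) • (⊤ : Submodule 𝒪 X0))
    (ρX : Δ →* Module.End 𝒪 X') (ρV : Δ →* Module.End (ResidueField 𝒪) V')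
    (hρXT : ∀ δ i z, ρX δ (T' i z) = T' i (ρX δ z))
    (hρVT : ∀ δ i z, ρV δ (T'k i z) = T'k i (ρV δ z))
    (hρred : ∀ δ z, red' (ρX δ z) = ρV δ (red' z))
    (cor : X' →ₗ[𝒪] X0) (cork : V' →ₗ[ResidueField 𝒪] V0)
    (hcT : ∀ i z, cor (T' i z) = T0 i (cor z)) (hcred : ∀ z, cork (red' z) = red0 (cor z))
    (hcρ : ∀ δ z, cor (ρX δ z) = cor z)
    (hK1 : finrank (ResidueField 𝒪) ↥(twe_fa_loc T'k (fun i => residue 𝒪 (a i))) =
      Fintype.card Δ * finrank (ResidueField 𝒪) ↥(twe_fa_loc T0k (fun i => residue 𝒪 (a i))))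
    (hKsurj : ∀ y ∈ twe_fa_loc T0k (fun i => residue 𝒪 (a i)),
      ∃ z ∈ twe_fa_loc T'k (fun i => residue 𝒪 (a i)), cork z = y)
    (hKker : ∀ z ∈ twe_fa_loc T'k (fun i => residue 𝒪 (a i)), cork z = 0 →
      z ∈ Submodule.span (ResidueField 𝒪) {w | ∃ δ : Δ,
        ∃ u ∈ twe_fa_loc T'k (fun i => residue 𝒪 (a i)), w = ρV δ u - u}) :
    ∃ (r : ℕ) (v : Fin r → ↥(twe_pr_prim T' a)) (b : Basis (Δ × Fin r) 𝒪 ↥(twe_pr_prim T' a)),
      (∀ δ i, ((b (δ, i) : ↥(twe_pr_prim T' a)) : X') = ρX δ (v i).1) ∧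
      (∀ y ∈ twe_pr_prim T0 a, ∃ z ∈ twe_pr_prim T' a, cor z = y) ∧
      (∀ z ∈ twe_pr_prim T' a, cor z = 0 →
        z ∈ Submodule.span 𝒪 {w | ∃ δ : Δ, ∃ u ∈ twe_pr_prim T' a, w = ρX δ u - u}) ∧
      finrank 𝒪 ↥(twe_pr_prim T0 a) = r := by
  classical
  set abar : L → ResidueField 𝒪 := fun i => residue 𝒪 (a i) with habar
  -- `cor ∘ T' = T ∘ cor` over `k`
  have hcTk : ∀ i zbar, cork (T'k i zbar) = T0k i (cork zbar) := by
    intro i zbar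
    obtain ⟨z, rfl⟩ := hs' zbar
    rw [← hred', hcred, hcT, hred0, hcred]
  have hPstab : ∀ δ, ∀ x ∈ twe_pr_prim T' a, ρX δ x ∈ twe_pr_prim T' a := fun δ x hx =>
    twe_pr_map_prim (ρX δ) T' T' (fun i z => hρXT δ i z) a hx
  have hVstab : ∀ δ, ∀ x ∈ twe_fa_loc T'k abar, ρV δ x ∈ twe_fa_loc T'k abar := fun δ x hx =>
    twe_fa_map_loc (ρV δ) T'k T'k (fun i z => hρVT δ i z) abar hx
  -- the data of the abstract theorem
  let ρ : Representation 𝒪 Δ ↥(twe_pr_prim T' a) := twe_fo_restrict ρX _ hPstab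
  let ρbar : Representation (ResidueField 𝒪) Δ ↥(twe_fa_loc T'k abar) :=
    twe_fo_restrict ρV _ hVstab
  let c : ↥(twe_pr_prim T' a) →ₗ[𝒪] ↥(twe_pr_prim T0 a) :=
    (cor.comp (twe_pr_prim T' a).subtype).codRestrict (twe_pr_prim T0 a)
      (fun x => twe_pr_map_prim cor T' T0 (fun i z => hcT i z) a x.2)
  let cbar : ↥(twe_fa_loc T'k abar) →ₗ[ResidueField 𝒪] ↥(twe_fa_loc T0k abar) :=
    (cork.comp (twe_fa_loc T'k abar).subtype).codRestrict (twe_fa_loc T0k abar)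
      (fun x => twe_fa_map_loc cork T'k T0k (fun i z => hcTk i z) abar x.2)
  let π' := twe_prr_pi T' a red' T'k hred'
  let π0 := twe_prr_pi T0 a red0 T0k hred0
  haveI : Module.Finite 𝒪 ↥(twe_pr_prim T' a) := twe_prr_finite T' hcomm' a
  haveI : Module.Free 𝒪 ↥(twe_pr_prim T' a) := twe_prr_free T' hcomm' a
  haveI : Module.Finite 𝒪 ↥(twe_pr_prim T0 a) := twe_prr_finite T0 hcomm0 a
  haveI : Module.Free 𝒪 ↥(twe_pr_prim T0 a) := twe_prr_free T0 hcomm0 a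
  have hc : ∀ δ m, c (ρ δ m) = c m := fun δ m => Subtype.ext (hcρ δ m.1)
  have hπ's : Function.Surjective π' :=
    twe_prr_pi_surjective T' hcomm' a red' T'k hred' hs' hk'
  have hπ0s : Function.Surjective π0 :=
    twe_prr_pi_surjective T0 hcomm0 a red0 T0k hred0 hs0 hk0
  have hπ'k := twe_prr_pi_ker T' hcomm' a red' T'k hred' hk'
  have hπ0k := twe_prr_pi_ker T0 hcomm0 a red0 T0k hred0 hk0
  have hρπ : ∀ δ m, π' (ρ δ m) = ρbar δ (π' m) := fun δ m => Subtype.ext (hρred δ m.1)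
  have hcbar : ∀ m, cbar (π' m) = π0 (c m) := fun m => Subtype.ext (hcred m.1)
  have hcsurj : Function.Surjective cbar := by
    rintro ⟨y, hy⟩
    obtain ⟨z, hz, hzy⟩ := hKsurj y hy
    exact ⟨⟨z, hz⟩, Subtype.ext hzy⟩
  have hcker : LinearMap.ker cbar ≤ ⨆ δ : Δ, LinearMap.range (ρbar δ - 1) := by
    intro z hz
    have h0 : cork z.1 = 0 := congrArg Subtype.val (LinearMap.mem_ker.mp hz)
    have h1 := hKker z.1 z.2 h0
    have h2 : Submodule.span (ResidueField 𝒪) {w | ∃ δ : Δ,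
        ∃ u ∈ twe_fa_loc T'k abar, w = ρV δ u - u} ≤
        (⨆ δ : Δ, LinearMap.range (ρbar δ - 1)).map (twe_fa_loc T'k abar).subtype := by
      rw [Submodule.span_le]
      rintro _ ⟨δ, u, hu, rfl⟩
      exact ⟨(ρbar δ - 1) ⟨u, hu⟩, Submodule.mem_iSup_of_mem δ ⟨⟨u, hu⟩, rfl⟩, rfl⟩
    obtain ⟨z', hz', hzz⟩ := h2 h1
    have : z' = z := Subtype.ext hzz
    rwa [this] at hz'
  obtain ⟨r, v, b, hb, hcs, hck, hr⟩ := twe_fo_abs hp hpO hΔ ρ c hc π' hπ's hπ'k π0 hπ0s hπ0k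
    ρbar hρπ cbar hcbar hK1 hcsurj hcker
  refine ⟨r, v, b, ?_, ?_, ?_, hr⟩
  · intro δ i
    rw [hb]
    rfl
  · intro y hy
    obtain ⟨m, hm⟩ := hcs ⟨y, hy⟩
    exact ⟨m.1, m.2, congrArg Subtype.val hm⟩
  · intro z hz hz0
    have h1 : (⟨z, hz⟩ : ↥(twe_pr_prim T' a)) ∈ LinearMap.ker c := by
      rw [LinearMap.mem_ker]
      exact Subtype.ext hz0
    rw [hck] at h1
    have h2 : (⨆ δ : Δ, LinearMap.range (ρ δ - 1)).map (twe_pr_prim T' a).subtype ≤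
        Submodule.span 𝒪 {w | ∃ δ : Δ, ∃ u ∈ twe_pr_prim T' a, w = ρX δ u - u} := by
      rw [Submodule.map_iSup]
      refine iSup_le fun δ => ?_
      rintro _ ⟨_, ⟨m, rfl⟩, rfl⟩
      exact Submodule.subset_span ⟨δ, m.1, m.2, rfl⟩
    exact h2 ⟨⟨z, hz⟩, h1, rfl⟩

end glue

/-! ### F. the `k`-level input and the main theorem -/

section main

/-- **the `k`-level input of E/Free** (`= ` the conclusions of `twe_ft_main` for the concrete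
spaces `V' = W(Γ_H, k)`, `V0 = W(Γ₀(M), k)`), in a form which does not mention `Δ`. -/
structure twe_fo_KInput (k : Type*) [Field k] {M : ℕ} (H : Subgroup (ZMod M)ˣ)
    {L : Type*} (ℓ : L → ℕ) [hℓ : ∀ i, Fact (ℓ i).Prime] (hM : ∀ i, ¬ ℓ i ∣ M)
    (s : L → Gamma0 M)
    (hs : ∀ i, twe_dUnit M (s i) * twe_dUnit M (s i) * (twe_hk_lU (hM i))⁻¹ ∈ H)
    (abar : L → k)
    {ι : Type*} [Fintype ι] {ρc : ι → SL(2, ℤ)} (hρ : ∀ i, ρc i ∈ Gamma0 M)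
    (hbij : ∀ γ ∈ Gamma0 M, ∃! i, (ρc i)⁻¹ * γ ∈ twe_GamH M H) : Prop where
  /-- (K1) `dim V'_a = [Γ₀(M) : Γ_H] · dim V0_a` -/
  count : finrank k ↥(twe_fa_loc (twe_fo_T' k k ℓ hM H s hs) abar) =
    Fintype.card ι * finrank k ↥(twe_fa_loc (twe_fo_T0 k k ℓ hM) abar)
  /-- (K2) restriction is injective on `V0_a` -/
  res_inj : ∀ x ∈ twe_fa_loc (twe_fo_T0 k k ℓ hM) abar,
    twe_wl_res (twe_GamH_le M H) x = 0 → x = 0
  /-- (K3) `res ∘ cor` maps `V'_a` onto `res V0_a` -/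
  norm_surj : ∀ y ∈ twe_fa_loc (twe_fo_T0 k k ℓ hM) abar,
    ∃ z ∈ twe_fa_loc (twe_fo_T' k k ℓ hM H s hs) abar,
      twe_wl_res (twe_GamH_le M H) (twe_wl_cor hρ hbij z) = twe_wl_res (twe_GamH_le M H) y
  /-- (K4) the kernel of `res ∘ cor` on `V'_a` is `I_Δ V'_a` -/
  norm_ker : ∀ z ∈ twe_fa_loc (twe_fo_T' k k ℓ hM H s hs) abar,
    twe_wl_res (twe_GamH_le M H) (twe_wl_cor hρ hbij z) = 0 →
    z ∈ Submodule.span k {w | ∃ g : Gamma0 M,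
      ∃ u ∈ twe_fa_loc (twe_fo_T' k k ℓ hM H s hs) abar, w = twe_wl_conj H g u - u}

variable {𝒪 : Type*} [CommRing 𝒪] [IsDomain 𝒪] [IsDiscreteValuationRing 𝒪]
  [IsAdicComplete (maximalIdeal 𝒪) 𝒪] [CharZero 𝒪]

/-- **E/Free over `𝒪`, concrete form.** -/
theorem twe_fo_main {M : ℕ} [NeZero M] (H : Subgroup (ZMod M)ˣ)
    (hneg : (-1 : SL(2, ℤ)) ∈ twe_GamH M H)
    {Δ : Type*} [CommGroup Δ] [Fintype Δ] (d : Gamma0 M →* Δ) (hd : Function.Surjective d)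
    (hdk : ∀ g, d g = 1 ↔ (g : SL(2, ℤ)) ∈ twe_GamH M H)
    {p n : ℕ} (hp : p.Prime) (hpO : (p : 𝒪) ∈ maximalIdeal 𝒪) (hΔ : ∀ δ : Δ, δ ^ (p ^ n) = 1)
    {L : Type*} (ℓ : L → ℕ) [hℓ : ∀ i, Fact (ℓ i).Prime] (hM : ∀ i, ¬ ℓ i ∣ M)
    (hinj : Function.Injective ℓ) (s : L → Gamma0 M)
    (hs : ∀ i, twe_dUnit M (s i) * twe_dUnit M (s i) * (twe_hk_lU (hM i))⁻¹ ∈ H)
    (a : L → 𝒪)
    {ι : Type*} [Fintype ι] {ρc : ι → SL(2, ℤ)} (hρ : ∀ i, ρc i ∈ Gamma0 M)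
    (hbij : ∀ γ ∈ Gamma0 M, ∃! i, (ρc i)⁻¹ * γ ∈ twe_GamH M H)
    (hK : twe_fo_KInput (ResidueField 𝒪) H ℓ hM s hs (fun i => residue 𝒪 (a i)) hρ hbij) :
    (∀ i z, twe_wl_cor hρ hbij (twe_fo_T' 𝒪 𝒪 ℓ hM H s hs i z) =
      twe_fo_T0 𝒪 𝒪 ℓ hM i (twe_wl_cor hρ hbij z)) ∧
    ∃ (r : ℕ) (v : Fin r → ↥(twe_pr_prim (twe_fo_T' 𝒪 𝒪 ℓ hM H s hs) a))
      (b : Basis (Δ × Fin r) 𝒪 ↥(twe_pr_prim (twe_fo_T' 𝒪 𝒪 ℓ hM H s hs) a)),
      (∀ g i, ((b (d g, i) : ↥(twe_pr_prim (twe_fo_T' 𝒪 𝒪 ℓ hM H s hs) a)) :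
        ↥(twe_wl_V 𝒪 𝒪 (twe_GamH M H))) = twe_wl_conj H g (v i).1) ∧
      (∀ y ∈ twe_pr_prim (twe_fo_T0 𝒪 𝒪 ℓ hM) a,
        ∃ z ∈ twe_pr_prim (twe_fo_T' 𝒪 𝒪 ℓ hM H s hs) a, twe_wl_cor hρ hbij z = y) ∧
      (∀ z ∈ twe_pr_prim (twe_fo_T' 𝒪 𝒪 ℓ hM H s hs) a, twe_wl_cor (R := 𝒪) hρ hbij z = 0 →
        z ∈ Submodule.span 𝒪 {w | ∃ g : Gamma0 M,
          ∃ u ∈ twe_pr_prim (twe_fo_T' 𝒪 𝒪 ℓ hM H s hs) a, w = twe_wl_conj H g u - u}) ∧
      Module.Finite 𝒪 ↥(twe_pr_prim (twe_fo_T0 𝒪 𝒪 ℓ hM) a) ∧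
      Module.Free 𝒪 ↥(twe_pr_prim (twe_fo_T0 𝒪 𝒪 ℓ hM) a) ∧
      finrank 𝒪 ↥(twe_pr_prim (twe_fo_T0 𝒪 𝒪 ℓ hM) a) = r := by
  classical
  have hneg0 : (-1 : SL(2, ℤ)) ∈ Gamma0 M := twe_GamH_le M H hneg
  haveI : Module.Finite 𝒪 ↥(twe_wl_V 𝒪 𝒪 (twe_GamH M H)) := twe_rd_finite _
  haveI : Module.Free 𝒪 ↥(twe_wl_V 𝒪 𝒪 (twe_GamH M H)) := twe_rd_free _
  haveI : Module.Finite 𝒪 ↥(twe_wl_V 𝒪 𝒪 (Gamma0 M)) := twe_rd_finite _
  haveI : Module.Free 𝒪 ↥(twe_wl_V 𝒪 𝒪 (Gamma0 M)) := twe_rd_free _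
  have hcT : ∀ i z, twe_wl_cor hρ hbij (twe_fo_T' 𝒪 𝒪 ℓ hM H s hs i z) =
      twe_fo_T0 𝒪 𝒪 ℓ hM i (twe_wl_cor hρ hbij z) := twe_fo_cor_T H ℓ hM s hs hρ hbij
  have hcomm' : ∀ i j, Commute (twe_fo_T' 𝒪 𝒪 ℓ hM H s hs i) (twe_fo_T' 𝒪 𝒪 ℓ hM H s hs j) :=
    twe_fo_T'_commute ℓ hM hinj H s hs
  have hcomm0 : ∀ i j, Commute (twe_fo_T0 𝒪 𝒪 ℓ hM i) (twe_fo_T0 𝒪 𝒪 ℓ hM j) :=
    twe_fo_T0_commute H ℓ hM s hs hρ hbij hinj
  have hred' : ∀ i x, twe_rd_red 𝒪 (twe_GamH M H) (twe_fo_T' 𝒪 𝒪 ℓ hM H s hs i x) =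
      twe_fo_T' (ResidueField 𝒪) (ResidueField 𝒪) ℓ hM H s hs i
        (twe_rd_red 𝒪 (twe_GamH M H) x) := fun i x => twe_rd_T (hM i) H (s i) (hs i) x
  have hred0 : ∀ i x, twe_rd_red 𝒪 (Gamma0 M) (twe_fo_T0 𝒪 𝒪 ℓ hM i x) =
      twe_fo_T0 (ResidueField 𝒪) (ResidueField 𝒪) ℓ hM i (twe_rd_red 𝒪 (Gamma0 M) x) :=
    fun i x => twe_rd_T0 (hM i) x
  have hs' : Function.Surjective (twe_rd_red 𝒪 (twe_GamH M H)) := twe_rd_surjective _ hneg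
  have hs0 : Function.Surjective (twe_rd_red 𝒪 (Gamma0 M)) := twe_rd_surjective _ hneg0
  have hk' := twe_rd_ker (𝒪 := 𝒪) (twe_GamH M H)
  have hk0 := twe_rd_ker (𝒪 := 𝒪) (Gamma0 M)
  -- `cor ∘ T' = T ∘ cor` over `k`
  have hcTk : ∀ i zbar, twe_wl_cor hρ hbij
      (twe_fo_T' (ResidueField 𝒪) (ResidueField 𝒪) ℓ hM H s hs i zbar) =
      twe_fo_T0 (ResidueField 𝒪) (ResidueField 𝒪) ℓ hM i (twe_wl_cor hρ hbij zbar) := by
    intro i zbar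
    obtain ⟨z, rfl⟩ := hs' zbar
    rw [← hred', ← twe_rd_cor, hcT, hred0, twe_rd_cor]
  -- the `k`-level input in the form of the glue
  have hK1 := hK.count
  rw [twe_fo_card H d hd hdk hρ hbij] at hK1
  have hKsurj : ∀ y ∈ twe_fa_loc (twe_fo_T0 (ResidueField 𝒪) (ResidueField 𝒪) ℓ hM)
      (fun i => residue 𝒪 (a i)),
      ∃ z ∈ twe_fa_loc (twe_fo_T' (ResidueField 𝒪) (ResidueField 𝒪) ℓ hM H s hs)
        (fun i => residue 𝒪 (a i)), twe_wl_cor hρ hbij z = y := by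
    intro y hy
    obtain ⟨z, hz, hzy⟩ := hK.norm_surj y hy
    refine ⟨z, hz, ?_⟩
    have h1 := twe_fa_map_loc (twe_wl_cor hρ hbij) _ _ (fun i z => hcTk i z) _ hz
    have h2 := hK.res_inj (twe_wl_cor hρ hbij z - y) (Submodule.sub_mem _ h1 hy)
      (by rw [map_sub, hzy, sub_self])
    exact sub_eq_zero.mp h2
  have hKker : ∀ z ∈ twe_fa_loc (twe_fo_T' (ResidueField 𝒪) (ResidueField 𝒪) ℓ hM H s hs)
      (fun i => residue 𝒪 (a i)), twe_wl_cor hρ hbij z = 0 →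
      z ∈ Submodule.span (ResidueField 𝒪) {w | ∃ δ : Δ,
        ∃ u ∈ twe_fa_loc (twe_fo_T' (ResidueField 𝒪) (ResidueField 𝒪) ℓ hM H s hs)
          (fun i => residue 𝒪 (a i)),
        w = twe_fo_rho (R := ResidueField 𝒪) (A := ResidueField 𝒪) H d hd hdk δ u - u} := by
    intro z hz hz0
    have h1 := hK.norm_ker z hz (by rw [hz0, map_zero])
    refine Submodule.span_mono ?_ h1
    rintro _ ⟨g, u, hu, rfl⟩
    exact ⟨d g, u, hu, by rw [twe_fo_rho_apply]⟩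
  obtain ⟨r, v, b, h1, h2, h3, h4⟩ := twe_fo_glue hp hpO hΔ
    (twe_fo_T' 𝒪 𝒪 ℓ hM H s hs) (twe_fo_T0 𝒪 𝒪 ℓ hM) hcomm' hcomm0
    (twe_fo_T' (ResidueField 𝒪) (ResidueField 𝒪) ℓ hM H s hs)
    (twe_fo_T0 (ResidueField 𝒪) (ResidueField 𝒪) ℓ hM) a
    (twe_rd_red 𝒪 (twe_GamH M H)) hred' hs' hk' (twe_rd_red 𝒪 (Gamma0 M)) hred0 hs0 hk0
    (twe_fo_rho (R := 𝒪) (A := 𝒪) H d hd hdk)
    (twe_fo_rho (R := ResidueField 𝒪) (A := ResidueField 𝒪) H d hd hdk)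
    (fun δ i z => twe_wl_T_conj (hM i) H (s i) (hs i) _ z)
    (fun δ i z => twe_wl_T_conj (hM i) H (s i) (hs i) _ z)
    (fun δ z => rfl)
    (twe_wl_cor hρ hbij) (twe_wl_cor hρ hbij) hcT (fun z => (twe_rd_cor hρ hbij z).symm)
    (fun δ z => by
      obtain ⟨g, rfl⟩ := hd δ
      rw [twe_fo_rho_apply, twe_fo_cor_conj])
    hK1 hKsurj hKker
  refine ⟨hcT, r, v, b, ?_, h2, ?_, twe_prr_finite _ hcomm0 a, twe_prr_free _ hcomm0 a, h4⟩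
  · intro g i
    rw [h1, twe_fo_rho_apply]
  · intro z hz hz0
    refine Submodule.span_mono ?_ (h3 z hz hz0)
    rintro _ ⟨δ, u, hu, rfl⟩
    obtain ⟨g, rfl⟩ := hd δ
    exact ⟨g, u, hu, by rw [twe_fo_rho_apply]⟩

end main

end Fermat.Agent.TW
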