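/-
Project ONE MACHINE, block [E] AUT, E/Free (helper5): THE `k`-LEVEL INPUT OF `twe_fo_main` IS PROVED.
Prefix `twe_fk_`, namespace `Fermat.Agent.TW`.

* `twe_fk_KInput` : `twe_fo_KInput k H ℓ hM s hs abar hρ hbij` (helper22's `FreeO.lean`) from
  `twe_fz_main` (`FreeAsm.lean`), for `k : Type` a field of characteristic `p` with `2 ≠ 0`, a
  non-Eisenstein system `abar`, `Δ` of exponent `p ^ N`, `H ∋ -1` containing every `u` with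
  `u ^ (12 M) = 1`;
* `twe_fk_main`   : `twe_fo_main` with that input discharged (`𝒪 : Type`, `k = ResidueField 𝒪`).
-/
import Mathlib
import Fermat.Agent.TW.Aut.FreeAsm
import Fermat.Agent.TW.Aut.FreeO

set_option autoImplicit false

noncomputable section

open CongruenceSubgroup Matrix.SpecialLinearGroup IsLocalRing
open scoped MatrixGroups

namespace Fermat.Agent.TW

open Fermat.Agent.LR Fermat.Agent.JT3 Module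

section kinput

variable {M : ℕ}

theorem twe_fk_neg_one_mem {H : Subgroup (ZMod M)ˣ} (hneg : (-1 : SL(2, ℤ)) ∈ twe_GamH M H) :
    (-1 : (ZMod M)ˣ) ∈ H := by
  obtain ⟨h0, h1⟩ := twe_mem_GamH.1 hneg
  have h2 : twe_dUnit M ⟨-1, h0⟩ = -1 := by
    apply Units.ext
    rw [twe_dUnit_coe]
    simp
  rwa [h2] at h1

theorem twe_fk_ker_eq {H : Subgroup (ZMod M)ˣ} {Δ : Type*} [Group Δ] (d : Gamma0 M →* Δ)
    (hdk : ∀ g, d g = 1 ↔ (g : SL(2, ℤ)) ∈ twe_GamH M H) : d.ker = twe_GamH' M H := by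
  ext g
  rw [MonoidHom.mem_ker, hdk, twe_fz_mem_GamH_iff]
  rfl

variable {k : Type} [Field k] (h2 : (2 : k) ≠ 0) [NeZero M] (H : Subgroup (ZMod M)ˣ)
  (hneg : (-1 : SL(2, ℤ)) ∈ twe_GamH M H)
  {Δ : Type*} [CommGroup Δ] [Fintype Δ] (d : Gamma0 M →* Δ) (hd : Function.Surjective d)
  (hdk : ∀ g, d g = 1 ↔ (g : SL(2, ℤ)) ∈ twe_GamH M H)
  (p N : ℕ) [Fact p.Prime] [CharP k p] (hΔ : ∀ δ : Δ, δ ^ (p ^ N) = 1)
  (h12 : ∀ u : (ZMod M)ˣ, u ^ (12 * M) = 1 → u ∈ H)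
  {L : Type*} (ℓ : L → ℕ) [hℓ : ∀ i, Fact (ℓ i).Prime] (hM : ∀ i, ¬ ℓ i ∣ M)
  (hinj : Function.Injective ℓ) (s : L → Gamma0 M)
  (hs : ∀ i, twe_dUnit M (s i) * twe_dUnit M (s i) * (twe_hk_lU (hM i))⁻¹ ∈ H)
  (abar : L → k) (i₀ : L) (hne : abar i₀ ≠ ((ℓ i₀ + 1 : ℕ) : k))
  {ι : Type} [Fintype ι] {ρc : ι → SL(2, ℤ)} (hρ : ∀ i, ρc i ∈ Gamma0 M)
  (hbij : ∀ γ ∈ Gamma0 M, ∃! i, (ρc i)⁻¹ * γ ∈ twe_GamH M H)

include h2 hneg hd hdk hΔ h12 hinj hne in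
/-- **the `k`-level input of E/Free.** -/
theorem twe_fk_KInput : twe_fo_KInput k H ℓ hM s hs abar hρ hbij := by
  have hker : d.ker = twe_GamH' M H := twe_fk_ker_eq d hdk
  obtain ⟨m1, m2, -, -, m5, m6⟩ := twe_fz_main h2 ℓ hM hinj H (twe_fk_neg_one_mem hneg) s hs p N
    h12 abar i₀ hne d hd hker hΔ hρ hbij
  have hcard : Fintype.card ι = Fintype.card Δ :=
    Fintype.card_of_bijective (twe_fz_rep_bijective H d hd hker hρ hbij)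
  refine ⟨?_, m2, m5, m6⟩
  rw [hcard]
  exact m1

end kinput

section main

variable {𝒪 : Type} [CommRing 𝒪] [IsDomain 𝒪] [IsDiscreteValuationRing 𝒪]
  [IsAdicComplete (maximalIdeal 𝒪) 𝒪] [CharZero 𝒪]

/-- **E/Free over `𝒪`, concrete form, the `k`-level input discharged.** -/
theorem twe_fk_main {M : ℕ} [NeZero M] (H : Subgroup (ZMod M)ˣ)
    (hneg : (-1 : SL(2, ℤ)) ∈ twe_GamH M H)
    (h12 : ∀ u : (ZMod M)ˣ, u ^ (12 * M) = 1 → u ∈ H)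
    {Δ : Type*} [CommGroup Δ] [Fintype Δ] (d : Gamma0 M →* Δ) (hd : Function.Surjective d)
    (hdk : ∀ g, d g = 1 ↔ (g : SL(2, ℤ)) ∈ twe_GamH M H)
    {p n : ℕ} (hp : p.Prime) (hp2 : p ≠ 2) (hpO : (p : 𝒪) ∈ maximalIdeal 𝒪)
    (hΔ : ∀ δ : Δ, δ ^ (p ^ n) = 1)
    {L : Type*} (ℓ : L → ℕ) [hℓ : ∀ i, Fact (ℓ i).Prime] (hM : ∀ i, ¬ ℓ i ∣ M)
    (hinj : Function.Injective ℓ) (s : L → Gamma0 M)
    (hs : ∀ i, twe_dUnit M (s i) * twe_dUnit M (s i) * (twe_hk_lU (hM i))⁻¹ ∈ H)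
    (a : L → 𝒪) (i₀ : L)
    (hne : residue 𝒪 (a i₀) ≠ ((ℓ i₀ + 1 : ℕ) : ResidueField 𝒪))
    {ι : Type} [Fintype ι] {ρc : ι → SL(2, ℤ)} (hρ : ∀ i, ρc i ∈ Gamma0 M)
    (hbij : ∀ γ ∈ Gamma0 M, ∃! i, (ρc i)⁻¹ * γ ∈ twe_GamH M H) :
    (∀ i z, twe_wl_cor hρ hbij (twe_fo_T' 𝒪 𝒪 ℓ hM H s hs i z) =
      twe_fo_T0 𝒪 𝒪 ℓ hM i (twe_wl_cor hρ hbij z)) ∧
    ∃ (r : ℕ) (v : Fin r → ↥(twe_pr_prim (twe_fo_T' 𝒪 𝒪 ℓ hM H s hs) a))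
      (b : Basis (Δ × Fin r) 𝒪 ↥(twe_pr_prim (twe_fo_T' 𝒪 𝒪 ℓ hM H s hs) a)),
      (∀ g i, ((b (d g, i) : ↥(twe_pr_prim (twe_fo_T' 𝒪 𝒪 ℓ hM H s hs) a)) :
        ↥(twe_wl_V 𝒪 𝒪 (twe_GamH M H))) = twe_wl_conj H g (v i).1) ∧
      (∀ y ∈ twe_pr_prim (twe_fo_T0 𝒪 𝒪 ℓ hM) a,
        ∃ z ∈ twe_pr_prim (twe_fo_T' 𝒪 𝒪 ℓ hM H s hs) a, twe_wl_cor hρ hbij z = y) ∧
      (∀ z ∈ twe_pr_prim (twe_fo_T' 𝒪 𝒪 ℓ hM H s hs) a, twe_wl_cor (R := 𝒪) hρ hbij z = 0 →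
        z ∈ Submodule.span 𝒪 {w | ∃ g : Gamma0 M,
          ∃ u ∈ twe_pr_prim (twe_fo_T' 𝒪 𝒪 ℓ hM H s hs) a, w = twe_wl_conj H g u - u}) ∧
      Module.Finite 𝒪 ↥(twe_pr_prim (twe_fo_T0 𝒪 𝒪 ℓ hM) a) ∧
      Module.Free 𝒪 ↥(twe_pr_prim (twe_fo_T0 𝒪 𝒪 ℓ hM) a) ∧
      finrank 𝒪 ↥(twe_pr_prim (twe_fo_T0 𝒪 𝒪 ℓ hM) a) = r := by
  have : Fact p.Prime := ⟨hp⟩
  have hpk : ((p : ℕ) : ResidueField 𝒪) = 0 := by
    have h1 : residue 𝒪 (p : 𝒪) = 0 := (residue_eq_zero_iff _).mpr hpO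
    rwa [map_natCast] at h1
  have : CharP (ResidueField 𝒪) p := (CharP.charP_iff_prime_eq_zero hp).2 hpk
  have h2 : (2 : ResidueField 𝒪) ≠ 0 := by
    have := CharP.cast_ne_zero_of_ne_of_prime (R := ResidueField 𝒪) (p := p) Nat.prime_two hp2
    exact_mod_cast this
  exact twe_fo_main H hneg d hd hdk hp hpO hΔ ℓ hM hinj s hs a hρ hbij
    (twe_fk_KInput h2 H hneg d hd hdk p n hΔ h12 ℓ hM hinj s hs (fun i => residue 𝒪 (a i)) i₀ hne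
      hρ hbij)

end main

end Fermat.Agent.TW
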