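/-
Project ONE MACHINE, block [E] AUT, cell E/Lift, part 1 (helper22): THE COMBINATORIAL CORE OF THE
LIFTING LEMMA (L).  Mathlib only.  Prefix `twe_lf_`, namespace `Fermat.Agent.TW`.

`X` a finite set with an involution `S` and a permutation `t` such that `⟨S, t⟩` is transitive
(`X = SL(2, ℤ) / Γ`, `t = T⁻¹`).  For an abelian group `B` let
* `AS(B)` = the functions `ε : X → B` with `ε (S ξ) = - ε ξ` and `ε ξ = 0` at the fixed points of `S`,
* `E(B)`  = the functions `u ∘ t - u`.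
Then every function with total sum `0` lies in `AS(B) + E(B)` (`twe_lf_mem_sup`: the graph whose
vertices are the `t`-orbits and whose edges are the `S`-orbits is connected), and consequently
(`twe_lf_core`) for a surjection `φ : A → A'` every `y' : X → A'` whose difference function
`η' = y' ∘ t - y'` lies in `AS(A')` lifts to `y : X → A` with `y ∘ t - y ∈ AS(A)`.
-/
import Mathlib

set_option autoImplicit false

noncomputable section

namespace Fermat.Agent.TW

open Finset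

section core

variable {X : Type*} [Fintype X] [DecidableEq X] (S t : Equiv.Perm X)

/-- antisymmetric functions vanishing at the fixed points of `S`. -/
def twe_lf_AS (B : Type*) [AddCommGroup B] : AddSubgroup (X → B) where
  carrier := {ε | ∀ ξ, ε (S ξ) = - ε ξ ∧ (S ξ = ξ → ε ξ = 0)}
  zero_mem' := fun ξ => ⟨by simp, fun _ => rfl⟩
  add_mem' {a b} ha hb := fun ξ => by
    refine ⟨?_, fun h => ?_⟩
    · rw [Pi.add_apply, Pi.add_apply, (ha ξ).1, (hb ξ).1, neg_add]
    · rw [Pi.add_apply, (ha ξ).2 h, (hb ξ).2 h, add_zero]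
  neg_mem' {a} ha := fun ξ => by
    refine ⟨?_, fun h => ?_⟩
    · rw [Pi.neg_apply, Pi.neg_apply, (ha ξ).1]
    · rw [Pi.neg_apply, (ha ξ).2 h, neg_zero]

/-- `t`-exact functions `u ∘ t - u`. -/
def twe_lf_E (B : Type*) [AddCommGroup B] : AddSubgroup (X → B) where
  carrier := {e | ∃ u : X → B, ∀ ξ, e ξ = u (t ξ) - u ξ}
  zero_mem' := ⟨0, fun ξ => by simp⟩
  add_mem' := by
    rintro a b ⟨u, hu⟩ ⟨v, hv⟩
    refine ⟨u + v, fun ξ => ?_⟩
    rw [Pi.add_apply, hu, hv, Pi.add_apply, Pi.add_apply]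
    abel
  neg_mem' := by
    rintro a ⟨u, hu⟩
    refine ⟨-u, fun ξ => ?_⟩
    rw [Pi.neg_apply, hu, Pi.neg_apply, Pi.neg_apply]
    abel

variable {S t}

/-- moving a mass `a` along the edge `{ξ, S ξ}`. -/
theorem twe_lf_single_S (hS : ∀ ξ, S (S ξ) = ξ) {B : Type*} [AddCommGroup B] (ξ : X) (a : B) :
    (Pi.single (S ξ) a - Pi.single ξ a : X → B) ∈ twe_lf_AS S B := by
  intro ζ
  by_cases hfix : S ξ = ξ
  · rw [hfix, sub_self]
    exact ⟨by simp, fun _ => rfl⟩
  refine ⟨?_, fun hζ => ?_⟩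
  · simp only [Pi.sub_apply, Pi.single_apply]
    have h1 : (S ζ = S ξ) ↔ (ζ = ξ) := S.injective.eq_iff
    have h2 : (S ζ = ξ) ↔ (ζ = S ξ) := by
      constructor
      · intro h; rw [← h, hS]
      · intro h; rw [h, hS]
    simp only [h1, h2]
    abel
  · simp only [Pi.sub_apply, Pi.single_apply]
    have h1 : ζ ≠ S ξ := by
      intro h
      apply hfix
      have : S ζ = ξ := by rw [h, hS]
      rw [hζ] at this
      rw [← this, hζ]
    have h2 : ζ ≠ ξ := by
      intro h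
      apply hfix
      rw [← h, hζ]
    rw [if_neg h1, if_neg h2, sub_zero]

/-- moving a mass `a` inside a `t`-orbit. -/
theorem twe_lf_single_t {B : Type*} [AddCommGroup B] (ξ : X) (a : B) :
    (Pi.single (t ξ) a - Pi.single ξ a : X → B) ∈ twe_lf_E t B := by
  refine ⟨-Pi.single (t ξ) a, fun ζ => ?_⟩
  simp only [Pi.sub_apply, Pi.neg_apply, Pi.single_apply]
  have h1 : (t ζ = t ξ) ↔ (ζ = ξ) := t.injective.eq_iff
  simp only [h1]
  abel

/-- the permutations along which masses can be moved form a subgroup. -/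
def twe_lf_mov (S t : Equiv.Perm X) (B : Type*) [AddCommGroup B] : Subgroup (Equiv.Perm X) where
  carrier := {w | ∀ (ξ : X) (a : B),
    (Pi.single (w ξ) a - Pi.single ξ a : X → B) ∈ twe_lf_AS S B ⊔ twe_lf_E t B}
  one_mem' := fun ξ a => by
    rw [Equiv.Perm.one_apply, sub_self]
    exact zero_mem _
  mul_mem' {w w'} hw hw' := fun ξ a => by
    have h1 := hw (w' ξ) a
    have h2 := hw' ξ a
    have h3 : (Pi.single ((w * w') ξ) a - Pi.single ξ a : X → B) =
        (Pi.single (w (w' ξ)) a - Pi.single (w' ξ) a) + (Pi.single (w' ξ) a - Pi.single ξ a) := by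
      rw [Equiv.Perm.mul_apply]
      abel
    rw [h3]
    exact add_mem h1 h2
  inv_mem' {w} hw := fun ξ a => by
    have h1 := hw (w⁻¹ ξ) a
    have h0 : w (w⁻¹ ξ) = ξ := by
      rw [← Equiv.Perm.mul_apply, mul_inv_cancel, Equiv.Perm.one_apply]
    rw [h0] at h1
    have h3 : (Pi.single (w⁻¹ ξ) a - Pi.single ξ a : X → B) =
        - (Pi.single ξ a - Pi.single (w⁻¹ ξ) a) := by abel
    rw [h3]
    exact neg_mem h1

theorem twe_lf_closure_le_mov (hS : ∀ ξ, S (S ξ) = ξ) (B : Type*) [AddCommGroup B] :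
    Subgroup.closure {S, t} ≤ twe_lf_mov S t B := by
  rw [Subgroup.closure_le]
  rintro w (rfl | rfl)
  · intro ξ a
    exact AddSubgroup.mem_sup_left (twe_lf_single_S hS ξ a)
  · intro ξ a
    exact AddSubgroup.mem_sup_right (twe_lf_single_t ξ a)

/-- **connectivity**: a function with total sum `0` is the sum of an antisymmetric function and a
`t`-exact one. -/
theorem twe_lf_mem_sup (hS : ∀ ξ, S (S ξ) = ξ)
    (htrans : ∀ ξ ξ' : X, ∃ w ∈ Subgroup.closure {S, t}, w ξ = ξ')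
    {B : Type*} [AddCommGroup B] (θ : X → B) (hθ : ∑ ξ, θ ξ = 0) :
    θ ∈ twe_lf_AS S B ⊔ twe_lf_E t B := by
  rcases isEmpty_or_nonempty X with hX | ⟨⟨ξ₀⟩⟩
  · have : θ = 0 := by
      funext ξ
      exact (hX.false ξ).elim
    rw [this]
    exact zero_mem _
  have h1 : θ = ∑ ξ, (Pi.single ξ (θ ξ) - Pi.single ξ₀ (θ ξ) : X → B) := by
    rw [Finset.sum_sub_distrib, Finset.univ_sum_single]
    have h2 : ∑ ξ, (Pi.single ξ₀ (θ ξ) : X → B) = Pi.single ξ₀ (∑ ξ, θ ξ) := by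
      funext ζ
      rw [Finset.sum_apply]
      simp only [Pi.single_apply]
      by_cases hζ : ζ = ξ₀
      · simp [hζ]
      · simp [hζ]
    rw [h2, hθ, Pi.single_zero, sub_zero]
  rw [h1]
  refine sum_mem fun ξ _ => ?_
  obtain ⟨w, hw, hwξ⟩ := htrans ξ₀ ξ
  have := twe_lf_closure_le_mov (t := t) hS B hw ξ₀ (θ ξ)
  rw [hwξ] at this
  exact this

/-- an antisymmetric function has total sum `0`. -/
theorem twe_lf_sum_AS (hS : ∀ ξ, S (S ξ) = ξ) {B : Type*} [AddCommGroup B] {ε : X → B}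
    (hε : ε ∈ twe_lf_AS S B) : ∑ ξ, ε ξ = 0 := by
  refine Finset.sum_involution (fun ξ _ => S ξ) ?_ ?_ ?_ ?_
  · intro ξ _
    rw [(hε ξ).1, add_neg_cancel]
  · intro ξ _ hne hfix
    exact hne ((hε ξ).2 hfix)
  · intro ξ _
    exact Finset.mem_univ _
  · intro ξ _
    exact hS ξ

/-- a `t`-exact function has total sum `0`. -/
theorem twe_lf_sum_E {B : Type*} [AddCommGroup B] (u : X → B) : ∑ ξ, (u (t ξ) - u ξ) = 0 := by
  rw [Finset.sum_sub_distrib, Equiv.sum_comp t u, sub_self]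

/-- **the core of the lifting lemma.** -/
theorem twe_lf_core (hS : ∀ ξ, S (S ξ) = ξ)
    (htrans : ∀ ξ ξ' : X, ∃ w ∈ Subgroup.closure {S, t}, w ξ = ξ')
    {A A' : Type*} [AddCommGroup A] [AddCommGroup A'] (φ : A →+ A') (hφ : Function.Surjective φ)
    (y' : X → A') (hy' : (fun ξ => y' (t ξ) - y' ξ) ∈ twe_lf_AS S A') :
    ∃ y : X → A, (∀ ξ, φ (y ξ) = y' ξ) ∧ (fun ξ => y (t ξ) - y ξ) ∈ twe_lf_AS S A := by
  classical
  -- an arbitrary lift
  choose y₁ hy₁ using fun ξ => hφ (y' ξ)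
  set η₁ : X → A := fun ξ => y₁ (t ξ) - y₁ ξ with hη₁
  have hφη₁ : ∀ ξ, φ (η₁ ξ) = y' (t ξ) - y' ξ := fun ξ => by
    rw [hη₁, map_sub, hy₁, hy₁]
  -- an antisymmetric lift of `η'`
  set ord : X → ℕ := fun ξ => ((Fintype.equivFin X) ξ : ℕ) with hord
  have hordinj : Function.Injective ord := Fin.val_injective.comp (Fintype.equivFin X).injective
  set η₀ : X → A := fun ξ =>
    if ord ξ < ord (S ξ) then η₁ ξ else if ord (S ξ) < ord ξ then - η₁ (S ξ) else 0 with hη₀
  have hη₀AS : η₀ ∈ twe_lf_AS S A := by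
    intro ξ
    refine ⟨?_, fun hfix => ?_⟩
    · simp only [hη₀, hS]
      rcases lt_trichotomy (ord ξ) (ord (S ξ)) with h | h | h
      · rw [if_neg (not_lt.2 h.le), if_pos h, if_pos h]
      · rw [h]
        simp
      · rw [if_pos h, if_neg (not_lt.2 h.le), if_pos h, neg_neg]
    · simp only [hη₀, hfix, lt_irrefl, if_false]
  have hφη₀ : ∀ ξ, φ (η₀ ξ) = y' (t ξ) - y' ξ := by
    intro ξ
    simp only [hη₀]
    rcases lt_trichotomy (ord ξ) (ord (S ξ)) with h | h | h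
    · rw [if_pos h, hφη₁]
    · have hfix : S ξ = ξ := (hordinj h).symm
      rw [if_neg (by rw [h]; exact lt_irrefl _), if_neg (by rw [h]; exact lt_irrefl _), map_zero]
      exact ((hy' ξ).2 hfix).symm
    · rw [if_neg (not_lt.2 h.le), if_pos h, map_neg, hφη₁]
      have := (hy' ξ).1
      simp only at this
      rw [this, neg_neg]
  -- the defect is `ker φ`-valued with total sum zero
  set K := φ.ker with hK
  have hθK : ∀ ξ, η₀ ξ - η₁ ξ ∈ K := fun ξ => by
    rw [hK, AddMonoidHom.mem_ker, map_sub, hφη₀, hφη₁, sub_self]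
  set θ : X → K := fun ξ => ⟨η₀ ξ - η₁ ξ, hθK ξ⟩ with hθ
  have hθsum : ∑ ξ, θ ξ = 0 := by
    apply Subtype.ext
    rw [AddSubgroup.val_finsetSum, AddSubgroup.coe_zero]
    simp only [hθ]
    rw [Finset.sum_sub_distrib, twe_lf_sum_AS hS hη₀AS, twe_lf_sum_E, sub_zero]
  obtain ⟨ε, hε, e, ⟨u, hu⟩, hεe⟩ := AddSubgroup.mem_sup.1 (twe_lf_mem_sup hS htrans θ hθsum)
  refine ⟨fun ξ => y₁ ξ + (u ξ : A), fun ξ => ?_, ?_⟩
  · rw [map_add, hy₁]
    have : φ (u ξ : A) = 0 := (u ξ).2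
    rw [this, add_zero]
  · -- `η_y = η₀ - ε`
    have hval : ∀ ξ, (y₁ (t ξ) + (u (t ξ) : A)) - (y₁ ξ + (u ξ : A)) = η₀ ξ - (ε ξ : A) := by
      intro ξ
      have h1 := congrFun hεe ξ
      rw [Pi.add_apply, hu] at h1
      have h2 := congrArg (Subtype.val) h1
      simp only [AddSubgroup.coe_add, AddSubgroup.coe_sub, hθ] at h2
      have : η₁ ξ = y₁ (t ξ) - y₁ ξ := rfl
      rw [this] at h2
      have h3 : (u (t ξ) : A) - (u ξ : A) = η₀ ξ - (y₁ (t ξ) - y₁ ξ) - (ε ξ : A) := by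
        rw [← h2]; abel
      calc (y₁ (t ξ) + (u (t ξ) : A)) - (y₁ ξ + (u ξ : A))
          = (y₁ (t ξ) - y₁ ξ) + ((u (t ξ) : A) - (u ξ : A)) := by abel
        _ = η₀ ξ - (ε ξ : A) := by rw [h3]; abel
    intro ξ
    simp only [hval]
    refine ⟨?_, fun hfix => ?_⟩
    · rw [(hη₀AS ξ).1, (hε ξ).1]
      simp only [AddSubgroup.coe_neg]
      abel
    · rw [(hη₀AS ξ).2 hfix, (hε ξ).2 hfix]
      simp

end core

end Fermat.Agent.TW
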