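/-
Project ONE MACHINE, block [E] AUT, cell E/Lift, part 2 (helper22): THE LIFTING LEMMA (L).
Prefix `twe_lf_`, namespace `Fermat.Agent.TW`.

**`twe_lf_lift`** : for a subgroup `Γ ≤ SL(2, ℤ)` of finite index containing `-1` and a SURJECTION
`φ : A → A'` of abelian groups, every parabolic-elliptic-killing character `x' : Γ → A'` lifts to a
parabolic-elliptic-killing character `x : Γ → A`, `φ ∘ x = x'`.  (So `W(Γ, 𝒪) → W(Γ, k)` is onto:
`H¹` of the compact curve `X_Γ` has no torsion.)  NO hypothesis on `2`, `3` in `A`.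

Proof: the model of LR/PD/Model on `X = SL(2, ℤ) / Γ`.  `x'` has a `U`-invariant primitive `P'` and
a `T`-invariant primitive `C'`; `y' = P' - C'` is a function on `X` whose difference function
`η' = y' ∘ T⁻¹ - y'` is antisymmetric under `S` and vanishes at the fixed points of `S`.  The
combinatorial core `twe_lf_core` lifts `y'` to `y : X → A` with the same properties; the tree lemma
`lrpt_tree` integrates `η` to a `U`-invariant `Q` with `Q (S g) - Q g = η g`, and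
`x γ = Q γ - Q 1` is the lift (`Q` and `Q - y` are its `U`- and `T`-invariant primitives; the
conjugates of `S` are killed because `η` vanishes at the fixed points of `S`;
`lrpd_PE_of_kills` = the classification of the elements with `tr² ≤ 4`).
-/
import Mathlib
import Fermat.Agent.TW.Aut.LiftCore
import Fermat.Agent.LR.PD.OmS

set_option autoImplicit false

noncomputable section

open Matrix ModularGroup
open scoped MatrixGroups

namespace Fermat.Agent.TW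

open Fermat.Agent.LR

section lift

variable {Γ : Subgroup SL(2, ℤ)}

/-- the action of `S` on `X = SL(2, ℤ) / Γ`. -/
def twe_lf_SX (Γ : Subgroup SL(2, ℤ)) : Equiv.Perm (lrpdm_X Γ) := MulAction.toPerm (S : SL(2, ℤ))

/-- the action of `T⁻¹` on `X = SL(2, ℤ) / Γ`. -/
def twe_lf_tX (Γ : Subgroup SL(2, ℤ)) : Equiv.Perm (lrpdm_X Γ) :=
  MulAction.toPerm (T⁻¹ : SL(2, ℤ))

theorem twe_lf_SX_apply (ξ : lrpdm_X Γ) : twe_lf_SX Γ ξ = (S : SL(2, ℤ)) • ξ := rfl

theorem twe_lf_tX_apply (ξ : lrpdm_X Γ) : twe_lf_tX Γ ξ = (T⁻¹ : SL(2, ℤ)) • ξ := rfl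

/-- `⟨S, T⁻¹⟩` is transitive on `X`. -/
theorem twe_lf_trans (ξ ξ' : lrpdm_X Γ) :
    ∃ w ∈ Subgroup.closure {twe_lf_SX Γ, twe_lf_tX Γ}, w ξ = ξ' := by
  induction ξ using QuotientGroup.induction_on with
  | H g₁ =>
    induction ξ' using QuotientGroup.induction_on with
    | H g₂ =>
      refine ⟨MulAction.toPermHom SL(2, ℤ) (lrpdm_X Γ) (g₂ * g₁⁻¹), ?_, ?_⟩
      · have hle : (⊤ : Subgroup SL(2, ℤ)) ≤
            (Subgroup.closure {twe_lf_SX Γ, twe_lf_tX Γ}).comap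
              (MulAction.toPermHom SL(2, ℤ) (lrpdm_X Γ)) := by
          rw [← SpecialLinearGroup.SL2Z_generators, Subgroup.closure_le]
          rintro x (rfl | rfl)
          · exact Subgroup.subset_closure (Or.inl rfl)
          · show MulAction.toPermHom SL(2, ℤ) (lrpdm_X Γ) T ∈
              Subgroup.closure {twe_lf_SX Γ, twe_lf_tX Γ}
            have h1 : MulAction.toPermHom SL(2, ℤ) (lrpdm_X Γ) T = (twe_lf_tX Γ)⁻¹ := by
              rw [eq_inv_iff_mul_eq_one]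
              ext ξ
              show (T : SL(2, ℤ)) • ((T⁻¹ : SL(2, ℤ)) • ξ) = ξ
              rw [smul_smul, mul_inv_cancel, one_smul]
            rw [h1]
            exact inv_mem (Subgroup.subset_closure (Or.inr rfl))
        exact hle (Subgroup.mem_top _)
      · show (g₂ * g₁⁻¹) • (g₁ : lrpdm_X Γ) = (g₂ : lrpdm_X Γ)
        rw [lrpdm_smul_mk, inv_mul_cancel_right]

/-- the difference of two primitives of the same character, as a function on `X`. -/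
def twe_lf_diff {B : Type*} [AddCommGroup B] {x : Additive Γ →+ B} (F F' : SL(2, ℤ) → B)
    (hF : lrpdm_IsPrim Γ x F) (hF' : lrpdm_IsPrim Γ x F') : lrpdm_X Γ → B :=
  fun ξ => Quotient.liftOn' ξ (fun g => F g - F' g) (by
    intro a b hab
    rw [QuotientGroup.leftRel_apply] at hab
    have hb : b = a * ((⟨a⁻¹ * b, hab⟩ : Γ) : SL(2, ℤ)) := by simp
    show F a - F' a = F b - F' b
    rw [hb, hF, hF']
    abel)

theorem twe_lf_diff_mk {B : Type*} [AddCommGroup B] {x : Additive Γ →+ B} (F F' : SL(2, ℤ) → B)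
    (hF : lrpdm_IsPrim Γ x F) (hF' : lrpdm_IsPrim Γ x F') (g : SL(2, ℤ)) :
    twe_lf_diff F F' hF hF' (g : lrpdm_X Γ) = F g - F' g := rfl

/-- a character with a `σ`-invariant primitive kills the conjugates of the powers of `σ`. -/
theorem twe_lf_kills_of_inv {B : Type*} [AddCommGroup B] {x : Additive Γ →+ B} (σ : SL(2, ℤ))
    (F : SL(2, ℤ) → B) (hF : lrpdm_IsPrim Γ x F) (hFσ : ∀ g, F (σ * g) = F g) :
    lrpdm_Kills Γ x σ := by
  intro g n hmem
  have h1 := hF g ⟨_, hmem⟩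
  have h3 : g * (g⁻¹ * σ ^ n * g) = σ ^ n * g := by group
  have h4 : F (g * ((⟨_, hmem⟩ : Γ) : SL(2, ℤ))) = F g := by
    show F (g * (g⁻¹ * σ ^ n * g)) = F g
    rw [h3, lrpdm_inv_zpow F σ hFσ]
  rw [h4] at h1
  have h5 : F g + lrpdm_ev Γ x ⟨_, hmem⟩ = F g + 0 := by rw [← h1, add_zero]
  exact add_left_cancel h5

theorem twe_lf_S_zpow (n : ℤ) :
    (S : SL(2, ℤ)) ^ n = 1 ∨ (S : SL(2, ℤ)) ^ n = S ∨ (S : SL(2, ℤ)) ^ n = -1 ∨
      (S : SL(2, ℤ)) ^ n = -S := by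
  have h4 : (S : SL(2, ℤ)) ^ (4 : ℤ) = 1 := by decide
  rw [zpow_eq_zpow_emod n h4]
  have h0 : 0 ≤ n % 4 := Int.emod_nonneg _ (by norm_num)
  have h1 : n % 4 < 4 := Int.emod_lt_of_pos _ (by norm_num)
  obtain ⟨m, hm⟩ := Int.eq_ofNat_of_zero_le h0
  rw [hm] at h1 ⊢
  have hm4 : m < 4 := by exact_mod_cast h1
  rw [zpow_natCast]
  interval_cases m
  · left; decide
  · right; left; decide
  · right; right; left; decide
  · right; right; right; decide

/-- `S g Γ = g Γ` iff `g⁻¹ S g ∈ Γ`. -/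
theorem twe_lf_fix_iff (g : SL(2, ℤ)) :
    (S : SL(2, ℤ)) • (g : lrpdm_X Γ) = (g : lrpdm_X Γ) ↔ g⁻¹ * S * g ∈ Γ := by
  rw [lrpdm_smul_mk, eq_comm, QuotientGroup.eq, mul_assoc]

/-- **THE LIFTING LEMMA (L).** -/
theorem twe_lf_lift [Γ.FiniteIndex] (hneg : (-1 : SL(2, ℤ)) ∈ Γ) {A A' : Type*} [AddCommGroup A]
    [AddCommGroup A'] (φ : A →+ A') (hφ : Function.Surjective φ) (x' : Additive Γ →+ A')
    (hx' : lrpd_PE Γ x') :
    ∃ x : Additive Γ →+ A, lrpd_PE Γ x ∧ φ.comp x = x' := by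
  classical
  -- primitives of `x'`
  obtain ⟨P', hP', hP'U⟩ := lrpdm_exists_prim_inv x' lrpdm_U (lrpd_killsU hx')
  obtain ⟨C', hC', hC'T⟩ := lrpdm_exists_prim_inv x' T (lrpd_killsT hx')
  have hC'T' : ∀ g, C' (T⁻¹ * g) = C' g := fun g => by
    have := hC'T (T⁻¹ * g)
    rw [mul_inv_cancel_left] at this
    exact this.symm
  set y' : lrpdm_X Γ → A' := twe_lf_diff P' C' hP' hC' with hy'
  have hη' : ∀ g : SL(2, ℤ),
      y' (twe_lf_tX Γ (g : lrpdm_X Γ)) - y' (g : lrpdm_X Γ) = P' (S * g) - P' g := by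
    intro g
    rw [twe_lf_tX_apply, lrpdm_smul_mk, hy', twe_lf_diff_mk, twe_lf_diff_mk, hC'T',
      lrpdm_invU_Tinv P' hP'U]
    abel
  have hy'AS : (fun ξ => y' (twe_lf_tX Γ ξ) - y' ξ) ∈ twe_lf_AS (twe_lf_SX Γ) A' := by
    intro ξ
    induction ξ using QuotientGroup.induction_on with
    | H g =>
      have h1 : twe_lf_SX Γ (g : lrpdm_X Γ) = ((S * g : SL(2, ℤ)) : lrpdm_X Γ) := rfl
      refine ⟨?_, fun hfix => ?_⟩
      · show y' (twe_lf_tX Γ (twe_lf_SX Γ (g : lrpdm_X Γ))) - y' (twe_lf_SX Γ (g : lrpdm_X Γ)) =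
          -(y' (twe_lf_tX Γ (g : lrpdm_X Γ)) - y' (g : lrpdm_X Γ))
        rw [h1, hη', hη', ← mul_assoc, lrpdm_S_mul_S, neg_mul, one_mul,
          lrpdm_neg_of_invU P' hP'U]
        abel
      · show y' (twe_lf_tX Γ (g : lrpdm_X Γ)) - y' (g : lrpdm_X Γ) = 0
        rw [hη']
        have hmem : g⁻¹ * S * g ∈ Γ := (twe_lf_fix_iff g).1 hfix
        have h3 := hP' g ⟨_, hmem⟩
        have h4 : g * ((⟨g⁻¹ * S * g, hmem⟩ : Γ) : SL(2, ℤ)) = S * g := by
          show g * (g⁻¹ * S * g) = S * g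
          group
        rw [h4] at h3
        have h5 : lrpdm_ev Γ x' ⟨_, hmem⟩ = 0 := by
          refine hx' ⟨_, hmem⟩ ?_
          show lrpd_tr (g⁻¹ * S * g) ^ 2 ≤ 4
          rw [lrpd_tr_conj']
          have := lrpd_tr_S_zpow 1
          rwa [zpow_one] at this
        rw [h3, h5]
        abel
  -- the lift of `y'`
  obtain ⟨y, hφy, hyAS⟩ := twe_lf_core (S := twe_lf_SX Γ) (t := twe_lf_tX Γ)
    (fun ξ => lrpdm_S_smul_S_smul hneg ξ) twe_lf_trans φ hφ y' hy'AS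
  set η : SL(2, ℤ) → A := fun g => y ((T⁻¹ : SL(2, ℤ)) • (g : lrpdm_X Γ)) - y (g : lrpdm_X Γ)
    with hη
  have hη1 : ∀ g, η (-g) = η g := fun g => by
    show y ((T⁻¹ : SL(2, ℤ)) • ((-g : SL(2, ℤ)) : lrpdm_X Γ)) - y ((-g : SL(2, ℤ)) : lrpdm_X Γ) = _
    rw [lrpdm_mk_neg hneg]
  have hη2 : ∀ g, η (S * g) = - η g := fun g => (hyAS (g : lrpdm_X Γ)).1
  have hηfix : ∀ g : SL(2, ℤ), g⁻¹ * S * g ∈ Γ → η g = 0 := fun g hg =>
    (hyAS (g : lrpdm_X Γ)).2 ((twe_lf_fix_iff g).2 hg)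
  have hηΓ : ∀ (g : SL(2, ℤ)) (γ : Γ), η (g * γ) = η g := fun g γ => by
    show y ((T⁻¹ : SL(2, ℤ)) • ((g * γ : SL(2, ℤ)) : lrpdm_X Γ)) -
      y ((g * γ : SL(2, ℤ)) : lrpdm_X Γ) = _
    rw [lrpdm_mk_mul_mem]
  obtain ⟨Q, hQneg, hQU, hQS⟩ := lrpt_tree η hη1 hη2
  have hQU' : ∀ g, Q (lrpdm_U * g) = Q g := hQU
  have hQS' : ∀ g, Q (S * g) = Q g + η g := fun g => by
    rw [← hQS g]
    abel
  -- the character
  have hconst : ∀ (g : SL(2, ℤ)) (γ : Γ), Q (g * γ) - Q g = Q γ - Q 1 := by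
    intro g γ
    have := lrpdm_const_of_inv (fun g => Q (g * γ) - Q g) ?_ ?_ g
    · simpa using this
    · intro g
      show Q (S * g * γ) - Q (S * g) = Q (g * γ) - Q g
      rw [mul_assoc, hQS', hQS', hηΓ]
      abel
    · intro g
      show Q (lrpdm_U * g * γ) - Q (lrpdm_U * g) = Q (g * γ) - Q g
      rw [mul_assoc, hQU', hQU']
  let x : Additive Γ →+ A :=
    { toFun := fun a => Q ((Additive.toMul a : Γ) : SL(2, ℤ)) - Q 1
      map_zero' := by
        show Q ((1 : Γ) : SL(2, ℤ)) - Q 1 = 0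
        rw [Subgroup.coe_one, sub_self]
      map_add' := fun a b => by
        show Q (((Additive.toMul a * Additive.toMul b : Γ)) : SL(2, ℤ)) - Q 1 =
          (Q ((Additive.toMul a : Γ) : SL(2, ℤ)) - Q 1) + (Q ((Additive.toMul b : Γ) : SL(2, ℤ)) - Q 1)
        have e1 := hconst ((Additive.toMul a : Γ) : SL(2, ℤ)) (Additive.toMul b)
        rw [Subgroup.coe_mul]
        rw [← e1]
        abel }
  have hxev : ∀ γ : Γ, lrpdm_ev Γ x γ = Q (γ : SL(2, ℤ)) - Q 1 := fun γ => rfl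
  have hP : lrpdm_IsPrim Γ x Q := fun g γ => by
    rw [hxev, ← hconst g γ]
    abel
  -- the `T`-invariant primitive
  let C : SL(2, ℤ) → A := fun g => Q g - y (g : lrpdm_X Γ)
  have hC : lrpdm_IsPrim Γ x C := fun g γ => by
    show Q (g * γ) - y ((g * γ : SL(2, ℤ)) : lrpdm_X Γ) =
      Q g - y (g : lrpdm_X Γ) + lrpdm_ev Γ x γ
    rw [lrpdm_mk_mul_mem, hP g γ]
    abel
  have hCT' : ∀ g, C (T⁻¹ * g) = C g := fun g => by
    show Q (T⁻¹ * g) - y ((T⁻¹ * g : SL(2, ℤ)) : lrpdm_X Γ) = Q g - y (g : lrpdm_X Γ)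
    rw [lrpdm_invU_Tinv Q hQU', ← lrpdm_smul_mk T⁻¹ g, hQS']
    show Q g + (y ((T⁻¹ : SL(2, ℤ)) • (g : lrpdm_X Γ)) - y (g : lrpdm_X Γ)) -
      y ((T⁻¹ : SL(2, ℤ)) • (g : lrpdm_X Γ)) = Q g - y (g : lrpdm_X Γ)
    abel
  have hCT : ∀ g, C (T * g) = C g := fun g => by
    have := hCT' (T * g)
    rw [inv_mul_cancel_left] at this
    exact this.symm
  have hkU : lrpdm_Kills Γ x lrpdm_U := twe_lf_kills_of_inv lrpdm_U Q hP hQU'
  have hkT : lrpdm_Kills Γ x T := twe_lf_kills_of_inv T C hC hCT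
  have hkS : lrpdm_Kills Γ x S := by
    intro g n hmem
    have h1 := hP g ⟨_, hmem⟩
    have h3 : g * ((⟨g⁻¹ * S ^ n * g, hmem⟩ : Γ) : SL(2, ℤ)) = S ^ n * g := by
      show g * (g⁻¹ * S ^ n * g) = S ^ n * g
      group
    rw [h3] at h1
    have key : Q (S ^ n * g) = Q g := by
      rcases twe_lf_S_zpow n with h | h | h | h
      · rw [h, one_mul]
      · rw [h] at hmem ⊢
        rw [hQS', hηfix g hmem, add_zero]
      · rw [h, neg_mul, one_mul, hQneg]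
      · rw [h] at hmem ⊢
        have hmem' : g⁻¹ * S * g ∈ Γ := by
          have h6 : g⁻¹ * S * g = (-1 : SL(2, ℤ)) * (g⁻¹ * -S * g) := by
            rw [neg_mul, one_mul, mul_neg, neg_mul, neg_neg]
          rw [h6]
          exact mul_mem hneg hmem
        rw [neg_mul, hQneg, hQS', hηfix g hmem', add_zero]
    rw [key] at h1
    have h5 : Q g + lrpdm_ev Γ x ⟨_, hmem⟩ = Q g + 0 := by rw [← h1, add_zero]
    exact add_left_cancel h5
  refine ⟨x, lrpd_PE_of_kills hneg hkS hkU hkT, ?_⟩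
  -- `φ ∘ x = x'`
  have hφη : ∀ g : SL(2, ℤ), φ (η g) = P' (S * g) - P' g := fun g => by
    rw [← hη' g]
    show φ (y ((T⁻¹ : SL(2, ℤ)) • (g : lrpdm_X Γ)) - y (g : lrpdm_X Γ)) = _
    rw [map_sub, hφy, hφy]
    rfl
  have hD := lrpdm_const_of_inv (fun g => φ (Q g) - P' g) ?_ ?_
  · refine AddMonoidHom.ext fun γ => ?_
    obtain ⟨γ, rfl⟩ := Additive.ofMul.surjective γ
    show φ (Q (γ : SL(2, ℤ)) - Q 1) = lrpdm_ev Γ x' γ
    have h1 : φ (Q (γ : SL(2, ℤ))) - P' (γ : SL(2, ℤ)) = φ (Q 1) - P' 1 := hD (γ : SL(2, ℤ))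
    have h2 := hP' 1 γ
    rw [one_mul] at h2
    rw [map_sub]
    have h3 : φ (Q (γ : SL(2, ℤ))) = φ (Q 1) - P' 1 + P' (γ : SL(2, ℤ)) := by
      rw [← h1]
      abel
    rw [h3, h2]
    abel
  · intro g
    show φ (Q (S * g)) - P' (S * g) = φ (Q g) - P' g
    rw [hQS', map_add, hφη]
    abel
  · intro g
    show φ (Q (lrpdm_U * g)) - P' (lrpdm_U * g) = φ (Q g) - P' g
    rw [hQU', hP'U]

end lift

end Fermat.Agent.TW
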