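/-
ONE MACHINE / block [E] AUT, cell E/Free, the reduction `W(Γ, 𝒪) → W(Γ, k)` (helper22).
Namespace `Fermat.Agent.TW`, prefix `twe_rd_`.  Mathlib + `TW/Aut/{WLin, Lift}`.

`𝒪` a discrete valuation ring with residue field `k`, `Γ ≤ SL(2, ℤ)`:

* `twe_rd_red 𝒪 Γ : ↥(twe_wl_V 𝒪 𝒪 Γ) →ₗ[𝒪] ↥(twe_wl_V k k Γ)`, post-composition with `residue`
  (the target is an `𝒪`-module through `Submodule.module'`, with `IsScalarTower 𝒪 k _`);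
* `twe_rd_surjective` (`Γ` of finite index, `-1 ∈ Γ`: `twe_lf_lift`), `twe_rd_ker : ker ≤ 𝔪 • ⊤`;
* `twe_rd_T`, `twe_rd_T0`, `twe_rd_conj`, `twe_rd_res`, `twe_rd_cor`: `red` intertwines the Hecke
  operators, the diamonds, restriction and transfer over `𝒪` and over `k`;
* `twe_rd_finite`, `twe_rd_free`: `↥(twe_wl_V 𝒪 𝒪 Γ)` is finite free over `𝒪`.

These are the hypotheses `hred`, `hsurj`, `hker` of `twe_lam_end` / `twe_lam_piE` /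
`twe_lam_finrankE` (LocAlgMod.lean).
-/
import Mathlib
import Fermat.Agent.TW.Aut.WLin
import Fermat.Agent.TW.Aut.Lift

set_option autoImplicit false
set_option linter.unusedSectionVars false
set_option linter.unusedVariables false
set_option linter.style.haveILetI false

noncomputable section

open scoped MatrixGroups
open Matrix.SpecialLinearGroup CongruenceSubgroup

namespace Fermat.Agent.TW

open IsLocalRing Fermat.Agent.JT3 Fermat.Agent.LR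

section red

variable (𝒪 : Type*) [CommRing 𝒪] [IsLocalRing 𝒪]

/-- **the reduction map** `W(Γ, 𝒪) → W(Γ, k)`. -/
def twe_rd_red (Γ : Subgroup SL(2, ℤ)) :
    ↥(twe_wl_V 𝒪 𝒪 Γ) →ₗ[𝒪] ↥(twe_wl_V (ResidueField 𝒪) (ResidueField 𝒪) Γ) where
  toFun x := ⟨(residue 𝒪).toAddMonoidHom.comp x.1, fun γ hγ => by
    rw [AddMonoidHom.comp_apply, x.2 γ hγ, map_zero]⟩
  map_add' x y := by
    apply Subtype.ext
    refine AddMonoidHom.ext fun γ => ?_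
    show residue 𝒪 (x.1 γ + y.1 γ) = residue 𝒪 (x.1 γ) + residue 𝒪 (y.1 γ)
    rw [map_add]
  map_smul' a x := by
    apply Subtype.ext
    refine AddMonoidHom.ext fun γ => ?_
    show residue 𝒪 (a * x.1 γ) = a • residue 𝒪 (x.1 γ)
    rw [map_mul, Algebra.smul_def]
    rfl

variable {𝒪}

@[simp] theorem twe_rd_red_coe (Γ : Subgroup SL(2, ℤ)) (x : ↥(twe_wl_V 𝒪 𝒪 Γ)) :
    (twe_rd_red 𝒪 Γ x : Additive Γ →+ ResidueField 𝒪) =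
      (residue 𝒪).toAddMonoidHom.comp x.1 := rfl

theorem twe_rd_red_apply (Γ : Subgroup SL(2, ℤ)) (x : ↥(twe_wl_V 𝒪 𝒪 Γ)) (γ : Additive Γ) :
    (twe_rd_red 𝒪 Γ x : Additive Γ →+ ResidueField 𝒪) γ = residue 𝒪 (x.1 γ) := rfl

/-- **surjectivity** (`twe_lf_lift`). -/
theorem twe_rd_surjective (Γ : Subgroup SL(2, ℤ)) [Γ.FiniteIndex] (hneg : (-1 : SL(2, ℤ)) ∈ Γ) :
    Function.Surjective (twe_rd_red 𝒪 Γ) := by
  intro x'
  obtain ⟨x, hx, hcomp⟩ := twe_lf_lift hneg (residue 𝒪).toAddMonoidHom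
    (IsLocalRing.residue_surjective (R := 𝒪)) x'.1 x'.2
  exact ⟨⟨x, hx⟩, Subtype.ext hcomp⟩

/-- **the kernel is `ϖ W(Γ, 𝒪)`**, for a maximal ideal generated by a non-zero-divisor. -/
theorem twe_rd_ker_of_gen (Γ : Subgroup SL(2, ℤ)) (ϖ : 𝒪)
    (hϖ : maximalIdeal 𝒪 = Ideal.span {ϖ}) (hreg : ∀ a : 𝒪, ϖ * a = 0 → a = 0) :
    LinearMap.ker (twe_rd_red 𝒪 Γ) ≤
      (maximalIdeal 𝒪) • (⊤ : Submodule 𝒪 ↥(twe_wl_V 𝒪 𝒪 Γ)) := by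
  intro x hx
  have hx0 : ∀ γ : Additive Γ, residue 𝒪 (x.1 γ) = 0 := by
    intro γ
    have h1 := congrArg Subtype.val (LinearMap.mem_ker.mp hx)
    have h2 := DFunLike.congr_fun h1 γ
    exact h2
  have hdiv : ∀ γ : Additive Γ, ∃ y : 𝒪, x.1 γ = ϖ * y := by
    intro γ
    have h1 : x.1 γ ∈ maximalIdeal 𝒪 := (residue_eq_zero_iff _).mp (hx0 γ)
    rw [hϖ, Ideal.mem_span_singleton'] at h1
    obtain ⟨y, hy⟩ := h1
    exact ⟨y, by rw [← hy, mul_comm]⟩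
  choose y hy using hdiv
  have hcancel : ∀ a b : 𝒪, ϖ * a = ϖ * b → a = b := by
    intro a b hab
    have : ϖ * (a - b) = 0 := by rw [mul_sub, hab, sub_self]
    exact sub_eq_zero.mp (hreg _ this)
  let Y : Additive Γ →+ 𝒪 := AddMonoidHom.mk' y (by
    intro γ γ'
    apply hcancel
    rw [mul_add, ← hy, ← hy, ← hy, map_add])
  have hY : lrpd_PE Γ Y := by
    intro γ hγ
    have h1 : ϖ * y (Additive.ofMul γ) = 0 := by rw [← hy]; exact x.2 γ hγ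
    exact hreg _ h1
  have hxY : x = ϖ • (⟨Y, hY⟩ : ↥(twe_wl_V 𝒪 𝒪 Γ)) := by
    apply Subtype.ext
    refine AddMonoidHom.ext fun γ => ?_
    show x.1 γ = ϖ * y γ
    exact hy γ
  rw [hxY]
  refine Submodule.smul_mem_smul ?_ Submodule.mem_top
  rw [hϖ]
  exact Ideal.mem_span_singleton_self ϖ

/-- **the kernel is `𝔪 W(Γ, 𝒪)`** for a discrete valuation ring. -/
theorem twe_rd_ker [IsDomain 𝒪] [IsDiscreteValuationRing 𝒪] (Γ : Subgroup SL(2, ℤ)) :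
    LinearMap.ker (twe_rd_red 𝒪 Γ) ≤
      (maximalIdeal 𝒪) • (⊤ : Submodule 𝒪 ↥(twe_wl_V 𝒪 𝒪 Γ)) := by
  obtain ⟨ϖ, hϖ⟩ := IsDiscreteValuationRing.exists_irreducible 𝒪
  refine twe_rd_ker_of_gen Γ ϖ hϖ.maximalIdeal_eq ?_
  intro a ha
  rcases mul_eq_zero.mp ha with h | h
  · exact absurd h hϖ.ne_zero
  · exact h

/-! ### intertwining -/

section hecke

variable {M ℓ : ℕ} [Fact ℓ.Prime]

theorem twe_rd_T (hℓM : ¬ ℓ ∣ M) (H : Subgroup (ZMod M)ˣ) (s : Gamma0 M)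
    (hs : twe_dUnit M s * twe_dUnit M s * (twe_hk_lU hℓM)⁻¹ ∈ H)
    (z : ↥(twe_wl_V 𝒪 𝒪 (twe_GamH M H))) :
    twe_rd_red 𝒪 (twe_GamH M H) (twe_wl_T (R := 𝒪) hℓM H s hs z) =
      twe_wl_T (R := ResidueField 𝒪) hℓM H s hs (twe_rd_red 𝒪 (twe_GamH M H) z) := by
  apply Subtype.ext
  rw [twe_rd_red_coe, twe_wl_T_coe, twe_wl_T_coe, twe_rd_red_coe]
  exact (twe_hk_T_comp hℓM H s hs _ z.1).symm

theorem twe_rd_T0 (hℓM : ¬ ℓ ∣ M) (x : ↥(twe_wl_V 𝒪 𝒪 (Gamma0 M))) :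
    twe_rd_red 𝒪 (Gamma0 M) (twe_wl_T0 (R := 𝒪) hℓM x) =
      twe_wl_T0 (R := ResidueField 𝒪) hℓM (twe_rd_red 𝒪 (Gamma0 M) x) := by
  apply Subtype.ext
  rw [twe_rd_red_coe, twe_wl_T0_coe, twe_wl_T0_coe, twe_rd_red_coe]
  exact (t2c_Tadd_comp hℓM _ x.1).symm

omit [Fact ℓ.Prime] in
theorem twe_rd_conj (H : Subgroup (ZMod M)ˣ) (g : Gamma0 M)
    (z : ↥(twe_wl_V 𝒪 𝒪 (twe_GamH M H))) :
    twe_rd_red 𝒪 (twe_GamH M H) (twe_wl_conj (R := 𝒪) H g z) =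
      twe_wl_conj (R := ResidueField 𝒪) H g (twe_rd_red 𝒪 (twe_GamH M H) z) := rfl

end hecke

theorem twe_rd_res {Γ Γ' : Subgroup SL(2, ℤ)} (hle : Γ' ≤ Γ) (x : ↥(twe_wl_V 𝒪 𝒪 Γ)) :
    twe_rd_red 𝒪 Γ' (twe_wl_res hle x) = twe_wl_res hle (twe_rd_red 𝒪 Γ x) := rfl

theorem twe_rd_cor {Γ Γ' : Subgroup SL(2, ℤ)} {ι : Type*} [Fintype ι] {ρ : ι → SL(2, ℤ)}
    (hρ : ∀ i, ρ i ∈ Γ) (hbij : ∀ γ ∈ Γ, ∃! i, (ρ i)⁻¹ * γ ∈ Γ')
    (z : ↥(twe_wl_V 𝒪 𝒪 Γ')) :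
    twe_rd_red 𝒪 Γ (twe_wl_cor hρ hbij z) =
      twe_wl_cor hρ hbij (twe_rd_red 𝒪 Γ' z) := by
  apply Subtype.ext
  rw [twe_rd_red_coe, twe_wl_cor_coe, twe_wl_cor_coe, twe_rd_red_coe]
  exact (twe_wl_cor_comp hρ hbij _ z.1).symm

end red

/-! ### `W(Γ, 𝒪)` is finite free -/

section free

variable {𝒪 : Type*} [CommRing 𝒪] [IsDomain 𝒪] [IsPrincipalIdealRing 𝒪]

theorem twe_rd_finite (Γ : Subgroup SL(2, ℤ)) [Γ.FiniteIndex] :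
    Module.Finite 𝒪 ↥(twe_wl_V 𝒪 𝒪 Γ) := twe_wl_finite_V Γ

theorem twe_rd_smul_eq_zero (Γ : Subgroup SL(2, ℤ)) (a : 𝒪) (x : ↥(twe_wl_V 𝒪 𝒪 Γ))
    (h : a • x = 0) : a = 0 ∨ x = 0 := by
  by_cases ha : a = 0
  · exact Or.inl ha
  · right
    apply Subtype.ext
    refine AddMonoidHom.ext fun γ => ?_
    have h1 := DFunLike.congr_fun (congrArg Subtype.val h) γ
    have h2 : a * x.1 γ = 0 := h1
    rcases mul_eq_zero.mp h2 with h3 | h3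
    · exact absurd h3 ha
    · exact h3

theorem twe_rd_torsionFree (Γ : Subgroup SL(2, ℤ)) :
    Module.IsTorsionFree 𝒪 ↥(twe_wl_V 𝒪 𝒪 Γ) :=
  Module.isTorsionFree_iff_smul_eq_zero.mpr (twe_rd_smul_eq_zero Γ)

/-- `W(Γ, 𝒪)` is a free `𝒪`-module (finite torsion-free over a principal ideal domain). -/
theorem twe_rd_free (Γ : Subgroup SL(2, ℤ)) [Γ.FiniteIndex] :
    Module.Free 𝒪 ↥(twe_wl_V 𝒪 𝒪 Γ) := by
  haveI := twe_rd_finite (𝒪 := 𝒪) Γ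
  haveI := twe_rd_torsionFree (𝒪 := 𝒪) Γ
  exact Module.free_of_finite_type_torsion_free'

end free

end Fermat.Agent.TW
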