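import Mathlib
import Fermat.Agent.TW.Aut.SeamDefs
import Fermat.Agent.TW.Aut.HeckeComm
import Fermat.Agent.TW.Aut.Red
import Fermat.Agent.TW.Def.HeckeGen
import Fermat.Agent.JT3.Tate.Continuous

/-!
# Project ONE MACHINE, block [E] AUT, E/Seam: the Hecke ring of a FULL base package acts on the
`θ`-primary part of `W(Γ_H, 𝒪)` (helper3)

Prefix `twe_sa_`.
* `twe_sa_tau B ℓ`      : the generators `H.π (T_ℓ)` of `B.T`, `ℓ` a good prime of `(A, S₁)`;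
* `twe_sa_gen`          : they generate `B.T` over `𝒪` (when the primes of `A` lie in `S₁`);
* `twe_sa_actBase B`    : the faithful action of `B.T` on `𝒪^d`;
* `twe_sa_equivariant`  : equivariance on generators ⟹ equivariance;
* `twe_sa_act`          : **(ACT)** from a relation transfer `twe_at_Rel`;
* `twe_sa_prim_iota`    : `B.ι v` is `θ`-primary.
-/

set_option autoImplicit false
set_option linter.unusedSectionVars false

namespace Fermat.Agent.TW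

open Polynomial CuspForm IsLocalRing Fermat.Agent.JT3 CongruenceSubgroup

noncomputable section

section generic

variable {𝒪 : Type*} [CommRing 𝒪] {R R' : Type*} [CommRing R] [Algebra 𝒪 R] [CommRing R']
  [Algebra 𝒪 R'] {P P' : Type*} [AddCommGroup P] [Module 𝒪 P] [AddCommGroup P'] [Module 𝒪 P']
  {I : Type*}

/-- a linear map which is equivariant for the generators of `R` is equivariant. -/
theorem twe_sa_equivariant (τ : I → R) (hgen : Algebra.adjoin 𝒪 (Set.range τ) = ⊤)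
    (π : R →ₐ[𝒪] R') (ψ : R →ₐ[𝒪] Module.End 𝒪 P) (ψ' : R' →ₐ[𝒪] Module.End 𝒪 P')
    (f : P →ₗ[𝒪] P') (h : ∀ i m, f (ψ (τ i) m) = ψ' (π (τ i)) (f m)) (x : R) (m : P) :
    f (ψ x m) = ψ' (π x) (f m) := by
  have hx : x ∈ Algebra.adjoin 𝒪 (Set.range τ) := by rw [hgen]; exact Algebra.mem_top
  induction hx using Algebra.adjoin_induction generalizing m with
  | mem y hy =>
    obtain ⟨i, rfl⟩ := hy
    exact h i m
  | algebraMap c =>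
    rw [AlgHom.commutes, AlgHom.commutes, AlgHom.commutes, Module.algebraMap_end_apply,
      Module.algebraMap_end_apply, map_smul]
  | add y z _ _ hy hz =>
    rw [map_add, map_add, map_add, LinearMap.add_apply, LinearMap.add_apply, map_add, hy, hz]
  | mul y z _ _ hy hz =>
    rw [map_mul, map_mul, map_mul, Module.End.mul_apply, Module.End.mul_apply, hy, hz]

end generic

section base

variable {𝒪 : Type} [CommRing 𝒪] [IsDomain 𝒪] [IsDiscreteValuationRing 𝒪]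
  [IsAdicComplete (maximalIdeal 𝒪) 𝒪]
  {A : ℕ} [NeZero A] {S₁ : Finset ℕ}
  {θ₁ : heckeAlgebra A 2 (↑S₁ : Set ℕ) →+* ResidueField 𝒪}

/-- the generators `H.π (T_ℓ)` of the Hecke ring of a base package. -/
def twe_sa_tau (B : twe_Base 𝒪 A S₁ θ₁) : twe_sm_Idx A S₁ → B.T :=
  fun ℓ => B.H.π (heckeAlgebra.T ℓ.2.1 ℓ.2.2.1 ℓ.2.2.2)

theorem twe_sa_gen (B : twe_Base 𝒪 A S₁ θ₁) (hNS : ∀ ℓ : ℕ, ℓ.Prime → ℓ ∣ A → ℓ ∈ S₁) :
    Algebra.adjoin 𝒪 (Set.range (twe_sa_tau B)) = ⊤ := by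
  rw [← twc_hg_adjoin_away B.H hNS ∅]
  congr 1
  ext x
  constructor
  · rintro ⟨ℓ, rfl⟩
    exact ⟨ℓ.1, ℓ.2.1, ℓ.2.2.1, ℓ.2.2.2, Finset.notMem_empty _, rfl⟩
  · rintro ⟨ℓ, hℓ, hℓN, hℓS, -, rfl⟩
    exact ⟨⟨ℓ, hℓ, hℓN, hℓS⟩, rfl⟩

/-- the action of `B.T` on `𝒪^d`. -/
def twe_sa_actBase (B : twe_Base 𝒪 A S₁ θ₁) : B.T →ₐ[𝒪] Module.End 𝒪 (Fin B.d → 𝒪) :=
  ((Matrix.toLinAlgEquiv' : Matrix (Fin B.d) (Fin B.d) 𝒪 ≃ₐ[𝒪] Module.End 𝒪 (Fin B.d → 𝒪)) :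
    Matrix (Fin B.d) (Fin B.d) 𝒪 →ₐ[𝒪] Module.End 𝒪 (Fin B.d → 𝒪)).comp B.j

theorem twe_sa_actBase_apply (B : twe_Base 𝒪 A S₁ θ₁) (x : B.T) (v : Fin B.d → 𝒪) :
    twe_sa_actBase B x v = (B.j x).mulVec v := by
  unfold twe_sa_actBase
  rw [AlgHom.comp_apply]
  exact Matrix.toLin'_apply _ _

theorem twe_sa_actBase_injective (B : twe_Base 𝒪 A S₁ θ₁) :
    Function.Injective (twe_sa_actBase B) := by
  unfold twe_sa_actBase
  exact (Matrix.toLinAlgEquiv' : Matrix (Fin B.d) (Fin B.d) 𝒪 ≃ₐ[𝒪] _).injective.comp B.j_injective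

theorem twe_sa_iota_hecke (B : twe_Base 𝒪 A S₁ θ₁) (ℓ : twe_sm_Idx A S₁) (v : Fin B.d → 𝒪) :
    B.ι (twe_sa_actBase B (twe_sa_tau B ℓ) v) =
      twe_sm_TX 𝒪 A (twe_sm_q A S₁) ℓ (B.ι v) := by
  rw [twe_sa_actBase_apply]
  exact B.ι_hecke ℓ.1 ℓ.2.1 ℓ.2.2.1 ℓ.2.2.2 v

/-- the generators reduce to `θ₁`. -/
theorem twe_sa_tau_res (B : twe_Base 𝒪 A S₁ θ₁) (a : twe_sm_Idx A S₁ → 𝒪)
    (ha : twe_sm_IsLift θ₁ a) (ℓ : twe_sm_Idx A S₁) :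
    twe_sa_tau B ℓ - algebraMap 𝒪 B.T (a ℓ) ∈ maximalIdeal B.T := by
  rw [← residue_eq_zero_iff, map_sub, sub_eq_zero]
  unfold twe_sa_tau
  rw [B.H.residue_π, ← ha ℓ]
  rfl

/-- `M_∅ = ι(𝒪^d)` lies in the `θ`-primary part. -/
theorem twe_sa_prim_iota (B : twe_Base 𝒪 A S₁ θ₁) (a : twe_sm_Idx A S₁ → 𝒪)
    (ha : twe_sm_IsLift θ₁ a) (v : Fin B.d → 𝒪) :
    B.ι v ∈ twe_pr_prim (twe_sm_TX 𝒪 A (twe_sm_q A S₁)) a := by
  have h := twe_at_prim_of_local (twe_sa_actBase B) (twe_sa_tau B) a (twe_sa_tau_res B a ha) v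
  exact twe_pr_map_prim B.ι _ _ (fun ℓ y => twe_sa_iota_hecke B ℓ y) a h

end base

section comm

variable {𝒪 : Type} [CommRing 𝒪] [IsDomain 𝒪] [CharZero 𝒪]

/-- the operators on `Hom(gh_H A, 𝒪)` commute. -/
theorem twe_sa_commX (A : ℕ) [NeZero A] {I : Type*} (q : I → ℕ) (i j : I) :
    Commute (twe_sm_TX 𝒪 A q i) (twe_sm_TX 𝒪 A q j) := by
  refine LinearMap.ext fun ψ => ?_
  rw [Module.End.mul_apply, Module.End.mul_apply, twe_sm_TX_apply, twe_sm_TX_apply,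
    twe_sm_TX_apply, twe_sm_TX_apply]
  have h := t2f_comm (N := A) (q j) (q i) ψ
  refine AddMonoidHom.ext fun x => ?_
  have h2 := DFunLike.congr_fun h x
  simpa using h2

/-- `Hom(gh_H A, 𝒪)` is torsion-free. -/
theorem twe_sa_tfX (A : ℕ) (c : 𝒪) (x : gh_H A →+ 𝒪) (hc : c ≠ 0) (h : c • x = 0) : x = 0 := by
  refine AddMonoidHom.ext fun y => ?_
  have h1 : c • x y = 0 := by
    have := DFunLike.congr_fun h y
    simpa using this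
  rcases smul_eq_zero.mp h1 with h2 | h2
  · exact absurd h2 hc
  · exact h2

end comm

section commY

variable {𝒪 : Type*} [CommRing 𝒪] {M : ℕ} {H : Subgroup (ZMod M)ˣ} {I : Type*} {q : I → ℕ}

/-- the fixed-determinant operators on `W(Γ_H, 𝒪)` commute. -/
theorem twe_sa_commY (F : twe_sm_Frame M H q) (hinj : Function.Injective q) (i j : I) :
    Commute (twe_sm_TY 𝒪 F i) (twe_sm_TY 𝒪 F j) := by
  refine LinearMap.ext fun z => Subtype.ext ?_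
  haveI := F.hq
  exact twe_hc_commute q F.hM hinj H F.s F.hs i j z.1

/-- the diamonds commute with the fixed-determinant operators. -/
theorem twe_sa_TY_conj (F : twe_sm_Frame M H q) (i : I) (g : Gamma0 M)
    (z : ↥(twe_wl_V 𝒪 𝒪 (twe_GamH M H))) :
    twe_wl_conj (R := 𝒪) H g (twe_sm_TY 𝒪 F i z) = twe_sm_TY 𝒪 F i (twe_wl_conj H g z) :=
  @twe_wl_T_conj 𝒪 _ 𝒪 _ _ M (q i) (F.hq i) (F.hM i) H (F.s i) (F.hs i) g z

end commY

section act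

variable {𝒪 : Type} [CommRing 𝒪] [IsDomain 𝒪] [IsDiscreteValuationRing 𝒪]
  [IsAdicComplete (maximalIdeal 𝒪) 𝒪] [CharZero 𝒪]
  {A : ℕ} [NeZero A] {S₁ : Finset ℕ}
  {θ₁ : heckeAlgebra A 2 (↑S₁ : Set ℕ) →+* ResidueField 𝒪}

/-- **(ACT)**: the Hecke ring of a FULL base package of the balanced level `A` acts on the
`θ`-primary part of `W(Γ_H, 𝒪)`, the generator `H.π (T_ℓ)` acting as `T'_ℓ`. -/
theorem twe_sa_act (B : twe_Base 𝒪 A S₁ θ₁) (hfull : B.IsFull)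
    (hNS : ∀ ℓ : ℕ, ℓ.Prime → ℓ ∣ A → ℓ ∈ S₁) {M : ℕ} [NeZero M] {H : Subgroup (ZMod M)ˣ}
    (F : twe_sm_Frame M H (twe_sm_q A S₁)) (a : twe_sm_Idx A S₁ → 𝒪) (ha : twe_sm_IsLift θ₁ a)
    (hrel : twe_at_Rel (twe_sm_TX 𝒪 A (twe_sm_q A S₁)) (twe_sm_TY 𝒪 F)) :
    ∃ ψ : B.T →ₐ[𝒪] Module.End 𝒪 ↥(twe_pr_prim (twe_sm_TY 𝒪 F) a),
      ∀ (ℓ : twe_sm_Idx A S₁) (y : ↥(twe_pr_prim (twe_sm_TY 𝒪 F) a)),
        ((ψ (twe_sa_tau B ℓ) y : ↥(twe_pr_prim (twe_sm_TY 𝒪 F) a)) :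
          ↥(twe_wl_V 𝒪 𝒪 (twe_GamH M H))) = twe_sm_TY 𝒪 F ℓ (y : ↥(twe_wl_V 𝒪 𝒪 (twe_GamH M H))) := by
  haveI : Module.Finite 𝒪 (gh_H A →+ 𝒪) := tm_hom_finite (gh_H A) 𝒪
  haveI : Module.Finite 𝒪 ↥(twe_wl_V 𝒪 𝒪 (twe_GamH M H)) := twe_rd_finite (twe_GamH M H)
  obtain ⟨ψ, hψ⟩ := twe_at_act (twe_sm_TX 𝒪 A (twe_sm_q A S₁))
    (fun i j => twe_sa_commX A _ i j) (twe_sm_TY 𝒪 F)
    (fun i j => twe_sa_commY F Subtype.val_injective i j) a hrel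
    (twe_sa_actBase B) (twe_sa_tau B) (twe_sa_gen B hNS) B.ι
    (fun ℓ y => twe_sa_iota_hecke B ℓ y)
    (fun x hx => ⟨1, one_ne_zero, by rw [one_smul]; exact hfull a ha x hx⟩)
    (fun c x hc h => twe_sa_tfX A c x hc h)
  refine ⟨ψ, fun ℓ y => ?_⟩
  have h := hψ (FreeAlgebra.ι 𝒪 ℓ) y
  rw [FreeAlgebra.lift_ι_apply, FreeAlgebra.lift_ι_apply] at h
  exact h

end act

end

end Fermat.Agent.TW
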