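import Mathlib
import Fermat.Agent.TW.Aut.SeamAct
import Fermat.Agent.TW.Aut.FreeK
import Fermat.Agent.TW.Aut.Bridge

/-!
# Project ONE MACHINE, block [E] AUT, E/Seam: the module `prim W(Γ_H, 𝒪)` with its Hecke and
diamond actions (helper3)

Prefix `twe_smod_`.  For a Hecke frame `F : twe_sm_Frame M H q`, lifts `a`, and a presentation
`d : Γ₀(M) ↠ Δ` of the diamond group (`d g = 1 ↔ g ∈ Γ_H`):
* `twe_smod_rho d hd hdk F a`  : the diamond representation of `Δ` on `P := prim (twe_sm_TY 𝒪 F) a`;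
* `twe_smod_psi …`             : the action of the Hecke ring `B.T` of a FULL base package of the
                                 balanced level on `P` (choice from `twe_sa_act`), `twe_smod_psi_tau`;
* `twe_smod_comm`              : the two actions commute;
* `twe_smod_basis`             : the orbit basis from E/Free (`twe_fk_main`).
-/

set_option autoImplicit false
set_option linter.unusedSectionVars false

namespace Fermat.Agent.TW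

open Polynomial CuspForm IsLocalRing Fermat.Agent.JT3 CongruenceSubgroup
open scoped MatrixGroups

noncomputable section

section rho

variable {𝒪 : Type*} [CommRing 𝒪] [IsLocalRing 𝒪]
  {M : ℕ} {H : Subgroup (ZMod M)ˣ} {I : Type*} {q : I → ℕ}
  {Δ : Type*} [Group Δ] (d : Gamma0 M →* Δ) (hd : Function.Surjective d)
  (hdk : ∀ g, d g = 1 ↔ (g : SL(2, ℤ)) ∈ twe_GamH M H)

/-- the diamonds preserve the `θ`-primary part. -/
theorem twe_smod_conj_mem (F : twe_sm_Frame M H q) (a : I → 𝒪) (g : Gamma0 M)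
    {y : ↥(twe_wl_V 𝒪 𝒪 (twe_GamH M H))} (hy : y ∈ twe_pr_prim (twe_sm_TY 𝒪 F) a) :
    twe_wl_conj (R := 𝒪) H g y ∈ twe_pr_prim (twe_sm_TY 𝒪 F) a :=
  twe_pr_prim_stable _ a _ (fun i => LinearMap.ext fun z => twe_sa_TY_conj F i g z) hy

/-- **the diamond representation** of `Δ` on the `θ`-primary part of `W(Γ_H, 𝒪)`. -/
def twe_smod_rho (F : twe_sm_Frame M H q) (a : I → 𝒪) :
    Representation 𝒪 Δ ↥(twe_pr_prim (twe_sm_TY 𝒪 F) a) where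
  toFun δ := (twe_fo_rho (R := 𝒪) (A := 𝒪) H d hd hdk δ).restrict
    (fun y hy => twe_smod_conj_mem F a _ hy)
  map_one' := by
    refine LinearMap.ext fun y => Subtype.ext ?_
    rw [LinearMap.coe_restrict_apply, map_one]
    rfl
  map_mul' δ δ' := by
    refine LinearMap.ext fun y => Subtype.ext ?_
    rw [LinearMap.coe_restrict_apply, map_mul]
    rfl

theorem twe_smod_rho_coe (F : twe_sm_Frame M H q) (a : I → 𝒪) (g : Gamma0 M)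
    (y : ↥(twe_pr_prim (twe_sm_TY 𝒪 F) a)) :
    ((twe_smod_rho d hd hdk F a (d g) y : ↥(twe_pr_prim (twe_sm_TY 𝒪 F) a)) :
      ↥(twe_wl_V 𝒪 𝒪 (twe_GamH M H))) = twe_wl_conj H g (y : ↥(twe_wl_V 𝒪 𝒪 (twe_GamH M H))) := by
  change twe_fo_rho (R := 𝒪) (A := 𝒪) H d hd hdk (d g) y.1 = _
  rw [twe_fo_rho_apply]

end rho

section psi

variable {𝒪 : Type} [CommRing 𝒪] [IsDomain 𝒪] [IsDiscreteValuationRing 𝒪]
  [IsAdicComplete (maximalIdeal 𝒪) 𝒪] [CharZero 𝒪]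
  {A : ℕ} [NeZero A] {S₁ : Finset ℕ}
  {θ₁ : heckeAlgebra A 2 (↑S₁ : Set ℕ) →+* ResidueField 𝒪}
  (B : twe_Base 𝒪 A S₁ θ₁) (hfull : B.IsFull)
  (hNS : ∀ ℓ : ℕ, ℓ.Prime → ℓ ∣ A → ℓ ∈ S₁) {M : ℕ} [NeZero M] {H : Subgroup (ZMod M)ˣ}
  (F : twe_sm_Frame M H (twe_sm_q A S₁)) (a : twe_sm_Idx A S₁ → 𝒪) (ha : twe_sm_IsLift θ₁ a)
  (hrel : twe_at_Rel (twe_sm_TX 𝒪 A (twe_sm_q A S₁)) (twe_sm_TY 𝒪 F))

/-- **the Hecke action** of the ring of a FULL base package of the balanced level on the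
`θ`-primary part of `W(Γ_H, 𝒪)`. -/
def twe_smod_psi : B.T →ₐ[𝒪] Module.End 𝒪 ↥(twe_pr_prim (twe_sm_TY 𝒪 F) a) :=
  Classical.choose (twe_sa_act B hfull hNS F a ha hrel)

theorem twe_smod_psi_tau (ℓ : twe_sm_Idx A S₁) (y : ↥(twe_pr_prim (twe_sm_TY 𝒪 F) a)) :
    ((twe_smod_psi B hfull hNS F a ha hrel (twe_sa_tau B ℓ) y :
      ↥(twe_pr_prim (twe_sm_TY 𝒪 F) a)) : ↥(twe_wl_V 𝒪 𝒪 (twe_GamH M H))) =
      twe_sm_TY 𝒪 F ℓ (y : ↥(twe_wl_V 𝒪 𝒪 (twe_GamH M H))) :=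
  Classical.choose_spec (twe_sa_act B hfull hNS F a ha hrel) ℓ y

attribute [irreducible] twe_smod_psi

variable {Δ : Type*} [Group Δ] (d : Gamma0 M →* Δ) (hd : Function.Surjective d)
  (hdk : ∀ g, d g = 1 ↔ (g : SL(2, ℤ)) ∈ twe_GamH M H)

/-- the Hecke action commutes with the diamonds. -/
theorem twe_smod_comm (x : B.T) (δ : Δ) (y : ↥(twe_pr_prim (twe_sm_TY 𝒪 F) a)) :
    twe_smod_psi B hfull hNS F a ha hrel x (twe_smod_rho d hd hdk F a δ y) =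
      twe_smod_rho d hd hdk F a δ (twe_smod_psi B hfull hNS F a ha hrel x y) := by
  obtain ⟨g, rfl⟩ := hd δ
  have key := twe_sa_equivariant (P := ↥(twe_pr_prim (twe_sm_TY 𝒪 F) a))
    (P' := ↥(twe_pr_prim (twe_sm_TY 𝒪 F) a)) (twe_sa_tau B) (twe_sa_gen B hNS) (AlgHom.id 𝒪 B.T)
    (twe_smod_psi B hfull hNS F a ha hrel) (twe_smod_psi B hfull hNS F a ha hrel)
    (twe_smod_rho d hd hdk F a (d g))
  refine (key ?_ x y).symm
  intro ℓ m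
  apply Subtype.ext
  rw [AlgHom.id_apply]
  rw [twe_smod_rho_coe]
  rw [twe_smod_psi_tau, twe_smod_psi_tau]
  rw [twe_smod_rho_coe]
  exact twe_sa_TY_conj F ℓ g m.1

end psi

section cosets

variable {M : ℕ} {H : Subgroup (ZMod M)ˣ}
  {Δ : Type*} [Group Δ] (d : Gamma0 M →* Δ) (hd : Function.Surjective d)
  (hdk : ∀ g, d g = 1 ↔ (g : SL(2, ℤ)) ∈ twe_GamH M H)

/-- the coset representatives of `Γ_H` in `Γ₀(M)` attached to a presentation `d : Γ₀(M) ↠ Δ`. -/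
def twe_smod_rep : Δ → SL(2, ℤ) := fun δ => ((Function.surjInv hd δ : Gamma0 M) : SL(2, ℤ))

theorem twe_smod_rep_mem (δ : Δ) : twe_smod_rep d hd δ ∈ Gamma0 M :=
  (Function.surjInv hd δ).2

include hdk in
theorem twe_smod_rep_bij :
    ∀ γ ∈ Gamma0 M, ∃! δ : Δ, (twe_smod_rep d hd δ)⁻¹ * γ ∈ twe_GamH M H := by
  intro γ hγ
  have key : ∀ δ : Δ, (twe_smod_rep d hd δ)⁻¹ * γ ∈ twe_GamH M H ↔ δ = d ⟨γ, hγ⟩ := by
    intro δ
    have h1 : (twe_smod_rep d hd δ)⁻¹ * γ =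
        (((Function.surjInv hd δ)⁻¹ * ⟨γ, hγ⟩ : Gamma0 M) : SL(2, ℤ)) := rfl
    rw [h1, ← hdk, map_mul, map_inv, Function.surjInv_eq hd, inv_mul_eq_one]
  exact ⟨d ⟨γ, hγ⟩, (key _).mpr rfl, fun δ hδ => (key δ).mp hδ⟩

end cosets

section free

variable {𝒪 : Type} [CommRing 𝒪] [IsDomain 𝒪] [IsDiscreteValuationRing 𝒪]
  [IsAdicComplete (maximalIdeal 𝒪) 𝒪] [CharZero 𝒪]
  {M : ℕ} [NeZero M] {H : Subgroup (ZMod M)ˣ} {I : Type*} {q : I → ℕ}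
  {Δ : Type} [CommGroup Δ] [Fintype Δ] (d : Gamma0 M →* Δ) (hd : Function.Surjective d)
  (hdk : ∀ g, d g = 1 ↔ (g : SL(2, ℤ)) ∈ twe_GamH M H)

/-- the augmentation submodule of the diamond representation. -/
def twe_smod_aug {𝒪 : Type*} [CommRing 𝒪] {Δ : Type*} [Monoid Δ] {P : Type*} [AddCommGroup P]
    [Module 𝒪 P] (ρ : Representation 𝒪 Δ P) : Submodule 𝒪 P :=
  ⨆ δ : Δ, LinearMap.range ((ρ δ : Module.End 𝒪 P) - (1 : Module.End 𝒪 P))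

theorem twe_smod_aug_eq {𝒪 : Type*} [CommRing 𝒪] {Δ : Type*} [Monoid Δ] {P : Type*}
    [AddCommGroup P] [Module 𝒪 P] (ρ : Representation 𝒪 Δ P) :
    twe_smod_aug ρ = ⨆ δ : Δ, LinearMap.range (ρ δ - 1) := rfl

theorem twe_smod_mem_aug {𝒪 : Type*} [CommRing 𝒪] {Δ : Type*} [Monoid Δ] {P : Type*}
    [AddCommGroup P] [Module 𝒪 P] (ρ : Representation 𝒪 Δ P) (δ : Δ) (u : P) :
    ρ δ u - u ∈ twe_smod_aug ρ := by
  refine Submodule.mem_iSup_of_mem δ ⟨u, ?_⟩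
  rw [LinearMap.sub_apply, Module.End.one_apply]

theorem twe_smod_aug_le {𝒪 : Type*} [CommRing 𝒪] {Δ : Type*} [Monoid Δ] {P : Type*}
    [AddCommGroup P] [Module 𝒪 P] (ρ : Representation 𝒪 Δ P) (W : Submodule 𝒪 P)
    (h : ∀ δ u, ρ δ u - u ∈ W) : twe_smod_aug ρ ≤ W := by
  refine iSup_le fun δ => ?_
  rintro _ ⟨u, rfl⟩
  rw [LinearMap.sub_apply, Module.End.one_apply]
  exact h δ u

/-- generic: the restriction of a transfer map to stable submodules, with its kernel. -/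
theorem twe_smod_cor_abs {𝒪 : Type*} [CommRing 𝒪] {Δ G : Type*} [Monoid Δ]
    {W W0 : Type*} [AddCommGroup W] [Module 𝒪 W] [AddCommGroup W0] [Module 𝒪 W0]
    (P : Submodule 𝒪 W) (P0 : Submodule 𝒪 W0) (corW : W →ₗ[𝒪] W0)
    (hmem : ∀ y ∈ P, corW y ∈ P0) (ρ : Representation 𝒪 Δ ↥P) (d : G → Δ)
    (hd : Function.Surjective d) (conjW : G → W →ₗ[𝒪] W)
    (hρ : ∀ g (y : ↥P), ((ρ (d g) y : ↥P) : W) = conjW g (y : W))
    (hsurj : ∀ y ∈ P0, ∃ z ∈ P, corW z = y)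
    (hker : ∀ z ∈ P, corW z = 0 →
      z ∈ Submodule.span 𝒪 {w | ∃ g : G, ∃ u ∈ P, w = conjW g u - u})
    (hconj : ∀ g z, corW (conjW g z) = corW z) :
    ∃ cor : ↥P →ₗ[𝒪] ↥P0, (∀ y, ((cor y : ↥P0) : W0) = corW (y : W)) ∧
      Function.Surjective cor ∧ LinearMap.ker cor = twe_smod_aug ρ := by
  let cor : ↥P →ₗ[𝒪] ↥P0 := (corW.comp P.subtype).codRestrict P0 (fun y => hmem y.1 y.2)
  have hcor : ∀ y, ((cor y : ↥P0) : W0) = corW (y : W) := fun y => rfl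
  refine ⟨cor, hcor, ?_, ?_⟩
  · intro y
    obtain ⟨z, hz, hzy⟩ := hsurj y.1 y.2
    exact ⟨⟨z, hz⟩, Subtype.ext hzy⟩
  · apply le_antisymm
    · intro z hz
      rw [LinearMap.mem_ker] at hz
      have h0 : corW z.1 = 0 := by
        rw [← hcor, hz]; rfl
      have h1 := hker z.1 z.2 h0
      have h2 : Submodule.span 𝒪 {w | ∃ g : G, ∃ u ∈ P, w = conjW g u - u} ≤
          (twe_smod_aug ρ).map P.subtype := by
        rw [Submodule.span_le]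
        rintro _ ⟨g, u, hu, rfl⟩
        refine ⟨ρ (d g) ⟨u, hu⟩ - ⟨u, hu⟩, twe_smod_mem_aug ρ (d g) ⟨u, hu⟩, ?_⟩
        rw [map_sub, Submodule.subtype_apply, Submodule.subtype_apply, hρ]
      obtain ⟨z', hz', hzz'⟩ := h2 h1
      have : z' = z := Subtype.ext hzz'
      rw [← this]
      exact hz'
    · refine twe_smod_aug_le ρ _ fun δ u => ?_
      obtain ⟨g, rfl⟩ := hd δ
      rw [LinearMap.mem_ker, map_sub, sub_eq_zero]
      apply Subtype.ext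
      rw [hcor, hcor, hρ]
      exact hconj g u.1

/-- **E/Free in the vocabulary of E/Seam**: the orbit basis of `P = prim W(Γ_H, 𝒪)`, and the total
transfer `P → P₀ = prim W(Γ₀(M), 𝒪)`: surjective, kernel the augmentation submodule, equivariant. -/
theorem twe_smod_total (F : twe_sm_Frame M H q) (hinj : Function.Injective q) (a : I → 𝒪)
    (hneg : (-1 : SL(2, ℤ)) ∈ twe_GamH M H)
    (h12 : ∀ u : (ZMod M)ˣ, u ^ (12 * M) = 1 → u ∈ H)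
    {p n : ℕ} (hp : p.Prime) (hp2 : p ≠ 2) (hpO : (p : 𝒪) ∈ maximalIdeal 𝒪)
    (hΔ : ∀ δ : Δ, δ ^ (p ^ n) = 1) (i₀ : I)
    (hne : residue 𝒪 (a i₀) ≠ ((q i₀ + 1 : ℕ) : ResidueField 𝒪)) :
    ∃ (r : ℕ) (v : Fin r → ↥(twe_pr_prim (twe_sm_TY 𝒪 F) a))
      (b : Module.Basis (Δ × Fin r) 𝒪 ↥(twe_pr_prim (twe_sm_TY 𝒪 F) a))
      (cor : ↥(twe_pr_prim (twe_sm_TY 𝒪 F) a) →ₗ[𝒪]
        ↥(twe_pr_prim (twe_br_T0fam (𝒪 := 𝒪) q F.hq F.hM) a)),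
      (∀ δ i, b (δ, i) = twe_smod_rho d hd hdk F a δ (v i)) ∧
      Function.Surjective cor ∧
      LinearMap.ker cor = twe_smod_aug (P := ↥(twe_pr_prim (twe_sm_TY 𝒪 F) a))
        (twe_smod_rho d hd hdk F a) ∧
      (∀ (i : I) (y y' : ↥(twe_pr_prim (twe_sm_TY 𝒪 F) a)),
        (y' : ↥(twe_wl_V 𝒪 𝒪 (twe_GamH M H))) = twe_sm_TY 𝒪 F i y →
        ((cor y' : ↥(twe_pr_prim (twe_br_T0fam (𝒪 := 𝒪) q F.hq F.hM) a)) :
          ↥(twe_wl_V 𝒪 𝒪 (Gamma0 M))) = twe_br_T0fam (𝒪 := 𝒪) q F.hq F.hM i (cor y)) ∧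
      Module.Finite 𝒪 ↥(twe_pr_prim (twe_br_T0fam (𝒪 := 𝒪) q F.hq F.hM) a) ∧
      Module.Free 𝒪 ↥(twe_pr_prim (twe_br_T0fam (𝒪 := 𝒪) q F.hq F.hM) a) ∧
      Module.finrank 𝒪 ↥(twe_pr_prim (twe_br_T0fam (𝒪 := 𝒪) q F.hq F.hM) a) = r := by
  haveI := F.hq
  have main : (∀ i z, twe_wl_cor (twe_smod_rep_mem d hd) (twe_smod_rep_bij d hd hdk)
        (twe_sm_TY 𝒪 F i z) = twe_br_T0fam (𝒪 := 𝒪) q F.hq F.hM i
          (twe_wl_cor (twe_smod_rep_mem d hd) (twe_smod_rep_bij d hd hdk) z)) ∧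
      ∃ (r : ℕ) (v : Fin r → ↥(twe_pr_prim (twe_sm_TY 𝒪 F) a))
        (b : Module.Basis (Δ × Fin r) 𝒪 ↥(twe_pr_prim (twe_sm_TY 𝒪 F) a)),
        (∀ g i, ((b (d g, i) : ↥(twe_pr_prim (twe_sm_TY 𝒪 F) a)) :
          ↥(twe_wl_V 𝒪 𝒪 (twe_GamH M H))) = twe_wl_conj H g (v i).1) ∧
        (∀ y ∈ twe_pr_prim (twe_br_T0fam (𝒪 := 𝒪) q F.hq F.hM) a,
          ∃ z ∈ twe_pr_prim (twe_sm_TY 𝒪 F) a,
            twe_wl_cor (twe_smod_rep_mem d hd) (twe_smod_rep_bij d hd hdk) z = y) ∧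
        (∀ z ∈ twe_pr_prim (twe_sm_TY 𝒪 F) a,
          twe_wl_cor (R := 𝒪) (twe_smod_rep_mem d hd) (twe_smod_rep_bij d hd hdk) z = 0 →
          z ∈ Submodule.span 𝒪 {w | ∃ g : Gamma0 M,
            ∃ u ∈ twe_pr_prim (twe_sm_TY 𝒪 F) a, w = twe_wl_conj H g u - u}) ∧
        Module.Finite 𝒪 ↥(twe_pr_prim (twe_br_T0fam (𝒪 := 𝒪) q F.hq F.hM) a) ∧
        Module.Free 𝒪 ↥(twe_pr_prim (twe_br_T0fam (𝒪 := 𝒪) q F.hq F.hM) a) ∧
        Module.finrank 𝒪 ↥(twe_pr_prim (twe_br_T0fam (𝒪 := 𝒪) q F.hq F.hM) a) = r :=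
    twe_fk_main (𝒪 := 𝒪) H hneg h12 d hd hdk hp hp2 hpO hΔ q F.hM hinj F.s F.hs a i₀ hne
      (twe_smod_rep_mem d hd) (twe_smod_rep_bij d hd hdk)
  obtain ⟨hcorT, r, v, b, hb, hsurj, hker, hfin, hfree, hrank⟩ := main
  obtain ⟨cor, hcor, hcs, hck⟩ := twe_smod_cor_abs (twe_pr_prim (twe_sm_TY 𝒪 F) a)
    (twe_pr_prim (twe_br_T0fam (𝒪 := 𝒪) q F.hq F.hM) a)
    (twe_wl_cor (R := 𝒪) (twe_smod_rep_mem d hd) (twe_smod_rep_bij d hd hdk))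
    (fun y hy => twe_pr_map_prim _ _ _ (fun i z => hcorT i z) a hy)
    (twe_smod_rho d hd hdk F a) d hd (fun g => twe_wl_conj (R := 𝒪) H g)
    (fun g y => twe_smod_rho_coe d hd hdk F a g y) hsurj hker
    (fun g z => twe_fo_cor_conj H (twe_smod_rep_mem d hd) (twe_smod_rep_bij d hd hdk) g z)
  refine ⟨r, v, b, cor, ?_, hcs, hck, ?_, hfin, hfree, hrank⟩
  · intro δ i
    obtain ⟨g, rfl⟩ := hd δ
    apply Subtype.ext
    rw [hb g i, twe_smod_rho_coe]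
  · intro i y y' hy'
    rw [hcor, hy', hcor]
    exact hcorT i y.1

end free

end

end Fermat.Agent.TW
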