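/-
ONE MACHINE / block [E] AUT, E/HeckeIndep (helper24): the fixed-determinant Hecke operator `T'_ℓ` on
`Hom(Γ_H, A)` does NOT depend on the normalisation `s` (`d(s)² ≡ ℓ mod H`) when `(ℤ/M)ˣ / H` has odd
exponent.  Namespace `Fermat.Agent.TW`, prefix `twe_hi_`.

`s̃_x = s_x κ_x` with `κ_x ∈ Γ_H`, so `c̃'_x(γ) = κ_x⁻¹ c'_x(γ) κ_{x ⋆ γ}` and
`∑_x z(κ_{x ⋆ γ}) = ∑_x z(κ_x)`.
-/
import Mathlib
import Fermat.Agent.TW.Aut.SeamDefs

set_option autoImplicit false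
set_option linter.unusedSectionVars false

noncomputable section

open CongruenceSubgroup Matrix.SpecialLinearGroup
open scoped MatrixGroups OnePoint

namespace Fermat.Agent.TW

open Fermat.Agent.JT3 Fermat.Agent.LR

/-- in a commutative group of odd exponent modulo `H`, an element whose square lies in `H` lies
in `H`. -/
theorem twe_hi_mem_of_sq {G : Type*} [CommGroup G] (H : Subgroup G) {m : ℕ} (hm : Odd m)
    (hHm : ∀ u : G, u ^ m ∈ H) (u : G) (hu : u * u ∈ H) : u ∈ H := by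
  obtain ⟨j, rfl⟩ := hm
  have h1 : u = u ^ (2 * j + 1) * ((u * u) ^ j)⁻¹ := by
    rw [← pow_two, ← pow_mul, pow_succ, mul_comm (u ^ (2 * j)) u, mul_assoc, mul_inv_cancel,
      mul_one]
  rw [h1]
  exact mul_mem (hHm u) (inv_mem (pow_mem hu j))

section indep

variable {M ℓ : ℕ} [Fact ℓ.Prime]

/-- `κ_x = s_x⁻¹ s̃_x`. -/
def twe_hi_kappa (s s' : Gamma0 M) (x : OnePoint (ZMod ℓ)) : Gamma0 M :=
  (twe_hk_sx s x)⁻¹ * twe_hk_sx s' x

theorem twe_hi_coc (hℓM : ¬ ℓ ∣ M) (s s' : Gamma0 M) (x : OnePoint (ZMod ℓ)) (g : Gamma0 M) :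
    twe_hk_coc hℓM s' x g =
      (twe_hi_kappa s s' x)⁻¹ * twe_hk_coc hℓM s x g *
        twe_hi_kappa s s' (t2c_act (g : SL(2, ℤ)) x) := by
  unfold twe_hk_coc twe_hi_kappa
  group

theorem twe_hi_dUnit_kappa (hℓM : ¬ ℓ ∣ M) (H : Subgroup (ZMod M)ˣ) (s s' : Gamma0 M)
    (hs : twe_dUnit M s * twe_dUnit M s * (twe_hk_lU hℓM)⁻¹ ∈ H)
    (hs' : twe_dUnit M s' * twe_dUnit M s' * (twe_hk_lU hℓM)⁻¹ ∈ H)
    {m : ℕ} (hm : Odd m) (hHm : ∀ u : (ZMod M)ˣ, u ^ m ∈ H) (x : OnePoint (ZMod ℓ)) :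
    twe_dUnit M (twe_hi_kappa s s' x) ∈ H := by
  have h0 : (twe_dUnit M s)⁻¹ * twe_dUnit M s' ∈ H := by
    refine twe_hi_mem_of_sq H hm hHm _ ?_
    have : (twe_dUnit M s)⁻¹ * twe_dUnit M s' * ((twe_dUnit M s)⁻¹ * twe_dUnit M s') =
        (twe_dUnit M s * twe_dUnit M s * (twe_hk_lU hℓM)⁻¹)⁻¹ *
          (twe_dUnit M s' * twe_dUnit M s' * (twe_hk_lU hℓM)⁻¹) := by
      simp only [mul_inv_rev, inv_inv]
      have hl : twe_hk_lU hℓM * (twe_hk_lU hℓM)⁻¹ = 1 := mul_inv_cancel _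
      calc (twe_dUnit M s)⁻¹ * twe_dUnit M s' * ((twe_dUnit M s)⁻¹ * twe_dUnit M s')
          = (twe_dUnit M s)⁻¹ * (twe_dUnit M s)⁻¹ * (twe_dUnit M s' * twe_dUnit M s') * 1 := by
            rw [mul_one]; simp only [mul_assoc, mul_comm, mul_left_comm]
        _ = _ := by
            rw [← hl]; simp only [mul_assoc, mul_comm, mul_left_comm]
    rw [this]
    exact mul_mem (inv_mem hs) hs'
  unfold twe_hi_kappa
  induction x using OnePoint.rec with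
  | infty =>
    simp only [twe_hk_sx, OnePoint.elim_infty, inv_inv, map_mul, map_inv]
    have : twe_dUnit M s * (twe_dUnit M s')⁻¹ = ((twe_dUnit M s)⁻¹ * twe_dUnit M s')⁻¹ := by
      rw [mul_inv_rev, inv_inv, mul_comm]
    rw [this]
    exact inv_mem h0
  | coe j =>
    simp only [twe_hk_sx, OnePoint.elim_some, map_mul, map_inv]
    exact h0

variable {A : Type*} [AddCommGroup A]

/-- **`T'_ℓ` does not depend on the normalisation `s`.** -/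
theorem twe_hi_hk_T_indep (hℓM : ¬ ℓ ∣ M) (H : Subgroup (ZMod M)ˣ) (s s' : Gamma0 M)
    (hs : twe_dUnit M s * twe_dUnit M s * (twe_hk_lU hℓM)⁻¹ ∈ H)
    (hs' : twe_dUnit M s' * twe_dUnit M s' * (twe_hk_lU hℓM)⁻¹ ∈ H)
    {m : ℕ} (hm : Odd m) (hHm : ∀ u : (ZMod M)ˣ, u ^ m ∈ H)
    (z : Additive ↥(twe_GamH M H) →+ A) :
    twe_hk_T hℓM H s' hs' z = twe_hk_T hℓM H s hs z := by
  refine AddMonoidHom.ext fun γ => ?_
  obtain ⟨γ, rfl⟩ := Additive.ofMul.surjective γ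
  rw [twe_hk_T_apply, twe_hk_T_apply]
  -- the elements `κ_x` of `Γ_H`
  have hK : ∀ x : OnePoint (ZMod ℓ),
      ((twe_hi_kappa s s' x : Gamma0 M) : SL(2, ℤ)) ∈ twe_GamH M H := fun x =>
    twe_mem_GamH.mpr ⟨(twe_hi_kappa s s' x).2, twe_hi_dUnit_kappa hℓM H s s' hs hs' hm hHm x⟩
  let K : OnePoint (ZMod ℓ) → ↥(twe_GamH M H) := fun x => ⟨_, hK x⟩
  have hcoc : ∀ x : OnePoint (ZMod ℓ), (twe_hk_data hℓM H s' hs').coc x γ =
      (K x)⁻¹ * (twe_hk_data hℓM H s hs).coc x γ * K (t2c_act (γ : SL(2, ℤ)) x) := by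
    intro x
    apply Subtype.ext
    rw [Subgroup.coe_mul, Subgroup.coe_mul, Subgroup.coe_inv]
    have h1 := congrArg (fun g : Gamma0 M => (g : SL(2, ℤ)))
      (twe_hi_coc hℓM s s' x (twe_hk_up H γ))
    simp only [Subgroup.coe_mul, Subgroup.coe_inv] at h1
    exact h1
  have hz : ∀ x : OnePoint (ZMod ℓ),
      z (Additive.ofMul ((twe_hk_data hℓM H s' hs').coc x γ)) =
        z (Additive.ofMul ((twe_hk_data hℓM H s hs).coc x γ)) +
          (z (Additive.ofMul (K (t2c_act (γ : SL(2, ℤ)) x))) - z (Additive.ofMul (K x))) := by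
    intro x
    rw [hcoc x, ofMul_mul, ofMul_mul, ofMul_inv, map_add, map_add, map_neg]
    abel
  rw [Finset.sum_congr rfl (fun x _ => hz x), Finset.sum_add_distrib, Finset.sum_sub_distrib]
  have hperm : ∑ x : OnePoint (ZMod ℓ), z (Additive.ofMul (K (t2c_act (γ : SL(2, ℤ)) x))) =
      ∑ x : OnePoint (ZMod ℓ), z (Additive.ofMul (K x)) :=
    Equiv.sum_comp (t2c_perm (γ : SL(2, ℤ))) (fun x => z (Additive.ofMul (K x)))
  rw [hperm, sub_self, add_zero]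

variable {R : Type*} [CommRing R] [Module R A]

/-- the same on `W(Γ_H)`. -/
theorem twe_hi_T_indep (hℓM : ¬ ℓ ∣ M) (H : Subgroup (ZMod M)ˣ) (s s' : Gamma0 M)
    (hs : twe_dUnit M s * twe_dUnit M s * (twe_hk_lU hℓM)⁻¹ ∈ H)
    (hs' : twe_dUnit M s' * twe_dUnit M s' * (twe_hk_lU hℓM)⁻¹ ∈ H)
    {m : ℕ} (hm : Odd m) (hHm : ∀ u : (ZMod M)ˣ, u ^ m ∈ H) :
    twe_wl_T (R := R) (A := A) hℓM H s' hs' = twe_wl_T hℓM H s hs := by
  refine LinearMap.ext fun z => Subtype.ext ?_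
  rw [twe_wl_T_coe, twe_wl_T_coe]
  exact twe_hi_hk_T_indep hℓM H s s' hs hs' hm hHm z.1

end indep

section frames

variable {M : ℕ} {H : Subgroup (ZMod M)ˣ} {I I' : Type*} {q : I → ℕ} {q' : I' → ℕ}

/-- **two Hecke frames give the same operators** at indices with the same prime. -/
theorem twe_hi_TY_indep (𝒪 : Type*) [CommRing 𝒪] (F : twe_sm_Frame M H q)
    (F' : twe_sm_Frame M H q') {m : ℕ} (hm : Odd m) (hHm : ∀ u : (ZMod M)ˣ, u ^ m ∈ H)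
    (i : I) (i' : I') (h : q i = q' i') :
    twe_sm_TY 𝒪 F i = twe_sm_TY 𝒪 F' i' := by
  unfold twe_sm_TY
  have key : ∀ (ℓ ℓ' : ℕ) (hℓ : Fact ℓ.Prime) (hℓ' : Fact ℓ'.Prime) (hM : ¬ ℓ ∣ M)
      (hM' : ¬ ℓ' ∣ M) (s s' : Gamma0 M)
      (hs : twe_dUnit M s * twe_dUnit M s * (@twe_hk_lU M ℓ hℓ hM)⁻¹ ∈ H)
      (hs' : twe_dUnit M s' * twe_dUnit M s' * (@twe_hk_lU M ℓ' hℓ' hM')⁻¹ ∈ H), ℓ = ℓ' →
      @twe_wl_T 𝒪 _ 𝒪 _ _ M ℓ hℓ hM H s hs = @twe_wl_T 𝒪 _ 𝒪 _ _ M ℓ' hℓ' hM' H s' hs' := by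
    intro ℓ ℓ' hℓ hℓ' hM hM' s s' hs hs' hll
    subst hll
    have : hℓ = hℓ' := Subsingleton.elim _ _
    subst this
    exact twe_hi_T_indep hM H s' s hs' hs hm hHm
  exact key _ _ _ _ _ _ _ _ _ _ h

end frames

end Fermat.Agent.TW
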