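/-
Project ONE MACHINE (S43), block [E], cell E/Datum, sub-cells (DT-IOTA) + (DT-REV) (helper6;
statements of helper7 #4816).

* (DT-IOTA) `twe_dl_iotaEquiv N p 𝒪 : 𝒪 ⊗[ℤ_p] T_p J₀(N) ≃ₗ[𝒪] Hom(gh_H N, 𝒪)` for EVERY commutative
  `ℤ_p`-algebra `𝒪`, `c ⊗ x ↦ (y ↦ c * (tjp_lattice x y))`, Hecke equivariant
  (`twe_dl_iotaEquiv_hecke`); `twe_dl_iota` is the statement requested (existential form).
* (DT-REV) `twe_dl_rev` : when the primes of `N` lie in `S` there is a ring homomorphism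
  `π₀ : heckeAlgebra N 2 S → End_{ℤ_p}(T_p J₀(N))` with values in the Hecke algebra
  `ℤ_p[tjp_Tl ℓ]` and `π₀ (T_ℓ) = tjp_Tl N p S ℓ`.

Namespace `Fermat.Agent.TW`, prefix `twe_dl_`.
-/
import Mathlib
import Fermat.Agent.JT3.Tate.Package
import Fermat.Agent.JT3.T2.Dual
import Fermat.Agent.JT3.Pack.LatticeEigen
import Fermat.Agent.TW.Aut.IndepS

set_option autoImplicit false
set_option linter.style.haveILetI false
set_option linter.unusedSectionVars false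
set_option synthInstance.maxHeartbeats 400000
set_option maxHeartbeats 1000000

noncomputable section

namespace Fermat.Agent.TW

open IsLocalRing Fermat.Agent.JT3 Module
open scoped TensorProduct

variable (N p : ℕ) [NeZero N] [Fact p.Prime]

local notation "II" => Fin (2 * finrank ℂ (CuspForm (CongruenceSubgroup.Gamma0 N) 2))

/-! ### (DT-IOTA) -/

section iota

variable (𝒪 : Type*) [CommRing 𝒪] [Algebra ℤ_[p] 𝒪]

/-- **`𝒪 ⊗ T_p J₀(N) ≃ Hom(gh_H N, 𝒪)`**, for every commutative `ℤ_p`-algebra `𝒪`. -/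
def twe_dl_iotaEquiv : 𝒪 ⊗[ℤ_[p]] (tj_T N p) ≃ₗ[𝒪] (gh_H N →+ 𝒪) :=
  ((LinearEquiv.baseChange ℤ_[p] 𝒪 _ _ ((tjp_lattice N p).trans (twe_is_coord N ℤ_[p]))).trans
    (TensorProduct.piScalarRight ℤ_[p] 𝒪 𝒪 II)).trans (twe_is_coord N 𝒪).symm

theorem twe_dl_iotaEquiv_tmul (c : 𝒪) (x : tj_T N p) (y : gh_H N) :
    twe_dl_iotaEquiv N p 𝒪 (c ⊗ₜ[ℤ_[p]] x) y = c * algebraMap ℤ_[p] 𝒪 (tjp_lattice N p x y) := by
  show (twe_is_coord N 𝒪).symm (TensorProduct.piScalarRight ℤ_[p] 𝒪 𝒪 II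
    (LinearEquiv.baseChange ℤ_[p] 𝒪 _ _ ((tjp_lattice N p).trans (twe_is_coord N ℤ_[p]))
      (c ⊗ₜ[ℤ_[p]] x))) y = _
  rw [LinearEquiv.baseChange_tmul, TensorProduct.piScalarRight_apply,
    TensorProduct.piScalarRightHom_tmul, twe_is_coord_symm_apply]
  have h1 : ∀ i : II, ((tjp_lattice N p).trans (twe_is_coord N ℤ_[p])) x i =
      tjp_lattice N p x (twe_is_bH N i) := fun i => rfl
  have h2 : y = ∑ i, (twe_is_bH N).repr y i • twe_is_bH N i :=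
    ((twe_is_bH N).sum_repr y).symm
  conv_rhs => rw [h2]
  rw [map_sum, map_sum, Finset.mul_sum]
  refine Finset.sum_congr rfl fun i _ => ?_
  rw [h1, map_zsmul, zsmul_eq_mul, zsmul_eq_mul, Algebra.smul_def, map_mul, map_intCast]
  ring

/-- Hecke equivariance of `twe_dl_iotaEquiv`. -/
theorem twe_dl_iotaEquiv_hecke (S : Finset ℕ) (ℓ : ℕ) (h : pk_Good N S ℓ)
    (x : 𝒪 ⊗[ℤ_[p]] (tj_T N p)) :
    twe_dl_iotaEquiv N p 𝒪 ((tjp_Tl N p S ℓ).baseChange 𝒪 x) =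
      (twe_dl_iotaEquiv N p 𝒪 x).comp (t2f_TH N ℓ).toAddMonoidHom := by
  induction x using TensorProduct.induction_on with
  | zero => rw [map_zero, map_zero]; rfl
  | tmul c x =>
    refine AddMonoidHom.ext fun y => ?_
    rw [LinearMap.baseChange_tmul, twe_dl_iotaEquiv_tmul, AddMonoidHom.comp_apply,
      twe_dl_iotaEquiv_tmul, tjp_he N p S ℓ h]
    rfl
  | add x y hx hy =>
    rw [map_add, map_add, hx, hy, map_add]
    rfl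

/-- the same in terms of the precomposition operator `twe_is_pre`. -/
theorem twe_dl_iotaEquiv_pre (S : Finset ℕ) (ℓ : ℕ) (h : pk_Good N S ℓ)
    (x : 𝒪 ⊗[ℤ_[p]] (tj_T N p)) :
    twe_dl_iotaEquiv N p 𝒪 ((tjp_Tl N p S ℓ).baseChange 𝒪 x) =
      twe_is_pre N 𝒪 (t2f_TH N ℓ) (twe_dl_iotaEquiv N p 𝒪 x) :=
  twe_dl_iotaEquiv_hecke N p 𝒪 S ℓ h x

end iota

/-- **(DT-IOTA)**, the form requested by E/Datum. -/
theorem twe_dl_iota (S : Finset ℕ) {𝒪 : Type} [CommRing 𝒪] [IsDomain 𝒪] [CharZero 𝒪]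
    [Algebra ℤ_[p] 𝒪] :
    ∃ ι₀ : TensorProduct ℤ_[p] 𝒪 (tj_T N p) →ₗ[𝒪] (gh_H N →+ 𝒪), Function.Injective ι₀ ∧
      ∀ (ℓ : ℕ) (_ : pk_Good N S ℓ) x,
        ι₀ ((tjp_Tl N p S ℓ).baseChange 𝒪 x) = (ι₀ x).comp (t2f_TH N ℓ).toAddMonoidHom :=
  ⟨(twe_dl_iotaEquiv N p 𝒪).toLinearMap, (twe_dl_iotaEquiv N p 𝒪).injective,
    fun ℓ h x => twe_dl_iotaEquiv_hecke N p 𝒪 S ℓ h x⟩

/-! ### (DT-REV) -/

section rev

variable (S : Finset ℕ)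

/-- the integral Hecke algebra on `Hom(gh_H N, ℤ)` -/
abbrev twe_dl_TZ : Subalgebra ℤ (Module.End ℤ (gh_H N →+ ℤ)) :=
  Algebra.adjoin ℤ {T | ∃ ℓ, pk_Good N S ℓ ∧ T = t2d_Ts N ℓ}

/-- when the primes of `N` lie in `S`, the dictionary `θ : ℤ[T*_ℓ] → heckeAlgebra N 2 S` is onto. -/
theorem twe_dl_theta_surjective (hNS : ∀ q : ℕ, q.Prime → q ∣ N → q ∈ S)
    (θ : ↥(twe_dl_TZ N S) →+* ↥(CuspForm.heckeAlgebra N 2 (↑S : Set ℕ)))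
    (hθ : ∀ (ℓ : ℕ) (hℓ : ℓ.Prime) (hℓN : ¬ ℓ ∣ N) (hℓS : ℓ ∉ (↑S : Set ℕ)),
      θ ⟨t2d_Ts N ℓ, Algebra.subset_adjoin ⟨ℓ, ⟨hℓ, hℓN, hℓS⟩, rfl⟩⟩ =
        CuspForm.heckeAlgebra.T hℓ hℓN hℓS) : Function.Surjective θ := by
  have key : ∀ x ∈ CuspForm.heckeAlgebra N 2 (↑S : Set ℕ), ∃ y : ↥(twe_dl_TZ N S),
      ((θ y : ↥(CuspForm.heckeAlgebra N 2 (↑S : Set ℕ))) :
        Module.End ℂ (CuspForm (CongruenceSubgroup.Gamma0 N) 2)) = x := by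
    intro x hx
    induction hx using Algebra.adjoin_induction with
    | mem x hx =>
      rcases hx with ⟨ℓ, hℓ, hℓN, hℓS, rfl⟩ | ⟨q, hqN, hq, hqS, rfl⟩
      · exact ⟨_, congrArg Subtype.val (hθ ℓ hℓ hℓN hℓS)⟩
      · exact absurd (Finset.mem_coe.mpr (hNS q hq hqN)) hqS
    | algebraMap n =>
      refine ⟨(n : ↥(twe_dl_TZ N S)), ?_⟩
      rw [map_intCast θ n, eq_intCast (algebraMap ℤ
        (Module.End ℂ (CuspForm (CongruenceSubgroup.Gamma0 N) 2))) n]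
      rfl
    | add x y _ _ hx hy =>
      obtain ⟨x', rfl⟩ := hx
      obtain ⟨y', rfl⟩ := hy
      exact ⟨x' + y', by rw [map_add]; rfl⟩
    | mul x y _ _ hx hy =>
      obtain ⟨x', rfl⟩ := hx
      obtain ⟨y', rfl⟩ := hy
      exact ⟨x' * y', by rw [map_mul]; rfl⟩
  intro τ
  obtain ⟨y, hy⟩ := key τ.1 τ.2
  exact ⟨y, Subtype.ext hy⟩

/-- **(DT-REV)**: the reverse map `heckeAlgebra N 2 S → ℤ_p[tjp_Tl ℓ] ⊆ End(T_p J₀(N))`. -/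
theorem twe_dl_rev (hNS : ∀ q : ℕ, q.Prime → q ∣ N → q ∈ S) :
    ∃ π₀ : CuspForm.heckeAlgebra N 2 (↑S : Set ℕ) →+* Module.End ℤ_[p] (tj_T N p),
      (∀ τ, π₀ τ ∈ Algebra.adjoin ℤ_[p] (pk_heckeSet N S (tjp_Tl N p S))) ∧
      ∀ (ℓ : ℕ) (hℓ : ℓ.Prime) (hℓN : ¬ ℓ ∣ N) (hℓS : ℓ ∉ (↑S : Set ℕ)),
        π₀ (CuspForm.heckeAlgebra.T hℓ hℓN hℓS) = tjp_Tl N p S ℓ := by
  obtain ⟨θ, hθ, hθinj⟩ := t2d_theta_pk N S
  have hθsurj := twe_dl_theta_surjective N S hNS θ hθ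
  let θe : ↥(twe_dl_TZ N S) ≃+* ↥(CuspForm.heckeAlgebra N 2 (↑S : Set ℕ)) :=
    RingEquiv.ofBijective θ ⟨hθinj, hθsurj⟩
  obtain ⟨n, h, hh⟩ := pkh_exists_frame (gh_H N)
  let cj := LinearEquiv.conjAlgEquiv ℤ_[p] (tjp_lattice N p)
  -- the map on the integral Hecke algebra
  let g : ↥(twe_dl_TZ N S) →+* Module.End ℤ_[p] (tj_T N p) :=
    (cj.symm.toRingEquiv.toRingHom.comp (pkh_Phi p h hh)).comp (twe_dl_TZ N S).val.toRingHom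
  have hg : ∀ y : ↥(twe_dl_TZ N S), g y = cj.symm (pkh_Phi p h hh (y : Module.End ℤ _)) :=
    fun y => rfl
  have hgT : ∀ (ℓ : ℕ) (hℓ : pk_Good N S ℓ),
      cj.symm (pkh_Phi p h hh (t2d_Ts N ℓ)) = tjp_Tl N p S ℓ := by
    intro ℓ hℓ
    rw [AlgEquiv.symm_apply_eq]
    refine pkh_Phi_dual p h hh (t2f_TH N ℓ).toAddMonoidHom _ (fun ψ => rfl) _ (fun ψ => ?_)
    have := twe_is_conj_Tl N p hℓ
    rw [this]
    rfl
  have hgmem : ∀ x ∈ twe_dl_TZ N S, cj.symm (pkh_Phi p h hh x) ∈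
      Algebra.adjoin ℤ_[p] (pk_heckeSet N S (tjp_Tl N p S)) := by
    intro x hx
    induction hx using Algebra.adjoin_induction with
    | mem x hx =>
      obtain ⟨ℓ, hℓ, rfl⟩ := hx
      rw [hgT ℓ hℓ]
      exact Algebra.subset_adjoin ⟨ℓ, hℓ, rfl⟩
    | algebraMap r =>
      have h1 : cj.symm (pkh_Phi p h hh (algebraMap ℤ _ r)) =
          algebraMap ℤ_[p] (Module.End ℤ_[p] (tj_T N p)) (r : ℤ_[p]) := by
        rw [eq_intCast (algebraMap ℤ (Module.End ℤ (gh_H N →+ ℤ))) r, map_intCast,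
          map_intCast, map_intCast]
      rw [h1]
      exact Subalgebra.algebraMap_mem _ _
    | add x y _ _ hx hy =>
      rw [map_add, map_add]
      exact add_mem hx hy
    | mul x y _ _ hx hy =>
      rw [map_mul, map_mul]
      exact mul_mem hx hy
  refine ⟨g.comp θe.symm.toRingHom, fun τ => ?_, fun ℓ hℓ hℓN hℓS => ?_⟩
  · show g (θe.symm τ) ∈ _
    rw [hg]
    exact hgmem _ (θe.symm τ).2
  · show g (θe.symm (CuspForm.heckeAlgebra.T hℓ hℓN hℓS)) = _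
    have h1 : θe.symm (CuspForm.heckeAlgebra.T hℓ hℓN hℓS) =
        ⟨t2d_Ts N ℓ, Algebra.subset_adjoin ⟨ℓ, ⟨hℓ, hℓN, hℓS⟩, rfl⟩⟩ := by
      rw [RingEquiv.symm_apply_eq]
      exact (hθ ℓ hℓ hℓN hℓS).symm
    rw [h1, hg]
    exact hgT ℓ ⟨hℓ, hℓN, hℓS⟩

end rev

end Fermat.Agent.TW
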