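import Mathlib
import Fermat.Agent.TW.Aut.DatumW
import Fermat.Agent.TW.Top.CoreSeam

/-!
# Project ONE MACHINE, block [E], cell E/Datum (helper7): (DT-W2) the residual matching

`D : pk_Tate p N S`, `𝕋₀ = ℤ_p[Tl ℓ] ⊆ End(T_p)`, `φ₀ : 𝕋₀ →+* k` a character into a field killing
`𝔪_{ℤ_p}`, with `φ₀(Tl ℓ) = θ(T_ℓ)`; `ρbar` a residual representation compatible with `θ`
(`twt_Compat θ ρbar`).  Then `φ₀(W g) = tr ρbar(g)` for EVERY `g ∈ G_ℚ`, where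
`W g = ρ(g) + ε(g) ρ(g)⁻¹ ∈ 𝕋₀` is the Hecke-valued trace (`twe_dt_res_trace`).

Namespace `Fermat.Agent.TW`, prefix `twe_dt_`.
-/

set_option autoImplicit false
set_option linter.style.haveILetI false
set_option linter.unusedSectionVars false

namespace Fermat.Agent.TW

open IsLocalRing Fermat.Agent.JT3 Polynomial CuspForm

local notation "GQ" => (AlgebraicClosure ℚ ≃ₐ[ℚ] AlgebraicClosure ℚ)
local notation "Qbar" => AlgebraicClosure ℚ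

section tate

variable {p : ℕ} [Fact p.Prime] {N : ℕ} [NeZero N] {S : Finset ℕ}

/-- **Chebotarev approximation on the Tate side, with an auxiliary field**: every `g` is, modulo
`p ^ m` on the Tate module and on a given finite extension `L₁`, a power of a Frobenius element at
a good prime. -/
theorem twe_dt_w_approx' (D : pk_Tate p N S) (hpS : p ∈ S)
    (hNS : ∀ q : ℕ, q.Prime → q ∣ N → q ∈ S) (L₁ : IntermediateField ℚ Qbar)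
    (hL₁ : FiniteDimensional ℚ L₁) (g : GQ) (m : ℕ) :
    ∃ (ℓ : ℕ) (A : ValuationSubring Qbar) (φ : GQ) (k : ℕ) (δ : GQ),
      pk_Good N S ℓ ∧ A.LiesOverPrime ℓ ∧ A.IsFrobeniusAt φ ℓ ∧ φ ^ k = g * δ ∧
      (∀ x ∈ L₁, δ x = x) ∧
      gcl_Small (maximalIdeal ℤ_[p] ^ m)
        (ur_luc (D.Tl ℓ) ((ℓ : ℤ_[p]) • (1 : Module.End ℤ_[p] D.Tp)) k -
          ur_w D.ρ (cya_eps p ℤ_[p] ur_p_mem) g) := by
  obtain ⟨L₂, hL₂, h2⟩ := D.cont m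
  obtain ⟨L₃, hL₃, h3⟩ := cya_eps_continuous p ℤ_[p] ur_p_mem m
  obtain ⟨L, hLfd, hLn, h1L, h2L, h3L⟩ := ur_exists_normal L₁ L₂ L₃ hL₁ hL₂ hL₃
  haveI := hLfd
  haveI := hLn
  obtain ⟨ℓ, A, φ, k, hℓ, hℓS, hA, hφ, hk⟩ := Fermat.Agent.WC.wc_main L S g
  have hℓN : ¬ ℓ ∣ N := fun h => hℓS (hNS ℓ hℓ h)
  have hℓp : ℓ ≠ p := fun h => hℓS (h ▸ hpS)
  have hℓS' : ℓ ∉ (↑S : Set ℕ) := fun h => hℓS (Finset.mem_coe.mp h)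
  obtain ⟨δ, hgδ, hδL, hδL'⟩ : ∃ δ : GQ, φ ^ k = g * δ ∧ (∀ x ∈ L, δ x = x) ∧
      (∀ x ∈ L, δ⁻¹ x = x) := by
    refine ⟨g⁻¹ * φ ^ k, (mul_inv_cancel_left g (φ ^ k)).symm, ?_, ?_⟩
    · intro x hx
      rw [AlgEquiv.mul_apply, hk x hx]
      show (g⁻¹ * g) x = x
      rw [inv_mul_cancel]
      rfl
    · intro x hx
      rw [mul_inv_rev, inv_inv, AlgEquiv.mul_apply]
      have h5 : g x = (φ ^ k) x := (hk x hx).symm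
      rw [h5]
      show ((φ ^ k)⁻¹ * (φ ^ k)) x = x
      rw [inv_mul_cancel]
      rfl
  have hW1 : ur_w D.ρ (cya_eps p ℤ_[p] ur_p_mem) (φ ^ k) =
      ur_luc (D.Tl ℓ) ((ℓ : ℤ_[p]) • (1 : Module.End ℤ_[p] D.Tp)) k :=
    ur_w_frob_pow D.ρ (cya_eps p ℤ_[p] ur_p_mem) φ (D.Tl ℓ) (ℓ : ℤ_[p])
      (cya_eps_frob p ℤ_[p] ur_p_mem hℓ hℓp A hA φ hφ)
      (D.frob ℓ ⟨hℓ, hℓN, hℓS'⟩ A hA φ hφ) k
  have hW2 : gcl_Small (maximalIdeal ℤ_[p] ^ m)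
      (ur_w D.ρ (cya_eps p ℤ_[p] ur_p_mem) (g * δ) - ur_w D.ρ (cya_eps p ℤ_[p] ur_p_mem) g) := by
    refine ur_w_congr _ D.ρ _ g δ (fun v => ?_) (fun v => ?_) (h3 δ (fun x hx => hδL x (h3L hx)))
    · rw [LinearMap.sub_apply, Module.End.one_apply]
      exact h2 δ (fun x hx => hδL x (h2L hx)) v
    · rw [LinearMap.sub_apply, Module.End.one_apply]
      exact h2 δ⁻¹ (fun x hx => hδL' x (h2L hx)) v
  refine ⟨ℓ, A, φ, k, δ, ⟨hℓ, hℓN, hℓS'⟩, hA, hφ, hgδ, fun x hx => hδL x (h1L hx), ?_⟩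
  rw [← hW1, hgδ]
  exact hW2

/-- **the residual matching**: the reduction of the Hecke-valued trace is the trace of `ρbar`. -/
theorem twe_dt_res_trace (D : pk_Tate p N S) (hpS : p ∈ S)
    (hNS : ∀ q : ℕ, q.Prime → q ∣ N → q ∈ S) {k : Type} [Field k]
    (θ : heckeAlgebra N 2 (↑S : Set ℕ) →+* k) (ρbar : ResidualGaloisRep k)
    (hcompat : twt_Compat θ ρbar)
    (φ₀ : ↥(Algebra.adjoin ℤ_[p] (pk_heckeSet N S D.Tl)) →+* k)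
    (hφ₀p : ∀ a ∈ maximalIdeal ℤ_[p],
      φ₀ (algebraMap ℤ_[p] ↥(Algebra.adjoin ℤ_[p] (pk_heckeSet N S D.Tl)) a) = 0)
    (hφ₀ : ∀ (ℓ : ℕ) (hℓ : ℓ.Prime) (hℓN : ¬ ℓ ∣ N) (hℓS : ℓ ∉ (↑S : Set ℕ)),
      φ₀ ⟨D.Tl ℓ, pk_mem_heckeSet D.Tl hℓ hℓN hℓS⟩ = θ (heckeAlgebra.T hℓ hℓN hℓS))
    (g : GQ) :
    φ₀ ⟨ur_w D.ρ (cya_eps p ℤ_[p] ur_p_mem) g, twe_dt_w_mem D hpS hNS g⟩ =
      LinearMap.trace k ρbar.V (ρbar.ρ g) := by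
  have hbot : maximalIdeal k = ⊥ :=
    (Ideal.eq_bot_or_top _).resolve_right (Ideal.IsMaximal.ne_top inferInstance)
  obtain ⟨m, hm⟩ := ur_ar_transport (Algebra.adjoin ℤ_[p] (pk_heckeSet N S D.Tl)) φ₀
    (fun a ha => by rw [hφ₀p a ha]; exact Ideal.zero_mem _) 1
  obtain ⟨L₁, hL₁, h1⟩ := ρbar.factorsThroughFiniteLevel
  obtain ⟨ℓ, A, φ, j, δ, hℓ, hA, hφ, hgδ, hδ, hsmall⟩ :=
    twe_dt_w_approx' D hpS hNS L₁ hL₁ g m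
  -- the element of the Hecke algebra
  set c : ↥(Algebra.adjoin ℤ_[p] (pk_heckeSet N S D.Tl)) :=
    ur_luc ⟨D.Tl ℓ, pk_mem_heckeSet D.Tl hℓ.1 hℓ.2.1 hℓ.2.2⟩
      ((ℓ : ℕ) : ↥(Algebra.adjoin ℤ_[p] (pk_heckeSet N S D.Tl))) j with hc
  have h5 := ur_luc_map (Algebra.adjoin ℤ_[p] (pk_heckeSet N S D.Tl)).val.toRingHom
    ⟨D.Tl ℓ, pk_mem_heckeSet D.Tl hℓ.1 hℓ.2.1 hℓ.2.2⟩
    ((ℓ : ℕ) : ↥(Algebra.adjoin ℤ_[p] (pk_heckeSet N S D.Tl))) j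
  have h6 : (Algebra.adjoin ℤ_[p] (pk_heckeSet N S D.Tl)).val.toRingHom
      ((ℓ : ℕ) : ↥(Algebra.adjoin ℤ_[p] (pk_heckeSet N S D.Tl))) =
      (ℓ : ℤ_[p]) • (1 : Module.End ℤ_[p] D.Tp) := by
    rw [map_natCast, Nat.cast_smul_eq_nsmul, nsmul_one]
  rw [h6] at h5
  have h7 : ((c : ↥(Algebra.adjoin ℤ_[p] (pk_heckeSet N S D.Tl))) : Module.End ℤ_[p] D.Tp) =
      ur_luc (D.Tl ℓ) ((ℓ : ℤ_[p]) • (1 : Module.End ℤ_[p] D.Tp)) j := h5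
  have h8 : φ₀ (c - ⟨ur_w D.ρ (cya_eps p ℤ_[p] ur_p_mem) g, twe_dt_w_mem D hpS hNS g⟩) = 0 := by
    have h9 := hm (c - ⟨ur_w D.ρ (cya_eps p ℤ_[p] ur_p_mem) g, twe_dt_w_mem D hpS hNS g⟩) (by
      show gcl_Small _ ((c : Module.End ℤ_[p] D.Tp) - ur_w D.ρ (cya_eps p ℤ_[p] ur_p_mem) g)
      rw [h7]
      exact hsmall)
    rw [pow_one, hbot] at h9
    exact h9
  rw [map_sub, sub_eq_zero] at h8
  rw [← h8, hc, ur_luc_map φ₀, hφ₀ ℓ hℓ.1 hℓ.2.1 hℓ.2.2, map_natCast, ur_luc_eq_gcl]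
  -- the `ρbar` side
  have h10 : ρbar.ρ (φ ^ j) = ρbar.ρ g := by
    rw [hgδ, map_mul, h1 δ hδ, mul_one]
  rw [← h10, map_pow]
  exact (ur_lt_trace_pow ρbar.finrank_eq _ _ _ (hcompat ℓ hℓ.1 hℓ.2.1 hℓ.2.2 A hA φ hφ) j).symm

end tate

end Fermat.Agent.TW
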