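/-
Project ONE MACHINE (S43), block [E] AUT, cell (C2) of E/Seam (helper6; statement of helper3,
`TW/Aut/SeamDefs.lean`): **`twe_sm_PrimIndep_stmt`**, the module form of the referee flag (G2).

On `X = Hom(gh_H N, 𝒪)` the `θ`-primary part for the Hecke operators outside a bigger finite set
`S' ⊇ S` is already `θ`-primary for ALL the good operators of `(N, S)`.

Route.  `B' = 𝒪[T_ℓ : ℓ good for S'] ⊆ End_𝒪 X` contains `T_t` for every `t` good for `S`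
(E/IndepS, `twe_is_coeff_mem`).  If the ideal `𝔫' = 𝔪 B' + (T_ℓ - a_ℓ)` is the unit ideal the
primary part is `0`; otherwise `B' ⧸ 𝔫' = k` and the character `φ : B' → k` composed with the
base-change map `ℤ_p[T_ℓ] → B'` matches the trace of `ρbar` on ALL of `G_ℚ`
(`twe_dt_res_trace`, Chebotarev), in particular at a Frobenius element at `t`, where the
Hecke-valued trace is `T_t`: so `T_t - a_t ∈ 𝔫'`, which is topologically nilpotent on the primary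
part.

Namespace `Fermat.Agent.TW`, prefix `twe_piu_` (the UNCONDITIONAL form: `twe_piu_main :
twe_sm_PrimIndep_stmt`, no `(M1)` hypothesis; helper25's `TW/Aut/PrimIndep.lean`, prefix
`twe_pi_`, proves the same conclusion from any base package).
-/
import Mathlib
import Fermat.Agent.TW.Aut.SeamDefs
import Fermat.Agent.TW.Aut.DatumW2
import Fermat.Agent.TW.Aut.DatumLattice
import Fermat.Agent.JT3.Algebra.CycloAdic

set_option autoImplicit false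
set_option linter.unusedSectionVars false
set_option linter.unusedVariables false
set_option linter.style.haveILetI false

noncomputable section

namespace Fermat.Agent.TW

open IsLocalRing Polynomial CuspForm Fermat.Agent.JT3
open scoped TensorProduct

local notation "GQ" => (AlgebraicClosure ℚ ≃ₐ[ℚ] AlgebraicClosure ℚ)
local notation "Qbar" => AlgebraicClosure ℚ

universe u v

/-! ### the abstract statement -/

section abs

variable {𝒪 : Type u} [CommRing 𝒪] [IsLocalRing 𝒪]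
  {B : Type u} [CommRing B] [Algebra 𝒪 B] {L : Type*}
  {X : Type v} [AddCommGroup X] [Module 𝒪 X] [Module B X] [IsScalarTower 𝒪 B X]

/-- the ideal of the `b ∈ B` with `b • x ∈ 𝔪^k X`. -/
def twe_piu_I (𝒪 : Type u) [CommRing 𝒪] [IsLocalRing 𝒪] {B : Type u} [CommRing B] [Algebra 𝒪 B]
    {X : Type v} [AddCommGroup X] [Module 𝒪 X] [Module B X] [IsScalarTower 𝒪 B X]
    (k : ℕ) (x : X) : Ideal B where
  carrier := {b | b • x ∈ (maximalIdeal 𝒪) ^ k • (⊤ : Submodule 𝒪 X)}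
  add_mem' := fun {b c} hb hc => by
    change (b + c) • x ∈ (maximalIdeal 𝒪) ^ k • (⊤ : Submodule 𝒪 X)
    rw [add_smul]
    exact Submodule.add_mem _ hb hc
  zero_mem' := by
    change (0 : B) • x ∈ (maximalIdeal 𝒪) ^ k • (⊤ : Submodule 𝒪 X)
    rw [zero_smul]
    exact Submodule.zero_mem _
  smul_mem' := fun c b hb => by
    change (c * b) • x ∈ (maximalIdeal 𝒪) ^ k • (⊤ : Submodule 𝒪 X)
    rw [mul_smul]
    exact twe_pr_map_mem _ (Algebra.lsmul 𝒪 𝒪 X c) hb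

theorem twe_piu_mem_I {k : ℕ} {x : X} {b : B} :
    b ∈ twe_piu_I 𝒪 k x ↔ b • x ∈ (maximalIdeal 𝒪) ^ k • (⊤ : Submodule 𝒪 X) := Iff.rfl

/-- the ideal of the eigen-system is topologically nilpotent on the primary part. -/
theorem twe_piu_n_le_radical (τ : L → B) (a : L → 𝒪) {x : X}
    (hx : x ∈ twe_pr_prim (twe_pr_op 𝒪 X τ) a) (k : ℕ) :
    twe_lam_n τ a ≤ (twe_piu_I 𝒪 k x).radical := by
  refine sup_le ?_ ?_
  · intro j hj
    refine ⟨k, ?_⟩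
    rw [twe_piu_mem_I]
    apply twe_pr_smul_mem
    rw [Ideal.map_pow]
    exact Ideal.pow_mem_pow hj k
  · rw [Ideal.span_le]
    rintro _ ⟨ℓ, rfl⟩
    obtain ⟨n, hn⟩ := hx ℓ k
    rw [twe_pr_op_pow] at hn
    exact ⟨n, hn⟩

/-- **the character of a proper eigen-ideal**: if `B` is generated by the `τ ℓ` and
`𝔫 = 𝔪 B + (τ ℓ - a ℓ)` is proper, then `B ⧸ 𝔫 = k`. -/
theorem twe_piu_exists_char (τ : L → B) (a : L → 𝒪)
    (hgen : Algebra.adjoin 𝒪 (Set.range τ) = ⊤) (hne : twe_lam_n τ a ≠ ⊤) :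
    ∃ φ : B →+* ResidueField 𝒪, (∀ r, φ (algebraMap 𝒪 B r) = residue 𝒪 r) ∧
      ∀ b, φ b = 0 ↔ b ∈ twe_lam_n τ a := by
  set 𝔫 := twe_lam_n τ a with h𝔫
  set f : 𝒪 →+* B ⧸ 𝔫 := (Ideal.Quotient.mk 𝔫).comp (algebraMap 𝒪 B) with hf
  have hsurj : Function.Surjective f := by
    intro y
    obtain ⟨b, rfl⟩ := Ideal.Quotient.mk_surjective y
    obtain ⟨c, hc⟩ := twe_lam_exists_const τ a hgen b
    refine ⟨c, ?_⟩
    rw [hf, RingHom.comp_apply]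
    symm
    rw [Ideal.Quotient.eq]
    exact Ideal.mem_sup_right hc
  have hker : RingHom.ker f = maximalIdeal 𝒪 := by
    symm
    apply (maximalIdeal.isMaximal 𝒪).eq_of_le
    · intro htop
      apply hne
      rw [Ideal.eq_top_iff_one]
      have h1 : (1 : 𝒪) ∈ RingHom.ker f := by rw [htop]; exact Submodule.mem_top
      rw [RingHom.mem_ker, map_one] at h1
      have h2 := (Ideal.Quotient.eq_zero_iff_mem (I := 𝔫) (a := (1 : B))).mp (by rw [map_one]; exact h1)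
      exact h2
    · intro r hr
      rw [RingHom.mem_ker, hf, RingHom.comp_apply, Ideal.Quotient.eq_zero_iff_mem]
      exact twe_lam_J_le_n τ a (Ideal.mem_map_of_mem _ hr)
  let E : ResidueField 𝒪 ≃+* B ⧸ 𝔫 :=
    (Ideal.quotEquivOfEq hker.symm).trans (RingHom.quotientKerEquivOfSurjective hsurj)
  have hE : ∀ r : 𝒪, E (residue 𝒪 r) = f r := by
    intro r
    show (RingHom.quotientKerEquivOfSurjective hsurj) ((Ideal.quotEquivOfEq hker.symm)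
      (Ideal.Quotient.mk _ r)) = f r
    rw [Ideal.quotEquivOfEq_mk]
    rfl
  refine ⟨E.symm.toRingHom.comp (Ideal.Quotient.mk 𝔫), fun r => ?_, fun b => ?_⟩
  · show E.symm (Ideal.Quotient.mk 𝔫 (algebraMap 𝒪 B r)) = residue 𝒪 r
    rw [RingEquiv.symm_apply_eq, hE]
    rfl
  · show E.symm (Ideal.Quotient.mk 𝔫 b) = 0 ↔ _
    rw [RingEquiv.symm_apply_eq, map_zero, Ideal.Quotient.eq_zero_iff_mem]

/-- **abstract (PrimIndep)**: an element `b` of `B = 𝒪[τ ℓ]` whose value under EVERY character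
`φ : B → k` of the eigen-system `a` is `c mod 𝔪` has `b - c` topologically nilpotent on the
primary part. -/
theorem twe_piu_abs (τ : L → B) (a : L → 𝒪) (hgen : Algebra.adjoin 𝒪 (Set.range τ) = ⊤)
    (b : B) (c : 𝒪)
    (h : ∀ φ : B →+* ResidueField 𝒪, (∀ r, φ (algebraMap 𝒪 B r) = residue 𝒪 r) →
      (∀ ℓ, φ (τ ℓ) = residue 𝒪 (a ℓ)) → φ b = residue 𝒪 c)
    {x : X} (hx : x ∈ twe_pr_prim (twe_pr_op 𝒪 X τ) a) (k : ℕ) :
    ∃ n, (b - algebraMap 𝒪 B c) ^ n • x ∈ (maximalIdeal 𝒪) ^ k • (⊤ : Submodule 𝒪 X) := by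
  have hle := twe_piu_n_le_radical τ a hx k
  by_cases hne : twe_lam_n τ a = ⊤
  · have h1 : (1 : B) ∈ (twe_piu_I 𝒪 k x).radical := hle (by rw [hne]; exact Submodule.mem_top)
    obtain ⟨m, hm⟩ := h1
    rw [one_pow, twe_piu_mem_I, one_smul] at hm
    exact ⟨0, by rw [pow_zero, one_smul]; exact hm⟩
  · obtain ⟨φ, hφ1, hφ2⟩ := twe_piu_exists_char τ a hgen hne
    have hτ : ∀ ℓ, φ (τ ℓ) = residue 𝒪 (a ℓ) := by
      intro ℓ
      have h1 := (hφ2 _).mpr (twe_lam_gen_mem_n τ a ℓ)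
      rw [map_sub, hφ1, sub_eq_zero] at h1
      exact h1
    have h2 : b - algebraMap 𝒪 B c ∈ twe_lam_n τ a := by
      rw [← hφ2, map_sub, hφ1, h φ hφ1 hτ, sub_self]
    obtain ⟨n, hn⟩ := hle h2
    exact ⟨n, hn⟩

end abs

/-! ### the `End` form -/

section endform

variable {𝒪 : Type u} [CommRing 𝒪] [IsLocalRing 𝒪]
  {X : Type u} [AddCommGroup X] [Module 𝒪 X] {L : Type*}

/-- **abstract (PrimIndep), `End` form**: `T : L → End_𝒪 X` a commuting family, `t` in the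
`𝒪`-algebra `B` generated by the `T ℓ`; if every character `φ : B → k` of the eigen-system `a`
sends `t` to `c mod 𝔪`, then `t - c` is topologically nilpotent on `twe_pr_prim T a`. -/
theorem twe_piu_abs_end (T : L → Module.End 𝒪 X) (hcomm : ∀ ℓ ℓ', Commute (T ℓ) (T ℓ'))
    (a : L → 𝒪) (t : Module.End 𝒪 X) (ht : t ∈ Algebra.adjoin 𝒪 (Set.range T)) (c : 𝒪)
    (h : ∀ φ : ↥(Algebra.adjoin 𝒪 (Set.range T)) →+* ResidueField 𝒪,
      (∀ r, φ (algebraMap 𝒪 ↥(Algebra.adjoin 𝒪 (Set.range T)) r) = residue 𝒪 r) →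
      (∀ ℓ, φ ⟨T ℓ, Algebra.subset_adjoin ⟨ℓ, rfl⟩⟩ = residue 𝒪 (a ℓ)) →
      φ ⟨t, ht⟩ = residue 𝒪 c)
    {x : X} (hx : x ∈ twe_pr_prim T a) (k : ℕ) :
    ∃ n, ((t - c • (1 : Module.End 𝒪 X)) ^ n) x ∈
      (maximalIdeal 𝒪) ^ k • (⊤ : Submodule 𝒪 X) := by
  have hc : ∀ a ∈ Set.range T, ∀ b ∈ Set.range T, a * b = b * a := by
    rintro _ ⟨ℓ, rfl⟩ _ ⟨ℓ', rfl⟩
    exact hcomm ℓ ℓ'
  have hmc := Algebra.isMulCommutative_adjoin 𝒪 hc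
  letI : CommRing (Algebra.adjoin 𝒪 (Set.range T)) := @IsMulCommutative.instCommRing _ _ hmc
  let τ : L → Algebra.adjoin 𝒪 (Set.range T) := fun ℓ => ⟨T ℓ, Algebra.subset_adjoin ⟨ℓ, rfl⟩⟩
  have hop : twe_pr_op 𝒪 X τ = T := by
    funext ℓ
    exact LinearMap.ext fun x => rfl
  have hgen : Algebra.adjoin 𝒪 (Set.range τ) = ⊤ := by
    have h1 : Set.range τ = ((↑) ⁻¹' (Set.range T) : Set (Algebra.adjoin 𝒪 (Set.range T))) := by
      ext y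
      constructor
      · rintro ⟨ℓ, rfl⟩
        exact ⟨ℓ, rfl⟩
      · rintro ⟨ℓ, hℓ⟩
        exact ⟨ℓ, Subtype.ext hℓ⟩
    rw [h1]
    exact Algebra.adjoin_adjoin_coe_preimage
  have hx' : x ∈ twe_pr_prim (twe_pr_op 𝒪 X τ) a := by rw [hop]; exact hx
  obtain ⟨n, hn⟩ := twe_piu_abs (X := X) τ a hgen ⟨t, ht⟩ c (fun φ h1 h2 => h φ h1 h2) hx' k
  refine ⟨n, ?_⟩
  have h3 : ((t - c • (1 : Module.End 𝒪 X)) ^ n) x =
      ((⟨t, ht⟩ : Algebra.adjoin 𝒪 (Set.range T)) -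
        algebraMap 𝒪 (Algebra.adjoin 𝒪 (Set.range T)) c) ^ n • x := by
    have h4 : t - c • (1 : Module.End 𝒪 X) =
        (((⟨t, ht⟩ : Algebra.adjoin 𝒪 (Set.range T)) -
          algebraMap 𝒪 (Algebra.adjoin 𝒪 (Set.range T)) c :
            Algebra.adjoin 𝒪 (Set.range T)) : Module.End 𝒪 X) := by
      rw [Algebra.algebraMap_eq_smul_one]
      rfl
    rw [h4, ← SubmonoidClass.coe_pow]
    rfl
  rw [h3]
  exact hn

end endform

/-! ### the base-change map `End_{ℤ_p}(T_p J₀(N)) → End_𝒪 (Hom(gh_H N, 𝒪))` -/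

section Psi

variable (N p : ℕ) [NeZero N] [Fact p.Prime] (𝒪 : Type*) [CommRing 𝒪] [Algebra ℤ_[p] 𝒪]

/-- base change to `𝒪` followed by conjugation with `𝒪 ⊗ T_p J₀(N) ≃ Hom(gh_H N, 𝒪)`. -/
def twe_piu_Psi : Module.End ℤ_[p] (tj_T N p) →+* Module.End 𝒪 (gh_H N →+ 𝒪) :=
  ((twe_dl_iotaEquiv N p 𝒪).conjAlgEquiv 𝒪).toAlgHom.toRingHom.comp
    (Module.End.baseChangeHom ℤ_[p] 𝒪 (tj_T N p)).toRingHom

theorem twe_piu_Psi_apply (f : Module.End ℤ_[p] (tj_T N p)) (ψ : gh_H N →+ 𝒪) :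
    twe_piu_Psi N p 𝒪 f ψ =
      twe_dl_iotaEquiv N p 𝒪 (f.baseChange 𝒪 ((twe_dl_iotaEquiv N p 𝒪).symm ψ)) := by
  show ((twe_dl_iotaEquiv N p 𝒪).conjAlgEquiv 𝒪) (f.baseChange 𝒪) ψ = _
  rw [LinearEquiv.conjAlgEquiv_apply_apply]

/-- `Ψ (T_ℓ) = (ψ ↦ ψ ∘ T_ℓ)` at the good primes. -/
theorem twe_piu_Psi_Tl {S : Finset ℕ} {ℓ : ℕ} (h : pk_Good N S ℓ) :
    twe_piu_Psi N p 𝒪 (tjp_Tl N p S ℓ) = twe_is_pre N 𝒪 (t2f_TH N ℓ) := by
  refine LinearMap.ext fun ψ => ?_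
  rw [twe_piu_Psi_apply, twe_dl_iotaEquiv_pre N p 𝒪 S ℓ h, LinearEquiv.apply_symm_apply]

/-- `Ψ` on scalars. -/
theorem twe_piu_Psi_algebraMap (r : ℤ_[p]) :
    twe_piu_Psi N p 𝒪 (algebraMap ℤ_[p] (Module.End ℤ_[p] (tj_T N p)) r) =
      algebraMap 𝒪 (Module.End 𝒪 (gh_H N →+ 𝒪)) (algebraMap ℤ_[p] 𝒪 r) := by
  refine LinearMap.ext fun ψ => ?_
  rw [twe_piu_Psi_apply, Module.algebraMap_end_apply]
  have h1 : (algebraMap ℤ_[p] (Module.End ℤ_[p] (tj_T N p)) r).baseChange 𝒪 =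
      algebraMap ℤ_[p] 𝒪 r • (1 : Module.End 𝒪 (𝒪 ⊗[ℤ_[p]] tj_T N p)) := by
    refine TensorProduct.AlgebraTensorModule.curry_injective ?_
    refine LinearMap.ext fun c => LinearMap.ext fun y => ?_
    show (algebraMap ℤ_[p] (Module.End ℤ_[p] (tj_T N p)) r).baseChange 𝒪 (c ⊗ₜ[ℤ_[p]] y) =
      (algebraMap ℤ_[p] 𝒪 r • (1 : Module.End 𝒪 (𝒪 ⊗[ℤ_[p]] tj_T N p))) (c ⊗ₜ[ℤ_[p]] y)
    rw [LinearMap.baseChange_tmul, Module.algebraMap_end_apply, LinearMap.smul_apply,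
      Module.End.one_apply, TensorProduct.tmul_smul, algebraMap_smul]
  rw [h1, LinearMap.smul_apply, Module.End.one_apply, map_smul, LinearEquiv.apply_symm_apply]

/-- `Ψ` maps the `ℤ_p`-Hecke algebra away from `S'` into the `𝒪`-algebra generated by the
`ψ ↦ ψ ∘ T_ℓ`, `ℓ` good for `S'`. -/
theorem twe_piu_Psi_mem (S' : Finset ℕ) {f : Module.End ℤ_[p] (tj_T N p)}
    (hf : f ∈ Algebra.adjoin ℤ_[p] (pk_heckeSet N S' (tjp_Tl N p S'))) :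
    twe_piu_Psi N p 𝒪 f ∈ Algebra.adjoin 𝒪 (twe_is_latSet N 𝒪 S') := by
  induction hf using Algebra.adjoin_induction with
  | mem x hx =>
    obtain ⟨ℓ, hℓ, rfl⟩ := hx
    rw [twe_piu_Psi_Tl N p 𝒪 hℓ]
    exact Algebra.subset_adjoin ⟨ℓ, hℓ, rfl⟩
  | algebraMap r =>
    rw [twe_piu_Psi_algebraMap]
    exact Subalgebra.algebraMap_mem _ _
  | add x y _ _ hx hy =>
    rw [map_add]
    exact add_mem hx hy
  | mul x y _ _ hx hy =>
    rw [map_mul]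
    exact mul_mem hx hy

end Psi

/-! ### the main theorem -/

section main

/-- the operators `ψ ↦ ψ ∘ T_ℓ` commute on `Hom(gh_H N, A)`, `A` torsion-free. -/
theorem twe_piu_pre_comm (N : ℕ) [NeZero N] (A : Type*) [CommRing A] [NoZeroSMulDivisors ℕ A]
    (ℓ ℓ' : ℕ) :
    Commute (twe_is_pre N A (t2f_TH N ℓ)) (twe_is_pre N A (t2f_TH N ℓ')) := by
  refine LinearMap.ext fun ψ => ?_
  exact t2f_comm ℓ' ℓ ψ

/-- the restriction of an eigen-system to a smaller Hecke algebra. -/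
theorem twe_piu_hecke_le (N : ℕ) [NeZero N] {S S' : Finset ℕ} (hSS' : S ⊆ S') :
    heckeAlgebra N 2 (↑S' : Set ℕ) ≤ heckeAlgebra N 2 (↑S : Set ℕ) := by
  refine Algebra.adjoin_mono ?_
  rintro T (⟨ℓ, hℓ, hℓN, hℓS, rfl⟩ | ⟨q, hqN, hq, hqS, rfl⟩)
  · exact Or.inl ⟨ℓ, hℓ, hℓN, fun h => hℓS (Finset.coe_subset.mpr hSS' h), rfl⟩
  · exact Or.inr ⟨q, hqN, hq, fun h => hqS (Finset.coe_subset.mpr hSS' h), rfl⟩

set_option maxHeartbeats 1000000 in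
/-- **(PrimIndep), general form**: only `twt_Compat θ ρbar` is used (no irreducibility, no
`5 ≤ p`, no `p ∤ N`, no finiteness of the residue field). -/
theorem twe_piu_main_gen (p : ℕ) [Fact p.Prime]
    (𝒪 : Type) [CommRing 𝒪] [IsDomain 𝒪] [IsDiscreteValuationRing 𝒪]
    [IsAdicComplete (maximalIdeal 𝒪) 𝒪] [CharZero 𝒪] (hp𝒪 : (p : 𝒪) ∈ maximalIdeal 𝒪)
    (N : ℕ) [NeZero N] (S : Finset ℕ) (hpS : p ∈ S)
    (hNS : ∀ ℓ : ℕ, ℓ.Prime → ℓ ∣ N → ℓ ∈ S)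
    (θ : heckeAlgebra N 2 (↑S : Set ℕ) →+* ResidueField 𝒪)
    (ρbar : ResidualGaloisRep (ResidueField 𝒪)) (hcompat : twt_Compat θ ρbar)
    (S' : Finset ℕ) (hSS' : S ⊆ S') (a : twe_sm_Idx N S → 𝒪) (ha : twe_sm_IsLift θ a) :
    twe_pr_prim (twe_sm_TX 𝒪 N (twe_sm_q N S'))
        (fun ℓ => a ⟨ℓ.1, ℓ.2.1, ℓ.2.2.1, fun h => ℓ.2.2.2 (Finset.coe_subset.mpr hSS' h)⟩) ≤
      twe_pr_prim (twe_sm_TX 𝒪 N (twe_sm_q N S)) a := by
  classical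
  letI : Algebra ℤ_[p] 𝒪 := (cya_padicHom p 𝒪 hp𝒪).toAlgebra
  have hpS' : p ∈ S' := hSS' hpS
  have hNS' : ∀ q : ℕ, q.Prime → q ∣ N → q ∈ S' := fun q hq hqN => hSS' (hNS q hq hqN)
  intro x hx t k
  set T' : twe_sm_Idx N S' → Module.End 𝒪 (gh_H N →+ 𝒪) := twe_sm_TX 𝒪 N (twe_sm_q N S') with hT'
  have hcomm : ∀ ℓ ℓ', Commute (T' ℓ) (T' ℓ') := fun ℓ ℓ' => twe_piu_pre_comm N 𝒪 _ _
  have hrange : Set.range T' = twe_is_latSet N 𝒪 S' := by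
    ext y
    constructor
    · rintro ⟨ℓ, rfl⟩
      exact ⟨ℓ.1, ℓ.2, rfl⟩
    · rintro ⟨ℓ, hℓ, rfl⟩
      exact ⟨⟨ℓ, hℓ⟩, rfl⟩
  have hmem : twe_sm_TX 𝒪 N (twe_sm_q N S) t ∈ Algebra.adjoin 𝒪 (Set.range T') := by
    rw [hrange]
    exact twe_is_coeff_mem N p 𝒪 hSS' hpS hNS t.2
  refine twe_piu_abs_end T' hcomm _ _ hmem (a t) (fun φ h1 h2 => ?_) hx k
  -- the Galois part: the Tate package away from `S'`, the restricted eigen-system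
  set D' : pk_Tate p N S' := tjp_tate N p S' hpS' (tji_nodeE N) (tji_S18 N) with hD'
  let θ' : heckeAlgebra N 2 (↑S' : Set ℕ) →+* ResidueField 𝒪 :=
    θ.comp (Subalgebra.inclusion (twe_piu_hecke_le N hSS')).toRingHom
  have hθ' : ∀ (ℓ : ℕ) (hℓ : ℓ.Prime) (hℓN : ¬ ℓ ∣ N) (hℓS' : ℓ ∉ (↑S' : Set ℕ)),
      θ' (heckeAlgebra.T hℓ hℓN hℓS') =
        θ (heckeAlgebra.T hℓ hℓN (fun h => hℓS' (Finset.coe_subset.mpr hSS' h))) :=
    fun _ _ _ _ => rfl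
  have hcompat' : twt_Compat θ' ρbar := by
    intro ℓ hℓ hℓN hℓS' A hA σ hσ
    rw [hθ']
    exact hcompat ℓ hℓ hℓN _ A hA σ hσ
  -- the ring homomorphism `ℤ_p[T_ℓ] → B'`
  have hβmem : ∀ y : ↥(Algebra.adjoin ℤ_[p] (pk_heckeSet N S' (tjp_Tl N p S'))),
      twe_piu_Psi N p 𝒪 y.1 ∈ Algebra.adjoin 𝒪 (Set.range T') := by
    intro y
    rw [hrange]
    exact twe_piu_Psi_mem N p 𝒪 S' y.2
  let β : ↥(Algebra.adjoin ℤ_[p] (pk_heckeSet N S' (tjp_Tl N p S'))) →+*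
      ↥(Algebra.adjoin 𝒪 (Set.range T')) :=
    { toFun := fun y => ⟨twe_piu_Psi N p 𝒪 y.1, hβmem y⟩
      map_one' := Subtype.ext (map_one _)
      map_mul' := fun y z => Subtype.ext (map_mul _ _ _)
      map_zero' := Subtype.ext (map_zero _)
      map_add' := fun y z => Subtype.ext (map_add _ _ _) }
  have hβ : ∀ y, ((β y : ↥(Algebra.adjoin 𝒪 (Set.range T'))) : Module.End 𝒪 (gh_H N →+ 𝒪)) =
      twe_piu_Psi N p 𝒪 y.1 := fun _ => rfl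
  set φ₀ : ↥(Algebra.adjoin ℤ_[p] (pk_heckeSet N S' (tjp_Tl N p S'))) →+* ResidueField 𝒪 :=
    φ.comp β with hφ₀def
  have hφ₀p : ∀ r ∈ maximalIdeal ℤ_[p], φ₀ (algebraMap ℤ_[p]
      ↥(Algebra.adjoin ℤ_[p] (pk_heckeSet N S' (tjp_Tl N p S'))) r) = 0 := by
    intro r hr
    have h3 : β (algebraMap ℤ_[p]
        ↥(Algebra.adjoin ℤ_[p] (pk_heckeSet N S' (tjp_Tl N p S'))) r) =
        algebraMap 𝒪 ↥(Algebra.adjoin 𝒪 (Set.range T')) (algebraMap ℤ_[p] 𝒪 r) := by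
      apply Subtype.ext
      rw [hβ]
      exact twe_piu_Psi_algebraMap N p 𝒪 r
    rw [hφ₀def, RingHom.comp_apply, h3, h1, residue_eq_zero_iff]
    rw [PadicInt.maximalIdeal_eq_span_p, Ideal.mem_span_singleton'] at hr
    obtain ⟨r', rfl⟩ := hr
    rw [map_mul, map_natCast]
    exact Ideal.mul_mem_left _ _ hp𝒪
  have hφ₀ : ∀ (ℓ : ℕ) (hℓ : ℓ.Prime) (hℓN : ¬ ℓ ∣ N) (hℓS' : ℓ ∉ (↑S' : Set ℕ)),
      φ₀ ⟨D'.Tl ℓ, pk_mem_heckeSet D'.Tl hℓ hℓN hℓS'⟩ = θ' (heckeAlgebra.T hℓ hℓN hℓS') := by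
    intro ℓ hℓ hℓN hℓS'
    have h4 := h2 ⟨ℓ, hℓ, hℓN, hℓS'⟩
    have h5 : β ⟨D'.Tl ℓ, pk_mem_heckeSet D'.Tl hℓ hℓN hℓS'⟩ =
        ⟨T' ⟨ℓ, hℓ, hℓN, hℓS'⟩, Algebra.subset_adjoin ⟨⟨ℓ, hℓ, hℓN, hℓS'⟩, rfl⟩⟩ := by
      apply Subtype.ext
      rw [hβ]
      exact twe_piu_Psi_Tl N p 𝒪 (S := S') ⟨hℓ, hℓN, hℓS'⟩
    rw [hφ₀def, RingHom.comp_apply, h5, h4, hθ']
    exact ha ⟨ℓ, hℓ, hℓN, fun h => hℓS' (Finset.coe_subset.mpr hSS' h)⟩
  -- a Frobenius element at `t`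
  obtain ⟨A, σ, hA, hσ⟩ := Fermat.Agent.S54.exists_isFrobeniusAt t.2.1
  have key := twe_dt_res_trace D' hpS' hNS' θ' ρbar hcompat' φ₀ hφ₀p hφ₀ σ
  have hw : ur_w D'.ρ (cya_eps p ℤ_[p] ur_p_mem) σ = tjp_Tl N p S t.1 :=
    twe_dt_w_frob (tjp_tate N p S hpS (tji_nodeE N) (tji_S18 N)) hpS t.2 A hA σ hσ
  have htr : LinearMap.trace (ResidueField 𝒪) ρbar.V (ρbar.ρ σ) =
      θ (heckeAlgebra.T t.2.1 t.2.2.1 t.2.2.2) :=
    ur_lt_trace_eq ρbar.finrank_eq _ _ _ (hcompat t.1 t.2.1 t.2.2.1 t.2.2.2 A hA σ hσ)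
  rw [ha t, ← htr, ← key]
  show φ ⟨twe_sm_TX 𝒪 N (twe_sm_q N S) t, hmem⟩ =
    φ (β ⟨ur_w D'.ρ (cya_eps p ℤ_[p] ur_p_mem) σ, twe_dt_w_mem D' hpS' hNS' σ⟩)
  congr 1
  apply Subtype.ext
  rw [hβ]
  exact ((congrArg (twe_piu_Psi N p 𝒪) hw).trans (twe_piu_Psi_Tl N p 𝒪 t.2)).symm

/-- **(PrimIndep)**: helper3's cell statement (C2) of `TW/Aut/SeamDefs.lean`. -/
theorem twe_piu_main : twe_sm_PrimIndep_stmt := by
  intro p _ hp5 𝒪 _ _ _ _ _ _ hp𝒪 N _ hpN S hpS hNS θ ρbar hcompat hirr S' hSS' a ha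
  exact twe_piu_main_gen p 𝒪 hp𝒪 N S hpS hNS θ ρbar hcompat S' hSS' a ha

end main

end Fermat.Agent.TW
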