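/-
ONE MACHINE / block [E] AUT, cell E/Free OVER `𝒪`, RELATIVE form (helper22).
Namespace `Fermat.Agent.TW`, prefix `twe_for_`.  Imports `TW/Aut/{FreeO, CorTrans}`.

`H'' ≤ H' ≤ (ℤ/M)ˣ`, `Γ'' = Γ_{H''} ≤ Γ' = Γ_{H'} ≤ Γ₀(M)`, both of `p`-power index in `Γ₀(M)`.
`X'' = W(Γ'', 𝒪)`, `X' = W(Γ', 𝒪)`, `P'' = prim X''`, `P' = prim X'`, `cor₂ : X'' → X'` the transfer.

`twe_for_main`: from the `k`-level inputs at BOTH levels (`twe_fo_KInput`, for `H'` and for `H''`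
with the composite coset representatives), `cor₂` commutes with the Hecke operators and with the
diamonds of `Γ₀(M)`, maps `P''` ONTO `P'`, and its kernel on `P''` is spanned by the
`⟨g⟩ u - u`, `g ∈ Γ'`, `u ∈ P''`.  (= `c1_surjective`, `c1_ker`, `c1_hecke`, `c1_diamond` of
`twe_Big`, and the same for the one-prime descent of `OldAt`.)
-/
import Mathlib
import Fermat.Agent.TW.Aut.FreeO
import Fermat.Agent.TW.Aut.CorTrans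

set_option autoImplicit false
set_option linter.unusedSectionVars false
set_option linter.unusedVariables false
set_option linter.style.haveILetI false

noncomputable section

open scoped MatrixGroups
open Matrix.SpecialLinearGroup CongruenceSubgroup

namespace Fermat.Agent.TW

open IsLocalRing Module Fermat.Agent.JT3 Fermat.Agent.LR

/-! ### A. a group is (as a set) the product of a kernel and the image -/

/-- `G ≃ ker φ × G'` for a surjective homomorphism `φ` (through a set-theoretic section). -/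
def twe_for_split {G G' : Type*} [Group G] [Group G'] (φ : G →* G')
    (hφ : Function.Surjective φ) : G ≃ ↥φ.ker × G' where
  toFun δ := (⟨δ * (Function.surjInv hφ (φ δ))⁻¹, by
    rw [MonoidHom.mem_ker, map_mul, map_inv, Function.surjInv_eq hφ, mul_inv_cancel]⟩, φ δ)
  invFun x := x.1.1 * Function.surjInv hφ x.2
  left_inv δ := by simp
  right_inv x := by
    obtain ⟨⟨κ, hκ⟩, δ'⟩ := x
    have h1 : φ (κ * Function.surjInv hφ δ') = δ' := by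
      rw [map_mul, MonoidHom.mem_ker.mp hκ, one_mul, Function.surjInv_eq hφ]
    refine Prod.ext (Subtype.ext ?_) h1
    show κ * Function.surjInv hφ δ' * (Function.surjInv hφ (φ (κ * Function.surjInv hφ δ')))⁻¹ = κ
    rw [h1, mul_inv_cancel_right]

theorem twe_for_split_symm_apply {G G' : Type*} [Group G] [Group G'] (φ : G →* G')
    (hφ : Function.Surjective φ) (x : ↥φ.ker × G') :
    (twe_for_split φ hφ).symm x = x.1.1 * Function.surjInv hφ x.2 := rfl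

/-! ### B. restriction, transfer, diamonds for a pair `H'' ≤ H'` -/

section pair

variable {R : Type*} [CommRing R] {A : Type*} [AddCommGroup A] [Module R A]
  {M : ℕ} {H'' H' : Subgroup (ZMod M)ˣ} (h : H'' ≤ H')
  {ι'' : Type*} [Fintype ι''] {ρ'' : ι'' → SL(2, ℤ)} (hρ'' : ∀ j, ρ'' j ∈ twe_GamH M H')
  (hbij'' : ∀ γ ∈ twe_GamH M H', ∃! j, (ρ'' j)⁻¹ * γ ∈ twe_GamH M H'')

omit [Fintype ι''] in
/-- `Γ'` normalises `Γ''`. -/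
theorem twe_for_hnorm (H'' H' : Subgroup (ZMod M)ˣ) :
    ∀ g ∈ twe_GamH M H', ∀ n ∈ twe_GamH M H'', g⁻¹ * n * g ∈ twe_GamH M H'' :=
  fun g hg n hn => twe_fo_hnorm H'' g (twe_GamH_le M H' hg) n hn

/-- `res₂ ∘ cor₂ = ∑ⱼ ⟨ρ''ⱼ⟩`. -/
theorem twe_for_res_cor (z : ↥(twe_wl_V R A (twe_GamH M H''))) :
    twe_wl_res (twe_GamH_mono h) (twe_wl_cor hρ'' hbij'' z) =
      ∑ j, twe_wl_conj H'' ⟨ρ'' j, twe_GamH_le M H' (hρ'' j)⟩ z := by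
  apply Subtype.ext
  rw [twe_wl_res_coe, twe_wl_cor_coe, Submodule.coe_sum]
  exact twe_rc_res_cor (twe_for_hnorm H'' H') hρ'' hbij'' (twe_GamH_mono h) z.1

/-- `cor₂ ∘ ⟨g⟩ = cor₂` for `g ∈ Γ'`. -/
theorem twe_for_cor_conj (g : Gamma0 M) (hg : (g : SL(2, ℤ)) ∈ twe_GamH M H')
    (z : ↥(twe_wl_V R A (twe_GamH M H''))) :
    twe_wl_cor (R := R) hρ'' hbij'' (twe_wl_conj H'' g z) = twe_wl_cor hρ'' hbij'' z := by
  apply Subtype.ext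
  rw [twe_wl_cor_coe, twe_wl_cor_coe, twe_wl_conj_coe]
  exact twe_rc_cor_conj (twe_for_hnorm H'' H') hρ'' hbij'' ⟨g, hg⟩ z.1

/-- `cor₂ ∘ res₂ = [Γ' : Γ'']`. -/
theorem twe_for_cor_res (x : ↥(twe_wl_V R A (twe_GamH M H'))) :
    twe_wl_cor (R := R) hρ'' hbij'' (twe_wl_res (twe_GamH_mono h) x) = Fintype.card ι'' • x := by
  apply Subtype.ext
  rw [twe_wl_cor_coe, twe_wl_res_coe, Submodule.coe_smul_of_tower]
  exact twe_rc_cor_res hρ'' hbij'' (twe_GamH_mono h) x.1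

omit [Fintype ι''] in
/-- restriction commutes with the diamonds of `Γ₀(M)`. -/
theorem twe_for_conj_res (g : Gamma0 M) (y : ↥(twe_wl_V R A (twe_GamH M H'))) :
    twe_wl_conj (R := R) H'' g (twe_wl_res (twe_GamH_mono h) y) =
      twe_wl_res (twe_GamH_mono h) (twe_wl_conj H' g y) := by
  apply Subtype.ext
  refine AddMonoidHom.ext fun n => ?_
  obtain ⟨n, rfl⟩ := Additive.ofMul.surjective n
  rfl

omit [Fintype ι''] in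
include hbij'' in
theorem twe_for_nonempty : Nonempty ι'' := by
  obtain ⟨j, -, -⟩ := hbij'' 1 (one_mem _)
  exact ⟨j⟩

omit [Fintype ι''] in
/-- the diamonds commute (`(ℤ/M)ˣ` is commutative). -/
theorem twe_for_conj_comm (H : Subgroup (ZMod M)ˣ) (g g' : Gamma0 M) :
    twe_wl_conj (R := R) (A := A) H g * twe_wl_conj H g' =
      twe_wl_conj H g' * twe_wl_conj H g := by
  have h1 : (((g' * g)⁻¹ * (g * g') : Gamma0 M) : SL(2, ℤ)) ∈ twe_GamH M H := by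
    refine twe_mem_GamH.mpr ⟨((g' * g)⁻¹ * (g * g')).2, ?_⟩
    have : twe_dUnit M ((g' * g)⁻¹ * (g * g')) = 1 := by
      rw [map_mul, map_inv, map_mul, map_mul, mul_comm (twe_dUnit M g'), inv_mul_cancel]
    have h2 : (⟨(((g' * g)⁻¹ * (g * g') : Gamma0 M) : SL(2, ℤ)),
        ((g' * g)⁻¹ * (g * g')).2⟩ : Gamma0 M) = (g' * g)⁻¹ * (g * g') := rfl
    rw [h2, this]
    exact one_mem H
  have h3 : g * g' = (g' * g) * ((g' * g)⁻¹ * (g * g')) := by group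
  rw [← twe_wl_conj_mul, ← twe_wl_conj_mul, h3, twe_wl_conj_mul,
    twe_wl_conj_of_mem H _ h1, mul_one]

end pair

/-! ### C. over `𝒪` -/

section overO

variable {𝒪 : Type*} [CommRing 𝒪] [IsDomain 𝒪] [CharZero 𝒪]
  {M : ℕ} {H'' H' : Subgroup (ZMod M)ˣ} (h : H'' ≤ H')
  {L : Type*} (ℓ : L → ℕ) [hℓ : ∀ i, Fact (ℓ i).Prime] (hM : ∀ i, ¬ ℓ i ∣ M)
  (s : L → Gamma0 M)
  (hs : ∀ i, twe_dUnit M (s i) * twe_dUnit M (s i) * (twe_hk_lU (hM i))⁻¹ ∈ H'')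
  {ι'' : Type*} [Fintype ι''] {ρ'' : ι'' → SL(2, ℤ)} (hρ'' : ∀ j, ρ'' j ∈ twe_GamH M H')
  (hbij'' : ∀ γ ∈ twe_GamH M H', ∃! j, (ρ'' j)⁻¹ * γ ∈ twe_GamH M H'')

include hρ'' hbij'' in
/-- restriction `W(Γ', 𝒪) → W(Γ'', 𝒪)` is injective. -/
theorem twe_for_res_inj (x y : ↥(twe_wl_V 𝒪 𝒪 (twe_GamH M H')))
    (hxy : twe_wl_res (twe_GamH_mono h) x = twe_wl_res (twe_GamH_mono h) y) : x = y := by
  have h1 := twe_for_cor_res (R := 𝒪) h hρ'' hbij'' (x - y)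
  rw [map_sub, hxy, sub_self, map_zero] at h1
  haveI : Nonempty ι'' := twe_for_nonempty hbij''
  have h2 : ((Fintype.card ι'' : ℕ) : 𝒪) ≠ 0 := Nat.cast_ne_zero.mpr Fintype.card_ne_zero
  have h3 : ((Fintype.card ι'' : ℕ) : 𝒪) • (x - y) = 0 := by
    rw [Nat.cast_smul_eq_nsmul]
    exact h1.symm
  apply sub_eq_zero.mp
  apply Subtype.ext
  refine AddMonoidHom.ext fun γ => ?_
  have h4 := DFunLike.congr_fun (congrArg Subtype.val h3) γ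
  have h5 : ((Fintype.card ι'' : ℕ) : 𝒪) * (x - y).1 γ = 0 := h4
  rcases mul_eq_zero.mp h5 with h6 | h6
  · exact absurd h6 h2
  · exact h6

/-- **`cor₂ ∘ T'' = T' ∘ cor₂` over `𝒪`.** -/
theorem twe_for_cor_T (i : L) (z : ↥(twe_wl_V 𝒪 𝒪 (twe_GamH M H''))) :
    twe_wl_cor hρ'' hbij'' (twe_fo_T' 𝒪 𝒪 ℓ hM H'' s hs i z) =
      twe_fo_T' 𝒪 𝒪 ℓ hM H' s (fun i => h (hs i)) i (twe_wl_cor hρ'' hbij'' z) := by
  apply twe_for_res_inj h hρ'' hbij''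
  rw [twe_for_res_cor h]
  simp only [twe_fo_T']
  rw [twe_wl_T_res (hM i) h (s i) (hs i), twe_for_res_cor h, map_sum]
  refine Finset.sum_congr rfl fun j _ => ?_
  exact twe_wl_T_conj (hM i) H'' (s i) (hs i) _ z

include h in
/-- **`cor₂` commutes with the diamonds of `Γ₀(M)` over `𝒪`.** -/
theorem twe_for_cor_diamond (g : Gamma0 M) (z : ↥(twe_wl_V 𝒪 𝒪 (twe_GamH M H''))) :
    twe_wl_cor hρ'' hbij'' (twe_wl_conj (R := 𝒪) H'' g z) =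
      twe_wl_conj H' g (twe_wl_cor hρ'' hbij'' z) := by
  apply twe_for_res_inj h hρ'' hbij''
  rw [twe_for_res_cor h, ← twe_for_conj_res h, twe_for_res_cor h, map_sum]
  refine Finset.sum_congr rfl fun j _ => ?_
  have := twe_for_conj_comm (R := 𝒪) (A := 𝒪) H'' ⟨ρ'' j, twe_GamH_le M H' (hρ'' j)⟩ g
  exact LinearMap.congr_fun this z

end overO

/-! ### D. transitivity, in `twe_wl_V`-form -/

section trans

variable {R : Type*} [CommRing R] {A : Type*} [AddCommGroup A] [Module R A]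
  {M : ℕ} {H'' H' : Subgroup (ZMod M)ˣ} (h : H'' ≤ H')
  {ι' ι'' : Type*} [Fintype ι'] [Fintype ι''] {ρ' : ι' → SL(2, ℤ)} {ρ'' : ι'' → SL(2, ℤ)}
  (hρ' : ∀ i, ρ' i ∈ Gamma0 M) (hbij' : ∀ γ ∈ Gamma0 M, ∃! i, (ρ' i)⁻¹ * γ ∈ twe_GamH M H')
  (hρ'' : ∀ j, ρ'' j ∈ twe_GamH M H')
  (hbij'' : ∀ γ ∈ twe_GamH M H', ∃! j, (ρ'' j)⁻¹ * γ ∈ twe_GamH M H'')

/-- the total transfer from `Γ''` is the composite of the two transfers. -/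
theorem twe_for_cor_trans (z : ↥(twe_wl_V R A (twe_GamH M H''))) :
    twe_wl_cor (R := R) (ρ := fun x : ι' × ι'' => ρ' x.1 * ρ'' x.2)
      (twe_ct_mem (twe_GamH_le M H') hρ' hρ'')
      (twe_ct_bij (twe_GamH_mono h) hρ' hbij' hρ'' hbij'') z =
      twe_wl_cor hρ' hbij' (twe_wl_cor hρ'' hbij'' z) := by
  apply Subtype.ext
  rw [twe_wl_cor_coe, twe_wl_cor_coe, twe_wl_cor_coe]
  exact twe_ct_cor_trans (twe_GamH_le M H') (twe_GamH_mono h) hρ' hbij' hρ'' hbij'' z.1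

end trans

/-! ### E. augmentation submodules: `⨆ range (ρ δ - 1)` versus spans, generic -/

section aug

variable {R : Type*} [CommRing R] {X : Type*} [AddCommGroup X] [Module R X]
  {Δ : Type*} [Group Δ] (ρX : Δ →* Module.End R X) (P : Submodule R X)
  (hP : ∀ δ, ∀ x ∈ P, ρX δ x ∈ P)

theorem twe_for_span_le_aug :
    Submodule.span R {w | ∃ δ : Δ, ∃ u ∈ P, w = ρX δ u - u} ≤
      (⨆ δ : Δ, LinearMap.range (twe_fo_restrict ρX P hP δ - 1)).map P.subtype := by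
  rw [Submodule.span_le]
  rintro _ ⟨δ, u, hu, rfl⟩
  exact ⟨(twe_fo_restrict ρX P hP δ - 1) ⟨u, hu⟩,
    Submodule.mem_iSup_of_mem δ ⟨⟨u, hu⟩, rfl⟩, rfl⟩

theorem twe_for_aug_le_span (K : Subgroup Δ) :
    (⨆ κ : ↥K, LinearMap.range
      (((twe_fo_restrict ρX P hP).comp K.subtype) κ - 1)).map P.subtype ≤
      Submodule.span R {w | ∃ δ ∈ K, ∃ u ∈ P, w = ρX δ u - u} := by
  rw [Submodule.map_iSup]
  refine iSup_le fun κ => ?_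
  rintro _ ⟨_, ⟨m, rfl⟩, rfl⟩
  exact Submodule.subset_span ⟨κ.1, κ.2, m.1, m.2, rfl⟩

/-- **Nakayama for a stable submodule of a stable submodule**: `Δ` a finite commutative `p`-group
acting on `X`, `P` a stable finite submodule, `S ≤ P` stable with `P ⊆ S + I_Δ P`; then `P ≤ S`. -/
theorem twe_for_nakayama {Δ : Type*} [CommGroup Δ] [Finite Δ] (ρX : Δ →* Module.End R X)
    (P : Submodule R X) (hP : ∀ δ, ∀ x ∈ P, ρX δ x ∈ P) [Module.Finite R ↥P]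
    {p n : ℕ} (hp : p.Prime) (hpO : (p : R) ∈ Ideal.jacobson (⊥ : Ideal R))
    (hΔ : ∀ δ : Δ, δ ^ (p ^ n) = 1) (S : Submodule R X)
    (hS : ∀ δ, ∀ x ∈ S, ρX δ x ∈ S)
    (h : ∀ y ∈ P, ∃ x ∈ S, x ∈ P ∧
      y - x ∈ Submodule.span R {w | ∃ δ : Δ, ∃ u ∈ P, w = ρX δ u - u}) : P ≤ S := by
  have hstab : ∀ δ, ∀ m ∈ S.comap P.subtype,
      twe_fo_restrict ρX P hP δ m ∈ S.comap P.subtype := fun δ m hm => hS δ _ hm
  have htop : (⊤ : Submodule R ↥P) ≤ S.comap P.subtype ⊔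
      (Ideal.jacobson (⊥ : Ideal R)) • (⊤ : Submodule R ↥P) ⊔
      ⨆ δ : Δ, LinearMap.range (twe_fo_restrict ρX P hP δ - 1) := by
    intro y _
    obtain ⟨x, hxS, hxP, hyx⟩ := h y.1 y.2
    obtain ⟨w, hw, hwy⟩ := twe_for_span_le_aug ρX P hP hyx
    have h5 : y = ⟨x, hxP⟩ + w := by
      apply Subtype.ext
      show y.1 = x + w.1
      have : w.1 = y.1 - x := hwy
      rw [this]
      abel
    rw [h5]
    exact Submodule.add_mem_sup (Submodule.mem_sup_left hxS) hw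
  have := twe_fc_nakayama hp hpO hΔ (twe_fo_restrict ρX P hP) (S.comap P.subtype) hstab htop
  intro y hy
  have h1 : (⟨y, hy⟩ : ↥P) ∈ S.comap P.subtype := by rw [this]; exact Submodule.mem_top
  exact h1

end aug

/-! ### F. the relative theorem -/

section main

variable {𝒪 : Type*} [CommRing 𝒪] [IsDomain 𝒪] [IsDiscreteValuationRing 𝒪]
  [IsAdicComplete (maximalIdeal 𝒪) 𝒪] [CharZero 𝒪]

/-- **E/Free over `𝒪`, relative form**: for `H'' ≤ H'` (both of `p`-power index), the transfer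
`cor₂ : prim W(Γ_{H''}, 𝒪) → prim W(Γ_{H'}, 𝒪)` is onto and its kernel is spanned by the
`⟨g⟩ u - u` with `g ∈ Γ_{H'}`.  (Equivariance: `twe_for_cor_T`, `twe_for_cor_diamond`.) -/
theorem twe_for_main {M : ℕ} [NeZero M] {H'' H' : Subgroup (ZMod M)ˣ} (h : H'' ≤ H')
    (hneg : (-1 : SL(2, ℤ)) ∈ twe_GamH M H'')
    {Δ'' Δ' : Type*} [CommGroup Δ''] [Fintype Δ''] [CommGroup Δ'] [Fintype Δ']
    (d'' : Gamma0 M →* Δ'') (hd'' : Function.Surjective d'')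
    (hdk'' : ∀ g, d'' g = 1 ↔ (g : SL(2, ℤ)) ∈ twe_GamH M H'')
    (d' : Gamma0 M →* Δ') (hd' : Function.Surjective d')
    (hdk' : ∀ g, d' g = 1 ↔ (g : SL(2, ℤ)) ∈ twe_GamH M H')
    {p n : ℕ} (hp : p.Prime) (hpO : (p : 𝒪) ∈ maximalIdeal 𝒪)
    (hΔ'' : ∀ δ : Δ'', δ ^ (p ^ n) = 1) (hΔ' : ∀ δ : Δ', δ ^ (p ^ n) = 1)
    {L : Type*} (ℓ : L → ℕ) [hℓ : ∀ i, Fact (ℓ i).Prime] (hM : ∀ i, ¬ ℓ i ∣ M)
    (hinj : Function.Injective ℓ) (s : L → Gamma0 M)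
    (hs : ∀ i, twe_dUnit M (s i) * twe_dUnit M (s i) * (twe_hk_lU (hM i))⁻¹ ∈ H'')
    (a : L → 𝒪)
    {ι' ι'' : Type*} [Fintype ι'] [Fintype ι''] {ρ' : ι' → SL(2, ℤ)} {ρ'' : ι'' → SL(2, ℤ)}
    (hρ' : ∀ i, ρ' i ∈ Gamma0 M) (hbij' : ∀ γ ∈ Gamma0 M, ∃! i, (ρ' i)⁻¹ * γ ∈ twe_GamH M H')
    (hρ'' : ∀ j, ρ'' j ∈ twe_GamH M H')
    (hbij'' : ∀ γ ∈ twe_GamH M H', ∃! j, (ρ'' j)⁻¹ * γ ∈ twe_GamH M H'')
    (hK' : twe_fo_KInput (ResidueField 𝒪) H' ℓ hM s (fun i => h (hs i))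
      (fun i => residue 𝒪 (a i)) hρ' hbij')
    (hK'' : twe_fo_KInput (ResidueField 𝒪) H'' ℓ hM s hs (fun i => residue 𝒪 (a i))
      (ρc := fun x : ι' × ι'' => ρ' x.1 * ρ'' x.2)
      (twe_ct_mem (twe_GamH_le M H') hρ' hρ'')
      (twe_ct_bij (twe_GamH_mono h) hρ' hbij' hρ'' hbij'')) :
    (∀ y ∈ twe_pr_prim (twe_fo_T' 𝒪 𝒪 ℓ hM H' s (fun i => h (hs i))) a,
      ∃ z ∈ twe_pr_prim (twe_fo_T' 𝒪 𝒪 ℓ hM H'' s hs) a, twe_wl_cor hρ'' hbij'' z = y) ∧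
    (∀ z ∈ twe_pr_prim (twe_fo_T' 𝒪 𝒪 ℓ hM H'' s hs) a,
      twe_wl_cor (R := 𝒪) hρ'' hbij'' z = 0 →
      z ∈ Submodule.span 𝒪 {w | ∃ g : Gamma0 M, (g : SL(2, ℤ)) ∈ twe_GamH M H' ∧
        ∃ u ∈ twe_pr_prim (twe_fo_T' 𝒪 𝒪 ℓ hM H'' s hs) a, w = twe_wl_conj H'' g u - u}) := by
  classical
  have hneg' : (-1 : SL(2, ℤ)) ∈ twe_GamH M H' := twe_GamH_mono h hneg
  obtain ⟨hcT', r', v', b', hb', hsurj', hker', hfin0, hfree0, hr'⟩ :=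
    twe_fo_main H' hneg' d' hd' hdk' hp hpO hΔ' ℓ hM hinj s (fun i => h (hs i)) a hρ' hbij' hK'
  obtain ⟨hcT'', r'', v'', b'', hb'', hsurj'', hker'', -, -, hr''⟩ :=
    twe_fo_main H'' hneg d'' hd'' hdk'' hp hpO hΔ'' ℓ hM hinj s hs a
      (twe_ct_mem (twe_GamH_le M H') hρ' hρ'')
      (twe_ct_bij (twe_GamH_mono h) hρ' hbij' hρ'' hbij'') hK''
  have hrr : r' = r'' := hr'.symm.trans hr''
  subst hrr
  have hc2T : ∀ i z, twe_wl_cor hρ'' hbij'' ((twe_fo_T' 𝒪 𝒪 ℓ hM H'' s hs) i z) = (twe_fo_T' 𝒪 𝒪 ℓ hM H' s (fun i => h (hs i))) i (twe_wl_cor hρ'' hbij'' z) :=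
    twe_for_cor_T h ℓ hM s hs hρ'' hbij''
  have hc2D : ∀ g z, twe_wl_cor hρ'' hbij'' (twe_wl_conj (R := 𝒪) H'' g z) =
      twe_wl_conj H' g (twe_wl_cor hρ'' hbij'' z) := twe_for_cor_diamond h hρ'' hbij''
  let c₂ : ↥(twe_pr_prim (twe_fo_T' 𝒪 𝒪 ℓ hM H'' s hs) a) →ₗ[𝒪] ↥(twe_pr_prim (twe_fo_T' 𝒪 𝒪 ℓ hM H' s (fun i => h (hs i))) a) :=
    ((twe_wl_cor hρ'' hbij'').comp (twe_pr_prim (twe_fo_T' 𝒪 𝒪 ℓ hM H'' s hs) a).subtype).codRestrict (twe_pr_prim (twe_fo_T' 𝒪 𝒪 ℓ hM H' s (fun i => h (hs i))) a)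
      (fun x => twe_pr_map_prim (twe_wl_cor hρ'' hbij'') (twe_fo_T' 𝒪 𝒪 ℓ hM H'' s hs) (twe_fo_T' 𝒪 𝒪 ℓ hM H' s (fun i => h (hs i))) hc2T a x.2)
  -- the homomorphism `Δ'' → Δ'`
  have hker_le : d''.ker ≤ d'.ker := by
    intro g hg
    rw [MonoidHom.mem_ker] at hg ⊢
    exact (hdk' g).mpr (twe_GamH_mono h ((hdk'' g).mp hg))
  let φ : Δ'' →* Δ' := d''.liftOfSurjective hd'' ⟨d', hker_le⟩
  have hφ : ∀ g, φ (d'' g) = d' g := fun g =>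
    MonoidHom.liftOfRightInverse_comp_apply d'' _ (Function.rightInverse_surjInv hd'')
      ⟨d', hker_le⟩ g
  have hφs : Function.Surjective φ := by
    intro δ'
    obtain ⟨g, rfl⟩ := hd' δ'
    exact ⟨d'' g, hφ g⟩
  -- the diamond representations on the primary parts
  set ρX'' := twe_fo_rho (R := 𝒪) (A := 𝒪) H'' d'' hd'' hdk'' with hρX''
  set ρX' := twe_fo_rho (R := 𝒪) (A := 𝒪) H' d' hd' hdk' with hρX'
  have hP''stab : ∀ δ, ∀ x ∈ twe_pr_prim (twe_fo_T' 𝒪 𝒪 ℓ hM H'' s hs) a, ρX'' δ x ∈ twe_pr_prim (twe_fo_T' 𝒪 𝒪 ℓ hM H'' s hs) a := fun δ x hx =>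
    twe_pr_map_prim (ρX'' δ) (twe_fo_T' 𝒪 𝒪 ℓ hM H'' s hs) (twe_fo_T' 𝒪 𝒪 ℓ hM H'' s hs)
      (fun i z => twe_wl_T_conj (hM i) H'' (s i) (hs i) _ z) a hx
  have hP'stab : ∀ δ, ∀ x ∈ twe_pr_prim (twe_fo_T' 𝒪 𝒪 ℓ hM H' s (fun i => h (hs i))) a, ρX' δ x ∈ twe_pr_prim (twe_fo_T' 𝒪 𝒪 ℓ hM H' s (fun i => h (hs i))) a := fun δ x hx =>
    twe_pr_map_prim (ρX' δ) (twe_fo_T' 𝒪 𝒪 ℓ hM H' s (fun i => h (hs i))) (twe_fo_T' 𝒪 𝒪 ℓ hM H' s (fun i => h (hs i)))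
      (fun i z => twe_wl_T_conj (hM i) H' (s i) (h (hs i)) _ z) a hx
  let ρP'' : Representation 𝒪 Δ'' ↥(twe_pr_prim (twe_fo_T' 𝒪 𝒪 ℓ hM H'' s hs) a) := twe_fo_restrict ρX'' _ hP''stab
  let ρP' : Representation 𝒪 Δ' ↥(twe_pr_prim (twe_fo_T' 𝒪 𝒪 ℓ hM H' s (fun i => h (hs i))) a) := twe_fo_restrict ρX' _ hP'stab
  have hcomm' : ∀ i j, Commute ((twe_fo_T' 𝒪 𝒪 ℓ hM H' s (fun i => h (hs i))) i) ((twe_fo_T' 𝒪 𝒪 ℓ hM H' s (fun i => h (hs i))) j) :=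
    twe_fo_T'_commute ℓ hM hinj H' s (fun i => h (hs i))
  haveI : Module.Finite 𝒪 ↥(twe_wl_V 𝒪 𝒪 (twe_GamH M H')) := twe_rd_finite _
  haveI : Module.Finite 𝒪 ↥(twe_pr_prim (twe_fo_T' 𝒪 𝒪 ℓ hM H' s (fun i => h (hs i))) a) := twe_prr_finite (twe_fo_T' 𝒪 𝒪 ℓ hM H' s (fun i => h (hs i))) hcomm' a
  -- surjectivity of `c₂` by Nakayama over `𝒪[Δ']`
  have hjac : Ideal.jacobson (⊥ : Ideal 𝒪) = maximalIdeal 𝒪 :=
    IsLocalRing.jacobson_eq_maximalIdeal ⊥ bot_ne_top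
  have hpJ : (p : 𝒪) ∈ Ideal.jacobson (⊥ : Ideal 𝒪) := by rw [hjac]; exact hpO
  have hSstab : ∀ δ', ∀ x ∈ (twe_pr_prim (twe_fo_T' 𝒪 𝒪 ℓ hM H'' s hs) a).map (twe_wl_cor (R := 𝒪) hρ'' hbij''),
      ρX' δ' x ∈ (twe_pr_prim (twe_fo_T' 𝒪 𝒪 ℓ hM H'' s hs) a).map (twe_wl_cor (R := 𝒪) hρ'' hbij'') := by
    rintro δ' _ ⟨x, hx, rfl⟩
    obtain ⟨g, rfl⟩ := hd' δ'
    refine ⟨ρX'' (d'' g) x, hP''stab _ x hx, ?_⟩
    rw [hρX'', hρX', twe_fo_rho_apply, twe_fo_rho_apply, hc2D]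
  have hnak : ∀ y ∈ twe_pr_prim (twe_fo_T' 𝒪 𝒪 ℓ hM H' s (fun i => h (hs i))) a,
      ∃ x ∈ (twe_pr_prim (twe_fo_T' 𝒪 𝒪 ℓ hM H'' s hs) a).map (twe_wl_cor (R := 𝒪) hρ'' hbij''), x ∈ twe_pr_prim (twe_fo_T' 𝒪 𝒪 ℓ hM H' s (fun i => h (hs i))) a ∧
        y - x ∈ Submodule.span 𝒪 {w | ∃ δ : Δ', ∃ u ∈ twe_pr_prim (twe_fo_T' 𝒪 𝒪 ℓ hM H' s (fun i => h (hs i))) a, w = ρX' δ u - u} := by
    intro y hy
    have hy0 : twe_wl_cor hρ' hbij' y ∈ twe_pr_prim (twe_fo_T0 𝒪 𝒪 ℓ hM) a :=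
      twe_pr_map_prim (twe_wl_cor hρ' hbij') (twe_fo_T' 𝒪 𝒪 ℓ hM H' s (fun i => h (hs i))) (twe_fo_T0 𝒪 𝒪 ℓ hM) hcT' a hy
    obtain ⟨z, hz, hzy⟩ := hsurj'' _ hy0
    rw [twe_for_cor_trans h hρ' hbij' hρ'' hbij''] at hzy
    have hzP : twe_wl_cor hρ'' hbij'' z ∈ twe_pr_prim (twe_fo_T' 𝒪 𝒪 ℓ hM H' s (fun i => h (hs i))) a :=
      twe_pr_map_prim (twe_wl_cor hρ'' hbij'') (twe_fo_T' 𝒪 𝒪 ℓ hM H'' s hs) (twe_fo_T' 𝒪 𝒪 ℓ hM H' s (fun i => h (hs i))) hc2T a hz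
    have h1 : y - twe_wl_cor hρ'' hbij'' z ∈ twe_pr_prim (twe_fo_T' 𝒪 𝒪 ℓ hM H' s (fun i => h (hs i))) a := Submodule.sub_mem _ hy hzP
    have h2 : twe_wl_cor (R := 𝒪) hρ' hbij' (y - twe_wl_cor hρ'' hbij'' z) = 0 := by
      rw [map_sub, hzy, sub_self]
    have h3 := hker' _ h1 h2
    refine ⟨_, ⟨z, hz, rfl⟩, hzP, ?_⟩
    refine Submodule.span_mono ?_ h3
    rintro _ ⟨g, u, hu, rfl⟩
    exact ⟨d' g, u, hu, by rw [hρX', twe_fo_rho_apply]⟩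
  have hPle := twe_for_nakayama ρX' (twe_pr_prim (twe_fo_T' 𝒪 𝒪 ℓ hM H' s (fun i => h (hs i))) a) hP'stab hp hpJ hΔ' _ hSstab hnak
  have hc₂s : Function.Surjective c₂ := by
    rintro ⟨y, hy⟩
    obtain ⟨z, hz, hzy⟩ := hPle hy
    exact ⟨⟨z, hz⟩, Subtype.ext hzy⟩
  refine ⟨?_, ?_⟩
  · intro y hy
    obtain ⟨m, hm⟩ := hc₂s ⟨y, hy⟩
    exact ⟨m.1, m.2, congrArg Subtype.val hm⟩
  -- the kernel
  · let e : Δ'' × Fin r' ≃ ↥φ.ker × (Δ' × Fin r') :=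
      ((twe_for_split φ hφs).prodCongr (Equiv.refl (Fin r'))).trans (Equiv.prodAssoc _ _ _)
    have he : ∀ (κ : ↥φ.ker) (δ' : Δ') (i : Fin r'),
        e.symm (κ, (δ', i)) = (κ.1 * Function.surjInv hφs δ', i) := fun κ δ' i => rfl
    let ρK : Representation 𝒪 ↥φ.ker ↥(twe_pr_prim (twe_fo_T' 𝒪 𝒪 ℓ hM H'' s hs) a) := ρP''.comp φ.ker.subtype
    have hbcoe : ∀ (g : Gamma0 M) (i : Fin r'),
        ((b'' (d'' g, i) : ↥(twe_pr_prim (twe_fo_T' 𝒪 𝒪 ℓ hM H'' s hs) a)) : ↥(twe_wl_V 𝒪 𝒪 (twe_GamH M H''))) =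
          twe_wl_conj H'' g (v'' i).1 := hb''
    have hbK : ∀ (κ : ↥φ.ker) (x : Δ' × Fin r'),
        (b''.reindex e) (κ, x) = ρK κ ((b''.reindex e) (1, x)) := by
      rintro κ ⟨δ', i⟩
      rw [Basis.reindex_apply, Basis.reindex_apply, he, he]
      obtain ⟨g₁, hg₁⟩ := hd'' κ.1
      obtain ⟨g₂, hg₂⟩ := hd'' (Function.surjInv hφs δ')
      apply Subtype.ext
      show ((b'' (κ.1 * Function.surjInv hφs δ', i) : ↥(twe_pr_prim (twe_fo_T' 𝒪 𝒪 ℓ hM H'' s hs) a)) :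
          ↥(twe_wl_V 𝒪 𝒪 (twe_GamH M H''))) =
        ρX'' κ.1 ((b'' (((1 : ↥φ.ker) : Δ'') * Function.surjInv hφs δ', i) :
          ↥(twe_pr_prim (twe_fo_T' 𝒪 𝒪 ℓ hM H'' s hs) a)) : ↥(twe_wl_V 𝒪 𝒪 (twe_GamH M H'')))
      rw [Subgroup.coe_one, one_mul, ← hg₁, ← hg₂, ← map_mul, hbcoe, hbcoe, hρX'',
        twe_fo_rho_apply, twe_wl_conj_mul, Module.End.mul_apply]
    have hcK : ∀ (κ : ↥φ.ker) (m : ↥(twe_pr_prim (twe_fo_T' 𝒪 𝒪 ℓ hM H'' s hs) a)), c₂ (ρK κ m) = c₂ m := by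
      intro κ m
      obtain ⟨g, hg⟩ := hd'' κ.1
      have hg' : (g : SL(2, ℤ)) ∈ twe_GamH M H' := by
        rw [← hdk', ← hφ, hg]
        exact MonoidHom.mem_ker.mp κ.2
      apply Subtype.ext
      show twe_wl_cor hρ'' hbij'' (ρX'' κ.1 m.1) = twe_wl_cor hρ'' hbij'' m.1
      rw [← hg, hρX'', twe_fo_rho_apply, twe_for_cor_conj hρ'' hbij'' g hg']
    have hck := @twe_fm_ker_eq 𝒪 _ (↥φ.ker) _ ↥(twe_pr_prim (twe_fo_T' 𝒪 𝒪 ℓ hM H'' s hs) a) _ _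
      (Δ' × Fin r') _ ρK (b''.reindex e) hbK
      ↥(twe_pr_prim (twe_fo_T' 𝒪 𝒪 ℓ hM H' s (fun i => h (hs i))) a) _ _ b' c₂ hcK hc₂s
    intro z hz hz0
    have h1 : (⟨z, hz⟩ : ↥(twe_pr_prim (twe_fo_T' 𝒪 𝒪 ℓ hM H'' s hs) a)) ∈ LinearMap.ker c₂ := by
      rw [LinearMap.mem_ker]
      exact Subtype.ext hz0
    rw [hck] at h1
    have h2 := twe_for_aug_le_span ρX'' _ hP''stab φ.ker ⟨⟨z, hz⟩, h1, rfl⟩
    refine Submodule.span_mono ?_ h2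
    rintro _ ⟨δ, hδ, u, hu, rfl⟩
    obtain ⟨g, rfl⟩ := hd'' δ
    refine ⟨g, ?_, u, hu, by rw [hρX'', twe_fo_rho_apply]⟩
    rw [← hdk', ← hφ]
    exact MonoidHom.mem_ker.mp hδ

end main

end Fermat.Agent.TW
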