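/-
ONE MACHINE / block [E] AUT, cell E/Free OVER `𝒪`, RELATIVE form, UNCONDITIONAL (helper22).
Namespace `Fermat.Agent.TW`, prefix `twe_fkr_`.  Imports `TW/Aut/{FreeORel, FreeK}`.

`twe_fkr_main` = `twe_for_main` (FreeORel.lean) with the two `k`-level inputs discharged by
helper5's `twe_fk_KInput` (FreeK.lean).
-/
import Mathlib
import Fermat.Agent.TW.Aut.FreeORel
import Fermat.Agent.TW.Aut.FreeK

set_option autoImplicit false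
set_option linter.unusedSectionVars false
set_option linter.unusedVariables false

noncomputable section

open scoped MatrixGroups
open Matrix.SpecialLinearGroup CongruenceSubgroup

namespace Fermat.Agent.TW

open IsLocalRing Module Fermat.Agent.JT3 Fermat.Agent.LR

section main

variable {𝒪 : Type} [CommRing 𝒪] [IsDomain 𝒪] [IsDiscreteValuationRing 𝒪]
  [IsAdicComplete (maximalIdeal 𝒪) 𝒪] [CharZero 𝒪]

/-- **E/Free over `𝒪`, relative form, unconditional**: for `H'' ≤ H'` (both of `p`-power index in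
`(ℤ/M)ˣ`, `p` odd, containing the `12 M`-torsion), a non-Eisenstein system `a`: the transfer
`cor₂ : prim W(Γ_{H''}, 𝒪) → prim W(Γ_{H'}, 𝒪)` is onto and its kernel is spanned by the
`⟨g⟩ u - u`, `g ∈ Γ_{H'}`. -/
theorem twe_fkr_main {M : ℕ} [NeZero M] {H'' H' : Subgroup (ZMod M)ˣ} (h : H'' ≤ H')
    (hneg : (-1 : SL(2, ℤ)) ∈ twe_GamH M H'')
    (h12 : ∀ u : (ZMod M)ˣ, u ^ (12 * M) = 1 → u ∈ H'')
    {Δ'' Δ' : Type*} [CommGroup Δ''] [Fintype Δ''] [CommGroup Δ'] [Fintype Δ']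
    (d'' : Gamma0 M →* Δ'') (hd'' : Function.Surjective d'')
    (hdk'' : ∀ g, d'' g = 1 ↔ (g : SL(2, ℤ)) ∈ twe_GamH M H'')
    (d' : Gamma0 M →* Δ') (hd' : Function.Surjective d')
    (hdk' : ∀ g, d' g = 1 ↔ (g : SL(2, ℤ)) ∈ twe_GamH M H')
    {p n : ℕ} (hp : p.Prime) (hp2 : p ≠ 2) (hpO : (p : 𝒪) ∈ maximalIdeal 𝒪)
    (hΔ'' : ∀ δ : Δ'', δ ^ (p ^ n) = 1) (hΔ' : ∀ δ : Δ', δ ^ (p ^ n) = 1)
    {L : Type*} (ℓ : L → ℕ) [hℓ : ∀ i, Fact (ℓ i).Prime] (hM : ∀ i, ¬ ℓ i ∣ M)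
    (hinj : Function.Injective ℓ) (s : L → Gamma0 M)
    (hs : ∀ i, twe_dUnit M (s i) * twe_dUnit M (s i) * (twe_hk_lU (hM i))⁻¹ ∈ H'')
    (a : L → 𝒪) (i₀ : L)
    (hne : residue 𝒪 (a i₀) ≠ ((ℓ i₀ + 1 : ℕ) : ResidueField 𝒪))
    {ι' ι'' : Type} [Fintype ι'] [Fintype ι''] {ρ' : ι' → SL(2, ℤ)} {ρ'' : ι'' → SL(2, ℤ)}
    (hρ' : ∀ i, ρ' i ∈ Gamma0 M) (hbij' : ∀ γ ∈ Gamma0 M, ∃! i, (ρ' i)⁻¹ * γ ∈ twe_GamH M H')
    (hρ'' : ∀ j, ρ'' j ∈ twe_GamH M H')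
    (hbij'' : ∀ γ ∈ twe_GamH M H', ∃! j, (ρ'' j)⁻¹ * γ ∈ twe_GamH M H'') :
    (∀ y ∈ twe_pr_prim (twe_fo_T' 𝒪 𝒪 ℓ hM H' s (fun i => h (hs i))) a,
      ∃ z ∈ twe_pr_prim (twe_fo_T' 𝒪 𝒪 ℓ hM H'' s hs) a, twe_wl_cor hρ'' hbij'' z = y) ∧
    (∀ z ∈ twe_pr_prim (twe_fo_T' 𝒪 𝒪 ℓ hM H'' s hs) a,
      twe_wl_cor (R := 𝒪) hρ'' hbij'' z = 0 →
      z ∈ Submodule.span 𝒪 {w | ∃ g : Gamma0 M, (g : SL(2, ℤ)) ∈ twe_GamH M H' ∧
        ∃ u ∈ twe_pr_prim (twe_fo_T' 𝒪 𝒪 ℓ hM H'' s hs) a, w = twe_wl_conj H'' g u - u}) := by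
  have : Fact p.Prime := ⟨hp⟩
  have hpk : ((p : ℕ) : ResidueField 𝒪) = 0 := by
    have h1 : residue 𝒪 (p : 𝒪) = 0 := (residue_eq_zero_iff _).mpr hpO
    rwa [map_natCast] at h1
  have : CharP (ResidueField 𝒪) p := (CharP.charP_iff_prime_eq_zero hp).2 hpk
  have h2 : (2 : ResidueField 𝒪) ≠ 0 := by
    have := CharP.cast_ne_zero_of_ne_of_prime (R := ResidueField 𝒪) (p := p) Nat.prime_two hp2
    exact_mod_cast this
  have hneg' : (-1 : SL(2, ℤ)) ∈ twe_GamH M H' := twe_GamH_mono h hneg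
  have h12' : ∀ u : (ZMod M)ˣ, u ^ (12 * M) = 1 → u ∈ H' := fun u hu => h (h12 u hu)
  exact twe_for_main h hneg d'' hd'' hdk'' d' hd' hdk' hp hpO hΔ'' hΔ' ℓ hM hinj s hs a
    hρ' hbij' hρ'' hbij''
    (twe_fk_KInput h2 H' hneg' d' hd' hdk' p n hΔ' h12' ℓ hM hinj s (fun i => h (hs i))
      (fun i => residue 𝒪 (a i)) i₀ hne hρ' hbij')
    (twe_fk_KInput h2 H'' hneg d'' hd'' hdk'' p n hΔ'' h12 ℓ hM hinj s hs
      (fun i => residue 𝒪 (a i)) i₀ hne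
      (twe_ct_mem (twe_GamH_le M H') hρ' hρ'')
      (twe_ct_bij (twe_GamH_mono h) hρ' hbij' hρ'' hbij''))

end main

end Fermat.Agent.TW
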