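import Mathlib
import Fermat.Agent.TW.Aut.SeamMod
import Fermat.Agent.TW.Aut.SeamCoinv

/-!
# ONE MACHINE / block [E] AUT, E/Seam: the orbit basis and the coinvariant map of the unipotent
system, in the vocabulary of `SeamMod.lean` (helper14)

Prefix `twe_slc_`.  The field group `(r, v, b, hb, c, c_surjective, c_ker, c_hecke)` of
`twe_mk_LevelData` for `P := prim (twe_sm_TY 𝒪 F) a`, `ρ := twe_smod_rho d hd hdk F a`,
`ψ := twe_smod_psi B' hfull' hNS' F a ha hrel`: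

  `P --cor (twe_smod_total)--> prim W(Γ₀(M), 𝒪) --tail--> (𝒪^d)^{2^|Q|}`,   `M = N ∏_{t ∈ Q} t`.

* `twe_slc_tail`  : `prim W(Γ₀(M), 𝒪) ≃ (𝒪^d)^{2^|Q|}` (Bridge ∘ OldIter ∘ IsFull), Hecke-equivariant;
* `twe_slc_good`, `twe_slc_good_all` : the good primes of `(twe_Nbal N Q ∅, S ∪ Q)` are those of
  `(N, S ∪ Q)`;
* `twe_slc_ext`   : equivariance on the generators `τ_ℓ` of `B'.T` gives `c_hecke` for all `x`;
* `twe_slc_main`  : the field group.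
-/

set_option autoImplicit false
set_option linter.unusedSectionVars false
set_option linter.unusedVariables false
set_option linter.style.haveILetI false
set_option synthInstance.maxHeartbeats 400000
set_option maxHeartbeats 1000000

noncomputable section

namespace Fermat.Agent.TW

open IsLocalRing Polynomial CuspForm Fermat.Agent.JT3 Fermat.Agent.LR CongruenceSubgroup
open scoped MatrixGroups

section tail

variable {p : ℕ} [Fact p.Prime]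
  {𝒪 : Type} [CommRing 𝒪] [IsDomain 𝒪] [IsDiscreteValuationRing 𝒪]
  [IsAdicComplete (maximalIdeal 𝒪) 𝒪] [Finite (ResidueField 𝒪)] [CharZero 𝒪]
  {N : ℕ} [NeZero N] {S : Finset ℕ} {θ : heckeAlgebra N 2 (↑S : Set ℕ) →+* ResidueField 𝒪}

/-- **the tail** `prim W(Γ₀(M), 𝒪) ≃ (𝒪^d)^{2^|Q|}`, `M = N ∏_{t ∈ Q} t`: Bridge, then the iterated
E/Old isomorphism, then fullness of the base package. -/
theorem twe_slc_tail (hp5 : 5 ≤ p) (hp𝒪 : (p : 𝒪) ∈ maximalIdeal 𝒪) (hsq : Squarefree N)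
    (hpN : ¬ p ∣ N) (hpS : p ∈ S) (hNS : ∀ ℓ : ℕ, ℓ.Prime → ℓ ∣ N → ℓ ∈ S)
    (ρbar : ResidualGaloisRep (ResidueField 𝒪)) (hcompat : twt_Compat θ ρbar)
    (hirr : ρbar.IsAbsolutelyIrreducible)
    (B : twe_Base 𝒪 N S θ) (hfull : B.IsFull)
    (Q : Finset ℕ) (hQS : ∀ t ∈ Q, t ∉ S) (hTW : twe_IsTWSet θ p Q)
    {I : Type} (q : I → ℕ) (hq : ∀ i, pk_Good N (S ∪ Q) (q i))
    (hqall : ∀ ℓ, pk_Good N (S ∪ Q) ℓ → ∃ i, q i = ℓ)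
    (a : I → 𝒪)
    (ha : ∀ i, residue 𝒪 (a i) = θ (heckeAlgebra.T (hq i).1 (hq i).2.1
      (fun h => (hq i).2.2 (Finset.coe_subset.mpr Finset.subset_union_left h))))
    (M : ℕ) [NeZero M] (hM : M = N * ∏ t ∈ Q, t)
    (hqF : ∀ i, Fact (q i).Prime) (hqM : ∀ i, ¬ q i ∣ M) :
    ∃ e₀ : ↥(twe_pr_prim (twe_br_T0fam (𝒪 := 𝒪) q hqF hqM) a) →ₗ[𝒪]
        (Fin (2 ^ Q.card) → Fin B.d → 𝒪),
      Function.Bijective e₀ ∧
      ∀ (i : I) (z y : ↥(twe_pr_prim (twe_br_T0fam (𝒪 := 𝒪) q hqF hqM) a)),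
        (y : ↥(twe_wl_V 𝒪 𝒪 (Gamma0 M))) = twe_br_T0fam (𝒪 := 𝒪) q hqF hqM i z →
        ∀ k, e₀ y k = (B.j (B.H.π (heckeAlgebra.T (hq i).1 (hq i).2.1
          (fun h => (hq i).2.2 (Finset.coe_subset.mpr Finset.subset_union_left h))))).mulVec
            (e₀ z k) := by
  classical
  set PT0 := twe_pr_prim (twe_br_T0fam (𝒪 := 𝒪) q hqF hqM) a with hPT0
  set br : ↥PT0 ≃ₗ[𝒪] ↥(twe_pr_prim (twe_sm_TX 𝒪 M q) a) := twe_br_primEquiv q hqF hqM a with hbr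
  have hbr_coe : ∀ y : ↥PT0, ((br y : ↥(twe_pr_prim (twe_sm_TX 𝒪 M q) a)) : gh_H M →+ 𝒪) =
      twe_br_equiv 𝒪 𝒪 M y.1 := fun y => rfl
  obtain ⟨c₀, hc₀bij, hc₀T⟩ := twe_oio_oldIter p hp5 𝒪 hp𝒪 N hsq hpN S hpS hNS θ ρbar hcompat hirr Q
    hQS hTW q hq hqall a ha M hM
  obtain ⟨e, he1, heT⟩ := twe_sc_primEquiv hp5 hp𝒪 hpN hpS hNS ρbar hcompat hirr B hfull (S ∪ Q)
    Finset.subset_union_left q hq hqall a ha
  set e₀ : ↥PT0 →ₗ[𝒪] (Fin (2 ^ Q.card) → Fin B.d → 𝒪) :=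
    ((e : ↥(twe_pr_prim (twe_sm_TX 𝒪 N q) a) →ₗ[𝒪] (Fin B.d → 𝒪)).compLeft (Fin (2 ^ Q.card))) ∘ₗ
      c₀ ∘ₗ (br : ↥PT0 →ₗ[𝒪] _) with he₀
  have he₀_apply : ∀ z k, e₀ z k = e (c₀ (br z) k) := fun z k => rfl
  refine ⟨e₀, ⟨?_, ?_⟩, ?_⟩
  · -- injective
    intro z z' hzz'
    have h1 : c₀ (br z) = c₀ (br z') := by
      funext k
      have h2 := congrFun hzz' k
      rw [he₀_apply, he₀_apply] at h2
      exact e.injective h2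
    exact br.injective (hc₀bij.1 h1)
  · -- surjective
    intro w
    obtain ⟨u, hu⟩ := hc₀bij.2 (fun k => e.symm (w k))
    refine ⟨br.symm u, ?_⟩
    funext k
    rw [he₀_apply, LinearEquiv.apply_symm_apply, hu, LinearEquiv.apply_symm_apply]
  · -- Hecke equivariance
    intro i z y hyz k
    rw [he₀_apply, he₀_apply]
    have h2 : ((br y : ↥(twe_pr_prim (twe_sm_TX 𝒪 M q) a)) : gh_H M →+ 𝒪) =
        twe_sm_TX 𝒪 M q i ((br z : ↥(twe_pr_prim (twe_sm_TX 𝒪 M q) a)) : gh_H M →+ 𝒪) := by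
      rw [hbr_coe, hbr_coe, hyz]
      exact twe_br_TX q hqF hqM i _
    have h3 := hc₀T i (br z) (br y) h2 k
    exact heT i _ _ h3

end tail

section good

/-- a good prime of `(twe_Nbal N Q ∅, S ∪ Q)` is a good prime of `(N, S ∪ Q)`. -/
theorem twe_slc_good {N : ℕ} {S Q : Finset ℕ} {ℓ : ℕ}
    (h : pk_Good (twe_Nbal N Q ∅) (S ∪ Q) ℓ) : pk_Good N (S ∪ Q) ℓ := by
  refine ⟨h.1, fun hN => h.2.1 ?_, h.2.2⟩
  unfold twe_Nbal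
  exact Dvd.dvd.mul_right (Dvd.dvd.mul_right hN _) _

/-- a good prime of `(N, S ∪ Q)` is a good prime of `(twe_Nbal N Q ∅, S ∪ Q)` (`Q` a set of
primes). -/
theorem twe_slc_good_all {N : ℕ} {S Q : Finset ℕ} (hQ : ∀ t ∈ Q, t.Prime) {ℓ : ℕ}
    (h : pk_Good N (S ∪ Q) ℓ) : pk_Good (twe_Nbal N Q ∅) (S ∪ Q) ℓ := by
  refine ⟨h.1, fun hA => ?_, h.2.2⟩
  unfold twe_Nbal at hA
  rw [Finset.prod_empty, mul_one] at hA
  rcases (Nat.Prime.dvd_mul h.1).1 hA with h1 | h1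
  · exact h.2.1 h1
  · obtain ⟨t, ht, hdvd⟩ := (Prime.dvd_finsetProd_iff (Nat.Prime.prime h.1) _).1 h1
    have h2 : ℓ ∣ t := Nat.Prime.dvd_of_dvd_pow h.1 hdvd
    have h3 : ℓ = t := (Nat.prime_dvd_prime_iff_eq h.1 (hQ t ht)).1 h2
    exact h.2.2 (by rw [h3]; exact Finset.mem_coe.2 (Finset.mem_union_right _ ht))

/-- a good prime of `(twe_Nbal N Q ∅, S ∪ Q)` does not divide `M = N ∏_{t ∈ Q} t`. -/
theorem twe_slc_not_dvd {N : ℕ} {S Q : Finset ℕ} {ℓ : ℕ}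
    (h : pk_Good (twe_Nbal N Q ∅) (S ∪ Q) ℓ) {M : ℕ} (hM : M = N * ∏ t ∈ Q, t) : ¬ ℓ ∣ M := by
  intro hd
  refine h.2.1 (dvd_trans hd ?_)
  rw [hM]
  unfold twe_Nbal
  rw [Finset.prod_empty, mul_one]
  refine mul_dvd_mul_left N (Finset.prod_dvd_prod_of_dvd _ _ fun t _ => ?_)
  exact dvd_pow_self t two_ne_zero

end good

section ext

variable {𝒪 : Type} [CommRing 𝒪] [IsDomain 𝒪] [IsDiscreteValuationRing 𝒪]
  [IsAdicComplete (maximalIdeal 𝒪) 𝒪]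
  {N : ℕ} [NeZero N] {S : Finset ℕ} {θ : heckeAlgebra N 2 (↑S : Set ℕ) →+* ResidueField 𝒪}

/-- **extension from generators**: a linear map `c : P → (𝒪^d)^n` which intertwines `ψ (τ i)` with the
diagonal action of `π0 (τ i)` for generators `τ i` of `R` intertwines `ψ x` with `π0 x`. -/
theorem twe_slc_ext (B : twe_Base 𝒪 N S θ) {R : Type*} [CommRing R] [Algebra 𝒪 R]
    {I : Type*} (τ : I → R) (hgen : Algebra.adjoin 𝒪 (Set.range τ) = ⊤) (π0 : R →ₐ[𝒪] B.T)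
    {P : Type*} [AddCommGroup P] [Module 𝒪 P] (ψ : R →ₐ[𝒪] Module.End 𝒪 P) {n : ℕ}
    (c : P →ₗ[𝒪] (Fin n → Fin B.d → 𝒪))
    (h : ∀ i m k, c (ψ (τ i) m) k = (B.j (π0 (τ i))).mulVec (c m k)) (x : R) (m : P) (k : Fin n) :
    c (ψ x m) k = (B.j (π0 x)).mulVec (c m k) := by
  have hx : x ∈ Algebra.adjoin 𝒪 (Set.range τ) := by rw [hgen]; exact Algebra.mem_top
  induction hx using Algebra.adjoin_induction generalizing m with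
  | mem y hy =>
    obtain ⟨i, rfl⟩ := hy
    exact h i m k
  | algebraMap r =>
    rw [AlgHom.commutes, AlgHom.commutes, AlgHom.commutes, Module.algebraMap_end_apply, map_smul,
      Pi.smul_apply, Matrix.algebraMap_eq_diagonal]
    funext j
    rw [Matrix.mulVec_diagonal]
    simp [Algebra.algebraMap_self, smul_eq_mul]
  | add y z _ _ hy hz =>
    rw [map_add, map_add, map_add, LinearMap.add_apply, map_add, Pi.add_apply, hy, hz,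
      Matrix.add_mulVec]
  | mul y z _ _ hy hz =>
    rw [map_mul, map_mul, map_mul, Module.End.mul_apply, hy, hz, Matrix.mulVec_mulVec]

end ext

section main

variable {p : ℕ} [Fact p.Prime]
  {𝒪 : Type} [CommRing 𝒪] [IsDomain 𝒪] [IsDiscreteValuationRing 𝒪]
  [IsAdicComplete (maximalIdeal 𝒪) 𝒪] [Finite (ResidueField 𝒪)] [CharZero 𝒪]
  {N : ℕ} [NeZero N] {S : Finset ℕ} {θ : heckeAlgebra N 2 (↑S : Set ℕ) →+* ResidueField 𝒪}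

/-- **the orbit basis and the coinvariant map of the unipotent system**, in the vocabulary of
`SeamMod.lean`: the field group `(r, v, b, hb, c, c_surjective, c_ker, c_hecke)` of
`twe_mk_LevelData`. -/
theorem twe_slc_main (hp5 : 5 ≤ p) (hp𝒪 : (p : 𝒪) ∈ maximalIdeal 𝒪) (hsq : Squarefree N)
    (hpN : ¬ p ∣ N) (hpS : p ∈ S) (hNS : ∀ ℓ : ℕ, ℓ.Prime → ℓ ∣ N → ℓ ∈ S)
    (ρbar : ResidualGaloisRep (ResidueField 𝒪)) (hcompat : twt_Compat θ ρbar)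
    (hirr : ρbar.IsAbsolutelyIrreducible)
    (B : twe_Base 𝒪 N S θ) (hfull : B.IsFull)
    (Q : Finset ℕ) [NeZero (twe_Nbal N Q ∅)] (hQS : ∀ t ∈ Q, t ∉ S) (hTW : twe_IsTWSet θ p Q)
    (θ' : heckeAlgebra (twe_Nbal N Q ∅) 2 (↑(S ∪ Q) : Set ℕ) →+* ResidueField 𝒪)
    (θ'_eq : ∀ (ℓ : ℕ) (hℓ : ℓ.Prime) (h1 : ¬ ℓ ∣ twe_Nbal N Q ∅) (h2 : ℓ ∉ (↑(S ∪ Q) : Set ℕ))
      (h3 : ¬ ℓ ∣ N) (h4 : ℓ ∉ (↑S : Set ℕ)),
      θ' (heckeAlgebra.T hℓ h1 h2) = θ (heckeAlgebra.T hℓ h3 h4))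
    (B' : twe_Base 𝒪 (twe_Nbal N Q ∅) (S ∪ Q) θ') (hfull' : B'.IsFull)
    (hNS' : ∀ ℓ : ℕ, ℓ.Prime → ℓ ∣ twe_Nbal N Q ∅ → ℓ ∈ S ∪ Q)
    (π0 : B'.T →ₐ[𝒪] B.T)
    (π0_T : ∀ (ℓ : ℕ) (hℓ : ℓ.Prime) (h1 : ¬ ℓ ∣ twe_Nbal N Q ∅) (h2 : ℓ ∉ (↑(S ∪ Q) : Set ℕ))
      (h3 : ¬ ℓ ∣ N) (h4 : ℓ ∉ (↑S : Set ℕ)),
      π0 (B'.H.π (heckeAlgebra.T hℓ h1 h2)) = B.H.π (heckeAlgebra.T hℓ h3 h4))
    {M : ℕ} [NeZero M] (hM : M = N * ∏ t ∈ Q, t) {H : Subgroup (ZMod M)ˣ}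
    (F : twe_sm_Frame M H (twe_sm_q (twe_Nbal N Q ∅) (S ∪ Q)))
    (a : twe_sm_Idx (twe_Nbal N Q ∅) (S ∪ Q) → 𝒪) (ha : twe_sm_IsLift θ' a)
    (hrel : twe_at_Rel (twe_sm_TX 𝒪 (twe_Nbal N Q ∅) (twe_sm_q (twe_Nbal N Q ∅) (S ∪ Q)))
      (twe_sm_TY 𝒪 F))
    {Δ : Type} [CommGroup Δ] [Fintype Δ] (d : Gamma0 M →* Δ) (hd : Function.Surjective d)
    (hdk : ∀ g, d g = 1 ↔ (g : SL(2, ℤ)) ∈ twe_GamH M H)
    (hneg : (-1 : SL(2, ℤ)) ∈ twe_GamH M H)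
    (h12 : ∀ u : (ZMod M)ˣ, u ^ (12 * M) = 1 → u ∈ H)
    {n : ℕ} (hΔ : ∀ δ : Δ, δ ^ (p ^ n) = 1)
    (i₀ : twe_sm_Idx (twe_Nbal N Q ∅) (S ∪ Q))
    (hne : residue 𝒪 (a i₀) ≠ ((i₀.1 + 1 : ℕ) : ResidueField 𝒪)) :
    ∃ (r : ℕ) (v : Fin r → ↥(twe_pr_prim (twe_sm_TY 𝒪 F) a))
      (b : Module.Basis (Δ × Fin r) 𝒪 ↥(twe_pr_prim (twe_sm_TY 𝒪 F) a))
      (c : ↥(twe_pr_prim (twe_sm_TY 𝒪 F) a) →ₗ[𝒪] (Fin (2 ^ Q.card) → Fin B.d → 𝒪)),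
      (∀ δ i, b (δ, i) = twe_smod_rho d hd hdk F a δ (v i)) ∧
      Function.Surjective c ∧
      LinearMap.ker c = twe_smod_aug (P := ↥(twe_pr_prim (twe_sm_TY 𝒪 F) a))
        (twe_smod_rho d hd hdk F a) ∧
      ∀ (x : B'.T) (m : ↥(twe_pr_prim (twe_sm_TY 𝒪 F) a)) (k : Fin (2 ^ Q.card)),
        c (twe_smod_psi B' hfull' hNS' F a ha hrel x m) k = (B.j (π0 x)).mulVec (c m k) := by
  classical
  have hQprime : ∀ t ∈ Q, t.Prime := fun t ht => (hTW t ht).1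
  have hp : p.Prime := Fact.out
  have hp2 : p ≠ 2 := by omega
  -- the family of good primes
  have hq : ∀ i, pk_Good N (S ∪ Q) (twe_sm_q (twe_Nbal N Q ∅) (S ∪ Q) i) :=
    fun i => twe_slc_good i.2
  have hqall : ∀ ℓ, pk_Good N (S ∪ Q) ℓ → ∃ i, twe_sm_q (twe_Nbal N Q ∅) (S ∪ Q) i = ℓ :=
    fun ℓ hℓ => ⟨⟨ℓ, twe_slc_good_all hQprime hℓ⟩, rfl⟩
  have haθ : ∀ i, residue 𝒪 (a i) = θ (heckeAlgebra.T (hq i).1 (hq i).2.1
      (fun h => (hq i).2.2 (Finset.coe_subset.mpr Finset.subset_union_left h))) := by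
    intro i
    rw [ha i]
    exact θ'_eq i.1 i.2.1 i.2.2.1 i.2.2.2 _ _
  -- E/Free: the orbit basis and the total transfer
  obtain ⟨r, v, b, cor, hb, hcs, hck, hcT, -, -, -⟩ := twe_smod_total (𝒪 := 𝒪) d hd hdk F
    Subtype.val_injective a hneg h12 hp hp2 hp𝒪 hΔ i₀ hne
  -- the tail
  obtain ⟨e₀, he₀bij, he₀T⟩ := twe_slc_tail hp5 hp𝒪 hsq hpN hpS hNS ρbar hcompat hirr B hfull Q hQS
    hTW (twe_sm_q (twe_Nbal N Q ∅) (S ∪ Q)) hq hqall a haθ M hM F.hq F.hM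
  have hsurj : Function.Surjective (e₀ ∘ₗ cor) := by
    intro w
    obtain ⟨y, hy⟩ := he₀bij.2 w
    obtain ⟨z, hz⟩ := hcs y
    exact ⟨z, by rw [LinearMap.comp_apply, hz, hy]⟩
  have hker : LinearMap.ker (e₀ ∘ₗ cor) = twe_smod_aug (P := ↥(twe_pr_prim (twe_sm_TY 𝒪 F) a))
      (twe_smod_rho d hd hdk F a) := by
    refine Eq.trans ?_ hck
    ext z
    rw [LinearMap.mem_ker, LinearMap.mem_ker, LinearMap.comp_apply]
    constructor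
    · intro h0
      exact he₀bij.1 (h0.trans (map_zero e₀).symm)
    · intro h0
      rw [h0, map_zero]
  refine ⟨r, v, b, e₀ ∘ₗ cor, hb, hsurj, hker, ?_⟩
  · -- Hecke equivariance
    refine twe_slc_ext (P := ↥(twe_pr_prim (twe_sm_TY 𝒪 F) a)) B (twe_sa_tau B')
      (twe_sa_gen B' hNS') π0 (twe_smod_psi B' hfull' hNS' F a ha hrel) (e₀ ∘ₗ cor) ?_
    intro ℓ m k
    rw [LinearMap.comp_apply, LinearMap.comp_apply]
    have h1 := hcT ℓ m (twe_smod_psi B' hfull' hNS' F a ha hrel (twe_sa_tau B' ℓ) m)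
      (twe_smod_psi_tau B' hfull' hNS' F a ha hrel ℓ m)
    have h2 := he₀T ℓ (cor m) (cor (twe_smod_psi B' hfull' hNS' F a ha hrel (twe_sa_tau B' ℓ) m))
      h1 k
    rw [h2]
    congr 2
    unfold twe_sa_tau
    exact (π0_T ℓ.1 ℓ.2.1 ℓ.2.2.1 ℓ.2.2.2 _ _).symm

end main

end Fermat.Agent.TW
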