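import Mathlib
import Fermat.Agent.TW.Aut.SeamLevelC
import Fermat.Agent.TW.Aut.SeamMk

/-!
# ONE MACHINE / block [E] AUT, E/Seam: the level data `twe_mk_LevelData B p Q` as ONE def (helper14)

Prefix `twe_sld_`.  `twe_sld_data` packages the outputs of `twe_slc_main` (`SeamLevelC.lean`) with the
SeamMod objects `P := prim (twe_sm_TY 𝒪 F) a`, `ρ := twe_smod_rho d hd hdk F a`,
`ψ := twe_smod_psi B' hfull' hNS' F a ha hrel` into the record `twe_mk_LevelData B p Q` of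
`SeamMk.lean`; `twe_sld_level` is the unipotent system `(twe_sld_data …).toLevel`.
-/

set_option autoImplicit false
set_option linter.unusedSectionVars false
set_option linter.unusedVariables false
set_option linter.style.haveILetI false
set_option synthInstance.maxHeartbeats 400000
set_option maxHeartbeats 1000000

noncomputable section

namespace Fermat.Agent.TW

open IsLocalRing Polynomial CuspForm Fermat.Agent.JT3 Fermat.Agent.LR CongruenceSubgroup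
open scoped MatrixGroups

section data

variable {p : ℕ} [Fact p.Prime]
  {𝒪 : Type} [CommRing 𝒪] [IsDomain 𝒪] [IsDiscreteValuationRing 𝒪]
  [IsAdicComplete (maximalIdeal 𝒪) 𝒪] [Finite (ResidueField 𝒪)] [CharZero 𝒪]
  {N : ℕ} [NeZero N] {S : Finset ℕ} {θ : heckeAlgebra N 2 (↑S : Set ℕ) →+* ResidueField 𝒪}

/-- the `Fintype` structure on `Δ_Q` used by `twe_sld_data`. -/
@[reducible] def twe_sld_fintype (p : ℕ) (Q : Finset ℕ) : Fintype (twe_Delta p Q) :=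
  Fintype.ofFinite _

variable (hp5 : 5 ≤ p) (hp𝒪 : (p : 𝒪) ∈ maximalIdeal 𝒪) (hsq : Squarefree N)
    (hpN : ¬ p ∣ N) (hpS : p ∈ S) (hNS : ∀ ℓ : ℕ, ℓ.Prime → ℓ ∣ N → ℓ ∈ S)
    (ρbar : ResidualGaloisRep (ResidueField 𝒪)) (hcompat : twt_Compat θ ρbar)
    (hirr : ρbar.IsAbsolutelyIrreducible)
    (B : twe_Base 𝒪 N S θ) (hfull : B.IsFull)
    (Q : Finset ℕ) [NeZero (twe_Nbal N Q ∅)] (hQS : ∀ t ∈ Q, t ∉ S) (hTW : twe_IsTWSet θ p Q)
    (θ' : heckeAlgebra (twe_Nbal N Q ∅) 2 (↑(S ∪ Q) : Set ℕ) →+* ResidueField 𝒪)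
    (θ'_eq : ∀ (ℓ : ℕ) (hℓ : ℓ.Prime) (h1 : ¬ ℓ ∣ twe_Nbal N Q ∅) (h2 : ℓ ∉ (↑(S ∪ Q) : Set ℕ))
      (h3 : ¬ ℓ ∣ N) (h4 : ℓ ∉ (↑S : Set ℕ)),
      θ' (heckeAlgebra.T hℓ h1 h2) = θ (heckeAlgebra.T hℓ h3 h4))
    (B' : twe_Base 𝒪 (twe_Nbal N Q ∅) (S ∪ Q) θ') (hfull' : B'.IsFull)
    (hNS' : ∀ ℓ : ℕ, ℓ.Prime → ℓ ∣ twe_Nbal N Q ∅ → ℓ ∈ S ∪ Q)
    (π0 : B'.T →ₐ[𝒪] B.T)
    (π0_T : ∀ (ℓ : ℕ) (hℓ : ℓ.Prime) (h1 : ¬ ℓ ∣ twe_Nbal N Q ∅) (h2 : ℓ ∉ (↑(S ∪ Q) : Set ℕ))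
      (h3 : ¬ ℓ ∣ N) (h4 : ℓ ∉ (↑S : Set ℕ)),
      π0 (B'.H.π (heckeAlgebra.T hℓ h1 h2)) = B.H.π (heckeAlgebra.T hℓ h3 h4))
    {M : ℕ} [NeZero M] (hM : M = N * ∏ t ∈ Q, t) {H : Subgroup (ZMod M)ˣ}
    (F : twe_sm_Frame M H (twe_sm_q (twe_Nbal N Q ∅) (S ∪ Q)))
    (a : twe_sm_Idx (twe_Nbal N Q ∅) (S ∪ Q) → 𝒪) (ha : twe_sm_IsLift θ' a)
    (hrel : twe_at_Rel (twe_sm_TX 𝒪 (twe_Nbal N Q ∅) (twe_sm_q (twe_Nbal N Q ∅) (S ∪ Q)))
      (twe_sm_TY 𝒪 F))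
    (d : Gamma0 M →* twe_Delta p Q) (hd : Function.Surjective d)
    (hdk : ∀ g, d g = 1 ↔ (g : SL(2, ℤ)) ∈ twe_GamH M H)
    (hneg : (-1 : SL(2, ℤ)) ∈ twe_GamH M H)
    (h12 : ∀ u : (ZMod M)ˣ, u ^ (12 * M) = 1 → u ∈ H)
    {n : ℕ} (hΔ : ∀ δ : twe_Delta p Q, δ ^ (p ^ n) = 1)
    (i₀ : twe_sm_Idx (twe_Nbal N Q ∅) (S ∪ Q))
    (hne : residue 𝒪 (a i₀) ≠ ((i₀.1 + 1 : ℕ) : ResidueField 𝒪))

/-- **the level data** of the unipotent system, from the SeamMod objects and `twe_slc_main`. -/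
def twe_sld_data : twe_mk_LevelData B p Q :=
  letI : Fintype (twe_Delta p Q) := twe_sld_fintype p Q
  let h := twe_slc_main hp5 hp𝒪 hsq hpN hpS hNS ρbar hcompat hirr B hfull Q hQS hTW θ' θ'_eq B'
    hfull' hNS' π0 π0_T hM F a ha hrel d hd hdk hneg h12 hΔ i₀ hne
  { θ' := θ'
    θ'_eq := θ'_eq
    B' := B'
    π0 := π0
    π0_T := π0_T
    P := ↥(twe_pr_prim (twe_sm_TY 𝒪 F) a)
    ψ := twe_smod_psi B' hfull' hNS' F a ha hrel
    ρ := twe_smod_rho d hd hdk F a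
    comm := fun x δ m => twe_smod_comm B' hfull' hNS' F a ha hrel d hd hdk x δ m
    r := h.choose
    v := h.choose_spec.choose
    b := h.choose_spec.choose_spec.choose
    hb := h.choose_spec.choose_spec.choose_spec.choose_spec.1
    c := h.choose_spec.choose_spec.choose_spec.choose
    c_surjective := h.choose_spec.choose_spec.choose_spec.choose_spec.2.1
    c_ker := h.choose_spec.choose_spec.choose_spec.choose_spec.2.2.1
    c_hecke := h.choose_spec.choose_spec.choose_spec.choose_spec.2.2.2 }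

/-- shorthand for the data (all arguments explicit, in the order of `twe_slc_main`). -/
local notation "𝔇" => twe_sld_data hp5 hp𝒪 hsq hpN hpS hNS ρbar hcompat hirr B hfull Q hQS hTW θ'
  θ'_eq B' hfull' hNS' π0 π0_T hM F a ha hrel d hd hdk hneg h12 hΔ i₀ hne

theorem twe_sld_data_theta' : (𝔇).θ' = θ' := rfl

theorem twe_sld_data_B' : (𝔇).B' = B' := rfl

theorem twe_sld_data_pi0 : (𝔇).π0 = π0 := rfl

theorem twe_sld_data_P : (𝔇).P = ↥(twe_pr_prim (twe_sm_TY 𝒪 F) a) := rfl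

theorem twe_sld_data_psi : (𝔇).ψ = twe_smod_psi B' hfull' hNS' F a ha hrel := rfl

theorem twe_sld_data_rho : (𝔇).ρ = twe_smod_rho d hd hdk F a := rfl

/-- **the unipotent system**. -/
def twe_sld_level : twe_Level B p Q := (𝔇).toLevel

theorem twe_sld_level_T' : (twe_sld_level hp5 hp𝒪 hsq hpN hpS hNS ρbar hcompat hirr B hfull Q hQS
    hTW θ' θ'_eq B' hfull' hNS' π0 π0_T hM F a ha hrel d hd hdk hneg h12 hΔ i₀ hne).T' = B'.T := rfl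

theorem twe_sld_level_H' : (twe_sld_level hp5 hp𝒪 hsq hpN hpS hNS ρbar hcompat hirr B hfull Q hQS
    hTW θ' θ'_eq B' hfull' hNS' π0 π0_T hM F a ha hrel d hd hdk hneg h12 hΔ i₀ hne).H' = B'.H := rfl

end data

end Fermat.Agent.TW
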