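import Mathlib
import Fermat.Agent.TW.Aut.Defs
import Fermat.Agent.TW.Aut.SeamsLG

/-!
# Project ONE MACHINE, block [E]: E/DeltaIso (helper28)

The concrete pair `(Δ, d)` of the Taylor–Wiles levels: for a finite set `P` of primes dividing `M`,
a SURJECTIVE homomorphism `(ZMod M)ˣ →* twe_Delta p P = ∏_{t ∈ P} ℤ/p^{v_p(t-1)}` (the `p`-Sylow
quotients of the `(ℤ/t)ˣ`, generators chosen), its kernel `H`, the induced surjection
`d : Γ₀(M) →* Δ` with kernel `Γ_H`, and the two-set version `Δ_Q × Δ_Th`.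

* `twe_di_dUnit_surjective` : `Γ₀(M) → (ℤ/M)ˣ` is onto;
* `twe_di_loc p t ht` : `(ℤ/t)ˣ →* ℤ/p^{v_p(t-1)}`, onto;
* `twe_di_crt` : the Chinese remainder theorem on units, for a finite set of primes dividing `M`;
* `twe_di_hom p P M hP hPM : (ZMod M)ˣ →* twe_Delta p P`, onto, hits the generators `twe_gen`;
* `twe_di_mem_ker_of_pow` : units of order prime to `p` lie in the kernel (`-1`, and the units of
  order dividing `12 M` for `p ∤ 6 M`: the hypothesis of `twe_parEll_mem`);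
* `twe_di_pair`, `twe_di_d` : the two-set versions and `d.ker = twe_GamH' M H`.
-/

set_option autoImplicit false
set_option linter.unusedSectionVars false
set_option linter.style.haveILetI false

open CongruenceSubgroup Matrix.SpecialLinearGroup
open scoped MatrixGroups

namespace Fermat.Agent.TW

noncomputable section

/-! ### `Γ₀(M) → (ℤ/M)ˣ` is onto -/

theorem twe_di_dUnit_surjective (M : ℕ) : Function.Surjective (twe_dUnit M) := by
  intro u
  obtain ⟨d, hd⟩ := ZMod.intCast_surjective (u : ZMod M)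
  obtain ⟨e, he⟩ := ZMod.intCast_surjective ((u⁻¹ : (ZMod M)ˣ) : ZMod M)
  have h1 : ((e * d - 1 : ℤ) : ZMod M) = 0 := by
    push_cast
    rw [hd, he, Units.inv_mul, sub_self]
  obtain ⟨k, hk⟩ := (ZMod.intCast_zmod_eq_zero_iff_dvd _ _).1 h1
  have hdet : Matrix.det !![e, k; (M : ℤ), d] = 1 := by
    rw [Matrix.det_fin_two_of]
    linarith
  let γ : SL(2, ℤ) := ⟨!![e, k; (M : ℤ), d], hdet⟩
  have hγ : γ ∈ Gamma0 M := by
    rw [Gamma0_mem]
    show (((M : ℤ) : ℤ) : ZMod M) = 0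
    simp
  refine ⟨⟨γ, hγ⟩, ?_⟩
  apply Units.ext
  rw [twe_dUnit_coe]
  show ((d : ℤ) : ZMod M) = _
  exact hd

/-! ### the local homomorphism at a prime `t` -/

theorem twe_di_ord_dvd (p t : ℕ) : twe_ord p t ∣ t - 1 := pow_padicValNat_dvd

theorem twe_di_card_units (t : ℕ) (ht : t.Prime) : Nat.card (ZMod t)ˣ = t - 1 := by
  haveI : Fact t.Prime := ⟨ht⟩
  rw [Nat.card_eq_fintype_card, ZMod.card_units]

theorem twe_di_ord_dvd_card (p t : ℕ) (ht : t.Prime) : twe_ord p t ∣ Nat.card (ZMod t)ˣ := by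
  rw [twe_di_card_units t ht]
  exact twe_di_ord_dvd p t

theorem twe_di_isCyclic (t : ℕ) (ht : t.Prime) : IsCyclic (ZMod t)ˣ :=
  haveI : Fact t.Prime := ⟨ht⟩
  inferInstance

/-- `(ℤ/t)ˣ →* ℤ/p^{v_p(t-1)}` (written multiplicatively), for a prime `t`. -/
def twe_di_loc (p t : ℕ) (ht : t.Prime) : (ZMod t)ˣ →* Multiplicative (ZMod (twe_ord p t)) :=
  (AddMonoidHom.toMultiplicative
    (ZMod.castHom (twe_di_ord_dvd_card p t ht) (ZMod (twe_ord p t))).toAddMonoidHom).comp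
    (zmodCyclicMulEquiv (twe_di_isCyclic t ht)).symm.toMonoidHom

theorem twe_di_loc_apply (p t : ℕ) (ht : t.Prime) (u : (ZMod t)ˣ) :
    twe_di_loc p t ht u = Multiplicative.ofAdd
      (ZMod.castHom (twe_di_ord_dvd_card p t ht) (ZMod (twe_ord p t))
        (Multiplicative.toAdd ((zmodCyclicMulEquiv (twe_di_isCyclic t ht)).symm u))) := rfl

theorem twe_di_loc_surjective (p t : ℕ) (ht : t.Prime) :
    Function.Surjective (twe_di_loc p t ht) := by
  intro y
  obtain ⟨x, hx⟩ := ZMod.castHom_surjective (twe_di_ord_dvd_card p t ht)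
    (Multiplicative.toAdd y)
  refine ⟨zmodCyclicMulEquiv (twe_di_isCyclic t ht) (Multiplicative.ofAdd x), ?_⟩
  rw [twe_di_loc_apply, MulEquiv.symm_apply_apply, toAdd_ofAdd, hx, ofAdd_toAdd]

/-! ### the Chinese remainder theorem on units -/

/-- **CRT on units** for a finite set `P` of primes dividing `M`. -/
theorem twe_di_crt (P : Finset ℕ) (M : ℕ) [NeZero M] (hP : ∀ t ∈ P, t.Prime)
    (hPM : ∀ t ∈ P, t ∣ M) (y : ∀ t : ↥P, (ZMod (t : ℕ))ˣ) :
    ∃ u : (ZMod M)ˣ, ∀ t : ↥P, ZMod.unitsMap (hPM t.1 t.2) u = y t := by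
  classical
  have hcop : Pairwise (Function.onFun Nat.Coprime fun t : ↥P => (t : ℕ)) := by
    intro t t' htt'
    exact (Nat.coprime_primes (hP t.1 t.2) (hP t'.1 t'.2)).2 (fun h => htt' (Subtype.ext h))
  let e := ZMod.prodEquivPi (fun t : ↥P => (t : ℕ)) hcop
  have hdvd : ∏ t : ↥P, (t : ℕ) ∣ M := by
    rw [Finset.prod_coe_sort P (fun t => t)]
    exact Finset.prod_primes_dvd M (fun t ht => (hP t ht).prime) hPM
  -- the unit of `ZMod (∏ t)` with the prescribed coordinates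
  let z : (ZMod (∏ t : ↥P, (t : ℕ)))ˣ :=
    (Units.mapEquiv e.toMulEquiv).symm (MulEquiv.piUnits.symm y)
  have hz : ∀ t : ↥P, ZMod.unitsMap (Finset.dvd_prod_of_mem (fun t : ↥P => (t : ℕ))
      (Finset.mem_univ t)) z = y t := by
    intro t
    apply Units.ext
    rw [ZMod.unitsMap_def, Units.coe_map]
    have h1 := ZMod.prodEquivPi_apply (fun t : ↥P => (t : ℕ)) hcop z.val t
    have h2 : e z.val = fun t : ↥P => (y t).val := by
      have h3 : Units.mapEquiv e.toMulEquiv z = MulEquiv.piUnits.symm y := by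
        simp only [z, MulEquiv.apply_symm_apply]
      have h4 := congrArg (fun w : (∀ t : ↥P, ZMod (t : ℕ))ˣ => (w : ∀ t : ↥P, ZMod (t : ℕ))) h3
      exact h4
    show (ZMod.castHom (Finset.dvd_prod_of_mem (fun t : ↥P => (t : ℕ))
      (Finset.mem_univ t)) (ZMod (t : ℕ))) z.val = _
    rw [← h1]
    show e z.val t = _
    rw [h2]
  obtain ⟨u, hu⟩ := ZMod.unitsMap_surjective hdvd z
  refine ⟨u, fun t => ?_⟩
  rw [← hz t, ← hu, ← MonoidHom.comp_apply, ZMod.unitsMap_comp]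

/-! ### the global homomorphism `(ℤ/M)ˣ → Δ_P` -/

section hom

variable (p : ℕ) (P : Finset ℕ) (M : ℕ) (hP : ∀ t ∈ P, t.Prime) (hPM : ∀ t ∈ P, t ∣ M)

/-- **`(ℤ/M)ˣ →* Δ_P`**: reduce modulo every `t ∈ P`, then project to the `p`-Sylow quotient. -/
def twe_di_hom : (ZMod M)ˣ →* twe_Delta p P where
  toFun u := Multiplicative.ofAdd (fun t : ↥P =>
    Multiplicative.toAdd (twe_di_loc p t.1 (hP t.1 t.2) (ZMod.unitsMap (hPM t.1 t.2) u)))
  map_one' := by
    apply Multiplicative.toAdd.injective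
    funext t
    simp
  map_mul' u v := by
    apply Multiplicative.toAdd.injective
    funext t
    simp

theorem twe_di_hom_apply (u : (ZMod M)ˣ) (t : ↥P) :
    Multiplicative.toAdd (twe_di_hom p P M hP hPM u) t =
      Multiplicative.toAdd (twe_di_loc p t.1 (hP t.1 t.2) (ZMod.unitsMap (hPM t.1 t.2) u)) := rfl

theorem twe_di_hom_eq_iff (u : (ZMod M)ˣ) (δ : twe_Delta p P) :
    twe_di_hom p P M hP hPM u = δ ↔
      ∀ t : ↥P, twe_di_loc p t.1 (hP t.1 t.2) (ZMod.unitsMap (hPM t.1 t.2) u) =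
        Multiplicative.ofAdd (Multiplicative.toAdd δ t) := by
  constructor
  · rintro rfl t
    rfl
  · intro h
    apply Multiplicative.toAdd.injective
    funext t
    rw [twe_di_hom_apply, h t]
    rfl

/-- units congruent to `1` modulo every `t ∈ P` lie in the kernel. -/
theorem twe_di_hom_eq_one_of_unitsMap (u : (ZMod M)ˣ)
    (h : ∀ t : ↥P, ZMod.unitsMap (hPM t.1 t.2) u = 1) : twe_di_hom p P M hP hPM u = 1 := by
  rw [twe_di_hom_eq_iff]
  intro t
  rw [h t, map_one]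
  rfl

/-- the value depends only on the residues modulo the `t ∈ P`. -/
theorem twe_di_hom_congr (u u' : (ZMod M)ˣ)
    (h : ∀ t : ↥P, ZMod.unitsMap (hPM t.1 t.2) u = ZMod.unitsMap (hPM t.1 t.2) u') :
    twe_di_hom p P M hP hPM u = twe_di_hom p P M hP hPM u' := by
  rw [twe_di_hom_eq_iff]
  intro t
  rw [h t]
  rfl

/-- **surjectivity**, with prescribed residues outside: for every `δ` there is a unit `u ↦ δ`. -/
theorem twe_di_hom_surjective [NeZero M] : Function.Surjective (twe_di_hom p P M hP hPM) := by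
  intro δ
  choose y hy using fun t : ↥P => twe_di_loc_surjective p t.1 (hP t.1 t.2)
    (Multiplicative.ofAdd (Multiplicative.toAdd δ t))
  obtain ⟨u, hu⟩ := twe_di_crt P M hP hPM y
  refine ⟨u, ?_⟩
  rw [twe_di_hom_eq_iff]
  intro t
  rw [hu t, hy t]

/-- **the generators are hit** by units congruent to `1` at the other primes of `P`. -/
theorem twe_di_exists_gen [NeZero M] (t : ℕ) (ht : t ∈ P) :
    ∃ u : (ZMod M)ˣ, twe_di_hom p P M hP hPM u = twe_gen p P t ht ∧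
      ∀ t' : ↥P, (t' : ℕ) ≠ t → ZMod.unitsMap (hPM t'.1 t'.2) u = 1 := by
  classical
  obtain ⟨g, hg⟩ := twe_di_loc_surjective p t (hP t ht) (Multiplicative.ofAdd 1)
  let y : ∀ t' : ↥P, (ZMod (t' : ℕ))ˣ := fun t' =>
    if h : (t' : ℕ) = t then (h ▸ g : (ZMod (t' : ℕ))ˣ) else 1
  obtain ⟨u, hu⟩ := twe_di_crt P M hP hPM y
  refine ⟨u, ?_, ?_⟩
  · rw [twe_di_hom_eq_iff]
    intro t'
    rw [hu t']
    by_cases h : (t' : ℕ) = t
    · obtain ⟨t'', ht''⟩ := t'
      simp only at h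
      subst h
      have : y ⟨t'', ht''⟩ = g := by simp [y]
      rw [this, hg]
      show _ = Multiplicative.ofAdd ((Pi.single (⟨t'', ht⟩ : ↥P) (1 : ZMod (twe_ord p t''))
        : ∀ s : ↥P, ZMod (twe_ord p (s : ℕ))) ⟨t'', ht''⟩)
      rw [Pi.single_eq_same]
    · have : y t' = 1 := by simp [y, h]
      rw [this, map_one]
      show _ = Multiplicative.ofAdd ((Pi.single (⟨t, ht⟩ : ↥P) (1 : ZMod (twe_ord p t))
        : ∀ s : ↥P, ZMod (twe_ord p (s : ℕ))) t')
      rw [Pi.single_eq_of_ne (fun h' => h (congrArg Subtype.val h'))]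
      rfl
  · intro t' h
    rw [hu t']
    simp [y, h]

/-- every element of `Δ_P` is killed by `p ^ n` as soon as `n ≥ v_p(t - 1)` for all `t ∈ P`. -/
theorem twe_di_delta_pow (n : ℕ) (hn : ∀ t ∈ P, padicValNat p (t - 1) ≤ n) (δ : twe_Delta p P) :
    δ ^ p ^ n = 1 := by
  apply Multiplicative.toAdd.injective
  funext t
  rw [toAdd_pow, toAdd_one, Pi.smul_apply, Pi.zero_apply, nsmul_eq_mul]
  have h1 : twe_ord p (t : ℕ) ∣ p ^ n := pow_dvd_pow p (hn t.1 t.2)
  obtain ⟨c, hc⟩ := h1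
  rw [hc, Nat.cast_mul, ZMod.natCast_self, zero_mul, zero_mul]

/-- **units of order prime to `p` lie in the kernel.** -/
theorem twe_di_hom_eq_one_of_pow (k : ℕ) (hk : Nat.Coprime k p) (u : (ZMod M)ˣ) (hu : u ^ k = 1) :
    twe_di_hom p P M hP hPM u = 1 := by
  have h1 : (twe_di_hom p P M hP hPM u) ^ k = 1 := by rw [← map_pow, hu, map_one]
  apply Multiplicative.toAdd.injective
  funext t
  have h2 := congrFun (congrArg Multiplicative.toAdd h1) t
  rw [toAdd_pow, toAdd_one, Pi.smul_apply, Pi.zero_apply, nsmul_eq_mul] at h2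
  have hcop : Nat.Coprime k (twe_ord p (t : ℕ)) := Nat.Coprime.pow_right _ hk
  have hunit : IsUnit ((k : ℕ) : ZMod (twe_ord p (t : ℕ))) := (ZMod.isUnit_iff_coprime _ _).2 hcop
  rw [toAdd_one, Pi.zero_apply]
  exact (hunit.mul_right_eq_zero).1 h2

theorem twe_di_neg_one_mem (hp : Odd p) :
    twe_di_hom p P M hP hPM (-1) = 1 :=
  twe_di_hom_eq_one_of_pow p P M hP hPM 2 (Nat.coprime_two_left.2 hp) _ (by simp)

end hom

/-! ### the two-set version and the homomorphism `d : Γ₀(M) → Δ` -/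

section pair

variable (p : ℕ) (Q Th : Finset ℕ) (M : ℕ) (hQ : ∀ t ∈ Q, t.Prime) (hQM : ∀ t ∈ Q, t ∣ M)
  (hTh : ∀ t ∈ Th, t.Prime) (hThM : ∀ t ∈ Th, t ∣ M)

/-- `(ℤ/M)ˣ →* Δ_Q × Δ_Th`. -/
def twe_di_pair : (ZMod M)ˣ →* twe_Delta p Q × twe_Delta p Th :=
  (twe_di_hom p Q M hQ hQM).prod (twe_di_hom p Th M hTh hThM)

theorem twe_di_pair_apply (u : (ZMod M)ˣ) :
    twe_di_pair p Q Th M hQ hQM hTh hThM u =
      (twe_di_hom p Q M hQ hQM u, twe_di_hom p Th M hTh hThM u) := rfl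

theorem twe_di_pair_surjective [NeZero M] (hdisj : Disjoint Q Th) :
    Function.Surjective (twe_di_pair p Q Th M hQ hQM hTh hThM) := by
  classical
  rintro ⟨δ, η⟩
  choose yQ hyQ using fun t : ↥Q => twe_di_loc_surjective p t.1 (hQ t.1 t.2)
    (Multiplicative.ofAdd (Multiplicative.toAdd δ t))
  choose yTh hyTh using fun t : ↥Th => twe_di_loc_surjective p t.1 (hTh t.1 t.2)
    (Multiplicative.ofAdd (Multiplicative.toAdd η t))
  have hP : ∀ t ∈ Q ∪ Th, t.Prime := fun t ht =>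
    (Finset.mem_union.1 ht).elim (hQ t) (hTh t)
  have hPM : ∀ t ∈ Q ∪ Th, t ∣ M := fun t ht =>
    (Finset.mem_union.1 ht).elim (hQM t) (hThM t)
  let y : ∀ t : ↥(Q ∪ Th), (ZMod (t : ℕ))ˣ := fun t =>
    if h : (t : ℕ) ∈ Q then yQ ⟨t, h⟩
    else yTh ⟨t, (Finset.mem_union.1 t.2).resolve_left h⟩
  obtain ⟨u, hu⟩ := twe_di_crt (Q ∪ Th) M hP hPM y
  refine ⟨u, ?_⟩
  rw [twe_di_pair_apply, Prod.mk.injEq]
  constructor
  · rw [twe_di_hom_eq_iff]
    intro t
    have h1 := hu ⟨t.1, Finset.mem_union_left _ t.2⟩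
    have h2 : y ⟨t.1, Finset.mem_union_left _ t.2⟩ = yQ t := by
      simp only [y, t.2, dite_true]
    rw [h2] at h1
    have h3 : ZMod.unitsMap (hQM t.1 t.2) u = yQ t := h1
    rw [h3, hyQ t]
  · rw [twe_di_hom_eq_iff]
    intro t
    have hnot : (t : ℕ) ∉ Q := fun h => (Finset.disjoint_left.1 hdisj h) t.2
    have h1 := hu ⟨t.1, Finset.mem_union_right _ t.2⟩
    have h2 : y ⟨t.1, Finset.mem_union_right _ t.2⟩ = yTh t := by
      simp only [y, hnot, dite_false]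
    rw [h2] at h1
    have h3 : ZMod.unitsMap (hThM t.1 t.2) u = yTh t := h1
    rw [h3, hyTh t]

theorem twe_di_pair_ker_le :
    (twe_di_pair p Q Th M hQ hQM hTh hThM).ker ≤ (twe_di_hom p Q M hQ hQM).ker := by
  intro u hu
  rw [MonoidHom.mem_ker, twe_di_pair_apply, Prod.mk_eq_one] at hu
  exact hu.1

theorem twe_di_pair_eq_one_of_pow (k : ℕ) (hk : Nat.Coprime k p) (u : (ZMod M)ˣ)
    (hu : u ^ k = 1) : twe_di_pair p Q Th M hQ hQM hTh hThM u = 1 := by
  rw [twe_di_pair_apply, Prod.mk_eq_one]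
  exact ⟨twe_di_hom_eq_one_of_pow p Q M hQ hQM k hk u hu,
    twe_di_hom_eq_one_of_pow p Th M hTh hThM k hk u hu⟩

theorem twe_di_pair_neg_one (hp : Odd p) :
    twe_di_pair p Q Th M hQ hQM hTh hThM (-1) = 1 :=
  twe_di_pair_eq_one_of_pow p Q Th M hQ hQM hTh hThM 2 (Nat.coprime_two_left.2 hp) _ (by simp)

/-- the hypothesis of `twe_parEll_mem` ("the cover `X_H → X₀(M)` is unramified") for
`H = ker (twe_di_pair)`, when `p ∤ 12 M`. -/
theorem twe_di_pair_parEll (hk : Nat.Coprime (12 * M) p) (u : (ZMod M)ˣ)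
    (hu : u ^ (12 * M) = 1) : u ∈ (twe_di_pair p Q Th M hQ hQM hTh hThM).ker :=
  twe_di_pair_eq_one_of_pow p Q Th M hQ hQM hTh hThM _ hk u hu

/-- **`d : Γ₀(M) →* Δ_Q × Δ_Th`**. -/
def twe_di_d : Gamma0 M →* twe_Delta p Q × twe_Delta p Th :=
  (twe_di_pair p Q Th M hQ hQM hTh hThM).comp (twe_dUnit M)

theorem twe_di_d_surjective [NeZero M] (hdisj : Disjoint Q Th) :
    Function.Surjective (twe_di_d p Q Th M hQ hQM hTh hThM) :=
  (twe_di_pair_surjective p Q Th M hQ hQM hTh hThM hdisj).comp (twe_di_dUnit_surjective M)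

/-- **`ker d = Γ_H`** for `H = ker (twe_di_pair)`. -/
theorem twe_di_d_ker :
    (twe_di_d p Q Th M hQ hQM hTh hThM).ker =
      twe_GamH' M (twe_di_pair p Q Th M hQ hQM hTh hThM).ker :=
  (MonoidHom.comap_ker _ _).symm

/-- the one-set version `d : Γ₀(M) →* Δ_Q`. -/
def twe_di_d1 : Gamma0 M →* twe_Delta p Q := (twe_di_hom p Q M hQ hQM).comp (twe_dUnit M)

theorem twe_di_d1_surjective [NeZero M] : Function.Surjective (twe_di_d1 p Q M hQ hQM) :=
  (twe_di_hom_surjective p Q M hQ hQM).comp (twe_di_dUnit_surjective M)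

theorem twe_di_d1_ker :
    (twe_di_d1 p Q M hQ hQM).ker = twe_GamH' M (twe_di_hom p Q M hQ hQM).ker :=
  (MonoidHom.comap_ker _ _).symm

/-- `d1` is the first component of `d`. -/
theorem twe_di_d_fst (g : Gamma0 M) :
    (twe_di_d p Q Th M hQ hQM hTh hThM g).1 = twe_di_d1 p Q M hQ hQM g := rfl

end pair

/-! ### the balanced levels -/

theorem twe_di_dvd_Nbal_Q (N : ℕ) (Q Th : Finset ℕ) {t : ℕ} (ht : t ∈ Q) :
    t ∣ twe_Nbal N Q Th := by
  unfold twe_Nbal
  refine Dvd.dvd.mul_right (Dvd.dvd.mul_left ?_ N) _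
  exact (dvd_pow_self t two_ne_zero).trans (Finset.dvd_prod_of_mem (fun t => t ^ 2) ht)

theorem twe_di_dvd_Nbal_Th (N : ℕ) (Q Th : Finset ℕ) {t : ℕ} (ht : t ∈ Th) :
    t ∣ twe_Nbal N Q Th := by
  unfold twe_Nbal
  exact Dvd.dvd.mul_left (Finset.dvd_prod_of_mem (fun t => t) ht) _

end

end Fermat.Agent.TW
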