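import Mathlib
import Fermat.Agent.TW.Aut.DeltaIso

/-!
# Project ONE MACHINE, block [E]: E/DeltaIso, part 2 (helper28)

Additions requested by the [E] architect (table v4, (C6)):

* (i) `p`-power exponents land in `H = ker`: `twe_di_hom_pow_mem`, `twe_di_pair_pow_mem`,
  `twe_di_pair_exists_odd` (`∃ m` odd with `u ^ m ∈ H` for all `u`);
* (ii) `twe_di_pair_parEll'` / `twe_di_hom_parEll'`: `u ^ (12 M) = 1 → u ∈ H` for a prime `p ≥ 5`,
  `p ∤ M` (the input of `twe_parEll_mem`);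
* (iii) the one-prime partial versions: `H_P ≤ H_{P.erase t₀}`, and modulo `H_P` the group
  `H_{P.erase t₀}` is cyclic, generated by the image of `twe_gen p P t₀`
  (`twe_di_erase_le`, `twe_di_erase_cyclic`, + the pair versions at `t₀ ∈ Q` and at `t₀ ∈ Th`).
-/

set_option autoImplicit false
set_option linter.unusedSectionVars false
set_option linter.style.haveILetI false

namespace Fermat.Agent.TW

noncomputable section

theorem twe_di_ord_ne_zero (p t : ℕ) : twe_ord p t ≠ 0 := by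
  unfold twe_ord
  by_cases hp : p = 0
  · subst hp
    have : padicValNat 0 (t - 1) = 0 := by
      unfold padicValNat
      simp
    rw [this, pow_zero]
    exact one_ne_zero
  · exact pow_ne_zero _ hp

section one

variable (p : ℕ) (P : Finset ℕ) (M : ℕ) (hP : ∀ t ∈ P, t.Prime) (hPM : ∀ t ∈ P, t ∣ M)

/-- (i) `u ^ p ^ n ∈ H_P` for `n` large. -/
theorem twe_di_hom_pow_mem (n : ℕ) (hn : ∀ t ∈ P, padicValNat p (t - 1) ≤ n) (u : (ZMod M)ˣ) :
    twe_di_hom p P M hP hPM (u ^ p ^ n) = 1 := by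
  rw [map_pow, twe_di_delta_pow p P n hn]

/-- an exponent that works for `P`. -/
def twe_di_exp (p : ℕ) (P : Finset ℕ) : ℕ := P.sup fun t => padicValNat p (t - 1)

theorem twe_di_le_exp {t : ℕ} (ht : t ∈ P) : padicValNat p (t - 1) ≤ twe_di_exp p P :=
  Finset.le_sup (f := fun t => padicValNat p (t - 1)) ht

theorem twe_di_hom_pow_exp_mem (u : (ZMod M)ˣ) :
    twe_di_hom p P M hP hPM (u ^ p ^ twe_di_exp p P) = 1 :=
  twe_di_hom_pow_mem p P M hP hPM _ (fun _ ht => twe_di_le_exp p P ht) u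

/-- (ii) for a prime `p ≥ 5` not dividing `M`: the `12 M`-torsion lies in `H_P`. -/
theorem twe_di_coprime_12 {p : ℕ} (hp : p.Prime) (hp5 : 5 ≤ p) {M : ℕ} (hpM : ¬ p ∣ M) :
    Nat.Coprime (12 * M) p := by
  rw [Nat.coprime_comm, hp.coprime_iff_not_dvd, hp.dvd_mul]
  rintro (h | h)
  · have h12 : p ∣ 2 ^ 2 * 3 := by norm_num; exact h
    rcases hp.dvd_mul.1 h12 with h2 | h3
    · have := hp.dvd_of_dvd_pow h2
      have := Nat.le_of_dvd (by norm_num) this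
      omega
    · have := Nat.le_of_dvd (by norm_num) h3
      omega
  · exact hpM h

theorem twe_di_hom_parEll' (hp : p.Prime) (hp5 : 5 ≤ p) (hpM : ¬ p ∣ M) (u : (ZMod M)ˣ)
    (hu : u ^ (12 * M) = 1) : u ∈ (twe_di_hom p P M hP hPM).ker :=
  twe_di_hom_eq_one_of_pow p P M hP hPM _ (twe_di_coprime_12 hp hp5 hpM) u hu

/-- (iii) `H_P ≤ H_{P.erase t₀}`. -/
theorem twe_di_erase_le (t₀ : ℕ) :
    (twe_di_hom p P M hP hPM).ker ≤
      (twe_di_hom p (P.erase t₀) M (fun t ht => hP t (Finset.mem_of_mem_erase ht))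
        (fun t ht => hPM t (Finset.mem_of_mem_erase ht))).ker := by
  intro u hu
  rw [MonoidHom.mem_ker] at hu ⊢
  rw [twe_di_hom_eq_iff] at hu ⊢
  intro t
  exact hu ⟨t.1, Finset.mem_of_mem_erase t.2⟩

/-- (iii) modulo `H_P`, the group `H_{P.erase t₀}` is generated by the image of
`twe_gen p P t₀`. -/
theorem twe_di_erase_cyclic (t₀ : ℕ) (ht₀ : t₀ ∈ P) (u : (ZMod M)ˣ)
    (hu : u ∈ (twe_di_hom p (P.erase t₀) M (fun t ht => hP t (Finset.mem_of_mem_erase ht))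
        (fun t ht => hPM t (Finset.mem_of_mem_erase ht))).ker) :
    ∃ k : ℕ, twe_di_hom p P M hP hPM u = twe_gen p P t₀ ht₀ ^ k := by
  classical
  rw [MonoidHom.mem_ker, twe_di_hom_eq_iff] at hu
  refine ⟨(Multiplicative.toAdd (twe_di_hom p P M hP hPM u) ⟨t₀, ht₀⟩).val, ?_⟩
  apply Multiplicative.toAdd.injective
  funext t
  rw [toAdd_pow, Pi.smul_apply]
  show _ = _ • ((Pi.single (⟨t₀, ht₀⟩ : ↥P) (1 : ZMod (twe_ord p t₀))
    : ∀ s : ↥P, ZMod (twe_ord p (s : ℕ))) t)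
  by_cases h : (t : ℕ) = t₀
  · obtain ⟨t', ht'⟩ := t
    simp only at h
    subst h
    haveI : NeZero (twe_ord p t') := ⟨twe_di_ord_ne_zero p t'⟩
    rw [Pi.single_eq_same, nsmul_eq_mul, mul_one, ZMod.natCast_zmod_val]
  · rw [Pi.single_eq_of_ne (fun h' => h (congrArg Subtype.val h')), smul_zero]
    have h1 := hu ⟨t.1, Finset.mem_erase.2 ⟨h, t.2⟩⟩
    rw [twe_di_hom_apply]
    have h2 : twe_di_loc p t.1 (hP t.1 t.2) (ZMod.unitsMap (hPM t.1 t.2) u) = 1 := h1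
    rw [h2]
    rfl

end one

section pair

variable (p : ℕ) (Q Th : Finset ℕ) (M : ℕ) (hQ : ∀ t ∈ Q, t.Prime) (hQM : ∀ t ∈ Q, t ∣ M)
  (hTh : ∀ t ∈ Th, t.Prime) (hThM : ∀ t ∈ Th, t ∣ M)

/-- (i) for the pair. -/
theorem twe_di_pair_pow_mem (n : ℕ) (hnQ : ∀ t ∈ Q, padicValNat p (t - 1) ≤ n)
    (hnTh : ∀ t ∈ Th, padicValNat p (t - 1) ≤ n) (u : (ZMod M)ˣ) :
    u ^ p ^ n ∈ (twe_di_pair p Q Th M hQ hQM hTh hThM).ker := by
  rw [MonoidHom.mem_ker, twe_di_pair_apply, Prod.mk_eq_one]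
  exact ⟨twe_di_hom_pow_mem p Q M hQ hQM n hnQ u, twe_di_hom_pow_mem p Th M hTh hThM n hnTh u⟩

/-- (i) `∃ m` odd with `u ^ m ∈ H` for all `u` (`p` odd). -/
theorem twe_di_pair_exists_odd (hp : Odd p) :
    ∃ m : ℕ, Odd m ∧ ∀ u : (ZMod M)ˣ, u ^ m ∈ (twe_di_pair p Q Th M hQ hQM hTh hThM).ker := by
  refine ⟨p ^ max (twe_di_exp p Q) (twe_di_exp p Th), hp.pow, fun u => ?_⟩
  exact twe_di_pair_pow_mem p Q Th M hQ hQM hTh hThM _
    (fun t ht => (twe_di_le_exp p Q ht).trans (le_max_left _ _))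
    (fun t ht => (twe_di_le_exp p Th ht).trans (le_max_right _ _)) u

/-- (ii) for the pair. -/
theorem twe_di_pair_parEll' (hp : p.Prime) (hp5 : 5 ≤ p) (hpM : ¬ p ∣ M) (u : (ZMod M)ˣ)
    (hu : u ^ (12 * M) = 1) : u ∈ (twe_di_pair p Q Th M hQ hQM hTh hThM).ker :=
  twe_di_pair_parEll p Q Th M hQ hQM hTh hThM (twe_di_coprime_12 hp hp5 hpM) u hu

/-- `H_{Q,Th}` satisfies the `hH` of E/New: units `≡ 1` at every `t ∈ Q ∪ Th` lie in it. -/
theorem twe_di_pair_mem_of_unitsMap (u : (ZMod M)ˣ)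
    (hQ1 : ∀ t : ↥Q, ZMod.unitsMap (hQM t.1 t.2) u = 1)
    (hTh1 : ∀ t : ↥Th, ZMod.unitsMap (hThM t.1 t.2) u = 1) :
    u ∈ (twe_di_pair p Q Th M hQ hQM hTh hThM).ker := by
  rw [MonoidHom.mem_ker, twe_di_pair_apply, Prod.mk_eq_one]
  exact ⟨twe_di_hom_eq_one_of_unitsMap p Q M hQ hQM u hQ1,
    twe_di_hom_eq_one_of_unitsMap p Th M hTh hThM u hTh1⟩

/-- (iii) at `t₀ ∈ Q`: `H_{Q,Th} ≤ H_{Q.erase t₀,Th}`. -/
theorem twe_di_pair_eraseQ_le (t₀ : ℕ) :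
    (twe_di_pair p Q Th M hQ hQM hTh hThM).ker ≤
      (twe_di_pair p (Q.erase t₀) Th M (fun t ht => hQ t (Finset.mem_of_mem_erase ht))
        (fun t ht => hQM t (Finset.mem_of_mem_erase ht)) hTh hThM).ker := by
  intro u hu
  rw [MonoidHom.mem_ker, twe_di_pair_apply, Prod.mk_eq_one] at hu ⊢
  exact ⟨twe_di_erase_le p Q M hQ hQM t₀ (MonoidHom.mem_ker.2 hu.1), hu.2⟩

/-- (iii) at `t₀ ∈ Q`: modulo `H_{Q,Th}` the group `H_{Q.erase t₀,Th}` is generated by the image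
of `(twe_gen p Q t₀, 1)`. -/
theorem twe_di_pair_eraseQ_cyclic (t₀ : ℕ) (ht₀ : t₀ ∈ Q) (u : (ZMod M)ˣ)
    (hu : u ∈ (twe_di_pair p (Q.erase t₀) Th M (fun t ht => hQ t (Finset.mem_of_mem_erase ht))
        (fun t ht => hQM t (Finset.mem_of_mem_erase ht)) hTh hThM).ker) :
    ∃ k : ℕ, twe_di_pair p Q Th M hQ hQM hTh hThM u =
      ((twe_gen p Q t₀ ht₀, 1) : twe_Delta p Q × twe_Delta p Th) ^ k := by
  rw [MonoidHom.mem_ker, twe_di_pair_apply, Prod.mk_eq_one] at hu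
  obtain ⟨k, hk⟩ := twe_di_erase_cyclic p Q M hQ hQM t₀ ht₀ u (MonoidHom.mem_ker.2 hu.1)
  refine ⟨k, ?_⟩
  rw [twe_di_pair_apply, Prod.pow_mk, one_pow, hk, hu.2]

/-- (iii) at `t₀ ∈ Th`: `H_{Q,Th} ≤ H_{Q,Th.erase t₀}`. -/
theorem twe_di_pair_eraseTh_le (t₀ : ℕ) :
    (twe_di_pair p Q Th M hQ hQM hTh hThM).ker ≤
      (twe_di_pair p Q (Th.erase t₀) M hQ hQM (fun t ht => hTh t (Finset.mem_of_mem_erase ht))
        (fun t ht => hThM t (Finset.mem_of_mem_erase ht))).ker := by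
  intro u hu
  rw [MonoidHom.mem_ker, twe_di_pair_apply, Prod.mk_eq_one] at hu ⊢
  exact ⟨hu.1, twe_di_erase_le p Th M hTh hThM t₀ (MonoidHom.mem_ker.2 hu.2)⟩

/-- (iii) at `t₀ ∈ Th`: modulo `H_{Q,Th}` the group `H_{Q,Th.erase t₀}` is generated by the image
of `(1, twe_gen p Th t₀)`. -/
theorem twe_di_pair_eraseTh_cyclic (t₀ : ℕ) (ht₀ : t₀ ∈ Th) (u : (ZMod M)ˣ)
    (hu : u ∈ (twe_di_pair p Q (Th.erase t₀) M hQ hQM
        (fun t ht => hTh t (Finset.mem_of_mem_erase ht))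
        (fun t ht => hThM t (Finset.mem_of_mem_erase ht))).ker) :
    ∃ k : ℕ, twe_di_pair p Q Th M hQ hQM hTh hThM u =
      ((1, twe_gen p Th t₀ ht₀) : twe_Delta p Q × twe_Delta p Th) ^ k := by
  rw [MonoidHom.mem_ker, twe_di_pair_apply, Prod.mk_eq_one] at hu
  obtain ⟨k, hk⟩ := twe_di_erase_cyclic p Th M hTh hThM t₀ ht₀ u (MonoidHom.mem_ker.2 hu.2)
  refine ⟨k, ?_⟩
  rw [twe_di_pair_apply, Prod.pow_mk, one_pow, hk, hu.1]

/-- the pair with `Th = ∅` is the one-set homomorphism. -/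
theorem twe_di_pair_empty_ker :
    (twe_di_pair p Q ∅ M hQ hQM (fun t ht => absurd ht (Finset.notMem_empty t))
      (fun t ht => absurd ht (Finset.notMem_empty t))).ker = (twe_di_hom p Q M hQ hQM).ker := by
  ext u
  rw [MonoidHom.mem_ker, MonoidHom.mem_ker, twe_di_pair_apply, Prod.mk_eq_one]
  refine ⟨fun h => h.1, fun h => ⟨h, ?_⟩⟩
  apply Multiplicative.toAdd.injective
  funext t
  exact absurd t.2 (Finset.notMem_empty _)

end pair

end

end Fermat.Agent.TW
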