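import Mathlib
import Fermat.Agent.TW.Aut.DeltaIso2

/-!
# Project ONE MACHINE, block [E]: E/DeltaIso, part 3 (helper28)

The hypotheses of E/Free (`twe_fk_main`, `twe_fo_main`) for the concrete `(Δ, d, H)`, in their
literal shapes: `hdk : ∀ g, d g = 1 ↔ (g : SL(2, ℤ)) ∈ twe_GamH M H`, `hneg : -1 ∈ twe_GamH M H`,
`hΔ : ∀ δ, δ ^ p ^ n = 1`, `h12`.
-/

set_option autoImplicit false
set_option linter.unusedSectionVars false

open CongruenceSubgroup Matrix.SpecialLinearGroup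
open scoped MatrixGroups

namespace Fermat.Agent.TW

noncomputable section

section pair

variable (p : ℕ) (Q Th : Finset ℕ) (M : ℕ) (hQ : ∀ t ∈ Q, t.Prime) (hQM : ∀ t ∈ Q, t ∣ M)
  (hTh : ∀ t ∈ Th, t.Prime) (hThM : ∀ t ∈ Th, t ∣ M)

/-- `hdk` of E/Free for the pair. -/
theorem twe_di_d_eq_one_iff (g : Gamma0 M) :
    twe_di_d p Q Th M hQ hQM hTh hThM g = 1 ↔
      (g : SL(2, ℤ)) ∈ twe_GamH M (twe_di_pair p Q Th M hQ hQM hTh hThM).ker := by
  rw [twe_mem_GamH]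
  constructor
  · intro h
    exact ⟨g.2, h⟩
  · rintro ⟨_, h⟩
    exact h

/-- `hneg` of E/Free for the pair (`p` odd). -/
theorem twe_di_neg_one_mem_GamH (hp : Odd p) :
    (-1 : SL(2, ℤ)) ∈ twe_GamH M (twe_di_pair p Q Th M hQ hQM hTh hThM).ker :=
  twe_neg_one_mem (MonoidHom.mem_ker.2 (twe_di_pair_neg_one p Q Th M hQ hQM hTh hThM hp))

/-- `hΔ` of E/Free for the pair. -/
theorem twe_di_pair_delta_pow (n : ℕ) (hnQ : ∀ t ∈ Q, padicValNat p (t - 1) ≤ n)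
    (hnTh : ∀ t ∈ Th, padicValNat p (t - 1) ≤ n) (δ : twe_Delta p Q × twe_Delta p Th) :
    δ ^ p ^ n = 1 := by
  obtain ⟨δ1, δ2⟩ := δ
  rw [Prod.pow_mk, twe_di_delta_pow p Q n hnQ, twe_di_delta_pow p Th n hnTh]
  rfl

/-- `hΔ` with the canonical exponent. -/
theorem twe_di_pair_delta_pow_exp (δ : twe_Delta p Q × twe_Delta p Th) :
    δ ^ p ^ max (twe_di_exp p Q) (twe_di_exp p Th) = 1 :=
  twe_di_pair_delta_pow p Q Th _
    (fun _ ht => (twe_di_le_exp p Q ht).trans (le_max_left _ _))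
    (fun _ ht => (twe_di_le_exp p Th ht).trans (le_max_right _ _)) δ

end pair

section one

variable (p : ℕ) (Q : Finset ℕ) (M : ℕ) (hQ : ∀ t ∈ Q, t.Prime) (hQM : ∀ t ∈ Q, t ∣ M)

/-- `hdk` of E/Free for one set. -/
theorem twe_di_d1_eq_one_iff (g : Gamma0 M) :
    twe_di_d1 p Q M hQ hQM g = 1 ↔
      (g : SL(2, ℤ)) ∈ twe_GamH M (twe_di_hom p Q M hQ hQM).ker := by
  rw [twe_mem_GamH]
  constructor
  · intro h
    exact ⟨g.2, h⟩
  · rintro ⟨_, h⟩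
    exact h

theorem twe_di_neg_one_mem_GamH1 (hp : Odd p) :
    (-1 : SL(2, ℤ)) ∈ twe_GamH M (twe_di_hom p Q M hQ hQM).ker :=
  twe_neg_one_mem (MonoidHom.mem_ker.2 (twe_di_neg_one_mem p Q M hQ hQM hp))

theorem twe_di_delta_pow_exp (δ : twe_Delta p Q) : δ ^ p ^ twe_di_exp p Q = 1 :=
  twe_di_delta_pow p Q _ (fun _ ht => twe_di_le_exp p Q ht) δ

end one

end

end Fermat.Agent.TW
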