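/-
ONE MACHINE / block [E] AUT, leaf E/NonEis, linear algebra (helper8).  Prefix `twe_ne_`.  Mathlib only.

`twe_ne_lin` : a representation `r : G →* End_K V` on a plane over an algebraically closed field
with `2 ≠ 0`, all of whose traces on a subgroup `G'` containing the commutators of `G` are `2`,
has a stable line.  [`tr ≡ 2` on `G'` ⟹ `det ≡ 1` (`tr g² = tr² g - 2 det g`) ⟹ all `r(g)`, `g ∈ G'`,
unipotent; two unipotents with unipotent product have ANTICOMMUTING nilpotent parts
(Cayley–Hamilton for `m + n`), so they share the fixed line (Kolchin in rank two); `G'` normal ⟹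
the fixed space of `G'` is `G`-stable; if it is everything, the image is abelian.]
-/
import Mathlib

set_option autoImplicit false
set_option linter.style.haveILetI false

namespace Fermat.Agent.TW

open Module Polynomial

variable {K V : Type*} [Field K] [AddCommGroup V] [Module K V]

/-- the characteristic polynomial in rank two. -/
theorem twe_ne_charpoly (hV : finrank K V = 2) (f : Module.End K V) :
    haveI : Module.Finite K V := Module.finite_of_finrank_eq_succ hV
    f.charpoly = X ^ 2 - C (LinearMap.trace K V f) * X + C (LinearMap.det f) := by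
  classical
  haveI : Module.Finite K V := Module.finite_of_finrank_eq_succ hV
  let b := Module.finBasisOfFinrankEq K V hV
  rw [← LinearMap.charpoly_toMatrix f b, Matrix.charpoly_fin_two,
    ← LinearMap.trace_eq_matrix_trace K b f, LinearMap.det_toMatrix b f]

/-- Cayley–Hamilton in rank two: `f² = tr(f) f - det(f)`. -/
theorem twe_ne_ch2 (hV : finrank K V = 2) (f : Module.End K V) :
    f * f = LinearMap.trace K V f • f - LinearMap.det f • (1 : Module.End K V) := by
  classical
  haveI : Module.Finite K V := Module.finite_of_finrank_eq_succ hV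
  have h1 := twe_ne_charpoly hV f
  have h2 := LinearMap.aeval_self_charpoly f
  rw [h1] at h2
  simp only [map_add, map_sub, map_mul, map_pow, aeval_X, aeval_C] at h2
  rw [Algebra.algebraMap_eq_smul_one, Algebra.algebraMap_eq_smul_one, smul_mul_assoc, one_mul,
    pow_two] at h2
  rw [← sub_eq_zero]
  rw [← h2]
  abel

/-- the trace of the square. -/
theorem twe_ne_trace_sq (hV : finrank K V = 2) (f : Module.End K V) :
    LinearMap.trace K V (f * f) = LinearMap.trace K V f ^ 2 - 2 * LinearMap.det f := by
  haveI : Module.Finite K V := Module.finite_of_finrank_eq_succ hV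
  rw [twe_ne_ch2 hV f, map_sub, map_smul, map_smul, LinearMap.trace_one, hV]
  simp only [smul_eq_mul]
  push_cast
  ring

/-- an endomorphism `h` with `tr h = tr h² = 2` is unipotent (`2 ≠ 0`). -/
theorem twe_ne_unip_sq (hV : finrank K V = 2) (h2 : (2 : K) ≠ 0) (h : Module.End K V)
    (ht : LinearMap.trace K V h = 2) (ht2 : LinearMap.trace K V (h * h) = 2) :
    (h - 1) * (h - 1) = 0 := by
  have h1 := twe_ne_trace_sq hV h
  rw [ht, ht2] at h1
  have hdet : LinearMap.det h = 1 := by
    have : (2 : K) * (LinearMap.det h - 1) = 0 := by linear_combination h1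
    rcases mul_eq_zero.1 this with h3 | h3
    · exact absurd h3 h2
    · exact sub_eq_zero.1 h3
  have h3 := twe_ne_ch2 hV h
  rw [ht, hdet, one_smul] at h3
  rw [sub_mul, mul_sub, mul_sub, h3, one_mul, mul_one, mul_one, two_smul]
  abel

/-- two unipotents `g, h` with `tr (g h) = 2` have anticommuting nilpotent parts. -/
theorem twe_ne_anticomm (hV : finrank K V = 2) (h2 : (2 : K) ≠ 0) (g h : Module.End K V)
    (hg : LinearMap.trace K V g = 2) (hh : LinearMap.trace K V h = 2)
    (hgh : LinearMap.trace K V (g * h) = 2)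
    (hg2 : (g - 1) * (g - 1) = 0) (hh2 : (h - 1) * (h - 1) = 0) :
    (g - 1) * (h - 1) = - ((h - 1) * (g - 1)) := by
  haveI : Module.Finite K V := Module.finite_of_finrank_eq_succ hV
  have t1 : LinearMap.trace K V (1 : Module.End K V) = 2 := by
    rw [LinearMap.trace_one, hV]; norm_num
  set m := g - 1 with hm
  set n := h - 1 with hn
  have tm : LinearMap.trace K V m = 0 := by rw [hm, map_sub, hg, t1, sub_self]
  have tn : LinearMap.trace K V n = 0 := by rw [hn, map_sub, hh, t1, sub_self]
  have tmn : LinearMap.trace K V (m * n) = 0 := by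
    have : m * n = g * h - g - h + 1 := by rw [hm, hn]; noncomm_ring
    rw [this, map_add, map_sub, map_sub, hgh, hg, hh, t1]; ring
  have tnm : LinearMap.trace K V (n * m) = 0 := by rw [LinearMap.trace_mul_comm, tmn]
  have hx : (m + n) * (m + n) = m * n + n * m := by
    rw [add_mul, mul_add, mul_add, hg2, hh2]; abel
  have h1 := twe_ne_ch2 hV (m + n)
  rw [map_add, tm, tn, add_zero, zero_smul, zero_sub, hx] at h1
  have h3 : LinearMap.det (m + n) = 0 := by
    have := congrArg (LinearMap.trace K V) h1
    rw [map_add, tmn, tnm, add_zero, map_neg, map_smul, t1, smul_eq_mul] at this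
    have h4 : (2 : K) * LinearMap.det (m + n) = 0 := by linear_combination this
    exact (mul_eq_zero.1 h4).resolve_left h2
  rw [h3, zero_smul, neg_zero] at h1
  exact eq_neg_of_add_eq_zero_left h1

/-- **Kolchin in rank two** (trace form): a multiplicatively closed set of endomorphisms of trace
`2`, not all equal to `1`, has a fixed space which is neither `⊥` nor `⊤`. -/
theorem twe_ne_fixed (hV : finrank K V = 2) (h2 : (2 : K) ≠ 0) (S : Set (Module.End K V))
    (hmul : ∀ g ∈ S, ∀ h ∈ S, g * h ∈ S) (htr : ∀ h ∈ S, LinearMap.trace K V h = 2)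
    (h0 : Module.End K V) (h0S : h0 ∈ S) (h0ne : h0 ≠ 1) :
    (∃ v : V, v ≠ 0 ∧ ∀ h ∈ S, h v = v) ∧ ∃ v : V, ¬ ∀ h ∈ S, h v = v := by
  haveI : Module.Finite K V := Module.finite_of_finrank_eq_succ hV
  have hun : ∀ h ∈ S, (h - 1) * (h - 1) = 0 := fun h hS =>
    twe_ne_unip_sq hV h2 h (htr h hS) (htr _ (hmul h hS h hS))
  constructor
  · -- a nonzero vector in the image of `n = h0 - 1`
    have hn0 : h0 - 1 ≠ 0 := sub_ne_zero.2 h0ne
    obtain ⟨v, hv⟩ : ∃ v, (h0 - 1) v ≠ 0 := by
      by_contra hcon
      push Not at hcon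
      exact hn0 (LinearMap.ext hcon)
    set e := (h0 - 1) v with he
    have hne : (h0 - 1) e = 0 := by
      have := LinearMap.congr_fun (hun h0 h0S) v
      rw [Module.End.mul_apply, LinearMap.zero_apply] at this
      exact this
    refine ⟨e, hv, fun g hg => ?_⟩
    -- `m e = 0`
    by_contra hge
    have hme : (g - 1) e ≠ 0 := by
      intro h
      apply hge
      have : g e - e = 0 := by simpa using h
      exact sub_eq_zero.1 this
    have hanti := twe_ne_anticomm hV h2 h0 g (htr h0 h0S) (htr g hg) (htr _ (hmul h0 h0S g hg))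
      (hun h0 h0S) (hun g hg)
    -- `n (m e) = - m (n e) = 0`
    have hnme : (h0 - 1) ((g - 1) e) = 0 := by
      have := LinearMap.congr_fun hanti e
      rw [Module.End.mul_apply, LinearMap.neg_apply, Module.End.mul_apply] at this
      rw [this, hne, map_zero, neg_zero]
    have hmme : (g - 1) ((g - 1) e) = 0 := by
      have := LinearMap.congr_fun (hun g hg) e
      rw [Module.End.mul_apply, LinearMap.zero_apply] at this
      exact this
    -- `e, m e` linearly independent
    have hli : LinearIndependent K ![e, (g - 1) e] := by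
      rw [LinearIndependent.pair_iff]
      intro s t hst
      have h1 := congrArg (⇑(g - 1 : Module.End K V)) hst
      rw [map_add, map_smul, map_smul, hmme, smul_zero, add_zero, map_zero] at h1
      have hs : s = 0 := (smul_eq_zero.1 h1).resolve_right hme
      rw [hs, zero_smul, zero_add] at hst
      exact ⟨hs, (smul_eq_zero.1 hst).resolve_right hme⟩
    let b := basisOfLinearIndependentOfCardEqFinrank hli (by rw [hV]; rfl)
    apply hn0
    apply b.ext
    intro i
    rw [coe_basisOfLinearIndependentOfCardEqFinrank]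
    fin_cases i
    · simpa using hne
    · simpa using hnme
  · obtain ⟨v, hv⟩ : ∃ v, h0 v ≠ v := by
      by_contra hcon
      push Not at hcon
      exact h0ne (LinearMap.ext hcon)
    exact ⟨v, fun h => hv (h h0 h0S)⟩

/-- a commuting family of endomorphisms of a plane over an algebraically closed field has a
stable line. -/
theorem twe_ne_comm [IsAlgClosed K] (hV : finrank K V = 2) (F : Set (Module.End K V))
    (hF : ∀ f ∈ F, ∀ g ∈ F, f * g = g * f) :
    ∃ W : Submodule K V, W ≠ ⊥ ∧ W ≠ ⊤ ∧ ∀ f ∈ F, ∀ v ∈ W, f v ∈ W := by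
  haveI : Module.Finite K V := Module.finite_of_finrank_eq_succ hV
  haveI : Nontrivial V := Module.nontrivial_of_finrank_pos (R := K) (by rw [hV]; norm_num)
  by_cases hsc : ∀ f ∈ F, ∃ c : K, f = c • (1 : Module.End K V)
  · obtain ⟨v, hv⟩ := exists_ne (0 : V)
    refine ⟨K ∙ v, ?_, ?_, ?_⟩
    · rw [Ne, Submodule.span_singleton_eq_bot]; exact hv
    · intro htop
      have h1 : finrank K (K ∙ v) = 1 := finrank_span_singleton hv
      rw [htop, finrank_top, hV] at h1
      norm_num at h1
    · intro f hf w hw
      obtain ⟨c, rfl⟩ := hsc f hf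
      simpa using Submodule.smul_mem _ c hw
  · push Not at hsc
    obtain ⟨f, hf, hfs⟩ := hsc
    obtain ⟨μ, hμ⟩ := Module.End.exists_eigenvalue f
    refine ⟨Module.End.eigenspace f μ, hμ, ?_, ?_⟩
    · intro htop
      apply hfs μ
      ext v
      have : v ∈ Module.End.eigenspace f μ := by rw [htop]; trivial
      rw [Module.End.mem_eigenspace_iff] at this
      simpa using this
    · intro g hg v hv
      rw [Module.End.mem_eigenspace_iff] at hv ⊢
      have := congrArg (fun x : Module.End K V => x v) (hF f hf g hg)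
      simp only [Module.End.mul_apply] at this
      rw [this, hv, map_smul]

/-- **E/NonEis, linear algebra.**  A representation of `G` on a plane over an algebraically closed
field of characteristic `≠ 2`, all of whose traces on a subgroup `G'` containing the commutators
are `2`, is reducible. -/
theorem twe_ne_lin [IsAlgClosed K] (hV : finrank K V = 2) (h2 : (2 : K) ≠ 0) {G : Type*} [Group G]
    (r : G →* Module.End K V) (G' : Subgroup G) (hcomm : ∀ g h : G, g * h * g⁻¹ * h⁻¹ ∈ G')
    (htr : ∀ σ ∈ G', LinearMap.trace K V (r σ) = 2) :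
    ∃ W : Submodule K V, W ≠ ⊥ ∧ W ≠ ⊤ ∧ ∀ g : G, ∀ v ∈ W, r g v ∈ W := by
  by_cases hall : ∀ σ ∈ G', r σ = 1
  · -- abelian image
    obtain ⟨W, h1, h2', h3⟩ := twe_ne_comm hV (Set.range r) (by
      rintro _ ⟨g, rfl⟩ _ ⟨h, rfl⟩
      have := hall _ (hcomm g h)
      rw [map_mul, map_mul, map_mul] at this
      have e : r g * r h = (r g * r h * r g⁻¹ * r h⁻¹) * (r h * r g) := by
        have i1 : r h⁻¹ * r h = 1 := by rw [← map_mul, inv_mul_cancel, map_one]
        have i2 : r g⁻¹ * r g = 1 := by rw [← map_mul, inv_mul_cancel, map_one]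
        calc r g * r h = r g * r h * (r g⁻¹ * r g) := by rw [i2, mul_one]
          _ = r g * r h * r g⁻¹ * (r h⁻¹ * r h) * r g := by rw [i1, mul_one]; noncomm_ring
          _ = _ := by noncomm_ring
      rw [e, this, one_mul])
    exact ⟨W, h1, h2', fun g v hv => h3 (r g) ⟨g, rfl⟩ v hv⟩
  · push Not at hall
    obtain ⟨σ0, hσ0, hne⟩ := hall
    obtain ⟨⟨e, he0, hefix⟩, ⟨v, hv⟩⟩ := twe_ne_fixed hV h2 (r '' (G' : Set G))
      (by
        rintro _ ⟨a, ha, rfl⟩ _ ⟨b, hb, rfl⟩
        exact ⟨a * b, G'.mul_mem ha hb, map_mul r a b⟩)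
      (by
        rintro _ ⟨a, ha, rfl⟩
        exact htr a ha)
      (r σ0) ⟨σ0, hσ0, rfl⟩ hne
    let W : Submodule K V :=
      { carrier := {w | ∀ σ ∈ G', r σ w = w}
        add_mem' := fun {a b} ha hb σ hσ => by rw [map_add, ha σ hσ, hb σ hσ]
        zero_mem' := fun σ _ => map_zero _
        smul_mem' := fun c a ha σ hσ => by rw [map_smul, ha σ hσ] }
    refine ⟨W, ?_, ?_, ?_⟩
    · intro hbot
      have : e ∈ W := fun σ hσ => hefix _ ⟨σ, hσ, rfl⟩
      rw [hbot, Submodule.mem_bot] at this
      exact he0 this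
    · intro htop
      apply hv
      rintro _ ⟨σ, hσ, rfl⟩
      have : v ∈ W := by rw [htop]; trivial
      exact this σ hσ
    · intro g w hw σ hσ
      -- `σ g = g (g⁻¹ σ g)`, and `g⁻¹ σ g = (g⁻¹ σ g σ⁻¹) σ ∈ G'`
      have hconj : g⁻¹ * σ * g ∈ G' := by
        have h1 := hcomm g⁻¹ σ
        rw [inv_inv] at h1
        have := G'.mul_mem h1 hσ
        rwa [inv_mul_cancel_right] at this
      have e1 : σ * g = g * (g⁻¹ * σ * g) := by group
      have : r σ (r g w) = (r (σ * g)) w := by rw [map_mul]; rfl
      rw [this, e1, map_mul, Module.End.mul_apply, hw _ hconj]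

end Fermat.Agent.TW
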