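/-
ONE MACHINE / block [E] AUT, leaf E/NonEis (helper8).  Prefix `twe_ne_`.

`twe_ne_main` : `twt_Compat θ ρ̄`, `ρ̄` absolutely irreducible, `2 ≠ 0` in `k`, `0 < M`, `S'` finite
⟹ there is a prime `ℓ ∤ N`, `ℓ ∉ S ∪ S'`, `ℓ ≡ 1 mod M`, with `θ(T_ℓ) ≠ 2`.

Proof: otherwise `tr ρ̄ ≡ 2` on `G_{ℚ(ζ_M)}` by Chebotarev in existence form (`s56c_exists`: every
`σ` agrees on a finite level with a Frobenius element `τ` at a good prime `ℓ`; `τ` fixes `ζ_M`, so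
`ℓ ≡ 1 mod M` by `s56c_dvd_sub_one`), and `twe_ne_lin` (NonEisLin.lean) produces a stable line of
`K̄ ⊗ ρ̄`, contradicting absolute irreducibility (`G_{ℚ(ζ_M)}` contains the commutators:
`s56g_cyc_comm`).
-/
import Fermat.Agent.TW.Aut.NonEisLin
import Fermat.Agent.TW.Top.CoreSeam2
import Fermat.Agent.S56.Cheb.TW

set_option autoImplicit false
set_option linter.style.haveILetI false

namespace Fermat.Agent.TW

open Polynomial CuspForm Fermat.Agent.S56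

/-- **E/NonEis.**  A mod-`p` eigensystem `θ` compatible with an absolutely irreducible `ρ̄`
(`2 ≠ 0` in `k`) is not Eisenstein along ANY arithmetic progression `ℓ ≡ 1 mod M`: there is a good
prime `ℓ ≡ 1 mod M`, outside any given finite set `S'`, with `θ(T_ℓ) ≠ 2`. -/
theorem twe_ne_main {k : Type} [Field k] (h2 : (2 : k) ≠ 0) {N : ℕ} [NeZero N] {S : Finset ℕ}
    (θ : heckeAlgebra N 2 (↑S : Set ℕ) →+* k) (ρbar : ResidualGaloisRep k)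
    (hcompat : twt_Compat θ ρbar) (habs : ρbar.IsAbsolutelyIrreducible)
    (M : ℕ) (hM : 0 < M) (S' : Finset ℕ) :
    ∃ (ℓ : ℕ) (hℓ : ℓ.Prime) (hℓN : ¬ ℓ ∣ N) (hℓS : ℓ ∉ (↑S : Set ℕ)),
      ℓ ∉ S' ∧ M ∣ ℓ - 1 ∧ θ (heckeAlgebra.T hℓ hℓN hℓS) ≠ 2 := by
  classical
  by_contra hcon
  have hall : ∀ (ℓ : ℕ) (hℓ : ℓ.Prime) (hℓN : ¬ ℓ ∣ N) (hℓS : ℓ ∉ (↑S : Set ℕ)),
      ℓ ∉ S' → M ∣ ℓ - 1 → θ (heckeAlgebra.T hℓ hℓN hℓS) = 2 := by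
    intro ℓ hℓ hℓN hℓS h1 h2'
    by_contra h3
    exact hcon ⟨ℓ, hℓ, hℓN, hℓS, h1, h2', h3⟩
  have hN0 : N ≠ 0 := NeZero.ne N
  -- Step 1: the traces on `G_{ℚ(ζ_M)}` are `2`
  have htr : ∀ σ ∈ s56g_cyc M, LinearMap.trace k ρbar.V (ρbar.ρ σ) = 2 := by
    intro σ hσ
    obtain ⟨L0, hL0, hfac⟩ := ρbar.factorsThroughFiniteLevel
    have hfd : FiniteDimensional ℚ ↥(L0 ⊔ s56c_cycField M) := by
      haveI := hL0
      haveI := s56c_cycField_finiteDimensional M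
      exact IntermediateField.finiteDimensional_sup _ _
    obtain ⟨ℓ, A, τ, hℓ, hℓS, hA, hτ, hτσ⟩ :=
      s56c_exists (L0 ⊔ s56c_cycField M) hfd (S ∪ S' ∪ N.primeFactors ∪ M.primeFactors) σ
    simp only [Finset.mem_union, not_or] at hℓS
    obtain ⟨⟨⟨hS1, hS2⟩, hS3⟩, hS4⟩ := hℓS
    have hℓN : ¬ ℓ ∣ N := fun h => hS3 (Nat.mem_primeFactors.2 ⟨hℓ, h, hN0⟩)
    have hℓM : ¬ ℓ ∣ M := fun h => hS4 (Nat.mem_primeFactors.2 ⟨hℓ, h, hM.ne'⟩)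
    have hℓS'' : ℓ ∉ (↑S : Set ℕ) := fun h => hS1 (Finset.mem_coe.1 h)
    have hτcyc : τ ∈ s56g_cyc M :=
      s56c_mem_cyc_of_eq hM hσ (fun x hx => hτσ x ((le_sup_right : _ ≤ L0 ⊔ _) hx))
    have hcop : Nat.Coprime M ℓ := ((Nat.Prime.coprime_iff_not_dvd hℓ).2 hℓM).symm
    have hdvd := s56c_dvd_sub_one hℓ hcop A hA hτ hτcyc
    have hρ : ρbar.ρ τ = ρbar.ρ σ := by
      have h1 : ρbar.ρ (σ⁻¹ * τ) = 1 := hfac _ (fun x hx => by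
        show σ⁻¹ (τ x) = x
        rw [hτσ x ((le_sup_left : L0 ≤ L0 ⊔ _) hx)]
        exact σ.symm_apply_apply x)
      rw [map_mul] at h1
      calc ρbar.ρ τ = ρbar.ρ σ * (ρbar.ρ σ⁻¹ * ρbar.ρ τ) := by
            rw [← mul_assoc, ← map_mul, mul_inv_cancel, map_one, one_mul]
        _ = ρbar.ρ σ := by rw [h1, mul_one]
    have hch := hcompat ℓ hℓ hℓN hℓS'' A hA τ hτ
    rw [hall ℓ hℓ hℓN hℓS'' hS2 hdvd, hρ, twe_ne_charpoly ρbar.finrank_eq] at hch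
    have h7 := congrArg (fun q => q.coeff 1) hch
    simp only [coeff_add, coeff_sub, coeff_X_pow, coeff_C_mul, coeff_X_one, coeff_C] at h7
    norm_num at h7
    exact h7
  -- Step 2: over the algebraic closure
  set Kb := AlgebraicClosure k with hKb
  have h2K : (2 : Kb) ≠ 0 := by
    intro h
    apply h2
    apply (algebraMap k Kb).injective
    rw [map_ofNat, map_zero]
    exact h
  have htrK : ∀ σ ∈ s56g_cyc M,
      LinearMap.trace Kb (ρbar.baseChange Kb).V ((ρbar.baseChange Kb).ρ σ) = 2 := by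
    intro σ hσ
    have e1 : (ρbar.baseChange Kb).ρ σ = (ρbar.ρ σ).baseChange Kb := rfl
    rw [e1]
    erw [LinearMap.trace_baseChange (ρbar.ρ σ) Kb]
    rw [htr σ hσ, map_ofNat]
  obtain ⟨W, hW0, hW1, hWst⟩ := twe_ne_lin (ρbar.baseChange Kb).finrank_eq h2K
    (ρbar.baseChange Kb).ρ (s56g_cyc M) (fun g h => s56g_cyc_comm M hM.ne' g h) htrK
  rcases habs W (fun σ x hx => hWst σ x hx) with h | h
  · exact hW0 h
  · exact hW1 h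

/-- the same with the hypotheses in the shape of the CORE seam (`CharP k p`, `p ≠ 2`). -/
theorem twe_ne_main' {p : ℕ} [Fact p.Prime] (hp2 : p ≠ 2) {k : Type} [Field k] [CharP k p]
    {N : ℕ} [NeZero N] {S : Finset ℕ}
    (θ : heckeAlgebra N 2 (↑S : Set ℕ) →+* k) (ρbar : ResidualGaloisRep k)
    (hcompat : twt_Compat θ ρbar) (habs : ρbar.IsAbsolutelyIrreducible)
    (M : ℕ) (hM : 0 < M) (S' : Finset ℕ) :
    ∃ (ℓ : ℕ) (hℓ : ℓ.Prime) (hℓN : ¬ ℓ ∣ N) (hℓS : ℓ ∉ (↑S : Set ℕ)),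
      ℓ ∉ S' ∧ M ∣ ℓ - 1 ∧ θ (heckeAlgebra.T hℓ hℓN hℓS) ≠ 2 := by
  refine twe_ne_main ?_ θ ρbar hcompat habs M hM S'
  intro h
  have h1 : ((2 : ℕ) : k) = 0 := by exact_mod_cast h
  rw [CharP.cast_eq_zero_iff k p] at h1
  exact hp2 ((Nat.prime_dvd_prime_iff_eq (Fact.out : p.Prime) Nat.prime_two).1 h1)

/-- the Eisenstein form: if moreover `p ∣ M` then `ℓ = 1` in `k` and `θ(T_ℓ) ≠ ℓ + 1`. -/
theorem twe_ne_main_eis {p : ℕ} [Fact p.Prime] (hp2 : p ≠ 2) {k : Type} [Field k] [CharP k p]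
    {N : ℕ} [NeZero N] {S : Finset ℕ}
    (θ : heckeAlgebra N 2 (↑S : Set ℕ) →+* k) (ρbar : ResidualGaloisRep k)
    (hcompat : twt_Compat θ ρbar) (habs : ρbar.IsAbsolutelyIrreducible)
    (M : ℕ) (hM : 0 < M) (hpM : p ∣ M) (S' : Finset ℕ) :
    ∃ (ℓ : ℕ) (hℓ : ℓ.Prime) (hℓN : ¬ ℓ ∣ N) (hℓS : ℓ ∉ (↑S : Set ℕ)),
      ℓ ∉ S' ∧ M ∣ ℓ - 1 ∧ (ℓ : k) = 1 ∧ θ (heckeAlgebra.T hℓ hℓN hℓS) ≠ (ℓ : k) + 1 := by
  obtain ⟨ℓ, hℓ, hℓN, hℓS, h1, h2', h3⟩ := twe_ne_main' hp2 θ ρbar hcompat habs M hM S'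
  have hℓ1 : (ℓ : k) = 1 := by
    have h4 : ℓ = (ℓ - 1) + 1 := (Nat.sub_add_cancel hℓ.one_lt.le).symm
    have h5 : ((ℓ - 1 : ℕ) : k) = 0 := (CharP.cast_eq_zero_iff k p _).2 (hpM.trans h2')
    rw [h4, Nat.cast_add, h5, zero_add, Nat.cast_one]
  refine ⟨ℓ, hℓ, hℓN, hℓS, h1, h2', hℓ1, ?_⟩
  rw [hℓ1]
  norm_num
  exact h3

end Fermat.Agent.TW
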