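import Mathlib
import Fermat.Agent.JT3.T2.Faithful

/-!
# TW / [E] E/RelGamma0: restriction `H₁(X₀(N'')) → H₁(X₀(N'))` for `N' ∣ N''` (prefix `twe_rg_`)

For `N' ∣ N''` the inclusion `Γ₀(N'') ≤ Γ₀(N')` induces `twe_rg_res : gh_H N'' →+ gh_H N'`, and
precomposition with it is

  `twe_rg_P h A : (gh_H N' →+ A) →+ (gh_H N'' →+ A)`.

* `twe_rg_res_TH` / `twe_rg_P_TH` : Hecke equivariance at every prime `ℓ ∤ N''`
  (the Hecke cocycle `t2c_coc` only depends on the matrix, `t2c_coc_unique`);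
* `twe_rg_P_injective` : `P` is injective for torsion-free `A` (every element of `Γ₀(N')` has a
  positive power in `Γ₀(N'')`).
-/

set_option autoImplicit false
set_option linter.unusedSectionVars false
set_option linter.unusedVariables false

noncomputable section

open CongruenceSubgroup Matrix.SpecialLinearGroup
open scoped MatrixGroups

namespace Fermat.Agent.TW

open Fermat.Agent.JT3

variable {N' N'' : ℕ}

/-- `Γ₀(N'') ≤ Γ₀(N')` for `N' ∣ N''` -/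
theorem twe_rg_le (h : N' ∣ N'') : Gamma0 N'' ≤ Gamma0 N' := fun _ hg =>
  t2c_mem_of_dvd ((Int.natCast_dvd_natCast.mpr h).trans (t2c_dvd_of_mem hg))

/-- the inclusion `Γ₀(N'') → Γ₀(N')` -/
def twe_rg_incl (h : N' ∣ N'') : Gamma0 N'' →* Gamma0 N' := Subgroup.inclusion (twe_rg_le h)

@[simp]
theorem twe_rg_incl_coe (h : N' ∣ N'') (γ : Gamma0 N'') :
    ((twe_rg_incl h γ : Gamma0 N') : SL(2, ℤ)) = (γ : SL(2, ℤ)) := rfl

theorem twe_rg_incl_parEll (h : N' ∣ N'') (γ : Gamma0 N'') (hγ : gh_IsParEll N'' γ) :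
    gh_IsParEll N' (twe_rg_incl h γ) := hγ

/-- **the restriction** `H₁(X₀(N'')) → H₁(X₀(N'))` -/
def twe_rg_res (h : N' ∣ N'') : gh_H N'' →+ gh_H N' :=
  gh_lift ((gh_mk N').comp (MonoidHom.toAdditive (twe_rg_incl h)))
    (fun γ hγ => show ((gh_mk N').comp (MonoidHom.toAdditive (twe_rg_incl h)))
        (Additive.ofMul γ) = 0 from gh_mk_parEll N' _ (twe_rg_incl_parEll h γ hγ))

theorem twe_rg_res_mk (h : N' ∣ N'') (γ : Gamma0 N'') :
    twe_rg_res h (gh_mk N'' (Additive.ofMul γ)) = gh_mk N' (Additive.ofMul (twe_rg_incl h γ)) := by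
  rw [twe_rg_res, gh_lift_mk]
  rfl

theorem twe_rg_res_comp_mk (h : N' ∣ N'') :
    (twe_rg_res h).comp (gh_mk N'') = (gh_mk N').comp (MonoidHom.toAdditive (twe_rg_incl h)) := by
  refine AddMonoidHom.ext fun x => ?_
  rw [AddMonoidHom.comp_apply, twe_rg_res, gh_lift_mk]

/-- transitivity -/
theorem twe_rg_res_res {N''' : ℕ} (h : N' ∣ N'') (h' : N'' ∣ N''') :
    (twe_rg_res h).comp (twe_rg_res h') = twe_rg_res (h.trans h') := by
  refine gh_hom_ext fun x => ?_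
  obtain ⟨γ, rfl⟩ := Additive.ofMul.surjective x
  rw [AddMonoidHom.comp_apply, twe_rg_res_mk, twe_rg_res_mk, twe_rg_res_mk]
  rfl

theorem twe_rg_res_refl (h : N' ∣ N') : twe_rg_res h = AddMonoidHom.id _ := by
  refine gh_hom_ext fun x => ?_
  obtain ⟨γ, rfl⟩ := Additive.ofMul.surjective x
  rw [twe_rg_res_mk]
  rfl

/-! ### Hecke equivariance -/

section hecke

variable {ℓ : ℕ} [Fact ℓ.Prime]

/-- the Hecke cocycle does not depend on the level -/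
theorem twe_rg_coc (h : N' ∣ N'') (hℓ'' : ¬ ℓ ∣ N'') (hℓ' : ¬ ℓ ∣ N') (x : OnePoint (ZMod ℓ))
    (γ : Gamma0 N'') :
    t2c_coc hℓ' x (twe_rg_incl h γ) = twe_rg_incl h (t2c_coc hℓ'' x γ) := by
  apply Subtype.ext
  apply t2c_coc_unique
  exact t2c_coc_spec hℓ'' x γ

theorem twe_rg_res_TH' (h : N' ∣ N'') (hℓ'' : ¬ ℓ ∣ N'') (hℓ' : ¬ ℓ ∣ N') (y : gh_H N'') :
    twe_rg_res h (t2e_TH hℓ'' y) = t2e_TH hℓ' (twe_rg_res h y) := by
  obtain ⟨x, rfl⟩ := gh_mk_surjective N'' y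
  obtain ⟨γ, rfl⟩ := Additive.ofMul.surjective x
  rw [t2e_TH_mk, map_sum, twe_rg_res_mk, t2e_TH_mk]
  refine Finset.sum_congr rfl fun x _ => ?_
  rw [twe_rg_res_mk, twe_rg_coc h hℓ'' hℓ']

end hecke

/-- **Hecke equivariance of the restriction**: `res ∘ T_ℓ = T_ℓ ∘ res` for every prime
`ℓ ∤ N''`. -/
theorem twe_rg_res_TH [NeZero N'] [NeZero N''] (h : N' ∣ N'') {ℓ : ℕ} (hℓ : ℓ.Prime)
    (hℓN : ¬ ℓ ∣ N'') (y : gh_H N'') :
    twe_rg_res h (t2f_TH N'' ℓ y) = t2f_TH N' ℓ (twe_rg_res h y) := by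
  have : Fact ℓ.Prime := ⟨hℓ⟩
  have hℓ' : ¬ ℓ ∣ N' := fun h1 => hℓN (h1.trans h)
  rw [t2f_TH_apply hℓ hℓN, t2f_TH_apply hℓ hℓ']
  exact twe_rg_res_TH' h hℓN hℓ' y

/-! ### the map on `Hom(H₁, A)` -/

section P

variable (A : Type*) [AddCommGroup A]

/-- **`P : Hom(H₁(X₀(N')), A) → Hom(H₁(X₀(N'')), A)`**, precomposition with the restriction -/
def twe_rg_P (h : N' ∣ N'') : (gh_H N' →+ A) →+ (gh_H N'' →+ A) where
  toFun c := c.comp (twe_rg_res h)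
  map_zero' := AddMonoidHom.zero_comp _
  map_add' c c' := AddMonoidHom.add_comp _ _ _

variable {A}

@[simp]
theorem twe_rg_P_apply (h : N' ∣ N'') (c : gh_H N' →+ A) (y : gh_H N'') :
    twe_rg_P A h c y = c (twe_rg_res h y) := rfl

theorem twe_rg_P_mk (h : N' ∣ N'') (c : gh_H N' →+ A) (γ : Gamma0 N'') :
    twe_rg_P A h c (gh_mk N'' (Additive.ofMul γ)) =
      c (gh_mk N' (Additive.ofMul (twe_rg_incl h γ))) := by
  rw [twe_rg_P_apply, twe_rg_res_mk]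

/-- **Hecke equivariance of `P`** at every prime `ℓ ∤ N''` -/
theorem twe_rg_P_TH [NeZero N'] [NeZero N''] (h : N' ∣ N'') {ℓ : ℕ} (hℓ : ℓ.Prime)
    (hℓN : ¬ ℓ ∣ N'') (c : gh_H N' →+ A) :
    twe_rg_P A h (c.comp (t2f_TH N' ℓ).toAddMonoidHom) =
      (twe_rg_P A h c).comp (t2f_TH N'' ℓ).toAddMonoidHom := by
  refine AddMonoidHom.ext fun y => ?_
  show c (t2f_TH N' ℓ (twe_rg_res h y)) = c (twe_rg_res h (t2f_TH N'' ℓ y))
  rw [twe_rg_res_TH h hℓ hℓN]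

/-- pointwise form -/
theorem twe_rg_P_TH_apply [NeZero N'] [NeZero N''] (h : N' ∣ N'') {ℓ : ℕ} (hℓ : ℓ.Prime)
    (hℓN : ¬ ℓ ∣ N'') (c : gh_H N' →+ A) (y : gh_H N'') :
    twe_rg_P A h c (t2f_TH N'' ℓ y) = c (t2f_TH N' ℓ (twe_rg_res h y)) := by
  rw [twe_rg_P_apply, twe_rg_res_TH h hℓ hℓN]

/-- every element of `Γ₀(N')` has a positive power in `Γ₀(N'')` -/
theorem twe_rg_exists_pow [NeZero N''] (h : N' ∣ N'') (g : Gamma0 N') :
    ∃ (n : ℕ) (hn : 0 < n) (hg : (g : SL(2, ℤ)) ^ n ∈ Gamma0 N''),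
      twe_rg_incl h ⟨(g : SL(2, ℤ)) ^ n, hg⟩ = g ^ n := by
  obtain ⟨n, hn, -, hmem⟩ := Subgroup.exists_pow_mem_of_index_ne_zero
    (Subgroup.FiniteIndex.index_ne_zero (H := Gamma0 N'')) (g : SL(2, ℤ))
  exact ⟨n, hn, hmem, Subtype.ext rfl⟩

/-- **`P` is injective** for torsion-free `A` -/
theorem twe_rg_P_injective [NeZero N''] (h : N' ∣ N'')
    (hA : ∀ (n : ℕ) (a : A), n ≠ 0 → n • a = 0 → a = 0) :
    Function.Injective (twe_rg_P A h) := by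
  rw [injective_iff_map_eq_zero]
  intro c hc
  refine gh_hom_ext fun x => ?_
  obtain ⟨g, rfl⟩ := Additive.ofMul.surjective x
  obtain ⟨n, hn, hg, hgn⟩ := twe_rg_exists_pow h g
  have h1 := twe_rg_P_mk h c ⟨(g : SL(2, ℤ)) ^ n, hg⟩
  rw [hc, AddMonoidHom.zero_apply, hgn, ofMul_pow, map_nsmul, map_nsmul] at h1
  rw [AddMonoidHom.zero_apply]
  exact hA n _ hn.ne' h1.symm

/-- **`P` is injective**, `IsAddTorsionFree` form -/
theorem twe_rg_P_injective' [NeZero N''] [IsAddTorsionFree A] (h : N' ∣ N'') :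
    Function.Injective (twe_rg_P A h) :=
  twe_rg_P_injective h fun n a hn ha =>
    (nsmul_right_injective hn) (ha.trans (nsmul_zero n).symm)

end P

end Fermat.Agent.TW

end
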