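import Mathlib
import Fermat.Agent.TW.Aut.SeamAct
import Fermat.Agent.TW.Aut.RelGamma0

/-!
# Project ONE MACHINE, block [E] AUT, E/Seam cell (C3): `twe_sm_Hom_stmt` (helper26)

Prefix `twe_sh_`.  The Hecke ring of a FULL base package of level `N₁` maps to the Hecke ring of
any base package of level `N₂ ∣ N₁`, `T_ℓ ↦ T_ℓ`:  `twe_at_hom` with `X = Hom(gh_H N₁, 𝒪)`,
`Y = Hom(gh_H N₂, 𝒪)` (both indexed by the good primes of `(N₁, S₁)`), the relation transfer coming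
from the injective Hecke-equivariant map `P : Y → X` (`twe_rg_P`).
-/

set_option autoImplicit false
set_option linter.unusedSectionVars false

namespace Fermat.Agent.TW

open Polynomial CuspForm IsLocalRing Fermat.Agent.JT3 CongruenceSubgroup

noncomputable section

/-- `P : Hom(gh_H N', 𝒪) → Hom(gh_H N'', 𝒪)` as an `𝒪`-linear map. -/
def twe_sh_P (𝒪 : Type*) [CommRing 𝒪] {N' N'' : ℕ} (h : N' ∣ N'') :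
    (gh_H N' →+ 𝒪) →ₗ[𝒪] (gh_H N'' →+ 𝒪) where
  toFun c := twe_rg_P 𝒪 h c
  map_add' c c' := map_add _ c c'
  map_smul' _ _ := rfl

theorem twe_sh_P_apply (𝒪 : Type*) [CommRing 𝒪] {N' N'' : ℕ} (h : N' ∣ N'')
    (c : gh_H N' →+ 𝒪) : twe_sh_P 𝒪 h c = twe_rg_P 𝒪 h c := rfl

theorem twe_sh_P_injective (𝒪 : Type*) [CommRing 𝒪] [IsDomain 𝒪] [CharZero 𝒪] {N' N'' : ℕ}
    [NeZero N''] (h : N' ∣ N'') : Function.Injective (twe_sh_P 𝒪 h) := by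
  intro c c' hcc
  refine twe_rg_P_injective (A := 𝒪) h (fun n a hn hna => ?_) hcc
  rw [nsmul_eq_mul] at hna
  rcases mul_eq_zero.mp hna with h0 | h0
  · exact absurd h0 (Nat.cast_ne_zero.mpr hn)
  · exact h0

/-- `P` intertwines the Hecke operators at the primes `q i ∤ N''`. -/
theorem twe_sh_P_TX (𝒪 : Type*) [CommRing 𝒪] {N' N'' : ℕ} [NeZero N'] [NeZero N'']
    (h : N' ∣ N'') {I : Type*} (q : I → ℕ) (hq : ∀ i, (q i).Prime) (hqN : ∀ i, ¬ q i ∣ N'')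
    (i : I) (c : gh_H N' →+ 𝒪) :
    twe_sh_P 𝒪 h (twe_sm_TX 𝒪 N' q i c) = twe_sm_TX 𝒪 N'' q i (twe_sh_P 𝒪 h c) := by
  rw [twe_sm_TX_apply, twe_sm_TX_apply, twe_sh_P_apply, twe_sh_P_apply]
  exact twe_rg_P_TH h (hq i) (hqN i) c

/-- **(C3)**. -/
theorem twe_sh_main : twe_sm_Hom_stmt := by
  intro 𝒪 _ _ _ _ _ N₁ N₂ _ _ S₁ S₂ θ₁ θ₂ B₁ B₂ hfull hN hS hN₁S₁ hθ
  classical
  haveI : Module.Finite 𝒪 (gh_H N₁ →+ 𝒪) := tm_hom_finite (gh_H N₁) 𝒪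
  haveI : Module.Finite 𝒪 (gh_H N₂ →+ 𝒪) := tm_hom_finite (gh_H N₂) 𝒪
  -- a lift `a` of `θ₁`
  have hsurj : Function.Surjective (residue 𝒪) := residue_surjective
  choose a ha using fun ℓ : twe_sm_Idx N₁ S₁ =>
    hsurj (θ₁ (heckeAlgebra.T ℓ.2.1 ℓ.2.2.1 ℓ.2.2.2))
  have haL : twe_sm_IsLift θ₁ a := ha
  -- the good primes of `(N₁, S₁)` are good for `(N₂, S₂)`
  have h3 : ∀ ℓ : twe_sm_Idx N₁ S₁, ¬ ℓ.1 ∣ N₂ := fun ℓ h => ℓ.2.2.1 (h.trans hN)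
  have h4 : ∀ ℓ : twe_sm_Idx N₁ S₁, ℓ.1 ∉ (↑S₂ : Set ℕ) :=
    fun ℓ h => ℓ.2.2.2 (Finset.coe_subset.mpr hS h)
  obtain ⟨τS, hτS⟩ : ∃ τS : twe_sm_Idx N₁ S₁ → B₂.T,
      ∀ ℓ, τS ℓ = B₂.H.π (heckeAlgebra.T ℓ.2.1 (h3 ℓ) (h4 ℓ)) := ⟨_, fun _ => rfl⟩
  -- the relation transfer along `P`
  have hrel : twe_at_Rel (twe_sm_TX 𝒪 N₁ (twe_sm_q N₁ S₁)) (twe_sm_TX 𝒪 N₂ (twe_sm_q N₁ S₁)) :=
    twe_at_rel_of_injective _ _ (twe_sm_TX 𝒪 N₁ (twe_sm_q N₁ S₁)) (twe_sh_P 𝒪 hN)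
      (twe_sh_P_injective 𝒪 hN)
      (fun ℓ y => twe_sh_P_TX 𝒪 hN (twe_sm_q N₁ S₁) (fun i => i.2.1) (fun i => i.2.2.1) ℓ y)
      (twe_at_rel_refl _)
  -- `B₂.T` acts on `𝒪^d₂ ⊆ Y` through the operators indexed by the good primes of `(N₁, S₁)`
  have hι₁ : ∀ (ℓ : twe_sm_Idx N₁ S₁) (y : Fin B₂.d → 𝒪),
      B₂.ι (twe_sa_actBase B₂ (τS ℓ) y) = twe_sm_TX 𝒪 N₂ (twe_sm_q N₁ S₁) ℓ (B₂.ι y) := by
    intro ℓ y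
    rw [twe_sa_actBase_apply, hτS]
    exact B₂.ι_hecke ℓ.1 ℓ.2.1 (h3 ℓ) (h4 ℓ) y
  have hres : ∀ ℓ : twe_sm_Idx N₁ S₁, τS ℓ - algebraMap 𝒪 B₂.T (a ℓ) ∈ maximalIdeal B₂.T := by
    intro ℓ
    rw [← residue_eq_zero_iff, map_sub, sub_eq_zero, hτS, B₂.H.residue_π,
      ← hθ ℓ.1 ℓ.2.1 ℓ.2.2.1 ℓ.2.2.2 (h3 ℓ) (h4 ℓ), ← ha ℓ]
    rfl
  have hprim : ∀ y : Fin B₂.d → 𝒪,
      B₂.ι y ∈ twe_pr_prim (twe_sm_TX 𝒪 N₂ (twe_sm_q N₁ S₁)) a := by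
    intro y
    have h := twe_at_prim_of_local (twe_sa_actBase B₂) τS a hres y
    exact twe_pr_map_prim B₂.ι _ _ (fun ℓ y => hι₁ ℓ y) a h
  obtain ⟨π, hπ⟩ := twe_at_hom (twe_sm_TX 𝒪 N₁ (twe_sm_q N₁ S₁))
    (fun i j => twe_sa_commX N₁ _ i j) (twe_sm_TX 𝒪 N₂ (twe_sm_q N₁ S₁)) a hrel
    (twe_sa_actBase B₁) (twe_sa_tau B₁) (twe_sa_gen B₁ hN₁S₁) B₁.ι
    (fun ℓ y => twe_sa_iota_hecke B₁ ℓ y)
    (fun x hx => ⟨1, one_ne_zero, by rw [one_smul]; exact hfull a haL x hx⟩)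
    (fun c x hc h => twe_sa_tfX N₁ c x hc h)
    (twe_sa_actBase B₂) (twe_sa_actBase_injective B₂) τS B₂.ι B₂.ι_injective hι₁ hprim
  refine ⟨π, fun ℓ hℓ h1 h2 h3' h4' => ?_⟩
  have h := hπ (FreeAlgebra.ι 𝒪 (⟨ℓ, hℓ, h1, h2⟩ : twe_sm_Idx N₁ S₁))
  rw [FreeAlgebra.lift_ι_apply, FreeAlgebra.lift_ι_apply, hτS] at h
  exact h

end

end Fermat.Agent.TW
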