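/-
ONE MACHINE / block [E] AUT, E/SeamArith (helper24): the arithmetic and group-theoretic inputs of
(C4) `twe_sr_main` and (C9) `twe_naw_newAt` for the concrete Taylor–Wiles data.
Namespace `Fermat.Agent.TW`, prefix `twe_sar_`.

`N` squarefree, `Q` a set of primes not dividing `N`, `Th` a set of primes dividing `N`,
`P = Q ∪ Th`, `N₀ = N / ∏ Th`, `M = N · ∏ Q` (the level of `Γ_H`), `A = twe_Nbal N Q Th`.
-/
import Mathlib
import Fermat.Agent.TW.Aut.DeltaIso3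

set_option autoImplicit false
set_option linter.unusedSectionVars false

noncomputable section

namespace Fermat.Agent.TW

open CongruenceSubgroup

section arith

variable (N : ℕ) (Q Th : Finset ℕ)

/-- `N₀ = N / ∏_{ℓ ∈ Th} ℓ`. -/
def twe_sar_N0 : ℕ := N / ∏ ℓ ∈ Th, ℓ

/-- `M = N · ∏_{t ∈ Q} t`, the level of `Γ_H`. -/
def twe_sar_M : ℕ := N * ∏ t ∈ Q, t

variable {N Q Th} (hQ : ∀ t ∈ Q, t.Prime ∧ ¬ t ∣ N) (hTh : ∀ ℓ ∈ Th, ℓ.Prime ∧ ℓ ∣ N)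

include hQ hTh in
theorem twe_sar_disjoint : Disjoint Q Th := by
  rw [Finset.disjoint_left]
  intro t htQ htTh
  exact (hQ t htQ).2 (hTh t htTh).2

include hQ hTh in
theorem twe_sar_prime {t : ℕ} (ht : t ∈ Q ∪ Th) : t.Prime := by
  rcases Finset.mem_union.mp ht with h | h
  · exact (hQ t h).1
  · exact (hTh t h).1

include hQ hTh in
/-- the `Fact` instances of `P = Q ∪ Th`. -/
theorem twe_sar_fact : ∀ t : ↥(Q ∪ Th), Fact (Nat.Prime (t : ℕ)) :=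
  fun t => ⟨twe_sar_prime hQ hTh t.2⟩

include hTh in
theorem twe_sar_prodTh_dvd : ∏ ℓ ∈ Th, ℓ ∣ N :=
  Finset.prod_primes_dvd N (fun ℓ hℓ => (hTh ℓ hℓ).1.prime) (fun ℓ hℓ => (hTh ℓ hℓ).2)

include hTh in
theorem twe_sar_N0_mul : twe_sar_N0 N Th * ∏ ℓ ∈ Th, ℓ = N :=
  Nat.div_mul_cancel (twe_sar_prodTh_dvd hTh)

include hTh in
theorem twe_sar_N0_ne_zero [NeZero N] : twe_sar_N0 N Th ≠ 0 := by
  intro h
  have h1 := twe_sar_N0_mul hTh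
  rw [h, zero_mul] at h1
  exact NeZero.ne N h1.symm

include hQ hTh in
theorem twe_sar_prod_union : ∏ t ∈ Q ∪ Th, t = (∏ t ∈ Q, t) * ∏ ℓ ∈ Th, ℓ :=
  Finset.prod_union (twe_sar_disjoint hQ hTh)

include hQ hTh in
/-- `M = N₀ · ∏ P`. -/
theorem twe_sar_M_eq : twe_sar_M N Q = twe_sar_N0 N Th * ∏ t ∈ Q ∪ Th, t := by
  rw [twe_sar_prod_union hQ hTh, twe_sar_M]
  conv_lhs => rw [← twe_sar_N0_mul hTh]
  ring

include hQ hTh in
/-- `A = N₀ · ∏ P · ∏ P`. -/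
theorem twe_sar_Nbal_eq :
    twe_Nbal N Q Th = twe_sar_N0 N Th * (∏ t ∈ Q ∪ Th, t) * ∏ t ∈ Q ∪ Th, t := by
  rw [twe_sar_prod_union hQ hTh, twe_Nbal, Finset.prod_pow]
  conv_lhs => rw [← twe_sar_N0_mul hTh]
  ring

include hQ hTh in
/-- `A = N₀ · L' · L' · t₀ · t₀`, `L' = ∏ (P.erase t₀)`. -/
theorem twe_sar_Nbal_erase (t₀ : ↥(Q ∪ Th)) :
    twe_Nbal N Q Th = twe_sar_N0 N Th * (∏ t ∈ (Q ∪ Th).erase (t₀ : ℕ), t) *
      (∏ t ∈ (Q ∪ Th).erase (t₀ : ℕ), t) * (t₀ : ℕ) * (t₀ : ℕ) := by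
  rw [twe_sar_Nbal_eq hQ hTh, ← Finset.mul_prod_erase (Q ∪ Th) (fun t => t) t₀.2]
  ring

include hQ hTh in
/-- the primes of `P` do not divide `N₀`. -/
theorem twe_sar_not_dvd (hsq : Squarefree N) (t : ↥(Q ∪ Th)) : ¬ (t : ℕ) ∣ twe_sar_N0 N Th := by
  intro hd
  rcases Finset.mem_union.mp t.2 with h | h
  · refine (hQ t h).2 (dvd_trans hd ?_)
    exact ⟨∏ ℓ ∈ Th, ℓ, (twe_sar_N0_mul hTh).symm⟩
  · -- `t² ∣ N`
    have h1 : (t : ℕ) * (t : ℕ) ∣ N := by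
      rw [← twe_sar_N0_mul hTh]
      exact mul_dvd_mul hd (Finset.dvd_prod_of_mem (fun ℓ => ℓ) h)
    exact (hTh t h).1.ne_one (Nat.isUnit_iff.mp (hsq (t : ℕ) h1))

include hQ hTh in
/-- the primes of `P` divide `M`. -/
theorem twe_sar_dvd_M (t : ↥(Q ∪ Th)) : (t : ℕ) ∣ twe_sar_M N Q := by
  rcases Finset.mem_union.mp t.2 with h | h
  · exact Dvd.dvd.mul_left (Finset.dvd_prod_of_mem (fun t => t) h) N
  · exact Dvd.dvd.mul_right (hTh t h).2 _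

theorem twe_sar_M_ne_zero [NeZero N] (hQ : ∀ t ∈ Q, t.Prime ∧ ¬ t ∣ N) : twe_sar_M N Q ≠ 0 :=
  mul_ne_zero (NeZero.ne N) (Finset.prod_ne_zero_iff.mpr fun t ht => (hQ t ht).1.ne_zero)

end arith

/-! ### the group-theoretic inputs -/

section group

variable (p : ℕ) {N : ℕ} {Q Th : Finset ℕ} (hQ : ∀ t ∈ Q, t.Prime ∧ ¬ t ∣ N)
  (hTh : ∀ ℓ ∈ Th, ℓ.Prime ∧ ℓ ∣ N) {M : ℕ} [NeZero M] (htM : ∀ t : ↥(Q ∪ Th), (t : ℕ) ∣ M)

/-- the subgroup `H = ker ((ZMod M)ˣ → Δ_Q × Δ_Th)`. -/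
def twe_sar_H : Subgroup (ZMod M)ˣ :=
  (twe_di_pair p Q Th M (fun t ht => (hQ t ht).1)
    (fun t ht => htM ⟨t, Finset.mem_union_left _ ht⟩) (fun t ht => (hTh t ht).1)
    (fun t ht => htM ⟨t, Finset.mem_union_right _ ht⟩)).ker

/-- `H` contains the units `≡ 1` modulo every `t ∈ P`. -/
theorem twe_sar_hH (u : (ZMod M)ˣ) (h : ∀ t : ↥(Q ∪ Th), ZMod.unitsMap (htM t) u = 1) :
    u ∈ twe_sar_H p hQ hTh htM :=
  twe_di_pair_mem_of_unitsMap p Q Th M _ _ _ _ u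
    (fun t => h ⟨t.1, Finset.mem_union_left _ t.2⟩)
    (fun t => h ⟨t.1, Finset.mem_union_right _ t.2⟩)

/-- `(ZMod M)ˣ ⧸ H` has odd exponent. -/
theorem twe_sar_exists_odd (hp : Odd p) :
    ∃ m : ℕ, Odd m ∧ ∀ u : (ZMod M)ˣ, u ^ m ∈ twe_sar_H p hQ hTh htM :=
  twe_di_pair_exists_odd p Q Th M _ _ _ _ hp

include hQ hTh in
/-- a unit with prescribed residue at `t₀` and `≡ 1` at the other primes of `P`. -/
theorem twe_sar_exists_unit (t₀ : ↥(Q ∪ Th)) (a : (ZMod (t₀ : ℕ))ˣ) :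
    ∃ u : (ZMod M)ˣ, ZMod.unitsMap (htM t₀) u = a ∧
      ∀ t : ↥(Q ∪ Th), t ≠ t₀ → ZMod.unitsMap (htM t) u = 1 := by
  classical
  let y : ∀ t : ↥(Q ∪ Th), (ZMod (t : ℕ))ˣ := fun t =>
    if h : t = t₀ then (h ▸ a : (ZMod (t : ℕ))ˣ) else 1
  obtain ⟨u, hu⟩ := twe_di_crt (Q ∪ Th) M (fun t ht => twe_sar_prime hQ hTh ht)
    (fun t ht => htM ⟨t, ht⟩) y
  refine ⟨u, ?_, fun t ht => ?_⟩
  · rw [hu t₀]
    simp [y]
  · rw [hu t]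
    simp [y, ht]

include hQ hTh in
/-- **the diamond at `t₀ ∈ Q`**: `g₀ ∈ Γ₀(M)` with `d(g₀) ↦ (gen t₀, 1)`, `≡ 1` at the other primes. -/
theorem twe_sar_exists_g0_Q (t₀ : ℕ) (ht₀ : t₀ ∈ Q) :
    ∃ g₀ : Gamma0 M,
      twe_di_pair p Q Th M (fun t ht => (hQ t ht).1)
        (fun t ht => htM ⟨t, Finset.mem_union_left _ ht⟩) (fun t ht => (hTh t ht).1)
        (fun t ht => htM ⟨t, Finset.mem_union_right _ ht⟩) (twe_dUnit M g₀) =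
          (twe_gen p Q t₀ ht₀, 1) ∧
      ∀ t : ↥(Q ∪ Th), (t : ℕ) ≠ t₀ → ZMod.unitsMap (htM t) (twe_dUnit M g₀) = 1 := by
  obtain ⟨a, ha⟩ := twe_di_loc_surjective p t₀ (hQ t₀ ht₀).1 (Multiplicative.ofAdd 1)
  obtain ⟨u, hu0, hu1⟩ := twe_sar_exists_unit hQ hTh htM
    ⟨t₀, Finset.mem_union_left _ ht₀⟩ a
  obtain ⟨g₀, hg₀⟩ := twe_di_dUnit_surjective M u
  have hu1' : ∀ t : ↥(Q ∪ Th), (t : ℕ) ≠ t₀ → ZMod.unitsMap (htM t) u = 1 :=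
    fun t ht => hu1 t (fun h => ht (congrArg Subtype.val h))
  refine ⟨g₀, ?_, fun t ht => by rw [hg₀]; exact hu1' t ht⟩
  rw [hg₀, twe_di_pair_apply, Prod.mk.injEq]
  constructor
  · rw [twe_di_hom_eq_iff]
    intro t
    by_cases h : (t : ℕ) = t₀
    · obtain ⟨t', ht'⟩ := t
      simp only at h
      subst h
      rw [hu0, ha]
      show _ = Multiplicative.ofAdd ((Pi.single (⟨t', ht₀⟩ : ↥Q) (1 : ZMod (twe_ord p t'))
        : ∀ s : ↥Q, ZMod (twe_ord p (s : ℕ))) ⟨t', ht'⟩)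
      rw [Pi.single_eq_same]
    · rw [hu1' ⟨t.1, Finset.mem_union_left _ t.2⟩ h, map_one]
      show _ = Multiplicative.ofAdd ((Pi.single (⟨t₀, ht₀⟩ : ↥Q) (1 : ZMod (twe_ord p t₀))
        : ∀ s : ↥Q, ZMod (twe_ord p (s : ℕ))) t)
      rw [Pi.single_eq_of_ne (fun h' => h (congrArg Subtype.val h'))]
      rfl
  · refine twe_di_hom_eq_one_of_unitsMap p Th M _ _ u (fun t => ?_)
    refine hu1' ⟨t.1, Finset.mem_union_right _ t.2⟩ (fun h => ?_)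
    exact (hQ t₀ ht₀).2 (h ▸ (hTh t.1 t.2).2)

include hQ hTh in
/-- **the diamond at `t₀ ∈ Th`**. -/
theorem twe_sar_exists_g0_Th (t₀ : ℕ) (ht₀ : t₀ ∈ Th) :
    ∃ g₀ : Gamma0 M,
      twe_di_pair p Q Th M (fun t ht => (hQ t ht).1)
        (fun t ht => htM ⟨t, Finset.mem_union_left _ ht⟩) (fun t ht => (hTh t ht).1)
        (fun t ht => htM ⟨t, Finset.mem_union_right _ ht⟩) (twe_dUnit M g₀) =
          (1, twe_gen p Th t₀ ht₀) ∧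
      ∀ t : ↥(Q ∪ Th), (t : ℕ) ≠ t₀ → ZMod.unitsMap (htM t) (twe_dUnit M g₀) = 1 := by
  obtain ⟨a, ha⟩ := twe_di_loc_surjective p t₀ (hTh t₀ ht₀).1 (Multiplicative.ofAdd 1)
  obtain ⟨u, hu0, hu1⟩ := twe_sar_exists_unit hQ hTh htM
    ⟨t₀, Finset.mem_union_right _ ht₀⟩ a
  obtain ⟨g₀, hg₀⟩ := twe_di_dUnit_surjective M u
  have hu1' : ∀ t : ↥(Q ∪ Th), (t : ℕ) ≠ t₀ → ZMod.unitsMap (htM t) u = 1 :=
    fun t ht => hu1 t (fun h => ht (congrArg Subtype.val h))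
  refine ⟨g₀, ?_, fun t ht => by rw [hg₀]; exact hu1' t ht⟩
  rw [hg₀, twe_di_pair_apply, Prod.mk.injEq]
  constructor
  · refine twe_di_hom_eq_one_of_unitsMap p Q M _ _ u (fun t => ?_)
    refine hu1' ⟨t.1, Finset.mem_union_left _ t.2⟩ (fun h => ?_)
    exact (hQ t.1 t.2).2 (h ▸ (hTh t₀ ht₀).2)
  · rw [twe_di_hom_eq_iff]
    intro t
    by_cases h : (t : ℕ) = t₀
    · obtain ⟨t', ht'⟩ := t
      simp only at h
      subst h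
      rw [hu0, ha]
      show _ = Multiplicative.ofAdd ((Pi.single (⟨t', ht₀⟩ : ↥Th) (1 : ZMod (twe_ord p t'))
        : ∀ s : ↥Th, ZMod (twe_ord p (s : ℕ))) ⟨t', ht'⟩)
      rw [Pi.single_eq_same]
    · rw [hu1' ⟨t.1, Finset.mem_union_right _ t.2⟩ h, map_one]
      show _ = Multiplicative.ofAdd ((Pi.single (⟨t₀, ht₀⟩ : ↥Th) (1 : ZMod (twe_ord p t₀))
        : ∀ s : ↥Th, ZMod (twe_ord p (s : ℕ))) t)
      rw [Pi.single_eq_of_ne (fun h' => h (congrArg Subtype.val h'))]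
      rfl

end group

end Fermat.Agent.TW
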