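/-
E/Iso (table v3 of the [E] block, cell (4)): isotypic decomposition of a representation of a
finite abelian group `G` on a `K`-vector space `V`, where `K` is a field in which `|G|` is
invertible and which has enough roots of unity for the exponent of `G`.

For `ψ : G →* Kˣ` put `π_ψ := |G|⁻¹ ∑_g ψ(g)⁻¹ • ρ g`.  Then
* `twe_iso_sum_proj`      : `∑_ψ π_ψ v = v`,
* `twe_iso_rho_proj`      : `ρ g (π_ψ v) = ψ g • π_ψ v`,
* `twe_iso_proj_comm`     : everything commuting with all `ρ g` commutes with `π_ψ`,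
* `twe_iso_proj_of_eigen` : `π_ψ` is the identity on the `ψ`-eigenspace and kills the
                            `ψ'`-eigenspaces for `ψ' ≠ ψ`; `π_ψ` are orthogonal idempotents,
* `twe_iso_orderOf_dvd`   : the order of `ψ` divides `|G|` (so it is odd if `|G|` is odd,
                            e.g. if `G` is a `p`-group with `p` odd).

Mathlib only.
-/
import Mathlib

namespace Fermat.Agent.TW

open scoped BigOperators

section Iso

variable {G : Type*} [CommGroup G] [Fintype G]
variable {K : Type*} [Field K]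
variable {V : Type*} [AddCommGroup V] [Module K V]

/-- The `ψ`-isotypic projector `|G|⁻¹ ∑_g ψ(g)⁻¹ • ρ g`. -/
noncomputable def twe_iso_proj (ρ : G →* Module.End K V) (ψ : G →* Kˣ) : Module.End K V :=
  ((Fintype.card G : K))⁻¹ • ∑ g : G, ((ψ g⁻¹ : Kˣ) : K) • ρ g

/-- The `ψ`-eigenspace of `ρ`. -/
def twe_iso_eigen (ρ : G →* Module.End K V) (ψ : G →* Kˣ) : Submodule K V where
  carrier := {w | ∀ g : G, ρ g w = ((ψ g : Kˣ) : K) • w}
  add_mem' := by
    intro a b ha hb g
    simp only [Set.mem_ofPred_eq] at ha hb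
    rw [map_add, ha g, hb g, smul_add]
  zero_mem' := by
    intro g
    simp
  smul_mem' := by
    intro c x hx g
    simp only [Set.mem_ofPred_eq] at hx
    rw [map_smul, hx g, smul_comm]

theorem twe_iso_mem_eigen (ρ : G →* Module.End K V) (ψ : G →* Kˣ) (w : V) :
    w ∈ twe_iso_eigen ρ ψ ↔ ∀ g : G, ρ g w = ((ψ g : Kˣ) : K) • w := Iff.rfl

theorem twe_iso_proj_apply (ρ : G →* Module.End K V) (ψ : G →* Kˣ) (v : V) :
    twe_iso_proj ρ ψ v =
      ((Fintype.card G : K))⁻¹ • ∑ g : G, ((ψ g⁻¹ : Kˣ) : K) • ρ g v := by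
  unfold twe_iso_proj
  rw [LinearMap.smul_apply, LinearMap.sum_apply]
  congr 1

/-- (ii) `ρ h (π_ψ v) = ψ h • π_ψ v`. No hypothesis on `K`. -/
theorem twe_iso_rho_proj (ρ : G →* Module.End K V) (ψ : G →* Kˣ) (h : G) (v : V) :
    ρ h (twe_iso_proj ρ ψ v) = ((ψ h : Kˣ) : K) • twe_iso_proj ρ ψ v := by
  rw [twe_iso_proj_apply, map_smul, map_sum, smul_comm]
  congr 1
  rw [Finset.smul_sum]
  -- reindex `g ↦ h g`
  rw [← Equiv.sum_comp (Equiv.mulLeft h) (fun g => ((ψ h : Kˣ) : K) • ((ψ g⁻¹ : Kˣ) : K) • ρ g v)]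
  refine Finset.sum_congr rfl (fun g _ => ?_)
  simp only [Equiv.coe_mulLeft]
  rw [map_smul, smul_smul]
  have h1 : ρ h (ρ g v) = ρ (h * g) v := by
    rw [map_mul]; rfl
  rw [h1]
  congr 1
  have h2 : ψ (h * g)⁻¹ = (ψ h)⁻¹ * ψ g⁻¹ := by
    rw [mul_inv, map_mul, map_inv]
  rw [h2, Units.val_mul, ← mul_assoc, ← Units.val_mul, mul_inv_cancel, Units.val_one, one_mul]

theorem twe_iso_proj_mem_eigen (ρ : G →* Module.End K V) (ψ : G →* Kˣ) (v : V) :
    twe_iso_proj ρ ψ v ∈ twe_iso_eigen ρ ψ :=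
  fun g => twe_iso_rho_proj ρ ψ g v

/-- (iii) anything (additive and `K`-homogeneous is enough: we take a `K`-linear map between two
representation spaces) intertwining the two actions intertwines the projectors. -/
theorem twe_iso_proj_intertwine {V' : Type*} [AddCommGroup V'] [Module K V']
    (ρ : G →* Module.End K V) (ρ' : G →* Module.End K V') (ψ : G →* Kˣ)
    (T : V →ₗ[K] V') (hT : ∀ g v, T (ρ g v) = ρ' g (T v)) (v : V) :
    T (twe_iso_proj ρ ψ v) = twe_iso_proj ρ' ψ (T v) := by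
  rw [twe_iso_proj_apply, twe_iso_proj_apply, map_smul, map_sum]
  congr 1
  refine Finset.sum_congr rfl (fun g _ => ?_)
  rw [map_smul, hT]

/-- (iii) everything commuting with all `ρ g` commutes with `π_ψ`. -/
theorem twe_iso_proj_comm (ρ : G →* Module.End K V) (ψ : G →* Kˣ)
    (T : Module.End K V) (hT : ∀ g, T * ρ g = ρ g * T) :
    T * twe_iso_proj ρ ψ = twe_iso_proj ρ ψ * T := by
  ext v
  simp only [Module.End.mul_apply]
  exact twe_iso_proj_intertwine ρ ρ ψ T
    (fun g v => by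
      have := congrArg (fun f => f v) (hT g)
      simpa only [Module.End.mul_apply] using this) v

/-- (iii) additive version: an additive map commuting with the scalars and with all `ρ g`
commutes with `π_ψ`. -/
theorem twe_iso_proj_comm_addMonoidHom (ρ : G →* Module.End K V) (ψ : G →* Kˣ)
    (T : V →+ V) (hK : ∀ (c : K) v, T (c • v) = c • T v)
    (hT : ∀ g v, T (ρ g v) = ρ g (T v)) (v : V) :
    T (twe_iso_proj ρ ψ v) = twe_iso_proj ρ ψ (T v) := by
  rw [twe_iso_proj_apply, twe_iso_proj_apply, hK, map_sum]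
  congr 1
  refine Finset.sum_congr rfl (fun g _ => ?_)
  rw [hK, hT]

variable [NeZero (Fintype.card G : K)]

/-- `∑_g χ(g) = 0` for a non-trivial character `χ`, `= |G|` for the trivial one. -/
theorem twe_iso_sum_char (χ : G →* Kˣ) [Decidable (χ = 1)] :
    ∑ g : G, ((χ g : Kˣ) : K) = if χ = 1 then (Fintype.card G : K) else 0 := by
  split_ifs with h
  · subst h
    simp
  · have h' : ((Units.coeHom K).comp χ) ≠ 1 := by
      intro h1
      apply h
      ext g
      have := DFunLike.congr_fun h1 g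
      simpa using this
    have := sum_hom_units_eq_zero ((Units.coeHom K).comp χ) h'
    simpa using this

/-- On the `ψ'`-eigenspace the projector `π_ψ` is `1` if `ψ = ψ'` and `0` otherwise. -/
theorem twe_iso_proj_of_eigen (ρ : G →* Module.End K V) (ψ ψ' : G →* Kˣ) (w : V)
    (hw : w ∈ twe_iso_eigen ρ ψ') [Decidable (ψ' = ψ)] :
    twe_iso_proj ρ ψ w = if ψ' = ψ then w else 0 := by
  classical
  rw [twe_iso_proj_apply]
  have h1 : ∀ g : G, ((ψ g⁻¹ : Kˣ) : K) • ρ g w = (((ψ' * ψ⁻¹) g : Kˣ) : K) • w := by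
    intro g
    rw [hw g, smul_smul]
    congr 1
    rw [MonoidHom.mul_apply, MonoidHom.inv_apply, map_inv, Units.val_mul, mul_comm]
  rw [Finset.sum_congr rfl (fun g _ => h1 g), ← Finset.sum_smul, twe_iso_sum_char]
  have hne : (Fintype.card G : K) ≠ 0 := NeZero.ne _
  by_cases h : ψ' = ψ
  · subst h
    have : ψ' * ψ'⁻¹ = 1 := by
      ext g
      simp
    simp only [this, if_true]
    rw [smul_smul, inv_mul_cancel₀ hne, one_smul]
  · have : ψ' * ψ⁻¹ ≠ 1 := by
      intro h1
      apply h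
      ext g
      have h2 := DFunLike.congr_fun h1 g
      rw [MonoidHom.mul_apply, MonoidHom.inv_apply, MonoidHom.one_apply, mul_inv_eq_one] at h2
      rw [h2]
    simp only [this, h, if_false, zero_smul, smul_zero]

/-- (iv) the `π_ψ` are idempotent. -/
theorem twe_iso_proj_idem (ρ : G →* Module.End K V) (ψ : G →* Kˣ) (v : V) :
    twe_iso_proj ρ ψ (twe_iso_proj ρ ψ v) = twe_iso_proj ρ ψ v := by
  classical
  rw [twe_iso_proj_of_eigen ρ ψ ψ _ (twe_iso_proj_mem_eigen ρ ψ v), if_pos rfl]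

/-- (iv) the `π_ψ` are pairwise orthogonal. -/
theorem twe_iso_proj_orth (ρ : G →* Module.End K V) (ψ ψ' : G →* Kˣ) (h : ψ' ≠ ψ) (v : V) :
    twe_iso_proj ρ ψ (twe_iso_proj ρ ψ' v) = 0 := by
  classical
  rw [twe_iso_proj_of_eigen ρ ψ ψ' _ (twe_iso_proj_mem_eigen ρ ψ' v), if_neg h]

theorem twe_iso_range_proj (ρ : G →* Module.End K V) (ψ : G →* Kˣ) :
    LinearMap.range (twe_iso_proj ρ ψ) = twe_iso_eigen ρ ψ := by
  classical
  apply le_antisymm
  · rintro _ ⟨v, rfl⟩
    exact twe_iso_proj_mem_eigen ρ ψ v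
  · intro w hw
    exact ⟨w, by rw [twe_iso_proj_of_eigen ρ ψ ψ w hw, if_pos rfl]⟩

section Enough

variable [HasEnoughRootsOfUnity K (Monoid.exponent G)]

/-- The character group is finite. -/
theorem twe_iso_finite_char : Finite (G →* Kˣ) := by
  obtain ⟨e⟩ := CommGroup.monoidHom_mulEquiv_of_hasEnoughRootsOfUnity G K
  exact Finite.of_equiv G e.symm.toEquiv

theorem twe_iso_card_char [Fintype (G →* Kˣ)] : Fintype.card (G →* Kˣ) = Fintype.card G := by
  have := CommGroup.card_monoidHom_of_hasEnoughRootsOfUnity G K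
  rwa [Nat.card_eq_fintype_card, Nat.card_eq_fintype_card] at this

/-- Dual orthogonality: `∑_ψ ψ(g) = 0` for `g ≠ 1`, `= |G|` for `g = 1`. -/
theorem twe_iso_sum_dual [Fintype (G →* Kˣ)] [DecidableEq G] (g : G) :
    ∑ ψ : G →* Kˣ, ((ψ g : Kˣ) : K) = if g = 1 then (Fintype.card G : K) else 0 := by
  classical
  split_ifs with h
  · subst h
    simp only [map_one, Units.val_one, Finset.sum_const, Finset.card_univ, nsmul_eq_mul, mul_one]
    rw [twe_iso_card_char]
  · obtain ⟨φ, hφ⟩ := CommGroup.exists_apply_ne_one_of_hasEnoughRootsOfUnity G K h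
    -- `S = φ g * S`
    have h1 : ∑ ψ : G →* Kˣ, ((ψ g : Kˣ) : K)
        = ((φ g : Kˣ) : K) * ∑ ψ : G →* Kˣ, ((ψ g : Kˣ) : K) := by
      rw [Finset.mul_sum, ← Equiv.sum_comp (Equiv.mulLeft φ)]
      refine Finset.sum_congr rfl (fun ψ _ => ?_)
      simp only [Equiv.coe_mulLeft, MonoidHom.mul_apply, Units.val_mul]
    have h2 : (((φ g : Kˣ) : K) - 1) * ∑ ψ : G →* Kˣ, ((ψ g : Kˣ) : K) = 0 := by
      rw [sub_mul, one_mul, ← h1, sub_self]
    rcases mul_eq_zero.mp h2 with h3 | h3
    · exfalso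
      apply hφ
      ext
      rw [sub_eq_zero] at h3
      simpa using h3
    · exact h3

/-- (i) every vector is the sum of its isotypic components. -/
theorem twe_iso_sum_proj [Fintype (G →* Kˣ)] (ρ : G →* Module.End K V) (v : V) :
    ∑ ψ : G →* Kˣ, twe_iso_proj ρ ψ v = v := by
  classical
  simp only [twe_iso_proj_apply]
  rw [← Finset.smul_sum, Finset.sum_comm]
  have h1 : ∀ g : G, ∑ ψ : G →* Kˣ, ((ψ g⁻¹ : Kˣ) : K) • ρ g v
      = (if g = 1 then (Fintype.card G : K) else 0) • ρ g v := by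
    intro g
    rw [← Finset.sum_smul, twe_iso_sum_dual]
    simp only [inv_eq_one]
  rw [Finset.sum_congr rfl (fun g _ => h1 g)]
  simp only [ite_smul, zero_smul, Finset.sum_ite_eq', Finset.mem_univ, if_true]
  have hne : (Fintype.card G : K) ≠ 0 := NeZero.ne _
  rw [smul_smul, inv_mul_cancel₀ hne, one_smul, map_one]
  rfl

/-- (i) in `Module.End` form: `∑_ψ π_ψ = 1`. -/
theorem twe_iso_sum_proj_eq_one [Fintype (G →* Kˣ)] (ρ : G →* Module.End K V) :
    ∑ ψ : G →* Kˣ, twe_iso_proj ρ ψ = 1 := by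
  ext v
  rw [LinearMap.sum_apply]
  exact twe_iso_sum_proj ρ v

/-- The eigenspaces span `V`. -/
theorem twe_iso_iSup_eigen (ρ : G →* Module.End K V) :
    ⨆ ψ : G →* Kˣ, twe_iso_eigen ρ ψ = ⊤ := by
  classical
  have := twe_iso_finite_char (G := G) (K := K)
  haveI : Fintype (G →* Kˣ) := Fintype.ofFinite _
  rw [eq_top_iff]
  intro v _
  rw [← twe_iso_sum_proj ρ v]
  refine Submodule.sum_mem _ (fun ψ _ => ?_)
  exact Submodule.mem_iSup_of_mem ψ (twe_iso_proj_mem_eigen ρ ψ v)

/-- A vector all of whose isotypic components vanish is zero. -/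
theorem twe_iso_eq_zero_of_proj (ρ : G →* Module.End K V) (v : V)
    (h : ∀ ψ : G →* Kˣ, twe_iso_proj ρ ψ v = 0) : v = 0 := by
  classical
  have := twe_iso_finite_char (G := G) (K := K)
  haveI : Fintype (G →* Kˣ) := Fintype.ofFinite _
  rw [← twe_iso_sum_proj ρ v]
  exact Finset.sum_eq_zero (fun ψ _ => h ψ)

/-- An induction principle: a property of vectors which is additive and holds on every
eigenspace holds everywhere. -/
theorem twe_iso_induction (ρ : G →* Module.End K V) (P : V → Prop)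
    (h0 : P 0) (hadd : ∀ a b, P a → P b → P (a + b))
    (heig : ∀ (ψ : G →* Kˣ) (w : V), w ∈ twe_iso_eigen ρ ψ → P w) (v : V) : P v := by
  classical
  have := twe_iso_finite_char (G := G) (K := K)
  haveI : Fintype (G →* Kˣ) := Fintype.ofFinite _
  rw [← twe_iso_sum_proj ρ v]
  refine Finset.sum_induction _ P hadd h0 (fun ψ _ => ?_)
  exact heig ψ _ (twe_iso_proj_mem_eigen ρ ψ v)

/-- Two linear maps (to any module) that agree on all eigenspaces agree. -/
theorem twe_iso_ext_eigen {V' : Type*} [AddCommGroup V'] [Module K V']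
    (ρ : G →* Module.End K V) (S T : V →ₗ[K] V')
    (h : ∀ (ψ : G →* Kˣ) (w : V), w ∈ twe_iso_eigen ρ ψ → S w = T w) : S = T := by
  ext v
  refine twe_iso_induction ρ (fun v => S v = T v) (by simp) ?_ h v
  intro a b ha hb
  simp only [map_add, ha, hb]

end Enough

end Iso

section Descent

/-- A monoid-valued representation of a group `Γ` which is trivial on the kernel of a surjection
`q : Γ →* G` descends to `G`. (The target is only a monoid, e.g. `Module.End K V`.) -/
theorem twe_iso_exists_descent {Γ G M : Type*} [Group Γ] [Group G] [Monoid M]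
    (q : Γ →* G) (hq : Function.Surjective q) (ρ : Γ →* M) (hker : ∀ γ, q γ = 1 → ρ γ = 1) :
    ∃ ρ' : G →* M, ∀ γ, ρ' (q γ) = ρ γ := by
  have hwd : ∀ γ γ' : Γ, q γ = q γ' → ρ γ = ρ γ' := by
    intro γ γ' h
    have h1 : q (γ⁻¹ * γ') = 1 := by
      rw [map_mul, map_inv, h, inv_mul_cancel]
    have h2 := hker _ h1
    have h3 : ρ γ' = ρ γ * ρ (γ⁻¹ * γ') := by
      rw [← map_mul, mul_inv_cancel_left]
    rw [h3, h2, mul_one]
  refine ⟨{ toFun := fun g => ρ (Function.surjInv hq g), map_one' := ?_, map_mul' := ?_ }, ?_⟩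
  · exact hker _ (Function.surjInv_eq hq 1)
  · intro g h
    rw [← map_mul]
    apply hwd
    rw [map_mul, Function.surjInv_eq hq, Function.surjInv_eq hq, Function.surjInv_eq hq]
  · intro γ
    exact hwd _ _ (Function.surjInv_eq hq (q γ))

variable {G : Type*} [CommGroup G] [Fintype G]
variable {K : Type*} [Field K]
variable {V : Type*} [AddCommGroup V] [Module K V]
variable [NeZero (Fintype.card G : K)] [HasEnoughRootsOfUnity K (Monoid.exponent G)]

/-- PACKAGED FORM. `Γ` any group acting `K`-linearly on `V` through a finite abelian quotient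
`q : Γ ↠ G` (with `|G|` invertible in `K` and enough roots of unity in `K`). Then there are
projectors `π ψ` (`ψ : G →* Kˣ`) such that
(i) `∑_ψ π ψ v = v`, (ii) `ρ γ (π ψ v) = ψ (q γ) • π ψ v`,
(iii) every additive `K`-homogeneous `T : V →+ V` commuting with all `ρ γ` commutes with all `π ψ`,
(iv) on `{w | ∀ γ, ρ γ w = ψ' (q γ) • w}` the projector `π ψ` is `1` for `ψ = ψ'` and `0` otherwise. -/
theorem twe_iso_decomp_of_quotient {Γ : Type*} [Group Γ] (q : Γ →* G)
    (hq : Function.Surjective q) (ρ : Γ →* Module.End K V) (hker : ∀ γ, q γ = 1 → ρ γ = 1)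
    [Fintype (G →* Kˣ)] [DecidableEq (G →* Kˣ)] :
    ∃ π : (G →* Kˣ) → Module.End K V,
      (∀ v, ∑ ψ : G →* Kˣ, π ψ v = v) ∧
      (∀ (ψ : G →* Kˣ) (γ : Γ) (v : V), ρ γ (π ψ v) = ((ψ (q γ) : Kˣ) : K) • π ψ v) ∧
      (∀ (ψ : G →* Kˣ) (T : V →+ V), (∀ (c : K) v, T (c • v) = c • T v) →
        (∀ γ v, T (ρ γ v) = ρ γ (T v)) → ∀ v, T (π ψ v) = π ψ (T v)) ∧
      (∀ (ψ ψ' : G →* Kˣ) (w : V), (∀ γ, ρ γ w = ((ψ' (q γ) : Kˣ) : K) • w) →
        π ψ w = if ψ' = ψ then w else 0) := by
  obtain ⟨ρ', hρ'⟩ := twe_iso_exists_descent q hq ρ hker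
  refine ⟨fun ψ => twe_iso_proj ρ' ψ, ?_, ?_, ?_, ?_⟩
  · intro v
    exact twe_iso_sum_proj ρ' v
  · intro ψ γ v
    rw [← hρ']
    exact twe_iso_rho_proj ρ' ψ (q γ) v
  · intro ψ T hK hT v
    refine twe_iso_proj_comm_addMonoidHom ρ' ψ T hK ?_ v
    intro g v
    obtain ⟨γ, rfl⟩ := hq g
    rw [hρ']
    exact hT γ v
  · intro ψ ψ' w hw
    refine twe_iso_proj_of_eigen ρ' ψ ψ' w ?_
    intro g
    obtain ⟨γ, rfl⟩ := hq g
    rw [hρ']
    exact hw γ

end Descent

section Order

variable {G : Type*} [CommGroup G] [Fintype G] {K : Type*} [Field K]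

/-- (v) every character is killed by `|G|`. -/
theorem twe_iso_char_pow_card (ψ : G →* Kˣ) : ψ ^ Fintype.card G = 1 := by
  ext g
  rw [MonoidHom.pow_apply, ← map_pow, pow_card_eq_one, map_one, MonoidHom.one_apply]

/-- (v) the order of every character divides `|G|`. -/
theorem twe_iso_orderOf_dvd (ψ : G →* Kˣ) : orderOf ψ ∣ Fintype.card G :=
  orderOf_dvd_of_pow_eq_one (twe_iso_char_pow_card ψ)

/-- (v) if `|G|` is odd (e.g. a `p`-group, `p` odd) every character has odd order. -/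
theorem twe_iso_orderOf_odd (hG : Odd (Fintype.card G)) (ψ : G →* Kˣ) : Odd (orderOf ψ) := by
  obtain ⟨k, hk⟩ := twe_iso_orderOf_dvd ψ
  rw [hk] at hG
  exact (Nat.odd_mul.mp hG).1

/-- (v) `p`-group version: every character has order a power of `p`. -/
theorem twe_iso_orderOf_prime_pow {p : ℕ} [hp : Fact p.Prime] {n : ℕ}
    (hG : Fintype.card G = p ^ n) (ψ : G →* Kˣ) : ∃ k ≤ n, orderOf ψ = p ^ k := by
  have := twe_iso_orderOf_dvd ψ
  rw [hG] at this
  exact (Nat.dvd_prime_pow hp.out).mp this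

/-- (v) if `|G|` is odd and `ψ² = 1` then `ψ = 1`. -/
theorem twe_iso_eq_one_of_sq (hG : Odd (Fintype.card G)) (ψ : G →* Kˣ) (h2 : ψ ^ 2 = 1) :
    ψ = 1 := by
  have h1 : orderOf ψ ∣ 2 := orderOf_dvd_of_pow_eq_one h2
  have h3 := twe_iso_orderOf_odd hG ψ
  have h4 : orderOf ψ = 1 := by
    rcases (Nat.dvd_prime Nat.prime_two).mp h1 with h | h
    · exact h
    · rw [h] at h3
      exact absurd h3 (by decide)
  exact orderOf_eq_one_iff.mp h4

end Order

section AlgClosed

variable {G : Type*} [CommGroup G] [Fintype G] {K : Type*} [Field K] [IsAlgClosed K] [CharZero K]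

/-- An algebraically closed field of characteristic `0` has enough roots of unity for every
finite abelian group, and `|G|` is invertible in it. -/
theorem twe_iso_enough_of_algClosed : HasEnoughRootsOfUnity K (Monoid.exponent G) := by
  haveI : NeZero (Monoid.exponent G) := ⟨Monoid.exponent_ne_zero_of_finite⟩
  haveI : NeZero ((Monoid.exponent G : ℕ) : K) := ⟨by
    exact_mod_cast (NeZero.ne (Monoid.exponent G))⟩
  infer_instance

theorem twe_iso_card_neZero_of_charZero : NeZero (Fintype.card G : K) :=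
  ⟨by exact_mod_cast Fintype.card_ne_zero⟩

end AlgClosed

end Fermat.Agent.TW
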