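/-
ONE MACHINE / block [E] AUT, LAYER 4 (abstract half), cell E/Full in OPERATOR FORM (helper24).
Namespace `Fermat.Agent.TW`, prefix `twe_fo_`.

The dictionary of `TW/Aut/Full.lean` for ALL `S`-invariant vectors (not only eigenvectors):
`T_S (cor w) = cor (T w)`, `cor` is `k`-linear, and `T w` is again `S`-invariant.
-/
import Mathlib
import Fermat.Agent.TW.Aut.Full

set_option autoImplicit false

noncomputable section

open Fermat.Agent.LR

namespace Fermat.Agent.TW

section dict

variable {Γ₁ G X : Type*} [Group Γ₁] [Group G] {π : Γ₁ →* G} {D : lrt_Data Γ₁ X} {τ : G →* G}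
  {k : Type*} [Field k] [CharZero k] {A : Type*} [AddCommGroup A] [Module k A]

omit [CharZero k] in
/-- the transfer is `k`-linear. -/
theorem twe_fo_corK_smul (hπ : Function.Surjective π) (S : Subgroup G) [Fintype S] (c : k)
    (w : Additive π.ker →+ A) : twe_fl_corK hπ S (c • w) = c • twe_fl_corK hπ S w := by
  refine AddMonoidHom.ext fun g => ?_
  obtain ⟨g, rfl⟩ := Additive.ofMul.surjective g
  unfold twe_fl_corK
  rw [AddMonoidHom.smul_apply, twe_rc_cor_apply, twe_rc_cor_apply, Finset.smul_sum]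
  rfl

variable [Fintype X]

omit [CharZero k] in
/-- `T w` is `S`-invariant when `w` is (`S` stable under `τ`). -/
theorem twe_fo_T_inv (hc : twe_fl_Compat π D τ) (hπ : Function.Surjective π)
    (S : Subgroup G) (hS : ∀ s ∈ S, τ s ∈ S) (w : Additive π.ker →+ A)
    (hw : ∀ s ∈ S, twe_fl_rho k A hπ s w = w) :
    ∀ s ∈ S, twe_fl_rho k A hπ s (twe_fl_TK k hc w) = twe_fl_TK k hc w := by
  intro s hs
  rw [twe_fl_rho_comm hc hπ s w, hw _ (hS s hs)]

/-- **the dictionary, operator form**: `T_S (cor w) = cor (T w)` for every `S`-invariant `w`. -/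
theorem twe_fo_corK_T (hc : twe_fl_Compat π D τ) (hπ : Function.Surjective π)
    (S : Subgroup G) [Fintype S] (hS : ∀ s ∈ S, τ s ∈ S) (w : Additive π.ker →+ A)
    (hw : ∀ s ∈ S, twe_fl_rho k A hπ s w = w) :
    lrt_T (twe_fl_dataS hc S hS) (twe_fl_corK hπ S w) =
      twe_fl_corK hπ S (twe_fl_TK k hc w) := by
  refine twe_fl_resK_injective (k := k) S ?_
  rw [twe_fl_resK_T (k := k), twe_fl_resK_corK_inv hπ S w hw,
    twe_fl_resK_corK_inv hπ S _ (twe_fo_T_inv hc hπ S hS w hw), map_nsmul]

end dict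

end Fermat.Agent.TW
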