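/-
ONE MACHINE / block [E] AUT, cell E/New, part 2 (helper24).
Namespace `Fermat.Agent.TW`, prefix `twe_ni_`.

THE INPUT COMPARISON.  `M = N₀ · ∏_{t ∈ P} t`, `H ≤ (ZMod M)ˣ` containing the units `≡ 1` modulo every
`t ∈ P`; `π : Γ₀(N₀) ->> G = ∏_{t ∈ P} SL(2, ZMod t)`, `π.ker ≤ Γ_H`.  A character `h` of `Γ_H` which is
a common eigenvector of the diamond operators `twe_conj H g` (`g ∈ Γ₀(M)`) and of the Hecke operators
`twe_hk_T` restricts to `h_K ∈ V = Hom(π.ker, K)`, and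

* `h_K ≠ 0` (characteristic zero);
* `ρ(b) h_K = z • h_K` for `b` upper triangular (`z` the diamond eigenvalue of a lift of `b`),
  `ρ(b) h_K = h_K` for `b` upper unipotent;
* `z_s • T^V h_K = a_ℓ • h_K` where `T^V = twe_fl_TK` is the operator of `TW/Aut/FullHecke.lean`,
  `twe_hk_T … s … h = a_ℓ • h` and `twe_conj H s h = z_s • h`.
-/
import Mathlib
import Fermat.Agent.TW.Aut.FullLevels
import Fermat.Agent.TW.Aut.HeckeDef

set_option autoImplicit false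
set_option linter.unusedSectionVars false

noncomputable section

open CongruenceSubgroup Matrix.SpecialLinearGroup
open scoped MatrixGroups
open Fermat.Agent.JT3 Fermat.Agent.LR

namespace Fermat.Agent.TW

/-! ### 0. Abstract lemmas -/

/-- a common eigenvector of a family `ρ ∘ f` has an eigen-CHARACTER. -/
theorem twe_ni_exists_char {k V G A : Type*} [Field k] [AddCommGroup V] [Module k V] [Group G]
    [Monoid A] (ρ : G →* Module.End k V) (f : A →* G) (v : V) (hv : v ≠ 0)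
    (h : ∀ a, ∃ z : k, ρ (f a) v = z • v) : ∃ ψ : A →* k, ∀ a, ρ (f a) v = ψ a • v := by
  classical
  choose z hz using h
  have huniq : ∀ {c c' : k}, c • v = c' • v → c = c' := by
    intro c c' hc
    have h0 : (c - c') • v = 0 := by rw [sub_smul, hc, sub_self]
    rcases smul_eq_zero.mp h0 with h1 | h1
    · exact sub_eq_zero.mp h1
    · exact absurd h1 hv
  refine ⟨⟨⟨z, ?_⟩, ?_⟩, hz⟩
  · apply huniq
    rw [← hz, map_one, map_one, Module.End.one_apply, one_smul]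
  · intro a b
    apply huniq
    rw [← hz, map_mul, map_mul, Module.End.mul_apply, hz b, map_smul, hz a, smul_smul, mul_comm]

theorem twe_ni_smul_cancel {k V : Type*} [Field k] [AddCommGroup V] [Module k V] {v : V}
    (hv : v ≠ 0) {c c' : k} (hc : c • v = c' • v) : c = c' := by
  have h0 : (c - c') • v = 0 := by rw [sub_smul, hc, sub_self]
  rcases smul_eq_zero.mp h0 with h1 | h1
  · exact sub_eq_zero.mp h1
  · exact absurd h1 hv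

/-- the eigenvalue bookkeeping: `x^m = 1`, `m` odd, `x² Λ = 1` ⟹ `x⁻¹ Λ^((m-1)/2) = 1`. -/
theorem twe_ni_book {K : Type*} [Field K] {m : ℕ} (hm : Odd m) {x Λ : K} (hx : x ^ m = 1)
    (hxΛ : x * x * Λ = 1) : x⁻¹ * Λ ^ ((m - 1) / 2) = 1 := by
  obtain ⟨k, rfl⟩ := hm
  have hk : (2 * k + 1 - 1) / 2 = k := by
    rw [Nat.add_sub_cancel, Nat.mul_div_cancel_left k (by norm_num : 0 < 2)]
  rw [hk]
  have hΛ : Λ = (x * x)⁻¹ := eq_inv_of_mul_eq_one_right hxΛ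
  have h1 : x * (x * x) ^ k = x ^ (2 * k + 1) := by ring
  rw [hΛ, inv_pow, ← mul_inv, h1, hx, inv_one]

/-! ### 1. The levels `Γ₀(M) ≤ Γ₀(N₀)` -/

section levels

variable (N₀ : ℕ) (P : Finset ℕ) [hP : ∀ t : ↥P, Fact (Nat.Prime (t : ℕ))]
  (hN : ∀ t : ↥P, ¬ (t : ℕ) ∣ N₀) {M : ℕ} (hM : M = N₀ * ∏ t ∈ P, t)

include hN in
theorem twe_ni_coprime : Nat.Coprime N₀ (∏ t ∈ P, t) := by
  refine Nat.Coprime.prod_right fun t ht => ?_
  exact ((Nat.Prime.coprime_iff_not_dvd (hP ⟨t, ht⟩).out).mpr (hN ⟨t, ht⟩)).symm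

include hN hM in
theorem twe_ni_mem_Gamma0 {g : SL(2, ℤ)} (h0 : g ∈ Gamma0 N₀)
    (h1 : ∀ t : ↥P, (((t : ℕ) : ℕ) : ℤ) ∣ g 1 0) : g ∈ Gamma0 M := by
  subst hM
  apply t2c_mem_of_dvd
  rw [Nat.cast_mul]
  have hc : IsCoprime (N₀ : ℤ) ((∏ t ∈ P, t : ℕ) : ℤ) :=
    Nat.isCoprime_iff_coprime.mpr (twe_ni_coprime N₀ P hN)
  exact hc.mul_dvd (t2c_dvd_of_mem h0) (twe_lv_prod_dvd h1)

include hM in
theorem twe_ni_Gamma0_le : Gamma0 M ≤ Gamma0 N₀ := by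
  intro g hg
  apply t2c_mem_of_dvd
  refine dvd_trans ?_ (t2c_dvd_of_mem hg)
  rw [hM, Nat.cast_mul]
  exact dvd_mul_right _ _

include hM in
theorem twe_ni_dvd_M (t : ↥P) : (t : ℕ) ∣ M := by
  rw [hM]
  exact Dvd.dvd.mul_left (twe_lv_dvd_prod t) N₀

include hM in
theorem twe_ni_dvd_entry (g : Gamma0 M) (t : ↥P) :
    (((t : ℕ) : ℕ) : ℤ) ∣ (g : SL(2, ℤ)) 1 0 :=
  dvd_trans (Int.natCast_dvd_natCast.mpr (twe_ni_dvd_M N₀ P hM t)) (t2c_dvd_of_mem g.2)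

/-- the inclusion `Γ₀(M) → Γ₀(N₀)`. -/
def twe_ni_down : Gamma0 M →* Gamma0 N₀ := Subgroup.inclusion (twe_ni_Gamma0_le N₀ P hM)

@[simp] theorem twe_ni_down_coe (g : Gamma0 M) :
    ((twe_ni_down N₀ P hM g : Gamma0 N₀) : SL(2, ℤ)) = (g : SL(2, ℤ)) := rfl

/-- an element of `Γ₀(N₀)` which is upper triangular modulo every `t ∈ P`, in `Γ₀(M)`. -/
def twe_ni_up (g : Gamma0 N₀) (h1 : ∀ t : ↥P, (((t : ℕ) : ℕ) : ℤ) ∣ (g : SL(2, ℤ)) 1 0) :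
    Gamma0 M :=
  ⟨(g : SL(2, ℤ)), twe_ni_mem_Gamma0 N₀ P hN hM g.2 h1⟩

@[simp] theorem twe_ni_up_coe (g : Gamma0 N₀)
    (h1 : ∀ t : ↥P, (((t : ℕ) : ℕ) : ℤ) ∣ (g : SL(2, ℤ)) 1 0) :
    ((twe_ni_up N₀ P hN hM g h1 : Gamma0 M) : SL(2, ℤ)) = (g : SL(2, ℤ)) := rfl

theorem twe_ni_down_up (g : Gamma0 N₀)
    (h1 : ∀ t : ↥P, (((t : ℕ) : ℕ) : ℤ) ∣ (g : SL(2, ℤ)) 1 0) :
    twe_ni_down N₀ P hM (twe_ni_up N₀ P hN hM g h1) = g := Subtype.ext rfl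

end levels

/-! ### 2. The units modulo `H` -/

section units

variable {P : Finset ℕ} {M : ℕ} (htM : ∀ t : ↥P, (t : ℕ) ∣ M) (H : Subgroup (ZMod M)ˣ)
  (hH : ∀ u : (ZMod M)ˣ, (∀ t : ↥P, ZMod.unitsMap (htM t) u = 1) → u ∈ H)

theorem twe_ni_unitsMap_dUnit (g : Gamma0 M) (t : ↥P) :
    ((ZMod.unitsMap (htM t) (twe_dUnit M g) : (ZMod (t : ℕ))ˣ) : ZMod (t : ℕ)) =
      (((g : SL(2, ℤ)) 1 1 : ℤ) : ZMod (t : ℕ)) := by
  rw [ZMod.unitsMap_def, Units.coe_map, twe_dUnit_coe]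
  simp

include hH in
theorem twe_ni_mem_H_of_congr {u u' : (ZMod M)ˣ}
    (h : ∀ t : ↥P, ZMod.unitsMap (htM t) u = ZMod.unitsMap (htM t) u') (hu' : u' ∈ H) : u ∈ H := by
  have h1 : u * u'⁻¹ ∈ H := hH _ (fun t => by rw [map_mul, map_inv, h t, mul_inv_cancel])
  have h2 := mul_mem h1 hu'
  rwa [inv_mul_cancel_right] at h2

include hH in
/-- `d ≡ 1` modulo every `t ∈ P` ⟹ in `Γ_H`. -/
theorem twe_ni_mem_GamH (g : Gamma0 M)
    (hg : ∀ t : ↥P, (((g : SL(2, ℤ)) 1 1 : ℤ) : ZMod (t : ℕ)) = 1) :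
    (g : SL(2, ℤ)) ∈ twe_GamH M H := by
  refine twe_mem_GamH.mpr ⟨g.2, hH _ fun t => ?_⟩
  apply Units.ext
  rw [Units.val_one]
  exact (twe_ni_unitsMap_dUnit htM g t).trans (hg t)

include hH in
/-- membership in `Γ_H` only depends on `d` modulo the `t ∈ P`. -/
theorem twe_ni_mem_GamH_of_congr (g : Gamma0 M) (u' : (ZMod M)ˣ) (hu' : u' ∈ H)
    (hg : ∀ t : ↥P, ZMod.unitsMap (htM t) (twe_dUnit M g) = ZMod.unitsMap (htM t) u') :
    (g : SL(2, ℤ)) ∈ twe_GamH M H :=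
  twe_mem_GamH.mpr ⟨g.2, twe_ni_mem_H_of_congr htM H hH hg hu'⟩

end units

/-! ### 3. The restriction `h_K` of `h` to the full level `π.ker` -/

section hK

variable (N₀ : ℕ) [NeZero N₀] (P : Finset ℕ) [hP : ∀ t : ↥P, Fact (Nat.Prime (t : ℕ))]
  (hN : ∀ t : ↥P, ¬ (t : ℕ) ∣ N₀) {M : ℕ} (hM : M = N₀ * ∏ t ∈ P, t)
  (htM : ∀ t : ↥P, (t : ℕ) ∣ M) (H : Subgroup (ZMod M)ˣ)
  (hH : ∀ u : (ZMod M)ˣ, (∀ t : ↥P, ZMod.unitsMap (htM t) u = 1) → u ∈ H)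

theorem twe_ni_ker_dvd (n : (twe_sj_pi N₀ P).ker) (t : ↥P) :
    (((t : ℕ) : ℕ) : ℤ) ∣ ((n : Gamma0 N₀) : SL(2, ℤ)) 1 0 := by
  have h := (twe_sj_mem_ker N₀ P n).mp n.2 t 1 0
  rw [Matrix.one_apply_ne (by decide)] at h
  exact (ZMod.intCast_zmod_eq_zero_iff_dvd _ _).mp h

theorem twe_ni_ker_d (n : (twe_sj_pi N₀ P).ker) (t : ↥P) :
    ((((n : Gamma0 N₀) : SL(2, ℤ)) 1 1 : ℤ) : ZMod (t : ℕ)) = 1 := by
  have h := (twe_sj_mem_ker N₀ P n).mp n.2 t 1 1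
  rwa [Matrix.one_apply_eq] at h

/-- the inclusion `π.ker → Γ_H`. -/
def twe_ni_j : (twe_sj_pi N₀ P).ker →* ↥(twe_GamH M H) where
  toFun n := ⟨((n : Gamma0 N₀) : SL(2, ℤ)),
    twe_ni_mem_GamH htM H hH (twe_ni_up N₀ P hN hM n (twe_ni_ker_dvd N₀ P n))
      (twe_ni_ker_d N₀ P n)⟩
  map_one' := rfl
  map_mul' _ _ := rfl

@[simp] theorem twe_ni_j_coe (n : (twe_sj_pi N₀ P).ker) :
    ((twe_ni_j N₀ P hN hM htM H hH n : ↥(twe_GamH M H)) : SL(2, ℤ)) =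
      ((n : Gamma0 N₀) : SL(2, ℤ)) := rfl

variable {K : Type*} [Field K]

/-- the restriction to the full level is injective in characteristic zero. -/
theorem twe_ni_pull_ne_zero [CharZero K] (h : Additive ↥(twe_GamH M H) →+ K) (h0 : h ≠ 0) :
    lrpd_pull (twe_ni_j N₀ P hN hM htM H hH) h ≠ 0 := by
  intro hz
  apply h0
  refine AddMonoidHom.ext fun γ => ?_
  obtain ⟨γ, rfl⟩ := Additive.ofMul.surjective γ
  have hγM : (γ : SL(2, ℤ)) ∈ Gamma0 M := twe_GamH_le M H γ.2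
  let γ' : Gamma0 N₀ := ⟨γ, twe_ni_Gamma0_le N₀ P hM hγM⟩
  have he0 : Nat.card (twe_sj_G P) ≠ 0 := Nat.card_pos.ne'
  have hker : γ' ^ Nat.card (twe_sj_G P) ∈ (twe_sj_pi N₀ P).ker := by
    rw [MonoidHom.mem_ker, map_pow]
    exact pow_card_eq_one'
  have h1 : twe_ni_j N₀ P hN hM htM H hH ⟨γ' ^ Nat.card (twe_sj_G P), hker⟩ =
      γ ^ Nat.card (twe_sj_G P) := by
    apply Subtype.ext
    rw [twe_ni_j_coe, Subgroup.coe_pow, Subgroup.coe_pow]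
  have h2 : lrpd_pull (twe_ni_j N₀ P hN hM htM H hH) h
      (Additive.ofMul ⟨γ' ^ Nat.card (twe_sj_G P), hker⟩) = 0 := by
    rw [hz]
    rfl
  rw [lrpd_pull_apply, h1, ofMul_pow, map_nsmul, ← Nat.cast_smul_eq_nsmul K, smul_eq_zero] at h2
  rcases h2 with h2 | h2
  · exact absurd h2 (Nat.cast_ne_zero.mpr he0)
  · exact h2

/-- the restriction of a parabolic-elliptic-killing character kills the parabolic and elliptic
elements. -/
theorem twe_ni_pull_mem_kill (h : Additive ↥(twe_GamH M H) →+ K)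
    (hPE : lrpd_PE (twe_GamH M H) h) :
    lrpd_pull (twe_ni_j N₀ P hN hM htM H hH) h ∈ twe_fl_kill (twe_sj_pi N₀ P) K K
      (fun g : Gamma0 N₀ => lrpd_tr (g : SL(2, ℤ)) ^ 2 ≤ 4) := by
  intro n hn
  rw [lrpd_pull_apply]
  exact hPE _ hn

/-! ### 4. The diamond operators and the action of `G` -/

theorem twe_ni_conj_smul (g : Gamma0 M) (z : K) (h : Additive ↥(twe_GamH M H) →+ K) :
    twe_conj H g (z • h) = z • twe_conj H g h := rfl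

theorem twe_ni_conj_pow (g : Gamma0 M) (z : K) (h : Additive ↥(twe_GamH M H) →+ K)
    (hz : twe_conj H g h = z • h) (n : ℕ) : twe_conj H (g ^ n) h = z ^ n • h := by
  induction n with
  | zero => rw [pow_zero, pow_zero, one_smul, twe_conj_one]
  | succ n ih =>
    rw [pow_succ, twe_conj_mul, hz, twe_ni_conj_smul, ih, smul_smul, pow_succ, mul_comm]

theorem twe_ni_pull_smul (z : K) (h : Additive ↥(twe_GamH M H) →+ K) :
    lrpd_pull (twe_ni_j N₀ P hN hM htM H hH) (z • h) =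
      z • lrpd_pull (twe_ni_j N₀ P hN hM htM H hH) h := rfl

/-- `ρ₀(g) h_K = (g • h)_K` for `g ∈ Γ₀(M)`. -/
theorem twe_ni_rho0_pull (h : Additive ↥(twe_GamH M H) →+ K) (g : Gamma0 M) :
    twe_fl_rho0 (twe_sj_pi N₀ P) K K (twe_ni_down N₀ P hM g)
        (lrpd_pull (twe_ni_j N₀ P hN hM htM H hH) h) =
      lrpd_pull (twe_ni_j N₀ P hN hM htM H hH) (twe_conj H g h) := by
  refine AddMonoidHom.ext fun n => ?_
  obtain ⟨n, rfl⟩ := Additive.ofMul.surjective n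
  rw [twe_fl_rho0_apply, lrpd_pull_apply, lrpd_pull_apply, twe_conj_apply]
  congr 2

/-- a lift to `Γ₀(M)` of an upper triangular element of `G`. -/
def twe_ni_lift (b : twe_sj_G P) (hb : ∀ t : ↥P, b t ∈ twe_lv_Bu (ZMod (t : ℕ))) : Gamma0 M :=
  twe_ni_up N₀ P hN hM (Function.surjInv (twe_sj_surj N₀ hN) b) (fun t =>
    (twe_lv_pi_mem_Bu _ t).mp (by rw [Function.surjInv_eq (twe_sj_surj N₀ hN)]; exact hb t))

theorem twe_ni_pi_lift (b : twe_sj_G P) (hb : ∀ t : ↥P, b t ∈ twe_lv_Bu (ZMod (t : ℕ))) :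
    twe_sj_pi N₀ P (twe_ni_down N₀ P hM (twe_ni_lift N₀ P hN hM b hb)) = b := by
  unfold twe_ni_lift
  rw [twe_ni_down_up, Function.surjInv_eq (twe_sj_surj N₀ hN)]

theorem twe_ni_lift_d (b : twe_sj_G P) (hb : ∀ t : ↥P, b t ∈ twe_lv_Bu (ZMod (t : ℕ))) (t : ↥P) :
    ((((twe_ni_lift N₀ P hN hM b hb : Gamma0 M) : SL(2, ℤ)) 1 1 : ℤ) : ZMod (t : ℕ)) =
      ((b t : SL(2, ZMod (t : ℕ))) : Matrix (Fin 2) (Fin 2) (ZMod (t : ℕ))) 1 1 := by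
  have h := twe_sj_pi_apply N₀ P (twe_ni_down N₀ P hM (twe_ni_lift N₀ P hN hM b hb)) t 1 1
  rw [twe_ni_pi_lift] at h
  exact h.symm

theorem twe_ni_rho_eq (b : twe_sj_G P) (hb : ∀ t : ↥P, b t ∈ twe_lv_Bu (ZMod (t : ℕ)))
    (h : Additive ↥(twe_GamH M H) →+ K) :
    twe_fl_rho K K (twe_sj_surj N₀ hN) b (lrpd_pull (twe_ni_j N₀ P hN hM htM H hH) h) =
      lrpd_pull (twe_ni_j N₀ P hN hM htM H hH)
        (twe_conj H (twe_ni_lift N₀ P hN hM b hb) h) := by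
  have key : twe_fl_rho K K (twe_sj_surj N₀ hN) b =
      twe_fl_rho0 (twe_sj_pi N₀ P) K K (twe_ni_down N₀ P hM (twe_ni_lift N₀ P hN hM b hb)) := by
    rw [← twe_fl_rho_pi (twe_sj_surj N₀ hN), twe_ni_pi_lift]
  rw [key, twe_ni_rho0_pull]

/-- upper triangular elements act on `h_K` through the diamond eigenvalue of a lift. -/
theorem twe_ni_rho_eigen (h : Additive ↥(twe_GamH M H) →+ K)
    (hdia : ∀ g : Gamma0 M, ∃ z : K, twe_conj H g h = z • h)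
    (b : twe_sj_G P) (hb : ∀ t : ↥P, b t ∈ twe_lv_Bu (ZMod (t : ℕ))) :
    ∃ z : K, twe_conj H (twe_ni_lift N₀ P hN hM b hb) h = z • h ∧
      twe_fl_rho K K (twe_sj_surj N₀ hN) b (lrpd_pull (twe_ni_j N₀ P hN hM htM H hH) h) =
        z • lrpd_pull (twe_ni_j N₀ P hN hM htM H hH) h := by
  obtain ⟨z, hz⟩ := hdia (twe_ni_lift N₀ P hN hM b hb)
  refine ⟨z, hz, ?_⟩
  rw [twe_ni_rho_eq N₀ P hN hM htM H hH b hb, hz, twe_ni_pull_smul]

/-- upper triangular elements with trivial diagonal fix `h_K`. -/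
theorem twe_ni_rho_unip (h : Additive ↥(twe_GamH M H) →+ K)
    (b : twe_sj_G P) (hb : ∀ t : ↥P, b t ∈ twe_lv_Bu (ZMod (t : ℕ)))
    (hd : ∀ t : ↥P, ((b t : SL(2, ZMod (t : ℕ))) : Matrix (Fin 2) (Fin 2) (ZMod (t : ℕ))) 1 1 = 1) :
    twe_fl_rho K K (twe_sj_surj N₀ hN) b (lrpd_pull (twe_ni_j N₀ P hN hM htM H hH) h) =
      lrpd_pull (twe_ni_j N₀ P hN hM htM H hH) h := by
  rw [twe_ni_rho_eq N₀ P hN hM htM H hH b hb, twe_conj_of_mem H _ (twe_ni_mem_GamH htM H hH _ (fun t => by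
    rw [twe_ni_lift_d]; exact hd t))]

end hK

/-! ### 5. The torus characters -/

section chars

variable {P : Finset ℕ} [hP : ∀ t : ↥P, Fact (Nat.Prime (t : ℕ))]

theorem twe_ni_iota_Bu (t₁ : ↥P) {g : SL(2, ZMod (t₁ : ℕ))} (hg : g ∈ twe_lv_Bu (ZMod (t₁ : ℕ))) :
    ∀ t : ↥P, twe_sj_iota t₁ g t ∈ twe_lv_Bu (ZMod (t : ℕ)) := by
  intro t
  by_cases ht : t = t₁
  · subst ht
    rw [twe_sj_iota_same]
    exact hg
  · rw [twe_sj_iota_ne ht]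
    exact one_mem _

/-- the eigenvalue of a product of torus elements is the product of the eigenvalues. -/
theorem twe_ni_rho_prod {K V : Type*} [Field K] [AddCommGroup V] [Module K V]
    (ρ : twe_sj_G P →* Module.End K V) (v : V) (ψ : ∀ t : ↥P, (ZMod (t : ℕ))ˣ →* K)
    (hψ : ∀ (t : ↥P) (a : (ZMod (t : ℕ))ˣ), ρ (twe_sj_iota t (twlg_bk_Dmat a)) v = ψ t a • v)
    (a : ∀ t : ↥P, (ZMod (t : ℕ))ˣ) :
    ρ (fun t : ↥P => twlg_bk_Dmat (a t)) v = (∏ t : ↥P, ψ t (a t)) • v := by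
  classical
  have key : ∀ S : Finset ↥P,
      ρ (fun t : ↥P => if t ∈ S then twlg_bk_Dmat (a t) else 1) v = (∏ t ∈ S, ψ t (a t)) • v := by
    intro S
    induction S using Finset.induction_on with
    | empty =>
      have h1 : (fun t : ↥P => if t ∈ (∅ : Finset ↥P) then twlg_bk_Dmat (a t) else
          (1 : SL(2, ZMod (t : ℕ)))) = (1 : twe_sj_G P) := by
        funext t
        rw [if_neg (Finset.notMem_empty t)]
        rfl
      rw [h1, map_one, Module.End.one_apply, Finset.prod_empty, one_smul]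
    | insert t₁ S ht₁ ih =>
      have h1 : (fun t : ↥P => if t ∈ insert t₁ S then twlg_bk_Dmat (a t) else
          (1 : SL(2, ZMod (t : ℕ)))) =
          twe_sj_iota t₁ (twlg_bk_Dmat (a t₁)) *
            (fun t : ↥P => if t ∈ S then twlg_bk_Dmat (a t) else (1 : SL(2, ZMod (t : ℕ)))) := by
        funext t
        rw [Pi.mul_apply]
        by_cases ht : t = t₁
        · subst ht
          rw [twe_sj_iota_same, if_pos (Finset.mem_insert_self _ _), if_neg ht₁, mul_one]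
        · rw [twe_sj_iota_ne ht, one_mul]
          by_cases hS : t ∈ S
          · rw [if_pos (Finset.mem_insert_of_mem hS), if_pos hS]
          · rw [if_neg (fun hc => (Finset.mem_insert.mp hc).elim ht hS), if_neg hS]
      rw [h1, map_mul, Module.End.mul_apply, ih, map_smul, hψ, smul_smul,
        Finset.prod_insert ht₁, mul_comm]
  have h2 := key Finset.univ
  simpa using h2

variable (N₀ : ℕ) [NeZero N₀]
  (hN : ∀ t : ↥P, ¬ (t : ℕ) ∣ N₀) {M : ℕ} (hM : M = N₀ * ∏ t ∈ P, t)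
  (htM : ∀ t : ↥P, (t : ℕ) ∣ M) (H : Subgroup (ZMod M)ˣ)
  (hH : ∀ u : (ZMod M)ˣ, (∀ t : ↥P, ZMod.unitsMap (htM t) u = 1) → u ∈ H)
  {K : Type*} [Field K] (h : Additive ↥(twe_GamH M H) →+ K)

/-- the upper unipotent elements fix `h_K`. -/
theorem twe_ni_rho_U (t₁ : ↥P) (x : ZMod (t₁ : ℕ)) :
    twe_fl_rho K K (twe_sj_surj N₀ hN) (twe_sj_iota t₁ (twlg_bk_Umat x))
        (lrpd_pull (twe_ni_j N₀ P hN hM htM H hH) h) =
      lrpd_pull (twe_ni_j N₀ P hN hM htM H hH) h := by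
  refine twe_ni_rho_unip N₀ P hN hM htM H hH h _ (twe_ni_iota_Bu t₁ (twe_lv_Umat_mem x))
    (fun t => ?_)
  by_cases ht : t = t₁
  · subst ht
    rw [twe_sj_iota_same]
    simp
  · rw [twe_sj_iota_ne ht]
    simp

/-- the diamond eigenvalues are `m`-th roots of unity when `(ZMod M)ˣ / H` has exponent `m`. -/
theorem twe_ni_dia_pow (h0 : h ≠ 0) (m : ℕ) (hHm : ∀ u : (ZMod M)ˣ, u ^ m ∈ H) (g : Gamma0 M)
    (z : K) (hz : twe_conj H g h = z • h) : z ^ m = 1 := by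
  have h1 := twe_ni_conj_pow H g z h hz m
  have hmem : ((g ^ m : Gamma0 M) : SL(2, ℤ)) ∈ twe_GamH M H := by
    refine twe_mem_GamH.mpr ⟨(g ^ m).2, ?_⟩
    have : (⟨((g ^ m : Gamma0 M) : SL(2, ℤ)), (g ^ m).2⟩ : Gamma0 M) = g ^ m := rfl
    rw [this, map_pow]
    exact hHm _
  rw [twe_conj_of_mem H _ hmem] at h1
  exact twe_ni_smul_cancel h0 (h1.symm.trans (one_smul K h).symm)

/-- **the torus characters**. -/
theorem twe_ni_exists_psi [CharZero K] (h0 : h ≠ 0)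
    (hdia : ∀ g : Gamma0 M, ∃ z : K, twe_conj H g h = z • h) :
    ∃ ψ : ∀ t : ↥P, (ZMod (t : ℕ))ˣ →* K, ∀ (t : ↥P) (a : (ZMod (t : ℕ))ˣ),
      twe_fl_rho K K (twe_sj_surj N₀ hN) (twe_sj_iota t (twlg_bk_Dmat a))
          (lrpd_pull (twe_ni_j N₀ P hN hM htM H hH) h) =
        ψ t a • lrpd_pull (twe_ni_j N₀ P hN hM htM H hH) h := by
  have hex : ∀ t : ↥P, ∃ ψ : (ZMod (t : ℕ))ˣ →* K, ∀ a : (ZMod (t : ℕ))ˣ,
      twe_fl_rho K K (twe_sj_surj N₀ hN) (((twe_sj_iota t).comp twlg_bk_D) a)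
          (lrpd_pull (twe_ni_j N₀ P hN hM htM H hH) h) =
        ψ a • lrpd_pull (twe_ni_j N₀ P hN hM htM H hH) h := by
    intro t
    refine twe_ni_exists_char (twe_fl_rho K K (twe_sj_surj N₀ hN)) ((twe_sj_iota t).comp twlg_bk_D)
      _ (twe_ni_pull_ne_zero N₀ P hN hM htM H hH h h0) (fun a => ?_)
    obtain ⟨z, -, hz⟩ := twe_ni_rho_eigen N₀ P hN hM htM H hH h hdia
      (twe_sj_iota t (twlg_bk_Dmat a))
      (twe_ni_iota_Bu t (twe_lv_T1_le_Bu (twe_lv_Dmat_mem a)))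
    exact ⟨z, hz⟩
  choose ψ hψ using hex
  exact ⟨ψ, fun t a => hψ t a⟩

end chars

/-! ### 6. The Hecke operators -/

section hecke

variable (N₀ : ℕ) [NeZero N₀] (P : Finset ℕ) [hP : ∀ t : ↥P, Fact (Nat.Prime (t : ℕ))]
  (hN : ∀ t : ↥P, ¬ (t : ℕ) ∣ N₀) {M : ℕ} (hM : M = N₀ * ∏ t ∈ P, t)
  (htM : ∀ t : ↥P, (t : ℕ) ∣ M) (H : Subgroup (ZMod M)ˣ)
  (hH : ∀ u : (ZMod M)ˣ, (∀ t : ↥P, ZMod.unitsMap (htM t) u = 1) → u ∈ H)
  {ℓ : ℕ} [Fact ℓ.Prime] (hℓM : ¬ ℓ ∣ M) (hℓN : ¬ ℓ ∣ N₀) (hℓP : ∀ t : ↥P, (t : ℕ) ≠ ℓ)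
  (s : Gamma0 M)

/-- the cocycle `t2c_coc` does not depend on the level. -/
theorem twe_ni_coc_down (x : OnePoint (ZMod ℓ)) (γ : Gamma0 M) :
    ((t2c_coc hℓN x (twe_ni_down N₀ P hM γ) : Gamma0 N₀) : SL(2, ℤ)) =
      ((t2c_coc hℓM x γ : Gamma0 M) : SL(2, ℤ)) := by
  apply t2c_coc_unique
  exact t2c_coc_spec hℓM x γ

/-- `k_x = s_x · (s)_x ∈ Γ₀(N₀)`. -/
def twe_ni_k (x : OnePoint (ZMod ℓ)) : Gamma0 N₀ :=
  twe_fh_s N₀ P hN hℓP x * twe_ni_down N₀ P hM (twe_hk_sx s x)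

theorem twe_ni_g_Bu (x : OnePoint (ZMod ℓ)) (t : ↥P) :
    twe_fh_g P hℓP x t ∈ twe_lv_Bu (ZMod (t : ℕ)) := by
  induction x using OnePoint.rec with
  | infty => exact twe_lv_T1_le_Bu (twe_lv_Dmat_mem _)
  | coe j => exact twe_lv_Umat_mem _

theorem twe_ni_k_Bu (x : OnePoint (ZMod ℓ)) (t : ↥P) :
    twe_sj_pi N₀ P (twe_ni_k N₀ P hN hM hℓP s x) t ∈ twe_lv_Bu (ZMod (t : ℕ)) := by
  unfold twe_ni_k
  rw [map_mul, Pi.mul_apply, twe_fh_pi_s]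
  refine mul_mem (twe_ni_g_Bu P hℓP x t) ?_
  rw [twe_lv_pi_mem_Bu]
  exact twe_ni_dvd_entry N₀ P hM _ t

/-- `k_x` in `Γ₀(M)`. -/
def twe_ni_kM (x : OnePoint (ZMod ℓ)) : Gamma0 M :=
  twe_ni_up N₀ P hN hM (twe_ni_k N₀ P hN hM hℓP s x) (fun t =>
    (twe_lv_pi_mem_Bu _ t).mp (twe_ni_k_Bu N₀ P hN hM hℓP s x t))

/-- the lower right entry of `g_x` modulo `t`, as a unit. -/
def twe_ni_eU (x : OnePoint (ZMod ℓ)) (t : ↥P) : (ZMod (t : ℕ))ˣ :=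
  x.elim (twe_fh_lU P hℓP t) (fun _ => 1)

theorem twe_ni_g_11 (x : OnePoint (ZMod ℓ)) (t : ↥P) :
    ((twe_fh_g P hℓP x t : SL(2, ZMod (t : ℕ))) : Matrix (Fin 2) (Fin 2) (ZMod (t : ℕ))) 1 1 =
      ((twe_ni_eU P hℓP x t : (ZMod (t : ℕ))ˣ) : ZMod (t : ℕ)) := by
  induction x using OnePoint.rec with
  | infty =>
    show ((twlg_bk_Dmat (twe_fh_lU P hℓP t)⁻¹ : SL(2, ZMod (t : ℕ))) :
      Matrix (Fin 2) (Fin 2) (ZMod (t : ℕ))) 1 1 = ((twe_fh_lU P hℓP t : (ZMod (t : ℕ))ˣ) : ZMod (t : ℕ))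
    rw [twlg_bk_Dmat_coe, inv_inv]
    rfl
  | coe j =>
    show ((twlg_bk_Umat _ : SL(2, ZMod (t : ℕ))) :
      Matrix (Fin 2) (Fin 2) (ZMod (t : ℕ))) 1 1 = ((1 : (ZMod (t : ℕ))ˣ) : ZMod (t : ℕ))
    rw [twlg_bk_Umat_coe, Units.val_one]
    rfl

theorem twe_ni_kM_d (x : OnePoint (ZMod ℓ)) (t : ↥P) :
    ZMod.unitsMap (htM t) (twe_dUnit M (twe_ni_kM N₀ P hN hM hℓP s x)) =
      twe_ni_eU P hℓP x t * ZMod.unitsMap (htM t) (twe_dUnit M (twe_hk_sx s x)) := by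
  apply Units.ext
  rw [Units.val_mul, twe_ni_unitsMap_dUnit, twe_ni_unitsMap_dUnit]
  have h1 := twe_sj_pi_apply N₀ P (twe_ni_k N₀ P hN hM hℓP s x) t 1 1
  have h2 : ((twe_ni_kM N₀ P hN hM hℓP s x : Gamma0 M) : SL(2, ℤ)) =
      ((twe_ni_k N₀ P hN hM hℓP s x : Gamma0 N₀) : SL(2, ℤ)) := rfl
  rw [h2, ← h1]
  unfold twe_ni_k
  rw [map_mul, Pi.mul_apply, twe_lv_mul_apply, twe_fh_pi_s,
    twe_lv_mem_Bu.mp (twe_ni_g_Bu P hℓP x t), zero_mul, zero_add, twe_ni_g_11, twe_sj_pi_apply]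
  rfl

theorem twe_ni_unitsMap_lU (t : ↥P) :
    ZMod.unitsMap (htM t) (twe_hk_lU hℓM) = twe_fh_lU P hℓP t := by
  apply Units.ext
  rw [ZMod.unitsMap_def, Units.coe_map]
  simp [twe_hk_lU, twe_fh_lU]

/-- `m_x = s⁻¹ · k_x ∈ Γ₀(M)`. -/
def twe_ni_m (x : OnePoint (ZMod ℓ)) : Gamma0 M := s⁻¹ * twe_ni_kM N₀ P hN hM hℓP s x

include hH in
/-- `m_x ∈ Γ_H`. -/
theorem twe_ni_m_mem (hs : twe_dUnit M s * twe_dUnit M s * (twe_hk_lU hℓM)⁻¹ ∈ H)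
    (x : OnePoint (ZMod ℓ)) :
    ((twe_ni_m N₀ P hN hM hℓP s x : Gamma0 M) : SL(2, ℤ)) ∈ twe_GamH M H := by
  induction x using OnePoint.rec with
  | infty =>
    refine twe_ni_mem_GamH_of_congr htM H hH _ _ (inv_mem hs) (fun t => ?_)
    have e1 : ZMod.unitsMap (htM t) (twe_dUnit M (twe_hk_sx s (OnePoint.infty : OnePoint (ZMod ℓ)))) =
        (ZMod.unitsMap (htM t) (twe_dUnit M s))⁻¹ := by
      show ZMod.unitsMap (htM t) (twe_dUnit M s⁻¹) = _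
      rw [map_inv, map_inv]
    have e2 : twe_ni_eU P hℓP (OnePoint.infty : OnePoint (ZMod ℓ)) t = twe_fh_lU P hℓP t := rfl
    have e3 : ZMod.unitsMap (htM t) (twe_dUnit M (twe_ni_m N₀ P hN hM hℓP s OnePoint.infty)) =
        (ZMod.unitsMap (htM t) (twe_dUnit M s))⁻¹ *
          ZMod.unitsMap (htM t) (twe_dUnit M (twe_ni_kM N₀ P hN hM hℓP s OnePoint.infty)) := by
      unfold twe_ni_m
      rw [map_mul, map_mul, map_inv, map_inv]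
    rw [e3, twe_ni_kM_d N₀ P hN hM htM hℓP s, e1, e2, map_inv, map_mul, map_mul, map_inv,
      twe_ni_unitsMap_lU P htM hℓM hℓP, mul_inv_rev, mul_inv_rev, inv_inv]
    ac_rfl
  | coe j =>
    refine twe_ni_mem_GamH_of_congr htM H hH _ 1 (one_mem H) (fun t => ?_)
    have e1 : ZMod.unitsMap (htM t) (twe_dUnit M (twe_hk_sx s ((j : ZMod ℓ) : OnePoint (ZMod ℓ)))) =
        ZMod.unitsMap (htM t) (twe_dUnit M s) := rfl
    have e2 : twe_ni_eU P hℓP ((j : ZMod ℓ) : OnePoint (ZMod ℓ)) t = 1 := rfl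
    have e3 : ZMod.unitsMap (htM t) (twe_dUnit M (twe_ni_m N₀ P hN hM hℓP s (j : OnePoint (ZMod ℓ)))) =
        (ZMod.unitsMap (htM t) (twe_dUnit M s))⁻¹ *
          ZMod.unitsMap (htM t) (twe_dUnit M (twe_ni_kM N₀ P hN hM hℓP s (j : OnePoint (ZMod ℓ)))) := by
      unfold twe_ni_m
      rw [map_mul, map_mul, map_inv, map_inv]
    rw [e3, twe_ni_kM_d N₀ P hN hM htM hℓP s, e1, e2, one_mul, inv_mul_cancel, map_one]

/-- **the key identity**: `c'_x(n) = m_x⁻¹ · s⁻¹ C_x(n) s · m_{x ⋆ n}` for `n ∈ π.ker`. -/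
theorem twe_ni_coc_eq (x : OnePoint (ZMod ℓ)) (n : (twe_sj_pi N₀ P).ker) :
    ((twe_hk_coc hℓM s x (twe_ni_up N₀ P hN hM n (twe_ni_ker_dvd N₀ P n)) : Gamma0 M) : SL(2, ℤ)) =
      ((twe_ni_m N₀ P hN hM hℓP s x : Gamma0 M) : SL(2, ℤ))⁻¹ *
        ((s : SL(2, ℤ))⁻¹ * ((twe_fh_coc N₀ P hN hℓN hℓP x n : Gamma0 N₀) : SL(2, ℤ)) *
          (s : SL(2, ℤ))) *
        ((twe_ni_m N₀ P hN hM hℓP s (t2c_act (((n : Gamma0 N₀) : SL(2, ℤ))) x) : Gamma0 M) :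
          SL(2, ℤ)) := by
  have h1 := twe_ni_coc_down N₀ P hM hℓM hℓN x (twe_ni_up N₀ P hN hM n (twe_ni_ker_dvd N₀ P n))
  rw [twe_ni_down_up] at h1
  have e : ∀ y : OnePoint (ZMod ℓ), ((twe_ni_m N₀ P hN hM hℓP s y : Gamma0 M) : SL(2, ℤ)) =
      (s : SL(2, ℤ))⁻¹ * (((twe_fh_s N₀ P hN hℓP y : Gamma0 N₀) : SL(2, ℤ)) *
        ((twe_hk_sx s y : Gamma0 M) : SL(2, ℤ))) := fun y => rfl
  have e2 : ((twe_hk_coc hℓM s x (twe_ni_up N₀ P hN hM n (twe_ni_ker_dvd N₀ P n)) : Gamma0 M) :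
      SL(2, ℤ)) = ((twe_hk_sx s x : Gamma0 M) : SL(2, ℤ))⁻¹ *
        ((t2c_coc hℓM x (twe_ni_up N₀ P hN hM n (twe_ni_ker_dvd N₀ P n)) : Gamma0 M) : SL(2, ℤ)) *
        ((twe_hk_sx s (t2c_act (((n : Gamma0 N₀) : SL(2, ℤ))) x) : Gamma0 M) : SL(2, ℤ)) := rfl
  have e3 : ((twe_fh_coc N₀ P hN hℓN hℓP x n : Gamma0 N₀) : SL(2, ℤ)) =
      ((twe_fh_s N₀ P hN hℓP x : Gamma0 N₀) : SL(2, ℤ)) *
        ((t2c_coc hℓN x (n : Gamma0 N₀) : Gamma0 N₀) : SL(2, ℤ)) *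
        ((twe_fh_s N₀ P hN hℓP (t2c_act (((n : Gamma0 N₀) : SL(2, ℤ))) x) : Gamma0 N₀) :
          SL(2, ℤ))⁻¹ := rfl
  rw [e2, e3, e x, e (t2c_act (((n : Gamma0 N₀) : SL(2, ℤ))) x), ← h1]
  group

include hH in
/-- **the Hecke comparison** `z_s • T^V h_K = a_ℓ • h_K`. -/
theorem twe_ni_hecke {K : Type*} [Field K]
    (hs : twe_dUnit M s * twe_dUnit M s * (twe_hk_lU hℓM)⁻¹ ∈ H)
    (h : Additive ↥(twe_GamH M H) →+ K) (aℓ zs : K)
    (hT : twe_hk_T hℓM H s hs h = aℓ • h) (hzs : twe_conj H s h = zs • h) :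
    zs • twe_fl_TK K (twe_fh_compat N₀ P hN hℓN hℓP)
        (lrpd_pull (twe_ni_j N₀ P hN hM htM H hH) h) =
      aℓ • lrpd_pull (twe_ni_j N₀ P hN hM htM H hH) h := by
  refine AddMonoidHom.ext fun n => ?_
  obtain ⟨n, rfl⟩ := Additive.ofMul.surjective n
  set j := twe_ni_j N₀ P hN hM htM H hH with hj
  set hc := twe_fh_compat N₀ P hN hℓN hℓP with hhc
  let mH : OnePoint (ZMod ℓ) → ↥(twe_GamH M H) := fun x =>
    ⟨_, twe_ni_m_mem N₀ P hN hM htM H hH hℓM hℓP s hs x⟩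
  have hterm : ∀ x : OnePoint (ZMod ℓ),
      h (Additive.ofMul ((twe_hk_data hℓM H s hs).coc x (j n))) =
        - h (Additive.ofMul (mH x)) +
          zs • (lrpd_pull j h) (Additive.ofMul ((twe_fl_dataK hc).coc x n)) +
          h (Additive.ofMul (mH (t2c_act (((n : Gamma0 N₀) : SL(2, ℤ))) x))) := by
    intro x
    have hel : (twe_hk_data hℓM H s hs).coc x (j n) =
        (mH x)⁻¹ * twe_conjHom H s (j ((twe_fl_dataK hc).coc x n)) *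
          mH (t2c_act (((n : Gamma0 N₀) : SL(2, ℤ))) x) := by
      apply Subtype.ext
      show ((twe_hk_coc hℓM s x (twe_hk_up H (j n)) : Gamma0 M) : SL(2, ℤ)) = _
      have hup : twe_hk_up H (j n) = twe_ni_up N₀ P hN hM n (twe_ni_ker_dvd N₀ P n) :=
        Subtype.ext rfl
      rw [hup, twe_ni_coc_eq N₀ P hN hM hℓM hℓN hℓP s x n]
      rfl
    rw [hel, ofMul_mul, ofMul_mul, ofMul_inv, map_add, map_add, map_neg, ← twe_conj_apply, hzs]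
    rfl
  have hL : (aℓ • lrpd_pull j h) (Additive.ofMul n) =
      ∑ x : OnePoint (ZMod ℓ), h (Additive.ofMul ((twe_hk_data hℓM H s hs).coc x (j n))) := by
    rw [AddMonoidHom.smul_apply, lrpd_pull_apply, ← AddMonoidHom.smul_apply, ← hT, twe_hk_T_apply]
  have hR : (zs • twe_fl_TK K hc (lrpd_pull j h)) (Additive.ofMul n) =
      zs • ∑ x : OnePoint (ZMod ℓ),
        (lrpd_pull j h) (Additive.ofMul ((twe_fl_dataK hc).coc x n)) := rfl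
  rw [hL, hR, Finset.sum_congr rfl (fun x _ => hterm x), Finset.sum_add_distrib,
    Finset.sum_add_distrib, Finset.sum_neg_distrib, ← Finset.smul_sum]
  have hperm : ∑ x : OnePoint (ZMod ℓ),
      h (Additive.ofMul (mH (t2c_act (((n : Gamma0 N₀) : SL(2, ℤ))) x))) =
      ∑ x : OnePoint (ZMod ℓ), h (Additive.ofMul (mH x)) :=
    Equiv.sum_comp (t2c_perm (((n : Gamma0 N₀) : SL(2, ℤ)))) (fun x => h (Additive.ofMul (mH x)))
  rw [hperm]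
  abel

end hecke

end Fermat.Agent.TW
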