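/-
ONE MACHINE / block [E] AUT, cell E/New, part 3 (helper24): the input comparison in OPERATOR FORM.
Namespace `Fermat.Agent.TW`, prefix `twe_nio_`.

* `twe_nio_Psiu htM ψ : (ZMod M)ˣ →* K` : the diamond character `u ↦ ∏ₜ ψ_t (u mod t)⁻¹` attached to a family
  of torus characters `ψ t : (ZMod t)ˣ →* K` (so that `g ∈ Γ₀(M)` acts through `∏ₜ ψ_t (a_g mod t)`);
* `twe_nio_U H htM ψ` : the `ψ`-part `{h | lrpd_PE h ∧ ∀ g, twe_conj H g h = Ψ(d_g) • h}` of `Hom(Γ_H, K)`;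
* for `h` in the `ψ`-part: `ρ(ι t (D a)) h_K = ψ t a • h_K`, `Ψ = 1` on `H` (if `h ≠ 0`),
  **`Ψ(d_s) • T^V h_K = (T'_{ℓ,s} h)_K`** (operator form of `twe_ni_hecke`) and the eigenvalue bookkeeping
  `Ψ(d_s) = ∏ₜ ψ_t(ℓ)^((m-1)/2)`.
-/
import Mathlib
import Fermat.Agent.TW.Aut.NewInput

set_option autoImplicit false
set_option linter.unusedSectionVars false

noncomputable section

open CongruenceSubgroup Matrix.SpecialLinearGroup
open scoped MatrixGroups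
open Fermat.Agent.JT3 Fermat.Agent.LR

namespace Fermat.Agent.TW

section defs

variable {P : Finset ℕ} {M : ℕ} (htM : ∀ t : ↥P, (t : ℕ) ∣ M) {K : Type*} [Field K]
  (ψ : ∀ t : ↥P, (ZMod (t : ℕ))ˣ →* K)

/-- the diamond character attached to the torus characters `ψ t`. -/
def twe_nio_Psiu : (ZMod M)ˣ →* K where
  toFun u := ∏ t : ↥P, ψ t (ZMod.unitsMap (htM t) u)⁻¹
  map_one' := by simp
  map_mul' u v := by
    rw [← Finset.prod_mul_distrib]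
    refine Finset.prod_congr rfl fun t _ => ?_
    rw [map_mul, mul_inv, map_mul]

theorem twe_nio_Psiu_apply (u : (ZMod M)ˣ) :
    twe_nio_Psiu htM ψ u = ∏ t : ↥P, ψ t (ZMod.unitsMap (htM t) u)⁻¹ := rfl

theorem twe_nio_Psiu_congr {u u' : (ZMod M)ˣ}
    (h : ∀ t : ↥P, ZMod.unitsMap (htM t) u = ZMod.unitsMap (htM t) u') :
    twe_nio_Psiu htM ψ u = twe_nio_Psiu htM ψ u' := by
  rw [twe_nio_Psiu_apply, twe_nio_Psiu_apply]
  exact Finset.prod_congr rfl fun t _ => by rw [h t]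

theorem twe_nio_Psiu_pow (m : ℕ) (hψm : ∀ (t : ↥P) (a : (ZMod (t : ℕ))ˣ), ψ t a ^ m = 1)
    (u : (ZMod M)ˣ) : twe_nio_Psiu htM ψ u ^ m = 1 := by
  rw [twe_nio_Psiu_apply, ← Finset.prod_pow]
  exact Finset.prod_eq_one fun t _ => hψm t _

variable (H : Subgroup (ZMod M)ˣ)

/-- **the `ψ`-part** of `Hom(Γ_H, K)`. -/
def twe_nio_U : Submodule K (Additive ↥(twe_GamH M H) →+ K) where
  carrier := {h | lrpd_PE (twe_GamH M H) h ∧
    ∀ g : Gamma0 M, twe_conj H g h = twe_nio_Psiu htM ψ (twe_dUnit M g) • h}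
  add_mem' := by
    rintro h h' ⟨h1, h2⟩ ⟨h1', h2'⟩
    refine ⟨fun γ hγ => ?_, fun g => ?_⟩
    · rw [AddMonoidHom.add_apply, h1 γ hγ, h1' γ hγ, add_zero]
    · rw [twe_conj_add, h2 g, h2' g, smul_add]
  zero_mem' := ⟨fun _ _ => rfl, fun g => by rw [smul_zero]; rfl⟩
  smul_mem' := by
    rintro c h ⟨h1, h2⟩
    refine ⟨fun γ hγ => ?_, fun g => ?_⟩
    · rw [AddMonoidHom.smul_apply, h1 γ hγ, smul_zero]
    · rw [twe_ni_conj_smul, h2 g, smul_comm]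

theorem twe_nio_mem_U {h : Additive ↥(twe_GamH M H) →+ K} :
    h ∈ twe_nio_U htM ψ H ↔ lrpd_PE (twe_GamH M H) h ∧
      ∀ g : Gamma0 M, twe_conj H g h = twe_nio_Psiu htM ψ (twe_dUnit M g) • h := Iff.rfl

end defs

section main

variable (N₀ : ℕ) [NeZero N₀] (P : Finset ℕ) [hP : ∀ t : ↥P, Fact (Nat.Prime (t : ℕ))]
  (hN : ∀ t : ↥P, ¬ (t : ℕ) ∣ N₀) {M : ℕ} (hM : M = N₀ * ∏ t ∈ P, t)
  (htM : ∀ t : ↥P, (t : ℕ) ∣ M) (H : Subgroup (ZMod M)ˣ)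
  (hH : ∀ u : (ZMod M)ˣ, (∀ t : ↥P, ZMod.unitsMap (htM t) u = 1) → u ∈ H)
  {K : Type*} [Field K] (ψ : ∀ t : ↥P, (ZMod (t : ℕ))ˣ →* K)

/-- the unit `d` of a lift, modulo `t`. -/
theorem twe_nio_lift_unit (b : twe_sj_G P) (hb : ∀ t : ↥P, b t ∈ twe_lv_Bu (ZMod (t : ℕ))) (t : ↥P)
    (x : (ZMod (t : ℕ))ˣ)
    (hx : ((b t : SL(2, ZMod (t : ℕ))) : Matrix (Fin 2) (Fin 2) (ZMod (t : ℕ))) 1 1 =
      (x : ZMod (t : ℕ))) :
    ZMod.unitsMap (htM t) (twe_dUnit M (twe_ni_lift N₀ P hN hM b hb)) = x := by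
  apply Units.ext
  rw [twe_ni_unitsMap_dUnit, twe_ni_lift_d, hx]

/-- the torus acts on `h_K` through `ψ`. -/
theorem twe_nio_rho_D {h : Additive ↥(twe_GamH M H) →+ K} (hh : h ∈ twe_nio_U htM ψ H) (t : ↥P)
    (a : (ZMod (t : ℕ))ˣ) :
    twe_fl_rho K K (twe_sj_surj N₀ hN) (twe_sj_iota t (twlg_bk_Dmat a))
        (lrpd_pull (twe_ni_j N₀ P hN hM htM H hH) h) =
      ψ t a • lrpd_pull (twe_ni_j N₀ P hN hM htM H hH) h := by
  classical
  have hb := twe_ni_iota_Bu t (twe_lv_T1_le_Bu (twe_lv_Dmat_mem a))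
  rw [twe_ni_rho_eq N₀ P hN hM htM H hH _ hb, hh.2, twe_ni_pull_smul]
  congr 1
  rw [twe_nio_Psiu_apply, Finset.prod_eq_single t]
  · rw [twe_nio_lift_unit N₀ P hN hM htM _ hb t a⁻¹, inv_inv]
    rw [twe_sj_iota_same, twlg_bk_Dmat_coe]
    rfl
  · intro t' _ ht'
    rw [twe_nio_lift_unit N₀ P hN hM htM _ hb t' 1, inv_one, map_one]
    rw [twe_sj_iota_ne ht', Units.val_one]
    simp
  · intro hc
    exact absurd (Finset.mem_univ t) hc

include hN hM hH in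
/-- the diamond character is trivial on `H` as soon as the `ψ`-part is nonzero. -/
theorem twe_nio_Psiu_of_mem {h : Additive ↥(twe_GamH M H) →+ K} (hh : h ∈ twe_nio_U htM ψ H)
    (h0 : h ≠ 0) {u : (ZMod M)ˣ} (hu : u ∈ H) : twe_nio_Psiu htM ψ u = 1 := by
  let b : twe_sj_G P := fun t => twlg_bk_Dmat (ZMod.unitsMap (htM t) u)⁻¹
  have hb : ∀ t : ↥P, b t ∈ twe_lv_Bu (ZMod (t : ℕ)) :=
    fun t => twe_lv_T1_le_Bu (twe_lv_Dmat_mem _)
  have hd : ∀ t : ↥P, ZMod.unitsMap (htM t) (twe_dUnit M (twe_ni_lift N₀ P hN hM b hb)) =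
      ZMod.unitsMap (htM t) u := by
    intro t
    refine twe_nio_lift_unit N₀ P hN hM htM b hb t _ ?_
    show ((twlg_bk_Dmat (ZMod.unitsMap (htM t) u)⁻¹ : SL(2, ZMod (t : ℕ))) :
      Matrix (Fin 2) (Fin 2) (ZMod (t : ℕ))) 1 1 = _
    rw [twlg_bk_Dmat_coe, inv_inv]
    rfl
  have hmem := twe_ni_mem_GamH_of_congr htM H hH (twe_ni_lift N₀ P hN hM b hb) u hu hd
  have h1 := hh.2 (twe_ni_lift N₀ P hN hM b hb)
  rw [twe_conj_of_mem H _ hmem, twe_nio_Psiu_congr htM ψ hd] at h1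
  exact (twe_ni_smul_cancel h0 (h1.symm.trans (one_smul K h).symm))

variable {ℓ : ℕ} [Fact ℓ.Prime] (hℓM : ¬ ℓ ∣ M) (hℓN : ¬ ℓ ∣ N₀) (hℓP : ∀ t : ↥P, (t : ℕ) ≠ ℓ)
  (s : Gamma0 M)

include hH in
/-- **the Hecke comparison, operator form**: `z_s • T^V h_K = (T'_{ℓ,s} h)_K`. -/
theorem twe_nio_hecke (hs : twe_dUnit M s * twe_dUnit M s * (twe_hk_lU hℓM)⁻¹ ∈ H)
    (h : Additive ↥(twe_GamH M H) →+ K) (zs : K) (hzs : twe_conj H s h = zs • h) :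
    zs • twe_fl_TK K (twe_fh_compat N₀ P hN hℓN hℓP)
        (lrpd_pull (twe_ni_j N₀ P hN hM htM H hH) h) =
      lrpd_pull (twe_ni_j N₀ P hN hM htM H hH) (twe_hk_T hℓM H s hs h) := by
  refine AddMonoidHom.ext fun n => ?_
  obtain ⟨n, rfl⟩ := Additive.ofMul.surjective n
  set j := twe_ni_j N₀ P hN hM htM H hH with hj
  set hc := twe_fh_compat N₀ P hN hℓN hℓP with hhc
  let mH : OnePoint (ZMod ℓ) → ↥(twe_GamH M H) := fun x =>
    ⟨_, twe_ni_m_mem N₀ P hN hM htM H hH hℓM hℓP s hs x⟩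
  have hterm : ∀ x : OnePoint (ZMod ℓ),
      h (Additive.ofMul ((twe_hk_data hℓM H s hs).coc x (j n))) =
        - h (Additive.ofMul (mH x)) +
          zs • (lrpd_pull j h) (Additive.ofMul ((twe_fl_dataK hc).coc x n)) +
          h (Additive.ofMul (mH (t2c_act (((n : Gamma0 N₀) : SL(2, ℤ))) x))) := by
    intro x
    have hel : (twe_hk_data hℓM H s hs).coc x (j n) =
        (mH x)⁻¹ * twe_conjHom H s (j ((twe_fl_dataK hc).coc x n)) *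
          mH (t2c_act (((n : Gamma0 N₀) : SL(2, ℤ))) x) := by
      apply Subtype.ext
      show ((twe_hk_coc hℓM s x (twe_hk_up H (j n)) : Gamma0 M) : SL(2, ℤ)) = _
      have hup : twe_hk_up H (j n) = twe_ni_up N₀ P hN hM n (twe_ni_ker_dvd N₀ P n) :=
        Subtype.ext rfl
      rw [hup, twe_ni_coc_eq N₀ P hN hM hℓM hℓN hℓP s x n]
      rfl
    rw [hel, ofMul_mul, ofMul_mul, ofMul_inv, map_add, map_add, map_neg, ← twe_conj_apply, hzs]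
    rfl
  have hL : (lrpd_pull j (twe_hk_T hℓM H s hs h)) (Additive.ofMul n) =
      ∑ x : OnePoint (ZMod ℓ), h (Additive.ofMul ((twe_hk_data hℓM H s hs).coc x (j n))) := by
    rw [lrpd_pull_apply, twe_hk_T_apply]
  have hR : (zs • twe_fl_TK K hc (lrpd_pull j h)) (Additive.ofMul n) =
      zs • ∑ x : OnePoint (ZMod ℓ),
        (lrpd_pull j h) (Additive.ofMul ((twe_fl_dataK hc).coc x n)) := rfl
  rw [hL, hR, Finset.sum_congr rfl (fun x _ => hterm x), Finset.sum_add_distrib,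
    Finset.sum_add_distrib, Finset.sum_neg_distrib, ← Finset.smul_sum]
  have hperm : ∑ x : OnePoint (ZMod ℓ),
      h (Additive.ofMul (mH (t2c_act (((n : Gamma0 N₀) : SL(2, ℤ))) x))) =
      ∑ x : OnePoint (ZMod ℓ), h (Additive.ofMul (mH x)) :=
    Equiv.sum_comp (t2c_perm (((n : Gamma0 N₀) : SL(2, ℤ)))) (fun x => h (Additive.ofMul (mH x)))
  rw [hperm]
  abel

include hN hM hH in
/-- **the eigenvalue bookkeeping**: `Ψ(d_s) = ∏ₜ ψ_t(ℓ)^((m-1)/2)`. -/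
theorem twe_nio_book (hs : twe_dUnit M s * twe_dUnit M s * (twe_hk_lU hℓM)⁻¹ ∈ H)
    {h : Additive ↥(twe_GamH M H) →+ K} (hh : h ∈ twe_nio_U htM ψ H) (h0 : h ≠ 0)
    {m : ℕ} (hm : Odd m) (hψm : ∀ (t : ↥P) (a : (ZMod (t : ℕ))ˣ), ψ t a ^ m = 1) :
    twe_nio_Psiu htM ψ (twe_dUnit M s) =
      ∏ t : ↥P, ψ t (twe_fh_lU P hℓP t) ^ ((m - 1) / 2) := by
  have h1 := twe_nio_Psiu_of_mem N₀ P hN hM htM H hH ψ hh h0 hs
  rw [map_mul, map_mul] at h1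
  have h2 : twe_nio_Psiu htM ψ (twe_hk_lU hℓM)⁻¹ = ∏ t : ↥P, ψ t (twe_fh_lU P hℓP t) := by
    rw [twe_nio_Psiu_apply]
    refine Finset.prod_congr rfl fun t _ => ?_
    rw [map_inv, map_inv, map_inv, inv_inv, twe_ni_unitsMap_lU P htM hℓM hℓP]
  rw [h2] at h1
  have h3 := twe_ni_book hm (twe_nio_Psiu_pow htM ψ m hψm (twe_dUnit M s)) h1
  rw [Finset.prod_pow]
  have hne : twe_nio_Psiu htM ψ (twe_dUnit M s) ≠ 0 := by
    intro h0'
    rw [h0', inv_zero, zero_mul] at h3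
    exact zero_ne_one h3
  field_simp at h3
  exact h3.symm

end main

end Fermat.Agent.TW
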