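/-
ONE MACHINE / block [E] AUT, cell E/New, part 4 (helper24): THE TWIST IN OPERATOR FORM.
Namespace `Fermat.Agent.TW`, prefix `twe_nw_`.

`M = N₀ · ∏_{t ∈ P} t`, `H ≤ (ZMod M)ˣ` containing the units `≡ 1` modulo every `t ∈ P`, `K` a field of
characteristic zero, `ψ t : (ZMod t)ˣ →* K` characters of ODD order, `A = N₀ · L · L`, `L = ∏_{t ∈ P} t`.

**`twe_nw_Phi : Hom(Γ_H, K) →ₗ[K] Hom(Γ₀(A), K)`** `= (pull back along the balanced conjugation) ∘ (transfer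
from the full level to the torus level) ∘ (twist at the `t` with `ψ t ≠ 1`) ∘ (restriction to the full
level)`, and on the `ψ`-part `twe_nio_U htM ψ H`:

* `twe_nw_Phi_parEll` : `Φ h` kills the parabolic and elliptic elements;
* `twe_nw_Phi_inj`    : `Φ h = 0 → h = 0`;
* `twe_nw_Phi_hecke`  : `Φ (T'_{ℓ,s} h) = T_ℓ (Φ h)` (`T_ℓ = t2c_Tadd` at level `A`).
-/
import Mathlib
import Fermat.Agent.TW.Aut.NewInputOp
import Fermat.Agent.TW.Aut.TwistOp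
import Fermat.Agent.TW.Aut.FullOp
import Fermat.Agent.TW.Aut.NewHecke

set_option autoImplicit false
set_option linter.unusedSectionVars false

noncomputable section

open CongruenceSubgroup Matrix.SpecialLinearGroup
open scoped MatrixGroups
open Fermat.Agent.JT3 Fermat.Agent.LR

namespace Fermat.Agent.TW

/-! ### 0. Characters of odd order -/

section odd

variable {G K : Type*} [Group G] [Field K]

theorem twe_nw_eta_sq {m : ℕ} (hm : Odd m) (ψ : G →* K) (hψm : ∀ a, ψ a ^ m = 1) (a : G) :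
    (ψ ^ ((m - 1) / 2)) a * (ψ ^ ((m - 1) / 2)) a * ψ a = 1 := by
  obtain ⟨k, rfl⟩ := hm
  have hk : (2 * k + 1 - 1) / 2 = k := by
    rw [Nat.add_sub_cancel, Nat.mul_div_cancel_left k (by norm_num : 0 < 2)]
  rw [hk, MonoidHom.pow_apply, ← hψm a]
  ring

theorem twe_nw_sq_ne_one {m : ℕ} (hm : Odd m) (ψ : G →* K) (hψm : ∀ a, ψ a ^ m = 1)
    (hψ : ψ ≠ 1) : ψ * ψ ≠ 1 := by
  intro h2
  apply hψ
  refine MonoidHom.ext fun a => ?_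
  obtain ⟨k, rfl⟩ := hm
  have h3 : ψ a * ψ a = 1 := by
    have := congrArg (fun f : G →* K => f a) h2
    simpa using this
  have h4 := hψm a
  rw [pow_succ, pow_mul, sq, h3, one_pow, one_mul] at h4
  rw [h4]
  rfl

end odd

/-! ### 1. The operator `Φ` -/

section setting

variable (N₀ : ℕ) [NeZero N₀] (P : Finset ℕ) [hP : ∀ t : ↥P, Fact (Nat.Prime (t : ℕ))]
  (hN : ∀ t : ↥P, ¬ (t : ℕ) ∣ N₀) {M : ℕ} (hM : M = N₀ * ∏ t ∈ P, t)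
  (htM : ∀ t : ↥P, (t : ℕ) ∣ M) (H : Subgroup (ZMod M)ˣ)
  (hH : ∀ u : (ZMod M)ˣ, (∀ t : ↥P, ZMod.unitsMap (htM t) u = 1) → u ∈ H)
  {K : Type*} [Field K] [CharZero K] (ψ : ∀ t : ↥P, (ZMod (t : ℕ))ˣ →* K)
  {m : ℕ} (hm : Odd m) (hψm : ∀ (t : ↥P) (a : (ZMod (t : ℕ))ˣ), ψ t a ^ m = 1)
  (L A : ℕ) (hL : L = ∏ t ∈ P, t) (hA : A = N₀ * L * L) (hL0 : L ≠ 0) (hdiv : L * N₀ ∣ A)

/-- finiteness of the levels. -/
@[reducible] def twe_nw_fintypeSub (S : Subgroup (twe_sj_G P)) : Fintype ↥S := Fintype.ofFinite _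

attribute [local instance] twe_nw_fintypeSub

/-- the twisting characters `η t = (ψ t)^((m-1)/2)`. -/
def twe_nw_eta (m : ℕ) : ∀ t : ↥P, (ZMod (t : ℕ))ˣ →* K := fun t => ψ t ^ ((m - 1) / 2)

open Classical in
/-- the primes where `ψ` is non-trivial. -/
def twe_nw_bad : Finset ↥P := Finset.univ.filter (fun t => ψ t ≠ 1)

theorem twe_nw_mem_bad (t : ↥P) : t ∈ twe_nw_bad P ψ ↔ ψ t ≠ 1 := by
  unfold twe_nw_bad
  simp

include hm hψm in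
theorem twe_nw_family_ex :
    ∃ W : Module.End K (Additive (twe_sj_pi N₀ P).ker →+ K),
      (∀ M' : Submodule K (Additive (twe_sj_pi N₀ P).ker →+ K),
        (∀ g, ∀ v ∈ M', twe_fl_rho K K (twe_sj_surj N₀ hN) g v ∈ M') → ∀ v ∈ M', W v ∈ M') ∧
      (∀ (T : Module.End K (Additive (twe_sj_pi N₀ P).ker →+ K)) (τ : twe_sj_G P →* twe_sj_G P)
        (u : ∀ t : ↥P, (ZMod (t : ℕ))ˣ),
        (∀ (γ : twe_sj_G P) (v : Additive (twe_sj_pi N₀ P).ker →+ K),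
          twe_fl_rho K K (twe_sj_surj N₀ hN) γ (T v) =
            T (twe_fl_rho K K (twe_sj_surj N₀ hN) (τ γ) v)) →
        (∀ (t : ↥P) (c : ZMod (t : ℕ)), τ (twe_sj_iota t (twlg_bk_L c)) =
          twe_sj_iota t (twlg_bk_L ((u t : ZMod (t : ℕ)) * c))) →
        ∀ v, T (W v) = (∏ t ∈ twe_nw_bad P ψ, twe_nw_eta P ψ m t (u t)) • W (T v)) ∧
      ∀ h : Additive (twe_sj_pi N₀ P).ker →+ K,
        (∀ (t : ↥P) (x : ZMod (t : ℕ)),
          twe_fl_rho K K (twe_sj_surj N₀ hN) (twe_sj_iota t (twlg_bk_Umat x)) h = h) →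
        (∀ (t : ↥P) (a : (ZMod (t : ℕ))ˣ),
          twe_fl_rho K K (twe_sj_surj N₀ hN) (twe_sj_iota t (twlg_bk_Dmat a)) h = ψ t a • h) →
        (W h = 0 → h = 0) ∧
        (∀ t ∈ twe_nw_bad P ψ, ∀ a : (ZMod (t : ℕ))ˣ,
          twe_fl_rho K K (twe_sj_surj N₀ hN) (twe_sj_iota t (twlg_bk_Dmat a)) (W h) = W h) ∧
        (∀ t ∉ twe_nw_bad P ψ,
          (∀ x : ZMod (t : ℕ),
            twe_fl_rho K K (twe_sj_surj N₀ hN) (twe_sj_iota t (twlg_bk_Umat x)) (W h) = W h) ∧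
          ∀ a : (ZMod (t : ℕ))ˣ,
            twe_fl_rho K K (twe_sj_surj N₀ hN) (twe_sj_iota t (twlg_bk_Dmat a)) (W h) =
              ψ t a • W h) ∧
        (∀ t ∈ twe_nw_bad P ψ,
          ∑ x : ZMod (t : ℕ),
            twe_fl_rho K K (twe_sj_surj N₀ hN) (twe_sj_iota t (twlg_bk_Umat x)) (W h) = 0 ∧
          ∑ x : ZMod (t : ℕ),
            twe_fl_rho K K (twe_sj_surj N₀ hN) (twe_sj_iota t (twlg_bk_L x)) (W h) = 0) := by
  exact twe_to_family (twe_fl_rho K K (twe_sj_surj N₀ hN)) (fun t : ↥P => twe_sj_iota t)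
    (fun t s hts x y => twe_sj_iota_commute hts x y) ψ (twe_nw_eta P ψ m) (twe_nw_bad P ψ)
    (fun t ht => twe_nw_sq_ne_one hm (ψ t) (hψm t) ((twe_nw_mem_bad P ψ t).mp ht))
    (fun t _ a => twe_nw_eta_sq hm (ψ t) (hψm t) a)

/-- the twisting operator `W = ∏_{ψ t ≠ 1} twe_tw_op` on the full level. -/
def twe_nw_W : Module.End K (Additive (twe_sj_pi N₀ P).ker →+ K) :=
  Classical.choose (twe_nw_family_ex N₀ P hN ψ hm hψm)

/-- `W` preserves the `G`-stable submodules. -/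
theorem twe_nw_W_mem (M' : Submodule K (Additive (twe_sj_pi N₀ P).ker →+ K))
    (hM' : ∀ g, ∀ v ∈ M', twe_fl_rho K K (twe_sj_surj N₀ hN) g v ∈ M')
    (v : Additive (twe_sj_pi N₀ P).ker →+ K) (hv : v ∈ M') : twe_nw_W N₀ P hN ψ hm hψm v ∈ M' :=
  (Classical.choose_spec (twe_nw_family_ex N₀ P hN ψ hm hψm)).1 M' hM' v hv

/-- twisted commutation of `W`. -/
theorem twe_nw_W_T (T : Module.End K (Additive (twe_sj_pi N₀ P).ker →+ K))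
    (τ : twe_sj_G P →* twe_sj_G P) (u : ∀ t : ↥P, (ZMod (t : ℕ))ˣ)
    (hcomm : ∀ (γ : twe_sj_G P) (v : Additive (twe_sj_pi N₀ P).ker →+ K),
      twe_fl_rho K K (twe_sj_surj N₀ hN) γ (T v) =
        T (twe_fl_rho K K (twe_sj_surj N₀ hN) (τ γ) v))
    (hτL : ∀ (t : ↥P) (c : ZMod (t : ℕ)), τ (twe_sj_iota t (twlg_bk_L c)) =
      twe_sj_iota t (twlg_bk_L ((u t : ZMod (t : ℕ)) * c)))
    (v : Additive (twe_sj_pi N₀ P).ker →+ K) :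
    T (twe_nw_W N₀ P hN ψ hm hψm v) =
      (∏ t ∈ twe_nw_bad P ψ, twe_nw_eta P ψ m t (u t)) • twe_nw_W N₀ P hN ψ hm hψm (T v) :=
  (Classical.choose_spec (twe_nw_family_ex N₀ P hN ψ hm hψm)).2.1 T τ u hcomm hτL v

/-- `W` on the `ψ`-vectors. -/
theorem twe_nw_W_vec (h : Additive (twe_sj_pi N₀ P).ker →+ K)
    (hN' : ∀ (t : ↥P) (x : ZMod (t : ℕ)),
      twe_fl_rho K K (twe_sj_surj N₀ hN) (twe_sj_iota t (twlg_bk_Umat x)) h = h)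
    (hT' : ∀ (t : ↥P) (a : (ZMod (t : ℕ))ˣ),
      twe_fl_rho K K (twe_sj_surj N₀ hN) (twe_sj_iota t (twlg_bk_Dmat a)) h = ψ t a • h) :
    (twe_nw_W N₀ P hN ψ hm hψm h = 0 → h = 0) ∧
    (∀ t ∈ twe_nw_bad P ψ, ∀ a : (ZMod (t : ℕ))ˣ,
      twe_fl_rho K K (twe_sj_surj N₀ hN) (twe_sj_iota t (twlg_bk_Dmat a))
        (twe_nw_W N₀ P hN ψ hm hψm h) = twe_nw_W N₀ P hN ψ hm hψm h) ∧
    (∀ t ∉ twe_nw_bad P ψ,
      (∀ x : ZMod (t : ℕ),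
        twe_fl_rho K K (twe_sj_surj N₀ hN) (twe_sj_iota t (twlg_bk_Umat x))
          (twe_nw_W N₀ P hN ψ hm hψm h) = twe_nw_W N₀ P hN ψ hm hψm h) ∧
      ∀ a : (ZMod (t : ℕ))ˣ,
        twe_fl_rho K K (twe_sj_surj N₀ hN) (twe_sj_iota t (twlg_bk_Dmat a))
          (twe_nw_W N₀ P hN ψ hm hψm h) = ψ t a • twe_nw_W N₀ P hN ψ hm hψm h) ∧
    (∀ t ∈ twe_nw_bad P ψ,
      ∑ x : ZMod (t : ℕ),
        twe_fl_rho K K (twe_sj_surj N₀ hN) (twe_sj_iota t (twlg_bk_Umat x))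
          (twe_nw_W N₀ P hN ψ hm hψm h) = 0 ∧
      ∑ x : ZMod (t : ℕ),
        twe_fl_rho K K (twe_sj_surj N₀ hN) (twe_sj_iota t (twlg_bk_L x))
          (twe_nw_W N₀ P hN ψ hm hψm h) = 0) :=
  (Classical.choose_spec (twe_nw_family_ex N₀ P hN ψ hm hψm)).2.2 h hN' hT'

/-- restriction to the full level, as a linear map. -/
def twe_nw_pullj :
    (Additive ↥(twe_GamH M H) →+ K) →ₗ[K] (Additive (twe_sj_pi N₀ P).ker →+ K) where
  toFun h := lrpd_pull (twe_ni_j N₀ P hN hM htM H hH) h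
  map_add' _ _ := rfl
  map_smul' _ _ := rfl

/-- the transfer to the torus level, as a linear map. -/
def twe_nw_corL : (Additive (twe_sj_pi N₀ P).ker →+ K) →ₗ[K]
    (Additive ↥((twe_lv_ST P).comap (twe_sj_pi N₀ P)) →+ K) where
  toFun w := twe_fl_corK (twe_sj_surj N₀ hN) (twe_lv_ST P) w
  map_add' w w' := map_add _ w w'
  map_smul' c w := twe_fo_corK_smul (twe_sj_surj N₀ hN) (twe_lv_ST P) c w

/-- pull back along the balanced conjugation, as a linear map. -/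
def twe_nw_pullT : (Additive ↥((twe_lv_ST P).comap (twe_sj_pi N₀ P)) →+ K) →ₗ[K]
    (Additive (Gamma0 A) →+ K) where
  toFun φ := lrpd_pull (twe_nh_theta N₀ P L A hL hA hL0 hdiv) φ
  map_add' _ _ := rfl
  map_smul' _ _ := rfl

/-- **the operator `Φ`**. -/
def twe_nw_Phi : (Additive ↥(twe_GamH M H) →+ K) →ₗ[K] (Additive (Gamma0 A) →+ K) :=
  (twe_nw_pullT N₀ P L A hL hA hL0 hdiv) ∘ₗ (twe_nw_corL N₀ P hN) ∘ₗ
    (twe_nw_W N₀ P hN ψ hm hψm) ∘ₗ (twe_nw_pullj N₀ P hN hM htM H hH)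

theorem twe_nw_Phi_apply (h : Additive ↥(twe_GamH M H) →+ K) :
    twe_nw_Phi N₀ P hN hM htM H hH ψ hm hψm L A hL hA hL0 hdiv h =
      lrpd_pull (twe_nh_theta N₀ P L A hL hA hL0 hdiv)
        (twe_fl_corK (twe_sj_surj N₀ hN) (twe_lv_ST P)
          (twe_nw_W N₀ P hN ψ hm hψm (lrpd_pull (twe_ni_j N₀ P hN hM htM H hH) h))) := rfl

/-- the twisted vector `W h_K` of an element of the `ψ`-part: the facts. -/
theorem twe_nw_W_facts {h : Additive ↥(twe_GamH M H) →+ K} (hh : h ∈ twe_nio_U htM ψ H) :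
    (twe_nw_W N₀ P hN ψ hm hψm (lrpd_pull (twe_ni_j N₀ P hN hM htM H hH) h) = 0 →
      lrpd_pull (twe_ni_j N₀ P hN hM htM H hH) h = 0) ∧
    (∀ s ∈ twe_lv_ST P, twe_fl_rho K K (twe_sj_surj N₀ hN) s
      (twe_nw_W N₀ P hN ψ hm hψm (lrpd_pull (twe_ni_j N₀ P hN hM htM H hH) h)) =
        twe_nw_W N₀ P hN ψ hm hψm (lrpd_pull (twe_ni_j N₀ P hN hM htM H hH) h)) ∧
    (∀ t : ↥P, ψ t ≠ 1 →
      ∑ x : ZMod (t : ℕ), twe_fl_rho K K (twe_sj_surj N₀ hN) (twe_sj_iota t (twlg_bk_Umat x))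
        (twe_nw_W N₀ P hN ψ hm hψm (lrpd_pull (twe_ni_j N₀ P hN hM htM H hH) h)) = 0 ∧
      ∑ x : ZMod (t : ℕ), twe_fl_rho K K (twe_sj_surj N₀ hN) (twe_sj_iota t (twlg_bk_L x))
        (twe_nw_W N₀ P hN ψ hm hψm (lrpd_pull (twe_ni_j N₀ P hN hM htM H hH) h)) = 0) ∧
    twe_nw_W N₀ P hN ψ hm hψm (lrpd_pull (twe_ni_j N₀ P hN hM htM H hH) h) ∈
      twe_fl_kill (twe_sj_pi N₀ P) K K (fun g : Gamma0 N₀ => lrpd_tr (g : SL(2, ℤ)) ^ 2 ≤ 4) := by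
  obtain ⟨h0, h3, h4, h5⟩ := twe_nw_W_vec N₀ P hN ψ hm hψm
    (lrpd_pull (twe_ni_j N₀ P hN hM htM H hH) h)
    (fun t x => twe_ni_rho_U N₀ hN hM htM H hH h t x)
    (fun t a => twe_nio_rho_D N₀ P hN hM htM H hH ψ hh t a)
  refine ⟨h0, ?_, fun t ht => h5 t ((twe_nw_mem_bad P ψ t).mpr ht), ?_⟩
  · refine twe_lv_inv_of_tori _ _ (fun t a => ?_)
    by_cases ht : t ∈ twe_nw_bad P ψ
    · exact h3 t ht a
    · have h1 : ψ t = 1 := by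
        by_contra hne
        exact ht ((twe_nw_mem_bad P ψ t).mpr hne)
      rw [(h4 t ht).2 a, h1, MonoidHom.one_apply, one_smul]
  · refine twe_nw_W_mem N₀ P hN ψ hm hψm _
      (fun g v hv => twe_fl_kill_rho (fun g h hg => ?_) (twe_sj_surj N₀ hN) g hv) _
      (twe_ni_pull_mem_kill N₀ P hN hM htM H hH h hh.1)
    show lrpd_tr (((h⁻¹ * g * h : Gamma0 N₀) : SL(2, ℤ))) ^ 2 ≤ 4
    rw [Subgroup.coe_mul, Subgroup.coe_mul, Subgroup.coe_inv, twe_rc_tr_conj]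
    exact hg

/-- **(a)** `Φ h` kills the parabolic and elliptic elements. -/
theorem twe_nw_Phi_parEll {h : Additive ↥(twe_GamH M H) →+ K} (hh : h ∈ twe_nio_U htM ψ H)
    (γ : Gamma0 A) (hγ : gh_IsParEll A γ) :
    twe_nw_Phi N₀ P hN hM htM H hH ψ hm hψm L A hL hA hL0 hdiv h (Additive.ofMul γ) = 0 := by
  obtain ⟨-, -, -, hkill⟩ := twe_nw_W_facts N₀ P hN hM htM H hH ψ hm hψm hh
  rw [twe_nw_Phi_apply, lrpd_pull_apply]
  refine twe_fl_corK_kills (P := fun g : Gamma0 N₀ => lrpd_tr (g : SL(2, ℤ)) ^ 2 ≤ 4) ?_ ?_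
    (twe_sj_surj N₀ hN) (twe_lv_ST P) hkill _ ?_
  · intro g n hg
    show lrpd_tr (((g ^ n : Gamma0 N₀) : SL(2, ℤ))) ^ 2 ≤ 4
    rw [Subgroup.coe_pow]
    exact twe_rc_tr_pow _ hg n
  · intro g h' hg
    show lrpd_tr (((h'⁻¹ * g * h' : Gamma0 N₀) : SL(2, ℤ))) ^ 2 ≤ 4
    rw [Subgroup.coe_mul, Subgroup.coe_mul, Subgroup.coe_inv, twe_rc_tr_conj]
    exact hg
  · show lrpd_tr (((twe_bl_cj L A N₀ hL0 hdiv γ : Gamma0 N₀) : SL(2, ℤ))) ^ 2 ≤ 4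
    have h1 : lrpd_tr (((twe_bl_cj L A N₀ hL0 hdiv γ : Gamma0 N₀) : SL(2, ℤ))) =
        ((γ : SL(2, ℤ)) : Matrix (Fin 2) (Fin 2) ℤ).trace := by
      rw [← twe_bl_cj_trace hL0 hdiv γ, Matrix.trace_fin_two]
      rfl
    rw [h1]
    exact hγ

/-- **(b)** `Φ` is injective on the `ψ`-part. -/
theorem twe_nw_Phi_inj {h : Additive ↥(twe_GamH M H) →+ K} (hh : h ∈ twe_nio_U htM ψ H)
    (hΦ : twe_nw_Phi N₀ P hN hM htM H hH ψ hm hψm L A hL hA hL0 hdiv h = 0) : h = 0 := by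
  obtain ⟨hinj, hST, -, -⟩ := twe_nw_W_facts N₀ P hN hM htM H hH ψ hm hψm hh
  have hc0 : twe_fl_corK (twe_sj_surj N₀ hN) (twe_lv_ST P)
      (twe_nw_W N₀ P hN ψ hm hψm (lrpd_pull (twe_ni_j N₀ P hN hM htM H hH) h)) = 0 := by
    refine AddMonoidHom.ext fun g => ?_
    obtain ⟨g, rfl⟩ := Additive.ofMul.surjective g
    obtain ⟨γ, hγ⟩ := twe_nh_surj N₀ P hN L A hL hA hL0 hdiv (g : Gamma0 N₀) g.2
    have h1 : twe_nh_theta N₀ P L A hL hA hL0 hdiv γ = g := Subtype.ext hγ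
    have h2 : twe_nw_Phi N₀ P hN hM htM H hH ψ hm hψm L A hL hA hL0 hdiv h (Additive.ofMul γ) =
        0 := by
      rw [hΦ]
      rfl
    rw [twe_nw_Phi_apply, lrpd_pull_apply, h1] at h2
    exact h2
  have hw0 : twe_nw_W N₀ P hN ψ hm hψm (lrpd_pull (twe_ni_j N₀ P hN hM htM H hH) h) = 0 := by
    by_contra hne
    exact twe_fl_corK_ne_zero (twe_sj_surj N₀ hN) (twe_lv_ST P) _ hST hne hc0
  by_contra hne
  exact twe_ni_pull_ne_zero N₀ P hN hM htM H hH h hne (hinj hw0)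

/-- **(c)** `Φ` intertwines the Hecke operators `T'_{ℓ,s}` of `Γ_H` with `T_ℓ` of `Γ₀(A)`. -/
theorem twe_nw_Phi_hecke {h : Additive ↥(twe_GamH M H) →+ K} (hh : h ∈ twe_nio_U htM ψ H)
    {ℓ : ℕ} [Fact ℓ.Prime] (hℓM : ¬ ℓ ∣ M) (hℓA : ¬ ℓ ∣ A) (s : Gamma0 M)
    (hs : twe_dUnit M s * twe_dUnit M s * (twe_hk_lU hℓM)⁻¹ ∈ H) :
    twe_nw_Phi N₀ P hN hM htM H hH ψ hm hψm L A hL hA hL0 hdiv (twe_hk_T hℓM H s hs h) =
      t2c_Tadd hℓA (twe_nw_Phi N₀ P hN hM htM H hH ψ hm hψm L A hL hA hL0 hdiv h) := by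
  by_cases h0 : h = 0
  · subst h0
    rw [map_zero, map_zero, map_zero]
  have hℓN : ¬ ℓ ∣ N₀ := fun hd => hℓM (dvd_trans hd (hM ▸ dvd_mul_right _ _))
  have hℓP : ∀ t : ↥P, (t : ℕ) ≠ ℓ := fun t ht => hℓM (ht ▸ htM t)
  obtain ⟨-, hST, -, -⟩ := twe_nw_W_facts N₀ P hN hM htM H hH ψ hm hψm hh
  have E1 := twe_nio_hecke N₀ P hN hM htM H hH hℓM hℓN hℓP s hs h _ (hh.2 s)
  have E2 := twe_nw_W_T N₀ P hN ψ hm hψm (twe_fl_TK K (twe_fh_compat N₀ P hN hℓN hℓP))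
    (twe_fh_tau P hℓP) (twe_fh_lU P hℓP)
    (fun γ v => twe_fl_rho_comm (twe_fh_compat N₀ P hN hℓN hℓP) (twe_sj_surj N₀ hN) γ v)
    (fun t c => by rw [twe_fh_tau_iota, twe_fh_tau1_L])
    (lrpd_pull (twe_ni_j N₀ P hN hM htM H hH) h)
  have E3 := twe_nio_book N₀ P hN hM htM H hH ψ hℓM hℓP s hs hh h0 hm hψm
  have E4 : ∏ t ∈ twe_nw_bad P ψ, twe_nw_eta P ψ m t (twe_fh_lU P hℓP t) =
      twe_nio_Psiu htM ψ (twe_dUnit M s) := by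
    classical
    rw [E3]
    unfold twe_nw_bad
    rw [Finset.prod_filter]
    refine Finset.prod_congr rfl fun t _ => ?_
    by_cases ht : ψ t ≠ 1
    · rw [if_pos ht]
      rfl
    · rw [if_neg ht]
      rw [not_not.mp ht, MonoidHom.one_apply, one_pow]
  rw [E4] at E2
  rw [twe_nw_Phi_apply, twe_nw_Phi_apply,
    twe_nh_hecke N₀ P hN hℓN hℓP L A hL hA hL0 hdiv hℓA,
    twe_fo_corK_T (twe_fh_compat N₀ P hN hℓN hℓP) (twe_sj_surj N₀ hN) (twe_lv_ST P)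
      (twe_lv_tau_ST hℓP) _ hST, E2, ← map_smul (twe_nw_W N₀ P hN ψ hm hψm), E1]

end setting

end Fermat.Agent.TW
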