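/-
ONE MACHINE / block [E] AUT, cell E/New, part 1 (helper24).
Namespace `Fermat.Agent.TW`, prefix `twe_nc_`.

A transfer datum in the vocabulary of `TW/LG/GatewayDegVer.lean` (right action of `G` on `X`, cocycle
with values in `H`) which is REALISED inside a group `𝔾` by a system `ρ : X → 𝔾` of left coset
representatives of `Γ'` in `Γ` (`coc x g ↦ (ρ x)⁻¹ · f g · ρ (x ⋆ g)`) computes the transfer
`twe_rc_cor` of `TW/Aut/ResCor.lean`.
-/
import Mathlib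
import Fermat.Agent.TW.Aut.ResCor
import Fermat.Agent.TW.LG.GatewayDegVer

set_option autoImplicit false

noncomputable section

namespace Fermat.Agent.TW

/-- **the sum over a realised transfer datum is the transfer.** -/
theorem twe_nc_sum_eq_cor {G H X : Type*} [Group G] [Group H] [Fintype X] (D : twlg_gd_Tr G H X)
    {𝔾 : Type*} [Group 𝔾] {Γ Γ' : Subgroup 𝔾} {ρ : X → 𝔾} (hρ : ∀ x, ρ x ∈ Γ)
    (hbij : ∀ γ ∈ Γ, ∃! x, (ρ x)⁻¹ * γ ∈ Γ')
    (f : G → Γ) (fH : H → Γ')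
    (hf : ∀ x g, ((fH (D.coc x g) : Γ') : 𝔾) = (ρ x)⁻¹ * (f g : 𝔾) * ρ (D.act g x))
    {A : Type*} [AddCommGroup A] (z : Additive Γ' →+ A) (g : G) :
    ∑ x, z (Additive.ofMul (fH (D.coc x g))) = twe_rc_cor hρ hbij z (Additive.ofMul (f g)) := by
  rw [twe_rc_cor_apply, ← Equiv.sum_comp (twlg_gd_perm D g)
    (fun i => z (Additive.ofMul (twe_rc_term hρ hbij (f g) i)))]
  refine Finset.sum_congr rfl fun x _ => ?_
  have hx : x = twe_rc_sig hρ hbij (f g) (D.act g x) := by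
    refine twe_rc_sig_unique hρ hbij (f g) (D.act g x) ?_
    rw [← hf]
    exact (fH _).2
  have : fH (D.coc x g) = twe_rc_term hρ hbij (f g) (twlg_gd_perm D g x) := by
    apply Subtype.ext
    rw [twe_rc_term_coe, twlg_gd_perm_apply, ← hx, hf]
  rw [this]

/-- the vanishing form. -/
theorem twe_nc_sum_eq_zero {G H X : Type*} [Group G] [Group H] [Fintype X] (D : twlg_gd_Tr G H X)
    {𝔾 : Type*} [Group 𝔾] {Γ Γ' : Subgroup 𝔾} {ρ : X → 𝔾} (hρ : ∀ x, ρ x ∈ Γ)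
    (hbij : ∀ γ ∈ Γ, ∃! x, (ρ x)⁻¹ * γ ∈ Γ')
    (f : G → Γ) (fH : H → Γ')
    (hf : ∀ x g, ((fH (D.coc x g) : Γ') : 𝔾) = (ρ x)⁻¹ * (f g : 𝔾) * ρ (D.act g x))
    {A : Type*} [AddCommGroup A] (z : Additive Γ' →+ A) (hz : twe_rc_cor hρ hbij z = 0) (g : G) :
    ∑ x, z (Additive.ofMul (fH (D.coc x g))) = 0 := by
  rw [twe_nc_sum_eq_cor D hρ hbij f fH hf z g, hz]
  rfl

end Fermat.Agent.TW
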