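/-
ONE MACHINE / block [E] AUT, cell E/New, part 5 (helper24): THE TWO TRANSFERS VANISH.
Namespace `Fermat.Agent.TW`, prefix `twe_nv_`.

`A = N' · t₀ · t₀`, `N' = N₀ · L' · L'`, `L' = ∏ (P.erase t₀)`.  The transfer data (ALPHA), (BETA) of
`TW/LG/GatewayDegVer.lean` at level `N' t₀`, pulled through the balanced conjugations, are realised inside
`Γ₀(N₀)` by the coset representatives `L(N₀ L' k)⁻¹`, `U(L' j)⁻¹` of the torus level in the lower / upper Borel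
level at `t₀`; the transfers of `Φ h` therefore vanish when `ψ t₀ ≠ 1` (both Borel traces of the twisted
vector vanish).
-/
import Mathlib
import Fermat.Agent.TW.Aut.New
import Fermat.Agent.TW.Aut.NewCor
import Fermat.Agent.TW.Aut.NewVB

set_option autoImplicit false
set_option linter.unusedSectionVars false

noncomputable section

open CongruenceSubgroup Matrix.SpecialLinearGroup
open scoped MatrixGroups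
open Fermat.Agent.JT3 Fermat.Agent.LR

namespace Fermat.Agent.TW

/-! ### 0. Unipotent elements -/

section unip

variable {F : Type*} [Field F]

theorem twe_nv_L_inv (x : F) : (twlg_bk_L x)⁻¹ = twlg_bk_L (-x) := by
  rw [inv_eq_iff_mul_eq_one]
  ext i j
  fin_cases i <;> fin_cases j <;>
    simp [Matrix.SpecialLinearGroup.coe_mul, Matrix.mul_apply, Fin.sum_univ_two]

theorem twe_nv_U_inv (x : F) : (twlg_bk_Umat x)⁻¹ = twlg_bk_Umat (-x) := by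
  rw [inv_eq_iff_mul_eq_one, twlg_bk_Umat_mul, add_neg_cancel]
  ext i j
  fin_cases i <;> fin_cases j <;> simp

variable {P : Finset ℕ} [hP : ∀ t : ↥P, Fact (Nat.Prime (t : ℕ))]

/-- `π (Lz z) = ι t₀ (L z)` when the primes `t ≠ t₀` divide `z`. -/
theorem twe_nv_pi_Lz (N₀ : ℕ) (t₀ : ↥P) (z : ℤ) (hz : (N₀ : ℤ) ∣ z)
    (hz' : ∀ t : ↥P, t ≠ t₀ → (((t : ℕ) : ℕ) : ℤ) ∣ z) :
    twe_sj_pi N₀ P (twe_sj_Lz N₀ z hz) = twe_sj_iota t₀ (twlg_bk_L (z : ZMod (t₀ : ℕ))) := by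
  funext t
  apply Subtype.ext
  rw [twe_sj_pi_Lz]
  by_cases ht : t = t₀
  · subst ht
    rw [twe_sj_iota_same, twlg_bk_L_coe]
  · rw [twe_sj_iota_ne ht, (ZMod.intCast_zmod_eq_zero_iff_dvd z (t : ℕ)).mpr (hz' t ht)]
    simp [Matrix.one_fin_two]

/-- `π (Uz z) = ι t₀ (U z)` when the primes `t ≠ t₀` divide `z`. -/
theorem twe_nv_pi_Uz (N₀ : ℕ) (t₀ : ↥P) (z : ℤ)
    (hz' : ∀ t : ↥P, t ≠ t₀ → (((t : ℕ) : ℕ) : ℤ) ∣ z) :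
    twe_sj_pi N₀ P (twe_sj_Uz N₀ z) = twe_sj_iota t₀ (twlg_bk_Umat (z : ZMod (t₀ : ℕ))) := by
  funext t
  apply Subtype.ext
  rw [twe_sj_pi_Uz]
  by_cases ht : t = t₀
  · subst ht
    rw [twe_sj_iota_same, twlg_bk_Umat_coe]
  · rw [twe_sj_iota_ne ht, (ZMod.intCast_zmod_eq_zero_iff_dvd z (t : ℕ)).mpr (hz' t ht)]
    simp [Matrix.one_fin_two]

/-- a bijection transports unique existence. -/
theorem twe_nv_existsUnique_of_equiv {X : Type*} {p : X → Prop} (e : X ≃ X) (h : ∃! x, p x) :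
    ∃! k, p (e k) := by
  obtain ⟨x, hx, hu⟩ := h
  refine ⟨e.symm x, by simpa using hx, fun k hk => ?_⟩
  rw [← hu _ hk]
  simp

end unip

/-! ### 1. The balanced conjugations and the levels -/

section levels

variable (N₀ : ℕ) [NeZero N₀] (P : Finset ℕ) [hP : ∀ t : ↥P, Fact (Nat.Prime (t : ℕ))]
  (t₀ : ↥P) (L' : ℕ) (hL' : L' = ∏ t ∈ P.erase (t₀ : ℕ), t)

include hL' in
theorem twe_nv_prod : L' * (t₀ : ℕ) = ∏ t ∈ P, t := by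
  rw [hL', mul_comm]
  exact Finset.mul_prod_erase P (fun t => t) t₀.2

include hL' in
theorem twe_nv_dvd_L' (t : ↥P) (ht : t ≠ t₀) : (((t : ℕ) : ℕ) : ℤ) ∣ (L' : ℤ) := by
  rw [hL']
  refine Int.natCast_dvd_natCast.mpr (Finset.dvd_prod_of_mem (fun s => s) ?_)
  exact Finset.mem_erase.mpr ⟨fun h => ht (Subtype.ext h), t.2⟩

include hL' in
theorem twe_nv_L'_ne_zero : L' ≠ 0 := by
  rw [hL']
  exact Finset.prod_ne_zero_iff.mpr fun t ht =>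
    (hP ⟨t, (Finset.mem_erase.mp ht).2⟩).out.ne_zero

theorem twe_nv_divA : L' * (t₀ : ℕ) * N₀ ∣ N₀ * L' * L' * (t₀ : ℕ) := ⟨L', by ring⟩

theorem twe_nv_divB : L' * N₀ ∣ N₀ * L' * L' * (t₀ : ℕ) := ⟨L' * (t₀ : ℕ), by ring⟩

theorem twe_nv_div : L' * (t₀ : ℕ) * N₀ ∣ N₀ * L' * L' * (t₀ : ℕ) * (t₀ : ℕ) :=
  ⟨L' * (t₀ : ℕ), by ring⟩

include hL' in
/-- `θA g` lies in the lower Borel level at `t₀`. -/
theorem twe_nv_thetaA_mem (hLt : L' * (t₀ : ℕ) ≠ 0) (g : Gamma0 (N₀ * L' * L' * (t₀ : ℕ))) :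
    twe_sj_pi N₀ P (twe_bl_cj (L' * (t₀ : ℕ)) (N₀ * L' * L' * (t₀ : ℕ)) N₀ hLt
      (twe_nv_divA N₀ P t₀ L') g) ∈ twe_lv_SL P t₀ := by
  have hLt' : ((L' * (t₀ : ℕ) : ℕ) : ℤ) ≠ 0 := by exact_mod_cast hLt
  have h01 := twe_bl_cj_01 hLt (twe_nv_divA N₀ P t₀ L') g
  have h10 := twe_bl_cj_10 hLt (twe_nv_divA N₀ P t₀ L') g
  obtain ⟨c, hc⟩ := t2c_dvd_of_mem g.2
  have h10' : ((twe_bl_cj (L' * (t₀ : ℕ)) (N₀ * L' * L' * (t₀ : ℕ)) N₀ hLt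
      (twe_nv_divA N₀ P t₀ L') g : Gamma0 N₀) : SL(2, ℤ)) 1 0 = (N₀ : ℤ) * (L' : ℤ) * c := by
    apply mul_left_cancel₀ hLt'
    rw [h10, hc]
    push_cast
    ring
  rw [twe_lv_pi_mem_SL]
  refine ⟨?_, fun t ht => ⟨?_, ?_⟩⟩
  · rw [h01]
    push_cast
    exact Dvd.dvd.mul_right (Dvd.intro_left _ rfl) _
  · rw [h10']
    exact Dvd.dvd.mul_right (Dvd.dvd.mul_left (twe_nv_dvd_L' P t₀ L' hL' t ht) _) _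
  · rw [h01]
    push_cast
    exact Dvd.dvd.mul_right (Dvd.dvd.mul_right (twe_nv_dvd_L' P t₀ L' hL' t ht) _) _

include hL' in
/-- `θB g` lies in the upper Borel level at `t₀`. -/
theorem twe_nv_thetaB_mem (hL0 : L' ≠ 0) (g : Gamma0 (N₀ * L' * L' * (t₀ : ℕ))) :
    twe_sj_pi N₀ P (twe_bl_cj L' (N₀ * L' * L' * (t₀ : ℕ)) N₀ hL0
      (twe_nv_divB N₀ P t₀ L') g) ∈ twe_lv_SU P t₀ := by
  have hL0' : (L' : ℤ) ≠ 0 := by exact_mod_cast hL0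
  have h01 := twe_bl_cj_01 hL0 (twe_nv_divB N₀ P t₀ L') g
  have h10 := twe_bl_cj_10 hL0 (twe_nv_divB N₀ P t₀ L') g
  obtain ⟨c, hc⟩ := t2c_dvd_of_mem g.2
  have h10' : ((twe_bl_cj L' (N₀ * L' * L' * (t₀ : ℕ)) N₀ hL0
      (twe_nv_divB N₀ P t₀ L') g : Gamma0 N₀) : SL(2, ℤ)) 1 0 =
      (N₀ : ℤ) * (L' : ℤ) * (((t₀ : ℕ) : ℕ) : ℤ) * c := by
    apply mul_left_cancel₀ hL0'
    rw [h10, hc]
    push_cast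
    ring
  rw [twe_lv_pi_mem_SU]
  refine ⟨?_, fun t ht => ⟨?_, ?_⟩⟩
  · rw [h10']
    exact Dvd.dvd.mul_right (Dvd.intro_left _ rfl) _
  · rw [h10']
    exact Dvd.dvd.mul_right (Dvd.dvd.mul_right (Dvd.dvd.mul_left (twe_nv_dvd_L' P t₀ L' hL' t ht) _) _) _
  · rw [h01]
    exact Dvd.dvd.mul_right (twe_nv_dvd_L' P t₀ L' hL' t ht) _

end levels

/-! ### 2. The transfer (ALPHA) -/

section alpha

attribute [local instance] twe_nw_fintypeSub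

variable (N₀ : ℕ) [NeZero N₀] (P : Finset ℕ) [hP : ∀ t : ↥P, Fact (Nat.Prime (t : ℕ))]
  (hN : ∀ t : ↥P, ¬ (t : ℕ) ∣ N₀) {M : ℕ} (hM : M = N₀ * ∏ t ∈ P, t)
  (htM : ∀ t : ↥P, (t : ℕ) ∣ M) (H : Subgroup (ZMod M)ˣ)
  (hH : ∀ u : (ZMod M)ˣ, (∀ t : ↥P, ZMod.unitsMap (htM t) u = 1) → u ∈ H)
  {K : Type*} [Field K] [CharZero K] (ψ : ∀ t : ↥P, (ZMod (t : ℕ))ˣ →* K)
  {m : ℕ} (hm : Odd m) (hψm : ∀ (t : ↥P) (a : (ZMod (t : ℕ))ˣ), ψ t a ^ m = 1)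
  (t₀ : ↥P) (L' : ℕ) (hL' : L' = ∏ t ∈ P.erase (t₀ : ℕ), t)

/-- the balanced conjugation only depends on the underlying matrix. -/
theorem twe_nv_cj_congr {m₁ A₁ A₂ B : ℕ} (hm₁ : m₁ ≠ 0) (h₁ : m₁ * B ∣ A₁) (h₂ : m₁ * B ∣ A₂)
    (x : Gamma0 A₁) (y : Gamma0 A₂) (hxy : (x : SL(2, ℤ)) = (y : SL(2, ℤ))) :
    twe_bl_cj m₁ A₁ B hm₁ h₁ x = twe_bl_cj m₁ A₂ B hm₁ h₂ y := by
  have key : ∀ (g g' : SL(2, ℤ)) (e : g = g') (h : (m₁ : ℤ) ∣ g 1 0) (h' : (m₁ : ℤ) ∣ g' 1 0),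
      twe_bl_cjMat m₁ g h = twe_bl_cjMat m₁ g' h' := by
    intro g g' e h h'
    subst e
    rfl
  apply Subtype.ext
  rw [twe_bl_cj_coe, twe_bl_cj_coe]
  exact key _ _ hxy _ _

/-- the integer `N₀ L' k`. -/
def twe_nv_zA (k : ZMod (t₀ : ℕ)) : ℤ := (N₀ : ℤ) * (L' : ℤ) * ((k.val : ℕ) : ℤ)

theorem twe_nv_zA_dvd (k : ZMod (t₀ : ℕ)) : (N₀ : ℤ) ∣ twe_nv_zA N₀ P t₀ L' k :=
  Dvd.dvd.mul_right (Dvd.intro _ rfl) _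

include hL' in
theorem twe_nv_zA_dvd' (k : ZMod (t₀ : ℕ)) (t : ↥P) (ht : t ≠ t₀) :
    (((t : ℕ) : ℕ) : ℤ) ∣ twe_nv_zA N₀ P t₀ L' k :=
  Dvd.dvd.mul_right (Dvd.dvd.mul_left (twe_nv_dvd_L' P t₀ L' hL' t ht) _) _

/-- the representatives `γ_k` of (ALPHA) in `Γ₀(N' t₀)`. -/
def twe_nv_gamA [NeZero (N₀ * L' * L' * (t₀ : ℕ))] [NeZero (t₀ : ℕ)] (k : ZMod (t₀ : ℕ)) :
    Gamma0 (N₀ * L' * L' * (t₀ : ℕ)) :=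
  ⟨twlg_gd_gamA (N₀ * L' * L' * (t₀ : ℕ)) (t₀ : ℕ) k, by
    apply t2c_mem_of_dvd
    rw [twlg_gd_gamA_10]
    exact Dvd.intro _ rfl⟩

/-- `θA (γ_k) = L(N₀ L' k)`. -/
theorem twe_nv_thetaA_gamA [NeZero (N₀ * L' * L' * (t₀ : ℕ))] [NeZero (t₀ : ℕ)]
    (hLt : L' * (t₀ : ℕ) ≠ 0) (k : ZMod (t₀ : ℕ)) :
    twe_bl_cj (L' * (t₀ : ℕ)) (N₀ * L' * L' * (t₀ : ℕ)) N₀ hLt (twe_nv_divA N₀ P t₀ L')
        (twe_nv_gamA N₀ P t₀ L' k) =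
      twe_sj_Lz N₀ (twe_nv_zA N₀ P t₀ L' k) (twe_nv_zA_dvd N₀ P t₀ L' k) := by
  have hLt' : ((L' * (t₀ : ℕ) : ℕ) : ℤ) ≠ 0 := by exact_mod_cast hLt
  apply Subtype.ext
  rw [twe_bl_cj_coe]
  ext i j
  fin_cases i <;> fin_cases j
  · rfl
  · show ((L' * (t₀ : ℕ) : ℕ) : ℤ) * 0 = 0
    rw [mul_zero]
  · show ((N₀ * L' * L' * (t₀ : ℕ) : ℕ) : ℤ) * ((k.val : ℕ) : ℤ) / ((L' * (t₀ : ℕ) : ℕ) : ℤ) =
      twe_nv_zA N₀ P t₀ L' k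
    have : ((N₀ * L' * L' * (t₀ : ℕ) : ℕ) : ℤ) * ((k.val : ℕ) : ℤ) =
        ((L' * (t₀ : ℕ) : ℕ) : ℤ) * twe_nv_zA N₀ P t₀ L' k := by
      unfold twe_nv_zA
      push_cast
      ring
    rw [this, Int.mul_ediv_cancel_left _ hLt']
  · rfl

include hN hL' in
/-- the unit `N₀ L'` modulo `t₀`. -/
theorem twe_nv_unit : ((N₀ * L' : ℕ) : ZMod (t₀ : ℕ)) ≠ 0 := by
  rw [hL']
  exact twe_sj_erase_unit N₀ hN t₀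

theorem twe_nv_zA_cast (k : ZMod (t₀ : ℕ)) :
    ((twe_nv_zA N₀ P t₀ L' k : ℤ) : ZMod (t₀ : ℕ)) = ((N₀ * L' : ℕ) : ZMod (t₀ : ℕ)) * k := by
  unfold twe_nv_zA
  push_cast
  rw [ZMod.natCast_zmod_val]

include hN hL' in
/-- `L(N₀ L' k)⁻¹`, `k ∈ ZMod t₀`, are left coset representatives of the torus level in the lower Borel
level at `t₀`. -/
theorem twe_nv_bijA :
    ∀ γ ∈ (twe_lv_SL P t₀).comap (twe_sj_pi N₀ P), ∃! k : ZMod (t₀ : ℕ),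
      ((twe_sj_Lz N₀ (twe_nv_zA N₀ P t₀ L' k) (twe_nv_zA_dvd N₀ P t₀ L' k))⁻¹)⁻¹ * γ ∈
        (twe_lv_ST P).comap (twe_sj_pi N₀ P) := by
  intro γ hγ
  have hu := twe_nv_unit N₀ P hN t₀ L' hL'
  have h1 := twe_lv_bijL t₀ (twe_sj_pi N₀ P γ) hγ
  have h2 := twe_nv_existsUnique_of_equiv
    ((Equiv.mulLeft₀ ((N₀ * L' : ℕ) : ZMod (t₀ : ℕ)) hu).trans (Equiv.neg (ZMod (t₀ : ℕ)))) h1
  refine (existsUnique_congr fun k => ?_).mp h2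
  rw [inv_inv, Subgroup.mem_comap, map_mul,
    twe_nv_pi_Lz N₀ t₀ _ _ (twe_nv_zA_dvd' N₀ P t₀ L' hL' k), twe_nv_zA_cast]
  have h3 : ((Equiv.mulLeft₀ ((N₀ * L' : ℕ) : ZMod (t₀ : ℕ)) hu).trans
      (Equiv.neg (ZMod (t₀ : ℕ)))) k = -(((N₀ * L' : ℕ) : ZMod (t₀ : ℕ)) * k) := rfl
  rw [h3, ← map_inv, twe_nv_L_inv, neg_neg]

include hL' in
theorem twe_nv_repA_mem (k : ZMod (t₀ : ℕ)) :
    (twe_sj_Lz N₀ (twe_nv_zA N₀ P t₀ L' k) (twe_nv_zA_dvd N₀ P t₀ L' k))⁻¹ ∈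
      (twe_lv_SL P t₀).comap (twe_sj_pi N₀ P) := by
  refine inv_mem ?_
  rw [Subgroup.mem_comap, twe_nv_pi_Lz N₀ t₀ _ _ (twe_nv_zA_dvd' N₀ P t₀ L' hL' k)]
  exact twe_lv_iota_L_mem t₀ _

include hL' in
/-- **the transfer (ALPHA) of `Φ h` vanishes** when `ψ t₀ ≠ 1`. -/
theorem twe_nv_VA [NeZero (N₀ * L' * L' * (t₀ : ℕ))] [NeZero (t₀ : ℕ)]
    {h : Additive ↥(twe_GamH M H) →+ K} (hh : h ∈ twe_nio_U htM ψ H) (hψ0 : ψ t₀ ≠ 1)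
    (hLt : L' * (t₀ : ℕ) ≠ 0) (hL : L' * (t₀ : ℕ) = ∏ t ∈ P, t)
    (hA : N₀ * L' * L' * (t₀ : ℕ) * (t₀ : ℕ) = N₀ * (L' * (t₀ : ℕ)) * (L' * (t₀ : ℕ))) :
    twlg_gd_verAdd (twlg_gd_trA (N₀ * L' * L' * (t₀ : ℕ)) (t₀ : ℕ) (dvd_mul_left _ _))
      (twe_nw_Phi N₀ P hN hM htM H hH ψ hm hψm (L' * (t₀ : ℕ))
        (N₀ * L' * L' * (t₀ : ℕ) * (t₀ : ℕ)) hL hA hLt (twe_nv_div N₀ P t₀ L') h) = 0 := by
  obtain ⟨-, hST, htr, -⟩ := twe_nw_W_facts N₀ P hN hM htM H hH ψ hm hψm hh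
  refine AddMonoidHom.ext fun g => ?_
  obtain ⟨g, rfl⟩ := Additive.ofMul.surjective g
  rw [twlg_gd_verAdd_apply]
  simp only [twe_nw_Phi_apply, lrpd_pull_apply]
  have hρ := twe_nv_repA_mem N₀ P t₀ L' hL'
  have hbij := twe_nv_bijA N₀ P hN t₀ L' hL'
  have hz := twe_fl_cor_corK_eq_zero (twe_sj_surj N₀ hN) (twe_lv_ST P) (twe_lv_SL P t₀)
    (twe_nw_W N₀ P hN ψ hm hψm (lrpd_pull (twe_ni_j N₀ P hN hM htM H hH) h)) hST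
    (fun x : ZMod (t₀ : ℕ) => twe_sj_iota t₀ (twlg_bk_L x)) (twe_lv_iota_L_mem t₀)
    (twe_lv_bijL t₀) (htr t₀ hψ0).2 hρ hbij
  refine twe_nc_sum_eq_zero (twlg_gd_trA (N₀ * L' * L' * (t₀ : ℕ)) (t₀ : ℕ) (dvd_mul_left _ _))
    hρ hbij
    (fun g => ⟨twe_bl_cj (L' * (t₀ : ℕ)) (N₀ * L' * L' * (t₀ : ℕ)) N₀ hLt
      (twe_nv_divA N₀ P t₀ L') g, twe_nv_thetaA_mem N₀ P t₀ L' hL' hLt g⟩)
    (fun c => twe_nh_theta N₀ P (L' * (t₀ : ℕ)) (N₀ * L' * L' * (t₀ : ℕ) * (t₀ : ℕ)) hL hA hLt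
      (twe_nv_div N₀ P t₀ L') c) ?_ _ hz g
  intro k g
  -- the cocycle relation inside `Γ₀(N' t₀)`
  set k' := (twlg_gd_trA (N₀ * L' * L' * (t₀ : ℕ)) (t₀ : ℕ) (dvd_mul_left _ _)).act g k with hk'
  have hcoc : ((twlg_gd_cocA (N₀ * L' * L' * (t₀ : ℕ)) (t₀ : ℕ) (dvd_mul_left _ _) k g :
      Gamma0 (N₀ * L' * L' * (t₀ : ℕ) * (t₀ : ℕ))) : SL(2, ℤ)) =
      ((twe_nv_gamA N₀ P t₀ L' k * g * (twe_nv_gamA N₀ P t₀ L' k')⁻¹ :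
        Gamma0 (N₀ * L' * L' * (t₀ : ℕ))) : SL(2, ℤ)) := by
    rw [twlg_gd_cocA_eq]
    rfl
  have h1 := twe_nv_cj_congr hLt (twe_nv_div N₀ P t₀ L') (twe_nv_divA N₀ P t₀ L') _ _ hcoc
  show twe_bl_cj (L' * (t₀ : ℕ)) (N₀ * L' * L' * (t₀ : ℕ) * (t₀ : ℕ)) N₀ hLt
      (twe_nv_div N₀ P t₀ L') (twlg_gd_cocA (N₀ * L' * L' * (t₀ : ℕ)) (t₀ : ℕ) (dvd_mul_left _ _) k g) = _
  rw [h1, map_mul, map_mul, map_inv, twe_nv_thetaA_gamA N₀ P t₀ L' hLt,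
    twe_nv_thetaA_gamA N₀ P t₀ L' hLt, inv_inv]

end alpha

/-! ### 3. The transfer (BETA) -/

section beta

attribute [local instance] twe_nw_fintypeSub

variable (N₀ : ℕ) [NeZero N₀] (P : Finset ℕ) [hP : ∀ t : ↥P, Fact (Nat.Prime (t : ℕ))]
  (hN : ∀ t : ↥P, ¬ (t : ℕ) ∣ N₀) {M : ℕ} (hM : M = N₀ * ∏ t ∈ P, t)
  (htM : ∀ t : ↥P, (t : ℕ) ∣ M) (H : Subgroup (ZMod M)ˣ)
  (hH : ∀ u : (ZMod M)ˣ, (∀ t : ↥P, ZMod.unitsMap (htM t) u = 1) → u ∈ H)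
  {K : Type*} [Field K] [CharZero K] (ψ : ∀ t : ↥P, (ZMod (t : ℕ))ˣ →* K)
  {m : ℕ} (hm : Odd m) (hψm : ∀ (t : ↥P) (a : (ZMod (t : ℕ))ˣ), ψ t a ^ m = 1)
  (t₀ : ↥P) (L' : ℕ) (hL' : L' = ∏ t ∈ P.erase (t₀ : ℕ), t)

/-- the integer `L' j`. -/
def twe_nv_zB (j : ZMod (t₀ : ℕ)) : ℤ := ((L' : ℕ) : ℤ) * ((j.val : ℕ) : ℤ)

include hL' in
theorem twe_nv_zB_dvd' (j : ZMod (t₀ : ℕ)) (t : ↥P) (ht : t ≠ t₀) :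
    (((t : ℕ) : ℕ) : ℤ) ∣ twe_nv_zB P t₀ L' j :=
  Dvd.dvd.mul_right (twe_nv_dvd_L' P t₀ L' hL' t ht) _

theorem twe_nv_zB_cast (j : ZMod (t₀ : ℕ)) :
    ((twe_nv_zB P t₀ L' j : ℤ) : ZMod (t₀ : ℕ)) = ((L' : ℕ) : ZMod (t₀ : ℕ)) * j := by
  unfold twe_nv_zB
  push_cast
  rw [ZMod.natCast_zmod_val]

include hN hL' in
theorem twe_nv_unitB : ((L' : ℕ) : ZMod (t₀ : ℕ)) ≠ 0 := by
  intro h0
  apply twe_nv_unit N₀ P hN t₀ L' hL'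
  rw [Nat.cast_mul, h0, mul_zero]

include hN hL' in
/-- `U(L' j)⁻¹`, `j ∈ ZMod t₀`, are left coset representatives of the torus level in the upper Borel level
at `t₀`. -/
theorem twe_nv_bijB :
    ∀ γ ∈ (twe_lv_SU P t₀).comap (twe_sj_pi N₀ P), ∃! j : ZMod (t₀ : ℕ),
      ((twe_sj_Uz N₀ (twe_nv_zB P t₀ L' j))⁻¹)⁻¹ * γ ∈
        (twe_lv_ST P).comap (twe_sj_pi N₀ P) := by
  intro γ hγ
  have hu := twe_nv_unitB N₀ P hN t₀ L' hL'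
  have h1 := twe_lv_bijU t₀ (twe_sj_pi N₀ P γ) hγ
  have h2 := twe_nv_existsUnique_of_equiv
    ((Equiv.mulLeft₀ ((L' : ℕ) : ZMod (t₀ : ℕ)) hu).trans (Equiv.neg (ZMod (t₀ : ℕ)))) h1
  refine (existsUnique_congr fun j => ?_).mp h2
  rw [inv_inv, Subgroup.mem_comap, map_mul,
    twe_nv_pi_Uz N₀ t₀ _ (twe_nv_zB_dvd' P t₀ L' hL' j), twe_nv_zB_cast]
  have h3 : ((Equiv.mulLeft₀ ((L' : ℕ) : ZMod (t₀ : ℕ)) hu).trans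
      (Equiv.neg (ZMod (t₀ : ℕ)))) j = -(((L' : ℕ) : ZMod (t₀ : ℕ)) * j) := rfl
  rw [h3, ← map_inv, twe_nv_U_inv, neg_neg]

include hL' in
theorem twe_nv_repB_mem (j : ZMod (t₀ : ℕ)) :
    (twe_sj_Uz N₀ (twe_nv_zB P t₀ L' j))⁻¹ ∈ (twe_lv_SU P t₀).comap (twe_sj_pi N₀ P) := by
  refine inv_mem ?_
  rw [Subgroup.mem_comap, twe_nv_pi_Uz N₀ t₀ _ (twe_nv_zB_dvd' P t₀ L' hL' j)]
  exact twe_lv_iota_U_mem t₀ _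

include hL' in
/-- **the transfer (BETA) of `Φ h` vanishes** when `ψ t₀ ≠ 1`. -/
theorem twe_nv_VB [NeZero (N₀ * L' * L' * (t₀ : ℕ))] [NeZero (t₀ : ℕ)]
    {h : Additive ↥(twe_GamH M H) →+ K} (hh : h ∈ twe_nio_U htM ψ H) (hψ0 : ψ t₀ ≠ 1)
    (hLt : L' * (t₀ : ℕ) ≠ 0) (hL : L' * (t₀ : ℕ) = ∏ t ∈ P, t)
    (hA : N₀ * L' * L' * (t₀ : ℕ) * (t₀ : ℕ) = N₀ * (L' * (t₀ : ℕ)) * (L' * (t₀ : ℕ))) :
    twlg_gd_verAdd (twlg_gd_trB (N₀ * L' * L' * (t₀ : ℕ)) (t₀ : ℕ) (dvd_mul_left _ _))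
      (twe_nw_Phi N₀ P hN hM htM H hH ψ hm hψm (L' * (t₀ : ℕ))
        (N₀ * L' * L' * (t₀ : ℕ) * (t₀ : ℕ)) hL hA hLt (twe_nv_div N₀ P t₀ L') h) = 0 := by
  have hL0 : L' ≠ 0 := twe_nv_L'_ne_zero P t₀ L' hL'
  have : NeZero L' := ⟨hL0⟩
  obtain ⟨-, hST, htr, -⟩ := twe_nw_W_facts N₀ P hN hM htM H hH ψ hm hψm hh
  refine AddMonoidHom.ext fun g => ?_
  obtain ⟨g, rfl⟩ := Additive.ofMul.surjective g
  rw [twlg_gd_verAdd_apply]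
  simp only [twe_nw_Phi_apply, lrpd_pull_apply]
  have hρ := twe_nv_repB_mem N₀ P t₀ L' hL'
  have hbij := twe_nv_bijB N₀ P hN t₀ L' hL'
  have hz := twe_fl_cor_corK_eq_zero (twe_sj_surj N₀ hN) (twe_lv_ST P) (twe_lv_SU P t₀)
    (twe_nw_W N₀ P hN ψ hm hψm (lrpd_pull (twe_ni_j N₀ P hN hM htM H hH) h)) hST
    (fun x : ZMod (t₀ : ℕ) => twe_sj_iota t₀ (twlg_bk_Umat x)) (twe_lv_iota_U_mem t₀)
    (twe_lv_bijU t₀) (htr t₀ hψ0).1 hρ hbij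
  refine twe_nc_sum_eq_zero (twlg_gd_trB (N₀ * L' * L' * (t₀ : ℕ)) (t₀ : ℕ) (dvd_mul_left _ _))
    hρ hbij
    (fun g => ⟨twe_bl_cj L' (N₀ * L' * L' * (t₀ : ℕ)) N₀ hL0
      (twe_nv_divB N₀ P t₀ L') g, twe_nv_thetaB_mem N₀ P t₀ L' hL' hL0 g⟩)
    (fun c => twe_nh_theta N₀ P (L' * (t₀ : ℕ)) (N₀ * L' * L' * (t₀ : ℕ) * (t₀ : ℕ)) hL hA hLt
      (twe_nv_div N₀ P t₀ L') c) ?_ _ hz g
  intro j g
  have h1 := twe_nvb_main N₀ L' (t₀ : ℕ) g j (twe_nv_div N₀ P t₀ L') (twe_nv_divB N₀ P t₀ L')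
    hLt hL0
  show twe_bl_cj (L' * (t₀ : ℕ)) (N₀ * L' * L' * (t₀ : ℕ) * (t₀ : ℕ)) N₀ hLt
      (twe_nv_div N₀ P t₀ L') (twlg_gd_cocB (N₀ * L' * L' * (t₀ : ℕ)) (t₀ : ℕ) (dvd_mul_left _ _) j g) = _
  rw [h1, inv_inv]
  rfl

end beta

end Fermat.Agent.TW
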