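/-
ONE MACHINE / block [E] AUT, cell E/New, part 6 (helper24): THE OPERATOR FORM ON `H₁`.
Namespace `Fermat.Agent.TW`, prefix `twe_np_`.

The packaged deliverable of E/New.  Setting of `TW/Aut/New.lean`: `M = N₀ · ∏_{t ∈ P} t`, `H ≤ (ZMod M)ˣ`
containing the units `≡ 1` modulo every `t ∈ P`, `K` a field of characteristic zero, `ψ t` of ODD order,
`U_ψ = twe_nio_U htM ψ H` the `ψ`-part of `Hom(Γ_H, K)`, `A = N₀ · L · L`, `L = ∏_{t ∈ P} t`.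

* `twe_np_T_mem`     : `T'_{ℓ,s}` preserves `U_ψ`;
* `twe_np_TU`        : the restricted operator `U_ψ →ₗ[K] U_ψ`;
* `twe_np_Phi`       : **`Φ : U_ψ →ₗ[K] (gh_H A →+ K)`**;
* `twe_np_Phi_inj`   : `Φ` is injective;
* `twe_np_Phi_hecke` : `Φ (T'_{ℓ,s} h) x = Φ h (t2f_TH A ℓ x)`;
* `twe_np_VA`, `twe_np_VB` : for `ψ t₀ ≠ 1`, `Φ h ∘ VA = 0 = Φ h ∘ VB` (transfers from level `N' t₀`,
  `A = N' · t₀ · t₀`, `N' = N₀ · L' · L'`, `L' = ∏ (P.erase t₀)`).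
-/
import Mathlib
import Fermat.Agent.TW.Aut.New
import Fermat.Agent.TW.Aut.NewVer
import Fermat.Agent.TW.Aut.HeckePE
import Fermat.Agent.TW.Aut.HeckeConj
import Fermat.Agent.JT3.T2.Faithful
import Fermat.Agent.JT3.T2.ParEll

set_option autoImplicit false
set_option linter.unusedSectionVars false

noncomputable section

open CongruenceSubgroup Matrix.SpecialLinearGroup
open scoped MatrixGroups
open Fermat.Agent.JT3 Fermat.Agent.LR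

namespace Fermat.Agent.TW

/-! ### 1. `T'` preserves the `ψ`-part -/

section stable

variable {P : Finset ℕ} {M : ℕ} (htM : ∀ t : ↥P, (t : ℕ) ∣ M) (H : Subgroup (ZMod M)ˣ)
  {K : Type*} [Field K] (ψ : ∀ t : ↥P, (ZMod (t : ℕ))ˣ →* K)

theorem twe_np_T_smul {ℓ : ℕ} [Fact ℓ.Prime] (hℓM : ¬ ℓ ∣ M) (s : Gamma0 M)
    (hs : twe_dUnit M s * twe_dUnit M s * (twe_hk_lU hℓM)⁻¹ ∈ H) (c : K)
    (h : Additive ↥(twe_GamH M H) →+ K) :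
    twe_hk_T hℓM H s hs (c • h) = c • twe_hk_T hℓM H s hs h := by
  have e : ∀ z : Additive ↥(twe_GamH M H) →+ K,
      c • z = (DistribSMul.toAddMonoidHom K c).comp z := fun _ => rfl
  rw [e, twe_hk_T_comp, ← e]

theorem twe_np_T_mem {ℓ : ℕ} [Fact ℓ.Prime] (hℓM : ¬ ℓ ∣ M) (s : Gamma0 M)
    (hs : twe_dUnit M s * twe_dUnit M s * (twe_hk_lU hℓM)⁻¹ ∈ H)
    {h : Additive ↥(twe_GamH M H) →+ K} (hh : h ∈ twe_nio_U htM ψ H) :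
    twe_hk_T hℓM H s hs h ∈ twe_nio_U htM ψ H := by
  refine ⟨twe_hk_T_PE hℓM H s hs hh.1, fun g => ?_⟩
  rw [← twe_hk_T_conj, hh.2 g, twe_np_T_smul]

/-- **`T'_{ℓ,s}` on the `ψ`-part**. -/
def twe_np_TU {ℓ : ℕ} [Fact ℓ.Prime] (hℓM : ¬ ℓ ∣ M) (s : Gamma0 M)
    (hs : twe_dUnit M s * twe_dUnit M s * (twe_hk_lU hℓM)⁻¹ ∈ H) :
    ↥(twe_nio_U htM ψ H) →ₗ[K] ↥(twe_nio_U htM ψ H) where
  toFun h := ⟨twe_hk_T hℓM H s hs h.1, twe_np_T_mem htM H ψ hℓM s hs h.2⟩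
  map_add' h h' := by
    apply Subtype.ext
    show twe_hk_T hℓM H s hs (h.1 + h'.1) = twe_hk_T hℓM H s hs h.1 + twe_hk_T hℓM H s hs h'.1
    rw [map_add]
  map_smul' c h := by
    apply Subtype.ext
    show twe_hk_T hℓM H s hs (c • h.1) = c • twe_hk_T hℓM H s hs h.1
    rw [twe_np_T_smul]

@[simp] theorem twe_np_TU_coe {ℓ : ℕ} [Fact ℓ.Prime] (hℓM : ¬ ℓ ∣ M) (s : Gamma0 M)
    (hs : twe_dUnit M s * twe_dUnit M s * (twe_hk_lU hℓM)⁻¹ ∈ H) (h : ↥(twe_nio_U htM ψ H)) :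
    (twe_np_TU htM H ψ hℓM s hs h : Additive ↥(twe_GamH M H) →+ K) =
      twe_hk_T hℓM H s hs h.1 := rfl

end stable

/-! ### 2. The operator `Φ` on `H₁` -/

section setting

variable (N₀ : ℕ) [NeZero N₀] (P : Finset ℕ) [hP : ∀ t : ↥P, Fact (Nat.Prime (t : ℕ))]
  (hN : ∀ t : ↥P, ¬ (t : ℕ) ∣ N₀) {M : ℕ} (hM : M = N₀ * ∏ t ∈ P, t)
  (htM : ∀ t : ↥P, (t : ℕ) ∣ M) (H : Subgroup (ZMod M)ˣ)
  (hH : ∀ u : (ZMod M)ˣ, (∀ t : ↥P, ZMod.unitsMap (htM t) u = 1) → u ∈ H)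
  {K : Type*} [Field K] [CharZero K] (ψ : ∀ t : ↥P, (ZMod (t : ℕ))ˣ →* K)
  {m : ℕ} (hm : Odd m) (hψm : ∀ (t : ↥P) (a : (ZMod (t : ℕ))ˣ), ψ t a ^ m = 1)
  (L A : ℕ) (hL : L = ∏ t ∈ P, t) (hA : A = N₀ * L * L) (hL0 : L ≠ 0) (hdiv : L * N₀ ∣ A)

attribute [local instance] twe_nw_fintypeSub

/-- **the operator `Φ : U_ψ → Hom(H₁(X₀(A)), K)`**. -/
def twe_np_Phi : ↥(twe_nio_U htM ψ H) →ₗ[K] (gh_H A →+ K) where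
  toFun h := gh_lift (twe_nw_Phi N₀ P hN hM htM H hH ψ hm hψm L A hL hA hL0 hdiv h.1)
    (fun γ hγ => twe_nw_Phi_parEll N₀ P hN hM htM H hH ψ hm hψm L A hL hA hL0 hdiv h.2 γ hγ)
  map_add' h h' := by
    refine gh_hom_ext fun x => ?_
    rw [AddMonoidHom.add_apply, gh_lift_mk, gh_lift_mk, gh_lift_mk, Submodule.coe_add, map_add,
      AddMonoidHom.add_apply]
  map_smul' c h := by
    refine gh_hom_ext fun x => ?_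
    rw [RingHom.id_apply, AddMonoidHom.smul_apply, gh_lift_mk, gh_lift_mk, Submodule.coe_smul,
      map_smul, AddMonoidHom.smul_apply]

theorem twe_np_Phi_mk (h : ↥(twe_nio_U htM ψ H)) (x : Additive (Gamma0 A)) :
    twe_np_Phi N₀ P hN hM htM H hH ψ hm hψm L A hL hA hL0 hdiv h (gh_mk A x) =
      twe_nw_Phi N₀ P hN hM htM H hH ψ hm hψm L A hL hA hL0 hdiv h.1 x := by
  exact gh_lift_mk (twe_nw_Phi N₀ P hN hM htM H hH ψ hm hψm L A hL hA hL0 hdiv h.1)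
    (fun γ hγ => twe_nw_Phi_parEll N₀ P hN hM htM H hH ψ hm hψm L A hL hA hL0 hdiv h.2 γ hγ) x

theorem twe_np_Phi_comp_mk (h : ↥(twe_nio_U htM ψ H)) :
    (twe_np_Phi N₀ P hN hM htM H hH ψ hm hψm L A hL hA hL0 hdiv h).comp (gh_mk A) =
      twe_nw_Phi N₀ P hN hM htM H hH ψ hm hψm L A hL hA hL0 hdiv h.1 :=
  AddMonoidHom.ext fun x => twe_np_Phi_mk N₀ P hN hM htM H hH ψ hm hψm L A hL hA hL0 hdiv h x

/-- **`Φ` is injective.** -/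
theorem twe_np_Phi_inj :
    Function.Injective (twe_np_Phi N₀ P hN hM htM H hH ψ hm hψm L A hL hA hL0 hdiv) := by
  refine (injective_iff_map_eq_zero _).mpr fun h hh => ?_
  apply Subtype.ext
  refine twe_nw_Phi_inj N₀ P hN hM htM H hH ψ hm hψm L A hL hA hL0 hdiv h.2 ?_
  rw [← twe_np_Phi_comp_mk, hh]
  rfl

/-- **`Φ` intertwines `T'_{ℓ,s}` on `U_ψ` with `T_ℓ` on `H₁(X₀(A))`.** -/
theorem twe_np_Phi_hecke [NeZero A] {ℓ : ℕ} [Fact ℓ.Prime] (hℓM : ¬ ℓ ∣ M) (hℓA : ¬ ℓ ∣ A)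
    (s : Gamma0 M) (hs : twe_dUnit M s * twe_dUnit M s * (twe_hk_lU hℓM)⁻¹ ∈ H)
    (h : ↥(twe_nio_U htM ψ H)) (x : gh_H A) :
    twe_np_Phi N₀ P hN hM htM H hH ψ hm hψm L A hL hA hL0 hdiv (twe_np_TU htM H ψ hℓM s hs h) x =
      twe_np_Phi N₀ P hN hM htM H hH ψ hm hψm L A hL hA hL0 hdiv h (t2f_TH A ℓ x) := by
  have hℓ : ℓ.Prime := Fact.out
  rw [t2f_TH_apply hℓ hℓA]
  have key : twe_np_Phi N₀ P hN hM htM H hH ψ hm hψm L A hL hA hL0 hdiv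
        (twe_np_TU htM H ψ hℓM s hs h) =
      (twe_np_Phi N₀ P hN hM htM H hH ψ hm hψm L A hL hA hL0 hdiv h).comp (t2e_TH hℓA) := by
    refine gh_hom_ext fun y => ?_
    rw [twe_np_Phi_mk, twe_np_TU_coe,
      twe_nw_Phi_hecke N₀ P hN hM htM H hH ψ hm hψm L A hL hA hL0 hdiv h.2 hℓM hℓA s hs,
      ← twe_np_Phi_comp_mk, ← t2e_comp_TH]
    rfl
  rw [key]
  rfl

end setting

/-! ### 3. The two transfers -/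

section transfers

variable (N₀ : ℕ) [NeZero N₀] (P : Finset ℕ) [hP : ∀ t : ↥P, Fact (Nat.Prime (t : ℕ))]
  (hN : ∀ t : ↥P, ¬ (t : ℕ) ∣ N₀) {M : ℕ} (hM : M = N₀ * ∏ t ∈ P, t)
  (htM : ∀ t : ↥P, (t : ℕ) ∣ M) (H : Subgroup (ZMod M)ˣ)
  (hH : ∀ u : (ZMod M)ˣ, (∀ t : ↥P, ZMod.unitsMap (htM t) u = 1) → u ∈ H)
  {K : Type*} [Field K] [CharZero K] (ψ : ∀ t : ↥P, (ZMod (t : ℕ))ˣ →* K)
  {m : ℕ} (hm : Odd m) (hψm : ∀ (t : ↥P) (a : (ZMod (t : ℕ))ˣ), ψ t a ^ m = 1)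
  (t₀ : ↥P) (L' : ℕ) (hL' : L' = ∏ t ∈ P.erase (t₀ : ℕ), t)

attribute [local instance] twe_nw_fintypeSub

include hL' in
/-- **`Φ h ∘ VA = 0`** when `ψ t₀ ≠ 1`. -/
theorem twe_np_VA [NeZero (N₀ * L' * L' * (t₀ : ℕ))] [NeZero (t₀ : ℕ)]
    (h : ↥(twe_nio_U htM ψ H)) (hψ0 : ψ t₀ ≠ 1)
    (hLt : L' * (t₀ : ℕ) ≠ 0) (hL : L' * (t₀ : ℕ) = ∏ t ∈ P, t)
    (hA : N₀ * L' * L' * (t₀ : ℕ) * (t₀ : ℕ) = N₀ * (L' * (t₀ : ℕ)) * (L' * (t₀ : ℕ)))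
    (x : gh_H (N₀ * L' * L' * (t₀ : ℕ))) :
    twe_np_Phi N₀ P hN hM htM H hH ψ hm hψm (L' * (t₀ : ℕ))
        (N₀ * L' * L' * (t₀ : ℕ) * (t₀ : ℕ)) hL hA hLt (twe_nv_div N₀ P t₀ L') h
      (twlg_gd_VA (N₀ * L' * L' * (t₀ : ℕ)) (t₀ : ℕ) (dvd_mul_left _ _) x) = 0 := by
  have key : (twe_np_Phi N₀ P hN hM htM H hH ψ hm hψm (L' * (t₀ : ℕ))
        (N₀ * L' * L' * (t₀ : ℕ) * (t₀ : ℕ)) hL hA hLt (twe_nv_div N₀ P t₀ L') h).comp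
      (twlg_gd_VA (N₀ * L' * L' * (t₀ : ℕ)) (t₀ : ℕ) (dvd_mul_left _ _)) = 0 := by
    refine gh_hom_ext fun y => ?_
    have h1 := DFunLike.congr_fun (twlg_gd_comp_VA (N₀ * L' * L' * (t₀ : ℕ)) (t₀ : ℕ)
      (dvd_mul_left _ _) (twe_np_Phi N₀ P hN hM htM H hH ψ hm hψm (L' * (t₀ : ℕ))
        (N₀ * L' * L' * (t₀ : ℕ) * (t₀ : ℕ)) hL hA hLt (twe_nv_div N₀ P t₀ L') h)) y
    rw [twe_np_Phi_comp_mk,
      twe_nv_VA N₀ P hN hM htM H hH ψ hm hψm t₀ L' hL' h.2 hψ0 hLt hL hA] at h1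
    exact h1
  exact DFunLike.congr_fun key x

include hL' in
/-- **`Φ h ∘ VB = 0`** when `ψ t₀ ≠ 1`. -/
theorem twe_np_VB [NeZero (N₀ * L' * L' * (t₀ : ℕ))] [NeZero (t₀ : ℕ)]
    (h : ↥(twe_nio_U htM ψ H)) (hψ0 : ψ t₀ ≠ 1)
    (hLt : L' * (t₀ : ℕ) ≠ 0) (hL : L' * (t₀ : ℕ) = ∏ t ∈ P, t)
    (hA : N₀ * L' * L' * (t₀ : ℕ) * (t₀ : ℕ) = N₀ * (L' * (t₀ : ℕ)) * (L' * (t₀ : ℕ)))
    (x : gh_H (N₀ * L' * L' * (t₀ : ℕ))) :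
    twe_np_Phi N₀ P hN hM htM H hH ψ hm hψm (L' * (t₀ : ℕ))
        (N₀ * L' * L' * (t₀ : ℕ) * (t₀ : ℕ)) hL hA hLt (twe_nv_div N₀ P t₀ L') h
      (twlg_gd_VB (N₀ * L' * L' * (t₀ : ℕ)) (t₀ : ℕ) (dvd_mul_left _ _) x) = 0 := by
  have key : (twe_np_Phi N₀ P hN hM htM H hH ψ hm hψm (L' * (t₀ : ℕ))
        (N₀ * L' * L' * (t₀ : ℕ) * (t₀ : ℕ)) hL hA hLt (twe_nv_div N₀ P t₀ L') h).comp
      (twlg_gd_VB (N₀ * L' * L' * (t₀ : ℕ)) (t₀ : ℕ) (dvd_mul_left _ _)) = 0 := by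
    refine gh_hom_ext fun y => ?_
    have h1 := DFunLike.congr_fun (twlg_gd_comp_VB (N₀ * L' * L' * (t₀ : ℕ)) (t₀ : ℕ)
      (dvd_mul_left _ _) (twe_np_Phi N₀ P hN hM htM H hH ψ hm hψm (L' * (t₀ : ℕ))
        (N₀ * L' * L' * (t₀ : ℕ) * (t₀ : ℕ)) hL hA hLt (twe_nv_div N₀ P t₀ L') h)) y
    rw [twe_np_Phi_comp_mk,
      twe_nv_VB N₀ P hN hM htM H hH ψ hm hψm t₀ L' hL' h.2 hψ0 hLt hL hA] at h1
    exact h1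
  exact DFunLike.congr_fun key x

end transfers

end Fermat.Agent.TW
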