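/-
ONE MACHINE / block [E] AUT, cell (C4) of E/Seam (helper24): **`twe_sm_Rel_stmt`**.
Namespace `Fermat.Agent.TW`, prefix `twe_sr_`.

Every noncommutative-polynomial relation among the Hecke operators `T_{q i}` on `Hom(gh_H A, 𝒪)`
(`A = N₀ · L · L` the balanced `Γ₀`-level) holds among the fixed-determinant operators `T'_{q i}` on
`W(Γ_H, 𝒪)`.  Chain (`K` an algebraic closure of the fraction field of `𝒪`):

`Hom(gh_H A, 𝒪) ⟶ Hom(gh_H A, K)`        (`twe_at_rel_of_span`),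
`W(Γ_H, K) = ⊕_χ U_{ψ(χ)}`, `Φ_χ : U_{ψ(χ)} ↪ Hom(gh_H A, K)`   (`twe_iso_decomp_of_quotient` for the diamond
                                          action of `(ZMod M)ˣ ⧸ H`, `twe_np_Phi` of `TW/Aut/NewPack.lean`),
`W(Γ_H, 𝒪) ↪ W(Γ_H, K)`                 (`twe_wl_map`).
-/
import Mathlib
import Fermat.Agent.TW.Aut.SeamDefs
import Fermat.Agent.TW.Aut.NewPack
import Fermat.Agent.TW.Aut.Iso
import Fermat.Agent.TW.Aut.DeltaIso

set_option autoImplicit false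
set_option linter.unusedSectionVars false

noncomputable section

open CongruenceSubgroup Matrix.SpecialLinearGroup
open scoped MatrixGroups
open Fermat.Agent.JT3 Fermat.Agent.LR

namespace Fermat.Agent.TW

/-! ### 1. The diamond characters are products of torus characters -/

section chars

variable {P : Finset ℕ} [hP : ∀ t : ↥P, Fact (Nat.Prime (t : ℕ))] {M : ℕ} [NeZero M]
  (htM : ∀ t : ↥P, (t : ℕ) ∣ M) (H : Subgroup (ZMod M)ˣ)
  (hH : ∀ u : (ZMod M)ˣ, (∀ t : ↥P, ZMod.unitsMap (htM t) u = 1) → u ∈ H)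
  {K : Type*} [Field K]

/-- the reduction to the product of the `(ZMod t)ˣ`. -/
def twe_sr_r : (ZMod M)ˣ →* (∀ t : ↥P, (ZMod (t : ℕ))ˣ) :=
  MonoidHom.pi (fun t => ZMod.unitsMap (htM t))

theorem twe_sr_r_apply (u : (ZMod M)ˣ) (t : ↥P) :
    twe_sr_r htM u t = ZMod.unitsMap (htM t) u := rfl

theorem twe_sr_r_surjective : Function.Surjective (twe_sr_r htM) := by
  intro y
  obtain ⟨u, hu⟩ := twe_di_crt P M (fun t ht => (hP ⟨t, ht⟩).out) (fun t ht => htM ⟨t, ht⟩) y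
  exact ⟨u, funext hu⟩

include hH in
/-- a character of `(ZMod M)ˣ` trivial on `H` is the diamond character of a family of torus
characters, of exponent `m` if `(ZMod M)ˣ ⧸ H` has exponent `m`. -/
theorem twe_sr_exists_psi (χ : (ZMod M)ˣ →* Kˣ) (hχ : ∀ u ∈ H, χ u = 1) {m : ℕ}
    (hHm : ∀ u : (ZMod M)ˣ, u ^ m ∈ H) :
    ∃ ψ : ∀ t : ↥P, (ZMod (t : ℕ))ˣ →* K,
      (∀ u : (ZMod M)ˣ, twe_nio_Psiu htM ψ u = ((χ u : Kˣ) : K)) ∧
      ∀ (t : ↥P) (a : (ZMod (t : ℕ))ˣ), ψ t a ^ m = 1 := by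
  classical
  obtain ⟨χ', hχ'⟩ := twe_iso_exists_descent (twe_sr_r htM) (twe_sr_r_surjective htM) χ
    (fun u hu => hχ u (hH u (fun t => by rw [← twe_sr_r_apply, hu]; rfl)))
  refine ⟨fun t => (Units.coeHom K).comp
    ((χ'⁻¹).comp (MonoidHom.mulSingle (fun t : ↥P => (ZMod (t : ℕ))ˣ) t)), fun u => ?_,
    fun t a => ?_⟩
  · rw [twe_nio_Psiu_apply, ← hχ', ← Finset.univ_prod_mulSingle (twe_sr_r htM u), map_prod,
      Units.coe_prod]
    refine Finset.prod_congr rfl fun t _ => ?_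
    rw [MonoidHom.comp_apply, MonoidHom.comp_apply, MonoidHom.inv_apply, Units.coeHom_apply,
      MonoidHom.mulSingle_apply, ← map_inv, ← Pi.mulSingle_inv, inv_inv, twe_sr_r_apply]
  · obtain ⟨u, hu⟩ := twe_sr_r_surjective htM (Pi.mulSingle t a)
    rw [MonoidHom.comp_apply, MonoidHom.comp_apply, MonoidHom.inv_apply, Units.coeHom_apply,
      MonoidHom.mulSingle_apply, ← hu, hχ', ← Units.val_pow_eq_pow_val, inv_pow, ← map_pow,
      hχ _ (hHm u), inv_one, Units.val_one]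

end chars

/-! ### 2. `Hom(gh_H A, K)` is spanned by `Hom(gh_H A, 𝒪)` -/

section span

variable (A : ℕ) [NeZero A] (𝒪 K : Type*) [CommRing 𝒪] [Field K] [Algebra 𝒪 K]

/-- extension of the coefficients `Hom(gh_H A, 𝒪) → Hom(gh_H A, K)`. -/
def twe_sr_j : (gh_H A →+ 𝒪) →ₗ[𝒪] (gh_H A →+ K) where
  toFun ψ := (Algebra.linearMap 𝒪 K).toAddMonoidHom.comp ψ
  map_add' ψ ψ' := by
    refine AddMonoidHom.ext fun x => ?_
    show algebraMap 𝒪 K (ψ x + ψ' x) = algebraMap 𝒪 K (ψ x) + algebraMap 𝒪 K (ψ' x)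
    rw [map_add]
  map_smul' a ψ := by
    refine AddMonoidHom.ext fun x => ?_
    show algebraMap 𝒪 K (a • ψ x) = a • algebraMap 𝒪 K (ψ x)
    rw [smul_eq_mul, map_mul, Algebra.smul_def]

theorem twe_sr_j_apply (ψ : gh_H A →+ 𝒪) (x : gh_H A) :
    twe_sr_j A 𝒪 K ψ x = algebraMap 𝒪 K (ψ x) := rfl

theorem twe_sr_span : Submodule.span K (Set.range (twe_sr_j A 𝒪 K)) = ⊤ := by
  rw [eq_top_iff]
  intro ψ _
  have h1 : ψ = ∑ i, ψ (twe_is_bH A i) •
      twe_sr_j A 𝒪 K ((twe_is_coord A 𝒪).symm (Pi.single i 1)) := by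
    refine AddMonoidHom.ext fun x => ?_
    rw [AddMonoidHom.finsetSum_apply]
    conv_lhs => rw [← (twe_is_bH A).sum_repr x, map_sum]
    refine Finset.sum_congr rfl fun i _ => ?_
    rw [map_zsmul, AddMonoidHom.smul_apply, twe_sr_j_apply, twe_is_coord_symm_apply,
      Finset.sum_eq_single i]
    · rw [Pi.single_eq_same, map_zsmul, map_one, smul_eq_mul, zsmul_eq_mul, zsmul_eq_mul, mul_one,
        mul_comm]
    · intro k _ hk
      rw [Pi.single_eq_of_ne hk, smul_zero]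
    · intro hi
      exact absurd (Finset.mem_univ i) hi
  rw [h1]
  exact Submodule.sum_mem _ fun i _ =>
    Submodule.smul_mem _ _ (Submodule.subset_span ⟨_, rfl⟩)

end span

/-! ### 3. The family of injective equivariant maps over `K` -/

section family

variable (N₀ : ℕ) [NeZero N₀] (P : Finset ℕ) [hP : ∀ t : ↥P, Fact (Nat.Prime (t : ℕ))]
  (hN : ∀ t : ↥P, ¬ (t : ℕ) ∣ N₀) {M A : ℕ} [NeZero M] [NeZero A]
  (hM : M = N₀ * ∏ t ∈ P, t) (hA : A = N₀ * (∏ t ∈ P, t) * ∏ t ∈ P, t)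
  (htM : ∀ t : ↥P, (t : ℕ) ∣ M) (H : Subgroup (ZMod M)ˣ)
  (hH : ∀ u : (ZMod M)ˣ, (∀ t : ↥P, ZMod.unitsMap (htM t) u = 1) → u ∈ H)
  {m : ℕ} (hm : Odd m) (hHm : ∀ u : (ZMod M)ˣ, u ^ m ∈ H)
  {I : Type} (q : I → ℕ) (hqA : ∀ i, ¬ q i ∣ A) (F : twe_sm_Frame M H q)
  {K : Type} [Field K] [IsAlgClosed K] [CharZero K]

attribute [local instance] twe_nw_fintypeSub

include hN hM hA hH hm hHm hqA in
/-- **the family `Φ_χ ∘ π_χ`**: jointly injective, intertwining `T'_{q i}` with `T_{q i}`. -/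
theorem twe_sr_family :
    ∃ (J : Type) (Ψ : J → (↥(twe_wl_V K K (twe_GamH M H)) →ₗ[K] (gh_H A →+ K))),
      (∀ v, (∀ j, Ψ j v = 0) → v = 0) ∧
      ∀ (j : J) (i : I) (v : ↥(twe_wl_V K K (twe_GamH M H))) (x : gh_H A),
        Ψ j (@twe_wl_T K _ K _ _ M (q i) (F.hq i) (F.hM i) H (F.s i) (F.hs i) v) x =
          Ψ j v (t2f_TH A (q i) x) := by
  classical
  have hL0 : (∏ t ∈ P, t) ≠ 0 :=
    Finset.prod_ne_zero_iff.mpr fun t ht => (hP ⟨t, ht⟩).out.ne_zero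
  have hdiv : (∏ t ∈ P, t) * N₀ ∣ A := ⟨∏ t ∈ P, t, by rw [hA]; ring⟩
  -- the finite abelian quotient
  let _ : Fintype ((ZMod M)ˣ ⧸ H) := Fintype.ofFinite _
  have : NeZero (Fintype.card ((ZMod M)ˣ ⧸ H) : K) :=
    twe_iso_card_neZero_of_charZero (G := (ZMod M)ˣ ⧸ H) (K := K)
  have : HasEnoughRootsOfUnity K (Monoid.exponent ((ZMod M)ˣ ⧸ H)) :=
    twe_iso_enough_of_algClosed (G := (ZMod M)ˣ ⧸ H) (K := K)
  have : Finite (((ZMod M)ˣ ⧸ H) →* Kˣ) := twe_iso_finite_char (G := (ZMod M)ˣ ⧸ H) (K := K)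
  let _ : Fintype (((ZMod M)ˣ ⧸ H) →* Kˣ) := Fintype.ofFinite _
  let qq : Gamma0 M →* ((ZMod M)ˣ ⧸ H) := (QuotientGroup.mk' H).comp (twe_dUnit M)
  have hqq : Function.Surjective qq :=
    (QuotientGroup.mk'_surjective H).comp (twe_di_dUnit_surjective M)
  let ρ : Gamma0 M →* Module.End K ↥(twe_wl_V K K (twe_GamH M H)) :=
    { toFun := fun g => twe_wl_conj (R := K) (A := K) H g
      map_one' := twe_wl_conj_one H
      map_mul' := twe_wl_conj_mul H }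
  have hker : ∀ γ, qq γ = 1 → ρ γ = 1 := by
    intro γ hγ
    refine twe_wl_conj_of_mem H γ (twe_mem_GamH.mpr ⟨γ.2, ?_⟩)
    exact (QuotientGroup.eq_one_iff _).mp hγ
  obtain ⟨π, hsum, heig, hcomm, -⟩ :=
    twe_iso_decomp_of_quotient (G := (ZMod M)ˣ ⧸ H) (K := K) qq hqq ρ hker
  -- the torus characters of `χ`
  have hψ : ∀ χ : ((ZMod M)ˣ ⧸ H) →* Kˣ, ∃ ψ : ∀ t : ↥P, (ZMod (t : ℕ))ˣ →* K,
      (∀ u : (ZMod M)ˣ, twe_nio_Psiu htM ψ u = ((χ (QuotientGroup.mk' H u) : Kˣ) : K)) ∧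
      ∀ (t : ↥P) (a : (ZMod (t : ℕ))ˣ), ψ t a ^ m = 1 := fun χ =>
    twe_sr_exists_psi htM H hH (χ.comp (QuotientGroup.mk' H))
      (fun u hu => by
        rw [MonoidHom.comp_apply, QuotientGroup.mk'_apply, (QuotientGroup.eq_one_iff u).mpr hu,
          map_one]) hHm
  choose ψ hψ1 hψ2 using hψ
  -- the isotypic components lie in the `ψ`-parts
  have hmem : ∀ (χ : ((ZMod M)ˣ ⧸ H) →* Kˣ) (v : ↥(twe_wl_V K K (twe_GamH M H))),
      ((twe_wl_V K K (twe_GamH M H)).subtype ∘ₗ π χ) v ∈ twe_nio_U htM (ψ χ) H := by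
    intro χ v
    refine ⟨(π χ v).2, fun g => ?_⟩
    have h1 := congrArg Subtype.val (heig χ g v)
    rw [hψ1]
    exact h1
  refine ⟨((ZMod M)ˣ ⧸ H) →* Kˣ, fun χ =>
    (twe_np_Phi N₀ P hN hM htM H hH (ψ χ) hm (hψ2 χ) (∏ t ∈ P, t) A rfl hA hL0 hdiv) ∘ₗ
      (LinearMap.codRestrict (twe_nio_U htM (ψ χ) H)
        ((twe_wl_V K K (twe_GamH M H)).subtype ∘ₗ π χ) (hmem χ)), ?_, ?_⟩
  · intro v hv
    rw [← hsum v]
    refine Finset.sum_eq_zero fun χ _ => ?_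
    have h1 := twe_np_Phi_inj N₀ P hN hM htM H hH (ψ χ) hm (hψ2 χ) (∏ t ∈ P, t) A rfl hA hL0 hdiv
      ((hv χ).trans (map_zero _).symm)
    have h3 : ((π χ v : ↥(twe_wl_V K K (twe_GamH M H))) : Additive ↥(twe_GamH M H) →+ K) = 0 :=
      congrArg Subtype.val h1
    exact Subtype.ext h3
  · intro χ i v x
    have := F.hq i
    rw [LinearMap.comp_apply, LinearMap.comp_apply,
      ← twe_np_Phi_hecke N₀ P hN hM htM H hH (ψ χ) hm (hψ2 χ) (∏ t ∈ P, t) A rfl hA hL0 hdiv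
        (F.hM i) (hqA i) (F.s i) (F.hs i)]
    congr 2
    apply Subtype.ext
    have h2 := hcomm χ (twe_wl_T (R := K) (A := K) (F.hM i) H (F.s i) (F.hs i)).toAddMonoidHom
      (fun c v => map_smul (twe_wl_T (R := K) (A := K) (F.hM i) H (F.s i) (F.hs i)) c v)
      (fun γ v => (twe_wl_T_conj (F.hM i) H (F.s i) (F.hs i) γ v).symm) v
    exact (congrArg Subtype.val h2).symm

end family

/-! ### 4. The assembly over `𝒪` -/

section assembly

variable (𝒪 K : Type*) [CommRing 𝒪] [Field K] [Algebra 𝒪 K]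

/-- the Hecke operators on `Hom(gh_H A, K)`, as `𝒪`-linear maps. -/
def twe_sr_TXK (A : ℕ) {I : Type*} (q : I → ℕ) : I → Module.End 𝒪 (gh_H A →+ K) := fun i =>
  { toFun := fun ψ => ψ.comp (t2f_TH A (q i)).toAddMonoidHom
    map_add' := fun _ _ => rfl
    map_smul' := fun _ _ => rfl }

theorem twe_sr_TXK_apply (A : ℕ) {I : Type*} (q : I → ℕ) (i : I) (ψ : gh_H A →+ K) (x : gh_H A) :
    twe_sr_TXK 𝒪 K A q i ψ x = ψ (t2f_TH A (q i) x) := rfl

/-- `W(Γ, K)` over `𝒪` and over `K` have the same elements. -/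
def twe_sr_toK (Γ : Subgroup SL(2, ℤ)) : ↥(twe_wl_V 𝒪 K Γ) →ₗ[𝒪] ↥(twe_wl_V K K Γ) where
  toFun y := ⟨y.1, y.2⟩
  map_add' _ _ := rfl
  map_smul' _ _ := rfl

@[simp] theorem twe_sr_toK_coe (Γ : Subgroup SL(2, ℤ)) (y : ↥(twe_wl_V 𝒪 K Γ)) :
    (twe_sr_toK 𝒪 K Γ y : Additive Γ →+ K) = y.1 := rfl

end assembly

/-- **(C4)**: the relations of the balanced `Γ₀`-level hold on `W(Γ_H, 𝒪)`. -/
theorem twe_sr_main : twe_sm_Rel_stmt := by
  intro 𝒪 _ _ _ N₀ _ P _ hN M A _ _ hM hA htM H hH m hm hHm I q hqA F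
  have hinj : Function.Injective (algebraMap 𝒪 (AlgebraicClosure (FractionRing 𝒪))) := by
    rw [IsScalarTower.algebraMap_eq 𝒪 (FractionRing 𝒪) (AlgebraicClosure (FractionRing 𝒪))]
    exact (algebraMap (FractionRing 𝒪) (AlgebraicClosure (FractionRing 𝒪))).injective.comp
      (IsFractionRing.injective 𝒪 (FractionRing 𝒪))
  have : CharZero (AlgebraicClosure (FractionRing 𝒪)) := charZero_of_injective_algebraMap hinj
  obtain ⟨J, Ψ, hΨ0, hΨT⟩ := twe_sr_family (K := AlgebraicClosure (FractionRing 𝒪))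
    N₀ P hN hM hA htM H hH hm hHm q hqA F
  -- step 1: extension of scalars on the `Γ₀(A)`-side
  have R1 : twe_at_Rel (twe_sm_TX 𝒪 A q) (twe_sr_TXK 𝒪 (AlgebraicClosure (FractionRing 𝒪)) A q) :=
    twe_at_rel_of_span (K := AlgebraicClosure (FractionRing 𝒪)) _ _
      (twe_sr_j A 𝒪 (AlgebraicClosure (FractionRing 𝒪))) (fun _ _ => rfl) (fun _ _ _ => rfl)
      (twe_sr_span A 𝒪 (AlgebraicClosure (FractionRing 𝒪)))
  -- step 2: the isotypic components of `W(Γ_H, K)`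
  have R2 : twe_at_Rel (twe_sm_TX 𝒪 A q)
      (fun i => @twe_wl_T 𝒪 _ (AlgebraicClosure (FractionRing 𝒪)) _ _ M (q i) (F.hq i) (F.hM i) H
        (F.s i) (F.hs i)) := by
    refine twe_at_rel_of_injective_family (I := J)
      (Zi := fun _ => gh_H A →+ AlgebraicClosure (FractionRing 𝒪)) _ _
      (fun _ => twe_sr_TXK 𝒪 (AlgebraicClosure (FractionRing 𝒪)) A q)
      (fun j => (Ψ j).restrictScalars 𝒪 ∘ₗ
        twe_sr_toK 𝒪 (AlgebraicClosure (FractionRing 𝒪)) (twe_GamH M H)) ?_ ?_ (fun _ => R1)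
    · intro y hy
      have h1 := hΨ0 (twe_sr_toK 𝒪 (AlgebraicClosure (FractionRing 𝒪)) (twe_GamH M H) y)
        (fun j => hy j)
      exact Subtype.ext (congrArg Subtype.val h1)
    · intro j i y
      refine AddMonoidHom.ext fun x => ?_
      exact hΨT j i (twe_sr_toK 𝒪 (AlgebraicClosure (FractionRing 𝒪)) (twe_GamH M H) y) x
  -- step 3: `W(Γ_H, 𝒪) ↪ W(Γ_H, K)`
  refine twe_at_rel_of_injective _ _ _
    (twe_wl_map (Algebra.linearMap 𝒪 (AlgebraicClosure (FractionRing 𝒪))) (twe_GamH M H)) ?_ ?_ R2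
  · intro y y' hyy'
    apply Subtype.ext
    refine AddMonoidHom.ext fun γ => ?_
    have h1 := DFunLike.congr_fun (congrArg Subtype.val hyy') γ
    exact hinj h1
  · intro i y
    apply Subtype.ext
    exact (@twe_hk_T_comp M (q i) (F.hq i) _ _ _ _ (F.hM i) H (F.s i) (F.hs i) _ y.1).symm

end Fermat.Agent.TW
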