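/-
ONE MACHINE / block [E] AUT, E/SeamRelInst (helper24): the CONCRETE instances of (C4) `twe_sr_main`
used by the assembly of the unipotent / big systems and of their OLD-AT-`t₀` clauses.
Namespace `Fermat.Agent.TW`, prefix `twe_sri_`.
-/
import Mathlib
import Fermat.Agent.TW.Aut.SeamRel
import Fermat.Agent.TW.Aut.SeamArith
import Fermat.Agent.TW.Aut.DeltaIso2

set_option autoImplicit false
set_option linter.unusedSectionVars false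

noncomputable section

namespace Fermat.Agent.TW

open CongruenceSubgroup

section core

variable (𝒪 : Type) [CommRing 𝒪] [IsDomain 𝒪] [CharZero 𝒪]

/-- (C4) with the `Fact` instances replaced by a hypothesis. -/
theorem twe_sri_core (N₀ : ℕ) [NeZero N₀] (P : Finset ℕ) (hPp : ∀ t ∈ P, t.Prime)
    (hN : ∀ t ∈ P, ¬ t ∣ N₀) {M A : ℕ} [NeZero M] [NeZero A] (hM : M = N₀ * ∏ t ∈ P, t)
    (hA : A = N₀ * (∏ t ∈ P, t) * ∏ t ∈ P, t) (hPM : ∀ t ∈ P, t ∣ M)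
    (H : Subgroup (ZMod M)ˣ)
    (hH : ∀ u : (ZMod M)ˣ, (∀ t : ↥P, ZMod.unitsMap (hPM t.1 t.2) u = 1) → u ∈ H)
    {m : ℕ} (hm : Odd m) (hHm : ∀ u : (ZMod M)ˣ, u ^ m ∈ H)
    {I : Type} (q : I → ℕ) (hq : ∀ i, ¬ q i ∣ A) (F : twe_sm_Frame M H q) :
    twe_at_Rel (twe_sm_TX 𝒪 A q) (twe_sm_TY 𝒪 F) := by
  have hP : ∀ t : ↥P, Fact (Nat.Prime (t : ℕ)) := fun t => ⟨hPp t.1 t.2⟩
  exact twe_sr_main 𝒪 N₀ P (fun t => hN t.1 t.2) M A hM hA (fun t => hPM t.1 t.2) H hH m hm hHm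
    q hq F

end core

/-! ### arithmetic of the balanced levels -/

section arith

theorem twe_sri_Nbal_empty (N : ℕ) (Q : Finset ℕ) :
    twe_Nbal N Q ∅ = N * (∏ t ∈ Q, t) * ∏ t ∈ Q, t := by
  rw [twe_Nbal, Finset.prod_empty, mul_one, Finset.prod_pow]
  ring

theorem twe_sri_Nbal_empty_div (N : ℕ) (Q : Finset ℕ) (t₀ : ℕ) (ht₀ : t₀ ∈ Q) (h0 : 0 < t₀) :
    twe_Nbal N Q ∅ / t₀ =
      N * t₀ * (∏ t ∈ Q.erase t₀, t) * ∏ t ∈ Q.erase t₀, t := by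
  rw [twe_sri_Nbal_empty, ← Finset.mul_prod_erase Q (fun t => t) ht₀]
  have : N * (t₀ * ∏ t ∈ Q.erase t₀, t) * (t₀ * ∏ t ∈ Q.erase t₀, t) =
      N * t₀ * (∏ t ∈ Q.erase t₀, t) * (∏ t ∈ Q.erase t₀, t) * t₀ := by ring
  rw [this]
  exact Nat.mul_div_cancel _ h0

variable {N : ℕ} {Q Th : Finset ℕ} (hQ : ∀ t ∈ Q, t.Prime ∧ ¬ t ∣ N)
  (hTh : ∀ ℓ ∈ Th, ℓ.Prime ∧ ℓ ∣ N)

include hQ hTh in
theorem twe_sri_Nbal_div (t₀ : ↥(Q ∪ Th)) :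
    twe_Nbal N Q Th / (t₀ : ℕ) =
      twe_sar_N0 N Th * (t₀ : ℕ) * (∏ t ∈ (Q ∪ Th).erase (t₀ : ℕ), t) *
        ∏ t ∈ (Q ∪ Th).erase (t₀ : ℕ), t := by
  have h0 : 0 < (t₀ : ℕ) := (twe_sar_prime hQ hTh t₀.2).pos
  rw [twe_sar_Nbal_erase hQ hTh t₀]
  have : twe_sar_N0 N Th * (∏ t ∈ (Q ∪ Th).erase (t₀ : ℕ), t) *
        (∏ t ∈ (Q ∪ Th).erase (t₀ : ℕ), t) * (t₀ : ℕ) * (t₀ : ℕ) =
      twe_sar_N0 N Th * (t₀ : ℕ) * (∏ t ∈ (Q ∪ Th).erase (t₀ : ℕ), t) *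
        (∏ t ∈ (Q ∪ Th).erase (t₀ : ℕ), t) * (t₀ : ℕ) := by ring
  rw [this]
  exact Nat.mul_div_cancel _ h0

end arith

/-! ### the unipotent system -/

section level

variable (𝒪 : Type) [CommRing 𝒪] [IsDomain 𝒪] [CharZero 𝒪]
  (p : ℕ) {N : ℕ} [NeZero N] {Q : Finset ℕ} (hQ : ∀ t ∈ Q, t.Prime ∧ ¬ t ∣ N)
  {M : ℕ} [NeZero M] (hM : M = N * ∏ t ∈ Q, t)

include hQ hM in
/-- **(L)**: (C4) for the unipotent system. -/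
theorem twe_sri_level (hp : Odd p) [NeZero (twe_Nbal N Q ∅)]
    (hQp : ∀ t ∈ Q, t.Prime) (hQM : ∀ t ∈ Q, t ∣ M)
    {I : Type} (q : I → ℕ) (hq : ∀ i, ¬ q i ∣ twe_Nbal N Q ∅)
    (F : twe_sm_Frame M (twe_di_hom p Q M hQp hQM).ker q) :
    twe_at_Rel (twe_sm_TX 𝒪 (twe_Nbal N Q ∅) q) (twe_sm_TY 𝒪 F) :=
  twe_sri_core 𝒪 N Q hQp (fun t ht => (hQ t ht).2) hM (twe_sri_Nbal_empty N Q) hQM _
    (fun u h => MonoidHom.mem_ker.2 (twe_di_hom_eq_one_of_unitsMap p Q M hQp hQM u h))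
    (m := p ^ twe_di_exp p Q) hp.pow
    (fun u => MonoidHom.mem_ker.2 (twe_di_hom_pow_exp_mem p Q M hQp hQM u)) q hq F

include hQ hM in
/-- **(OL)**: (C4) for OLD-AT-`t₀`, `t₀ ∈ Q`, of the unipotent system: level `Nbal / t₀`,
`H' = ker ((ℤ/M)ˣ → Δ_{Q.erase t₀})`. -/
theorem twe_sri_oldLevel (hp : Odd p) (t₀ : ℕ) (ht₀ : t₀ ∈ Q) [NeZero (twe_Nbal N Q ∅ / t₀)]
    (hQp : ∀ t ∈ Q.erase t₀, t.Prime) (hQM : ∀ t ∈ Q.erase t₀, t ∣ M)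
    {I : Type} (q : I → ℕ) (hq : ∀ i, ¬ q i ∣ twe_Nbal N Q ∅ / t₀)
    (F : twe_sm_Frame M (twe_di_hom p (Q.erase t₀) M hQp hQM).ker q) :
    twe_at_Rel (twe_sm_TX 𝒪 (twe_Nbal N Q ∅ / t₀) q) (twe_sm_TY 𝒪 F) := by
  have ht₀p : t₀.Prime := (hQ t₀ ht₀).1
  have : NeZero (N * t₀) := ⟨mul_ne_zero (NeZero.ne N) ht₀p.ne_zero⟩
  refine twe_sri_core 𝒪 (N * t₀) (Q.erase t₀) hQp (fun t ht hd => ?_) ?_
    (twe_sri_Nbal_empty_div N Q t₀ ht₀ ht₀p.pos) hQM _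
    (fun u h => MonoidHom.mem_ker.2
      (twe_di_hom_eq_one_of_unitsMap p (Q.erase t₀) M hQp hQM u h))
    (m := p ^ twe_di_exp p (Q.erase t₀)) hp.pow
    (fun u => MonoidHom.mem_ker.2 (twe_di_hom_pow_exp_mem p (Q.erase t₀) M hQp hQM u)) q hq F
  · have htp : t.Prime := hQp t ht
    rcases (Nat.Prime.dvd_mul htp).mp hd with h | h
    · exact (hQ t (Finset.mem_of_mem_erase ht)).2 h
    · exact (Finset.mem_erase.mp ht).1 ((Nat.prime_dvd_prime_iff_eq htp ht₀p).mp h)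
  · rw [hM, ← Finset.mul_prod_erase Q (fun t => t) ht₀]
    ring

end level

/-! ### the big system -/

section big

variable (𝒪 : Type) [CommRing 𝒪] [IsDomain 𝒪] [CharZero 𝒪]
  (p : ℕ) {N : ℕ} [NeZero N] {Q Th : Finset ℕ} (hsq : Squarefree N)
  (hQ : ∀ t ∈ Q, t.Prime ∧ ¬ t ∣ N) (hTh : ∀ ℓ ∈ Th, ℓ.Prime ∧ ℓ ∣ N)
  {M : ℕ} [NeZero M] (hM : M = N * ∏ t ∈ Q, t)

include hsq hQ hTh hM in
/-- **(B)**: (C4) for the big system, `H = ker ((ℤ/M)ˣ → Δ_Q × Δ_Th)`. -/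
theorem twe_sri_big (hp : Odd p) [NeZero (twe_Nbal N Q Th)]
    (hQp : ∀ t ∈ Q, t.Prime) (hQM : ∀ t ∈ Q, t ∣ M) (hThp : ∀ t ∈ Th, t.Prime)
    (hThM : ∀ t ∈ Th, t ∣ M)
    {I : Type} (q : I → ℕ) (hq : ∀ i, ¬ q i ∣ twe_Nbal N Q Th)
    (F : twe_sm_Frame M (twe_di_pair p Q Th M hQp hQM hThp hThM).ker q) :
    twe_at_Rel (twe_sm_TX 𝒪 (twe_Nbal N Q Th) q) (twe_sm_TY 𝒪 F) := by
  have hN0 : NeZero (twe_sar_N0 N Th) := ⟨twe_sar_N0_ne_zero hTh⟩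
  have hPM : ∀ t ∈ Q ∪ Th, t ∣ M := fun t ht => by
    rcases Finset.mem_union.mp ht with h | h
    · exact hQM t h
    · exact hThM t h
  obtain ⟨m, hm, hHm⟩ := twe_di_pair_exists_odd p Q Th M hQp hQM hThp hThM hp
  exact twe_sri_core 𝒪 (twe_sar_N0 N Th) (Q ∪ Th) (fun t ht => twe_sar_prime hQ hTh ht)
    (fun t ht => twe_sar_not_dvd hQ hTh hsq ⟨t, ht⟩) (hM.trans (twe_sar_M_eq hQ hTh))
    (twe_sar_Nbal_eq hQ hTh) hPM _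
    (fun u h => twe_di_pair_mem_of_unitsMap p Q Th M hQp hQM hThp hThM u
      (fun t => h ⟨t.1, Finset.mem_union_left _ t.2⟩)
      (fun t => h ⟨t.1, Finset.mem_union_right _ t.2⟩)) hm hHm q hq F

include hsq hQ hTh hM in
/-- (C4) for OLD-AT-`t₀` of the big system, generic `H'`: level `Nbal / t₀`, `H'` containing the
units `≡ 1` at the primes of `(Q ∪ Th).erase t₀`, of odd exponent. -/
theorem twe_sri_oldBig_gen (t₀ : ↥(Q ∪ Th)) [NeZero (twe_Nbal N Q Th / (t₀ : ℕ))]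
    (hPM : ∀ t ∈ (Q ∪ Th).erase (t₀ : ℕ), t ∣ M) (H' : Subgroup (ZMod M)ˣ)
    (hH' : ∀ u : (ZMod M)ˣ,
      (∀ t : ↥((Q ∪ Th).erase (t₀ : ℕ)), ZMod.unitsMap (hPM t.1 t.2) u = 1) → u ∈ H')
    {m : ℕ} (hm : Odd m) (hHm : ∀ u : (ZMod M)ˣ, u ^ m ∈ H')
    {I : Type} (q : I → ℕ) (hq : ∀ i, ¬ q i ∣ twe_Nbal N Q Th / (t₀ : ℕ))
    (F : twe_sm_Frame M H' q) :
    twe_at_Rel (twe_sm_TX 𝒪 (twe_Nbal N Q Th / (t₀ : ℕ)) q) (twe_sm_TY 𝒪 F) := by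
  have ht₀p : (t₀ : ℕ).Prime := twe_sar_prime hQ hTh t₀.2
  have : NeZero (twe_sar_N0 N Th * (t₀ : ℕ)) :=
    ⟨mul_ne_zero (twe_sar_N0_ne_zero hTh) ht₀p.ne_zero⟩
  refine twe_sri_core 𝒪 (twe_sar_N0 N Th * (t₀ : ℕ)) ((Q ∪ Th).erase (t₀ : ℕ))
    (fun t ht => twe_sar_prime hQ hTh (Finset.mem_of_mem_erase ht)) (fun t ht hd => ?_) ?_
    (twe_sri_Nbal_div hQ hTh t₀) hPM H' hH' hm hHm q hq F
  · have htp : t.Prime := twe_sar_prime hQ hTh (Finset.mem_of_mem_erase ht)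
    rcases (Nat.Prime.dvd_mul htp).mp hd with h | h
    · exact twe_sar_not_dvd hQ hTh hsq ⟨t, Finset.mem_of_mem_erase ht⟩ h
    · exact (Finset.mem_erase.mp ht).1 ((Nat.prime_dvd_prime_iff_eq htp ht₀p).mp h)
  · rw [hM.trans (twe_sar_M_eq hQ hTh), ← Finset.mul_prod_erase (Q ∪ Th) (fun t => t) t₀.2]
    ring

include hsq hQ hTh hM in
/-- **(OBQ)**: (C4) for OLD-AT-`t₀`, `t₀ ∈ Q`, of the big system:
`H' = ker ((ℤ/M)ˣ → Δ_{Q.erase t₀} × Δ_Th)`. -/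
theorem twe_sri_oldBigQ (hp : Odd p) (t₀ : ℕ) (ht₀ : t₀ ∈ Q) [NeZero (twe_Nbal N Q Th / t₀)]
    (hQp : ∀ t ∈ Q.erase t₀, t.Prime) (hQM : ∀ t ∈ Q.erase t₀, t ∣ M)
    (hThp : ∀ t ∈ Th, t.Prime) (hThM : ∀ t ∈ Th, t ∣ M)
    {I : Type} (q : I → ℕ) (hq : ∀ i, ¬ q i ∣ twe_Nbal N Q Th / t₀)
    (F : twe_sm_Frame M (twe_di_pair p (Q.erase t₀) Th M hQp hQM hThp hThM).ker q) :
    twe_at_Rel (twe_sm_TX 𝒪 (twe_Nbal N Q Th / t₀) q) (twe_sm_TY 𝒪 F) := by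
  have hne : ∀ t ∈ Th, t ≠ t₀ := fun t ht h => (hQ t₀ ht₀).2 (h ▸ (hTh t ht).2)
  have hPM : ∀ t ∈ (Q ∪ Th).erase t₀, t ∣ M := fun t ht => by
    rcases Finset.mem_union.mp (Finset.mem_of_mem_erase ht) with h | h
    · exact hQM t (Finset.mem_erase.mpr ⟨(Finset.mem_erase.mp ht).1, h⟩)
    · exact hThM t h
  obtain ⟨m, hm, hHm⟩ := twe_di_pair_exists_odd p (Q.erase t₀) Th M hQp hQM hThp hThM hp
  exact twe_sri_oldBig_gen 𝒪 hsq hQ hTh hM ⟨t₀, Finset.mem_union_left _ ht₀⟩ hPM _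
    (fun u h => twe_di_pair_mem_of_unitsMap p (Q.erase t₀) Th M hQp hQM hThp hThM u
      (fun t => h ⟨t.1, Finset.mem_erase.mpr ⟨(Finset.mem_erase.mp t.2).1,
        Finset.mem_union_left _ (Finset.mem_of_mem_erase t.2)⟩⟩)
      (fun t => h ⟨t.1, Finset.mem_erase.mpr ⟨hne t.1 t.2, Finset.mem_union_right _ t.2⟩⟩))
    hm hHm q hq F

include hsq hQ hTh hM in
/-- **(OBTh)**: (C4) for OLD-AT-`t₀`, `t₀ ∈ Th`, of the big system: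
`H' = ker ((ℤ/M)ˣ → Δ_Q × Δ_{Th.erase t₀})`. -/
theorem twe_sri_oldBigTh (hp : Odd p) (t₀ : ℕ) (ht₀ : t₀ ∈ Th) [NeZero (twe_Nbal N Q Th / t₀)]
    (hQp : ∀ t ∈ Q, t.Prime) (hQM : ∀ t ∈ Q, t ∣ M)
    (hThp : ∀ t ∈ Th.erase t₀, t.Prime) (hThM : ∀ t ∈ Th.erase t₀, t ∣ M)
    {I : Type} (q : I → ℕ) (hq : ∀ i, ¬ q i ∣ twe_Nbal N Q Th / t₀)
    (F : twe_sm_Frame M (twe_di_pair p Q (Th.erase t₀) M hQp hQM hThp hThM).ker q) :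
    twe_at_Rel (twe_sm_TX 𝒪 (twe_Nbal N Q Th / t₀) q) (twe_sm_TY 𝒪 F) := by
  have hne : ∀ t ∈ Q, t ≠ t₀ := fun t ht h => (hQ t ht).2 (h ▸ (hTh t₀ ht₀).2)
  have hPM : ∀ t ∈ (Q ∪ Th).erase t₀, t ∣ M := fun t ht => by
    rcases Finset.mem_union.mp (Finset.mem_of_mem_erase ht) with h | h
    · exact hQM t h
    · exact hThM t (Finset.mem_erase.mpr ⟨(Finset.mem_erase.mp ht).1, h⟩)
  obtain ⟨m, hm, hHm⟩ := twe_di_pair_exists_odd p Q (Th.erase t₀) M hQp hQM hThp hThM hp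
  exact twe_sri_oldBig_gen 𝒪 hsq hQ hTh hM ⟨t₀, Finset.mem_union_right _ ht₀⟩ hPM _
    (fun u h => twe_di_pair_mem_of_unitsMap p Q (Th.erase t₀) M hQp hQM hThp hThM u
      (fun t => h ⟨t.1, Finset.mem_erase.mpr ⟨hne t.1 t.2, Finset.mem_union_left _ t.2⟩⟩)
      (fun t => h ⟨t.1, Finset.mem_erase.mpr ⟨(Finset.mem_erase.mp t.2).1,
        Finset.mem_union_right _ (Finset.mem_of_mem_erase t.2)⟩⟩))
    hm hHm q hq F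

end big

end Fermat.Agent.TW
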