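import Mathlib
import Fermat.Agent.JT3.T2.Dual
import Fermat.Agent.TW.Aut.RelGamma0

/-!
# TW / [E] E/ThetaLevel: the Hecke algebra of level `N''` maps to that of level `N' ∣ N''`
(prefix `twe_rg_`)

`twe_rg_theta` : for `N' ∣ N''`, `S' ⊆ S''` and `primes(N'') ⊆ S''` there is a ring homomorphism
`r : heckeAlgebra N'' 2 S'' →+* heckeAlgebra N' 2 S'` with `r T_ℓ = T_ℓ` at every prime
`ℓ ∤ N''`, `ℓ ∉ S''`.

Proof: by the dictionary `t2d_theta` both Hecke algebras are the `ℤ`-algebras generated by the dual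
Hecke operators `T*_ℓ` on `Hom(H₁(X₀(·)), ℤ)` (for level `N''` because no `U_q` is among the
generators), and `P = twe_rg_P : Hom(H₁(X₀(N')), ℤ) ↪ Hom(H₁(X₀(N'')), ℤ)` is injective and
Hecke equivariant, so every relation among the `T*_ℓ` at level `N''` holds at level `N'` (graph
trick `t2d_graph_hom'`).
-/

set_option autoImplicit false
set_option linter.unusedSectionVars false
set_option linter.unusedVariables false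

noncomputable section

open CongruenceSubgroup CuspForm
open scoped MatrixGroups

namespace Fermat.Agent.TW

open Fermat.Agent.JT3

variable {N' N'' : ℕ} [NeZero N'] [NeZero N'']

/-- the intertwining relation `P ∘ b = a ∘ P` -/
def twe_rg_Rel (h : N' ∣ N'') (a : Module.End ℤ (gh_H N'' →+ ℤ))
    (b : Module.End ℤ (gh_H N' →+ ℤ)) : Prop :=
  ∀ c : gh_H N' →+ ℤ, twe_rg_P ℤ h (b c) = a (twe_rg_P ℤ h c)

theorem twe_rg_rel_unique (h : N' ∣ N'') {a : Module.End ℤ (gh_H N'' →+ ℤ)}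
    {b b' : Module.End ℤ (gh_H N' →+ ℤ)} (hb : twe_rg_Rel h a b) (hb' : twe_rg_Rel h a b') :
    b = b' := by
  refine LinearMap.ext fun c => ?_
  apply twe_rg_P_injective' (A := ℤ) h
  rw [hb c, hb' c]

theorem twe_rg_rel_Ts (h : N' ∣ N'') {ℓ : ℕ} (hℓ : ℓ.Prime) (hℓN : ¬ ℓ ∣ N'') :
    twe_rg_Rel h (t2d_Ts N'' ℓ) (t2d_Ts N' ℓ) := by
  intro c
  rw [t2d_Ts_apply, t2d_Ts_apply]
  exact twe_rg_P_TH h hℓ hℓN c

theorem twe_rg_rel_algebraMap (h : N' ∣ N'') (n : ℤ) :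
    twe_rg_Rel h (algebraMap ℤ _ n) (algebraMap ℤ _ n) := by
  intro c
  rw [Module.algebraMap_end_apply, Module.algebraMap_end_apply, map_zsmul]

theorem twe_rg_rel_add (h : N' ∣ N'') {a a' : Module.End ℤ (gh_H N'' →+ ℤ)}
    {b b' : Module.End ℤ (gh_H N' →+ ℤ)} (hb : twe_rg_Rel h a b) (hb' : twe_rg_Rel h a' b') :
    twe_rg_Rel h (a + a') (b + b') := by
  intro c
  rw [LinearMap.add_apply, LinearMap.add_apply, map_add, hb c, hb' c]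

theorem twe_rg_rel_mul (h : N' ∣ N'') {a a' : Module.End ℤ (gh_H N'' →+ ℤ)}
    {b b' : Module.End ℤ (gh_H N' →+ ℤ)} (hb : twe_rg_Rel h a b) (hb' : twe_rg_Rel h a' b') :
    twe_rg_Rel h (a * a') (b * b') := by
  intro c
  rw [Module.End.mul_apply, Module.End.mul_apply, hb (b' c), hb' c]

/-- the map `ℤ[T*_ℓ]_{N''} → ℤ[T*_ℓ]_{N'}`, `T*_ℓ ↦ T*_ℓ` -/
theorem twe_rg_mu (h : N' ∣ N'') (S' S'' : Set ℕ) (hS : S' ⊆ S'') :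
    ∃ μ : ↥(Algebra.adjoin ℤ (t2d_heckeSet N'' S'')) →+* ↥(Algebra.adjoin ℤ (t2d_heckeSet N' S')),
      ∀ (ℓ : ℕ) (hℓ : ℓ.Prime) (h1 : ¬ ℓ ∣ N'') (h2 : ℓ ∉ S'') (h3 : ¬ ℓ ∣ N') (h4 : ℓ ∉ S'),
        μ ⟨t2d_Ts N'' ℓ, t2d_mem_adjoin hℓ h1 h2⟩ = ⟨t2d_Ts N' ℓ, t2d_mem_adjoin hℓ h3 h4⟩ := by
  have hgood : ∀ ℓ : {ℓ : ℕ // t2f_Good N'' S'' ℓ}, t2f_Good N' S' ℓ := fun ℓ =>
    ⟨ℓ.2.1, fun h1 => ℓ.2.2.1 (h1.trans h), fun h1 => ℓ.2.2.2 (hS h1)⟩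
  obtain ⟨μ, h1, -⟩ := t2d_graph_hom'
    (fun ℓ : {ℓ : ℕ // t2f_Good N'' S'' ℓ} => t2d_Ts N'' ℓ)
    (fun ℓ : {ℓ : ℕ // t2f_Good N'' S'' ℓ} =>
      (⟨t2d_Ts N' ℓ, t2d_mem_adjoin (hgood ℓ).1 (hgood ℓ).2.1 (hgood ℓ).2.2⟩ :
        ↥(Algebra.adjoin ℤ (t2d_heckeSet N' S'))))
    (fun a b => twe_rg_Rel h a (b : Module.End ℤ (gh_H N' →+ ℤ)))
    (fun a b b' hb hb' => Subtype.ext (twe_rg_rel_unique h hb hb'))
    (by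
      intro x hx
      induction hx using Algebra.adjoin_induction with
      | mem x hx =>
        obtain ⟨ℓ, rfl⟩ := hx
        exact twe_rg_rel_Ts h ℓ.2.1 ℓ.2.2.1
      | algebraMap n => exact twe_rg_rel_algebraMap h n
      | add x y _ _ hx hy => exact twe_rg_rel_add h hx hy
      | mul x y _ _ hx hy => exact twe_rg_rel_mul h hx hy)
    (t2d_heckeSet N'' S'')
    (by
      ext T
      constructor
      · rintro ⟨ℓ, hℓ, rfl⟩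
        exact ⟨⟨ℓ, hℓ⟩, rfl⟩
      · rintro ⟨⟨ℓ, hℓ⟩, rfl⟩
        exact ⟨ℓ, hℓ, rfl⟩)
  exact ⟨μ, fun ℓ hℓ h1' h2 h3 h4 => h1 ⟨ℓ, hℓ, h1', h2⟩ _⟩

/-- `θ : ℤ[T*_ℓ] → heckeAlgebra N 2 S` is onto when no `U_q` is among the generators -/
theorem twe_rg_theta_surjective {N : ℕ} [NeZero N] (S : Set ℕ)
    (hN : ∀ q : ℕ, q.Prime → q ∣ N → q ∈ S)
    (θ : ↥(Algebra.adjoin ℤ (t2d_heckeSet N S)) →+* ↥(heckeAlgebra N 2 S))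
    (hθ : ∀ (ℓ : ℕ) (hℓ : ℓ.Prime) (hℓN : ¬ ℓ ∣ N) (hℓS : ℓ ∉ S),
      θ ⟨t2d_Ts N ℓ, t2d_mem_adjoin hℓ hℓN hℓS⟩ = heckeAlgebra.T hℓ hℓN hℓS) :
    Function.Surjective θ := by
  have key : ∀ x ∈ Algebra.adjoin ℤ (heckeGenerators N 2 S),
      ∃ a, ((θ a : ↥(heckeAlgebra N 2 S)) : Module.End ℂ (CuspForm (Gamma0 N) 2)) = x := by
    intro x hx
    induction hx using Algebra.adjoin_induction with
    | mem x hx =>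
      rcases hx with ⟨ℓ, hℓ, hℓN, hℓS, rfl⟩ | ⟨q, hqN, hq, hqS, rfl⟩
      · exact ⟨_, congrArg Subtype.val (hθ ℓ hℓ hℓN hℓS)⟩
      · exact absurd (hN q hq hqN) hqS
    | algebraMap n =>
      refine ⟨(n : ↥(Algebra.adjoin ℤ (t2d_heckeSet N S))), ?_⟩
      rw [map_intCast, eq_intCast]
      exact SubringClass.coe_intCast (heckeAlgebra N 2 S) n
    | add x y hx hy hx' hy' =>
      obtain ⟨a, ha⟩ := hx'
      obtain ⟨b, hb⟩ := hy'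
      exact ⟨a + b, by rw [map_add, ← ha, ← hb]; rfl⟩
    | mul x y hx hy hx' hy' =>
      obtain ⟨a, ha⟩ := hx'
      obtain ⟨b, hb⟩ := hy'
      exact ⟨a * b, by rw [map_mul, ← ha, ← hb]; rfl⟩
  rintro ⟨x, hx⟩
  obtain ⟨a, ha⟩ := key x hx
  exact ⟨a, Subtype.ext ha⟩

/-- **E/ThetaLevel**: `r : heckeAlgebra N'' 2 S'' →+* heckeAlgebra N' 2 S'`, `T_ℓ ↦ T_ℓ`. -/
theorem twe_rg_theta (h : N' ∣ N'') (S' S'' : Set ℕ) (hS : S' ⊆ S'')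
    (hN : ∀ q : ℕ, q.Prime → q ∣ N'' → q ∈ S'') :
    ∃ r : ↥(heckeAlgebra N'' 2 S'') →+* ↥(heckeAlgebra N' 2 S'),
      ∀ (ℓ : ℕ) (hℓ : ℓ.Prime) (h1 : ¬ ℓ ∣ N'') (h2 : ℓ ∉ S'') (h3 : ¬ ℓ ∣ N') (h4 : ℓ ∉ S'),
        r (heckeAlgebra.T hℓ h1 h2) = heckeAlgebra.T hℓ h3 h4 := by
  obtain ⟨θ'', hθ'', hinj''⟩ := t2d_theta N'' S''
  obtain ⟨θ', hθ', -⟩ := t2d_theta N' S'
  obtain ⟨μ, hμ⟩ := twe_rg_mu h S' S'' hS
  have hsurj := twe_rg_theta_surjective S'' hN θ'' hθ''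
  let e := RingEquiv.ofBijective θ'' ⟨hinj'', hsurj⟩
  refine ⟨θ'.comp (μ.comp (e.symm : ↥(heckeAlgebra N'' 2 S'') →+* _)), ?_⟩
  intro ℓ hℓ h1 h2 h3 h4
  have he : e.symm (heckeAlgebra.T hℓ h1 h2) = ⟨t2d_Ts N'' ℓ, t2d_mem_adjoin hℓ h1 h2⟩ := by
    rw [RingEquiv.symm_apply_eq]
    exact (hθ'' ℓ hℓ h1 h2).symm
  rw [RingHom.comp_apply, RingHom.comp_apply]
  change θ' (μ (e.symm (heckeAlgebra.T hℓ h1 h2))) = _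
  rw [he, hμ ℓ hℓ h1 h2 h3 h4, hθ' ℓ hℓ h3 h4]

/-- the same for finite sets (`↑S : Set ℕ`), the shape of `twe_Level.θ'` / `twe_Big.θ''` -/
theorem twe_rg_theta_finset (h : N' ∣ N'') (S' S'' : Finset ℕ) (hS : S' ⊆ S'')
    (hN : ∀ q : ℕ, q.Prime → q ∣ N'' → q ∈ S'') :
    ∃ r : ↥(heckeAlgebra N'' 2 (↑S'' : Set ℕ)) →+* ↥(heckeAlgebra N' 2 (↑S' : Set ℕ)),
      ∀ (ℓ : ℕ) (hℓ : ℓ.Prime) (h1 : ¬ ℓ ∣ N'') (h2 : ℓ ∉ (↑S'' : Set ℕ)) (h3 : ¬ ℓ ∣ N')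
        (h4 : ℓ ∉ (↑S' : Set ℕ)),
        r (heckeAlgebra.T hℓ h1 h2) = heckeAlgebra.T hℓ h3 h4 :=
  twe_rg_theta h (↑S' : Set ℕ) (↑S'' : Set ℕ) (Finset.coe_subset.mpr hS)
    (fun q hq hqN => Finset.mem_coe.mpr (hN q hq hqN))

/-- **the eigensystem at the higher level**: `θ' := θ ∘ r` -/
theorem twe_rg_theta_lift (h : N' ∣ N'') (S' S'' : Finset ℕ) (hS : S' ⊆ S'')
    (hN : ∀ q : ℕ, q.Prime → q ∣ N'' → q ∈ S'') {k : Type*} [Semiring k]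
    (θ : ↥(heckeAlgebra N' 2 (↑S' : Set ℕ)) →+* k) :
    ∃ θ' : ↥(heckeAlgebra N'' 2 (↑S'' : Set ℕ)) →+* k,
      ∀ (ℓ : ℕ) (hℓ : ℓ.Prime) (h1 : ¬ ℓ ∣ N'') (h2 : ℓ ∉ (↑S'' : Set ℕ)) (h3 : ¬ ℓ ∣ N')
        (h4 : ℓ ∉ (↑S' : Set ℕ)),
        θ' (heckeAlgebra.T hℓ h1 h2) = θ (heckeAlgebra.T hℓ h3 h4) := by
  obtain ⟨r, hr⟩ := twe_rg_theta_finset h S' S'' hS hN
  exact ⟨θ.comp r, fun ℓ hℓ h1 h2 h3 h4 => by rw [RingHom.comp_apply, hr ℓ hℓ h1 h2 h3 h4]⟩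

end Fermat.Agent.TW

end
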