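import Mathlib
import Fermat.Agent.TW.Aut.SeamDefs
import Fermat.Agent.TW.Aut.RelGamma0Theta
import Fermat.Agent.TW.Def.HeckeGen

/-!
# Project ONE MACHINE, block [E] AUT: E/SeamRing = the RING SIDE of the E/Seam assembly
(helper26; prefix `twe_sg_`)

The cells (C1) `twe_M1F_stmt` and (C3) `twe_sm_Hom_stmt` are HYPOTHESES here.

* `twe_sg_compat_lift` : `twt_Compat` passes to an eigensystem of a higher level with the same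
  values on the common `T_ℓ`.
* `twe_sg_base_at`     : (C1) at a higher level `(N₁, S₁)`: the lifted eigensystem `θ₁`
  (`twe_rg_theta_lift`), its compatibility with `ρ̄`, and a FULL base package there.
* `twe_sg_algHom_ext`  : two `𝒪`-algebra maps out of a Hecke ring agreeing on the `T_ℓ` outside a
  finite set are equal.
* `twe_sg_smul_ext`    : the EXTENSION PRINCIPLE for module maps: an `𝒪`-linear map which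
  intertwines the `T_ℓ` outside a finite set (through `π`) intertwines everything.
* `twe_sg_hom`         : (C3) + uniqueness; `twe_sg_hom_comp` functoriality;
  `twe_sg_hom_surjective`.
-/

set_option autoImplicit false
set_option linter.unusedSectionVars false

namespace Fermat.Agent.TW

open Polynomial CuspForm IsLocalRing Fermat.Agent.JT3

noncomputable section

/-- `twt_Compat` is inherited by an eigensystem of a higher level with the same values on the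
common Hecke operators. -/
theorem twe_sg_compat_lift {k : Type} [Field k] {N N₁ : ℕ} [NeZero N] [NeZero N₁]
    {S S₁ : Finset ℕ} (hN : N ∣ N₁) (hS : S ⊆ S₁)
    (θ : heckeAlgebra N 2 (↑S : Set ℕ) →+* k) (θ₁ : heckeAlgebra N₁ 2 (↑S₁ : Set ℕ) →+* k)
    (hθ : ∀ (ℓ : ℕ) (hℓ : ℓ.Prime) (h1 : ¬ ℓ ∣ N₁) (h2 : ℓ ∉ (↑S₁ : Set ℕ)) (h3 : ¬ ℓ ∣ N)
      (h4 : ℓ ∉ (↑S : Set ℕ)), θ₁ (heckeAlgebra.T hℓ h1 h2) = θ (heckeAlgebra.T hℓ h3 h4))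
    (ρbar : ResidualGaloisRep k) (hc : twt_Compat θ ρbar) : twt_Compat θ₁ ρbar := by
  intro ℓ hℓ h1 h2 A hA σ hσ
  have h3 : ¬ ℓ ∣ N := fun h => h1 (h.trans hN)
  have h4 : ℓ ∉ (↑S : Set ℕ) := fun h => h2 (Finset.coe_subset.mpr hS h)
  rw [hθ ℓ hℓ h1 h2 h3 h4]
  exact hc ℓ hℓ h3 h4 A hA σ hσ

/-- **(C1) at a higher level**: the lifted eigensystem, its compatibility, a FULL base package. -/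
theorem twe_sg_base_at (hM1F : twe_M1F_stmt)
    (p : ℕ) [Fact p.Prime] (hp5 : 5 ≤ p)
    (𝒪 : Type) [CommRing 𝒪] [IsDomain 𝒪] [IsDiscreteValuationRing 𝒪]
    [IsAdicComplete (maximalIdeal 𝒪) 𝒪] [Finite (ResidueField 𝒪)] [CharZero 𝒪]
    (hp𝒪 : (p : 𝒪) ∈ maximalIdeal 𝒪)
    (N : ℕ) [NeZero N] (S : Finset ℕ)
    (θ : heckeAlgebra N 2 (↑S : Set ℕ) →+* ResidueField 𝒪)
    (ρbar : ResidualGaloisRep (ResidueField 𝒪))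
    (hc : twt_Compat θ ρbar) (hirr : ρbar.IsAbsolutelyIrreducible)
    (N₁ : ℕ) [NeZero N₁] (hNN₁ : N ∣ N₁) (hpN₁ : ¬ p ∣ N₁)
    (S₁ : Finset ℕ) (hSS₁ : S ⊆ S₁) (hpS₁ : p ∈ S₁)
    (hN₁S₁ : ∀ ℓ : ℕ, ℓ.Prime → ℓ ∣ N₁ → ℓ ∈ S₁) :
    ∃ θ₁ : heckeAlgebra N₁ 2 (↑S₁ : Set ℕ) →+* ResidueField 𝒪,
      (∀ (ℓ : ℕ) (hℓ : ℓ.Prime) (h1 : ¬ ℓ ∣ N₁) (h2 : ℓ ∉ (↑S₁ : Set ℕ)) (h3 : ¬ ℓ ∣ N)
        (h4 : ℓ ∉ (↑S : Set ℕ)), θ₁ (heckeAlgebra.T hℓ h1 h2) = θ (heckeAlgebra.T hℓ h3 h4)) ∧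
      twt_Compat θ₁ ρbar ∧ ∃ B₁ : twe_Base 𝒪 N₁ S₁ θ₁, B₁.IsFull := by
  obtain ⟨θ₁, hθ₁⟩ := twe_rg_theta_lift hNN₁ S S₁ hSS₁ hN₁S₁ θ
  have hc₁ : twt_Compat θ₁ ρbar := twe_sg_compat_lift hNN₁ hSS₁ θ θ₁ hθ₁ ρbar hc
  exact ⟨θ₁, hθ₁, hc₁, hM1F p hp5 𝒪 hp𝒪 N₁ hpN₁ S₁ hpS₁ hN₁S₁ θ₁ ρbar hc₁ hirr⟩

section ext

variable {𝒪 : Type} [CommRing 𝒪] [IsDomain 𝒪] [IsDiscreteValuationRing 𝒪]
  [IsAdicComplete (maximalIdeal 𝒪) 𝒪]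
  {N : ℕ} [NeZero N] {S : Finset ℕ}
  {θ : heckeAlgebra N 2 (↑S : Set ℕ) →+* ResidueField 𝒪}
  {T : Type} [CommRing T] [IsLocalRing T] [IsNoetherianRing T]
  [IsAdicComplete (maximalIdeal T) T] [Algebra 𝒪 T] [IsLocalHom (algebraMap 𝒪 T)]
  [Module.Finite 𝒪 T] [Module.Free 𝒪 T]

/-- two `𝒪`-algebra maps out of a Hecke ring which agree on the `T_ℓ` outside a finite set `S'`
are equal. -/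
theorem twe_sg_algHom_ext (H : HeckeGaloisRepDatum N (↑S : Set ℕ) 𝒪 θ T)
    (hNS : ∀ ℓ : ℕ, ℓ.Prime → ℓ ∣ N → ℓ ∈ S) (S' : Finset ℕ)
    {R : Type*} [Semiring R] [Algebra 𝒪 R] (f g : T →ₐ[𝒪] R)
    (h : ∀ (ℓ : ℕ) (hℓ : ℓ.Prime) (hℓN : ¬ ℓ ∣ N) (hℓS : ℓ ∉ (↑S : Set ℕ)), ℓ ∉ S' →
      f (H.π (heckeAlgebra.T hℓ hℓN hℓS)) = g (H.π (heckeAlgebra.T hℓ hℓN hℓS))) : f = g := by
  have htop : AlgHom.equalizer f g = ⊤ :=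
    twc_hg_top_of_T_mem_away H hNS S' (AlgHom.equalizer f g)
      fun ℓ hℓ hℓN hℓS hℓS' => h ℓ hℓ hℓN hℓS hℓS'
  refine AlgHom.ext fun x => ?_
  have hx : x ∈ AlgHom.equalizer f g := by rw [htop]; exact Algebra.mem_top
  exact hx

/-- **the extension principle**: an `𝒪`-linear map `c : M → M'` from a `T`-module to a
`T₂`-module which intertwines the `T_ℓ` outside a finite set `S'` through `π : T → T₂`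
intertwines the whole of `T`. -/
theorem twe_sg_smul_ext (H : HeckeGaloisRepDatum N (↑S : Set ℕ) 𝒪 θ T)
    (hNS : ∀ ℓ : ℕ, ℓ.Prime → ℓ ∣ N → ℓ ∈ S) (S' : Finset ℕ)
    {T₂ : Type*} [CommSemiring T₂] [Algebra 𝒪 T₂] (π : T →ₐ[𝒪] T₂)
    {M M' : Type*} [AddCommGroup M] [Module 𝒪 M] [Module T M] [IsScalarTower 𝒪 T M]
    [AddCommGroup M'] [Module 𝒪 M'] [Module T₂ M'] [IsScalarTower 𝒪 T₂ M']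
    (c : M →ₗ[𝒪] M')
    (h : ∀ (ℓ : ℕ) (hℓ : ℓ.Prime) (hℓN : ¬ ℓ ∣ N) (hℓS : ℓ ∉ (↑S : Set ℕ)), ℓ ∉ S' →
      ∀ m : M, c (H.π (heckeAlgebra.T hℓ hℓN hℓS) • m) =
        π (H.π (heckeAlgebra.T hℓ hℓN hℓS)) • c m)
    (x : T) (m : M) : c (x • m) = π x • c m := by
  let E : Subalgebra 𝒪 T :=
    { carrier := {x | ∀ m : M, c (x • m) = π x • c m}
      mul_mem' := fun {a b} ha hb m => by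
        rw [mul_smul, ha, hb, map_mul, mul_smul]
      add_mem' := fun {a b} ha hb m => by
        rw [add_smul, map_add, ha, hb, map_add, add_smul]
      algebraMap_mem' := fun r m => by
        rw [algebraMap_smul, map_smul, AlgHom.commutes, algebraMap_smul] }
  have htop : E = ⊤ :=
    twc_hg_top_of_T_mem_away H hNS S' E fun ℓ hℓ hℓN hℓS hℓS' => h ℓ hℓ hℓN hℓS hℓS'
  have hx : x ∈ E := by rw [htop]; exact Algebra.mem_top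
  exact hx m

/-- the same for an ENDOMORPHISM-valued action: an `𝒪`-algebra map `act : T → End_𝒪 M'` and an
`𝒪`-linear `c : M → M'` with `c (T_ℓ • m) = act (T_ℓ) (c m)` outside `S'`. -/
theorem twe_sg_act_ext (H : HeckeGaloisRepDatum N (↑S : Set ℕ) 𝒪 θ T)
    (hNS : ∀ ℓ : ℕ, ℓ.Prime → ℓ ∣ N → ℓ ∈ S) (S' : Finset ℕ)
    {M M' : Type*} [AddCommGroup M] [Module 𝒪 M] [Module T M] [IsScalarTower 𝒪 T M]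
    [AddCommGroup M'] [Module 𝒪 M'] (act : T →ₐ[𝒪] Module.End 𝒪 M')
    (c : M →ₗ[𝒪] M')
    (h : ∀ (ℓ : ℕ) (hℓ : ℓ.Prime) (hℓN : ¬ ℓ ∣ N) (hℓS : ℓ ∉ (↑S : Set ℕ)), ℓ ∉ S' →
      ∀ m : M, c (H.π (heckeAlgebra.T hℓ hℓN hℓS) • m) =
        act (H.π (heckeAlgebra.T hℓ hℓN hℓS)) (c m))
    (x : T) (m : M) : c (x • m) = act x (c m) := by
  let E : Subalgebra 𝒪 T :=
    { carrier := {x | ∀ m : M, c (x • m) = act x (c m)}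
      mul_mem' := fun {a b} ha hb m => by
        rw [mul_smul, ha, hb, map_mul, Module.End.mul_apply]
      add_mem' := fun {a b} ha hb m => by
        rw [add_smul, map_add, ha, hb, map_add, LinearMap.add_apply]
      algebraMap_mem' := fun r m => by
        rw [algebraMap_smul, map_smul, AlgHom.commutes, Module.algebraMap_end_apply] }
  have htop : E = ⊤ :=
    twc_hg_top_of_T_mem_away H hNS S' E fun ℓ hℓ hℓN hℓS hℓS' => h ℓ hℓ hℓN hℓS hℓS'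
  have hx : x ∈ E := by rw [htop]; exact Algebra.mem_top
  exact hx m

end ext

section hom

variable {𝒪 : Type} [CommRing 𝒪] [IsDomain 𝒪] [IsDiscreteValuationRing 𝒪]
  [IsAdicComplete (maximalIdeal 𝒪) 𝒪] [CharZero 𝒪]

/-- **(C3) with uniqueness**: the transition map between two base packages. -/
theorem twe_sg_hom (hHom : twe_sm_Hom_stmt)
    (N₁ N₂ : ℕ) [NeZero N₁] [NeZero N₂] (S₁ S₂ : Finset ℕ)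
    (θ₁ : heckeAlgebra N₁ 2 (↑S₁ : Set ℕ) →+* ResidueField 𝒪)
    (θ₂ : heckeAlgebra N₂ 2 (↑S₂ : Set ℕ) →+* ResidueField 𝒪)
    (B₁ : twe_Base 𝒪 N₁ S₁ θ₁) (B₂ : twe_Base 𝒪 N₂ S₂ θ₂)
    (hfull : B₁.IsFull) (hN : N₂ ∣ N₁) (hS : S₂ ⊆ S₁)
    (hN₁S₁ : ∀ ℓ : ℕ, ℓ.Prime → ℓ ∣ N₁ → ℓ ∈ S₁)
    (hθ : ∀ (ℓ : ℕ) (hℓ : ℓ.Prime) (h1 : ¬ ℓ ∣ N₁) (h2 : ℓ ∉ (↑S₁ : Set ℕ)) (h3 : ¬ ℓ ∣ N₂)
      (h4 : ℓ ∉ (↑S₂ : Set ℕ)), θ₁ (heckeAlgebra.T hℓ h1 h2) = θ₂ (heckeAlgebra.T hℓ h3 h4)) :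
    ∃! π : B₁.T →ₐ[𝒪] B₂.T,
      ∀ (ℓ : ℕ) (hℓ : ℓ.Prime) (h1 : ¬ ℓ ∣ N₁) (h2 : ℓ ∉ (↑S₁ : Set ℕ)) (h3 : ¬ ℓ ∣ N₂)
        (h4 : ℓ ∉ (↑S₂ : Set ℕ)),
        π (B₁.H.π (heckeAlgebra.T hℓ h1 h2)) = B₂.H.π (heckeAlgebra.T hℓ h3 h4) := by
  obtain ⟨π, hπ⟩ := hHom 𝒪 N₁ N₂ S₁ S₂ θ₁ θ₂ B₁ B₂ hfull hN hS hN₁S₁ hθ
  refine ⟨π, hπ, fun π' hπ' => ?_⟩
  refine twe_sg_algHom_ext B₁.H hN₁S₁ ∅ π' π fun ℓ hℓ h1 h2 _ => ?_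
  have h3 : ¬ ℓ ∣ N₂ := fun h => h1 (h.trans hN)
  have h4 : ℓ ∉ (↑S₂ : Set ℕ) := fun h => h2 (Finset.coe_subset.mpr hS h)
  rw [hπ' ℓ hℓ h1 h2 h3 h4, hπ ℓ hℓ h1 h2 h3 h4]

/-- a transition map is surjective as soon as the target level has no `U_q`. -/
theorem twe_sg_hom_surjective
    {N₁ N₂ : ℕ} [NeZero N₁] [NeZero N₂] {S₁ S₂ : Finset ℕ}
    {θ₁ : heckeAlgebra N₁ 2 (↑S₁ : Set ℕ) →+* ResidueField 𝒪}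
    {θ₂ : heckeAlgebra N₂ 2 (↑S₂ : Set ℕ) →+* ResidueField 𝒪}
    (B₁ : twe_Base 𝒪 N₁ S₁ θ₁) (B₂ : twe_Base 𝒪 N₂ S₂ θ₂)
    (hN₂S₂ : ∀ ℓ : ℕ, ℓ.Prime → ℓ ∣ N₂ → ℓ ∈ S₂)
    (hN₁S₁ : ∀ ℓ : ℕ, ℓ.Prime → ℓ ∣ N₁ → ℓ ∈ S₁)
    (π : B₁.T →ₐ[𝒪] B₂.T)
    (hπ : ∀ (ℓ : ℕ) (hℓ : ℓ.Prime) (h1 : ¬ ℓ ∣ N₁) (h2 : ℓ ∉ (↑S₁ : Set ℕ)) (h3 : ¬ ℓ ∣ N₂)
        (h4 : ℓ ∉ (↑S₂ : Set ℕ)),
        π (B₁.H.π (heckeAlgebra.T hℓ h1 h2)) = B₂.H.π (heckeAlgebra.T hℓ h3 h4)) :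
    Function.Surjective π := by
  refine twc_hg_surjective B₁.H B₂.H hN₂S₂ π S₁ fun ℓ hℓ h3 h4 hℓS₁ => ?_
  have h1 : ¬ ℓ ∣ N₁ := fun h => hℓS₁ (hN₁S₁ ℓ hℓ h)
  have h2 : ℓ ∉ (↑S₁ : Set ℕ) := fun h => hℓS₁ (Finset.mem_coe.mp h)
  exact ⟨h1, h2, hπ ℓ hℓ h1 h2 h3 h4⟩

/-- **functoriality**: transition maps compose (`π₁₃ = π₂₃ ∘ π₁₂`), by uniqueness. -/
theorem twe_sg_hom_comp
    {N₁ N₂ N₃ : ℕ} [NeZero N₁] [NeZero N₂] [NeZero N₃] {S₁ S₂ S₃ : Finset ℕ}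
    {θ₁ : heckeAlgebra N₁ 2 (↑S₁ : Set ℕ) →+* ResidueField 𝒪}
    {θ₂ : heckeAlgebra N₂ 2 (↑S₂ : Set ℕ) →+* ResidueField 𝒪}
    {θ₃ : heckeAlgebra N₃ 2 (↑S₃ : Set ℕ) →+* ResidueField 𝒪}
    (B₁ : twe_Base 𝒪 N₁ S₁ θ₁) (B₂ : twe_Base 𝒪 N₂ S₂ θ₂) (B₃ : twe_Base 𝒪 N₃ S₃ θ₃)
    (hN₁₂ : N₂ ∣ N₁) (hS₁₂ : S₂ ⊆ S₁)
    (hN₁S₁ : ∀ ℓ : ℕ, ℓ.Prime → ℓ ∣ N₁ → ℓ ∈ S₁)
    (π₁₂ : B₁.T →ₐ[𝒪] B₂.T) (π₂₃ : B₂.T →ₐ[𝒪] B₃.T) (π₁₃ : B₁.T →ₐ[𝒪] B₃.T)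
    (h₁₂ : ∀ (ℓ : ℕ) (hℓ : ℓ.Prime) (h1 : ¬ ℓ ∣ N₁) (h2 : ℓ ∉ (↑S₁ : Set ℕ)) (h3 : ¬ ℓ ∣ N₂)
        (h4 : ℓ ∉ (↑S₂ : Set ℕ)),
        π₁₂ (B₁.H.π (heckeAlgebra.T hℓ h1 h2)) = B₂.H.π (heckeAlgebra.T hℓ h3 h4))
    (h₂₃ : ∀ (ℓ : ℕ) (hℓ : ℓ.Prime) (h1 : ¬ ℓ ∣ N₂) (h2 : ℓ ∉ (↑S₂ : Set ℕ)) (h3 : ¬ ℓ ∣ N₃)
        (h4 : ℓ ∉ (↑S₃ : Set ℕ)),
        π₂₃ (B₂.H.π (heckeAlgebra.T hℓ h1 h2)) = B₃.H.π (heckeAlgebra.T hℓ h3 h4))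
    (h₁₃ : ∀ (ℓ : ℕ) (hℓ : ℓ.Prime) (h1 : ¬ ℓ ∣ N₁) (h2 : ℓ ∉ (↑S₁ : Set ℕ)) (h3 : ¬ ℓ ∣ N₃)
        (h4 : ℓ ∉ (↑S₃ : Set ℕ)),
        π₁₃ (B₁.H.π (heckeAlgebra.T hℓ h1 h2)) = B₃.H.π (heckeAlgebra.T hℓ h3 h4))
    (hN₂₃ : N₃ ∣ N₂) (hS₂₃ : S₃ ⊆ S₂) :
    π₁₃ = π₂₃.comp π₁₂ := by
  refine twe_sg_algHom_ext B₁.H hN₁S₁ ∅ π₁₃ (π₂₃.comp π₁₂) fun ℓ hℓ h1 h2 _ => ?_
  have h3 : ¬ ℓ ∣ N₂ := fun h => h1 (h.trans hN₁₂)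
  have h4 : ℓ ∉ (↑S₂ : Set ℕ) := fun h => h2 (Finset.coe_subset.mpr hS₁₂ h)
  have h5 : ¬ ℓ ∣ N₃ := fun h => h3 (h.trans hN₂₃)
  have h6 : ℓ ∉ (↑S₃ : Set ℕ) := fun h => h4 (Finset.coe_subset.mpr hS₂₃ h)
  rw [AlgHom.comp_apply, h₁₂ ℓ hℓ h1 h2 h3 h4, h₂₃ ℓ hℓ h3 h4 h5 h6, h₁₃ ℓ hℓ h1 h2 h5 h6]

end hom

end

end Fermat.Agent.TW
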