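import Mathlib
import Fermat.Agent.TW.Aut.SeamLevelD
import Fermat.Agent.TW.Aut.SeamHom
import Fermat.Agent.TW.Aut.SeamRing
import Fermat.Agent.TW.Aut.SeamRelInst
import Fermat.Agent.TW.Aut.DeltaIso3
import Fermat.Agent.TW.Aut.NonEis
import Fermat.Agent.S56.Asm.Fin

/-!
# ONE MACHINE / block [E] AUT, E/Seam: the level data for the concrete Taylor–Wiles data (helper14)

Prefix `twe_sli_`.  `twe_sli_data` = `twe_sld_data` (`SeamLevelD.lean`) with every side condition of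
the unipotent level discharged: inputs are the TW data `(B full, Q)`, the base package `B'` (full) of
the balanced level with its eigensystem `θ'`, a Hecke frame `F'` on
`H' = ker ((ℤ/M)ˣ → Δ_Q)`, `M = N ∏_{t ∈ Q} t`, and lifts `a'` of `θ'`.

* `twe_sli_hQ`, `twe_sli_hNS'`, `twe_sli_not_dvd_M` : arithmetic of `Q`, `twe_Nbal N Q ∅`, `M`;
* `twe_sli_pi0`   : the transition map `B'.T → B.T` (choice from `twe_sh_main`);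
* `twe_sli_i0`    : a non-Eisenstein good prime (choice from `twe_ne_main_eis`);
* `twe_sli_data`  : the level data;  `twe_sli_data_P / _psi / _rho / _B'` (all `rfl`).
-/

set_option autoImplicit false
set_option linter.unusedSectionVars false
set_option linter.unusedVariables false
set_option linter.style.haveILetI false
set_option synthInstance.maxHeartbeats 400000
set_option maxHeartbeats 1000000

noncomputable section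

namespace Fermat.Agent.TW

open IsLocalRing Polynomial CuspForm Fermat.Agent.JT3 Fermat.Agent.LR CongruenceSubgroup
open Fermat.Agent.S56
open scoped MatrixGroups

section arith

/-- the Taylor–Wiles primes are primes not dividing `N`. -/
theorem twe_sli_hQ {k : Type} [Field k] {N : ℕ} [NeZero N] {S : Finset ℕ}
    {θ : heckeAlgebra N 2 (↑S : Set ℕ) →+* k} {p : ℕ} {Q : Finset ℕ}
    (hNS : ∀ ℓ : ℕ, ℓ.Prime → ℓ ∣ N → ℓ ∈ S) (hQS : ∀ t ∈ Q, t ∉ S) (hTW : twe_IsTWSet θ p Q) :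
    ∀ t ∈ Q, t.Prime ∧ ¬ t ∣ N :=
  fun t ht => ⟨(hTW t ht).1, fun h => hQS t ht (hNS t (hTW t ht).1 h)⟩

/-- the primes of the balanced level lie in `S ∪ Q`. -/
theorem twe_sli_hNS' {N : ℕ} {S Q : Finset ℕ} (hNS : ∀ ℓ : ℕ, ℓ.Prime → ℓ ∣ N → ℓ ∈ S)
    (hQp : ∀ t ∈ Q, t.Prime) :
    ∀ ℓ : ℕ, ℓ.Prime → ℓ ∣ twe_Nbal N Q ∅ → ℓ ∈ S ∪ Q := by
  intro ℓ hℓ hA
  unfold twe_Nbal at hA
  rw [Finset.prod_empty, mul_one] at hA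
  rcases (Nat.Prime.dvd_mul hℓ).1 hA with h1 | h1
  · exact Finset.mem_union_left _ (hNS ℓ hℓ h1)
  · obtain ⟨t, ht, hdvd⟩ := (Prime.dvd_finsetProd_iff (Nat.Prime.prime hℓ) _).1 h1
    have h2 : ℓ ∣ t := Nat.Prime.dvd_of_dvd_pow hℓ hdvd
    have h3 : ℓ = t := (Nat.prime_dvd_prime_iff_eq hℓ (hQp t ht)).1 h2
    rw [h3]
    exact Finset.mem_union_right _ ht

theorem twe_sli_dvd_Nbal (N : ℕ) (Q : Finset ℕ) : N ∣ twe_Nbal N Q ∅ := by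
  unfold twe_Nbal
  exact Dvd.intro _ (by rw [mul_assoc])

/-- `p` does not divide `M = N ∏_{t ∈ Q} t`. -/
theorem twe_sli_not_dvd_M {k : Type} [Field k] {N : ℕ} [NeZero N] {S : Finset ℕ}
    {θ : heckeAlgebra N 2 (↑S : Set ℕ) →+* k} {p : ℕ} (hp : p.Prime) {Q : Finset ℕ}
    (hpN : ¬ p ∣ N) (hTW : twe_IsTWSet θ p Q) {M : ℕ} (hM : M = N * ∏ t ∈ Q, t) : ¬ p ∣ M := by
  intro h
  rw [hM] at h
  rcases (Nat.Prime.dvd_mul hp).1 h with h1 | h1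
  · exact hpN h1
  · obtain ⟨t, ht, hdvd⟩ := (Prime.dvd_finsetProd_iff (Nat.Prime.prime hp) _).1 h1
    have h3 : p = t := (Nat.prime_dvd_prime_iff_eq hp (hTW t ht).1).1 hdvd
    have h4 := (hTW t ht).2.1
    rw [← h3, Nat.mod_self] at h4
    exact zero_ne_one h4

theorem twe_sli_dvd_M {N : ℕ} {Q : Finset ℕ} {M : ℕ} (hM : M = N * ∏ t ∈ Q, t) :
    ∀ t ∈ Q, t ∣ M := by
  intro t ht
  rw [hM]
  exact Dvd.dvd.mul_left (Finset.dvd_prod_of_mem _ ht) _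

end arith

section data

variable {p : ℕ} [Fact p.Prime]
  {𝒪 : Type} [CommRing 𝒪] [IsDomain 𝒪] [IsDiscreteValuationRing 𝒪]
  [IsAdicComplete (maximalIdeal 𝒪) 𝒪] [Finite (ResidueField 𝒪)] [CharZero 𝒪]
  {N : ℕ} [NeZero N] {S : Finset ℕ} {θ : heckeAlgebra N 2 (↑S : Set ℕ) →+* ResidueField 𝒪}

/-- the transition map `B'.T → B.T` (choice from `twe_sh_main`). -/
theorem twe_sli_exists_pi0 (hNS : ∀ ℓ : ℕ, ℓ.Prime → ℓ ∣ N → ℓ ∈ S)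
    (B : twe_Base 𝒪 N S θ) (Q : Finset ℕ) [NeZero (twe_Nbal N Q ∅)] (hQp : ∀ t ∈ Q, t.Prime)
    (θ' : heckeAlgebra (twe_Nbal N Q ∅) 2 (↑(S ∪ Q) : Set ℕ) →+* ResidueField 𝒪)
    (θ'_eq : ∀ (ℓ : ℕ) (hℓ : ℓ.Prime) (h1 : ¬ ℓ ∣ twe_Nbal N Q ∅) (h2 : ℓ ∉ (↑(S ∪ Q) : Set ℕ))
      (h3 : ¬ ℓ ∣ N) (h4 : ℓ ∉ (↑S : Set ℕ)),
      θ' (heckeAlgebra.T hℓ h1 h2) = θ (heckeAlgebra.T hℓ h3 h4))
    (B' : twe_Base 𝒪 (twe_Nbal N Q ∅) (S ∪ Q) θ') (hfull' : B'.IsFull) :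
    ∃ π0 : B'.T →ₐ[𝒪] B.T,
      ∀ (ℓ : ℕ) (hℓ : ℓ.Prime) (h1 : ¬ ℓ ∣ twe_Nbal N Q ∅) (h2 : ℓ ∉ (↑(S ∪ Q) : Set ℕ))
        (h3 : ¬ ℓ ∣ N) (h4 : ℓ ∉ (↑S : Set ℕ)),
        π0 (B'.H.π (heckeAlgebra.T hℓ h1 h2)) = B.H.π (heckeAlgebra.T hℓ h3 h4) :=
  twe_sh_main 𝒪 (twe_Nbal N Q ∅) N (S ∪ Q) S θ' θ B' B hfull' (twe_sli_dvd_Nbal N Q)
    Finset.subset_union_left (twe_sli_hNS' hNS hQp) θ'_eq

/-- a non-Eisenstein good prime of the balanced level. -/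
theorem twe_sli_exists_i0 (hp5 : 5 ≤ p) (hp𝒪 : (p : 𝒪) ∈ maximalIdeal 𝒪)
    (ρbar : ResidualGaloisRep (ResidueField 𝒪)) (hcompat : twt_Compat θ ρbar)
    (hirr : ρbar.IsAbsolutelyIrreducible)
    (Q : Finset ℕ) [NeZero (twe_Nbal N Q ∅)]
    (θ' : heckeAlgebra (twe_Nbal N Q ∅) 2 (↑(S ∪ Q) : Set ℕ) →+* ResidueField 𝒪)
    (θ'_eq : ∀ (ℓ : ℕ) (hℓ : ℓ.Prime) (h1 : ¬ ℓ ∣ twe_Nbal N Q ∅) (h2 : ℓ ∉ (↑(S ∪ Q) : Set ℕ))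
      (h3 : ¬ ℓ ∣ N) (h4 : ℓ ∉ (↑S : Set ℕ)),
      θ' (heckeAlgebra.T hℓ h1 h2) = θ (heckeAlgebra.T hℓ h3 h4))
    (a : twe_sm_Idx (twe_Nbal N Q ∅) (S ∪ Q) → 𝒪) (ha : twe_sm_IsLift θ' a) :
    ∃ i₀ : twe_sm_Idx (twe_Nbal N Q ∅) (S ∪ Q),
      residue 𝒪 (a i₀) ≠ ((i₀.1 + 1 : ℕ) : ResidueField 𝒪) := by
  haveI : CharP (ResidueField 𝒪) p := s56a_charP p hp𝒪
  have hp : p.Prime := Fact.out
  have hp2 : p ≠ 2 := by omega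
  have hc' : twt_Compat θ' ρbar := twe_sg_compat_lift (twe_sli_dvd_Nbal N Q)
    Finset.subset_union_left θ θ' θ'_eq ρbar hcompat
  obtain ⟨ℓ, hℓ, hℓN, hℓS, -, -, h1, h2⟩ := twe_ne_main_eis (p := p) hp2 θ' ρbar hc' hirr p hp.pos
    (dvd_refl p) ∅
  refine ⟨⟨ℓ, hℓ, hℓN, hℓS⟩, ?_⟩
  rw [ha ⟨ℓ, hℓ, hℓN, hℓS⟩]
  intro h3
  apply h2
  rw [h3]
  push_cast
  rfl

variable (hp5 : 5 ≤ p) (hp𝒪 : (p : 𝒪) ∈ maximalIdeal 𝒪) (hsq : Squarefree N)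
    (hpN : ¬ p ∣ N) (hpS : p ∈ S) (hNS : ∀ ℓ : ℕ, ℓ.Prime → ℓ ∣ N → ℓ ∈ S)
    (ρbar : ResidualGaloisRep (ResidueField 𝒪)) (hcompat : twt_Compat θ ρbar)
    (hirr : ρbar.IsAbsolutelyIrreducible)
    (B : twe_Base 𝒪 N S θ) (hfull : B.IsFull)
    (Q : Finset ℕ) [NeZero (twe_Nbal N Q ∅)] (hQS : ∀ t ∈ Q, t ∉ S) (hTW : twe_IsTWSet θ p Q)
    (θ' : heckeAlgebra (twe_Nbal N Q ∅) 2 (↑(S ∪ Q) : Set ℕ) →+* ResidueField 𝒪)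
    (θ'_eq : ∀ (ℓ : ℕ) (hℓ : ℓ.Prime) (h1 : ¬ ℓ ∣ twe_Nbal N Q ∅) (h2 : ℓ ∉ (↑(S ∪ Q) : Set ℕ))
      (h3 : ¬ ℓ ∣ N) (h4 : ℓ ∉ (↑S : Set ℕ)),
      θ' (heckeAlgebra.T hℓ h1 h2) = θ (heckeAlgebra.T hℓ h3 h4))
    (B' : twe_Base 𝒪 (twe_Nbal N Q ∅) (S ∪ Q) θ') (hfull' : B'.IsFull)
    {M : ℕ} [NeZero M] (hM : M = N * ∏ t ∈ Q, t)
    (hQp : ∀ t ∈ Q, t.Prime) (hQM : ∀ t ∈ Q, t ∣ M)
    (F : twe_sm_Frame M (twe_di_hom p Q M hQp hQM).ker (twe_sm_q (twe_Nbal N Q ∅) (S ∪ Q)))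
    (a : twe_sm_Idx (twe_Nbal N Q ∅) (S ∪ Q) → 𝒪) (ha : twe_sm_IsLift θ' a)

/-- the chosen transition map `B'.T → B.T`. -/
def twe_sli_pi0 : B'.T →ₐ[𝒪] B.T :=
  (twe_sli_exists_pi0 hNS B Q hQp θ' θ'_eq B' hfull').choose

theorem twe_sli_pi0_T (ℓ : ℕ) (hℓ : ℓ.Prime) (h1 : ¬ ℓ ∣ twe_Nbal N Q ∅)
    (h2 : ℓ ∉ (↑(S ∪ Q) : Set ℕ)) (h3 : ¬ ℓ ∣ N) (h4 : ℓ ∉ (↑S : Set ℕ)) :
    twe_sli_pi0 hNS B Q θ' θ'_eq B' hfull' hQp (B'.H.π (heckeAlgebra.T hℓ h1 h2)) =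
      B.H.π (heckeAlgebra.T hℓ h3 h4) :=
  (twe_sli_exists_pi0 hNS B Q hQp θ' θ'_eq B' hfull').choose_spec ℓ hℓ h1 h2 h3 h4

/-- the chosen non-Eisenstein good prime. -/
def twe_sli_i0 : twe_sm_Idx (twe_Nbal N Q ∅) (S ∪ Q) :=
  (twe_sli_exists_i0 hp5 hp𝒪 ρbar hcompat hirr Q θ' θ'_eq a ha).choose

theorem twe_sli_i0_ne :
    residue 𝒪 (a (twe_sli_i0 hp5 hp𝒪 ρbar hcompat hirr Q θ' θ'_eq a ha)) ≠
      (((twe_sli_i0 hp5 hp𝒪 ρbar hcompat hirr Q θ' θ'_eq a ha).1 + 1 : ℕ) : ResidueField 𝒪) :=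
  (twe_sli_exists_i0 hp5 hp𝒪 ρbar hcompat hirr Q θ' θ'_eq a ha).choose_spec

/-- **the level data for the concrete Taylor–Wiles data.** -/
def twe_sli_data : twe_mk_LevelData B p Q :=
  twe_sld_data hp5 hp𝒪 hsq hpN hpS hNS ρbar hcompat hirr B hfull Q hQS hTW θ' θ'_eq B' hfull'
    (twe_sli_hNS' hNS hQp) (twe_sli_pi0 hNS B Q θ' θ'_eq B' hfull' hQp)
    (twe_sli_pi0_T hNS B Q θ' θ'_eq B' hfull' hQp) hM F a ha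
    (twe_sri_level 𝒪 p (twe_sli_hQ hNS hQS hTW) hM
      ((Fact.out : p.Prime).odd_of_ne_two (by omega)) hQp hQM
      (twe_sm_q (twe_Nbal N Q ∅) (S ∪ Q)) (fun i => i.2.2.1) F)
    (twe_di_d1 p Q M hQp hQM) (twe_di_d1_surjective p Q M hQp hQM)
    (twe_di_d1_eq_one_iff p Q M hQp hQM)
    (twe_di_neg_one_mem_GamH1 p Q M hQp hQM ((Fact.out : p.Prime).odd_of_ne_two (by omega)))
    (twe_di_hom_parEll' p Q M hQp hQM Fact.out hp5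
      (twe_sli_not_dvd_M Fact.out hpN hTW hM))
    (twe_di_delta_pow_exp p Q)
    (twe_sli_i0 hp5 hp𝒪 ρbar hcompat hirr Q θ' θ'_eq a ha)
    (twe_sli_i0_ne hp5 hp𝒪 ρbar hcompat hirr Q θ' θ'_eq a ha)

/-- shorthand. -/
local notation "𝔇" => twe_sli_data hp5 hp𝒪 hsq hpN hpS hNS ρbar hcompat hirr B hfull Q hQS hTW θ'
  θ'_eq B' hfull' hM hQp hQM F a ha

theorem twe_sli_data_theta' : (𝔇).θ' = θ' := rfl

theorem twe_sli_data_B' : (𝔇).B' = B' := rfl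

theorem twe_sli_data_pi0 : (𝔇).π0 = twe_sli_pi0 hNS B Q θ' θ'_eq B' hfull' hQp := rfl

theorem twe_sli_data_P : (𝔇).P = ↥(twe_pr_prim (twe_sm_TY 𝒪 F) a) := rfl

theorem twe_sli_data_psi : (𝔇).ψ = twe_smod_psi B' hfull' (twe_sli_hNS' hNS hQp) F a ha
    (twe_sri_level 𝒪 p (twe_sli_hQ hNS hQS hTW) hM
      ((Fact.out : p.Prime).odd_of_ne_two (by omega)) hQp hQM
      (twe_sm_q (twe_Nbal N Q ∅) (S ∪ Q)) (fun i => i.2.2.1) F) := rfl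

theorem twe_sli_data_rho : (𝔇).ρ = twe_smod_rho (twe_di_d1 p Q M hQp hQM)
    (twe_di_d1_surjective p Q M hQp hQM) (twe_di_d1_eq_one_iff p Q M hQp hQM) F a := rfl

end data

end Fermat.Agent.TW
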