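/-
ONE MACHINE / block [E] AUT, cell (C9) E/NewAt, the CORE (helper24).
Namespace `Fermat.Agent.TW`, prefix `twe_nac_`.

`K` algebraically closed of characteristic zero.  A nonzero `w ∈ W(Γ_H, K)` which is an eigenvector of
the fixed-determinant Hecke operators `T'_{q i}` (eigenvalues `a i`) and of ONE diamond `⟨g₀⟩` at `t₀`
(`d(g₀) ≡ 1` modulo the `t ≠ t₀`) with eigenvalue `z ≠ 1` produces a NONZERO class
`c : H₁(X₀(N' t₀ t₀)) → K`, `N' = N₀ L' L'`, with `c ∘ T_{q i} = a i • c` and `c ∘ VA = 0 = c ∘ VB`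
(the two transfers from level `N' t₀`): the conclusion of `twe_NewAt`.

* `twe_nac_decomp` : the isotypic decomposition of `W(Γ_H, K)` under the diamonds, every component in
  the `ψ`-part of a family of torus characters of odd exponent;
* `twe_nac_core`   : the statement above.
-/
import Mathlib
import Fermat.Agent.TW.Aut.SeamRel

set_option autoImplicit false
set_option linter.unusedSectionVars false

noncomputable section

open CongruenceSubgroup Matrix.SpecialLinearGroup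
open scoped MatrixGroups
open Fermat.Agent.JT3 Fermat.Agent.LR

namespace Fermat.Agent.TW

section decomp

variable {P : Finset ℕ} [hP : ∀ t : ↥P, Fact (Nat.Prime (t : ℕ))] {M : ℕ} [NeZero M]
  (htM : ∀ t : ↥P, (t : ℕ) ∣ M) (H : Subgroup (ZMod M)ˣ)
  (hH : ∀ u : (ZMod M)ˣ, (∀ t : ↥P, ZMod.unitsMap (htM t) u = 1) → u ∈ H)
  {m : ℕ} (hHm : ∀ u : (ZMod M)ˣ, u ^ m ∈ H)
  {K : Type} [Field K] [IsAlgClosed K] [CharZero K]

include hH hHm in
/-- **the isotypic decomposition of `W(Γ_H, K)` under the diamonds.** -/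
theorem twe_nac_decomp :
    ∃ (J : Type) (_ : Fintype J) (π : J → Module.End K ↥(twe_wl_V K K (twe_GamH M H)))
      (ψ : J → ∀ t : ↥P, (ZMod (t : ℕ))ˣ →* K),
      (∀ v, ∑ j, π j v = v) ∧
      (∀ (j : J) (t : ↥P) (a : (ZMod (t : ℕ))ˣ), ψ j t a ^ m = 1) ∧
      (∀ (j : J) (v : ↥(twe_wl_V K K (twe_GamH M H))),
        ((π j v : ↥(twe_wl_V K K (twe_GamH M H))) : Additive ↥(twe_GamH M H) →+ K) ∈
          twe_nio_U htM (ψ j) H) ∧
      (∀ (j : J) (T : ↥(twe_wl_V K K (twe_GamH M H)) →+ ↥(twe_wl_V K K (twe_GamH M H))),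
        (∀ (c : K) v, T (c • v) = c • T v) →
        (∀ γ v, T (twe_wl_conj (R := K) H γ v) = twe_wl_conj (R := K) H γ (T v)) →
        ∀ v, T (π j v) = π j (T v)) := by
  classical
  let _ : Fintype ((ZMod M)ˣ ⧸ H) := Fintype.ofFinite _
  have : NeZero (Fintype.card ((ZMod M)ˣ ⧸ H) : K) :=
    twe_iso_card_neZero_of_charZero (G := (ZMod M)ˣ ⧸ H) (K := K)
  have : HasEnoughRootsOfUnity K (Monoid.exponent ((ZMod M)ˣ ⧸ H)) :=
    twe_iso_enough_of_algClosed (G := (ZMod M)ˣ ⧸ H) (K := K)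
  have : Finite (((ZMod M)ˣ ⧸ H) →* Kˣ) := twe_iso_finite_char (G := (ZMod M)ˣ ⧸ H) (K := K)
  let _ : Fintype (((ZMod M)ˣ ⧸ H) →* Kˣ) := Fintype.ofFinite _
  let qq : Gamma0 M →* ((ZMod M)ˣ ⧸ H) := (QuotientGroup.mk' H).comp (twe_dUnit M)
  have hqq : Function.Surjective qq :=
    (QuotientGroup.mk'_surjective H).comp (twe_di_dUnit_surjective M)
  let ρ : Gamma0 M →* Module.End K ↥(twe_wl_V K K (twe_GamH M H)) :=
    { toFun := fun g => twe_wl_conj (R := K) (A := K) H g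
      map_one' := twe_wl_conj_one H
      map_mul' := twe_wl_conj_mul H }
  have hker : ∀ γ, qq γ = 1 → ρ γ = 1 := by
    intro γ hγ
    refine twe_wl_conj_of_mem H γ (twe_mem_GamH.mpr ⟨γ.2, ?_⟩)
    exact (QuotientGroup.eq_one_iff _).mp hγ
  obtain ⟨π, hsum, heig, hcomm, -⟩ :=
    twe_iso_decomp_of_quotient (G := (ZMod M)ˣ ⧸ H) (K := K) qq hqq ρ hker
  have hψ : ∀ χ : ((ZMod M)ˣ ⧸ H) →* Kˣ, ∃ ψ : ∀ t : ↥P, (ZMod (t : ℕ))ˣ →* K,
      (∀ u : (ZMod M)ˣ, twe_nio_Psiu htM ψ u = ((χ (QuotientGroup.mk' H u) : Kˣ) : K)) ∧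
      ∀ (t : ↥P) (a : (ZMod (t : ℕ))ˣ), ψ t a ^ m = 1 := fun χ =>
    twe_sr_exists_psi htM H hH (χ.comp (QuotientGroup.mk' H))
      (fun u hu => by
        rw [MonoidHom.comp_apply, QuotientGroup.mk'_apply, (QuotientGroup.eq_one_iff u).mpr hu,
          map_one]) hHm
  choose ψ hψ1 hψ2 using hψ
  refine ⟨((ZMod M)ˣ ⧸ H) →* Kˣ, inferInstance, π, ψ, hsum, hψ2, fun χ v => ?_,
    fun χ T hT1 hT2 v => hcomm χ T hT1 hT2 v⟩
  refine ⟨(π χ v).2, fun g => ?_⟩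
  have h1 := congrArg Subtype.val (heig χ g v)
  rw [hψ1]
  exact h1

end decomp

section core

variable (N₀ : ℕ) [NeZero N₀] (P : Finset ℕ) [hP : ∀ t : ↥P, Fact (Nat.Prime (t : ℕ))]
  (hN : ∀ t : ↥P, ¬ (t : ℕ) ∣ N₀) {M : ℕ} [NeZero M] (hM : M = N₀ * ∏ t ∈ P, t)
  (htM : ∀ t : ↥P, (t : ℕ) ∣ M) (H : Subgroup (ZMod M)ˣ)
  (hH : ∀ u : (ZMod M)ˣ, (∀ t : ↥P, ZMod.unitsMap (htM t) u = 1) → u ∈ H)
  {m : ℕ} (hm : Odd m) (hHm : ∀ u : (ZMod M)ˣ, u ^ m ∈ H)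
  {I : Type} (q : I → ℕ) (F : twe_sm_Frame M H q)
  {K : Type} [Field K] [IsAlgClosed K] [CharZero K]
  (t₀ : ↥P) (L' : ℕ) (hL' : L' = ∏ t ∈ P.erase (t₀ : ℕ), t)

attribute [local instance] twe_nw_fintypeSub

include hN hM hH hm hHm hL' in
/-- **the core of (C9) E/NewAt.** -/
theorem twe_nac_core [NeZero (N₀ * L' * L' * (t₀ : ℕ))] [NeZero (t₀ : ℕ)]
    [NeZero (N₀ * L' * L' * (t₀ : ℕ) * (t₀ : ℕ))]
    (hqA : ∀ i, ¬ q i ∣ N₀ * L' * L' * (t₀ : ℕ) * (t₀ : ℕ))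
    (w : ↥(twe_wl_V K K (twe_GamH M H))) (hw : w ≠ 0) (a : I → K)
    (hwT : ∀ i, @twe_wl_T K _ K _ _ M (q i) (F.hq i) (F.hM i) H (F.s i) (F.hs i) w = a i • w)
    (g₀ : Gamma0 M)
    (hg₀ : ∀ t : ↥P, t ≠ t₀ → ZMod.unitsMap (htM t) (twe_dUnit M g₀) = 1)
    (z : K) (hz : z ≠ 1) (hwz : twe_wl_conj (R := K) H g₀ w = z • w) :
    ∃ c : gh_H (N₀ * L' * L' * (t₀ : ℕ) * (t₀ : ℕ)) →+ K, c ≠ 0 ∧
      (∀ (i : I) (x : gh_H (N₀ * L' * L' * (t₀ : ℕ) * (t₀ : ℕ))),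
        c (t2f_TH (N₀ * L' * L' * (t₀ : ℕ) * (t₀ : ℕ)) (q i) x) = a i * c x) ∧
      (∀ x : gh_H (N₀ * L' * L' * (t₀ : ℕ)),
        c (twlg_gd_VA (N₀ * L' * L' * (t₀ : ℕ)) (t₀ : ℕ) (dvd_mul_left _ _) x) = 0) ∧
      (∀ x : gh_H (N₀ * L' * L' * (t₀ : ℕ)),
        c (twlg_gd_VB (N₀ * L' * L' * (t₀ : ℕ)) (t₀ : ℕ) (dvd_mul_left _ _) x) = 0) := by
  classical
  obtain ⟨J, _, π, ψ, hsum, hψm, hmem, hcomm⟩ := twe_nac_decomp (K := K) htM H hH hHm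
  -- a nonzero isotypic component
  obtain ⟨j, hj⟩ : ∃ j, π j w ≠ 0 := by
    by_contra hne
    rw [not_exists] at hne
    apply hw
    rw [← hsum w]
    exact Finset.sum_eq_zero fun j _ => not_not.mp (hne j)
  -- the arithmetic of the level
  have hLt : L' * (t₀ : ℕ) ≠ 0 := by
    rw [twe_nv_prod P t₀ L' hL']
    exact Finset.prod_ne_zero_iff.mpr fun t ht => (hP ⟨t, ht⟩).out.ne_zero
  have hL : L' * (t₀ : ℕ) = ∏ t ∈ P, t := twe_nv_prod P t₀ L' hL'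
  have hA : N₀ * L' * L' * (t₀ : ℕ) * (t₀ : ℕ) = N₀ * (L' * (t₀ : ℕ)) * (L' * (t₀ : ℕ)) := by ring
  -- `h = π j w` is a `T'`-eigenvector and a `g₀`-eigenvector
  have hhT : ∀ i, @twe_wl_T K _ K _ _ M (q i) (F.hq i) (F.hM i) H (F.s i) (F.hs i) (π j w) =
      a i • π j w := by
    intro i
    have h2 := hcomm j (@twe_wl_T K _ K _ _ M (q i) (F.hq i) (F.hM i) H (F.s i)
        (F.hs i)).toAddMonoidHom
      (fun c v => map_smul (@twe_wl_T K _ K _ _ M (q i) (F.hq i) (F.hM i) H (F.s i) (F.hs i)) c v)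
      (fun γ v => (@twe_wl_T_conj K _ K _ _ M (q i) (F.hq i) (F.hM i) H (F.s i) (F.hs i) γ v).symm)
      w
    have h3 : @twe_wl_T K _ K _ _ M (q i) (F.hq i) (F.hM i) H (F.s i) (F.hs i) (π j w) =
        π j (@twe_wl_T K _ K _ _ M (q i) (F.hq i) (F.hM i) H (F.s i) (F.hs i) w) := h2
    rw [h3, hwT i, map_smul]
  have hconj_comm : ∀ γ v, twe_wl_conj (R := K) (A := K) H g₀ (twe_wl_conj (R := K) H γ v) =
      twe_wl_conj (R := K) H γ (twe_wl_conj (R := K) H g₀ v) := by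
    intro γ v
    have h1 : g₀ * γ = γ * g₀ * ((γ * g₀)⁻¹ * (g₀ * γ)) := by group
    have h2 : twe_wl_conj (R := K) (A := K) H ((γ * g₀)⁻¹ * (g₀ * γ)) = 1 := by
      refine twe_wl_conj_of_mem H _ (twe_mem_GamH.mpr ⟨((γ * g₀)⁻¹ * (g₀ * γ)).2, ?_⟩)
      have h3 : twe_dUnit M ((γ * g₀)⁻¹ * (g₀ * γ)) = 1 := by
        rw [map_mul, map_inv, map_mul, map_mul, mul_comm (twe_dUnit M γ), inv_mul_cancel]
      show twe_dUnit M ((γ * g₀)⁻¹ * (g₀ * γ)) ∈ H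
      rw [h3]
      exact one_mem H
    have h4 : twe_wl_conj (R := K) (A := K) H (g₀ * γ) = twe_wl_conj (R := K) (A := K) H (γ * g₀) := by
      rw [h1, twe_wl_conj_mul H (γ * g₀), h2, mul_one]
    have h5 := LinearMap.congr_fun h4 v
    rw [twe_wl_conj_mul, twe_wl_conj_mul] at h5
    exact h5
  have hhz : twe_wl_conj (R := K) H g₀ (π j w) = z • π j w := by
    have h2 := hcomm j (twe_wl_conj (R := K) (A := K) H g₀).toAddMonoidHom
      (fun c v => map_smul (twe_wl_conj (R := K) (A := K) H g₀) c v) hconj_comm w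
    have h3 : twe_wl_conj (R := K) H g₀ (π j w) = π j (twe_wl_conj (R := K) H g₀ w) := h2
    rw [h3, hwz, map_smul]
  -- `ψ t₀ ≠ 1`
  have hU := hmem j w
  have hψ0 : ψ j t₀ ≠ 1 := by
    intro h1
    have h2 := hU.2 g₀
    have h3 : twe_nio_Psiu htM (ψ j) (twe_dUnit M g₀) = 1 := by
      rw [twe_nio_Psiu_apply]
      refine Finset.prod_eq_one fun t _ => ?_
      by_cases ht : t = t₀
      · subst ht
        rw [h1, MonoidHom.one_apply]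
      · rw [hg₀ t ht, inv_one, map_one]
    rw [h3, one_smul] at h2
    have h4 : ((twe_wl_conj (R := K) H g₀ (π j w) : ↥(twe_wl_V K K (twe_GamH M H))) :
        Additive ↥(twe_GamH M H) →+ K) = (π j w).1 := h2
    have h5 : z • π j w = π j w := by
      rw [← hhz]
      exact Subtype.ext h4
    exact hz (smul_left_injective K hj (h5.trans (one_smul K _).symm))
  -- the class
  refine ⟨twe_np_Phi N₀ P hN hM htM H hH (ψ j) hm (hψm j) (L' * (t₀ : ℕ))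
    (N₀ * L' * L' * (t₀ : ℕ) * (t₀ : ℕ)) hL hA hLt (twe_nv_div N₀ P t₀ L') ⟨(π j w).1, hU⟩,
    ?_, ?_, ?_, ?_⟩
  · intro h0
    have h1 := twe_np_Phi_inj N₀ P hN hM htM H hH (ψ j) hm (hψm j) (L' * (t₀ : ℕ))
      (N₀ * L' * L' * (t₀ : ℕ) * (t₀ : ℕ)) hL hA hLt (twe_nv_div N₀ P t₀ L')
      (h0.trans (map_zero _).symm)
    have h3 : ((π j w : ↥(twe_wl_V K K (twe_GamH M H))) : Additive ↥(twe_GamH M H) →+ K) = 0 :=
      congrArg Subtype.val h1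
    exact hj (Subtype.ext h3)
  · intro i x
    have := F.hq i
    rw [← twe_np_Phi_hecke N₀ P hN hM htM H hH (ψ j) hm (hψm j) (L' * (t₀ : ℕ))
      (N₀ * L' * L' * (t₀ : ℕ) * (t₀ : ℕ)) hL hA hLt (twe_nv_div N₀ P t₀ L') (F.hM i) (hqA i)
      (F.s i) (F.hs i)]
    have h1 : twe_np_TU htM H (ψ j) (F.hM i) (F.s i) (F.hs i) ⟨(π j w).1, hU⟩ =
        a i • (⟨(π j w).1, hU⟩ : ↥(twe_nio_U htM (ψ j) H)) := by
      apply Subtype.ext
      have h3 : ((@twe_wl_T K _ K _ _ M (q i) (F.hq i) (F.hM i) H (F.s i) (F.hs i) (π j w) :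
          ↥(twe_wl_V K K (twe_GamH M H))) : Additive ↥(twe_GamH M H) →+ K) =
          ((a i • π j w : ↥(twe_wl_V K K (twe_GamH M H))) : Additive ↥(twe_GamH M H) →+ K) :=
        congrArg Subtype.val (hhT i)
      exact h3
    rw [h1, map_smul]
    rfl
  · intro x
    exact twe_np_VA N₀ P hN hM htM H hH (ψ j) hm (hψm j) t₀ L' hL' ⟨(π j w).1, hU⟩ hψ0 hLt hL hA x
  · intro x
    exact twe_np_VB N₀ P hN hM htM H hH (ψ j) hm (hψm j) t₀ L' hL' ⟨(π j w).1, hU⟩ hψ0 hLt hL hA x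

end core

end Fermat.Agent.TW
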