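/-
ONE MACHINE / block [E] AUT, cell (C9) E/NewAt, BASE CHANGE (helper24).
Namespace `Fermat.Agent.TW`, prefix `twe_nab_`.

`𝒪` a ring, `K` a field and a flat `𝒪`-algebra, `MX` an `𝒪`-module with an injective `𝒪`-linear
`ι : MX → W(Γ_H, 𝒪)`.  Then `β : K ⊗[𝒪] MX → W(Γ_H, K)` is injective and equivariant for every pair of
operators which correspond under `ι`, and an eigenvector `v ≠ 0` of `K ⊗[𝒪] MX` for the Hecke operators
and for ONE diamond at `t₀` with eigenvalue `z ≠ 1` produces the class of `twe_NewAt`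
(`twe_nab_newAt`, from `twe_nac_core`).
-/
import Mathlib
import Fermat.Agent.TW.Aut.NewAtCore

set_option autoImplicit false
set_option linter.unusedSectionVars false

noncomputable section

open CongruenceSubgroup Matrix.SpecialLinearGroup
open scoped MatrixGroups TensorProduct
open Fermat.Agent.JT3 Fermat.Agent.LR

namespace Fermat.Agent.TW

/-! ### 1. Generalities on `liftBaseChange` -/

section general

variable {𝒪 K : Type*} [CommRing 𝒪] [Field K] [Algebra 𝒪 K]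
  {MX : Type*} [AddCommGroup MX] [Module 𝒪 MX]
  {V : Type*} [AddCommGroup V] [Module K V] [Module 𝒪 V] [IsScalarTower 𝒪 K V]

/-- `β = liftBaseChange` intertwines `S ⊗ K` with `S'` as soon as `f` intertwines `S` with `S'`. -/
theorem twe_nab_equivariant (f : MX →ₗ[𝒪] V) (S : MX →ₗ[𝒪] MX) (S' : V →ₗ[K] V)
    (h : ∀ x, f (S x) = S' (f x)) (v : K ⊗[𝒪] MX) :
    f.liftBaseChange K (S.baseChange K v) = S' (f.liftBaseChange K v) := by
  induction v using TensorProduct.induction_on with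
  | zero => rw [map_zero, map_zero, map_zero]
  | tmul c x =>
    rw [LinearMap.baseChange_tmul, LinearMap.liftBaseChange_tmul, LinearMap.liftBaseChange_tmul, h,
      map_smul]
  | add a b ha hb => rw [map_add, map_add, map_add, map_add, ha, hb]

end general

/-! ### 2. Injectivity -/

section inj

variable (𝒪 K : Type*) [CommRing 𝒪] [Field K] [Algebra 𝒪 K]

/-- extension of the coefficients of a character. -/
def twe_nab_ext (G : Type*) [Group G] : (Additive G →+ 𝒪) →ₗ[𝒪] (Additive G →+ K) where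
  toFun x := (Algebra.linearMap 𝒪 K).toAddMonoidHom.comp x
  map_add' x y := by
    refine AddMonoidHom.ext fun g => ?_
    show algebraMap 𝒪 K (x g + y g) = algebraMap 𝒪 K (x g) + algebraMap 𝒪 K (y g)
    rw [map_add]
  map_smul' a x := by
    refine AddMonoidHom.ext fun g => ?_
    show algebraMap 𝒪 K (a • x g) = a • algebraMap 𝒪 K (x g)
    rw [smul_eq_mul, map_mul, Algebra.smul_def]

theorem twe_nab_ext_apply (G : Type*) [Group G] (x : Additive G →+ 𝒪) (g : Additive G) :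
    twe_nab_ext 𝒪 K G x g = algebraMap 𝒪 K (x g) := rfl

variable {𝒪 K}

/-- **`K ⊗[𝒪] MX → Hom(G, K)` is injective** for `MX ↪ Hom(G, 𝒪)`, `G` finitely generated, `K` flat. -/
theorem twe_nab_injective [Module.Flat 𝒪 K] {G : Type*} [Group G] [hG : Group.FG G]
    {MX : Type*} [AddCommGroup MX] [Module 𝒪 MX]
    (ι : MX →ₗ[𝒪] (Additive G →+ 𝒪)) (hι : Function.Injective ι) :
    Function.Injective ((twe_nab_ext 𝒪 K G ∘ₗ ι).liftBaseChange K) := by
  classical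
  obtain ⟨Sg, hSg, hfin⟩ := Group.fg_iff.1 hG
  have : Finite Sg := hfin
  let _ : Fintype Sg := Fintype.ofFinite _
  let ev : (Additive G →+ 𝒪) →ₗ[𝒪] (Sg → 𝒪) :=
    { toFun := fun x s => x (Additive.ofMul (s : G))
      map_add' := fun x y => rfl
      map_smul' := fun a x => rfl }
  have hev : Function.Injective ev := by
    intro x y hxy
    have h1 : AddMonoidHom.toMultiplicativeRight x = AddMonoidHom.toMultiplicativeRight y := by
      refine MonoidHom.eq_of_eqOn_dense hSg ?_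
      intro s hs
      have := congrFun hxy ⟨s, hs⟩
      show Multiplicative.ofAdd (x (Additive.ofMul s)) = Multiplicative.ofAdd (y (Additive.ofMul s))
      rw [show x (Additive.ofMul s) = y (Additive.ofMul s) from this]
    refine AddMonoidHom.ext fun g => ?_
    have h2 := DFunLike.congr_fun h1 (Additive.toMul g)
    exact Multiplicative.ofAdd.injective h2
  have hflat : Function.Injective ((ev ∘ₗ ι).lTensor K) :=
    Module.Flat.lTensor_preserves_injective_linearMap (ev ∘ₗ ι) (hev.comp hι)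
  have key : ∀ v : K ⊗[𝒪] MX, (fun s : Sg =>
      (twe_nab_ext 𝒪 K G ∘ₗ ι).liftBaseChange K v (Additive.ofMul (s : G))) =
      TensorProduct.piScalarRight 𝒪 K K Sg ((ev ∘ₗ ι).lTensor K v) := by
    intro v
    induction v using TensorProduct.induction_on with
    | zero =>
      rw [map_zero, map_zero, map_zero]
      rfl
    | tmul c x =>
      rw [LinearMap.liftBaseChange_tmul, LinearMap.lTensor_tmul, TensorProduct.piScalarRight_apply,
        TensorProduct.piScalarRightHom_tmul]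
      funext s
      rw [AddMonoidHom.smul_apply, LinearMap.comp_apply, twe_nab_ext_apply, smul_eq_mul,
        Algebra.smul_def, mul_comm]
      rfl
    | add a b ha hb =>
      rw [map_add, map_add, map_add, ← ha, ← hb]
      rfl
  refine (injective_iff_map_eq_zero _).mpr fun v hv => ?_
  apply hflat
  rw [map_zero]
  apply (TensorProduct.piScalarRight 𝒪 K K Sg).injective
  rw [← key v, hv, map_zero]
  rfl

end inj

/-! ### 3. The comparison map `MX → W(Γ_H, K)` -/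

section compare

variable (𝒪 K : Type*) [CommRing 𝒪] [Field K] [Algebra 𝒪 K] {M : ℕ} (H : Subgroup (ZMod M)ˣ)

/-- `W(Γ_H, 𝒪) → W(Γ_H, K)`, `𝒪`-linear, with values in the `K`-module. -/
def twe_nab_cmp : ↥(twe_wl_V 𝒪 𝒪 (twe_GamH M H)) →ₗ[𝒪] ↥(twe_wl_V K K (twe_GamH M H)) :=
  twe_sr_toK 𝒪 K (twe_GamH M H) ∘ₗ twe_wl_map (Algebra.linearMap 𝒪 K) (twe_GamH M H)

theorem twe_nab_cmp_coe (y : ↥(twe_wl_V 𝒪 𝒪 (twe_GamH M H))) :
    ((twe_nab_cmp 𝒪 K H y : ↥(twe_wl_V K K (twe_GamH M H))) : Additive ↥(twe_GamH M H) →+ K) =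
      twe_nab_ext 𝒪 K ↥(twe_GamH M H) y.1 := rfl

theorem twe_nab_cmp_T {ℓ : ℕ} [Fact ℓ.Prime] (hℓM : ¬ ℓ ∣ M) (s : Gamma0 M)
    (hs : twe_dUnit M s * twe_dUnit M s * (twe_hk_lU hℓM)⁻¹ ∈ H)
    (y : ↥(twe_wl_V 𝒪 𝒪 (twe_GamH M H))) :
    twe_nab_cmp 𝒪 K H (twe_wl_T (R := 𝒪) hℓM H s hs y) =
      twe_wl_T (R := K) hℓM H s hs (twe_nab_cmp 𝒪 K H y) := by
  apply Subtype.ext
  exact (twe_hk_T_comp hℓM H s hs _ y.1).symm

theorem twe_nab_cmp_conj (g : Gamma0 M) (y : ↥(twe_wl_V 𝒪 𝒪 (twe_GamH M H))) :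
    twe_nab_cmp 𝒪 K H (twe_wl_conj (R := 𝒪) H g y) =
      twe_wl_conj (R := K) H g (twe_nab_cmp 𝒪 K H y) := by
  apply Subtype.ext
  rfl

end compare

/-! ### 4. The class of `twe_NewAt` from an eigenvector of `K ⊗[𝒪] MX` -/

section newAt

variable {𝒪 : Type*} [CommRing 𝒪]
  (N₀ : ℕ) [NeZero N₀] (P : Finset ℕ) [hP : ∀ t : ↥P, Fact (Nat.Prime (t : ℕ))]
  (hN : ∀ t : ↥P, ¬ (t : ℕ) ∣ N₀) {M : ℕ} [NeZero M] (hM : M = N₀ * ∏ t ∈ P, t)
  (htM : ∀ t : ↥P, (t : ℕ) ∣ M) (H : Subgroup (ZMod M)ˣ)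
  (hH : ∀ u : (ZMod M)ˣ, (∀ t : ↥P, ZMod.unitsMap (htM t) u = 1) → u ∈ H)
  {m : ℕ} (hm : Odd m) (hHm : ∀ u : (ZMod M)ˣ, u ^ m ∈ H)
  {I : Type} (q : I → ℕ) (F : twe_sm_Frame M H q)
  {K : Type} [Field K] [IsAlgClosed K] [CharZero K] [Algebra 𝒪 K] [Module.Flat 𝒪 K]
  (t₀ : ↥P) (L' : ℕ) (hL' : L' = ∏ t ∈ P.erase (t₀ : ℕ), t)
  {MX : Type*} [AddCommGroup MX] [Module 𝒪 MX]

include hN hM hH hm hHm hL' in
/-- **(C9), semi-abstract form.** -/
theorem twe_nab_newAt [NeZero (N₀ * L' * L' * (t₀ : ℕ))] [NeZero (t₀ : ℕ)]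
    [NeZero (N₀ * L' * L' * (t₀ : ℕ) * (t₀ : ℕ))]
    (hqA : ∀ i, ¬ q i ∣ N₀ * L' * L' * (t₀ : ℕ) * (t₀ : ℕ))
    (ι : MX →ₗ[𝒪] ↥(twe_wl_V 𝒪 𝒪 (twe_GamH M H))) (hι : Function.Injective ι)
    (Tm : I → (MX →ₗ[𝒪] MX))
    (hTm : ∀ i x, ι (Tm i x) =
      @twe_wl_T 𝒪 _ 𝒪 _ _ M (q i) (F.hq i) (F.hM i) H (F.s i) (F.hs i) (ι x))
    (δ : MX →ₗ[𝒪] MX) (g₀ : Gamma0 M)
    (hg₀ : ∀ t : ↥P, t ≠ t₀ → ZMod.unitsMap (htM t) (twe_dUnit M g₀) = 1)
    (hδ : ∀ x, ι (δ x) = twe_wl_conj (R := 𝒪) H g₀ (ι x))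
    (v : K ⊗[𝒪] MX) (hv : v ≠ 0) (a : I → K)
    (hvT : ∀ i, (Tm i).baseChange K v = a i • v)
    (z : K) (hz : z ≠ 1) (hvz : δ.baseChange K v = z • v) :
    ∃ c : gh_H (N₀ * L' * L' * (t₀ : ℕ) * (t₀ : ℕ)) →+ K, c ≠ 0 ∧
      (∀ (i : I) (x : gh_H (N₀ * L' * L' * (t₀ : ℕ) * (t₀ : ℕ))),
        c (t2f_TH (N₀ * L' * L' * (t₀ : ℕ) * (t₀ : ℕ)) (q i) x) = a i * c x) ∧
      (∀ x : gh_H (N₀ * L' * L' * (t₀ : ℕ)),
        c (twlg_gd_VA (N₀ * L' * L' * (t₀ : ℕ)) (t₀ : ℕ) (dvd_mul_left _ _) x) = 0) ∧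
      (∀ x : gh_H (N₀ * L' * L' * (t₀ : ℕ)),
        c (twlg_gd_VB (N₀ * L' * L' * (t₀ : ℕ)) (t₀ : ℕ) (dvd_mul_left _ _) x) = 0) := by
  have hfg : Group.FG ↥(twe_GamH M H) := by
    have := twe_wl_fg_SL2
    exact Subgroup.fg_of_index_ne_zero (twe_GamH M H)
  -- the comparison map
  let f : MX →ₗ[𝒪] ↥(twe_wl_V K K (twe_GamH M H)) := twe_nab_cmp 𝒪 K H ∘ₗ ι
  have hcoe : ∀ u : K ⊗[𝒪] MX,
      ((f.liftBaseChange K u : ↥(twe_wl_V K K (twe_GamH M H))) : Additive ↥(twe_GamH M H) →+ K) =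
        (twe_nab_ext 𝒪 K ↥(twe_GamH M H) ∘ₗ
          ((twe_wl_V 𝒪 𝒪 (twe_GamH M H)).subtype ∘ₗ ι)).liftBaseChange K u := by
    intro u
    induction u using TensorProduct.induction_on with
    | zero => rw [map_zero, map_zero]; rfl
    | tmul c x => rfl
    | add a b ha hb =>
      rw [map_add, map_add, ← ha, ← hb]
      rfl
  have hw : f.liftBaseChange K v ≠ 0 := by
    intro h0
    apply hv
    refine twe_nab_injective (K := K) ((twe_wl_V 𝒪 𝒪 (twe_GamH M H)).subtype ∘ₗ ι)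
      ((Subtype.val_injective).comp hι) ?_
    rw [map_zero, ← hcoe v, h0]
    rfl
  refine twe_nac_core N₀ P hN hM htM H hH hm hHm q F t₀ L' hL' hqA (f.liftBaseChange K v) hw a
    (fun i => ?_) g₀ hg₀ z hz ?_
  · rw [← twe_nab_equivariant f (Tm i)
      (@twe_wl_T K _ K _ _ M (q i) (F.hq i) (F.hM i) H (F.s i) (F.hs i)) ?_ v, hvT i, map_smul]
    intro x
    show twe_nab_cmp 𝒪 K H (ι (Tm i x)) = _
    rw [hTm i x]
    exact @twe_nab_cmp_T 𝒪 K _ _ _ M H (q i) (F.hq i) (F.hM i) (F.s i) (F.hs i) (ι x)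
  · rw [← twe_nab_equivariant f δ (twe_wl_conj (R := K) H g₀) ?_ v, hvz, map_smul]
    intro x
    show twe_nab_cmp 𝒪 K H (ι (δ x)) = _
    rw [hδ x]
    exact twe_nab_cmp_conj 𝒪 K H g₀ (ι x)

end newAt

end Fermat.Agent.TW
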