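/-
ONE MACHINE / block [E] AUT, cell (C9) E/NewAt, THE WRAPPER (helper24).
Namespace `Fermat.Agent.TW`, prefix `twe_naw_`.

**`twe_naw_newAt`** : the clause `twe_NewAt HX δ t₀` of `TW/Aut/SeamsLG.lean` VERBATIM, for ANY Hecke datum
`HX` of level `Nb = N₀ · L' · L' · t₀ · t₀` acting on an `𝒪`-module `MX` which embeds `𝒪`-linearly into
`W(Γ_H, 𝒪)` (`Γ_H ≤ Γ₀(N₀ ∏ P)`), the generators `HX.π (T_ℓ)` acting as the fixed-determinant operators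
`T'_ℓ` of a Hecke frame and `δ` acting as the diamond of some `g₀ ∈ Γ₀(M)` with `d(g₀) ≡ 1` modulo the
`t ≠ t₀`.
-/
import Mathlib
import Fermat.Agent.TW.Aut.NewAtBC

set_option autoImplicit false
set_option linter.unusedSectionVars false

noncomputable section

namespace Fermat.Agent.TW

open Polynomial CuspForm IsLocalRing Fermat.Agent.JT3 CongruenceSubgroup
open scoped TensorProduct

section wrap

variable {𝒪 : Type} [CommRing 𝒪] [IsDomain 𝒪] [IsDiscreteValuationRing 𝒪]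
  [IsAdicComplete (maximalIdeal 𝒪) 𝒪]

/-- a field containing the discrete valuation ring `𝒪` is flat over it. -/
theorem twe_naw_flat (K : Type*) [Field K] [Algebra 𝒪 K]
    (hinj : Function.Injective (algebraMap 𝒪 K)) : Module.Flat 𝒪 K := by
  rw [Module.Flat.flat_iff_torsion_eq_bot_of_isBezout, eq_bot_iff]
  rintro x ⟨⟨a, ha⟩, hax⟩
  rw [Submodule.mem_bot]
  have h1 : algebraMap 𝒪 K a * x = 0 := by
    rw [← Algebra.smul_def]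
    exact hax
  rcases mul_eq_zero.mp h1 with h2 | h2
  · exfalso
    have h3 : a = 0 := hinj (h2.trans (map_zero _).symm)
    exact nonZeroDivisors.ne_zero ha h3
  · exact h2

variable [CharZero 𝒪]
  {Nb : ℕ} [NeZero Nb] {S' : Finset ℕ}
  {θX : heckeAlgebra Nb 2 (↑S' : Set ℕ) →+* ResidueField 𝒪}
  {TX : Type} [CommRing TX] [IsLocalRing TX] [IsNoetherianRing TX]
  [IsAdicComplete (maximalIdeal TX) TX] [Algebra 𝒪 TX] [IsLocalHom (algebraMap 𝒪 TX)]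
  [Module.Finite 𝒪 TX] [Module.Free 𝒪 TX]

/-- **(C9) E/NewAt.** -/
theorem twe_naw_newAt (HX : HeckeGaloisRepDatum Nb (↑S' : Set ℕ) 𝒪 θX TX)
    {MX : Type} [AddCommGroup MX] [Module 𝒪 MX] [Module TX MX] [IsScalarTower 𝒪 TX MX]
    (δ : MX →ₗ[𝒪] MX)
    (N₀ : ℕ) [NeZero N₀] (P : Finset ℕ) [hP : ∀ t : ↥P, Fact (Nat.Prime (t : ℕ))]
    (hN : ∀ t : ↥P, ¬ (t : ℕ) ∣ N₀) {M : ℕ} [NeZero M] (hM : M = N₀ * ∏ t ∈ P, t)
    (htM : ∀ t : ↥P, (t : ℕ) ∣ M) (H : Subgroup (ZMod M)ˣ)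
    (hH : ∀ u : (ZMod M)ˣ, (∀ t : ↥P, ZMod.unitsMap (htM t) u = 1) → u ∈ H)
    {m : ℕ} (hm : Odd m) (hHm : ∀ u : (ZMod M)ˣ, u ^ m ∈ H)
    (t₀ : ↥P) (L' : ℕ) (hL' : L' = ∏ t ∈ P.erase (t₀ : ℕ), t)
    (hNb : Nb = N₀ * L' * L' * (t₀ : ℕ) * (t₀ : ℕ))
    (F : twe_sm_Frame M H (twe_sm_q Nb S'))
    (ι : MX →ₗ[𝒪] ↥(twe_wl_V 𝒪 𝒪 (twe_GamH M H))) (hι : Function.Injective ι)
    (hT : ∀ (ℓ : twe_sm_Idx Nb S') (x : MX),
      ι (HX.π (heckeAlgebra.T ℓ.2.1 ℓ.2.2.1 ℓ.2.2.2) • x) = twe_sm_TY 𝒪 F ℓ (ι x))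
    (g₀ : Gamma0 M)
    (hg₀ : ∀ t : ↥P, t ≠ t₀ → ZMod.unitsMap (htM t) (twe_dUnit M g₀) = 1)
    (hδ : ∀ x, ι (δ x) = twe_wl_conj (R := 𝒪) H g₀ (ι x)) :
    twe_NewAt HX δ (t₀ : ℕ) := by
  intro K _ _ _ hinj χ v hv hvT z hz hvz
  have hL0 : L' ≠ 0 := twe_nv_L'_ne_zero P t₀ L' hL'
  have ht0p : (t₀ : ℕ).Prime := (hP t₀).out
  have ht0 : (t₀ : ℕ) ≠ 0 := ht0p.ne_zero
  have hN' : N₀ * L' * L' ≠ 0 := mul_ne_zero (mul_ne_zero (NeZero.ne N₀) hL0) hL0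
  have i1 : NeZero (N₀ * L' * L') := ⟨hN'⟩
  have i2 : NeZero (t₀ : ℕ) := ⟨ht0⟩
  have i3 : NeZero (N₀ * L' * L' * (t₀ : ℕ)) := ⟨mul_ne_zero hN' ht0⟩
  have i4 : NeZero (N₀ * L' * L' * (t₀ : ℕ) * (t₀ : ℕ)) := ⟨mul_ne_zero (mul_ne_zero hN' ht0) ht0⟩
  have : CharZero K := charZero_of_injective_algebraMap hinj
  have : Module.Flat 𝒪 K := twe_naw_flat K hinj
  -- `t₀ ∤ N'`
  have hcop : ¬ (t₀ : ℕ) ∣ N₀ * L' * L' := by
    intro hd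
    have hL'd : ¬ (t₀ : ℕ) ∣ L' := by
      intro hd'
      rw [hL'] at hd'
      obtain ⟨t, ht, htd⟩ := (Prime.dvd_finsetProd_iff ht0p.prime _).mp hd'
      have htp : t.Prime := (hP ⟨t, (Finset.mem_erase.mp ht).2⟩).out
      exact (Finset.mem_erase.mp ht).1 ((Nat.prime_dvd_prime_iff_eq ht0p htp).mp htd).symm
    rcases (Nat.Prime.dvd_mul ht0p).mp hd with h1 | h1
    · rcases (Nat.Prime.dvd_mul ht0p).mp h1 with h2 | h2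
      · exact hN t₀ h2
      · exact hL'd h2
    · exact hL'd h1
  obtain ⟨c, hc0, hcT, hcA, hcB⟩ := twe_nab_newAt N₀ P hN hM htM H hH hm hHm (twe_sm_q Nb S') F
    t₀ L' hL' (fun i => by rw [← hNb]; exact i.2.2.1) ι hι
    (fun i => twe_act (MX := MX) (HX.π (heckeAlgebra.T i.2.1 i.2.2.1 i.2.2.2)))
    (fun i x => hT i x) δ g₀ hg₀ hδ v hv
    (fun i => χ (HX.π (heckeAlgebra.T i.2.1 i.2.2.1 i.2.2.2)))
    (fun i => hvT _) z hz hvz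
  exact ⟨N₀ * L' * L', i1, i2, hNb, hcop, c, hc0,
    fun ℓ hℓ h1 h2 h => hcT ⟨ℓ, hℓ, h1, h2⟩ h, hcA, hcB⟩

end wrap

end Fermat.Agent.TW
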