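/-
ONE MACHINE / block [E] AUT, E/SeamNewAt (helper24): the `twe_NewAt` halves of `L.IsLG2` and `Bg.IsLG2`
for the systems built by the smart constructors of `SeamMk.lean`.
Namespace `Fermat.Agent.TW`, prefix `twe_sna_`.

Hypotheses, in the vocabulary of `SeamMod.lean`: an injective `𝒪`-linear `ι : D.P → W(Γ_H, 𝒪)` with
`ι (D.ψ (τ_ℓ) y) = T'_ℓ (ι y)` and `ι (D.ρ (d g) y) = conj_g (ι y)`.
-/
import Mathlib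
import Fermat.Agent.TW.Aut.SeamMk
import Fermat.Agent.TW.Aut.SeamAct
import Fermat.Agent.TW.Aut.NewAtWrap
import Fermat.Agent.TW.Aut.SeamArith

set_option autoImplicit false
set_option linter.unusedSectionVars false

noncomputable section

namespace Fermat.Agent.TW

open Polynomial CuspForm IsLocalRing Fermat.Agent.JT3 CongruenceSubgroup

section level

variable {𝒪 : Type} [CommRing 𝒪] [IsDomain 𝒪] [IsDiscreteValuationRing 𝒪]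
  [IsAdicComplete (maximalIdeal 𝒪) 𝒪] [CharZero 𝒪]
  {N : ℕ} [NeZero N] {S : Finset ℕ} {θ : heckeAlgebra N 2 (↑S : Set ℕ) →+* ResidueField 𝒪}
  {B : twe_Base 𝒪 N S θ} {p : ℕ} {Q : Finset ℕ} [NeZero (twe_Nbal N Q ∅)]

/-- `twe_Nbal N Q ∅ = N · L' · L' · t₀ · t₀`, `L' = ∏ (Q.erase t₀)`. -/
theorem twe_sna_Nbal_empty (N : ℕ) (Q : Finset ℕ) (t₀ : ℕ) (ht₀ : t₀ ∈ Q) :
    twe_Nbal N Q ∅ = N * (∏ t ∈ Q.erase t₀, t) * (∏ t ∈ Q.erase t₀, t) * t₀ * t₀ := by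
  rw [twe_Nbal, Finset.prod_empty, mul_one, Finset.prod_pow,
    ← Finset.mul_prod_erase Q (fun t => t) ht₀]
  ring

/-- **NEW-AT-`t₀`, the unipotent system, generic form.** -/
theorem twe_sna_level_gen (D : twe_mk_LevelData B p Q) (hQ : ∀ t ∈ Q, t.Prime ∧ ¬ t ∣ N)
    {M : ℕ} [NeZero M] (hM : M = N * ∏ t ∈ Q, t) (hQM : ∀ t ∈ Q, t ∣ M)
    (H : Subgroup (ZMod M)ˣ)
    (hH : ∀ u : (ZMod M)ˣ, (∀ t : ↥Q, ZMod.unitsMap (hQM t.1 t.2) u = 1) → u ∈ H)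
    {m : ℕ} (hm : Odd m) (hHm : ∀ u : (ZMod M)ˣ, u ^ m ∈ H)
    (F : twe_sm_Frame M H (twe_sm_q (twe_Nbal N Q ∅) (S ∪ Q)))
    (ι : D.P →ₗ[𝒪] ↥(twe_wl_V 𝒪 𝒪 (twe_GamH M H))) (hι : Function.Injective ι)
    (hψ : ∀ (ℓ : twe_sm_Idx (twe_Nbal N Q ∅) (S ∪ Q)) (y : D.P),
      ι (D.ψ (twe_sa_tau D.B' ℓ) y) = twe_sm_TY 𝒪 F ℓ (ι y))
    (t₀ : ℕ) (ht₀ : t₀ ∈ Q) (g₀ : Gamma0 M)
    (hg₀ : ∀ t : ↥Q, (t : ℕ) ≠ t₀ → ZMod.unitsMap (hQM t.1 t.2) (twe_dUnit M g₀) = 1)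
    (hρ : ∀ y : D.P, ι (D.ρ (twe_gen p Q t₀ ht₀) y) = twe_wl_conj (R := 𝒪) H g₀ (ι y)) :
    twe_NewAt D.toLevel.H' (D.toLevel.dia t₀ ht₀) t₀ := by
  have hP : ∀ t : ↥Q, Fact (Nat.Prime (t : ℕ)) := fun t => ⟨(hQ t.1 t.2).1⟩
  exact twe_naw_newAt (hP := hP) D.toLevel.H' (D.toLevel.dia t₀ ht₀) N Q
    (fun t => (hQ t.1 t.2).2) hM (fun t => hQM t.1 t.2) H hH hm hHm ⟨t₀, ht₀⟩
    (∏ t ∈ Q.erase t₀, t) rfl (twe_sna_Nbal_empty N Q t₀ ht₀) F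
    (ι.comp (D.ρ.asModuleEquiv : D.ρ.asModule →ₗ[𝒪] D.P))
    (hι.comp D.ρ.asModuleEquiv.injective)
    (fun ℓ x => by
      have h1 := twe_mk_toLevel_smul D (D.toLevel.H'.π (heckeAlgebra.T ℓ.2.1 ℓ.2.2.1 ℓ.2.2.2)) x
      change ι (D.ρ.asModuleEquiv (D.toLevel.H'.π (heckeAlgebra.T ℓ.2.1 ℓ.2.2.1 ℓ.2.2.2) • x)) =
        twe_sm_TY 𝒪 F ℓ (ι (D.ρ.asModuleEquiv x))
      rw [h1, LinearEquiv.apply_symm_apply]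
      exact hψ ℓ _)
    g₀ (fun t ht => hg₀ t (fun h => ht (Subtype.ext h)))
    (fun x => by
      have h1 := twe_mk_toLevel_dia D t₀ ht₀ x
      change ι (D.ρ.asModuleEquiv (D.toLevel.dia t₀ ht₀ x)) =
        twe_wl_conj (R := 𝒪) H g₀ (ι (D.ρ.asModuleEquiv x))
      rw [h1, LinearEquiv.apply_symm_apply]
      exact hρ _)

/-- **NEW-AT-`t`, the unipotent system**, for `H = ker ((ℤ/M)ˣ → Δ_Q)` and `d = twe_di_d1`. -/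
theorem twe_sna_level (D : twe_mk_LevelData B p Q) (hp : Odd p)
    (hQ : ∀ t ∈ Q, t.Prime ∧ ¬ t ∣ N)
    {M : ℕ} [NeZero M] (hM : M = N * ∏ t ∈ Q, t) (hQM : ∀ t ∈ Q, t ∣ M)
    (F : twe_sm_Frame M (twe_di_hom p Q M (fun t ht => (hQ t ht).1) hQM).ker
      (twe_sm_q (twe_Nbal N Q ∅) (S ∪ Q)))
    (ι : D.P →ₗ[𝒪] ↥(twe_wl_V 𝒪 𝒪
      (twe_GamH M (twe_di_hom p Q M (fun t ht => (hQ t ht).1) hQM).ker)))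
    (hι : Function.Injective ι)
    (hψ : ∀ (ℓ : twe_sm_Idx (twe_Nbal N Q ∅) (S ∪ Q)) (y : D.P),
      ι (D.ψ (twe_sa_tau D.B' ℓ) y) = twe_sm_TY 𝒪 F ℓ (ι y))
    (hρ : ∀ (g : Gamma0 M) (y : D.P),
      ι (D.ρ (twe_di_d1 p Q M (fun t ht => (hQ t ht).1) hQM g) y) =
        twe_wl_conj (R := 𝒪) (twe_di_hom p Q M (fun t ht => (hQ t ht).1) hQM).ker g (ι y))
    (t : ℕ) (ht : t ∈ Q) :
    twe_NewAt D.toLevel.H' (D.toLevel.dia t ht) t := by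
  obtain ⟨u, hu, hu1⟩ := twe_di_exists_gen p Q M (fun t ht => (hQ t ht).1) hQM t ht
  obtain ⟨g₀, hg₀⟩ := twe_di_dUnit_surjective M u
  refine twe_sna_level_gen D hQ hM hQM _
    (fun u h => MonoidHom.mem_ker.2 (twe_di_hom_eq_one_of_unitsMap p Q M _ hQM u h))
    (m := p ^ twe_di_exp p Q) hp.pow
    (fun u => MonoidHom.mem_ker.2 (twe_di_hom_pow_exp_mem p Q M _ hQM u)) F ι hι hψ t ht g₀
    (fun t' ht' => by rw [hg₀]; exact hu1 t' ht') (fun y => ?_)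
  rw [← hρ g₀ y]
  congr 3
  rw [← hu, ← hg₀]
  rfl

end level

section big

variable {𝒪 : Type} [CommRing 𝒪] [IsDomain 𝒪] [IsDiscreteValuationRing 𝒪]
  [IsAdicComplete (maximalIdeal 𝒪) 𝒪] [CharZero 𝒪]
  {N : ℕ} [NeZero N] {S : Finset ℕ} {θ : heckeAlgebra N 2 (↑S : Set ℕ) →+* ResidueField 𝒪}
  {B : twe_Base 𝒪 N S θ} {p : ℕ} {Q : Finset ℕ} [NeZero (twe_Nbal N Q ∅)]
  {L : twe_Level B p Q} {Th : Finset ℕ} [NeZero (twe_Nbal N Q Th)]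

theorem twe_sna_toBig_of (D : twe_mk_BigData L Th) (δ₀ : twe_Delta p Q × twe_Delta p Th)
    (m : D.toBig.Mb) :
    Algebra.lsmul 𝒪 𝒪 D.toBig.Mb
      (MonoidAlgebra.of 𝒪 (twe_Delta p Q × twe_Delta p Th) δ₀) m =
      D.ρ.asModuleEquiv.symm (D.ρ δ₀ (D.ρ.asModuleEquiv m)) := by
  have h := twe_fm_of_smul D.ρ δ₀ m
  exact (LinearEquiv.eq_symm_apply _).mpr h

/-- **NEW-AT-`t₀`, the big system, generic form** (`t₀ ∈ Q ∪ Th`, `δ₀` its diamond). -/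
theorem twe_sna_big_gen (D : twe_mk_BigData L Th) (hsq : Squarefree N)
    (hQ : ∀ t ∈ Q, t.Prime ∧ ¬ t ∣ N) (hTh : ∀ ℓ ∈ Th, ℓ.Prime ∧ ℓ ∣ N)
    {M : ℕ} [NeZero M] (hM : M = N * ∏ t ∈ Q, t) (htM : ∀ t : ↥(Q ∪ Th), (t : ℕ) ∣ M)
    (H : Subgroup (ZMod M)ˣ)
    (hH : ∀ u : (ZMod M)ˣ, (∀ t : ↥(Q ∪ Th), ZMod.unitsMap (htM t) u = 1) → u ∈ H)
    {m : ℕ} (hm : Odd m) (hHm : ∀ u : (ZMod M)ˣ, u ^ m ∈ H)
    (F : twe_sm_Frame M H (twe_sm_q (twe_Nbal N Q Th) (S ∪ Q)))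
    (ι : D.P →ₗ[𝒪] ↥(twe_wl_V 𝒪 𝒪 (twe_GamH M H))) (hι : Function.Injective ι)
    (hψ : ∀ (ℓ : twe_sm_Idx (twe_Nbal N Q Th) (S ∪ Q)) (y : D.P),
      ι (D.ψ (twe_sa_tau D.B'' ℓ) y) = twe_sm_TY 𝒪 F ℓ (ι y))
    (t₀ : ↥(Q ∪ Th)) (g₀ : Gamma0 M)
    (hg₀ : ∀ t : ↥(Q ∪ Th), (t : ℕ) ≠ (t₀ : ℕ) →
      ZMod.unitsMap (htM t) (twe_dUnit M g₀) = 1)
    (δ₀ : twe_Delta p Q × twe_Delta p Th)
    (hρ : ∀ y : D.P, ι (D.ρ δ₀ y) = twe_wl_conj (R := 𝒪) H g₀ (ι y)) :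
    twe_NewAt D.toBig.H'' (Algebra.lsmul 𝒪 𝒪 D.toBig.Mb
      (MonoidAlgebra.of 𝒪 (twe_Delta p Q × twe_Delta p Th) δ₀)) (t₀ : ℕ) := by
  have hP : ∀ t : ↥(Q ∪ Th), Fact (Nat.Prime (t : ℕ)) := twe_sar_fact hQ hTh
  have hN0 : NeZero (twe_sar_N0 N Th) := ⟨twe_sar_N0_ne_zero hTh⟩
  exact twe_naw_newAt (hP := hP) D.toBig.H'' _ (twe_sar_N0 N Th) (Q ∪ Th)
    (twe_sar_not_dvd hQ hTh hsq) (hM.trans (twe_sar_M_eq hQ hTh)) htM H hH hm hHm t₀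
    (∏ t ∈ (Q ∪ Th).erase (t₀ : ℕ), t) rfl (twe_sar_Nbal_erase hQ hTh t₀) F
    (ι.comp (D.ρ.asModuleEquiv : D.ρ.asModule →ₗ[𝒪] D.P))
    (hι.comp D.ρ.asModuleEquiv.injective)
    (fun ℓ x => by
      have h1 := twe_mk_toBig_smul D (D.toBig.H''.π (heckeAlgebra.T ℓ.2.1 ℓ.2.2.1 ℓ.2.2.2)) x
      change ι (D.ρ.asModuleEquiv (D.toBig.H''.π (heckeAlgebra.T ℓ.2.1 ℓ.2.2.1 ℓ.2.2.2) • x)) =
        twe_sm_TY 𝒪 F ℓ (ι (D.ρ.asModuleEquiv x))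
      rw [h1, LinearEquiv.apply_symm_apply]
      exact hψ ℓ _)
    g₀ (fun t ht => hg₀ t (fun h => ht (Subtype.ext h)))
    (fun x => by
      have h1 := twe_sna_toBig_of D δ₀ x
      change ι (D.ρ.asModuleEquiv (Algebra.lsmul 𝒪 𝒪 D.toBig.Mb
        (MonoidAlgebra.of 𝒪 (twe_Delta p Q × twe_Delta p Th) δ₀) x)) =
        twe_wl_conj (R := 𝒪) H g₀ (ι (D.ρ.asModuleEquiv x))
      rw [h1, LinearEquiv.apply_symm_apply]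
      exact hρ _)

variable (D : twe_mk_BigData L Th) (hp : Odd p) (hsq : Squarefree N)
  (hQ : ∀ t ∈ Q, t.Prime ∧ ¬ t ∣ N) (hTh : ∀ ℓ ∈ Th, ℓ.Prime ∧ ℓ ∣ N)
  {M : ℕ} [NeZero M] (hM : M = N * ∏ t ∈ Q, t) (htM : ∀ t : ↥(Q ∪ Th), (t : ℕ) ∣ M)
  (F : twe_sm_Frame M (twe_sar_H p hQ hTh htM) (twe_sm_q (twe_Nbal N Q Th) (S ∪ Q)))
  (ι : D.P →ₗ[𝒪] ↥(twe_wl_V 𝒪 𝒪 (twe_GamH M (twe_sar_H p hQ hTh htM))))
  (hι : Function.Injective ι)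
  (hψ : ∀ (ℓ : twe_sm_Idx (twe_Nbal N Q Th) (S ∪ Q)) (y : D.P),
    ι (D.ψ (twe_sa_tau D.B'' ℓ) y) = twe_sm_TY 𝒪 F ℓ (ι y))
  (hρ : ∀ (g : Gamma0 M) (y : D.P),
    ι (D.ρ (twe_di_pair p Q Th M (fun t ht => (hQ t ht).1)
        (fun t ht => htM ⟨t, Finset.mem_union_left _ ht⟩) (fun t ht => (hTh t ht).1)
        (fun t ht => htM ⟨t, Finset.mem_union_right _ ht⟩) (twe_dUnit M g)) y) =
      twe_wl_conj (R := 𝒪) (twe_sar_H p hQ hTh htM) g (ι y))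

include hp hsq hM hι hψ hρ in
/-- **NEW-AT-`t`, the big system, `t ∈ Q`**, for `H = ker ((ℤ/M)ˣ → Δ_Q × Δ_Th)`. -/
theorem twe_sna_bigQ (t : ℕ) (ht : t ∈ Q) :
    twe_NewAt D.toBig.H'' (D.toBig.diaQ t ht) t := by
  obtain ⟨g₀, hg₀, hg₁⟩ := twe_sar_exists_g0_Q p hQ hTh htM t ht
  obtain ⟨m, hm, hHm⟩ := twe_sar_exists_odd p hQ hTh htM hp
  refine twe_sna_big_gen D hsq hQ hTh hM htM _ (twe_sar_hH p hQ hTh htM) hm hHm F ι hι hψ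
    ⟨t, Finset.mem_union_left _ ht⟩ g₀ hg₁ (twe_gen p Q t ht, 1) (fun y => ?_)
  rw [← hρ g₀ y, hg₀]

include hp hsq hM hι hψ hρ in
/-- **NEW-AT-`t`, the big system, `t ∈ Th`**. -/
theorem twe_sna_bigTh (t : ℕ) (ht : t ∈ Th) :
    twe_NewAt D.toBig.H'' (D.toBig.diaTh t ht) t := by
  obtain ⟨g₀, hg₀, hg₁⟩ := twe_sar_exists_g0_Th p hQ hTh htM t ht
  obtain ⟨m, hm, hHm⟩ := twe_sar_exists_odd p hQ hTh htM hp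
  refine twe_sna_big_gen D hsq hQ hTh hM htM _ (twe_sar_hH p hQ hTh htM) hm hHm F ι hι hψ
    ⟨t, Finset.mem_union_right _ ht⟩ g₀ hg₁ (1, twe_gen p Th t ht) (fun y => ?_)
  rw [← hρ g₀ y, hg₀]

end big

end Fermat.Agent.TW
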