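/-
Project ONE MACHINE (S43), block [E] AUT, cell E/CarLocal, Galois packaging (helper6) = (DT-REP).

From the abstract Carayol lemma `twe_cl_main` (TW/Aut/CarLocal.lean) to a `GaloisRepAdic T`:
`T` a local Noetherian ring, `X` a faithful finite `T`-module with an adically continuous `T`-linear
action `α` of `G_ℚ` whose elements satisfy `X² - t(g) X + d(g)` (`d` a character), reducing to the
characteristic polynomials of an absolutely irreducible `ρbar : ResidualGaloisRep k`, `k` the residue
field of `T`; one element `g₀` whose equation splits with roots differing by a unit.  Then there is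
`ρ : GaloisRepAdic T` with `charpoly (ρ g) = X² - t(g) X + d(g)` for EVERY `g`, residual
representation equivalent to `ρbar` (hence absolutely irreducible), and `ρ g = 1` whenever
`α g = 1` (`twe_cg_main`).

Namespace `Fermat.Agent.TW`, prefix `twe_cg_`.
-/
import Mathlib
import Fermat.Prelude.Def_GaloisRep_Adic
import Fermat.Agent.JT3.Algebra.QuadGroup
import Fermat.Agent.JT3.Unram.TraceRigid
import Fermat.Agent.TW.Aut.CarLocal

set_option autoImplicit false
set_option linter.unusedSimpArgs false
set_option linter.unusedSectionVars false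

namespace Fermat.Agent.TW

open Polynomial Module TensorProduct Fermat.Agent.JT3

local notation "GQ" => (AlgebraicClosure ℚ ≃ₐ[ℚ] AlgebraicClosure ℚ)

/-! ### Transport of absolute irreducibility along an equivalence -/

section Transport

variable {k : Type} [Field k] {ρ₁ ρ₂ : ResidualGaloisRep k}

lemma twe_cg_baseChange_apply (e : ResidualGaloisRep.Equiv ρ₁ ρ₂) (K : Type) [Field K]
    [Algebra k K] (σ : GQ) (x : K ⊗[k] ρ₁.V) :
    e.toLinearEquiv.baseChange k K ρ₁.V ρ₂.V ((ρ₁.ρ σ).baseChange K x) =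
      (ρ₂.ρ σ).baseChange K (e.toLinearEquiv.baseChange k K ρ₁.V ρ₂.V x) := by
  induction x using TensorProduct.induction_on with
  | zero => simp only [map_zero]
  | tmul b v =>
    rw [LinearMap.baseChange_tmul, LinearEquiv.baseChange_tmul, LinearEquiv.baseChange_tmul,
      LinearMap.baseChange_tmul, e.map_apply]
  | add x y hx hy => simp only [map_add, hx, hy]

theorem twe_cg_abs_of_equiv (e : ResidualGaloisRep.Equiv ρ₁ ρ₂)
    (h : ρ₁.IsAbsolutelyIrreducible) : ρ₂.IsAbsolutelyIrreducible := by
  intro V hV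
  set K := AlgebraicClosure k
  set eK : (K ⊗[k] ρ₁.V) ≃ₗ[K] (K ⊗[k] ρ₂.V) := e.toLinearEquiv.baseChange k K ρ₁.V ρ₂.V with heK
  have hst : ∀ σ : GQ, ∀ x ∈ (V.comap eK.toLinearMap : Submodule K (K ⊗[k] ρ₁.V)),
      (ρ₁.baseChange K).ρ σ x ∈ (V.comap eK.toLinearMap : Submodule K (K ⊗[k] ρ₁.V)) := by
    intro σ x hx
    show eK ((ρ₁.ρ σ).baseChange K x) ∈ V
    rw [heK, twe_cg_baseChange_apply e K σ x]
    exact hV σ _ hx
  rcases h _ hst with h1 | h1
  · left
    rw [Submodule.eq_bot_iff]
    intro y hy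
    have : eK.symm y ∈ (V.comap eK.toLinearMap : Submodule K (K ⊗[k] ρ₁.V)) := by
      show eK (eK.symm y) ∈ V
      rw [LinearEquiv.apply_symm_apply]; exact hy
    rw [h1, Submodule.mem_bot] at this
    have h2 := congrArg eK this
    rwa [LinearEquiv.apply_symm_apply, map_zero] at h2
  · right
    rw [Submodule.eq_top_iff']
    intro y
    have : eK.symm y ∈ (V.comap eK.toLinearMap : Submodule K (K ⊗[k] ρ₁.V)) := by
      rw [h1]; trivial
    have h2 : eK (eK.symm y) ∈ V := this
    rwa [LinearEquiv.apply_symm_apply] at h2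

end Transport

/-! ### Burnside for a residual representation -/

section Burnside

variable {k : Type} [Field k]

/-- **Burnside**: the operators of an absolutely irreducible residual representation span
`End_k(V)`. -/
theorem twe_cg_span (ρbar : ResidualGaloisRep k) (habs : ρbar.IsAbsolutelyIrreducible) :
    Submodule.span k (Set.range ρbar.ρ) = ⊤ := by
  classical
  let kb := AlgebraicClosure k
  let b : Basis (Fin 2) k ρbar.V := Module.finBasisOfFinrankEq k ρbar.V ρbar.finrank_eq
  let bkb : Basis (Fin 2) kb (kb ⊗[k] ρbar.V) := Algebra.TensorProduct.basis kb b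
  let φ : k →+* kb := algebraMap k kb
  have hφ : IsLocalHom φ := by
    refine ⟨fun a ha => ?_⟩
    have h2 : algebraMap k kb a ≠ 0 := ha.ne_zero
    exact isUnit_iff_ne_zero.mpr fun h0 => h2 (by rw [h0, map_zero])
  let e : Basis (Fin 2 × Fin 2) k (Module.End k ρbar.V) := Basis.ofEquivFun (ur_tr_coord b)
  let e' : Basis (Fin 2 × Fin 2) kb (Module.End kb (kb ⊗[k] ρbar.V)) :=
    Basis.ofEquivFun (ur_tr_coord bkb)
  let Φ : Module.End k ρbar.V → Module.End kb (kb ⊗[k] ρbar.V) := fun f => f.baseChange kb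
  refine ur_tr_span_top_of_map φ e e' Φ ?_ _ ?_
  · rintro f ⟨i, j⟩
    rw [Basis.ofEquivFun_repr_apply, Basis.ofEquivFun_repr_apply, ur_tr_coord_apply,
      ur_tr_coord_apply]
    change LinearMap.toMatrix (Algebra.TensorProduct.basis kb b)
      (Algebra.TensorProduct.basis kb b) (f.baseChange kb) i j = _
    rw [LinearMap.toMatrix_baseChange, Matrix.map_apply]
  · have hnt : Nontrivial (ρbar.baseChange kb).V := by
      apply Module.nontrivial_of_finrank_pos (R := kb)
      rw [(ρbar.baseChange kb).finrank_eq]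
      norm_num
    have hirr : ∀ W : Submodule kb (kb ⊗[k] ρbar.V),
        (∀ g, W ≤ W.comap ((ρbar.baseChange kb).ρ g)) → W = ⊥ ∨ W = ⊤ :=
      fun W hW => habs W (fun σ x hx => hW σ hx)
    have h1 := qg_span_eq_top (ρ := (ρbar.baseChange kb).ρ) hirr
    have h2 : Φ '' Set.range ρbar.ρ = Set.range (ρbar.baseChange kb).ρ := by
      rw [← Set.range_comp]
      rfl
    rw [h2]
    exact h1

end Burnside

/-! ### The residual representation of a matrix representation -/

section Resid

variable {T : Type} [CommRing T] [IsLocalRing T]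

/-- `k ⊗_T T² ≅ k²` intertwines the base change of `toLin' M` with `M mod 𝔪`. -/
theorem twe_cg_pi_baseChange (M : Matrix (Fin 2) (Fin 2) T)
    (x : IsLocalRing.ResidueField T ⊗[T] (Fin 2 → T)) :
    TensorProduct.piScalarRight T (IsLocalRing.ResidueField T) (IsLocalRing.ResidueField T)
        (Fin 2) ((Matrix.toLin' M).baseChange (IsLocalRing.ResidueField T) x) =
      (M.map (IsLocalRing.residue T)).mulVec
        (TensorProduct.piScalarRight T (IsLocalRing.ResidueField T) (IsLocalRing.ResidueField T)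
          (Fin 2) x) := by
  induction x using TensorProduct.induction_on with
  | zero => simp only [map_zero, Matrix.mulVec_zero]
  | tmul c f =>
    rw [LinearMap.baseChange_tmul, TensorProduct.piScalarRight_apply,
      TensorProduct.piScalarRightHom_tmul, TensorProduct.piScalarRight_apply,
      TensorProduct.piScalarRightHom_tmul]
    funext i
    simp only [Matrix.toLin'_apply, Matrix.mulVec, dotProduct, Fin.sum_univ_two, Matrix.map_apply,
      Algebra.smul_def, IsLocalRing.ResidueField.algebraMap_eq, map_add, map_mul]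
    ring
  | add x y hx hy => simp only [map_add, hx, hy, Matrix.mulVec_add]

end Resid

/-! ### The main packaging theorem -/

section Main

variable {T : Type} [CommRing T] [IsLocalRing T] [IsNoetherianRing T]
  {Y : Type} [AddCommGroup Y] [Module T Y] [Module.Finite T Y]

/-- **(DT-REP)**: Carayol's lemma over a local Noetherian ring, as a `GaloisRepAdic`. -/
theorem twe_cg_main (hfaith : ∀ a : T, (∀ x : Y, a • x = 0) → a = 0)
    (α : GQ →* Module.End T Y) (hcont : GaloisActionIsAdicContinuous T α)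
    (t : GQ → T) (d : GQ →* Tˣ)
    (hCH : ∀ g, α g * α g - t g • α g + (d g : T) • 1 = 0)
    (ρbar : ResidualGaloisRep (IsLocalRing.ResidueField T))
    (habs : ρbar.IsAbsolutelyIrreducible)
    (htr : ∀ g, IsLocalRing.residue T (t g) =
      LinearMap.trace (IsLocalRing.ResidueField T) ρbar.V (ρbar.ρ g))
    (hdet : ∀ g, IsLocalRing.residue T (d g : T) = LinearMap.det (ρbar.ρ g))
    (g₀ : GQ) (a₁ a₂ : T) (ha : IsUnit (a₁ - a₂)) (ht₀ : t g₀ = a₁ + a₂)
    (hd₀ : (d g₀ : T) = a₁ * a₂) :
    ∃ ρ : GaloisRepAdic T,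
      (∀ g, LinearMap.charpoly (ρ.ρ g) = X ^ 2 - C (t g) * X + C (d g : T)) ∧
      (∀ g, LinearMap.trace T ρ.V (ρ.ρ g) = t g) ∧
      (∀ g, LinearMap.det (ρ.ρ g) = (d g : T)) ∧
      Nonempty (ResidualGaloisRep.Equiv ρ.residual ρbar) ∧
      ρ.residual.IsAbsolutelyIrreducible ∧
      (∀ g, α g = 1 → ρ.ρ g = 1) := by
  classical
  -- the matrix form of `ρbar`
  let b : Basis (Fin 2) (IsLocalRing.ResidueField T) ρbar.V :=
    Module.finBasisOfFinrankEq _ ρbar.V ρbar.finrank_eq
  let ψ : Module.End (IsLocalRing.ResidueField T) ρbar.V ≃ₐ[IsLocalRing.ResidueField T]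
      Matrix (Fin 2) (Fin 2) (IsLocalRing.ResidueField T) := LinearMap.toMatrixAlgEquiv b
  let ρm : GQ →* Matrix (Fin 2) (Fin 2) (IsLocalRing.ResidueField T) :=
    (ψ : Module.End (IsLocalRing.ResidueField T) ρbar.V →* _).comp ρbar.ρ
  have hρm : ∀ g, ρm g = LinearMap.toMatrix b b (ρbar.ρ g) := fun _ => rfl
  have hspan : Submodule.span (IsLocalRing.ResidueField T) (Set.range ρm) = ⊤ := by
    have h1 : Set.range ρm = ψ.toLinearMap '' Set.range ρbar.ρ := by
      rw [← Set.range_comp]; rfl
    rw [h1, Submodule.span_image, twe_cg_span ρbar habs, Submodule.map_top]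
    exact LinearMap.range_eq_top.mpr ψ.surjective
  have htr' : ∀ g, IsLocalRing.residue T (t g) = (ρm g).trace := by
    intro g
    rw [htr, hρm, LinearMap.trace_eq_matrix_trace _ b]
  have hdet' : ∀ g, IsLocalRing.residue T (d g : T) = (ρm g).det := by
    intro g
    rw [hdet, hρm, LinearMap.det_toMatrix b]
  obtain ⟨ρ, htrρ, hdetρ, ⟨Q, hQdet, hQ⟩, s, j, hj, hjα⟩ :=
    twe_cl_main hfaith α t d hCH ρm hspan htr' hdet' g₀ a₁ a₂ ha ht₀ hd₀
  -- the adic representation
  let ρL : GQ →* Module.End T (Fin 2 → T) :=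
    ((Matrix.toLinAlgEquiv' : Matrix (Fin 2) (Fin 2) T ≃ₐ[T] Module.End T (Fin 2 → T)) :
      Matrix (Fin 2) (Fin 2) T →* Module.End T (Fin 2 → T)).comp ρ
  have hρL : ∀ g, ρL g = Matrix.toLin' (ρ g) := fun _ => rfl
  have hcontL : GaloisActionIsAdicContinuous T ρL := by
    intro n
    obtain ⟨m, hm⟩ := twe_cl_cont (IsLocalRing.maximalIdeal T) j hj n
    obtain ⟨L, hL, hLσ⟩ := hcont m
    refine ⟨L, hL, fun σ hσ v => ?_⟩
    have h1 := (hm (ρ σ) (α σ) (hjα σ) (hLσ σ hσ)).1 v
    rw [hρL, Matrix.toLin'_apply]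
    exact h1
  let R : GaloisRepAdic T :=
    { V := Fin 2 → T
      finrank_eq := by rw [Module.finrank_fin_fun]
      ρ := ρL
      isAdicContinuous := hcontL }
  have hRρ : ∀ g, R.ρ g = Matrix.toLin' (ρ g) := fun _ => rfl
  -- the residual equivalence
  have hQunit : IsUnit Q := (Matrix.isUnit_iff_isUnit_det Q).mpr hQdet
  obtain ⟨Qu, hQu⟩ := hQunit
  let eQ : (Fin 2 → IsLocalRing.ResidueField T) ≃ₗ[IsLocalRing.ResidueField T]
      (Fin 2 → IsLocalRing.ResidueField T) :=
    { toFun := fun v => Q.mulVec v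
      map_add' := fun v w => Matrix.mulVec_add _ _ _
      map_smul' := fun c v => Matrix.mulVec_smul _ _ _
      invFun := fun v => ((Qu⁻¹ : (Matrix (Fin 2) (Fin 2) (IsLocalRing.ResidueField T))ˣ) :
        Matrix (Fin 2) (Fin 2) (IsLocalRing.ResidueField T)).mulVec v
      left_inv := fun v => by
        show Matrix.mulVec _ (Q.mulVec v) = v
        rw [Matrix.mulVec_mulVec, ← hQu, Units.inv_mul, Matrix.one_mulVec]
      right_inv := fun v => by
        show Q.mulVec (Matrix.mulVec _ v) = v
        rw [Matrix.mulVec_mulVec, ← hQu, Units.mul_inv, Matrix.one_mulVec] }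
  have heQ : ∀ v, eQ v = Q.mulVec v := fun _ => rfl
  let E : ρbar.V ≃ₗ[IsLocalRing.ResidueField T] (IsLocalRing.ResidueField T ⊗[T] (Fin 2 → T)) :=
    (b.equivFun.trans eQ).trans
      (TensorProduct.piScalarRight T (IsLocalRing.ResidueField T) (IsLocalRing.ResidueField T)
        (Fin 2)).symm
  have hE : ∀ x, TensorProduct.piScalarRight T (IsLocalRing.ResidueField T)
      (IsLocalRing.ResidueField T) (Fin 2) (E x) = Q.mulVec (b.equivFun x) := by
    intro x
    show TensorProduct.piScalarRight T _ _ (Fin 2)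
      ((TensorProduct.piScalarRight T _ _ (Fin 2)).symm (eQ (b.equivFun x))) = _
    rw [LinearEquiv.apply_symm_apply, heQ]
  have hequiv : ResidualGaloisRep.Equiv ρbar R.residual :=
    { toLinearEquiv := E
      map_apply := fun σ x => by
        apply (TensorProduct.piScalarRight T (IsLocalRing.ResidueField T)
          (IsLocalRing.ResidueField T) (Fin 2)).injective
        show TensorProduct.piScalarRight T _ _ (Fin 2) (E (ρbar.ρ σ x)) =
          TensorProduct.piScalarRight T _ _ (Fin 2)
            ((R.ρ σ).baseChange (IsLocalRing.ResidueField T) (E x))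
        rw [hRρ, twe_cg_pi_baseChange, hE, hE]
        have h1 : b.equivFun (ρbar.ρ σ x) = (ρm σ).mulVec (b.equivFun x) := by
          rw [hρm]
          exact (LinearMap.toMatrix_mulVec_repr b b (ρbar.ρ σ) x).symm
        rw [h1, Matrix.mulVec_mulVec, Matrix.mulVec_mulVec, hQ] }
  refine ⟨R, fun g => ?_, fun g => ?_, fun g => ?_, ⟨hequiv.symm⟩,
    twe_cg_abs_of_equiv hequiv habs, fun g hg => ?_⟩
  · rw [hRρ, Matrix.charpoly_toLin', Matrix.charpoly_fin_two, htrρ, hdetρ]
  · rw [hRρ, Matrix.trace_toLin'_eq, htrρ]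
  · rw [hRρ, LinearMap.det_toLin', hdetρ]
  · rw [hRρ]
    apply LinearMap.ext
    intro v
    rw [Matrix.toLin'_apply, Module.End.one_apply]
    apply hj
    funext i
    rw [hjα, hg, Module.End.one_apply]

end Main

end Fermat.Agent.TW
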