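/-
Project ONE MACHINE (S43), block [E] AUT, cell E/CarLocal, Galois packaging over `𝒪` (helper6).

`twe_cgo_main` = `twe_cg_main` (TW/Aut/CarLocalGal.lean) with the residual representation given over
the residue field of a local ring `𝒪` mapping to `T` by a local homomorphism (the situation of a
`CuspForm.HeckeGaloisRepDatum N S 𝒪 θ T` and of `twe_M1_stmt`): the transport of `ρbar` to
`ResidueField T` along `ResidueField.map (algebraMap 𝒪 T)`, including absolute irreducibility
(two-dimensional Brauer–Nesbitt `s58bn_seam`), is done here.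

Namespace `Fermat.Agent.TW`, prefix `twe_cgo_`.
-/
import Mathlib
import Fermat.Agent.S58.BN2
import Fermat.Agent.TW.Aut.CarLocalGal

set_option autoImplicit false
set_option linter.unusedSimpArgs false
set_option linter.unusedSectionVars false
set_option linter.style.haveILetI false

namespace Fermat.Agent.TW

open Polynomial Module TensorProduct

local notation "GQ" => (AlgebraicClosure ℚ ≃ₐ[ℚ] AlgebraicClosure ℚ)

section Main

variable {𝒪 : Type} [CommRing 𝒪] [IsLocalRing 𝒪]
  {T : Type} [CommRing T] [IsLocalRing T] [IsNoetherianRing T]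
  [Algebra 𝒪 T] [IsLocalHom (algebraMap 𝒪 T)]
  {Y : Type} [AddCommGroup Y] [Module T Y] [Module.Finite T Y]

/-- **(DT-REP) over `𝒪`**: Carayol's lemma over a local Noetherian `𝒪`-algebra `T`, as a
`GaloisRepAdic T`, from a residual representation over the residue field of `𝒪`. -/
theorem twe_cgo_main (h2 : (2 : IsLocalRing.ResidueField T) ≠ 0)
    (hfaith : ∀ a : T, (∀ x : Y, a • x = 0) → a = 0)
    (α : GQ →* Module.End T Y) (hcont : GaloisActionIsAdicContinuous T α)
    (t : GQ → T) (d : GQ →* Tˣ)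
    (hCH : ∀ g, α g * α g - t g • α g + (d g : T) • 1 = 0)
    (ρbar : ResidualGaloisRep (IsLocalRing.ResidueField 𝒪))
    (habs : ρbar.IsAbsolutelyIrreducible)
    (htr : ∀ g, IsLocalRing.residue T (t g) = IsLocalRing.ResidueField.map (algebraMap 𝒪 T)
      (LinearMap.trace (IsLocalRing.ResidueField 𝒪) ρbar.V (ρbar.ρ g)))
    (hdet : ∀ g, IsLocalRing.residue T (d g : T) = IsLocalRing.ResidueField.map (algebraMap 𝒪 T)
      (LinearMap.det (ρbar.ρ g)))
    (g₀ : GQ) (a₁ a₂ : T) (ha : IsUnit (a₁ - a₂)) (ht₀ : t g₀ = a₁ + a₂)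
    (hd₀ : (d g₀ : T) = a₁ * a₂) :
    ∃ ρ : GaloisRepAdic T,
      (∀ g, LinearMap.charpoly (ρ.ρ g) = X ^ 2 - C (t g) * X + C (d g : T)) ∧
      (∀ g, LinearMap.trace T ρ.V (ρ.ρ g) = t g) ∧
      (∀ g, LinearMap.det (ρ.ρ g) = (d g : T)) ∧
      Nonempty (ResidualGaloisRep.Equiv ρ.residual
        (ρbar.baseChangeAlong (IsLocalRing.ResidueField.map (algebraMap 𝒪 T)))) ∧
      ρ.residual.IsAbsolutelyIrreducible ∧
      (∀ g, α g = 1 → ρ.ρ g = 1) := by
  letI : Algebra (IsLocalRing.ResidueField 𝒪) (IsLocalRing.ResidueField T) :=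
    (IsLocalRing.ResidueField.map (algebraMap 𝒪 T)).toAlgebra
  have habs' : (ρbar.baseChangeAlong
      (IsLocalRing.ResidueField.map (algebraMap 𝒪 T))).IsAbsolutelyIrreducible := by
    refine Fermat.Agent.S58.s58bn_seam _ _ (IsLocalRing.ResidueField.map (algebraMap 𝒪 T))
      ρbar _ h2 habs fun σ => ?_
    change LinearMap.charpoly ((ρbar.ρ σ).baseChange (IsLocalRing.ResidueField T)) = _
    rw [LinearMap.charpoly_baseChange]
    rfl
  refine twe_cg_main hfaith α hcont t d hCH _ habs' (fun g => ?_) (fun g => ?_) g₀ a₁ a₂ ha ht₀ hd₀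
  · rw [htr]
    change _ = LinearMap.trace (IsLocalRing.ResidueField T) _
      ((ρbar.ρ g).baseChange (IsLocalRing.ResidueField T))
    rw [LinearMap.trace_baseChange]
    rfl
  · rw [hdet]
    change _ = LinearMap.det ((ρbar.ρ g).baseChange (IsLocalRing.ResidueField T))
    rw [LinearMap.det_baseChange]
    rfl

end Main

end Fermat.Agent.TW
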