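import Mathlib
import Fermat.Agent.TW.Aut.LocAlg
import Fermat.Agent.TW.Aut.CarLocalGalO

/-!
# Project ONE MACHINE, block [E], cell E/Datum (helper7): (DT-GEN) the generic Carayol datum

`𝒪` a Noetherian local ring, `B` a commutative `𝒪`-algebra acting faithfully on a finite
`𝒪`-module `X`, `α₀ : G_ℚ → End_𝒪 X` a continuous action commuting with `B`, with a `B`-valued
trace `tB` and an `𝒪`-valued determinant `ε` (`α₀(g)² - tB(g) α₀(g) + ε(g) = 0`), `θB : B → k_𝒪` a
character, `e ∈ B` an idempotent with `T := B ⧸ (1 - e)` local (helper3's `twe_la_main`), `ρbar`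
an absolutely irreducible residual representation with `tr ρbar = θB ∘ tB`, `det ρbar = ε mod 𝔪`,
and `g₀` with `tB g₀ = 0`, `ε g₀ = -1` (complex conjugation), `2 ∈ 𝒪ˣ`.

`twe_dt_gen`: there is `ρ : GaloisRepAdic T` with `charpoly ρ(g) = X² - [tB g] X + ε(g)` for EVERY
`g`, residually `ρbar` (absolutely irreducible).  Proof: helper6's `twe_cgo_main` applied to the
faithful finite `T`-module `Y := e X` (`twe_dt_Y`).

Namespace `Fermat.Agent.TW`, prefix `twe_dt_`.
-/

set_option autoImplicit false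
set_option linter.style.haveILetI false
set_option linter.unusedSectionVars false

namespace Fermat.Agent.TW

open IsLocalRing Polynomial

local notation "GQ" => (AlgebraicClosure ℚ ≃ₐ[ℚ] AlgebraicClosure ℚ)
local notation "Qbar" => AlgebraicClosure ℚ

section Y

variable {B : Type} [CommRing B]

/-- the `e`-part `{x | e x = x}` of a `B`-module -/
def twe_dt_Y (X : Type) [AddCommGroup X] [Module B X] (e : B) : Submodule B X where
  carrier := {x | e • x = x}
  add_mem' := by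
    intro a b ha hb
    have ha' : e • a = a := ha
    have hb' : e • b = b := hb
    show e • (a + b) = a + b
    rw [smul_add, ha', hb']
  zero_mem' := smul_zero e
  smul_mem' := by
    intro c x hx
    have hx' : e • x = x := hx
    show e • c • x = c • x
    rw [smul_comm, hx']

variable {X : Type} [AddCommGroup X] [Module B X] (e : B)

theorem twe_dt_mem_Y {x : X} : x ∈ twe_dt_Y X e ↔ e • x = x := Iff.rfl

theorem twe_dt_Y_fixed (y : ↥(twe_dt_Y X e)) : e • (y : X) = y := y.2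

theorem twe_dt_e_smul_mem (he : IsIdempotentElem e) (x : X) : e • x ∈ twe_dt_Y X e := by
  show e • e • x = e • x
  rw [← mul_smul, he.eq]

theorem twe_dt_Y_torsion :
    Module.IsTorsionBySet B ↥(twe_dt_Y X e) ((Ideal.span {1 - e} : Ideal B) : Set B) := by
  intro y a
  obtain ⟨c, hc⟩ := Ideal.mem_span_singleton'.mp a.2
  apply Subtype.ext
  have hy : e • (y : X) = y := y.2
  rw [Submodule.coe_smul, ← hc, mul_smul, sub_smul, one_smul, hy, sub_self, smul_zero]
  rfl

/-- `e X` is a module over `T = B ⧸ (1 - e)`. -/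
noncomputable instance twe_dt_moduleT : Module (twe_la_T e) ↥(twe_dt_Y X e) :=
  (twe_dt_Y_torsion e).module

theorem twe_dt_mk_smul (b : B) (y : ↥(twe_dt_Y X e)) :
    (Ideal.Quotient.mk (Ideal.span {1 - e}) b : twe_la_T e) • y = b • y := rfl

theorem twe_dt_coe_mk_smul (b : B) (y : ↥(twe_dt_Y X e)) :
    (((Ideal.Quotient.mk (Ideal.span {1 - e}) b : twe_la_T e) • y : ↥(twe_dt_Y X e)) : X) =
      b • (y : X) := rfl

/-- `T` acts faithfully on `e X` when `B` acts faithfully on `X`. -/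
theorem twe_dt_faithful (he : IsIdempotentElem e)
    (hfaithB : ∀ b : B, (∀ x : X, b • x = 0) → b = 0)
    (a : twe_la_T e) (ha : ∀ y : ↥(twe_dt_Y X e), a • y = 0) : a = 0 := by
  obtain ⟨b, rfl⟩ := Ideal.Quotient.mk_surjective a
  have h1 : b * e = 0 := by
    apply hfaithB
    intro x
    have h2 := ha ⟨e • x, twe_dt_e_smul_mem e he x⟩
    have h3 : b • e • x = 0 := congrArg Subtype.val h2
    rw [mul_smul]
    exact h3
  rw [Ideal.Quotient.eq_zero_iff_mem, Ideal.mem_span_singleton']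
  exact ⟨b, by rw [mul_sub, mul_one, h1, sub_zero]⟩

end Y

section O

variable {𝒪 : Type} [CommRing 𝒪] {B : Type} [CommRing B] [Algebra 𝒪 B]
  {X : Type} [AddCommGroup X] [Module 𝒪 X] [Module B X] [IsScalarTower 𝒪 B X] (e : B)

theorem twe_dt_algebraMap_smul (c : 𝒪) (y : ↥(twe_dt_Y X e)) :
    algebraMap 𝒪 (twe_la_T e) c • y = c • y := by
  apply Subtype.ext
  show algebraMap 𝒪 B c • (y : X) = c • (y : X)
  rw [algebraMap_smul]

instance twe_dt_towerT : IsScalarTower 𝒪 (twe_la_T e) ↥(twe_dt_Y X e) := by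
  refine ⟨fun c t y => ?_⟩
  obtain ⟨b, rfl⟩ := Ideal.Quotient.mk_surjective t
  apply Subtype.ext
  show (c • b) • (y : X) = c • b • (y : X)
  rw [smul_assoc]

/-- the projection `X → e X`, `x ↦ e x`. -/
def twe_dt_proj (he : IsIdempotentElem e) : X →ₗ[𝒪] ↥(twe_dt_Y X e) where
  toFun x := ⟨e • x, twe_dt_e_smul_mem e he x⟩
  map_add' x y := Subtype.ext (smul_add e x y)
  map_smul' c x := Subtype.ext (smul_comm e c x)

theorem twe_dt_proj_surjective (he : IsIdempotentElem e) :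
    Function.Surjective (twe_dt_proj (𝒪 := 𝒪) (X := X) e he) := fun y =>
  ⟨(y : X), Subtype.ext (twe_dt_Y_fixed e y)⟩

theorem twe_dt_finiteT [Module.Finite 𝒪 X] (he : IsIdempotentElem e) :
    Module.Finite (twe_la_T e) ↥(twe_dt_Y X e) := by
  haveI : Module.Finite 𝒪 ↥(twe_dt_Y X e) :=
    Module.Finite.of_surjective (twe_dt_proj (𝒪 := 𝒪) e he) (twe_dt_proj_surjective e he)
  exact Module.Finite.of_restrictScalars_finite 𝒪 (twe_la_T e) ↥(twe_dt_Y X e)

/-- the Galois action on `e X`. -/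
noncomputable def twe_dt_alpha (α₀ : GQ →* Module.End 𝒪 X)
    (hcomm : ∀ (g : GQ) (b : B) (x : X), α₀ g (b • x) = b • α₀ g x) :
    GQ →* Module.End (twe_la_T e) ↥(twe_dt_Y X e) where
  toFun g :=
    { toFun := fun y => ⟨α₀ g y, by
        show e • α₀ g (y : X) = α₀ g (y : X)
        rw [← hcomm, twe_dt_Y_fixed]⟩
      map_add' := fun y z => Subtype.ext (map_add (α₀ g) (y : X) (z : X))
      map_smul' := fun t y => by
        obtain ⟨b, rfl⟩ := Ideal.Quotient.mk_surjective t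
        exact Subtype.ext (hcomm g b (y : X)) }
  map_one' := by
    refine LinearMap.ext fun y => Subtype.ext ?_
    show α₀ 1 (y : X) = y
    rw [map_one, Module.End.one_apply]
  map_mul' g h := by
    refine LinearMap.ext fun y => Subtype.ext ?_
    show α₀ (g * h) (y : X) = α₀ g (α₀ h (y : X))
    rw [map_mul, Module.End.mul_apply]

theorem twe_dt_alpha_coe (α₀ : GQ →* Module.End 𝒪 X)
    (hcomm : ∀ (g : GQ) (b : B) (x : X), α₀ g (b • x) = b • α₀ g x) (g : GQ)
    (y : ↥(twe_dt_Y X e)) :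
    ((twe_dt_alpha e α₀ hcomm g y : ↥(twe_dt_Y X e)) : X) = α₀ g (y : X) := rfl

end O

section main

variable {𝒪 : Type} [CommRing 𝒪] [IsLocalRing 𝒪] {B : Type} [CommRing B] [Algebra 𝒪 B]
  {X : Type} [AddCommGroup X] [Module 𝒪 X] [Module B X] [IsScalarTower 𝒪 B X]
  [Module.Finite 𝒪 X]

/-- continuity of the Galois action on `e X` for the `𝔪_T`-adic topology. -/
theorem twe_dt_alpha_cont (e : B) (he : IsIdempotentElem e)
    [IsLocalRing (twe_la_T e)] [IsLocalHom (algebraMap 𝒪 (twe_la_T e))]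
    (α₀ : GQ →* Module.End 𝒪 X)
    (hcomm : ∀ (g : GQ) (b : B) (x : X), α₀ g (b • x) = b • α₀ g x)
    (hcont₀ : GaloisActionIsAdicContinuous 𝒪 α₀) :
    GaloisActionIsAdicContinuous (twe_la_T e) (twe_dt_alpha e α₀ hcomm) := by
  intro n
  obtain ⟨L, hL, h1⟩ := hcont₀ n
  refine ⟨L, hL, fun σ hσ y => ?_⟩
  have hmap : ∀ c ∈ maximalIdeal 𝒪 ^ n,
      algebraMap 𝒪 (twe_la_T e) c ∈ maximalIdeal (twe_la_T e) ^ n := by
    intro c hc
    have h2 : (maximalIdeal 𝒪 ^ n).map (algebraMap 𝒪 (twe_la_T e)) ≤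
        maximalIdeal (twe_la_T e) ^ n := by
      rw [Ideal.map_pow]
      exact Ideal.pow_right_mono (Ideal.map_le_iff_le_comap.mpr fun a ha =>
        Ideal.mem_comap.mpr (map_nonunit (algebraMap 𝒪 (twe_la_T e)) a ha)) n
    exact h2 (Ideal.mem_map_of_mem _ hc)
  have key : ∀ x ∈ (maximalIdeal 𝒪 ^ n) • (⊤ : Submodule 𝒪 X),
      twe_dt_proj (𝒪 := 𝒪) e he x ∈
        (maximalIdeal (twe_la_T e) ^ n) • (⊤ : Submodule (twe_la_T e) ↥(twe_dt_Y X e)) := by
    intro x hx
    refine Submodule.smul_induction_on hx ?_ ?_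
    · intro c hc w _
      rw [map_smul, ← twe_dt_algebraMap_smul]
      exact Submodule.smul_mem_smul (hmap c hc) Submodule.mem_top
    · intro x y hx hy
      rw [map_add]
      exact Submodule.add_mem _ hx hy
  have h3 := key _ (h1 σ hσ (y : X))
  have h4 : twe_dt_proj (𝒪 := 𝒪) e he (α₀ σ (y : X) - (y : X)) =
      twe_dt_alpha e α₀ hcomm σ y - y := by
    apply Subtype.ext
    show e • (α₀ σ (y : X) - (y : X)) = α₀ σ (y : X) - (y : X)
    rw [smul_sub, ← hcomm, twe_dt_Y_fixed]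
  rw [h4] at h3
  exact h3

/-- **(DT-GEN)**: the generic Carayol datum over `T = B ⧸ (1 - e)`. -/
theorem twe_dt_gen [IsNoetherianRing 𝒪]
    (hfaithB : ∀ b : B, (∀ x : X, b • x = 0) → b = 0)
    (θB : B →ₐ[𝒪] ResidueField 𝒪) (e : B) (he : IsIdempotentElem e)
    [IsLocalRing (twe_la_T e)] [IsLocalHom (algebraMap 𝒪 (twe_la_T e))]
    [IsNoetherianRing (twe_la_T e)]
    (hres : ∀ b : B, residue (twe_la_T e) (Ideal.Quotient.mk _ b) =
      ResidueField.map (algebraMap 𝒪 (twe_la_T e)) (θB b))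
    (h2 : IsUnit (2 : 𝒪))
    (α₀ : GQ →* Module.End 𝒪 X)
    (hcomm : ∀ (g : GQ) (b : B) (x : X), α₀ g (b • x) = b • α₀ g x)
    (hcont₀ : GaloisActionIsAdicContinuous 𝒪 α₀)
    (tB : GQ → B) (ε : GQ →* 𝒪)
    (hCH₀ : ∀ (g : GQ) (x : X), α₀ g (α₀ g x) - tB g • α₀ g x + ε g • x = 0)
    (ρbar : ResidualGaloisRep (ResidueField 𝒪)) (habs : ρbar.IsAbsolutelyIrreducible)
    (htr₀ : ∀ g, θB (tB g) = LinearMap.trace (ResidueField 𝒪) ρbar.V (ρbar.ρ g))
    (hdet₀ : ∀ g, residue 𝒪 (ε g) = LinearMap.det (ρbar.ρ g))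
    (g₀ : GQ) (ht₀ : tB g₀ = 0) (hε₀ : ε g₀ = -1) :
    ∃ ρ : GaloisRepAdic (twe_la_T e),
      (∀ g, LinearMap.charpoly (ρ.ρ g) =
        Polynomial.X ^ 2 - C (Ideal.Quotient.mk (Ideal.span {1 - e}) (tB g)) * Polynomial.X +
          C (algebraMap 𝒪 (twe_la_T e) (ε g))) ∧
      ρ.residual.IsAbsolutelyIrreducible ∧
      Nonempty (ResidualGaloisRep.Equiv ρ.residual
        (ρbar.baseChangeAlong (ResidueField.map (algebraMap 𝒪 (twe_la_T e))))) ∧
      (∀ g, (∀ x : X, e • x = x → α₀ g x = x) → ρ.ρ g = 1) := by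
  haveI := twe_dt_finiteT (𝒪 := 𝒪) (X := X) e he
  -- the determinant character
  let d : GQ →* (twe_la_T e)ˣ :=
    (((algebraMap 𝒪 (twe_la_T e) : 𝒪 →+* twe_la_T e) : 𝒪 →* twe_la_T e).comp ε).toHomUnits
  have hd : ∀ g, ((d g : (twe_la_T e)ˣ) : twe_la_T e) = algebraMap 𝒪 (twe_la_T e) (ε g) :=
    fun g => rfl
  have h2T : IsUnit (2 : twe_la_T e) := by
    have := h2.map (algebraMap 𝒪 (twe_la_T e))
    rwa [map_ofNat] at this
  have h2k : (2 : ResidueField (twe_la_T e)) ≠ 0 := by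
    have := h2T.map (residue (twe_la_T e))
    rw [map_ofNat] at this
    exact this.ne_zero
  obtain ⟨ρ, hρ1, -, -, hρ4, hρ5, hρ6⟩ := twe_cgo_main (𝒪 := 𝒪) (T := twe_la_T e)
    (Y := ↥(twe_dt_Y X e)) h2k (twe_dt_faithful e he hfaithB) (twe_dt_alpha e α₀ hcomm)
    (twe_dt_alpha_cont e he α₀ hcomm hcont₀)
    (fun g => Ideal.Quotient.mk (Ideal.span {1 - e}) (tB g)) d
    (fun g => by
      refine LinearMap.ext fun y => Subtype.ext ?_
      have h5 := hCH₀ g (y : X)
      have h6 : algebraMap 𝒪 B (ε g) • (y : X) = ε g • (y : X) := algebraMap_smul B _ _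
      rw [← h6] at h5
      exact h5)
    ρbar habs
    (fun g => by rw [hres, htr₀])
    (fun g => by rw [hd, ← hdet₀, ResidueField.map_residue])
    g₀ 1 (-1)
    (by
      have h7 : (1 : twe_la_T e) - (-1) = 2 := by ring
      rw [h7]
      exact h2T)
    (by
      show Ideal.Quotient.mk (Ideal.span {1 - e}) (tB g₀) = 1 + (-1)
      rw [ht₀, map_zero, add_neg_cancel])
    (by rw [hd, hε₀, map_neg, map_one, one_mul])
  refine ⟨ρ, fun g => ?_, hρ5, hρ4, fun g hg => hρ6 g ?_⟩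
  · rw [hρ1 g, hd]
  · refine LinearMap.ext fun y => Subtype.ext ?_
    show α₀ g (y : X) = y
    exact hg _ (twe_dt_Y_fixed e y)

end main

end Fermat.Agent.TW
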