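import Mathlib
import Fermat.Agent.TW.Aut.DatumGen

/-!
# Project ONE MACHINE, block [E], cell E/Datum (helper7): (DT-GEN), action form

`twe_dt_gen_act` = `twe_dt_gen` with the `B`-module structure of `X` given by an injective
`𝒪`-algebra homomorphism `act : B →ₐ[𝒪] End_𝒪 X` (e.g. the inclusion of a commutative subalgebra of
`End_𝒪 X`): no `Module B X` instance in the statement.

Namespace `Fermat.Agent.TW`, prefix `twe_dt_`.
-/

set_option autoImplicit false
set_option linter.style.haveILetI false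
set_option linter.unusedSectionVars false

namespace Fermat.Agent.TW

open IsLocalRing Polynomial

local notation "GQ" => (AlgebraicClosure ℚ ≃ₐ[ℚ] AlgebraicClosure ℚ)
local notation "Qbar" => AlgebraicClosure ℚ

/-- **(DT-GEN), action form.** -/
theorem twe_dt_gen_act {𝒪 : Type} [CommRing 𝒪] [IsLocalRing 𝒪] [IsNoetherianRing 𝒪]
    {B : Type} [CommRing B] [Algebra 𝒪 B]
    {M : Type} [AddCommGroup M] [Module 𝒪 M] [Module.Finite 𝒪 M]
    (act : B →ₐ[𝒪] Module.End 𝒪 M) (hact : Function.Injective act)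
    (θB : B →ₐ[𝒪] ResidueField 𝒪) (e : B) (he : IsIdempotentElem e)
    [IsLocalRing (twe_la_T e)] [IsLocalHom (algebraMap 𝒪 (twe_la_T e))]
    [IsNoetherianRing (twe_la_T e)]
    (hres : ∀ b : B, residue (twe_la_T e) (Ideal.Quotient.mk _ b) =
      ResidueField.map (algebraMap 𝒪 (twe_la_T e)) (θB b))
    (h2 : IsUnit (2 : 𝒪))
    (α₀ : GQ →* Module.End 𝒪 M)
    (hcomm : ∀ (g : GQ) (b : B), α₀ g * act b = act b * α₀ g)
    (hcont₀ : GaloisActionIsAdicContinuous 𝒪 α₀)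
    (tB : GQ → B) (ε : GQ →* 𝒪)
    (hCH₀ : ∀ g : GQ, α₀ g * α₀ g - act (tB g) * α₀ g + ε g • (1 : Module.End 𝒪 M) = 0)
    (ρbar : ResidualGaloisRep (ResidueField 𝒪)) (habs : ρbar.IsAbsolutelyIrreducible)
    (htr₀ : ∀ g, θB (tB g) = LinearMap.trace (ResidueField 𝒪) ρbar.V (ρbar.ρ g))
    (hdet₀ : ∀ g, residue 𝒪 (ε g) = LinearMap.det (ρbar.ρ g))
    (g₀ : GQ) (ht₀ : tB g₀ = 0) (hε₀ : ε g₀ = -1) :
    ∃ ρ : GaloisRepAdic (twe_la_T e),
      (∀ g, LinearMap.charpoly (ρ.ρ g) =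
        X ^ 2 - C (Ideal.Quotient.mk (Ideal.span {1 - e}) (tB g)) * X +
          C (algebraMap 𝒪 (twe_la_T e) (ε g))) ∧
      ρ.residual.IsAbsolutelyIrreducible ∧
      Nonempty (ResidualGaloisRep.Equiv ρ.residual
        (ρbar.baseChangeAlong (ResidueField.map (algebraMap 𝒪 (twe_la_T e))))) ∧
      (∀ g, α₀ g = 1 → ρ.ρ g = 1) := by
  letI : Module B M := Module.compHom M (act : B →+* Module.End 𝒪 M)
  have hsmul : ∀ (b : B) (x : M), b • x = act b x := fun _ _ => rfl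
  haveI : IsScalarTower 𝒪 B M := by
    refine ⟨fun c b x => ?_⟩
    rw [hsmul, hsmul, map_smul, LinearMap.smul_apply]
  obtain ⟨ρ, h1, h2', h3, h4⟩ := twe_dt_gen (𝒪 := 𝒪) (B := B) (X := M)
    (fun b hb => hact (by
      rw [map_zero]
      exact LinearMap.ext fun x => hb x))
    θB e he hres h2 α₀
    (fun g b x => by
      rw [hsmul, hsmul]
      exact LinearMap.congr_fun (hcomm g b) x)
    hcont₀ tB ε
    (fun g x => by
      have h5 := LinearMap.congr_fun (hCH₀ g) x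
      rw [hsmul]
      exact h5)
    ρbar habs htr₀ hdet₀ g₀ ht₀ hε₀
  refine ⟨ρ, h1, h2', h3, fun g hg => h4 g fun x _ => ?_⟩
  rw [hg, Module.End.one_apply]

end Fermat.Agent.TW
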