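import Mathlib
import Fermat.Agent.JT3.Unram.Final
import Fermat.Agent.JT3.Pack.FlatHecke
import Fermat.Agent.FF.Car.Padic

/-!
# Project ONE MACHINE, block [E], cell E/Datum (helper7): (DT-BC) base change of the Tate package
from `ℤ_p` to `𝒪`

`D : pk_Tate p N S`, `𝒪` a `ℤ_p`-algebra.  `M := 𝒪 ⊗[ℤ_p] D.Tp`, with the Galois action
`twe_dt_bc 𝒪 D.ρ g = (D.ρ g).baseChange 𝒪` (adically continuous: `twe_dt_bc_cont`) and the Hecke
family `(D.Tl ℓ).baseChange 𝒪` (`ℓ` good), commuting (`twe_dt_famO_comm`) and commuting with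
Galois (`twe_dt_famO_comm_rho`).  Characters of `ℤ_p[Tl ℓ]` extend to `𝒪[(Tl ℓ) ⊗ 𝒪]` with the
value at EVERY base-changed element (`twe_dt_extend`).

Namespace `Fermat.Agent.TW`, prefix `twe_dt_`.
-/

set_option autoImplicit false
set_option linter.style.haveILetI false
set_option linter.unusedSectionVars false

namespace Fermat.Agent.TW

open IsLocalRing Fermat.Agent.JT3 TensorProduct

local notation "GQ" => (AlgebraicClosure ℚ ≃ₐ[ℚ] AlgebraicClosure ℚ)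
local notation "Qbar" => AlgebraicClosure ℚ

section bc

variable {p : ℕ} [Fact p.Prime] {𝒪 : Type} [CommRing 𝒪] [Algebra ℤ_[p] 𝒪]
  {Tp : Type} [AddCommGroup Tp] [Module ℤ_[p] Tp]

/-- the base-changed action. -/
noncomputable def twe_dt_bc (𝒪 : Type) [CommRing 𝒪] [Algebra ℤ_[p] 𝒪]
    (ρ : GQ →* Module.End ℤ_[p] Tp) : GQ →* Module.End 𝒪 (𝒪 ⊗[ℤ_[p]] Tp) where
  toFun g := (ρ g).baseChange 𝒪
  map_one' := by rw [map_one, LinearMap.baseChange_one]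
  map_mul' g h := by rw [map_mul, LinearMap.baseChange_mul]

theorem twe_dt_bc_apply (ρ : GQ →* Module.End ℤ_[p] Tp) (g : GQ) :
    twe_dt_bc 𝒪 ρ g = (ρ g).baseChange 𝒪 := rfl

end bc

section cont

variable {p : ℕ} [Fact p.Prime] {𝒪 : Type} [CommRing 𝒪] [IsLocalRing 𝒪] [Algebra ℤ_[p] 𝒪]
  {Tp : Type} [AddCommGroup Tp] [Module ℤ_[p] Tp]

/-- base change preserves adic continuity. -/
theorem twe_dt_bc_cont (hp𝒪 : (p : 𝒪) ∈ maximalIdeal 𝒪) (ρ : GQ →* Module.End ℤ_[p] Tp)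
    (hρ : GaloisActionIsAdicContinuous ℤ_[p] ρ) :
    GaloisActionIsAdicContinuous 𝒪 (twe_dt_bc 𝒪 ρ) := by
  intro n
  obtain ⟨L, hL, h1⟩ := hρ n
  refine ⟨L, hL, fun σ hσ => ?_⟩
  have hloc : ∀ a ∈ maximalIdeal ℤ_[p], algebraMap ℤ_[p] 𝒪 a ∈ maximalIdeal 𝒪 := by
    intro a ha
    rw [PadicInt.maximalIdeal_eq_span_p, Ideal.mem_span_singleton'] at ha
    obtain ⟨b, rfl⟩ := ha
    rw [map_mul, map_natCast]
    exact Ideal.mul_mem_left _ _ hp𝒪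
  have hmap : (maximalIdeal ℤ_[p] ^ n).map (algebraMap ℤ_[p] 𝒪) ≤ maximalIdeal 𝒪 ^ n := by
    rw [Ideal.map_pow]
    exact Ideal.pow_right_mono (Ideal.map_le_iff_le_comap.mpr fun a ha =>
      Ideal.mem_comap.mpr (hloc a ha)) n
  have hpure : ∀ (b : 𝒪) (v : Tp),
      (ρ σ).baseChange 𝒪 (b ⊗ₜ[ℤ_[p]] v) - b ⊗ₜ[ℤ_[p]] v ∈
        (maximalIdeal 𝒪 ^ n) • (⊤ : Submodule 𝒪 (𝒪 ⊗[ℤ_[p]] Tp)) := by
    intro b v
    rw [LinearMap.baseChange_tmul, ← TensorProduct.tmul_sub]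
    refine Submodule.smul_induction_on (p := fun x => b ⊗ₜ[ℤ_[p]] x ∈
      (maximalIdeal 𝒪 ^ n) • (⊤ : Submodule 𝒪 (𝒪 ⊗[ℤ_[p]] Tp))) (h1 σ hσ v) ?_ ?_
    · intro a ha w _
      rw [TensorProduct.tmul_smul, TensorProduct.smul_tmul', Algebra.smul_def, ← smul_eq_mul,
        ← TensorProduct.smul_tmul']
      exact Submodule.smul_mem_smul (hmap (Ideal.mem_map_of_mem _ ha)) Submodule.mem_top
    · intro x y hx hy
      rw [TensorProduct.tmul_add]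
      exact Submodule.add_mem _ hx hy
  intro w
  rw [twe_dt_bc_apply]
  induction w using TensorProduct.induction_on with
  | zero => rw [map_zero, sub_zero]; exact Submodule.zero_mem _
  | tmul b v => exact hpure b v
  | add x y hx hy =>
    rw [map_add, add_sub_add_comm]
    exact Submodule.add_mem _ hx hy

end cont

section B

variable {p : ℕ} [Fact p.Prime] {N : ℕ} [NeZero N] {S : Finset ℕ}

/-- the good primes -/
abbrev twe_dt_Idx (N : ℕ) (S : Finset ℕ) : Type := {ℓ : ℕ // pk_Good N S ℓ}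

/-- the Hecke family of a Tate package, indexed by the good primes -/
def twe_dt_fam (D : pk_Tate p N S) : twe_dt_Idx N S → Module.End ℤ_[p] D.Tp := fun i => D.Tl i.1

theorem twe_dt_range_fam (D : pk_Tate p N S) :
    Set.range (twe_dt_fam D) = pk_heckeSet N S D.Tl := by
  ext T
  constructor
  · rintro ⟨i, rfl⟩
    exact ⟨i.1, i.2, rfl⟩
  · rintro ⟨ℓ, hℓ, rfl⟩
    exact ⟨⟨ℓ, hℓ⟩, rfl⟩

variable (𝒪 : Type) [CommRing 𝒪] [Algebra ℤ_[p] 𝒪]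

theorem twe_dt_famO_comm (D : pk_Tate p N S) (i j : twe_dt_Idx N S) :
    (twe_dt_fam D i).baseChange 𝒪 * (twe_dt_fam D j).baseChange 𝒪 =
      (twe_dt_fam D j).baseChange 𝒪 * (twe_dt_fam D i).baseChange 𝒪 := by
  unfold twe_dt_fam
  rw [← LinearMap.baseChange_mul, ← LinearMap.baseChange_mul, (D.Tl_comm i.1 j.1).eq]

theorem twe_dt_famO_comm_rho (D : pk_Tate p N S) (g : GQ) (i : twe_dt_Idx N S) :
    twe_dt_bc 𝒪 D.ρ g * (twe_dt_fam D i).baseChange 𝒪 =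
      (twe_dt_fam D i).baseChange 𝒪 * twe_dt_bc 𝒪 D.ρ g := by
  unfold twe_dt_fam
  rw [twe_dt_bc_apply, ← LinearMap.baseChange_mul, ← LinearMap.baseChange_mul,
    (D.Tl_ρ i.1 g).eq]

/-- **extension of characters**, with the value at every base-changed element. -/
theorem twe_dt_extend [Module.Flat ℤ_[p] 𝒪] (D : pk_Tate p N S) {R : Type} [CommRing R]
    [Algebra ℤ_[p] R] [Algebra 𝒪 R] [IsScalarTower ℤ_[p] 𝒪 R]
    (φ : ↥(Algebra.adjoin ℤ_[p] (Set.range (twe_dt_fam D))) →ₐ[ℤ_[p]] R) :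
    ∃ χ₀ : ↥(Algebra.adjoin 𝒪 (Set.range fun i => (twe_dt_fam D i).baseChange 𝒪)) →ₐ[𝒪] R,
      ∀ f : ↥(Algebra.adjoin ℤ_[p] (Set.range (twe_dt_fam D))),
        χ₀ ⟨(f : Module.End ℤ_[p] D.Tp).baseChange 𝒪, pkf_baseChange_mem (twe_dt_fam D) f.2⟩ =
          φ f := by
  let ρ' : 𝒪 ⊗[ℤ_[p]] ↥(Algebra.adjoin ℤ_[p] (Set.range (twe_dt_fam D))) →ₐ[𝒪] R :=
    Algebra.TensorProduct.lift (Algebra.ofId 𝒪 R) φ (fun _ _ => Commute.all _ _)
  refine ⟨ρ'.comp (pkf_equiv (A := 𝒪) (twe_dt_fam D)).symm.toAlgHom, fun f => ?_⟩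
  have h1 : (pkf_equiv (A := 𝒪) (twe_dt_fam D)).symm
      ⟨(f : Module.End ℤ_[p] D.Tp).baseChange 𝒪, pkf_baseChange_mem (twe_dt_fam D) f.2⟩ =
      (1 : 𝒪) ⊗ₜ[ℤ_[p]] f := by
    rw [AlgEquiv.symm_apply_eq]
    apply Subtype.ext
    rw [pkf_equiv_tmul, one_smul]
  show ρ' ((pkf_equiv (A := 𝒪) (twe_dt_fam D)).symm _) = _
  rw [h1]
  show Algebra.TensorProduct.lift (Algebra.ofId 𝒪 R) φ _ _ = _
  rw [Algebra.TensorProduct.lift_tmul, map_one, one_mul]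

end B

end Fermat.Agent.TW
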