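import Mathlib
import Fermat.Agent.TW.Aut.DatumBC
import Fermat.Agent.TW.Aut.DatumAct
import Fermat.Agent.TW.Aut.Seams

/-!
# Project ONE MACHINE, block [E], cell E/Datum (helper7): (DT-ABS) the abstract assembly of (M1)

`twe_dt_Full 𝒪 N S θ` : the full output of E/Datum: a `twe_Base` TOGETHER WITH the commutative
`𝒪`-algebra `B` (generated by `τ ℓ`, `ℓ` good) acting faithfully on `X₀ = Hom(gh_H N, 𝒪)` through the
dual Hecke operators, the character `θB`, the localising idempotent `e` (with helper3's three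
properties), the quotient map `q : B → T` (kernel `(1 - e)`), `range ι = range (act e)`, and the
compatibility of `j` with `act`.

`twe_dt_abs` : the assembly, for an abstract finite free `𝒪`-module `M ≃ Hom(gh_H N, 𝒪)` with a
faithful action of an abstract commutative algebra `B`, a continuous Galois action commuting with
`B`, a `B`-valued trace and an `𝒪`-valued determinant.

Namespace `Fermat.Agent.TW`, prefix `twe_dt_`.
-/

set_option autoImplicit false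
set_option linter.style.haveILetI false
set_option linter.unusedSectionVars false
set_option linter.unusedVariables false

namespace Fermat.Agent.TW

open IsLocalRing Polynomial CuspForm Fermat.Agent.JT3

local notation "GQ" => (AlgebraicClosure ℚ ≃ₐ[ℚ] AlgebraicClosure ℚ)
local notation "Qbar" => AlgebraicClosure ℚ

/-! ### the Hecke algebra away from `S ⊇ primes(N)` is generated by the `T_ℓ` -/

/-- induction on the Hecke algebra away from `S ⊇ primes(N)`. -/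
theorem twe_dt_hecke_induction {N : ℕ} [NeZero N] {S : Set ℕ}
    (hNS : ∀ ℓ : ℕ, ℓ.Prime → ℓ ∣ N → ℓ ∈ S) {P : heckeAlgebra N 2 S → Prop}
    (hT : ∀ (ℓ : ℕ) (hℓ : ℓ.Prime) (hℓN : ¬ ℓ ∣ N) (hℓS : ℓ ∉ S), P (heckeAlgebra.T hℓ hℓN hℓS))
    (hint : ∀ n : ℤ, P (algebraMap ℤ _ n)) (hadd : ∀ x y, P x → P y → P (x + y))
    (hmul : ∀ x y, P x → P y → P (x * y)) : ∀ t, P t := by
  rintro ⟨t, ht⟩
  refine Algebra.adjoin_induction (p := fun x hx => P ⟨x, hx⟩) ?_ ?_ ?_ ?_ ht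
  · rintro x (⟨ℓ, hℓ, hℓN, hℓS, rfl⟩ | ⟨q, hqN, hq, hqS, rfl⟩)
    · exact hT ℓ hℓ hℓN hℓS
    · exact absurd (hNS q hq hqN) hqS
  · intro n
    exact hint n
  · intro x y hx hy h1 h2
    exact hadd _ _ h1 h2
  · intro x y hx hy h1 h2
    exact hmul _ _ h1 h2

/-- ring homomorphisms out of the Hecke algebra away from `S ⊇ primes(N)` are determined by their
values at the `T_ℓ`. -/
theorem twe_dt_hecke_ext {N : ℕ} [NeZero N] {S : Set ℕ}
    (hNS : ∀ ℓ : ℕ, ℓ.Prime → ℓ ∣ N → ℓ ∈ S) {R : Type*} [Ring R]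
    (f g : heckeAlgebra N 2 S →+* R)
    (h : ∀ (ℓ : ℕ) (hℓ : ℓ.Prime) (hℓN : ¬ ℓ ∣ N) (hℓS : ℓ ∉ S),
      f (heckeAlgebra.T hℓ hℓN hℓS) = g (heckeAlgebra.T hℓ hℓN hℓS)) : f = g := by
  refine RingHom.ext (twe_dt_hecke_induction hNS (P := fun t => f t = g t) h ?_ ?_ ?_)
  · intro n
    rw [eq_intCast, map_intCast, map_intCast]
  · intro x y hx hy
    rw [map_add, map_add, hx, hy]
  · intro x y hx hy
    rw [map_mul, map_mul, hx, hy]

/-- the Hecke operator `T_ℓ` at a good prime, as an element of the Hecke algebra. -/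
noncomputable def twe_dt_T {N : ℕ} [NeZero N] {S : Finset ℕ} (i : twe_dt_Idx N S) :
    heckeAlgebra N 2 (↑S : Set ℕ) :=
  heckeAlgebra.T i.2.1 i.2.2.1 i.2.2.2

theorem twe_dt_T_eq {N : ℕ} [NeZero N] {S : Finset ℕ} (ℓ : ℕ) (hℓ : ℓ.Prime) (hℓN : ¬ ℓ ∣ N)
    (hℓS : ℓ ∉ (↑S : Set ℕ)) :
    heckeAlgebra.T hℓ hℓN hℓS = twe_dt_T (⟨ℓ, hℓ, hℓN, hℓS⟩ : twe_dt_Idx N S) := rfl

/-! ### the output structure -/

section out

variable (𝒪 : Type) [CommRing 𝒪] [IsDomain 𝒪] [IsDiscreteValuationRing 𝒪]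
  [IsAdicComplete (maximalIdeal 𝒪) 𝒪]

/-- **the full output of E/Datum**. -/
structure twe_dt_Full (N : ℕ) [NeZero N] (S : Finset ℕ)
    (θ : heckeAlgebra N 2 (↑S : Set ℕ) →+* ResidueField 𝒪) : Type 1 where
  /-- the (M1) package -/
  base : twe_Base 𝒪 N S θ
  /-- the Hecke algebra `𝒪[T_ℓ : ℓ good]` of `Hom(gh_H N, 𝒪)` -/
  B : Type
  [instCommRing : CommRing B]
  [instAlgebra : Algebra 𝒪 B]
  [instFinite : Module.Finite 𝒪 B]
  [instTorsionFree : Module.IsTorsionFree 𝒪 B]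
  /-- its action on `Hom(gh_H N, 𝒪)` -/
  act : B →ₐ[𝒪] Module.End 𝒪 (gh_H N →+ 𝒪)
  act_injective : Function.Injective act
  /-- the generators -/
  τ : twe_dt_Idx N S → B
  adjoin_τ : Algebra.adjoin 𝒪 (Set.range τ) = ⊤
  act_τ : ∀ (i : twe_dt_Idx N S) (c : gh_H N →+ 𝒪),
    act (τ i) c = c.comp (t2f_TH N i.1).toAddMonoidHom
  /-- the eigen-system `θ` on `B` -/
  θB : B →ₐ[𝒪] ResidueField 𝒪
  θB_τ : ∀ i, θB (τ i) = θ (twe_dt_T i)
  /-- the localising idempotent -/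
  e : B
  e_idem : IsIdempotentElem e
  θB_e : θB e = 1
  e_nil : ∀ b, θB b = 0 → ∃ n, 0 < n ∧ (e * b) ^ n ∈ twe_la_J 𝒪 B
  /-- `B → T = B ⧸ (1 - e)` -/
  q : B →ₐ[𝒪] base.T
  q_surjective : Function.Surjective q
  q_ker : RingHom.ker (q : B →+* base.T) = Ideal.span {1 - e}
  q_τ : ∀ i, q (τ i) = base.H.π (twe_dt_T i)
  /-- `M_∅ = e · Hom(gh_H N, 𝒪)` -/
  range_ι : LinearMap.range base.ι = LinearMap.range (act e)
  ι_act : ∀ (b : B) (v : Fin base.d → 𝒪),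
    base.ι ((base.j (q b)).mulVec v) = act b (base.ι v)

attribute [instance] twe_dt_Full.instCommRing twe_dt_Full.instAlgebra twe_dt_Full.instFinite
  twe_dt_Full.instTorsionFree

end out

/-! ### the abstract assembly -/

section abs

variable {𝒪 : Type} [CommRing 𝒪] [IsDomain 𝒪] [IsDiscreteValuationRing 𝒪]
  [IsAdicComplete (maximalIdeal 𝒪) 𝒪]

/-- **(DT-ABS)**: the abstract assembly of (M1). -/
theorem twe_dt_abs (h2 : IsUnit (2 : 𝒪))
    {N : ℕ} [NeZero N] {S : Finset ℕ} (hNS : ∀ ℓ : ℕ, ℓ.Prime → ℓ ∣ N → ℓ ∈ S)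
    (θ : heckeAlgebra N 2 (↑S : Set ℕ) →+* ResidueField 𝒪)
    (ρbar : ResidualGaloisRep (ResidueField 𝒪)) (habs : ρbar.IsAbsolutelyIrreducible)
    {B : Type} [CommRing B] [Algebra 𝒪 B] [Module.Finite 𝒪 B] [Module.IsTorsionFree 𝒪 B]
    (τ : twe_dt_Idx N S → B) (hτ : Algebra.adjoin 𝒪 (Set.range τ) = ⊤)
    {M : Type} [AddCommGroup M] [Module 𝒪 M] [Module.Finite 𝒪 M] [Module.Free 𝒪 M]
    (act : B →ₐ[𝒪] Module.End 𝒪 M) (hact : Function.Injective act)
    (α₀ : GQ →* Module.End 𝒪 M) (hcont : GaloisActionIsAdicContinuous 𝒪 α₀)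
    (hcomm : ∀ (g : GQ) (b : B), α₀ g * act b = act b * α₀ g)
    (tB : GQ → B) (ε : GQ →* 𝒪)
    (hCH : ∀ g : GQ, α₀ g * α₀ g - act (tB g) * α₀ g + ε g • (1 : Module.End 𝒪 M) = 0)
    (hfrob : ∀ (i : twe_dt_Idx N S) (A : ValuationSubring Qbar), A.LiesOverPrime i.1 →
      ∀ φ : GQ, A.IsFrobeniusAt φ i.1 → tB φ = τ i ∧ ε φ = ((i.1 : ℕ) : 𝒪))
    (g₀ : GQ) (ht₀ : tB g₀ = 0) (hε₀ : ε g₀ = -1)
    (θB : B →ₐ[𝒪] ResidueField 𝒪) (hθB : ∀ i, θB (τ i) = θ (twe_dt_T i))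
    (htr : ∀ g, θB (tB g) = LinearMap.trace (ResidueField 𝒪) ρbar.V (ρbar.ρ g))
    (hdet : ∀ g, residue 𝒪 (ε g) = LinearMap.det (ρbar.ρ g))
    (hpt : ∀ χ : heckeAlgebra N 2 (↑S : Set ℕ) →+* 𝒪, (∀ t, residue 𝒪 (χ t) = θ t) →
      ∃ χB : B →ₐ[𝒪] 𝒪, ∀ i, χB (τ i) = χ (twe_dt_T i))
    (πB : heckeAlgebra N 2 (↑S : Set ℕ) →+* B) (hπB : ∀ i, πB (twe_dt_T i) = τ i)
    (ι₀ : M ≃ₗ[𝒪] (gh_H N →+ 𝒪))
    (hι₀ : ∀ (i : twe_dt_Idx N S) (x : M),
      ι₀ (act (τ i) x) = (ι₀ x).comp (t2f_TH N i.1).toAddMonoidHom) :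
    Nonempty (twe_dt_Full 𝒪 N S θ) := by
  classical
  -- the local factor
  obtain ⟨e, he, h1, hnil, hloc, hlh, hnoeth, hfin, hfree, hcompl, hsurj, hres, hpoint⟩ :=
    twe_la_main θB
  haveI := hloc
  haveI := hlh
  haveI := hnoeth
  haveI := hfin
  haveI := hfree
  haveI := hcompl
  -- the representation
  obtain ⟨ρ, hρcp, hρabs, -, -⟩ := twe_dt_gen_act act hact θB e he hres h2 α₀ hcomm hcont tB ε hCH
    ρbar habs htr hdet g₀ ht₀ hε₀
  -- the quotient map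
  let q : B →ₐ[𝒪] twe_la_T e := Ideal.Quotient.mkₐ 𝒪 (Ideal.span {1 - e})
  have hq : ∀ b, q b = Ideal.Quotient.mk (Ideal.span {1 - e}) b := fun _ => rfl
  have hqsurj : Function.Surjective q := Ideal.Quotient.mk_surjective
  -- `θB ∘ πB = θ`
  have hθπ : ∀ t, θB (πB t) = θ t := by
    have h3 : (θB : B →+* ResidueField 𝒪).comp πB = θ := by
      refine twe_dt_hecke_ext hNS _ _ fun ℓ hℓ hℓN hℓS => ?_
      rw [twe_dt_T_eq, RingHom.comp_apply, hπB]
      exact hθB _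
    exact fun t => RingHom.congr_fun h3 t
  -- the datum
  let π : heckeAlgebra N 2 (↑S : Set ℕ) →+* twe_la_T e := (q : B →+* twe_la_T e).comp πB
  have hπ : ∀ t, π t = q (πB t) := fun _ => rfl
  have hadj : Algebra.adjoin 𝒪 (Set.range π) = ⊤ := by
    rw [eq_top_iff]
    rintro t -
    obtain ⟨b, rfl⟩ := hqsurj t
    have hb : b ∈ Algebra.adjoin 𝒪 (Set.range τ) := by rw [hτ]; trivial
    induction hb using Algebra.adjoin_induction with
    | mem x hx =>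
      obtain ⟨i, rfl⟩ := hx
      exact Algebra.subset_adjoin ⟨twe_dt_T i, by rw [hπ, hπB]⟩
    | algebraMap r =>
      rw [AlgHom.commutes]
      exact Subalgebra.algebraMap_mem _ r
    | add x y _ _ hx hy =>
      rw [map_add]
      exact Subalgebra.add_mem _ hx hy
    | mul x y _ _ hx hy =>
      rw [map_mul]
      exact Subalgebra.mul_mem _ hx hy
  let H : HeckeGaloisRepDatum N (↑S : Set ℕ) 𝒪 θ (twe_la_T e) :=
    { π := π
      residue_π := fun t => by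
        rw [hπ, hq, hres, hθπ]
      adjoin_range_π := hadj
      exists_point := fun χ hχ => by
        obtain ⟨χB, hχB⟩ := hpt χ hχ
        have h3 : ∀ b, residue 𝒪 (χB b) = θB b := by
          have h4 : (IsScalarTower.toAlgHom 𝒪 𝒪 (ResidueField 𝒪)).comp χB = θB := by
            refine AlgHom.ext_of_adjoin_eq_top hτ ?_
            rintro _ ⟨i, rfl⟩
            rw [AlgHom.comp_apply, hχB, hθB]
            exact hχ _
          exact fun b => AlgHom.congr_fun h4 b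
        have h5 := hpoint χB h3
        refine ⟨Ideal.Quotient.liftₐ (Ideal.span {1 - e}) χB (fun a ha => ?_), fun t => ?_⟩
        · obtain ⟨c, rfl⟩ := Ideal.mem_span_singleton'.mp ha
          rw [map_mul, h5, mul_zero]
        · rw [hπ, hq]
          show χB (πB t) = χ t
          have h6 : (χB : B →+* 𝒪).comp πB = χ := by
            refine twe_dt_hecke_ext hNS _ _ fun ℓ hℓ hℓN hℓS => ?_
            rw [twe_dt_T_eq, RingHom.comp_apply, hπB]
            exact hχB _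
          exact RingHom.congr_fun h6 t
      residue_surjective := hsurj
      ρ := ρ
      charpoly_frob := fun ℓ hℓ hℓN hℓS A hA σ hσ => by
        obtain ⟨h3, h4⟩ := hfrob ⟨ℓ, hℓ, hℓN, hℓS⟩ A hA σ hσ
        rw [hρcp, h3, h4, map_natCast, twe_dt_T_eq, hπ, hπB]
        rfl
      residual_absIrr := hρabs }
  -- the module `Y = e M`
  letI : Module B M := Module.compHom M (act : B →+* Module.End 𝒪 M)
  have hsmul : ∀ (b : B) (x : M), b • x = act b x := fun _ _ => rfl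
  haveI : IsScalarTower 𝒪 B M :=
    ⟨fun c b x => by rw [hsmul, hsmul, map_smul, LinearMap.smul_apply]⟩
  haveI : Module.Finite 𝒪 ↥(twe_dt_Y M e) :=
    Module.Finite.of_surjective (twe_dt_proj (𝒪 := 𝒪) e he) (twe_dt_proj_surjective e he)
  haveI : Module.Projective 𝒪 ↥(twe_dt_Y M e) :=
    Module.Projective.of_split (((twe_dt_Y M e).restrictScalars 𝒪).subtype)
      (twe_dt_proj (𝒪 := 𝒪) e he) (LinearMap.ext fun y => Subtype.ext (twe_dt_Y_fixed e y))
  haveI : Module.Free 𝒪 ↥(twe_dt_Y M e) := Module.free_of_flat_of_isLocalRing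
  let b₀ := Module.Free.chooseBasis 𝒪 ↥(twe_dt_Y M e)
  let d := Fintype.card (Module.Free.ChooseBasisIndex 𝒪 ↥(twe_dt_Y M e))
  let bY : Module.Basis (Fin d) 𝒪 ↥(twe_dt_Y M e) := b₀.reindex (Fintype.equivFin _)
  let jY : twe_la_T e →ₐ[𝒪] Module.End 𝒪 ↥(twe_dt_Y M e) :=
    Algebra.lsmul 𝒪 𝒪 ↥(twe_dt_Y M e)
  have hjY : ∀ (t : twe_la_T e) (y : ↥(twe_dt_Y M e)), jY t y = t • y := fun _ _ => rfl
  have hjYinj : Function.Injective jY := by
    rw [injective_iff_map_eq_zero]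
    intro t ht
    refine twe_dt_faithful (X := M) e he (fun b hb => hact ?_) t (fun y => ?_)
    · rw [map_zero]
      exact LinearMap.ext fun x => hb x
    · rw [← hjY, ht, LinearMap.zero_apply]
  have hd : 0 < d := by
    by_contra hd0
    have hd0' : d = 0 := by omega
    haveI : IsEmpty (Fin d) := by rw [hd0']; infer_instance
    have hY0 : ∀ y : ↥(twe_dt_Y M e), y = 0 := fun y => by
      rw [← bY.sum_repr y, Finset.univ_eq_empty, Finset.sum_empty]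
    have h3 : (1 : twe_la_T e) = 0 :=
      hjYinj (by rw [map_zero]; exact LinearMap.ext fun y => (hY0 _).trans (hY0 _).symm)
    exact one_ne_zero h3
  let j : twe_la_T e →ₐ[𝒪] Matrix (Fin d) (Fin d) 𝒪 :=
    (LinearMap.toMatrixAlgEquiv bY).toAlgHom.comp jY
  have hj : ∀ t, j t = LinearMap.toMatrix bY bY (jY t) := fun _ => rfl
  have hjinj : Function.Injective j := (LinearMap.toMatrixAlgEquiv bY).injective.comp hjYinj
  have hjmul : ∀ (t : twe_la_T e) (v : Fin d → 𝒪),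
      bY.equivFun.symm ((j t).mulVec v) = t • bY.equivFun.symm v := by
    intro t v
    have h3 : v = ⇑(bY.repr (bY.equivFun.symm v)) := by
      rw [← Module.Basis.equivFun_apply, LinearEquiv.apply_symm_apply]
    rw [hj]
    conv_lhs => rw [h3]
    rw [LinearMap.toMatrix_mulVec_repr, ← Module.Basis.equivFun_apply,
      LinearEquiv.symm_apply_apply, hjY]
  let ιY : (Fin d → 𝒪) →ₗ[𝒪] M :=
    ((twe_dt_Y M e).restrictScalars 𝒪).subtype ∘ₗ bY.equivFun.symm.toLinearMap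
  have hιY : ∀ v, ιY v = ((bY.equivFun.symm v : ↥(twe_dt_Y M e)) : M) := fun _ => rfl
  have hιYinj : Function.Injective ιY :=
    Subtype.val_injective.comp bY.equivFun.symm.injective
  let ι : (Fin d → 𝒪) →ₗ[𝒪] (gh_H N →+ 𝒪) := ι₀.toLinearMap ∘ₗ ιY
  have hι : ∀ v, ι v = ι₀ (ιY v) := fun _ => rfl
  -- the transported action
  let cj := LinearEquiv.conjAlgEquiv 𝒪 ι₀
  let act' : B →ₐ[𝒪] Module.End 𝒪 (gh_H N →+ 𝒪) := cj.toAlgHom.comp act
  have hact' : ∀ (b : B) (c : gh_H N →+ 𝒪), act' b c = ι₀ (act b (ι₀.symm c)) := by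
    intro b c
    show cj (act b) c = _
    rw [LinearEquiv.conjAlgEquiv_apply]
    rfl
  have hact'' : ∀ (b : B) (x : M), act' b (ι₀ x) = ι₀ (act b x) := by
    intro b x
    rw [hact', LinearEquiv.symm_apply_apply]
  have hιact : ∀ (b : B) (v : Fin d → 𝒪), ι ((j (q b)).mulVec v) = act' b (ι v) := by
    intro b v
    rw [hι, hι, hact'', hιY, hιY, hjmul, hq, twe_dt_coe_mk_smul, hsmul]
  refine ⟨{
    base :=
      { T := twe_la_T e
        H := H
        d := d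
        d_pos := hd
        j := j
        j_injective := hjinj
        ι := ι
        ι_injective := ι₀.injective.comp hιYinj
        ι_hecke := fun ℓ hℓ hℓN hℓS v => by
          have h3 : H.π (heckeAlgebra.T hℓ hℓN hℓS) = q (τ ⟨ℓ, hℓ, hℓN, hℓS⟩) := by
            rw [twe_dt_T_eq]
            show q (πB _) = _
            rw [hπB]
          rw [h3, hιact, hι, hact'', hι₀] }
    B := B
    act := act'
    act_injective := cj.injective.comp hact
    τ := τ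
    adjoin_τ := hτ
    act_τ := fun i c => by
      rw [hact', hι₀, LinearEquiv.apply_symm_apply]
    θB := θB
    θB_τ := hθB
    e := e
    e_idem := he
    θB_e := h1
    e_nil := hnil
    q := q
    q_surjective := hqsurj
    q_ker := Ideal.mk_ker
    q_τ := fun i => by
      show q (τ i) = q (πB (twe_dt_T i))
      rw [hπB]
    range_ι := ?_
    ι_act := hιact }⟩
  ext c
  constructor
  · rintro ⟨v, rfl⟩
    refine ⟨ι v, ?_⟩
    rw [hι, hact'', hιY, ← hsmul, twe_dt_Y_fixed]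
  · rintro ⟨c', rfl⟩
    refine ⟨bY.equivFun ⟨e • ι₀.symm c', twe_dt_e_smul_mem e he _⟩, ?_⟩
    rw [hι, hιY, LinearEquiv.symm_apply_apply, hact']
    rfl

/-- the commutative ring structure of the algebra generated by a commuting family. -/
@[reducible] def twe_dt_commRing {M : Type} [AddCommGroup M] [Module 𝒪 M] {I : Type}
    (F : I → Module.End 𝒪 M) (hF : ∀ i j, F i * F j = F j * F i) :
    CommRing ↥(Algebra.adjoin 𝒪 (Set.range F)) :=
  { (inferInstance : Ring ↥(Algebra.adjoin 𝒪 (Set.range F))) with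
    mul_comm := fun a b =>
      (Algebra.isMulCommutative_adjoin 𝒪 (s := Set.range F) (by
        rintro _ ⟨i, rfl⟩ _ ⟨j, rfl⟩
        exact hF i j)).is_comm.comm a b }

/-- **(DT-ABS), subalgebra form**: `B := 𝒪[F i] ⊆ End_𝒪 M`. -/
theorem twe_dt_abs_sub (h2 : IsUnit (2 : 𝒪))
    {N : ℕ} [NeZero N] {S : Finset ℕ} (hNS : ∀ ℓ : ℕ, ℓ.Prime → ℓ ∣ N → ℓ ∈ S)
    (θ : heckeAlgebra N 2 (↑S : Set ℕ) →+* ResidueField 𝒪)
    (ρbar : ResidualGaloisRep (ResidueField 𝒪)) (habs : ρbar.IsAbsolutelyIrreducible)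
    {M : Type} [AddCommGroup M] [Module 𝒪 M] [Module.Finite 𝒪 M] [Module.Free 𝒪 M]
    (F : twe_dt_Idx N S → Module.End 𝒪 M) (hF : ∀ i j, F i * F j = F j * F i)
    (α₀ : GQ →* Module.End 𝒪 M) (hcont : GaloisActionIsAdicContinuous 𝒪 α₀)
    (hcomm : ∀ (g : GQ) (i : twe_dt_Idx N S), α₀ g * F i = F i * α₀ g)
    (W : GQ → Module.End 𝒪 M) (hW : ∀ g, W g ∈ Algebra.adjoin 𝒪 (Set.range F))
    (ε : GQ →* 𝒪)
    (hCH : ∀ g : GQ, α₀ g * α₀ g - W g * α₀ g + ε g • (1 : Module.End 𝒪 M) = 0)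
    (hfrob : ∀ (i : twe_dt_Idx N S) (A : ValuationSubring Qbar), A.LiesOverPrime i.1 →
      ∀ φ : GQ, A.IsFrobeniusAt φ i.1 → W φ = F i ∧ ε φ = ((i.1 : ℕ) : 𝒪))
    (g₀ : GQ) (hW₀ : W g₀ = 0) (hε₀ : ε g₀ = -1)
    (θB : ↥(Algebra.adjoin 𝒪 (Set.range F)) →ₐ[𝒪] ResidueField 𝒪)
    (hθB : ∀ i, θB ⟨F i, Algebra.subset_adjoin ⟨i, rfl⟩⟩ = θ (twe_dt_T i))
    (htr : ∀ g, θB ⟨W g, hW g⟩ = LinearMap.trace (ResidueField 𝒪) ρbar.V (ρbar.ρ g))
    (hdet : ∀ g, residue 𝒪 (ε g) = LinearMap.det (ρbar.ρ g))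
    (hpt : ∀ χ : heckeAlgebra N 2 (↑S : Set ℕ) →+* 𝒪, (∀ t, residue 𝒪 (χ t) = θ t) →
      ∃ χB : ↥(Algebra.adjoin 𝒪 (Set.range F)) →ₐ[𝒪] 𝒪,
        ∀ i, χB ⟨F i, Algebra.subset_adjoin ⟨i, rfl⟩⟩ = χ (twe_dt_T i))
    (πB : heckeAlgebra N 2 (↑S : Set ℕ) →+* Module.End 𝒪 M)
    (hπmem : ∀ t, πB t ∈ Algebra.adjoin 𝒪 (Set.range F))
    (hπB : ∀ i, πB (twe_dt_T i) = F i)
    (ι₀ : M ≃ₗ[𝒪] (gh_H N →+ 𝒪))
    (hι₀ : ∀ (i : twe_dt_Idx N S) (x : M),
      ι₀ (F i x) = (ι₀ x).comp (t2f_TH N i.1).toAddMonoidHom) :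
    Nonempty (twe_dt_Full 𝒪 N S θ) := by
  letI := twe_dt_commRing F hF
  haveI : Module.Finite 𝒪 ↥(Algebra.adjoin 𝒪 (Set.range F)) := by
    haveI : IsNoetherian 𝒪 (Module.End 𝒪 M) := isNoetherian_of_isNoetherianRing_of_finite _ _
    exact Module.IsNoetherian.finite 𝒪
      ↥(Subalgebra.toSubmodule (Algebra.adjoin 𝒪 (Set.range F)))
  haveI : Module.IsTorsionFree 𝒪 ↥(Algebra.adjoin 𝒪 (Set.range F)) := by
    rw [Module.isTorsionFree_iff_smul_eq_zero]
    intro c b hcb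
    by_cases hc : c = 0
    · exact Or.inl hc
    · refine Or.inr (Subtype.ext (LinearMap.ext fun x => ?_))
      have h3 : c • ((b : Module.End 𝒪 M) x) = 0 := by
        have h4 := congrArg (fun f : ↥(Algebra.adjoin 𝒪 (Set.range F)) =>
          (f : Module.End 𝒪 M) x) hcb
        exact h4
      exact (smul_eq_zero.mp h3).resolve_left hc
  let τ : twe_dt_Idx N S → ↥(Algebra.adjoin 𝒪 (Set.range F)) :=
    fun i => ⟨F i, Algebra.subset_adjoin ⟨i, rfl⟩⟩
  have hτ : Algebra.adjoin 𝒪 (Set.range τ) = ⊤ := by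
    rw [eq_top_iff]
    rintro ⟨b, hb⟩ -
    induction hb using Algebra.adjoin_induction with
    | mem x hx =>
      obtain ⟨i, rfl⟩ := hx
      exact Algebra.subset_adjoin ⟨i, rfl⟩
    | algebraMap r => exact Subalgebra.algebraMap_mem _ r
    | add x y hx hy h3 h4 => exact Subalgebra.add_mem _ h3 h4
    | mul x y hx hy h3 h4 => exact Subalgebra.mul_mem _ h3 h4
  refine twe_dt_abs h2 hNS θ ρbar habs τ hτ (Algebra.adjoin 𝒪 (Set.range F)).val
    Subtype.val_injective α₀ hcont ?_ (fun g => ⟨W g, hW g⟩) ε hCH ?_ g₀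
    (Subtype.ext hW₀) hε₀ θB hθB htr hdet hpt
    (πB.codRestrict (Algebra.adjoin 𝒪 (Set.range F)) hπmem) (fun i => Subtype.ext (hπB i))
    ι₀ hι₀
  · intro g b
    exact (Algebra.commute_of_mem_adjoin_of_forall_mem_commute b.2 (by
      rintro _ ⟨i, rfl⟩
      exact hcomm g i)).eq
  · intro i A hA φ hφ
    obtain ⟨h3, h4⟩ := hfrob i A hA φ hφ
    exact ⟨Subtype.ext h3, h4⟩

end abs

end Fermat.Agent.TW
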