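import Mathlib
import Fermat.Agent.TW.Aut.DatumAbs
import Fermat.Agent.TW.Aut.DatumW2
import Fermat.Agent.TW.Aut.DatumLattice
import Fermat.Agent.TW.Top.DetOfCompat
import Fermat.Agent.JT3.Tate.Inputs

/-!
# Project ONE MACHINE, block [E], cell E/Datum (helper7): (DT-INST) the concrete instance

`twe_dt_inst` : the full output `twe_dt_Full 𝒪 N S θ` of E/Datum at EVERY level `N` (`p ∤ N` is not
even needed), for the Tate package `tjp_tate N p S` of `J₀(N)` base-changed to `𝒪`: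
`M = 𝒪 ⊗[ℤ_p] T_p J₀(N) ≃ Hom(gh_H N, 𝒪)` (helper6's `twe_dl_iotaEquiv`), `B = 𝒪[T_ℓ ⊗ 1]`,
`W g = (ρ g + ε g ρ g⁻¹) ⊗ 1 ∈ B` (`twe_dt_w_mem`), `θB` and the points from `tjp_eigen_gen` +
`twe_dt_extend`, `tr ρbar = θB ∘ W` (`twe_dt_res_trace`), `det ρbar = ε mod 𝔪` (`s58cd_main`),
`πB` from helper6's `twe_dl_rev`.

Namespace `Fermat.Agent.TW`, prefix `twe_dt_`.
-/

set_option autoImplicit false
set_option linter.style.haveILetI false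
set_option linter.unusedSectionVars false
set_option linter.unusedVariables false

namespace Fermat.Agent.TW

open IsLocalRing Polynomial CuspForm Fermat.Agent.JT3 Fermat.Agent.FF TensorProduct

local notation "GQ" => (AlgebraicClosure ℚ ≃ₐ[ℚ] AlgebraicClosure ℚ)
local notation "Qbar" => AlgebraicClosure ℚ

section inst

variable {p : ℕ} [Fact p.Prime]
  {𝒪 : Type} [CommRing 𝒪] [IsDomain 𝒪] [IsDiscreteValuationRing 𝒪]
  [IsAdicComplete (maximalIdeal 𝒪) 𝒪] [Finite (ResidueField 𝒪)] [CharZero 𝒪]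

/-- `2` is a unit of `𝒪` when `p` is odd. -/
theorem twe_dt_two_isUnit (hp2 : p ≠ 2) (hp𝒪 : (p : 𝒪) ∈ maximalIdeal 𝒪) : IsUnit (2 : 𝒪) := by
  by_contra h
  have h2m : (2 : 𝒪) ∈ maximalIdeal 𝒪 := (mem_maximalIdeal _).mpr h
  have hpp : p.Prime := Fact.out
  obtain ⟨k, hk⟩ := (hpp.eq_two_or_odd'.resolve_left hp2)
  have h1 : (1 : 𝒪) = (p : 𝒪) - 2 * (k : 𝒪) := by
    rw [hk]
    push_cast
    ring
  have h3 : (1 : 𝒪) ∈ maximalIdeal 𝒪 := by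
    rw [h1]
    exact Ideal.sub_mem _ hp𝒪 (Ideal.mul_mem_right _ _ h2m)
  exact (Ideal.ne_top_iff_one _).mp (Ideal.IsMaximal.ne_top inferInstance) h3

/-- `det ρbar = ε mod 𝔪`. -/
theorem twe_dt_det_res (hp𝒪 : (p : 𝒪) ∈ maximalIdeal 𝒪) {N : ℕ} [NeZero N] {S : Finset ℕ}
    (hNS : ∀ ℓ : ℕ, ℓ.Prime → ℓ ∣ N → ℓ ∈ S)
    (θ : heckeAlgebra N 2 (↑S : Set ℕ) →+* ResidueField 𝒪)
    (ρbar : ResidualGaloisRep (ResidueField 𝒪)) (hcompat : twt_Compat θ ρbar) (g : GQ) :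
    residue 𝒪 (cya_eps p 𝒪 hp𝒪 g) = LinearMap.det (ρbar.ρ g) := by
  haveI : IsAdicComplete (maximalIdeal (ResidueField 𝒪)) (ResidueField 𝒪) :=
    twt_field_isAdicComplete _
  have hpk0 : ((p : ℕ) : ResidueField 𝒪) = 0 := by
    rw [← map_natCast (residue 𝒪)]
    exact (residue_eq_zero_iff _).mpr hp𝒪
  have hpk : ((p : ℕ) : ResidueField 𝒪) ∈ maximalIdeal (ResidueField 𝒪) := by
    rw [hpk0]
    exact Ideal.zero_mem _
  have h1 : LinearMap.det ((GaloisRepAdic.ofResidualGaloisRep ρbar).ρ g) =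
      cya_eps p (ResidueField 𝒪) hpk g := by
    refine Fermat.Agent.S58.s58cd_main p hpk (GaloisRepAdic.ofResidualGaloisRep ρbar) S ?_ g
    intro ℓ hℓ hℓS P hP φ hφ
    have hℓN : ¬ ℓ ∣ N := fun h => hℓS (hNS ℓ hℓ h)
    have hℓS' : ℓ ∉ (↑S : Set ℕ) := fun h => hℓS (Finset.mem_coe.mp h)
    have h5 := Fermat.Agent.SS.sst_charpoly_rank_two
      (GaloisRepAdic.ofResidualGaloisRep ρbar).finrank_eq
      ((GaloisRepAdic.ofResidualGaloisRep ρbar).ρ φ)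
    have h6 : LinearMap.charpoly ((GaloisRepAdic.ofResidualGaloisRep ρbar).ρ φ) =
        X ^ 2 - C (θ (heckeAlgebra.T hℓ hℓN hℓS')) * X + C ((ℓ : ResidueField 𝒪)) :=
      hcompat ℓ hℓ hℓN hℓS' P hP φ hφ
    rw [h6] at h5
    have h7 := congrArg (fun q => q.coeff 0) h5
    simp only [coeff_add, coeff_sub, coeff_X_pow, coeff_C_mul, coeff_X_zero, coeff_C_zero] at h7
    norm_num at h7
    exact h7.symm
  have h2 : (residue 𝒪).comp (cya_padicHom p 𝒪 hp𝒪) = cya_padicHom p (ResidueField 𝒪) hpk :=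
    ffc_pa_hom_ext_of_pow 1 (by rw [pow_one]; exact hpk0) _ _
  rw [cya_eps_apply, ← RingHom.comp_apply, h2, ← cya_eps_apply]
  exact h1.symm

/-- **(DT-INST)**: the full output of E/Datum at level `N`. -/
theorem twe_dt_inst (hp2 : p ≠ 2) (hp𝒪 : (p : 𝒪) ∈ maximalIdeal 𝒪) {N : ℕ} [NeZero N]
    {S : Finset ℕ} (hpS : p ∈ S) (hNS : ∀ ℓ : ℕ, ℓ.Prime → ℓ ∣ N → ℓ ∈ S)
    (θ : heckeAlgebra N 2 (↑S : Set ℕ) →+* ResidueField 𝒪)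
    (ρbar : ResidualGaloisRep (ResidueField 𝒪)) (hcompat : twt_Compat θ ρbar)
    (habs : ρbar.IsAbsolutelyIrreducible) : Nonempty (twe_dt_Full 𝒪 N S θ) := by
  classical
  have hpp : p.Prime := Fact.out
  letI : Algebra ℤ_[p] 𝒪 := (cya_padicHom p 𝒪 hp𝒪).toAlgebra
  have halg : ∀ z : ℤ_[p], algebraMap ℤ_[p] 𝒪 z = cya_padicHom p 𝒪 hp𝒪 z := fun _ => rfl
  have hp0 : (p : 𝒪) ≠ 0 := Nat.cast_ne_zero.mpr hpp.ne_zero
  haveI : Module.Flat ℤ_[p] 𝒪 :=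
    ffc_pa_flat (fun t ht => (mul_eq_zero.mp ht).resolve_left hp0)
  have h2 : IsUnit (2 : 𝒪) := twe_dt_two_isUnit hp2 hp𝒪
  -- the Tate package
  let D : pk_Tate p N S := tjp_tate N p S hpS (tji_nodeE N) (tji_S18 N)
  have hWmem : ∀ g : GQ, ur_w D.ρ (cya_eps p ℤ_[p] ur_p_mem) g ∈
      Algebra.adjoin ℤ_[p] (Set.range (twe_dt_fam D)) := by
    intro g
    rw [twe_dt_range_fam]
    exact twe_dt_w_mem D hpS hNS g
  -- Cayley–Hamilton over `𝒪`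
  have hCH : ∀ g : GQ, twe_dt_bc 𝒪 D.ρ g * twe_dt_bc 𝒪 D.ρ g -
      (ur_w D.ρ (cya_eps p ℤ_[p] ur_p_mem) g).baseChange 𝒪 * twe_dt_bc 𝒪 D.ρ g +
      cya_eps p 𝒪 hp𝒪 g • (1 : Module.End 𝒪 (𝒪 ⊗[ℤ_[p]] D.Tp)) = 0 := by
    intro g
    have h3 := congrArg (Module.End.baseChangeHom ℤ_[p] 𝒪 D.Tp)
      (twe_dt_w_CH D.ρ (cya_eps p ℤ_[p] ur_p_mem) g)
    rw [map_zero, map_add, map_sub, map_mul, map_mul, map_smul, map_one] at h3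
    rw [← ffc_pa_eps_compat hp𝒪 ur_p_mem g, ← halg, algebraMap_smul]
    exact h3
  -- Frobenius elements
  have hfrob : ∀ (i : twe_dt_Idx N S) (A : ValuationSubring Qbar), A.LiesOverPrime i.1 →
      ∀ φ : GQ, A.IsFrobeniusAt φ i.1 →
        (ur_w D.ρ (cya_eps p ℤ_[p] ur_p_mem) φ).baseChange 𝒪 = (twe_dt_fam D i).baseChange 𝒪 ∧
          cya_eps p 𝒪 hp𝒪 φ = ((i.1 : ℕ) : 𝒪) := by
    intro i A hA φ hφ
    have hip : i.1 ≠ p := fun h => i.2.2.2 (h ▸ Finset.mem_coe.mpr hpS)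
    refine ⟨?_, cya_eps_frob p 𝒪 hp𝒪 i.2.1 hip A hA φ hφ⟩
    rw [twe_dt_w_frob D hpS i.2 A hA φ hφ]
    rfl
  -- complex conjugation
  have hW₀ : (ur_w D.ρ (cya_eps p ℤ_[p] ur_p_mem) complexConjugation).baseChange 𝒪 = 0 := by
    have h3 : ur_w D.ρ (cya_eps p ℤ_[p] ur_p_mem) complexConjugation = 0 := by
      unfold ur_w
      rw [complexConjugation_inv, cya_eps_complexConjugation, neg_smul, one_smul, add_neg_cancel]
    rw [h3, LinearMap.baseChange_zero]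
  -- extension of characters
  have hext : ∀ {R : Type} [CommRing R] [Algebra ℤ_[p] R] [Algebra 𝒪 R] [IsScalarTower ℤ_[p] 𝒪 R]
      (χ : heckeAlgebra N 2 (↑S : Set ℕ) →+* R),
      ∃ (χ₀ : ↥(Algebra.adjoin ℤ_[p] (pk_heckeSet N S D.Tl)) →ₐ[ℤ_[p]] R)
        (χB : ↥(Algebra.adjoin 𝒪 (Set.range fun i => (twe_dt_fam D i).baseChange 𝒪)) →ₐ[𝒪] R),
        (∀ (ℓ : ℕ) (hℓ : ℓ.Prime) (hℓN : ¬ ℓ ∣ N) (hℓS : ℓ ∉ (↑S : Set ℕ)),
          χ₀ ⟨D.Tl ℓ, pk_mem_heckeSet D.Tl hℓ hℓN hℓS⟩ = χ (heckeAlgebra.T hℓ hℓN hℓS)) ∧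
        ∀ (f : Module.End ℤ_[p] D.Tp) (hf : f ∈ Algebra.adjoin ℤ_[p] (pk_heckeSet N S D.Tl))
          (hf' : f.baseChange 𝒪 ∈
            Algebra.adjoin 𝒪 (Set.range fun i => (twe_dt_fam D i).baseChange 𝒪)),
          χB ⟨f.baseChange 𝒪, hf'⟩ = χ₀ ⟨f, hf⟩ := by
    intro R _ _ _ _ χ
    obtain ⟨χ₀, hχ₀⟩ := tjp_eigen_gen N p S χ
    have hle : Algebra.adjoin ℤ_[p] (Set.range (twe_dt_fam D)) ≤
        Algebra.adjoin ℤ_[p] (pk_heckeSet N S D.Tl) := le_of_eq (by rw [twe_dt_range_fam])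
    obtain ⟨χB, hχB⟩ := twe_dt_extend 𝒪 D (χ₀.comp (Subalgebra.inclusion hle))
    refine ⟨χ₀, χB, hχ₀, fun f hf hf' => ?_⟩
    have hf'' : f ∈ Algebra.adjoin ℤ_[p] (Set.range (twe_dt_fam D)) := by
      rw [twe_dt_range_fam]
      exact hf
    exact hχB ⟨f, hf''⟩
  -- membership of the generators
  have hFmem : ∀ i : twe_dt_Idx N S,
      twe_dt_fam D i ∈ Algebra.adjoin ℤ_[p] (pk_heckeSet N S D.Tl) := fun i =>
    Algebra.subset_adjoin ⟨i.1, i.2, rfl⟩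
  -- `θB`
  obtain ⟨θ₀, θB, hθ₀, hθB⟩ := hext θ
  have hθ₀p : ∀ a ∈ maximalIdeal ℤ_[p],
      θ₀ (algebraMap ℤ_[p] ↥(Algebra.adjoin ℤ_[p] (pk_heckeSet N S D.Tl)) a) = 0 := by
    intro a ha
    rw [AlgHom.commutes]
    show residue 𝒪 (algebraMap ℤ_[p] 𝒪 a) = 0
    rw [residue_eq_zero_iff]
    rw [PadicInt.maximalIdeal_eq_span_p, Ideal.mem_span_singleton'] at ha
    obtain ⟨b, rfl⟩ := ha
    rw [map_mul, map_natCast]
    exact Ideal.mul_mem_left _ _ hp𝒪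
  have htr : ∀ g : GQ, θB ⟨(ur_w D.ρ (cya_eps p ℤ_[p] ur_p_mem) g).baseChange 𝒪,
      pkf_baseChange_mem (twe_dt_fam D) (hWmem g)⟩ =
      LinearMap.trace (ResidueField 𝒪) ρbar.V (ρbar.ρ g) := by
    intro g
    rw [hθB _ (twe_dt_w_mem D hpS hNS g)]
    exact twe_dt_res_trace D hpS hNS θ ρbar hcompat (θ₀ : _ →+* ResidueField 𝒪) hθ₀p hθ₀ g
  -- points
  have hpt : ∀ χ : heckeAlgebra N 2 (↑S : Set ℕ) →+* 𝒪, (∀ t, residue 𝒪 (χ t) = θ t) →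
      ∃ χB : ↥(Algebra.adjoin 𝒪 (Set.range fun i => (twe_dt_fam D i).baseChange 𝒪)) →ₐ[𝒪] 𝒪,
        ∀ i, χB ⟨(twe_dt_fam D i).baseChange 𝒪, Algebra.subset_adjoin ⟨i, rfl⟩⟩ =
          χ (twe_dt_T i) := by
    intro χ _
    obtain ⟨χ₀, χB, hχ₀, hχB⟩ := hext χ
    refine ⟨χB, fun i => ?_⟩
    rw [hχB _ (hFmem i)]
    exact hχ₀ i.1 i.2.1 i.2.2.1 i.2.2.2
  -- `πB`
  obtain ⟨π₀, hπ₀mem, hπ₀T⟩ := twe_dl_rev N p S hNS
  -- the lattice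
  refine twe_dt_abs_sub (M := 𝒪 ⊗[ℤ_[p]] D.Tp) h2 hNS θ ρbar habs
    (fun i => (twe_dt_fam D i).baseChange 𝒪) (twe_dt_famO_comm 𝒪 D)
    (twe_dt_bc 𝒪 D.ρ) (twe_dt_bc_cont hp𝒪 D.ρ D.cont)
    (fun g i => twe_dt_famO_comm_rho 𝒪 D g i)
    (fun g => (ur_w D.ρ (cya_eps p ℤ_[p] ur_p_mem) g).baseChange 𝒪)
    (fun g => pkf_baseChange_mem (twe_dt_fam D) (hWmem g))
    (cya_eps p 𝒪 hp𝒪) hCH hfrob complexConjugation hW₀ (cya_eps_complexConjugation p 𝒪 hp𝒪)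
    θB (fun i => ?_) htr (fun g => twe_dt_det_res hp𝒪 hNS θ ρbar hcompat g) hpt
    ((Module.End.baseChangeHom ℤ_[p] 𝒪 D.Tp : Module.End ℤ_[p] D.Tp →+* _).comp π₀)
    (fun t => ?_) (fun i => ?_) (twe_dl_iotaEquiv N p 𝒪)
    (fun i x => twe_dl_iotaEquiv_hecke N p 𝒪 S i.1 i.2 x)
  · rw [hθB _ (hFmem i)]
    exact hθ₀ i.1 i.2.1 i.2.2.1 i.2.2.2
  · have h3 : π₀ t ∈ Algebra.adjoin ℤ_[p] (Set.range (twe_dt_fam D)) := by
      rw [twe_dt_range_fam]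
      exact hπ₀mem t
    exact pkf_baseChange_mem (twe_dt_fam D) h3
  · show (π₀ (twe_dt_T i)).baseChange 𝒪 = _
    rw [twe_dt_T, hπ₀T]
    rfl

end inst

end Fermat.Agent.TW
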