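import Mathlib
import Fermat.Agent.TW.Aut.DatumInst
import Fermat.Agent.TW.Aut.SeamDefs

/-!
# Project ONE MACHINE, block [E], cell E/Datum (helper7): (M1) and (M1F) are THEOREMS

* `twe_dt_full_isFull` : the base package of a `twe_dt_Full` is FULL (`twe_Base.IsFull`): its module
  `M_∅ = range ι = e · Hom(gh_H N, 𝒪)` is the whole `θ`-primary part (helper3's `twe_pr_iff`).
* `twe_dt_M1F : twe_M1F_stmt` (cell (C1) of `TW/Aut/SeamDefs.lean`), `twe_dt_M1 : twe_M1_stmt`.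
* `twe_dt_main` : the full output `twe_dt_Full` under the hypotheses of (M1).

Namespace `Fermat.Agent.TW`, prefix `twe_dt_`.
-/

set_option autoImplicit false
set_option linter.style.haveILetI false
set_option linter.unusedSectionVars false
set_option linter.unusedVariables false

namespace Fermat.Agent.TW

open IsLocalRing Polynomial CuspForm Fermat.Agent.JT3

section full

variable {𝒪 : Type} [CommRing 𝒪] [IsDomain 𝒪] [IsDiscreteValuationRing 𝒪]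
  [IsAdicComplete (maximalIdeal 𝒪) 𝒪]
  {N : ℕ} [NeZero N] {S : Finset ℕ} {θ : heckeAlgebra N 2 (↑S : Set ℕ) →+* ResidueField 𝒪}

/-- the base package of a full output is FULL. -/
theorem twe_dt_full_isFull (F : twe_dt_Full 𝒪 N S θ) : F.base.IsFull := by
  intro a ha x hx
  letI : Module F.B (gh_H N →+ 𝒪) :=
    Module.compHom (gh_H N →+ 𝒪) (F.act : F.B →+* Module.End 𝒪 (gh_H N →+ 𝒪))
  have hsmul : ∀ (b : F.B) (c : gh_H N →+ 𝒪), b • c = F.act b c := fun _ _ => rfl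
  haveI : IsScalarTower 𝒪 F.B (gh_H N →+ 𝒪) :=
    ⟨fun c b x => by rw [hsmul, hsmul, map_smul, LinearMap.smul_apply]⟩
  have hθ : ∀ ℓ, F.θB (F.τ ℓ) = residue 𝒪 (a ℓ) := fun ℓ => by
    rw [F.θB_τ, ha ℓ]
    rfl
  have hker := twe_lam_ker_eq F.τ a F.adjoin_τ F.θB hθ
  have h1 : ∀ b ∈ twe_lam_n F.τ a, ∃ n, 0 < n ∧ (F.e * b) ^ n ∈ twe_la_J 𝒪 F.B := by
    intro b hb
    rw [← hker] at hb
    exact F.e_nil b hb
  have h2 : 1 - F.e ∈ twe_lam_n F.τ a := by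
    rw [← hker, RingHom.mem_ker]
    show F.θB (1 - F.e) = 0
    rw [map_sub, map_one, F.θB_e, sub_self]
  have hop : twe_pr_op 𝒪 (gh_H N →+ 𝒪) F.τ = twe_sm_TX 𝒪 N (twe_sm_q N S) := by
    funext ℓ
    refine LinearMap.ext fun c => ?_
    rw [twe_pr_op_apply, hsmul, F.act_τ, twe_sm_TX_apply]
  haveI : Module.Finite 𝒪 (gh_H N →+ 𝒪) := tm_hom_finite (gh_H N) 𝒪
  have h3 := (twe_pr_iff (𝒪 := 𝒪) (X := gh_H N →+ 𝒪) F.τ a F.e_idem h1 h2 x).mpr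
    (by rw [hop]; exact hx)
  rw [F.range_ι]
  exact ⟨x, by rw [← hsmul]; exact h3⟩

end full

/-- **the full output of E/Datum** under the hypotheses of (M1) (`p ∤ N` not needed). -/
theorem twe_dt_main (p : ℕ) [Fact p.Prime] (hp5 : 5 ≤ p)
    (𝒪 : Type) [CommRing 𝒪] [IsDomain 𝒪] [IsDiscreteValuationRing 𝒪]
    [IsAdicComplete (maximalIdeal 𝒪) 𝒪] [Finite (ResidueField 𝒪)] [CharZero 𝒪]
    (hp𝒪 : (p : 𝒪) ∈ maximalIdeal 𝒪) (N : ℕ) [NeZero N] (S : Finset ℕ) (hpS : p ∈ S)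
    (hNS : ∀ ℓ : ℕ, ℓ.Prime → ℓ ∣ N → ℓ ∈ S)
    (θ : heckeAlgebra N 2 (↑S : Set ℕ) →+* ResidueField 𝒪)
    (ρbar : ResidualGaloisRep (ResidueField 𝒪)) (hcompat : twt_Compat θ ρbar)
    (habs : ρbar.IsAbsolutelyIrreducible) : Nonempty (twe_dt_Full 𝒪 N S θ) :=
  twe_dt_inst (by omega) hp𝒪 hpS hNS θ ρbar hcompat habs

/-- **(M1F)** (cell (C1) of `TW/Aut/SeamDefs.lean`). -/
theorem twe_dt_M1F : twe_M1F_stmt := by
  intro p _ hp5 𝒪 _ _ _ _ _ _ hp𝒪 N _ _ S hpS hNS θ ρbar hcompat habs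
  obtain ⟨F⟩ := twe_dt_main p hp5 𝒪 hp𝒪 N S hpS hNS θ ρbar hcompat habs
  exact ⟨F.base, twe_dt_full_isFull F⟩

/-- **(M1)**. -/
theorem twe_dt_M1 : twe_M1_stmt := by
  intro p _ hp5 𝒪 _ _ _ _ _ _ hp𝒪 N _ _ S hpS hNS θ ρbar hcompat habs
  obtain ⟨F⟩ := twe_dt_main p hp5 𝒪 hp𝒪 N S hpS hNS θ ρbar hcompat habs
  exact ⟨F.base⟩

end Fermat.Agent.TW
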