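/-
Project ONE MACHINE, block [E] AUT (helper5): SYSTEMS OF REPRESENTATIVES OF `Γ_{H'} / Γ_{H''}`.
Prefix `twe_rr_`, namespace `Fermat.Agent.TW`.

The relative form of E/Free (`twe_for_main`, `twe_fkr_main`) takes a system of left coset
representatives of `Γ_{H''}` in `Γ_{H'}` (`H'' ≤ H'`).  Given `d'' : Γ₀(M) →* Δ''` with kernel `Γ_{H''}`:
* `twe_rr_idx d'' H'`  : the index `↥(d''(Γ_{H'}))`, a subgroup of `Δ''`;
* `twe_rr_rep`, `twe_rr_rep_mem`, `twe_rr_rep_bij` : a lift of each index is a system of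
  representatives;
* `twe_rr_reindex`     : transport of a system of representatives along an equivalence;
* `twe_rr_prod_*`      : the product form: `d'' : Γ₀(M) ↠ Δ₁ × Δ₂`, `Γ_{H'}` the kernel of the first
  component: representatives indexed by `Δ₂`, `rep δ₂` a lift of `(1, δ₂)`.
-/
import Mathlib
import Fermat.Agent.TW.Aut.FreeAsm

set_option autoImplicit false

noncomputable section

open CongruenceSubgroup Matrix.SpecialLinearGroup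
open scoped MatrixGroups

namespace Fermat.Agent.TW

section general

variable {M : ℕ} {H'' H' : Subgroup (ZMod M)ˣ} {Δ'' : Type*} [Group Δ'']
  (d'' : Gamma0 M →* Δ'')

/-- the index of the representatives: the image of `Γ_{H'}` in `Δ''`. -/
def twe_rr_idx (H' : Subgroup (ZMod M)ˣ) : Subgroup Δ'' := (twe_GamH' M H').map d''

theorem twe_rr_exists (κ : ↥(twe_rr_idx d'' H')) :
    ∃ g : Gamma0 M, (g : SL(2, ℤ)) ∈ twe_GamH M H' ∧ d'' g = κ := by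
  obtain ⟨g, hg, hgκ⟩ := κ.2
  refine ⟨g, (twe_fz_mem_GamH_iff H' g).2 ?_, hgκ⟩
  exact hg

/-- the chosen representative of the class `κ`. -/
def twe_rr_rep (κ : ↥(twe_rr_idx d'' H')) : SL(2, ℤ) :=
  ((Classical.choose (twe_rr_exists d'' κ) : Gamma0 M) : SL(2, ℤ))

theorem twe_rr_rep_mem (κ : ↥(twe_rr_idx d'' H')) : twe_rr_rep d'' κ ∈ twe_GamH M H' :=
  (Classical.choose_spec (twe_rr_exists d'' κ)).1

theorem twe_rr_rep_mem0 (κ : ↥(twe_rr_idx d'' H')) : twe_rr_rep d'' κ ∈ Gamma0 M :=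
  (Classical.choose (twe_rr_exists d'' κ)).2

theorem twe_rr_d_rep (κ : ↥(twe_rr_idx d'' H')) :
    d'' ⟨twe_rr_rep d'' κ, twe_rr_rep_mem0 d'' κ⟩ = κ :=
  (Classical.choose_spec (twe_rr_exists d'' κ)).2

/-- **the lifts of the classes of `d''(Γ_{H'})` are a system of representatives of
`Γ_{H'} / Γ_{H''}`.** -/
theorem twe_rr_rep_bij (hdk'' : ∀ g, d'' g = 1 ↔ (g : SL(2, ℤ)) ∈ twe_GamH M H'') :
    ∀ γ ∈ twe_GamH M H', ∃! κ : ↥(twe_rr_idx d'' H'),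
      (twe_rr_rep d'' κ)⁻¹ * γ ∈ twe_GamH M H'' := by
  intro γ hγ
  have hγ0 : γ ∈ Gamma0 M := twe_GamH_le M H' hγ
  have key : ∀ κ : ↥(twe_rr_idx d'' H'),
      (twe_rr_rep d'' κ)⁻¹ * γ ∈ twe_GamH M H'' ↔ (κ : Δ'') = d'' ⟨γ, hγ0⟩ := by
    intro κ
    have h1 : (twe_rr_rep d'' κ)⁻¹ * γ =
        (((⟨twe_rr_rep d'' κ, twe_rr_rep_mem0 d'' κ⟩ : Gamma0 M)⁻¹ * ⟨γ, hγ0⟩ : Gamma0 M) :
          SL(2, ℤ)) := rfl
    rw [h1, ← hdk'', map_mul, map_inv, inv_mul_eq_one, twe_rr_d_rep]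
  have hmem : d'' ⟨γ, hγ0⟩ ∈ twe_rr_idx d'' H' :=
    ⟨⟨γ, hγ0⟩, (twe_fz_mem_GamH_iff H' ⟨γ, hγ0⟩).1 hγ, rfl⟩
  exact ⟨⟨_, hmem⟩, (key _).2 rfl, fun κ hκ => Subtype.ext ((key κ).1 hκ)⟩

end general

section reindex

variable {𝔾 : Type*} [Group 𝔾] {Γ Γ' : Subgroup 𝔾} {ι ι₂ : Type*} {ρ : ι → 𝔾}

/-- transport of a system of representatives along an equivalence of index types. -/
theorem twe_rr_reindex (e : ι₂ ≃ ι) (hbij : ∀ γ ∈ Γ, ∃! i, (ρ i)⁻¹ * γ ∈ Γ') :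
    ∀ γ ∈ Γ, ∃! i₂, (ρ (e i₂))⁻¹ * γ ∈ Γ' := by
  intro γ hγ
  obtain ⟨i, hi, huniq⟩ := hbij γ hγ
  refine ⟨e.symm i, ?_, fun i₂ hi₂ => ?_⟩
  · show (ρ (e (e.symm i)))⁻¹ * γ ∈ Γ'
    rw [e.apply_symm_apply]
    exact hi
  · rw [← huniq (e i₂) hi₂, e.symm_apply_apply]

end reindex

section prod

variable {M : ℕ} {H'' H' : Subgroup (ZMod M)ˣ} {Δ₁ Δ₂ : Type*} [Group Δ₁] [Group Δ₂]
  (d'' : Gamma0 M →* Δ₁ × Δ₂) (hd : Function.Surjective d'')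

/-- the chosen lift of `(1, δ₂)`. -/
def twe_rr_prod_rep (δ₂ : Δ₂) : SL(2, ℤ) :=
  ((Function.surjInv hd ((1 : Δ₁), δ₂) : Gamma0 M) : SL(2, ℤ))

theorem twe_rr_prod_rep_mem0 (δ₂ : Δ₂) : twe_rr_prod_rep d'' hd δ₂ ∈ Gamma0 M :=
  (Function.surjInv hd ((1 : Δ₁), δ₂)).2

theorem twe_rr_prod_d (δ₂ : Δ₂) :
    d'' ⟨twe_rr_prod_rep d'' hd δ₂, twe_rr_prod_rep_mem0 d'' hd δ₂⟩ = (1, δ₂) :=
  Function.surjInv_eq hd ((1 : Δ₁), δ₂)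

theorem twe_rr_prod_rep_mem (hdk' : ∀ g, (d'' g).1 = 1 ↔ (g : SL(2, ℤ)) ∈ twe_GamH M H')
    (δ₂ : Δ₂) : twe_rr_prod_rep d'' hd δ₂ ∈ twe_GamH M H' := by
  refine (hdk' ⟨_, twe_rr_prod_rep_mem0 d'' hd δ₂⟩).1 ?_
  rw [twe_rr_prod_d]

/-- **product form**: for `d'' : Γ₀(M) ↠ Δ₁ × Δ₂` with kernel `Γ_{H''}` and `Γ_{H'}` the kernel of the
first component, the lifts of the `(1, δ₂)` are a system of representatives of `Γ_{H'} / Γ_{H''}`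
indexed by `Δ₂`. -/
theorem twe_rr_prod_rep_bij (hdk' : ∀ g, (d'' g).1 = 1 ↔ (g : SL(2, ℤ)) ∈ twe_GamH M H')
    (hdk'' : ∀ g, d'' g = 1 ↔ (g : SL(2, ℤ)) ∈ twe_GamH M H'') :
    ∀ γ ∈ twe_GamH M H', ∃! δ₂ : Δ₂,
      (twe_rr_prod_rep d'' hd δ₂)⁻¹ * γ ∈ twe_GamH M H'' := by
  intro γ hγ
  have hγ0 : γ ∈ Gamma0 M := twe_GamH_le M H' hγ
  have hγ1 : (d'' ⟨γ, hγ0⟩).1 = 1 := (hdk' ⟨γ, hγ0⟩).2 hγ
  have key : ∀ δ₂ : Δ₂,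
      (twe_rr_prod_rep d'' hd δ₂)⁻¹ * γ ∈ twe_GamH M H'' ↔ δ₂ = (d'' ⟨γ, hγ0⟩).2 := by
    intro δ₂
    have h1 : (twe_rr_prod_rep d'' hd δ₂)⁻¹ * γ =
        (((⟨twe_rr_prod_rep d'' hd δ₂, twe_rr_prod_rep_mem0 d'' hd δ₂⟩ : Gamma0 M)⁻¹ *
          ⟨γ, hγ0⟩ : Gamma0 M) : SL(2, ℤ)) := rfl
    rw [h1, ← hdk'', map_mul, map_inv, inv_mul_eq_one, twe_rr_prod_d, Prod.ext_iff]
    constructor
    · intro h
      exact h.2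
    · intro h
      exact ⟨hγ1.symm, h⟩
  exact ⟨(d'' ⟨γ, hγ0⟩).2, (key _).2 rfl, fun δ₂ hδ₂ => (key δ₂).1 hδ₂⟩

end prod

end Fermat.Agent.TW
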