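/-
Project ONE MACHINE, block [E] AUT (helper5): EXISTENCE OF THE FRAMES `twe_sm_Frame M H q`.
Prefix `twe_fx_`, namespace `Fermat.Agent.TW`.

The fixed-determinant Hecke operators `T'_ℓ = twe_wl_T hℓM H s hs` need a `s ∈ Γ₀(M)` whose lower right
entry is a square root of `ℓ` modulo `H`.  When `(ℤ/M)ˣ/H` has odd exponent `m` such a square root
exists: `u ^ ((m + 1) / 2)`.

* `twe_fx_exists_s`  : `∃ s : Γ₀(M), d(s)² ℓ⁻¹ ∈ H`;
* `twe_fx_frame`     : `Nonempty (twe_sm_Frame M H q)` for any family of primes `q i ∤ M`;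
* `twe_fx_frame_pow` : the same from `∀ u, u ^ (p ^ n) ∈ H`, `p` odd;
* `twe_fx_frame_mono`: a frame for `H''` is a frame for every `H' ≥ H''` (the SAME `s`).
-/
import Mathlib
import Fermat.Agent.TW.Aut.SeamDefs
import Fermat.Agent.TW.Aut.FreeAsm

set_option autoImplicit false

noncomputable section

open CongruenceSubgroup Matrix.SpecialLinearGroup
open scoped MatrixGroups

namespace Fermat.Agent.TW

variable {M : ℕ}

/-- a square root modulo `H` of any unit, when `(ℤ/M)ˣ/H` has odd exponent. -/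
theorem twe_fx_exists_sqrt (H : Subgroup (ZMod M)ˣ) {m : ℕ} (hm : Odd m)
    (hH : ∀ u : (ZMod M)ˣ, u ^ m ∈ H) (u : (ZMod M)ˣ) :
    ∃ v : (ZMod M)ˣ, v * v * u⁻¹ ∈ H := by
  obtain ⟨j, rfl⟩ := hm
  refine ⟨u ^ (j + 1), ?_⟩
  have h1 : u ^ (j + 1) * u ^ (j + 1) * u⁻¹ = u ^ (2 * j + 1) := by
    rw [← pow_add, show j + 1 + (j + 1) = (2 * j + 1) + 1 by ring, pow_succ (u) (2 * j + 1),
      mul_assoc, mul_inv_cancel, mul_one]
  rw [h1]
  exact hH u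

theorem twe_fx_exists_s {ℓ : ℕ} [Fact ℓ.Prime] (hℓM : ¬ ℓ ∣ M) (H : Subgroup (ZMod M)ˣ) {m : ℕ}
    (hm : Odd m) (hH : ∀ u : (ZMod M)ˣ, u ^ m ∈ H) :
    ∃ s : Gamma0 M, twe_dUnit M s * twe_dUnit M s * (twe_hk_lU hℓM)⁻¹ ∈ H := by
  obtain ⟨v, hv⟩ := twe_fx_exists_sqrt H hm hH (twe_hk_lU hℓM)
  obtain ⟨s, rfl⟩ := twe_fz_dUnit_surjective M v
  exact ⟨s, hv⟩

/-- **frames exist** when `(ℤ/M)ˣ/H` has odd exponent. -/
theorem twe_fx_frame (M : ℕ) (H : Subgroup (ZMod M)ˣ) {I : Type*} (q : I → ℕ)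
    (hq : ∀ i, (q i).Prime) (hM : ∀ i, ¬ q i ∣ M) {m : ℕ} (hm : Odd m)
    (hH : ∀ u : (ZMod M)ˣ, u ^ m ∈ H) : Nonempty (twe_sm_Frame M H q) := by
  have hex : ∀ i, ∃ s : Gamma0 M,
      twe_dUnit M s * twe_dUnit M s * (@twe_hk_lU M (q i) ⟨hq i⟩ (hM i))⁻¹ ∈ H := fun i =>
    @twe_fx_exists_s M (q i) ⟨hq i⟩ (hM i) H m hm hH
  choose s hs using hex
  exact ⟨{ hq := fun i => ⟨hq i⟩, hM := hM, s := s, hs := hs }⟩

/-- frames exist when `(ℤ/M)ˣ/H` has exponent a power of an odd prime. -/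
theorem twe_fx_frame_pow (M : ℕ) (H : Subgroup (ZMod M)ˣ) {I : Type*} (q : I → ℕ)
    (hq : ∀ i, (q i).Prime) (hM : ∀ i, ¬ q i ∣ M) {p n : ℕ} (hp : Odd p)
    (hH : ∀ u : (ZMod M)ˣ, u ^ (p ^ n) ∈ H) : Nonempty (twe_sm_Frame M H q) :=
  twe_fx_frame M H q hq hM hp.pow hH

/-- a frame for `H''` is a frame for every larger `H'` (the same `s`). -/
def twe_fx_frame_mono {H'' H' : Subgroup (ZMod M)ˣ} (h : H'' ≤ H') {I : Type*} {q : I → ℕ}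
    (F : twe_sm_Frame M H'' q) : twe_sm_Frame M H' q where
  hq := F.hq
  hM := F.hM
  s := F.s
  hs := fun i => h (F.hs i)

@[simp] theorem twe_fx_frame_mono_s {H'' H' : Subgroup (ZMod M)ˣ} (h : H'' ≤ H') {I : Type*}
    {q : I → ℕ} (F : twe_sm_Frame M H'' q) : (twe_fx_frame_mono h F).s = F.s := rfl

/-- restriction intertwines the operators of a frame and of its enlargement. -/
theorem twe_fx_TY_res (𝒪 : Type*) [CommRing 𝒪] {H'' H' : Subgroup (ZMod M)ˣ} (h : H'' ≤ H')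
    {I : Type*} {q : I → ℕ} (F : twe_sm_Frame M H'' q) (i : I)
    (z : ↥(twe_wl_V 𝒪 𝒪 (twe_GamH M H'))) :
    twe_wl_res (twe_GamH_mono h) (twe_sm_TY 𝒪 (twe_fx_frame_mono h F) i z) =
      twe_sm_TY 𝒪 F i (twe_wl_res (twe_GamH_mono h) z) :=
  @twe_wl_T_res 𝒪 _ 𝒪 _ _ M (q i) (F.hq i) (F.hM i) H'' H' h (F.s i) (F.hs i) z

end Fermat.Agent.TW
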