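import Mathlib
import Fermat.Agent.TW.Aut.SeamAct
import Fermat.Agent.TW.Aut.SeamMk
import Fermat.Agent.TW.Aut.FreeKRel
import Fermat.Agent.TW.Aut.DeltaIso

/-!
# Project ONE MACHINE, block [E] AUT, E/Seam: the `Δ`-plumbing of `twe_mk_LevelData` /
`twe_mk_BigData` (helper28)

Prefix `twe_sd_`.  GENERIC in `(M, H, Δ, d, hd, hdk)`, a frame `F : twe_sm_Frame M H q` and a
system `a : I → 𝒪`; `P := twe_pr_prim (twe_sm_TY 𝒪 F) a ⊆ W := twe_wl_V 𝒪 𝒪 (twe_GamH M H)`.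

* `twe_sd_rho`         : the diamond representation of `Δ` on `P` (`twe_sd_rho_coe`:
                         `ρ (d g) y = twe_wl_conj H g y`);
* `twe_sd_comm`        : an action `ψ : R →ₐ End P` which is `T'` on generators commutes with `ρ`
                         (field `comm`);
* `twe_sd_hb`          : the orbit-basis condition (field `hb`) from the `twe_fk_main` form;
* `twe_sd_span_eq`     : `span {⟨g⟩ u - u | d g ∈ D} = (⨆ δ ∈ D, range (ρ δ - 1))` (in `W`), and the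
                         membership forms `twe_sd_mem_aug_iff`, `twe_sd_mem_aug2_iff`;
* `twe_sd_reps`, `twe_sd_reps_mem`, `twe_sd_reps_bij` : coset representatives indexed by `Δ`;
                         relative form `twe_sd_reps_rel_mem`, `twe_sd_reps_rel_bij`;
* `twe_sd_exists_frame`: frames exist when `(ℤ/M)ˣ/H` has odd exponent.
-/

set_option autoImplicit false
set_option linter.unusedSectionVars false
set_option maxSynthPendingDepth 3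

open scoped MatrixGroups
open Matrix.SpecialLinearGroup CongruenceSubgroup

namespace Fermat.Agent.TW

open IsLocalRing Module Fermat.Agent.JT3

noncomputable section

section rho

variable {𝒪 : Type*} [CommRing 𝒪] [IsLocalRing 𝒪] {M : ℕ} {H : Subgroup (ZMod M)ˣ}
  {I : Type*} {q : I → ℕ} (F : twe_sm_Frame M H q) (a : I → 𝒪)
  {Δ : Type*} [Group Δ] (d : Gamma0 M →* Δ) (hd : Function.Surjective d)
  (hdk : ∀ g, d g = 1 ↔ (g : SL(2, ℤ)) ∈ twe_GamH M H)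

/-- the frame operators are the family `twe_fo_T'` of E/Free. -/
theorem twe_sd_TY_eq :
    twe_sm_TY 𝒪 F = @twe_fo_T' 𝒪 _ 𝒪 _ _ M I q F.hq F.hM H F.s F.hs := rfl

/-- the diamonds preserve the primary part. -/
theorem twe_sd_conj_stable (g : Gamma0 M) {y : ↥(twe_wl_V 𝒪 𝒪 (twe_GamH M H))}
    (hy : y ∈ twe_pr_prim (twe_sm_TY 𝒪 F) a) :
    twe_wl_conj H g y ∈ twe_pr_prim (twe_sm_TY 𝒪 F) a :=
  twe_pr_prim_stable _ a (twe_wl_conj H g)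
    (fun i => LinearMap.ext fun z => twe_sa_TY_conj F i g z) hy

/-- **the diamond representation** of `Δ = Γ₀(M)/Γ_H` on the primary part of `W(Γ_H, 𝒪)`. -/
def twe_sd_rho : Representation 𝒪 Δ ↥(twe_pr_prim (twe_sm_TY 𝒪 F) a) :=
  twe_fo_restrict (twe_fo_rho (R := 𝒪) (A := 𝒪) H d hd hdk) (twe_pr_prim (twe_sm_TY 𝒪 F) a)
    (fun δ y hy => by rw [twe_fo_rho_def]; exact twe_sd_conj_stable F a _ hy)

theorem twe_sd_rho_coe (g : Gamma0 M) (y : ↥(twe_pr_prim (twe_sm_TY 𝒪 F) a)) :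
    ((twe_sd_rho F a d hd hdk (d g) y : ↥(twe_pr_prim (twe_sm_TY 𝒪 F) a)) :
      ↥(twe_wl_V 𝒪 𝒪 (twe_GamH M H))) = twe_wl_conj H g y.1 := by
  unfold twe_sd_rho
  rw [twe_fo_restrict_coe, twe_fo_rho_apply]

theorem twe_sd_rho_sub_one_coe (g : Gamma0 M) (y : ↥(twe_pr_prim (twe_sm_TY 𝒪 F) a)) :
    (((twe_sd_rho F a d hd hdk (d g) -
        (1 : ↥(twe_pr_prim (twe_sm_TY 𝒪 F) a) →ₗ[𝒪] ↥(twe_pr_prim (twe_sm_TY 𝒪 F) a))) y :
          ↥(twe_pr_prim (twe_sm_TY 𝒪 F) a)) :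
      ↥(twe_wl_V 𝒪 𝒪 (twe_GamH M H))) = twe_wl_conj H g y.1 - y.1 := by
  rw [LinearMap.sub_apply, Module.End.one_apply, Submodule.coe_sub, twe_sd_rho_coe]

/-- **field `comm`**: an action of a ring generated by elements acting as the `T'_i` commutes with
the diamond representation. -/
theorem twe_sd_comm {R : Type*} [CommRing R] [Algebra 𝒪 R] (τ : I → R)
    (hgen : Algebra.adjoin 𝒪 (Set.range τ) = ⊤)
    (ψ : R →ₐ[𝒪] Module.End 𝒪 ↥(twe_pr_prim (twe_sm_TY 𝒪 F) a))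
    (hψ : ∀ (i : I) (y : ↥(twe_pr_prim (twe_sm_TY 𝒪 F) a)),
      ((ψ (τ i) y : ↥(twe_pr_prim (twe_sm_TY 𝒪 F) a)) : ↥(twe_wl_V 𝒪 𝒪 (twe_GamH M H))) =
        twe_sm_TY 𝒪 F i (y : ↥(twe_wl_V 𝒪 𝒪 (twe_GamH M H))))
    (x : R) (δ : Δ) (m : ↥(twe_pr_prim (twe_sm_TY 𝒪 F) a)) :
    ψ x (twe_sd_rho F a d hd hdk δ m) = twe_sd_rho F a d hd hdk δ (ψ x m) := by
  obtain ⟨g, rfl⟩ := hd δ
  have hi : ∀ (i : I) (y : ↥(twe_pr_prim (twe_sm_TY 𝒪 F) a)),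
      twe_sd_rho F a d hd hdk (d g) (ψ (τ i) y) =
        ψ ((AlgHom.id 𝒪 R) (τ i)) (twe_sd_rho F a d hd hdk (d g) y) := by
    intro i y
    apply Subtype.ext
    rw [twe_sd_rho_coe, hψ, AlgHom.id_apply, hψ, twe_sd_rho_coe]
    exact twe_sa_TY_conj F i g y.1
  have h := twe_sa_equivariant (R' := R) (P := ↥(twe_pr_prim (twe_sm_TY 𝒪 F) a))
    (P' := ↥(twe_pr_prim (twe_sm_TY 𝒪 F) a)) τ hgen (AlgHom.id 𝒪 R) ψ ψ
    (twe_sd_rho F a d hd hdk (d g)) hi x m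
  rw [h, AlgHom.id_apply]

/-- **field `hb`**: the orbit-basis condition in the `ρ`-form, from the `twe_fk_main`-form. -/
theorem twe_sd_hb {r : ℕ} (v : Fin r → ↥(twe_pr_prim (twe_sm_TY 𝒪 F) a))
    (b : Basis (Δ × Fin r) 𝒪 ↥(twe_pr_prim (twe_sm_TY 𝒪 F) a))
    (hb : ∀ g i, ((b (d g, i) : ↥(twe_pr_prim (twe_sm_TY 𝒪 F) a)) :
      ↥(twe_wl_V 𝒪 𝒪 (twe_GamH M H))) = twe_wl_conj H g (v i).1) (δ : Δ) (i : Fin r) :
    b (δ, i) = twe_sd_rho F a d hd hdk δ (v i) := by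
  obtain ⟨g, rfl⟩ := hd δ
  apply Subtype.ext
  rw [hb, twe_sd_rho_coe]

/-- the span of the `⟨g⟩ u - u`, `d g ∈ D`, `u` primary, is the image of the partial augmentation
submodule of `ρ`. -/
theorem twe_sd_span_eq (D : Set Δ) :
    Submodule.span 𝒪 {w : ↥(twe_wl_V 𝒪 𝒪 (twe_GamH M H)) | ∃ g : Gamma0 M, d g ∈ D ∧
        ∃ u ∈ twe_pr_prim (twe_sm_TY 𝒪 F) a, w = twe_wl_conj H g u - u} =
      (⨆ δ : ↥D, LinearMap.range (twe_sd_rho F a d hd hdk (δ : Δ) -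
        (1 : ↥(twe_pr_prim (twe_sm_TY 𝒪 F) a) →ₗ[𝒪] ↥(twe_pr_prim (twe_sm_TY 𝒪 F) a)))).map
        (twe_pr_prim (twe_sm_TY 𝒪 F) a).subtype := by
  apply le_antisymm
  · rw [Submodule.span_le]
    rintro _ ⟨g, hg, u, hu, rfl⟩
    refine ⟨(twe_sd_rho F a d hd hdk (d g) -
      (1 : ↥(twe_pr_prim (twe_sm_TY 𝒪 F) a) →ₗ[𝒪] ↥(twe_pr_prim (twe_sm_TY 𝒪 F) a))) ⟨u, hu⟩, ?_, ?_⟩
    · exact Submodule.mem_iSup_of_mem (⟨d g, hg⟩ : ↥D) ⟨⟨u, hu⟩, rfl⟩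
    · rw [Submodule.subtype_apply, twe_sd_rho_sub_one_coe]
  · rw [Submodule.map_le_iff_le_comap]
    refine iSup_le fun δ => ?_
    rintro _ ⟨m, rfl⟩
    rw [Submodule.mem_comap]
    obtain ⟨g, hg⟩ := hd (δ : Δ)
    refine Submodule.subset_span ⟨g, by rw [hg]; exact δ.2, m.1, m.2, ?_⟩
    rw [Submodule.subtype_apply, ← hg, twe_sd_rho_sub_one_coe]

/-- membership form, total augmentation (`twe_fk_main`-form of the kernel). -/
theorem twe_sd_mem_aug_iff (y : ↥(twe_pr_prim (twe_sm_TY 𝒪 F) a)) :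
    y ∈ (⨆ δ : Δ, LinearMap.range (twe_sd_rho F a d hd hdk δ -
        (1 : ↥(twe_pr_prim (twe_sm_TY 𝒪 F) a) →ₗ[𝒪] ↥(twe_pr_prim (twe_sm_TY 𝒪 F) a)))) ↔
      (y : ↥(twe_wl_V 𝒪 𝒪 (twe_GamH M H))) ∈
        Submodule.span 𝒪 {w : ↥(twe_wl_V 𝒪 𝒪 (twe_GamH M H)) | ∃ g : Gamma0 M,
          ∃ u ∈ twe_pr_prim (twe_sm_TY 𝒪 F) a, w = twe_wl_conj H g u - u} := by
  have h1 : {w : ↥(twe_wl_V 𝒪 𝒪 (twe_GamH M H)) | ∃ g : Gamma0 M,
      ∃ u ∈ twe_pr_prim (twe_sm_TY 𝒪 F) a, w = twe_wl_conj H g u - u} =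
      {w | ∃ g : Gamma0 M, d g ∈ (Set.univ : Set Δ) ∧
        ∃ u ∈ twe_pr_prim (twe_sm_TY 𝒪 F) a, w = twe_wl_conj H g u - u} := by
    ext w
    constructor
    · rintro ⟨g, u, hu, rfl⟩
      exact ⟨g, Set.mem_univ _, u, hu, rfl⟩
    · rintro ⟨g, -, u, hu, rfl⟩
      exact ⟨g, u, hu, rfl⟩
  have h2 : (⨆ δ : ↥(Set.univ : Set Δ), LinearMap.range (twe_sd_rho F a d hd hdk (δ : Δ) -
      (1 : ↥(twe_pr_prim (twe_sm_TY 𝒪 F) a) →ₗ[𝒪] ↥(twe_pr_prim (twe_sm_TY 𝒪 F) a)))) =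
      ⨆ δ : Δ, LinearMap.range (twe_sd_rho F a d hd hdk δ -
        (1 : ↥(twe_pr_prim (twe_sm_TY 𝒪 F) a) →ₗ[𝒪] ↥(twe_pr_prim (twe_sm_TY 𝒪 F) a))) := by
    apply le_antisymm
    · exact iSup_le fun δ => le_iSup (fun δ : Δ => LinearMap.range (twe_sd_rho F a d hd hdk δ -
        (1 : ↥(twe_pr_prim (twe_sm_TY 𝒪 F) a) →ₗ[𝒪] ↥(twe_pr_prim (twe_sm_TY 𝒪 F) a)))) δ
    · exact iSup_le fun δ => le_iSup (fun δ : ↥(Set.univ : Set Δ) =>
        LinearMap.range (twe_sd_rho F a d hd hdk (δ : Δ) -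
          (1 : ↥(twe_pr_prim (twe_sm_TY 𝒪 F) a) →ₗ[𝒪] ↥(twe_pr_prim (twe_sm_TY 𝒪 F) a)))) ⟨δ, Set.mem_univ _⟩
  rw [h1, twe_sd_span_eq F a d hd hdk Set.univ, h2]
  constructor
  · intro hy
    exact ⟨y, hy, rfl⟩
  · rintro ⟨y', hy', hyy⟩
    have : y' = y := Subtype.ext hyy
    rwa [← this]

end rho

/-! ### coset representatives indexed by `Δ` -/

section reps

variable {M : ℕ} {H : Subgroup (ZMod M)ˣ} {Δ : Type*} [Group Δ] (d : Gamma0 M →* Δ)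
  (hd : Function.Surjective d) (hdk : ∀ g, d g = 1 ↔ (g : SL(2, ℤ)) ∈ twe_GamH M H)

/-- coset representatives of `Γ₀(M)/Γ_H`, indexed by `Δ`: a section of `d`. -/
def twe_sd_reps : Δ → SL(2, ℤ) := fun δ => ((Function.surjInv hd δ : Gamma0 M) : SL(2, ℤ))

theorem twe_sd_reps_mem (δ : Δ) : twe_sd_reps d hd δ ∈ Gamma0 M := (Function.surjInv hd δ).2

include hdk in
theorem twe_sd_reps_bij :
    ∀ γ ∈ Gamma0 M, ∃! δ, (twe_sd_reps d hd δ)⁻¹ * γ ∈ twe_GamH M H := by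
  intro γ hγ
  refine ⟨d ⟨γ, hγ⟩, ?_, ?_⟩
  · have h1 : (((Function.surjInv hd (d ⟨γ, hγ⟩))⁻¹ * ⟨γ, hγ⟩ : Gamma0 M) : SL(2, ℤ)) ∈
        twe_GamH M H := by
      rw [← hdk, map_mul, map_inv, Function.surjInv_eq hd, inv_mul_cancel]
    exact h1
  · intro δ hδ
    have h1 : (((Function.surjInv hd δ)⁻¹ * ⟨γ, hγ⟩ : Gamma0 M) : SL(2, ℤ)) ∈ twe_GamH M H := hδ
    rw [← hdk, map_mul, map_inv, Function.surjInv_eq hd, inv_mul_eq_one] at h1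
    exact h1

variable {H' : Subgroup (ZMod M)ˣ} (D : Subgroup Δ)
  (hD : ∀ g : Gamma0 M, d g ∈ D ↔ (g : SL(2, ℤ)) ∈ twe_GamH M H')

/-- relative coset representatives of `Γ_{H'}/Γ_H`, indexed by the subgroup `D = d(Γ_{H'})`. -/
def twe_sd_repsRel : ↥D → SL(2, ℤ) := fun δ => twe_sd_reps d hd (δ : Δ)

include hD in
theorem twe_sd_repsRel_mem (δ : ↥D) : twe_sd_repsRel d hd D δ ∈ twe_GamH M H' := by
  unfold twe_sd_repsRel twe_sd_reps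
  rw [← hD, Function.surjInv_eq hd]
  exact δ.2

include hdk hD in
theorem twe_sd_repsRel_bij :
    ∀ γ ∈ twe_GamH M H', ∃! δ, (twe_sd_repsRel d hd D δ)⁻¹ * γ ∈ twe_GamH M H := by
  intro γ hγ
  have hγ0 : γ ∈ Gamma0 M := twe_GamH_le M H' hγ
  obtain ⟨δ, h1, h2⟩ := twe_sd_reps_bij d hd hdk γ hγ0
  have hδ : δ ∈ D := by
    have h3 : d ⟨γ, hγ0⟩ ∈ D := (hD ⟨γ, hγ0⟩).2 hγ
    have h4 : δ = d ⟨γ, hγ0⟩ := by
      have h5 : (((Function.surjInv hd δ)⁻¹ * ⟨γ, hγ0⟩ : Gamma0 M) : SL(2, ℤ)) ∈ twe_GamH M H := h1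
      rw [← hdk, map_mul, map_inv, Function.surjInv_eq hd, inv_mul_eq_one] at h5
      exact h5
    rw [h4]
    exact h3
  refine ⟨⟨δ, hδ⟩, h1, ?_⟩
  intro δ' hδ'
  exact Subtype.ext (h2 δ'.1 hδ')

end reps

/-! ### frames exist -/

section frames

variable {M : ℕ} [NeZero M]

/-- **frames exist** as soon as `(ℤ/M)ˣ/H` has odd exponent: `s i` with `d(s i) = (q i)^{(m+1)/2}`. -/
theorem twe_sd_exists_frame (H : Subgroup (ZMod M)ˣ) (m : ℕ) (hm : Odd m)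
    (hHm : ∀ u : (ZMod M)ˣ, u ^ m ∈ H) {I : Type*} (q : I → ℕ) (hq : ∀ i, (q i).Prime)
    (hM : ∀ i, ¬ q i ∣ M) : Nonempty (twe_sm_Frame M H q) := by
  obtain ⟨k, rfl⟩ := hm
  have hq' : ∀ i, Fact (q i).Prime := fun i => ⟨hq i⟩
  have hex : ∀ i, ∃ g : Gamma0 M, twe_dUnit M g = (@twe_hk_lU M (q i) (hq' i) (hM i)) ^ (k + 1) :=
    fun i => twe_di_dUnit_surjective M _
  choose s hs using hex
  refine ⟨⟨hq', hM, s, fun i => ?_⟩⟩
  rw [hs i]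
  have h1 : (@twe_hk_lU M (q i) (hq' i) (hM i)) ^ (k + 1) * (@twe_hk_lU M (q i) (hq' i) (hM i)) ^ (k + 1) *
      (@twe_hk_lU M (q i) (hq' i) (hM i))⁻¹ = (@twe_hk_lU M (q i) (hq' i) (hM i)) ^ (2 * k + 1) := by
    rw [← pow_add, mul_inv_eq_iff_eq_mul, ← pow_succ]
    congr 1
    ring
  rw [h1]
  exact hHm _

/-- a frame for `H''` is a frame for any `H' ≥ H''`. -/
def twe_sd_frameMono {H'' H' : Subgroup (ZMod M)ˣ} (h : H'' ≤ H') {I : Type*} {q : I → ℕ}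
    (F : twe_sm_Frame M H'' q) : twe_sm_Frame M H' q :=
  ⟨F.hq, F.hM, F.s, fun i => h (F.hs i)⟩

/-- a frame restricted to a subfamily of the index set. -/
def twe_sd_frameComp {H : Subgroup (ZMod M)ˣ} {I J : Type*} {q : I → ℕ}
    (F : twe_sm_Frame M H q) (e : J → I) : twe_sm_Frame M H (q ∘ e) :=
  ⟨fun j => F.hq (e j), fun j => F.hM (e j), fun j => F.s (e j), fun j => F.hs (e j)⟩

end frames

/-! ### the primary part only depends on the set of pairs `(T i, a i)` -/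

section reindex

variable {𝒪 : Type*} [CommRing 𝒪] [IsLocalRing 𝒪] {X : Type*} [AddCommGroup X] [Module 𝒪 X]
  {L L' : Type*}

theorem twe_sd_prim_le (T : L → Module.End 𝒪 X) (a : L → 𝒪) (T' : L' → Module.End 𝒪 X)
    (a' : L' → 𝒪) (h : ∀ j : L', ∃ i : L, T i = T' j ∧ a i = a' j) :
    twe_pr_prim T a ≤ twe_pr_prim T' a' := by
  intro x hx j k
  obtain ⟨i, hT, ha⟩ := h j
  obtain ⟨n, hn⟩ := hx i k
  refine ⟨n, ?_⟩
  rw [← hT, ← ha]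
  exact hn

theorem twe_sd_prim_congr (T : L → Module.End 𝒪 X) (a : L → 𝒪) (T' : L' → Module.End 𝒪 X)
    (a' : L' → 𝒪) (h : ∀ j : L', ∃ i : L, T i = T' j ∧ a i = a' j)
    (h' : ∀ i : L, ∃ j : L', T' j = T i ∧ a' j = a i) :
    twe_pr_prim T a = twe_pr_prim T' a' :=
  le_antisymm (twe_sd_prim_le T a T' a' h) (twe_sd_prim_le T' a' T a h')

end reindex

end

end Fermat.Agent.TW
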