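import Mathlib
import Fermat.Agent.TW.Aut.SeamDelta
import Fermat.Agent.TW.Aut.FrameExists
import Fermat.Agent.TW.Aut.DeltaIso3
import Fermat.Agent.TW.Aut.ChiBridge

/-!
# Project ONE MACHINE, block [E] AUT, E/Seam: the relative coinvariant map = the field group
`(c1, c1_surjective, c1_ker, c1_hecke, c1_diamond)` of `twe_mk_BigData` (helper28)

Prefix `twe_scr_`.  GENERIC in the data of `twe_fkr_main`: `H'' ≤ H'`, `d'' : Γ₀(M) ↠ Δ''`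
(kernel `Γ_{H''}`), `d' : Γ₀(M) ↠ Δ'` (kernel `Γ_{H'}`), `π : Δ'' →* Δ'` with `d' = π ∘ d''`, a frame
`F` at `H''` (and its enlargement `twe_fx_frame_mono h F` at `H'`), a system `a`.

* `twe_scr_main` : `∃ c1 : prim W(Γ_{H''}, 𝒪) →ₗ prim W(Γ_{H'}, 𝒪)`, onto, with kernel
  `⨆ δ ∈ ker π, range (ρ'' δ - 1)`, Hecke-equivariant and `π`-equivariant for the diamonds;
* `twe_scr_prod` : the product form `Δ'' = Δ₁ × Δ₂`, `π = fst`: kernel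
  `⨆ δ₂, range (ρ'' (1, δ₂) - 1)`, `c1 (ρ'' (δ₁, δ₂) y) = ρ' δ₁ (c1 y)`.
-/

set_option autoImplicit false
set_option linter.unusedSectionVars false
set_option maxSynthPendingDepth 3

open scoped MatrixGroups
open Matrix.SpecialLinearGroup CongruenceSubgroup

namespace Fermat.Agent.TW

open IsLocalRing Module Fermat.Agent.JT3

noncomputable section

section rel

variable {𝒪 : Type} [CommRing 𝒪] [IsDomain 𝒪] [IsDiscreteValuationRing 𝒪]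
  [IsAdicComplete (maximalIdeal 𝒪) 𝒪] [CharZero 𝒪]

/-- **the relative coinvariant map** `prim W(Γ_{H''}, 𝒪) → prim W(Γ_{H'}, 𝒪)`. -/
theorem twe_scr_main {M : ℕ} [NeZero M] {H'' H' : Subgroup (ZMod M)ˣ} (h : H'' ≤ H')
    (hneg : (-1 : SL(2, ℤ)) ∈ twe_GamH M H'')
    (h12 : ∀ u : (ZMod M)ˣ, u ^ (12 * M) = 1 → u ∈ H'')
    {Δ'' Δ' : Type} [CommGroup Δ''] [Fintype Δ''] [CommGroup Δ'] [Fintype Δ']
    (d'' : Gamma0 M →* Δ'') (hd'' : Function.Surjective d'')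
    (hdk'' : ∀ g, d'' g = 1 ↔ (g : SL(2, ℤ)) ∈ twe_GamH M H'')
    (d' : Gamma0 M →* Δ') (hd' : Function.Surjective d')
    (hdk' : ∀ g, d' g = 1 ↔ (g : SL(2, ℤ)) ∈ twe_GamH M H')
    (π : Δ'' →* Δ') (hπ : ∀ g, π (d'' g) = d' g)
    {p n : ℕ} (hp : p.Prime) (hp2 : p ≠ 2) (hpO : (p : 𝒪) ∈ maximalIdeal 𝒪)
    (hΔ'' : ∀ δ : Δ'', δ ^ (p ^ n) = 1) (hΔ' : ∀ δ : Δ', δ ^ (p ^ n) = 1)
    {I : Type*} {q : I → ℕ} (F : twe_sm_Frame M H'' q) (hinj : Function.Injective q)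
    (a : I → 𝒪) (i₀ : I)
    (hne : residue 𝒪 (a i₀) ≠ ((q i₀ + 1 : ℕ) : ResidueField 𝒪)) :
    ∃ c1 : ↥(twe_pr_prim (twe_sm_TY 𝒪 F) a) →ₗ[𝒪]
        ↥(twe_pr_prim (twe_sm_TY 𝒪 (twe_fx_frame_mono h F)) a),
      Function.Surjective c1 ∧
      LinearMap.ker c1 = (⨆ δ : ↥π.ker, LinearMap.range
        (twe_sd_rho F a d'' hd'' hdk'' (δ : Δ'') -
          (1 : ↥(twe_pr_prim (twe_sm_TY 𝒪 F) a) →ₗ[𝒪] ↥(twe_pr_prim (twe_sm_TY 𝒪 F) a)))) ∧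
      (∀ (i : I) (y y' : ↥(twe_pr_prim (twe_sm_TY 𝒪 F) a)),
        (y' : ↥(twe_wl_V 𝒪 𝒪 (twe_GamH M H''))) = twe_sm_TY 𝒪 F i y.1 →
        ((c1 y' : ↥(twe_pr_prim (twe_sm_TY 𝒪 (twe_fx_frame_mono h F)) a)) :
          ↥(twe_wl_V 𝒪 𝒪 (twe_GamH M H'))) =
          twe_sm_TY 𝒪 (twe_fx_frame_mono h F) i (c1 y).1) ∧
      ∀ (δ : Δ'') (y : ↥(twe_pr_prim (twe_sm_TY 𝒪 F) a)),
        c1 (twe_sd_rho F a d'' hd'' hdk'' δ y) =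
          twe_sd_rho (twe_fx_frame_mono h F) a d' hd' hdk' (π δ) (c1 y) := by
  have := F.hq
  have : Fintype ↥π.ker := Fintype.ofFinite _
  have hD : ∀ g : Gamma0 M, d'' g ∈ π.ker ↔ (g : SL(2, ℤ)) ∈ twe_GamH M H' := by
    intro g
    rw [MonoidHom.mem_ker, hπ, hdk']
  have hρ'' := twe_sd_repsRel_mem d'' hd'' π.ker hD
  have hbij'' := twe_sd_repsRel_bij d'' hd'' hdk'' π.ker hD
  obtain ⟨hsurj, hker⟩ := twe_fkr_main (𝒪 := 𝒪) h hneg h12 d'' hd'' hdk'' d' hd' hdk' hp hp2 hpO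
    hΔ'' hΔ' q F.hM hinj F.s F.hs a i₀ hne
    (twe_sd_reps_mem d' hd') (twe_sd_reps_bij d' hd' hdk') hρ'' hbij''
  have hcorT : ∀ (i : I) (z : ↥(twe_wl_V 𝒪 𝒪 (twe_GamH M H''))),
      twe_wl_cor (R := 𝒪) (A := 𝒪) hρ'' hbij'' (twe_sm_TY 𝒪 F i z) =
        twe_sm_TY 𝒪 (twe_fx_frame_mono h F) i (twe_wl_cor hρ'' hbij'' z) :=
    fun i z => twe_for_cor_T h q F.hM F.s F.hs hρ'' hbij'' i z
  refine ⟨(twe_wl_cor (R := 𝒪) (A := 𝒪) hρ'' hbij'').restrict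
    (fun y hy => twe_pr_map_prim (twe_wl_cor (R := 𝒪) (A := 𝒪) hρ'' hbij'') (twe_sm_TY 𝒪 F)
      (twe_sm_TY 𝒪 (twe_fx_frame_mono h F)) hcorT a hy), ?_, ?_, ?_, ?_⟩
  · intro y
    obtain ⟨z, hz, hzy⟩ := hsurj y.1 y.2
    exact ⟨⟨z, hz⟩, Subtype.ext hzy⟩
  · apply le_antisymm
    · intro y hy
      have hy0 : twe_wl_cor (R := 𝒪) (A := 𝒪) hρ'' hbij'' y.1 = 0 :=
        congrArg Subtype.val (LinearMap.mem_ker.mp hy)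
      have h1 := hker y.1 y.2 hy0
      have h2 : {w : ↥(twe_wl_V 𝒪 𝒪 (twe_GamH M H'')) | ∃ g : Gamma0 M,
          (g : SL(2, ℤ)) ∈ twe_GamH M H' ∧
          ∃ u ∈ twe_pr_prim (twe_sm_TY 𝒪 F) a, w = twe_wl_conj H'' g u - u} =
          {w | ∃ g : Gamma0 M, d'' g ∈ (π.ker : Set Δ'') ∧
            ∃ u ∈ twe_pr_prim (twe_sm_TY 𝒪 F) a, w = twe_wl_conj H'' g u - u} := by
        ext w
        constructor
        · rintro ⟨g, hg, u, hu, rfl⟩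
          exact ⟨g, (hD g).2 hg, u, hu, rfl⟩
        · rintro ⟨g, hg, u, hu, rfl⟩
          exact ⟨g, (hD g).1 hg, u, hu, rfl⟩
      have h3 : (y : ↥(twe_wl_V 𝒪 𝒪 (twe_GamH M H''))) ∈ Submodule.span 𝒪
          {w : ↥(twe_wl_V 𝒪 𝒪 (twe_GamH M H'')) | ∃ g : Gamma0 M, d'' g ∈ (π.ker : Set Δ'') ∧
            ∃ u ∈ twe_pr_prim (twe_sm_TY 𝒪 F) a, w = twe_wl_conj H'' g u - u} := by
        rw [← h2]
        exact h1
      rw [twe_sd_span_eq F a d'' hd'' hdk'' (π.ker : Set Δ'')] at h3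
      obtain ⟨y', hy', hyy⟩ := h3
      have hyy' : y' = y := Subtype.ext hyy
      rw [← hyy']
      have hle : (⨆ δ : ↥(π.ker : Set Δ''), LinearMap.range
          (twe_sd_rho F a d'' hd'' hdk'' (δ : Δ'') -
            (1 : ↥(twe_pr_prim (twe_sm_TY 𝒪 F) a) →ₗ[𝒪] ↥(twe_pr_prim (twe_sm_TY 𝒪 F) a)))) ≤
          (⨆ δ : ↥π.ker, LinearMap.range
          (twe_sd_rho F a d'' hd'' hdk'' (δ : Δ'') -
            (1 : ↥(twe_pr_prim (twe_sm_TY 𝒪 F) a) →ₗ[𝒪] ↥(twe_pr_prim (twe_sm_TY 𝒪 F) a)))) :=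
        iSup_le fun δ => le_iSup (fun δ : ↥π.ker => LinearMap.range
          (twe_sd_rho F a d'' hd'' hdk'' (δ : Δ'') -
            (1 : ↥(twe_pr_prim (twe_sm_TY 𝒪 F) a) →ₗ[𝒪] ↥(twe_pr_prim (twe_sm_TY 𝒪 F) a))))
          ⟨δ.1, δ.2⟩
      exact hle hy'
    · refine iSup_le fun δ => ?_
      rintro _ ⟨m, rfl⟩
      rw [LinearMap.mem_ker]
      obtain ⟨g, hg⟩ := hd'' (δ : Δ'')
      have hgH' : (g : SL(2, ℤ)) ∈ twe_GamH M H' := (hD g).1 (by rw [hg]; exact δ.2)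
      apply Subtype.ext
      rw [LinearMap.coe_restrict_apply, ← hg, twe_sd_rho_sub_one_coe, map_sub,
        twe_for_cor_conj hρ'' hbij'' g hgH' m.1, sub_self]
      rfl
  · intro i y y' hy'
    rw [LinearMap.coe_restrict_apply, LinearMap.coe_restrict_apply, hy', hcorT]
  · intro δ y
    obtain ⟨g, rfl⟩ := hd'' δ
    apply Subtype.ext
    rw [LinearMap.coe_restrict_apply, twe_sd_rho_coe, hπ g, twe_sd_rho_coe,
      LinearMap.coe_restrict_apply]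
    exact twe_for_cor_diamond h hρ'' hbij'' g y.1

/-- **the product form**: `Δ'' = Δ₁ × Δ₂`, `Δ' = Δ₁`, `π = fst` (for `twe_mk_BigData`:
`Δ₁ = twe_Delta p Q`, `Δ₂ = twe_Delta p Th`, `d'' = twe_di_d …`, `d' = twe_di_d1 …`,
`hfst = twe_di_d_fst`). -/
theorem twe_scr_prod {M : ℕ} [NeZero M] {H'' H' : Subgroup (ZMod M)ˣ} (h : H'' ≤ H')
    (hneg : (-1 : SL(2, ℤ)) ∈ twe_GamH M H'')
    (h12 : ∀ u : (ZMod M)ˣ, u ^ (12 * M) = 1 → u ∈ H'')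
    {Δ₁ Δ₂ : Type} [CommGroup Δ₁] [Fintype Δ₁] [CommGroup Δ₂] [Fintype Δ₂]
    (d'' : Gamma0 M →* Δ₁ × Δ₂) (hd'' : Function.Surjective d'')
    (hdk'' : ∀ g, d'' g = 1 ↔ (g : SL(2, ℤ)) ∈ twe_GamH M H'')
    (d' : Gamma0 M →* Δ₁) (hd' : Function.Surjective d')
    (hdk' : ∀ g, d' g = 1 ↔ (g : SL(2, ℤ)) ∈ twe_GamH M H')
    (hfst : ∀ g, (d'' g).1 = d' g)
    {p n : ℕ} (hp : p.Prime) (hp2 : p ≠ 2) (hpO : (p : 𝒪) ∈ maximalIdeal 𝒪)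
    (hΔ'' : ∀ δ : Δ₁ × Δ₂, δ ^ (p ^ n) = 1) (hΔ' : ∀ δ : Δ₁, δ ^ (p ^ n) = 1)
    {I : Type*} {q : I → ℕ} (F : twe_sm_Frame M H'' q) (hinj : Function.Injective q)
    (a : I → 𝒪) (i₀ : I)
    (hne : residue 𝒪 (a i₀) ≠ ((q i₀ + 1 : ℕ) : ResidueField 𝒪)) :
    ∃ c1 : ↥(twe_pr_prim (twe_sm_TY 𝒪 F) a) →ₗ[𝒪]
        ↥(twe_pr_prim (twe_sm_TY 𝒪 (twe_fx_frame_mono h F)) a),
      Function.Surjective c1 ∧
      LinearMap.ker c1 = (⨆ δ₂ : Δ₂, LinearMap.range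
        (twe_sd_rho F a d'' hd'' hdk'' ((1, δ₂) : Δ₁ × Δ₂) -
          (1 : ↥(twe_pr_prim (twe_sm_TY 𝒪 F) a) →ₗ[𝒪] ↥(twe_pr_prim (twe_sm_TY 𝒪 F) a)))) ∧
      (∀ (i : I) (y y' : ↥(twe_pr_prim (twe_sm_TY 𝒪 F) a)),
        (y' : ↥(twe_wl_V 𝒪 𝒪 (twe_GamH M H''))) = twe_sm_TY 𝒪 F i y.1 →
        ((c1 y' : ↥(twe_pr_prim (twe_sm_TY 𝒪 (twe_fx_frame_mono h F)) a)) :
          ↥(twe_wl_V 𝒪 𝒪 (twe_GamH M H'))) =
          twe_sm_TY 𝒪 (twe_fx_frame_mono h F) i (c1 y).1) ∧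
      ∀ (δ₁ : Δ₁) (δ₂ : Δ₂) (y : ↥(twe_pr_prim (twe_sm_TY 𝒪 F) a)),
        c1 (twe_sd_rho F a d'' hd'' hdk'' ((δ₁, δ₂) : Δ₁ × Δ₂) y) =
          twe_sd_rho (twe_fx_frame_mono h F) a d' hd' hdk' δ₁ (c1 y) := by
  obtain ⟨c1, hsurj, hker, hT, hdia⟩ := twe_scr_main (𝒪 := 𝒪) h hneg h12 d'' hd'' hdk'' d' hd' hdk'
    (MonoidHom.fst Δ₁ Δ₂) (fun g => by rw [MonoidHom.coe_fst]; exact hfst g) hp hp2 hpO hΔ'' hΔ'
    F hinj a i₀ hne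
  refine ⟨c1, hsurj, ?_, hT, fun δ₁ δ₂ y => hdia (δ₁, δ₂) y⟩
  rw [hker]
  apply le_antisymm
  · refine iSup_le fun δ => ?_
    have h1 : (δ : Δ₁ × Δ₂) = (1, (δ : Δ₁ × Δ₂).2) :=
      Prod.ext (MonoidHom.mem_ker.mp δ.2) rfl
    rw [h1]
    exact le_iSup (fun δ₂ : Δ₂ => LinearMap.range
      (twe_sd_rho F a d'' hd'' hdk'' ((1, δ₂) : Δ₁ × Δ₂) -
        (1 : ↥(twe_pr_prim (twe_sm_TY 𝒪 F) a) →ₗ[𝒪] ↥(twe_pr_prim (twe_sm_TY 𝒪 F) a))))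
      (δ : Δ₁ × Δ₂).2
  · refine iSup_le fun δ₂ => ?_
    exact le_iSup (fun δ : ↥(MonoidHom.fst Δ₁ Δ₂).ker => LinearMap.range
      (twe_sd_rho F a d'' hd'' hdk'' (δ : Δ₁ × Δ₂) -
        (1 : ↥(twe_pr_prim (twe_sm_TY 𝒪 F) a) →ₗ[𝒪] ↥(twe_pr_prim (twe_sm_TY 𝒪 F) a))))
      ⟨(1, δ₂), by rw [MonoidHom.mem_ker]; rfl⟩

/-- **the concrete form** for the Taylor–Wiles data: `H'' = ker (twe_di_pair …)` (big level),
`H' = ker (twe_di_hom p Q …)` (unipotent level), `d'' = twe_di_d …`, `d' = twe_di_d1 …`. -/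
theorem twe_scr_big (p : ℕ) (Q Th : Finset ℕ) (M : ℕ) [NeZero M] (hQ : ∀ t ∈ Q, Nat.Prime t)
    (hQM : ∀ t ∈ Q, t ∣ M) (hTh : ∀ t ∈ Th, Nat.Prime t) (hThM : ∀ t ∈ Th, t ∣ M)
    (hdisj : Disjoint Q Th) (hp : p.Prime) (hp5 : 5 ≤ p) (hpM : ¬ p ∣ M)
    (hpO : (p : 𝒪) ∈ maximalIdeal 𝒪)
    {I : Type*} {q : I → ℕ}
    (F : twe_sm_Frame M (twe_di_pair p Q Th M hQ hQM hTh hThM).ker q)
    (hinj : Function.Injective q) (a : I → 𝒪) (i₀ : I)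
    (hne : residue 𝒪 (a i₀) ≠ ((q i₀ + 1 : ℕ) : ResidueField 𝒪)) :
    ∃ c1 : ↥(twe_pr_prim (twe_sm_TY 𝒪 F) a) →ₗ[𝒪]
        ↥(twe_pr_prim (twe_sm_TY 𝒪
          (twe_fx_frame_mono (twe_di_pair_ker_le p Q Th M hQ hQM hTh hThM) F)) a),
      Function.Surjective c1 ∧
      LinearMap.ker c1 = (⨆ δ₂ : twe_Delta p Th, LinearMap.range
        (twe_sd_rho F a (twe_di_d p Q Th M hQ hQM hTh hThM)
          (twe_di_d_surjective p Q Th M hQ hQM hTh hThM hdisj)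
          (twe_di_d_eq_one_iff p Q Th M hQ hQM hTh hThM)
            ((1, δ₂) : twe_Delta p Q × twe_Delta p Th) -
          (1 : ↥(twe_pr_prim (twe_sm_TY 𝒪 F) a) →ₗ[𝒪] ↥(twe_pr_prim (twe_sm_TY 𝒪 F) a)))) ∧
      (∀ (i : I) (y y' : ↥(twe_pr_prim (twe_sm_TY 𝒪 F) a)),
        (y' : ↥(twe_wl_V 𝒪 𝒪 (twe_GamH M (twe_di_pair p Q Th M hQ hQM hTh hThM).ker))) =
          twe_sm_TY 𝒪 F i y.1 →
        ((c1 y' : ↥(twe_pr_prim (twe_sm_TY 𝒪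
            (twe_fx_frame_mono (twe_di_pair_ker_le p Q Th M hQ hQM hTh hThM) F)) a)) :
          ↥(twe_wl_V 𝒪 𝒪 (twe_GamH M (twe_di_hom p Q M hQ hQM).ker))) =
          twe_sm_TY 𝒪 (twe_fx_frame_mono (twe_di_pair_ker_le p Q Th M hQ hQM hTh hThM) F) i
            (c1 y).1) ∧
      ∀ (δ₁ : twe_Delta p Q) (δ₂ : twe_Delta p Th) (y : ↥(twe_pr_prim (twe_sm_TY 𝒪 F) a)),
        c1 (twe_sd_rho F a (twe_di_d p Q Th M hQ hQM hTh hThM)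
          (twe_di_d_surjective p Q Th M hQ hQM hTh hThM hdisj)
          (twe_di_d_eq_one_iff p Q Th M hQ hQM hTh hThM)
            ((δ₁, δ₂) : twe_Delta p Q × twe_Delta p Th) y) =
          twe_sd_rho (twe_fx_frame_mono (twe_di_pair_ker_le p Q Th M hQ hQM hTh hThM) F) a
            (twe_di_d1 p Q M hQ hQM) (twe_di_d1_surjective p Q M hQ hQM)
            (twe_di_d1_eq_one_iff p Q M hQ hQM) δ₁ (c1 y) := by
  have : Finite (twe_Delta p Q) := twe_chi_delta_finite p Q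
  have : Finite (twe_Delta p Th) := twe_chi_delta_finite p Th
  have : Fintype (twe_Delta p Q) := Fintype.ofFinite _
  have : Fintype (twe_Delta p Th) := Fintype.ofFinite _
  have hp2 : p ≠ 2 := by omega
  have hodd : Odd p := hp.odd_of_ne_two hp2
  exact twe_scr_prod (𝒪 := 𝒪) (twe_di_pair_ker_le p Q Th M hQ hQM hTh hThM)
    (twe_di_neg_one_mem_GamH p Q Th M hQ hQM hTh hThM hodd)
    (twe_di_pair_parEll' p Q Th M hQ hQM hTh hThM hp hp5 hpM)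
    (twe_di_d p Q Th M hQ hQM hTh hThM) (twe_di_d_surjective p Q Th M hQ hQM hTh hThM hdisj)
    (twe_di_d_eq_one_iff p Q Th M hQ hQM hTh hThM)
    (twe_di_d1 p Q M hQ hQM) (twe_di_d1_surjective p Q M hQ hQM)
    (twe_di_d1_eq_one_iff p Q M hQ hQM)
    (twe_di_d_fst p Q Th M hQ hQM hTh hThM) hp hp2 hpO
    (n := max (twe_di_exp p Q) (twe_di_exp p Th))
    (twe_di_pair_delta_pow_exp p Q Th)
    (twe_di_delta_pow p Q _ (fun t ht => le_trans (twe_di_le_exp p Q ht) (le_max_left _ _)))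
    F hinj a i₀ hne

end rel

end

end Fermat.Agent.TW
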