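import Mathlib
import Fermat.Agent.TW.Aut.SeamCoinvRel
import Fermat.Agent.TW.Aut.SeamMod

/-!
# Project ONE MACHINE, block [E] AUT, E/Seam: `SeamCoinvRel` in the vocabulary of `SeamMod`
(helper28)

Prefix `twe_scrm_`.  `twe_sd_rho` (SeamDelta) and `twe_smod_rho` (SeamMod, helper3) are the same
representation; the relative coinvariant map `twe_scr_big` restated with `twe_smod_rho` and the
partial augmentation submodule.
-/

set_option autoImplicit false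
set_option linter.unusedSectionVars false
set_option maxSynthPendingDepth 3

open scoped MatrixGroups
open Matrix.SpecialLinearGroup CongruenceSubgroup

namespace Fermat.Agent.TW

open IsLocalRing Module Fermat.Agent.JT3

noncomputable section

section eq

variable {𝒪 : Type*} [CommRing 𝒪] [IsLocalRing 𝒪] {M : ℕ} {H : Subgroup (ZMod M)ˣ}
  {I : Type*} {q : I → ℕ} (F : twe_sm_Frame M H q) (a : I → 𝒪)
  {Δ : Type*} [Group Δ] (d : Gamma0 M →* Δ) (hd : Function.Surjective d)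
  (hdk : ∀ g, d g = 1 ↔ (g : SL(2, ℤ)) ∈ twe_GamH M H)

/-- the two diamond representations coincide. -/
theorem twe_scrm_rho_eq : twe_sd_rho F a d hd hdk = twe_smod_rho d hd hdk F a := rfl

end eq

/-- the partial augmentation submodule `⨆ δ₂, range (ρ (1, δ₂) - 1)` of a representation of a
product. -/
def twe_scrm_aug2 {𝒪 : Type*} [CommRing 𝒪] {Δ₁ Δ₂ : Type*} [Monoid Δ₁] [Monoid Δ₂] {P : Type*}
    [AddCommGroup P] [Module 𝒪 P] (ρ : Representation 𝒪 (Δ₁ × Δ₂) P) : Submodule 𝒪 P :=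
  ⨆ δ : Δ₂, LinearMap.range ((ρ ((1, δ) : Δ₁ × Δ₂) : Module.End 𝒪 P) - (1 : Module.End 𝒪 P))

theorem twe_scrm_aug2_eq {𝒪 : Type*} [CommRing 𝒪] {Δ₁ Δ₂ : Type*} [Monoid Δ₁] [Monoid Δ₂]
    {P : Type*} [AddCommGroup P] [Module 𝒪 P] (ρ : Representation 𝒪 (Δ₁ × Δ₂) P) :
    twe_scrm_aug2 ρ = ⨆ δ : Δ₂, LinearMap.range (ρ ((1, δ) : Δ₁ × Δ₂) - 1) := rfl

section big

variable {𝒪 : Type} [CommRing 𝒪] [IsDomain 𝒪] [IsDiscreteValuationRing 𝒪]
  [IsAdicComplete (maximalIdeal 𝒪) 𝒪] [CharZero 𝒪]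

/-- **`twe_scr_big` in the vocabulary of `SeamMod`.** -/
theorem twe_scrm_big (p : ℕ) (Q Th : Finset ℕ) (M : ℕ) [NeZero M] (hQ : ∀ t ∈ Q, Nat.Prime t)
    (hQM : ∀ t ∈ Q, t ∣ M) (hTh : ∀ t ∈ Th, Nat.Prime t) (hThM : ∀ t ∈ Th, t ∣ M)
    (hdisj : Disjoint Q Th) (hp : p.Prime) (hp5 : 5 ≤ p) (hpM : ¬ p ∣ M)
    (hpO : (p : 𝒪) ∈ maximalIdeal 𝒪)
    {I : Type*} {q : I → ℕ}
    (F : twe_sm_Frame M (twe_di_pair p Q Th M hQ hQM hTh hThM).ker q)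
    (hinj : Function.Injective q) (a : I → 𝒪) (i₀ : I)
    (hne : residue 𝒪 (a i₀) ≠ ((q i₀ + 1 : ℕ) : ResidueField 𝒪)) :
    ∃ c1 : ↥(twe_pr_prim (twe_sm_TY 𝒪 F) a) →ₗ[𝒪]
        ↥(twe_pr_prim (twe_sm_TY 𝒪
          (twe_fx_frame_mono (twe_di_pair_ker_le p Q Th M hQ hQM hTh hThM) F)) a),
      Function.Surjective c1 ∧
      LinearMap.ker c1 = twe_scrm_aug2 (P := ↥(twe_pr_prim (twe_sm_TY 𝒪 F) a))
        (twe_smod_rho (twe_di_d p Q Th M hQ hQM hTh hThM)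
          (twe_di_d_surjective p Q Th M hQ hQM hTh hThM hdisj)
          (twe_di_d_eq_one_iff p Q Th M hQ hQM hTh hThM) F a) ∧
      (∀ (i : I) (y y' : ↥(twe_pr_prim (twe_sm_TY 𝒪 F) a)),
        (y' : ↥(twe_wl_V 𝒪 𝒪 (twe_GamH M (twe_di_pair p Q Th M hQ hQM hTh hThM).ker))) =
          twe_sm_TY 𝒪 F i y.1 →
        ((c1 y' : ↥(twe_pr_prim (twe_sm_TY 𝒪
            (twe_fx_frame_mono (twe_di_pair_ker_le p Q Th M hQ hQM hTh hThM) F)) a)) :
          ↥(twe_wl_V 𝒪 𝒪 (twe_GamH M (twe_di_hom p Q M hQ hQM).ker))) =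
          twe_sm_TY 𝒪 (twe_fx_frame_mono (twe_di_pair_ker_le p Q Th M hQ hQM hTh hThM) F) i
            (c1 y).1) ∧
      ∀ (δ₁ : twe_Delta p Q) (δ₂ : twe_Delta p Th) (y : ↥(twe_pr_prim (twe_sm_TY 𝒪 F) a)),
        c1 (twe_smod_rho (twe_di_d p Q Th M hQ hQM hTh hThM)
          (twe_di_d_surjective p Q Th M hQ hQM hTh hThM hdisj)
          (twe_di_d_eq_one_iff p Q Th M hQ hQM hTh hThM) F a
            ((δ₁, δ₂) : twe_Delta p Q × twe_Delta p Th) y) =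
          twe_smod_rho (twe_di_d1 p Q M hQ hQM) (twe_di_d1_surjective p Q M hQ hQM)
            (twe_di_d1_eq_one_iff p Q M hQ hQM)
            (twe_fx_frame_mono (twe_di_pair_ker_le p Q Th M hQ hQM hTh hThM) F) a δ₁ (c1 y) :=
  twe_scr_big (𝒪 := 𝒪) p Q Th M hQ hQM hTh hThM hdisj hp hp5 hpM hpO F hinj a i₀ hne

end big

end

end Fermat.Agent.TW
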