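/-
ONE MACHINE / block [E] AUT, E/SeamBigC (helper24): the data `twe_mk_BigData D'.toLevel Th` of the big
system, in the vocabulary of `SeamMod.lean`.  Namespace `Fermat.Agent.TW`, prefix `twe_sbc_`.

`P'' = prim W(Γ_{H''}, 𝒪)` (`H'' = ker ((ℤ/M)ˣ → Δ_Q × Δ_Th)`), Hecke action `twe_smod_psi` of a FULL
base package of the balanced level, diamonds `twe_smod_rho`, orbit basis from `twe_smod_total`,
relative coinvariant map from `twe_scrm_big`, transported to the level module by a comparison `κ`.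
-/
import Mathlib
import Fermat.Agent.TW.Aut.SeamMk
import Fermat.Agent.TW.Aut.SeamMod
import Fermat.Agent.TW.Aut.SeamCoinvRelMod

set_option autoImplicit false
set_option linter.unusedSectionVars false

noncomputable section

namespace Fermat.Agent.TW

open Polynomial CuspForm IsLocalRing Fermat.Agent.JT3 CongruenceSubgroup
open scoped MatrixGroups

section data

variable {𝒪 : Type} [CommRing 𝒪] [IsDomain 𝒪] [IsDiscreteValuationRing 𝒪]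
  [IsAdicComplete (maximalIdeal 𝒪) 𝒪] [CharZero 𝒪]
  {N : ℕ} [NeZero N] {S : Finset ℕ} {θ : heckeAlgebra N 2 (↑S : Set ℕ) →+* ResidueField 𝒪}
  {B : twe_Base 𝒪 N S θ} {p : ℕ} {Q : Finset ℕ} [NeZero (twe_Nbal N Q ∅)]
  (D' : twe_mk_LevelData B p Q) {Th : Finset ℕ} [NeZero (twe_Nbal N Q Th)]
  {θ'' : heckeAlgebra (twe_Nbal N Q Th) 2 (↑(S ∪ Q) : Set ℕ) →+* ResidueField 𝒪}
  (B'' : twe_Base 𝒪 (twe_Nbal N Q Th) (S ∪ Q) θ'') (hfull'' : B''.IsFull)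
  (hNS'' : ∀ ℓ : ℕ, ℓ.Prime → ℓ ∣ twe_Nbal N Q Th → ℓ ∈ S ∪ Q)
  (π1 : B''.T →ₐ[𝒪] D'.B'.T)
  (hπ1 : ∀ (ℓ : ℕ) (hℓ : ℓ.Prime) (h1 : ¬ ℓ ∣ twe_Nbal N Q Th) (h2 : ℓ ∉ (↑(S ∪ Q) : Set ℕ))
    (h3 : ¬ ℓ ∣ twe_Nbal N Q ∅),
    π1 (B''.H.π (heckeAlgebra.T hℓ h1 h2)) = D'.B'.H.π (heckeAlgebra.T hℓ h3 h2))
  {M : ℕ} [NeZero M] (hQp : ∀ t ∈ Q, t.Prime) (hQM : ∀ t ∈ Q, t ∣ M)
  (hThp : ∀ t ∈ Th, t.Prime) (hThM : ∀ t ∈ Th, t ∣ M) (hdisj : Disjoint Q Th)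
  (hp : p.Prime) (hp5 : 5 ≤ p) (hpM : ¬ p ∣ M) (hpO : (p : 𝒪) ∈ maximalIdeal 𝒪)
  (F'' : twe_sm_Frame M (twe_di_pair p Q Th M hQp hQM hThp hThM).ker
    (twe_sm_q (twe_Nbal N Q Th) (S ∪ Q)))
  (a'' : twe_sm_Idx (twe_Nbal N Q Th) (S ∪ Q) → 𝒪) (ha'' : twe_sm_IsLift θ'' a'')
  (hrel'' : twe_at_Rel (twe_sm_TX 𝒪 (twe_Nbal N Q Th) (twe_sm_q (twe_Nbal N Q Th) (S ∪ Q)))
    (twe_sm_TY 𝒪 F''))
  (i₀ : twe_sm_Idx (twe_Nbal N Q Th) (S ∪ Q))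
  (hne : residue 𝒪 (a'' i₀) ≠ ((i₀.1 + 1 : ℕ) : ResidueField 𝒪))

/-- the Hecke action on `P''`. -/
abbrev twe_sbc_psi : B''.T →ₐ[𝒪] Module.End 𝒪 ↥(twe_pr_prim (twe_sm_TY 𝒪 F'') a'') :=
  twe_smod_psi B'' hfull'' hNS'' F'' a'' ha'' hrel''

/-- the diamond representation of `Δ_Q × Δ_Th` on `P''`. -/
abbrev twe_sbc_rho :
    Representation 𝒪 (twe_Delta p Q × twe_Delta p Th) ↥(twe_pr_prim (twe_sm_TY 𝒪 F'') a'') :=
  twe_smod_rho (twe_di_d p Q Th M hQp hQM hThp hThM)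
    (twe_di_d_surjective p Q Th M hQp hQM hThp hThM hdisj)
    (twe_di_d_eq_one_iff p Q Th M hQp hQM hThp hThM) F'' a''

/-- the level frame: `F''` viewed at `H' = ker ((ℤ/M)ˣ → Δ_Q)`. -/
abbrev twe_sbc_F' : twe_sm_Frame M (twe_di_hom p Q M hQp hQM).ker
    (twe_sm_q (twe_Nbal N Q Th) (S ∪ Q)) :=
  twe_fx_frame_mono (twe_di_pair_ker_le p Q Th M hQp hQM hThp hThM) F''

/-- the diamond representation of `Δ_Q` on the level module `prim W(Γ_{H'}, 𝒪)`. -/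
abbrev twe_sbc_rho' :
    Representation 𝒪 (twe_Delta p Q)
      ↥(twe_pr_prim (twe_sm_TY 𝒪 (twe_sbc_F' hQp hQM hThp hThM F'')) a'') :=
  twe_smod_rho (twe_di_d1 p Q M hQp hQM) (twe_di_d1_surjective p Q M hQp hQM)
    (twe_di_d1_eq_one_iff p Q M hQp hQM) (twe_sbc_F' hQp hQM hThp hThM F'') a''

variable
  (κ : ↥(twe_pr_prim (twe_sm_TY 𝒪 (twe_sbc_F' hQp hQM hThp hThM F'')) a'') ≃ₗ[𝒪] D'.P)
  (hκψ : ∀ (ℓ'' : twe_sm_Idx (twe_Nbal N Q Th) (S ∪ Q))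
    (ℓ' : twe_sm_Idx (twe_Nbal N Q ∅) (S ∪ Q)), ℓ'.1 = ℓ''.1 →
    ∀ y y' : ↥(twe_pr_prim (twe_sm_TY 𝒪 (twe_sbc_F' hQp hQM hThp hThM F'')) a''),
      (y' : ↥(twe_wl_V 𝒪 𝒪 (twe_GamH M (twe_di_hom p Q M hQp hQM).ker))) =
        twe_sm_TY 𝒪 (twe_sbc_F' hQp hQM hThp hThM F'') ℓ'' y.1 →
      κ y' = D'.ψ (twe_sa_tau D'.B' ℓ') (κ y))
  (hκρ : ∀ (δ₁ : twe_Delta p Q)
    (y : ↥(twe_pr_prim (twe_sm_TY 𝒪 (twe_sbc_F' hQp hQM hThp hThM F'')) a'')),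
    κ (twe_sbc_rho' hQp hQM hThp hThM F'' a'' δ₁ y) = D'.ρ δ₁ (κ y))

include hπ1 hp hp5 hpM hpO i₀ hne hκψ hκρ in
/-- **the orbit basis and the relative coinvariant map** of the big system. -/
theorem twe_sbc_exists :
    ∃ (r : ℕ) (v : Fin r → ↥(twe_pr_prim (twe_sm_TY 𝒪 F'') a''))
      (b : Module.Basis ((twe_Delta p Q × twe_Delta p Th) × Fin r) 𝒪
        ↥(twe_pr_prim (twe_sm_TY 𝒪 F'') a''))
      (c1 : ↥(twe_pr_prim (twe_sm_TY 𝒪 F'') a'') →ₗ[𝒪] D'.P),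
      (∀ δ i, b (δ, i) = twe_sbc_rho hQp hQM hThp hThM hdisj F'' a'' δ (v i)) ∧
      Function.Surjective c1 ∧
      LinearMap.ker c1 = twe_scrm_aug2 (P := ↥(twe_pr_prim (twe_sm_TY 𝒪 F'') a''))
        (twe_sbc_rho hQp hQM hThp hThM hdisj F'' a'') ∧
      (∀ (x : B''.T) (m : ↥(twe_pr_prim (twe_sm_TY 𝒪 F'') a'')),
        c1 (twe_sbc_psi B'' hfull'' hNS'' hQp hQM hThp hThM F'' a'' ha'' hrel'' x m) =
          D'.ψ (π1 x) (c1 m)) ∧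
      (∀ (δ : twe_Delta p Q) (m : ↥(twe_pr_prim (twe_sm_TY 𝒪 F'') a'')),
        c1 (twe_sbc_rho hQp hQM hThp hThM hdisj F'' a'' (δ, 1) m) = D'.ρ δ (c1 m)) := by
  classical
  have : Fintype (twe_Delta p Q) := Fintype.ofFinite _
  have : Fintype (twe_Delta p Th) := Fintype.ofFinite _
  have hp2 : p ≠ 2 := fun h => by rw [h] at hp5; exact absurd hp5 (by norm_num)
  have hodd : Odd p := hp.odd_of_ne_two hp2
  -- the orbit basis
  have key := twe_smod_total (𝒪 := 𝒪) (Δ := twe_Delta p Q × twe_Delta p Th)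
    (twe_di_d p Q Th M hQp hQM hThp hThM)
    (twe_di_d_surjective p Q Th M hQp hQM hThp hThM hdisj)
    (twe_di_d_eq_one_iff p Q Th M hQp hQM hThp hThM) F'' Subtype.val_injective a''
    (twe_di_neg_one_mem_GamH p Q Th M hQp hQM hThp hThM hodd)
    (twe_di_pair_parEll' p Q Th M hQp hQM hThp hThM hp hp5 hpM) hp hp2 hpO
    (n := max (twe_di_exp p Q) (twe_di_exp p Th)) (twe_di_pair_delta_pow_exp p Q Th) i₀ hne
  obtain ⟨r, v, b, cor, hb, hrest⟩ := key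
  -- the relative coinvariant map
  have key2 := twe_scrm_big (𝒪 := 𝒪) p Q Th M hQp hQM hThp hThM
    hdisj hp hp5 hpM hpO F'' Subtype.val_injective a'' i₀ hne
  obtain ⟨c28, hc_surj, hc_ker, hc_T, hc_ρ⟩ := key2
  -- equivariance of `κ ∘ c28` on generators
  have hdvd : twe_Nbal N Q ∅ ∣ twe_Nbal N Q Th :=
    ⟨∏ ℓ ∈ Th, ℓ, by unfold twe_Nbal; rw [Finset.prod_empty, mul_one]⟩
  have hgen : ∀ (i : twe_sm_Idx (twe_Nbal N Q Th) (S ∪ Q))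
      (m : ↥(twe_pr_prim (twe_sm_TY 𝒪 F'') a'')),
      ((κ : _ →ₗ[𝒪] D'.P) ∘ₗ c28)
        (twe_sbc_psi B'' hfull'' hNS'' hQp hQM hThp hThM F'' a'' ha'' hrel''
          (twe_sa_tau B'' i) m) =
        D'.ψ (π1 (twe_sa_tau B'' i)) (((κ : _ →ₗ[𝒪] D'.P) ∘ₗ c28) m) := by
    intro i m
    have h3 : ¬ i.1 ∣ twe_Nbal N Q ∅ := fun h => i.2.2.1 (dvd_trans h hdvd)
    have h4 : π1 (twe_sa_tau B'' i) =
        twe_sa_tau D'.B' ⟨i.1, i.2.1, h3, i.2.2.2⟩ := hπ1 i.1 i.2.1 i.2.2.1 i.2.2.2 h3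
    have h5 := hκψ i ⟨i.1, i.2.1, h3, i.2.2.2⟩ rfl (c28 m) _
      (hc_T i m _ (twe_smod_psi_tau B'' hfull'' hNS'' F'' a'' ha'' hrel'' i m))
    exact h5.trans (congrArg (fun x => D'.ψ x (κ (c28 m))) h4.symm)
  have hall := twe_sa_equivariant (P := ↥(twe_pr_prim (twe_sm_TY 𝒪 F'') a'')) (P' := D'.P)
      (twe_sa_tau B'') (twe_sa_gen B'' hNS'') π1
      (twe_sbc_psi B'' hfull'' hNS'' hQp hQM hThp hThM F'' a'' ha'' hrel'') D'.ψ
      ((κ : _ →ₗ[𝒪] D'.P) ∘ₗ c28) hgen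
  refine ⟨r, v, b, (κ : _ →ₗ[𝒪] D'.P) ∘ₗ c28, hb, κ.surjective.comp hc_surj, ?_, hall, ?_⟩
  · rw [← hc_ker]
    ext m
    constructor
    · intro h
      exact LinearMap.mem_ker.mpr (κ.injective ((LinearMap.mem_ker.mp h).trans (map_zero κ).symm))
    · intro h
      have h1 : c28 m = 0 := LinearMap.mem_ker.mp h
      exact LinearMap.mem_ker.mpr ((congrArg κ h1).trans (map_zero κ))
  · intro δ m
    exact (congrArg κ (hc_ρ δ 1 m)).trans (hκρ δ (c28 m))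

variable (hθ'' : ∀ (ℓ : ℕ) (hℓ : ℓ.Prime) (h1 : ¬ ℓ ∣ twe_Nbal N Q Th)
    (h2 : ℓ ∉ (↑(S ∪ Q) : Set ℕ)) (h3 : ¬ ℓ ∣ N) (h4 : ℓ ∉ (↑S : Set ℕ)),
    θ'' (heckeAlgebra.T hℓ h1 h2) = θ (heckeAlgebra.T hℓ h3 h4))

/-- **the data of the big system** over the level `D'.toLevel`. -/
def twe_sbc_data : twe_mk_BigData D'.toLevel Th :=
  have h := twe_sbc_exists D' B'' hfull'' hNS'' π1 hπ1 hQp hQM hThp hThM hdisj hp hp5 hpM hpO
    F'' a'' ha'' hrel'' i₀ hne κ hκψ hκρ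
  have hs := h.choose_spec.choose_spec.choose_spec.choose_spec
  { θ'' := θ''
    θ''_eq := hθ''
    B'' := B''
    π1 := π1
    π1_T := hπ1
    P := ↥(twe_pr_prim (twe_sm_TY 𝒪 F'') a'')
    ψ := twe_sbc_psi B'' hfull'' hNS'' hQp hQM hThp hThM F'' a'' ha'' hrel''
    ρ := twe_sbc_rho hQp hQM hThp hThM hdisj F'' a''
    comm := fun x δ m => twe_smod_comm B'' hfull'' hNS'' F'' a'' ha'' hrel''
      (twe_di_d p Q Th M hQp hQM hThp hThM)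
      (twe_di_d_surjective p Q Th M hQp hQM hThp hThM hdisj)
      (twe_di_d_eq_one_iff p Q Th M hQp hQM hThp hThM) x δ m
    r := h.choose
    v := h.choose_spec.choose
    b := h.choose_spec.choose_spec.choose
    hb := hs.1
    c1 := (D'.ρ.asModuleEquiv.symm : D'.P →ₗ[𝒪] D'.ρ.asModule) ∘ₗ
      h.choose_spec.choose_spec.choose_spec.choose
    c1_surjective := D'.ρ.asModuleEquiv.symm.surjective.comp hs.2.1
    c1_ker := by
      refine Eq.trans ?_ (hs.2.2.1.trans (twe_scrm_aug2_eq _))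
      ext m
      constructor
      · intro h'
        exact LinearMap.mem_ker.mpr (D'.ρ.asModuleEquiv.symm.injective
          ((LinearMap.mem_ker.mp h').trans (map_zero D'.ρ.asModuleEquiv.symm).symm))
      · intro h'
        have h1 : h.choose_spec.choose_spec.choose_spec.choose m = 0 := LinearMap.mem_ker.mp h'
        exact LinearMap.mem_ker.mpr
          ((congrArg D'.ρ.asModuleEquiv.symm h1).trans (map_zero D'.ρ.asModuleEquiv.symm))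
    c1_hecke := by
      intro x m
      have h1 := twe_mk_toLevel_smul D' (π1 x)
        (D'.ρ.asModuleEquiv.symm (h.choose_spec.choose_spec.choose_spec.choose m))
      refine Eq.trans ?_ h1.symm
      exact congrArg D'.ρ.asModuleEquiv.symm ((hs.2.2.2.1 x m).trans
        (congrArg (D'.ψ (π1 x)) (D'.ρ.asModuleEquiv.apply_symm_apply _).symm))
    c1_diamond := by
      intro δ m
      have h1 := twe_fm_of_smul D'.ρ δ
        (D'.ρ.asModuleEquiv.symm (h.choose_spec.choose_spec.choose_spec.choose m))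
      have h2 := (LinearEquiv.eq_symm_apply _).mpr h1
      refine Eq.trans ?_ h2.symm
      exact congrArg D'.ρ.asModuleEquiv.symm ((hs.2.2.2.2 δ m).trans
        (congrArg (D'.ρ δ) (D'.ρ.asModuleEquiv.apply_symm_apply _).symm)) }

/-- the module of `twe_sbc_data` is `P'' = prim W(Γ_{H''}, 𝒪)`. -/
theorem twe_sbc_data_P :
    (twe_sbc_data D' B'' hfull'' hNS'' π1 hπ1 hQp hQM hThp hThM hdisj hp hp5 hpM hpO F'' a''
      ha'' hrel'' i₀ hne κ hκψ hκρ hθ'').P = ↥(twe_pr_prim (twe_sm_TY 𝒪 F'') a'') := rfl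

/-- the Hecke action of `twe_sbc_data` on generators: `T'_ℓ`. -/
theorem twe_sbc_data_psi_tau (ℓ : twe_sm_Idx (twe_Nbal N Q Th) (S ∪ Q))
    (y : ↥(twe_pr_prim (twe_sm_TY 𝒪 F'') a'')) :
    (twe_pr_prim (twe_sm_TY 𝒪 F'') a'').subtype
      ((twe_sbc_data D' B'' hfull'' hNS'' π1 hπ1 hQp hQM hThp hThM hdisj hp hp5 hpM hpO F'' a''
        ha'' hrel'' i₀ hne κ hκψ hκρ hθ'').ψ (twe_sa_tau B'' ℓ) y) =
      twe_sm_TY 𝒪 F'' ℓ ((twe_pr_prim (twe_sm_TY 𝒪 F'') a'').subtype y) :=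
  twe_smod_psi_tau B'' hfull'' hNS'' F'' a'' ha'' hrel'' ℓ y

/-- the diamonds of `twe_sbc_data`: conjugation. -/
theorem twe_sbc_data_rho_coe (g : Gamma0 M) (y : ↥(twe_pr_prim (twe_sm_TY 𝒪 F'') a'')) :
    (twe_pr_prim (twe_sm_TY 𝒪 F'') a'').subtype
      ((twe_sbc_data D' B'' hfull'' hNS'' π1 hπ1 hQp hQM hThp hThM hdisj hp hp5 hpM hpO F'' a''
        ha'' hrel'' i₀ hne κ hκψ hκρ hθ'').ρ (twe_di_d p Q Th M hQp hQM hThp hThM g) y) =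
      twe_wl_conj (twe_di_pair p Q Th M hQp hQM hThp hThM).ker g
        ((twe_pr_prim (twe_sm_TY 𝒪 F'') a'').subtype y) :=
  twe_smod_rho_coe (twe_di_d p Q Th M hQp hQM hThp hThM)
    (twe_di_d_surjective p Q Th M hQp hQM hThp hThM hdisj)
    (twe_di_d_eq_one_iff p Q Th M hQp hQM hThp hThM) F'' a'' g y

end data

end Fermat.Agent.TW
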