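import Mathlib
import Fermat.Agent.TW.Aut.SeamMod
import Fermat.Agent.TW.Aut.SeamMk
import Fermat.Agent.TW.Aut.FreeORel
import Fermat.Agent.TW.Aut.FrameExists

/-!
# Project ONE MACHINE, block [E] AUT, E/Seam: the `kills` clause of `twe_OldAt` (helper26)

Prefix `twe_sok_`.

* `twe_sok_abs`   : ABSTRACT.  `R₁ = 𝒪[τ₁ ℓ]` acts on `prim W''` through operators `T'' ℓ`;
  `cor : W'' → W'` intertwines `T'' ℓ` and `T' ℓ`; the relations of a ring `R_t` (FULL at a level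
  `X`) hold on `prim W'` (`twe_at_ker`); `π_t : R₁ → R_t`, `τ₁ ℓ ↦ τ_t ℓ`.  Then every `x ∈ ker π_t`
  maps `prim W''` into `ker cor`.  (No action of `R_t` on the coinvariants is constructed.)
* `twe_sok_cyclic` : `span {ρ(d g) u - u | g ∈ Γ'} ⊆ range (ρ γ - 1)` when `d(Γ') ⊆ ⟨γ⟩`.
* `twe_sok_kills` : CONCRETE, in the vocabulary of `SeamMod.lean`:
  `π_t x = 0 → ψ'' x m = ρ γ m' - m'` on `P'' = prim W(Γ_{H''}, 𝒪)`.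
* `twe_sok_oldAt_level`, `twe_sok_oldAt_bigQ`, `twe_sok_oldAt_bigTh` : the structure `twe_OldAt` for
  `D.toLevel` / `D.toBig` (`SeamMk.lean`) from a base package `B_t`, the map `π_t` and `kills`.
-/

set_option autoImplicit false
set_option linter.unusedSectionVars false
set_option linter.unusedVariables false
set_option linter.style.haveILetI false

namespace Fermat.Agent.TW

open Polynomial CuspForm IsLocalRing Fermat.Agent.JT3 CongruenceSubgroup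
open scoped MatrixGroups

noncomputable section

universe u v

section abs

variable {𝒪 : Type u} [CommRing 𝒪] [IsLocalRing 𝒪] [IsNoetherianRing 𝒪]
  [IsAdicComplete (maximalIdeal 𝒪) 𝒪]
  {X : Type u} [AddCommGroup X] [Module 𝒪 X] [Module.Finite 𝒪 X]
  {W' : Type v} [AddCommGroup W'] [Module 𝒪 W'] [Module.Finite 𝒪 W']
  {W'' : Type*} [AddCommGroup W''] [Module 𝒪 W'']
  {L : Type*}
  {R₁ : Type*} [CommRing R₁] [Algebra 𝒪 R₁] {Rt : Type*} [CommRing Rt] [Algebra 𝒪 Rt]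
  {Y₀ : Type*} [AddCommGroup Y₀] [Module 𝒪 Y₀]

/-- **abstract `kills`**: elements of `ker π_t` map `prim W''` into `ker cor`. -/
theorem twe_sok_abs (TX : L → Module.End 𝒪 X) (hcX : ∀ ℓ ℓ', Commute (TX ℓ) (TX ℓ'))
    (T' : L → Module.End 𝒪 W') (T'' : L → Module.End 𝒪 W'') (a : L → 𝒪)
    (hrel : twe_at_Rel TX T')
    (actR : Rt →ₐ[𝒪] Module.End 𝒪 Y₀) (τt : L → Rt) (ι : Y₀ →ₗ[𝒪] X)
    (hι : ∀ ℓ y, ι (actR (τt ℓ) y) = TX ℓ (ι y))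
    (hfull : ∀ x ∈ twe_pr_prim TX a, ∃ c : 𝒪, c ≠ 0 ∧ c • x ∈ LinearMap.range ι)
    (htf : ∀ (c : 𝒪) (x : X), c ≠ 0 → c • x = 0 → x = 0)
    (τ₁ : L → R₁) (hgen : Algebra.adjoin 𝒪 (Set.range τ₁) = ⊤)
    (πt : R₁ →ₐ[𝒪] Rt) (hπ : ∀ ℓ, πt (τ₁ ℓ) = τt ℓ)
    (ψ : R₁ →ₐ[𝒪] Module.End 𝒪 ↥(twe_pr_prim T'' a))
    (hψ : ∀ ℓ (y : ↥(twe_pr_prim T'' a)),
      ((ψ (τ₁ ℓ) y : ↥(twe_pr_prim T'' a)) : W'') = T'' ℓ (y : W''))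
    (cor : W'' →ₗ[𝒪] W') (hcor : ∀ ℓ z, cor (T'' ℓ z) = T' ℓ (cor z))
    (x : R₁) (hx : πt x = 0) (m : ↥(twe_pr_prim T'' a)) :
    cor ((ψ x m : ↥(twe_pr_prim T'' a)) : W'') = 0 := by
  -- `x` is a polynomial in the generators
  have hsurj : Function.Surjective (FreeAlgebra.lift 𝒪 τ₁) := by
    rw [← AlgHom.range_eq_top, ← Algebra.adjoin_range_eq_range_freeAlgebra_lift, hgen]
  obtain ⟨G, rfl⟩ := hsurj x
  -- the same polynomial vanishes in `R_t`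
  have hcomp : πt.comp (FreeAlgebra.lift 𝒪 τ₁) = FreeAlgebra.lift 𝒪 τt := by
    apply FreeAlgebra.hom_ext
    funext ℓ
    simp [hπ]
  have hG : FreeAlgebra.lift 𝒪 τt G = 0 := by
    rw [← hcomp, AlgHom.comp_apply, hx]
  -- hence it kills `prim W'`
  have hkill := twe_at_ker TX hcX T' a hrel actR τt ι hι hfull htf G hG
  -- the action of `x` on `prim W''` is the polynomial in the `T''`
  have h1 : ((ψ (FreeAlgebra.lift 𝒪 τ₁ G) m : ↥(twe_pr_prim T'' a)) : W'') =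
      FreeAlgebra.lift 𝒪 T'' G (m : W'') := by
    rw [← twe_at_lift_act ψ τ₁ G]
    exact twe_at_lift_intertwine (twe_pr_prim T'' a).subtype (fun ℓ => ψ (τ₁ ℓ)) T''
      (fun ℓ y => hψ ℓ y) G m
  rw [h1, twe_at_lift_intertwine cor T'' T' hcor G (m : W'')]
  exact hkill _ (twe_pr_map_prim cor T'' T' hcor a m.2)

end abs

section cyclic

variable {𝒪 : Type*} [CommRing 𝒪] {Δ : Type*} [Group Δ] {G : Type*}
  {W : Type*} [AddCommGroup W] [Module 𝒪 W]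

/-- `ρ (γ ^ k) u - u ∈ range (ρ γ - 1)`. -/
theorem twe_sok_pow_sub_mem {P : Type*} [AddCommGroup P] [Module 𝒪 P]
    (ρ : Representation 𝒪 Δ P) (γ : Δ) (k : ℕ) (u : P) :
    ρ (γ ^ k) u - u ∈ LinearMap.range ((ρ γ : Module.End 𝒪 P) - 1) := by
  refine ⟨(∑ i ∈ Finset.range k, (ρ γ : Module.End 𝒪 P) ^ i) u, ?_⟩
  have h := mul_geom_sum (ρ γ : Module.End 𝒪 P) k
  have h2 := LinearMap.congr_fun h u
  rw [Module.End.mul_apply] at h2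
  rw [h2, map_pow, LinearMap.sub_apply, Module.End.one_apply]

/-- **cyclicity**: if `d` maps `Γ'` into the powers of `γ`, the span of the `conj g u - u`
(`g ∈ Γ'`, `u ∈ P`) lies in `(ρ γ - 1) P`. -/
theorem twe_sok_cyclic (P : Submodule 𝒪 W) (ρ : Representation 𝒪 Δ ↥P) (d : G → Δ)
    (conjW : G → W →ₗ[𝒪] W)
    (hρ : ∀ g (y : ↥P), ((ρ (d g) y : ↥P) : W) = conjW g (y : W))
    (Γ' : Set G) (γ : Δ) (hcyc : ∀ g ∈ Γ', ∃ k : ℕ, d g = γ ^ k)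
    (z : ↥P)
    (hz : (z : W) ∈ Submodule.span 𝒪 {w | ∃ g : G, g ∈ Γ' ∧ ∃ u ∈ P, w = conjW g u - u}) :
    ∃ m' : ↥P, z = ρ γ m' - m' := by
  have hle : Submodule.span 𝒪 {w | ∃ g : G, g ∈ Γ' ∧ ∃ u ∈ P, w = conjW g u - u} ≤
      (LinearMap.range ((ρ γ : Module.End 𝒪 ↥P) - 1)).map P.subtype := by
    rw [Submodule.span_le]
    rintro _ ⟨g, hg, u, hu, rfl⟩
    obtain ⟨k, hk⟩ := hcyc g hg
    refine ⟨ρ (γ ^ k) ⟨u, hu⟩ - ⟨u, hu⟩, twe_sok_pow_sub_mem ρ γ k ⟨u, hu⟩, ?_⟩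
    rw [map_sub, Submodule.subtype_apply, Submodule.subtype_apply, ← hk, hρ]
  obtain ⟨z', ⟨m', hm'⟩, hzz'⟩ := hle hz
  refine ⟨m', ?_⟩
  have : z' = z := Subtype.ext hzz'
  rw [← this, ← hm', LinearMap.sub_apply, Module.End.one_apply]

end cyclic

section concrete

variable {𝒪 : Type} [CommRing 𝒪] [IsDomain 𝒪] [IsDiscreteValuationRing 𝒪]
  [IsAdicComplete (maximalIdeal 𝒪) 𝒪] [CharZero 𝒪]
  {A : ℕ} [NeZero A] {S₁ : Finset ℕ}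
  {θ₁ : heckeAlgebra A 2 (↑S₁ : Set ℕ) →+* ResidueField 𝒪}

/-- **`kills`, concrete form** (vocabulary of `SeamMod.lean`).  `B₁` is a FULL base package of the
balanced level `A`, acting on `P'' = prim W(Γ_{H''}, 𝒪)`; `H'' ≤ H'` with `d(Γ_{H'}) ⊆ ⟨γ⟩`;
`B_t` a base package of a lower level `A_t` (same good primes) which is full for the family of the
good primes of `(A, S₁)`; `π_t : B₁.T → B_t.T`, `T_ℓ ↦ T_ℓ`; (C4) at `(A_t, H')`; the kernel clause of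
the relative E/Free theorem.  Then `ker π_t` maps `P''` into `(ρ γ - 1) P''`. -/
theorem twe_sok_kills (B₁ : twe_Base 𝒪 A S₁ θ₁) (hfull₁ : B₁.IsFull)
    (hNS₁ : ∀ ℓ : ℕ, ℓ.Prime → ℓ ∣ A → ℓ ∈ S₁)
    {M : ℕ} [NeZero M] {H'' H' : Subgroup (ZMod M)ˣ} (h : H'' ≤ H')
    (F : twe_sm_Frame M H'' (twe_sm_q A S₁)) (a : twe_sm_Idx A S₁ → 𝒪)
    (ha : twe_sm_IsLift θ₁ a)
    (hrel : twe_at_Rel (twe_sm_TX 𝒪 A (twe_sm_q A S₁)) (twe_sm_TY 𝒪 F))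
    {Δ : Type*} [Group Δ] (d : Gamma0 M →* Δ) (hd : Function.Surjective d)
    (hdk : ∀ g, d g = 1 ↔ (g : SL(2, ℤ)) ∈ twe_GamH M H'')
    (γ : Δ)
    (hcyc : ∀ g : Gamma0 M, (g : SL(2, ℤ)) ∈ twe_GamH M H' → ∃ k : ℕ, d g = γ ^ k)
    {At : ℕ} [NeZero At] {θt : heckeAlgebra At 2 (↑S₁ : Set ℕ) →+* ResidueField 𝒪}
    (Bt : twe_Base 𝒪 At S₁ θt)
    (hgood : ∀ ℓ : twe_sm_Idx A S₁, ¬ ℓ.1 ∣ At)
    (hfullt : ∀ x ∈ twe_pr_prim (twe_sm_TX 𝒪 At (twe_sm_q A S₁)) a, x ∈ LinearMap.range Bt.ι)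
    (hrelt : twe_at_Rel (twe_sm_TX 𝒪 At (twe_sm_q A S₁))
      (twe_sm_TY 𝒪 (twe_fx_frame_mono h F)))
    (πt : B₁.T →ₐ[𝒪] Bt.T)
    (hπt : ∀ ℓ : twe_sm_Idx A S₁,
      πt (twe_sa_tau B₁ ℓ) = Bt.H.π (heckeAlgebra.T ℓ.2.1 (hgood ℓ) ℓ.2.2.2))
    {ι'' : Type*} [Fintype ι''] {ρ'' : ι'' → SL(2, ℤ)} (hρ'' : ∀ j, ρ'' j ∈ twe_GamH M H')
    (hbij'' : ∀ γ ∈ twe_GamH M H', ∃! j, (ρ'' j)⁻¹ * γ ∈ twe_GamH M H'')
    (hker : ∀ z ∈ twe_pr_prim (twe_sm_TY 𝒪 F) a, twe_wl_cor (R := 𝒪) hρ'' hbij'' z = 0 →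
      z ∈ Submodule.span 𝒪 {w | ∃ g : Gamma0 M, (g : SL(2, ℤ)) ∈ twe_GamH M H' ∧
        ∃ u ∈ twe_pr_prim (twe_sm_TY 𝒪 F) a, w = twe_wl_conj H'' g u - u})
    (x : B₁.T) (hx : πt x = 0) (m : ↥(twe_pr_prim (twe_sm_TY 𝒪 F) a)) :
    ∃ m' : ↥(twe_pr_prim (twe_sm_TY 𝒪 F) a),
      twe_smod_psi B₁ hfull₁ hNS₁ F a ha hrel x m = twe_smod_rho d hd hdk F a γ m' - m' := by
  haveI : Module.Finite 𝒪 (gh_H At →+ 𝒪) := tm_hom_finite (gh_H At) 𝒪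
  haveI : Module.Finite 𝒪 ↥(twe_wl_V 𝒪 𝒪 (twe_GamH M H')) := twe_rd_finite (twe_GamH M H')
  haveI := F.hq
  -- the transfer intertwines the operators
  have hcorT : ∀ (ℓ : twe_sm_Idx A S₁) (z : ↥(twe_wl_V 𝒪 𝒪 (twe_GamH M H''))),
      twe_wl_cor (R := 𝒪) hρ'' hbij'' (twe_sm_TY 𝒪 F ℓ z) =
        twe_sm_TY 𝒪 (twe_fx_frame_mono h F) ℓ (twe_wl_cor hρ'' hbij'' z) :=
    fun ℓ z => twe_for_cor_T h (twe_sm_q A S₁) F.hM F.s F.hs hρ'' hbij'' ℓ z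
  -- the generators of `B_t.T` indexed by the good primes of `(A, S₁)`
  obtain ⟨τt, hτt⟩ : ∃ τt : twe_sm_Idx A S₁ → Bt.T,
      ∀ ℓ, τt ℓ = Bt.H.π (heckeAlgebra.T ℓ.2.1 (hgood ℓ) ℓ.2.2.2) := ⟨_, fun _ => rfl⟩
  have hι : ∀ (ℓ : twe_sm_Idx A S₁) (y : Fin Bt.d → 𝒪),
      Bt.ι (twe_sa_actBase Bt (τt ℓ) y) = twe_sm_TX 𝒪 At (twe_sm_q A S₁) ℓ (Bt.ι y) := by
    intro ℓ y
    rw [twe_sa_actBase_apply, hτt]
    exact Bt.ι_hecke ℓ.1 ℓ.2.1 (hgood ℓ) ℓ.2.2.2 y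
  have h0 := twe_sok_abs (twe_sm_TX 𝒪 At (twe_sm_q A S₁))
    (fun i j => twe_sa_commX At _ i j) (twe_sm_TY 𝒪 (twe_fx_frame_mono h F)) (twe_sm_TY 𝒪 F) a
    hrelt (twe_sa_actBase Bt) τt Bt.ι hι
    (fun y hy => ⟨1, one_ne_zero, by rw [one_smul]; exact hfullt y hy⟩)
    (fun c y hc hcy => twe_sa_tfX At c y hc hcy)
    (twe_sa_tau B₁) (twe_sa_gen B₁ hNS₁) πt (fun ℓ => by rw [hπt ℓ, hτt])
    (twe_smod_psi B₁ hfull₁ hNS₁ F a ha hrel)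
    (fun ℓ y => twe_smod_psi_tau B₁ hfull₁ hNS₁ F a ha hrel ℓ y)
    (twe_wl_cor (R := 𝒪) hρ'' hbij'') hcorT x hx m
  have h1 := hker _ (twe_smod_psi B₁ hfull₁ hNS₁ F a ha hrel x m).2 h0
  exact twe_sok_cyclic (twe_pr_prim (twe_sm_TY 𝒪 F) a) (twe_smod_rho d hd hdk F a)
    (fun g => d g) (fun g => twe_wl_conj (R := 𝒪) H'' g)
    (fun g y => twe_smod_rho_coe d hd hdk F a g y)
    {g : Gamma0 M | (g : SL(2, ℤ)) ∈ twe_GamH M H'} γ (fun g hg => hcyc g hg) _ h1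

end concrete

section wrappers

variable {𝒪 : Type} [CommRing 𝒪] [IsDomain 𝒪] [IsDiscreteValuationRing 𝒪]
  [IsAdicComplete (maximalIdeal 𝒪) 𝒪]
  {N : ℕ} [NeZero N] {S : Finset ℕ} {θ : heckeAlgebra N 2 (↑S : Set ℕ) →+* ResidueField 𝒪}
  {B : twe_Base 𝒪 N S θ} {p : ℕ} {Q : Finset ℕ} [NeZero (twe_Nbal N Q ∅)]

/-- **OLD-AT-`t` for the unipotent system** built from `D : twe_mk_LevelData B p Q`. -/
theorem twe_sok_oldAt_level (D : twe_mk_LevelData B p Q) (t : ℕ) (ht : t ∈ Q)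
    [NeZero (twe_Nbal N Q ∅ / t)]
    {θt : heckeAlgebra (twe_Nbal N Q ∅ / t) 2 (↑(S ∪ Q) : Set ℕ) →+* ResidueField 𝒪}
    (Bt : twe_Base 𝒪 (twe_Nbal N Q ∅ / t) (S ∪ Q) θt) (πt : D.B'.T →ₐ[𝒪] Bt.T)
    (hπt : ∀ (ℓ : ℕ) (hℓ : ℓ.Prime) (h1 : ¬ ℓ ∣ twe_Nbal N Q ∅)
      (h2 : ℓ ∉ (↑(S ∪ Q) : Set ℕ)) (h3 : ¬ ℓ ∣ twe_Nbal N Q ∅ / t),
      πt (D.B'.H.π (heckeAlgebra.T hℓ h1 h2)) = Bt.H.π (heckeAlgebra.T hℓ h3 h2))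
    (hk : ∀ x : D.B'.T, πt x = 0 → ∀ m : D.P, ∃ m' : D.P,
      D.ψ x m = D.ρ (twe_gen p Q t ht) m' - m') :
    Nonempty (twe_OldAt D.toLevel.H' (D.toLevel.dia t ht) t) := by
  refine ⟨{ θt := θt, Tt := Bt.T, Ht := Bt.H, πt := πt, πt_T := hπt, kills := ?_ }⟩
  intro x hx m
  obtain ⟨m', hm'⟩ := hk x hx (D.ρ.asModuleEquiv m)
  refine ⟨D.ρ.asModuleEquiv.symm m', ?_⟩
  rw [twe_mk_toLevel_smul, twe_mk_toLevel_dia, hm', map_sub, LinearEquiv.apply_symm_apply]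
  rfl

variable {L : twe_Level B p Q} {Th : Finset ℕ} [NeZero (twe_Nbal N Q Th)]

/-- **OLD-AT-`t` for the big system, `t ∈ Q`.** -/
theorem twe_sok_oldAt_bigQ (D : twe_mk_BigData L Th) (t : ℕ) (ht : t ∈ Q)
    [NeZero (twe_Nbal N Q Th / t)]
    {θt : heckeAlgebra (twe_Nbal N Q Th / t) 2 (↑(S ∪ Q) : Set ℕ) →+* ResidueField 𝒪}
    (Bt : twe_Base 𝒪 (twe_Nbal N Q Th / t) (S ∪ Q) θt) (πt : D.B''.T →ₐ[𝒪] Bt.T)
    (hπt : ∀ (ℓ : ℕ) (hℓ : ℓ.Prime) (h1 : ¬ ℓ ∣ twe_Nbal N Q Th)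
      (h2 : ℓ ∉ (↑(S ∪ Q) : Set ℕ)) (h3 : ¬ ℓ ∣ twe_Nbal N Q Th / t),
      πt (D.B''.H.π (heckeAlgebra.T hℓ h1 h2)) = Bt.H.π (heckeAlgebra.T hℓ h3 h2))
    (hk : ∀ x : D.B''.T, πt x = 0 → ∀ m : D.P, ∃ m' : D.P,
      D.ψ x m = D.ρ (twe_gen p Q t ht, 1) m' - m') :
    Nonempty (twe_OldAt D.toBig.H'' (D.toBig.diaQ t ht) t) := by
  refine ⟨{ θt := θt, Tt := Bt.T, Ht := Bt.H, πt := πt, πt_T := hπt, kills := ?_ }⟩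
  intro x hx m
  obtain ⟨m', hm'⟩ := hk x hx (D.ρ.asModuleEquiv m)
  refine ⟨D.ρ.asModuleEquiv.symm m', ?_⟩
  rw [twe_mk_toBig_smul, twe_mk_toBig_diaQ, hm', map_sub, LinearEquiv.apply_symm_apply]
  rfl

/-- **OLD-AT-`ℓ` for the big system, `ℓ ∈ Th`.** -/
theorem twe_sok_oldAt_bigTh (D : twe_mk_BigData L Th) (t : ℕ) (ht : t ∈ Th)
    [NeZero (twe_Nbal N Q Th / t)]
    {θt : heckeAlgebra (twe_Nbal N Q Th / t) 2 (↑(S ∪ Q) : Set ℕ) →+* ResidueField 𝒪}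
    (Bt : twe_Base 𝒪 (twe_Nbal N Q Th / t) (S ∪ Q) θt) (πt : D.B''.T →ₐ[𝒪] Bt.T)
    (hπt : ∀ (ℓ : ℕ) (hℓ : ℓ.Prime) (h1 : ¬ ℓ ∣ twe_Nbal N Q Th)
      (h2 : ℓ ∉ (↑(S ∪ Q) : Set ℕ)) (h3 : ¬ ℓ ∣ twe_Nbal N Q Th / t),
      πt (D.B''.H.π (heckeAlgebra.T hℓ h1 h2)) = Bt.H.π (heckeAlgebra.T hℓ h3 h2))
    (hk : ∀ x : D.B''.T, πt x = 0 → ∀ m : D.P, ∃ m' : D.P,
      D.ψ x m = D.ρ (1, twe_gen p Th t ht) m' - m') :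
    Nonempty (twe_OldAt D.toBig.H'' (D.toBig.diaTh t ht) t) := by
  refine ⟨{ θt := θt, Tt := Bt.T, Ht := Bt.H, πt := πt, πt_T := hπt, kills := ?_ }⟩
  intro x hx m
  obtain ⟨m', hm'⟩ := hk x hx (D.ρ.asModuleEquiv m)
  refine ⟨D.ρ.asModuleEquiv.symm m', ?_⟩
  rw [twe_mk_toBig_smul, twe_mk_toBig_diaTh, hm', map_sub, LinearEquiv.apply_symm_apply]
  rfl

end wrappers

end

end Fermat.Agent.TW
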