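import Mathlib
import Fermat.Agent.TW.Aut.SeamOldKills
import Fermat.Agent.TW.Aut.SeamRing
import Fermat.Agent.TW.Aut.SeamHom
import Fermat.Agent.TW.Aut.SeamCoinv
import Fermat.Agent.TW.Aut.FreeKRel
import Fermat.Agent.TW.Aut.RelReps
import Fermat.Agent.TW.Aut.SeamDelta
import Fermat.Agent.TW.Aut.SeamRelInst
import Fermat.Agent.TW.Aut.DatumM1
import Fermat.Agent.TW.Aut.NonEis
import Fermat.Agent.TW.Aut.DeltaIso3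
import Fermat.Agent.TW.Aut.SeamBigC

/-!
# Project ONE MACHINE, block [E] AUT, E/Seam: the `kills` clause of `twe_OldAt`, FULLY CONCRETE
(helper26)

Prefix `twe_soi_`.  Every hypothesis of `twe_sok_kills` (`SeamOldKills.lean`) is discharged:

* `twe_soi_gen`   : generic in the pair `H'' ≤ H'` and the presentations `d''`, `d'`;
* `twe_soi_bigQ`  : OLD-AT-`t`, `t ∈ Q`, for the big system `(twe_sbc_data …).toBig` (`SeamBigC.lean`);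
* `twe_soi_bigTh` : OLD-AT-`t`, `t ∈ Th`, for the big system `(twe_sbc_data …).toBig`.
-/

set_option autoImplicit false
set_option linter.unusedSectionVars false
set_option linter.unusedVariables false
set_option linter.style.haveILetI false

namespace Fermat.Agent.TW

open Polynomial CuspForm IsLocalRing Fermat.Agent.JT3 CongruenceSubgroup
open scoped MatrixGroups

noncomputable section

section gen

variable {p : ℕ} [Fact p.Prime]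
  {𝒪 : Type} [CommRing 𝒪] [IsDomain 𝒪] [IsDiscreteValuationRing 𝒪]
  [IsAdicComplete (maximalIdeal 𝒪) 𝒪] [Finite (ResidueField 𝒪)] [CharZero 𝒪]

/-- **`kills`, generic concrete form.** -/
theorem twe_soi_gen (hp5 : 5 ≤ p) (hp𝒪 : (p : 𝒪) ∈ maximalIdeal 𝒪)
    {N : ℕ} [NeZero N] {S : Finset ℕ}
    (θ : heckeAlgebra N 2 (↑S : Set ℕ) →+* ResidueField 𝒪)
    (ρbar : ResidualGaloisRep (ResidueField 𝒪))
    (hc : twt_Compat θ ρbar) (hirr : ρbar.IsAbsolutelyIrreducible)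
    {A : ℕ} [NeZero A] {S₁ : Finset ℕ} (hNA : N ∣ A) (hpA : ¬ p ∣ A) (hSS₁ : S ⊆ S₁)
    (hpS₁ : p ∈ S₁) (hNS₁ : ∀ ℓ : ℕ, ℓ.Prime → ℓ ∣ A → ℓ ∈ S₁)
    {θ₁ : heckeAlgebra A 2 (↑S₁ : Set ℕ) →+* ResidueField 𝒪}
    (hθ₁ : ∀ (ℓ : ℕ) (hℓ : ℓ.Prime) (h1 : ¬ ℓ ∣ A) (h2 : ℓ ∉ (↑S₁ : Set ℕ)) (h3 : ¬ ℓ ∣ N)
      (h4 : ℓ ∉ (↑S : Set ℕ)), θ₁ (heckeAlgebra.T hℓ h1 h2) = θ (heckeAlgebra.T hℓ h3 h4))
    (B₁ : twe_Base 𝒪 A S₁ θ₁) (hfull₁ : B₁.IsFull)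
    {At : ℕ} [NeZero At] (hNAt : N ∣ At) (hAtA : At ∣ A)
    {M : ℕ} [NeZero M] {H'' H' : Subgroup (ZMod M)ˣ} (h : H'' ≤ H')
    (F : twe_sm_Frame M H'' (twe_sm_q A S₁)) (a : twe_sm_Idx A S₁ → 𝒪)
    (ha : twe_sm_IsLift θ₁ a)
    (hrel : twe_at_Rel (twe_sm_TX 𝒪 A (twe_sm_q A S₁)) (twe_sm_TY 𝒪 F))
    (hrelt : twe_at_Rel (twe_sm_TX 𝒪 At (twe_sm_q A S₁))
      (twe_sm_TY 𝒪 (twe_fx_frame_mono h F)))
    (hneg : (-1 : SL(2, ℤ)) ∈ twe_GamH M H'')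
    (h12 : ∀ u : (ZMod M)ˣ, u ^ (12 * M) = 1 → u ∈ H'')
    {Δ'' Δ' : Type} [CommGroup Δ''] [Fintype Δ''] [CommGroup Δ'] [Fintype Δ']
    (d'' : Gamma0 M →* Δ'') (hd'' : Function.Surjective d'')
    (hdk'' : ∀ g, d'' g = 1 ↔ (g : SL(2, ℤ)) ∈ twe_GamH M H'')
    (d' : Gamma0 M →* Δ') (hd' : Function.Surjective d')
    (hdk' : ∀ g, d' g = 1 ↔ (g : SL(2, ℤ)) ∈ twe_GamH M H')
    {n : ℕ} (hΔ'' : ∀ δ : Δ'', δ ^ (p ^ n) = 1) (hΔ' : ∀ δ : Δ', δ ^ (p ^ n) = 1)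
    (γ : Δ'')
    (hcyc : ∀ g : Gamma0 M, (g : SL(2, ℤ)) ∈ twe_GamH M H' → ∃ k : ℕ, d'' g = γ ^ k) :
    ∃ (θt : heckeAlgebra At 2 (↑S₁ : Set ℕ) →+* ResidueField 𝒪)
      (Bt : twe_Base 𝒪 At S₁ θt) (πt : B₁.T →ₐ[𝒪] Bt.T),
      (∀ (ℓ : ℕ) (hℓ : ℓ.Prime) (h1 : ¬ ℓ ∣ A) (h2 : ℓ ∉ (↑S₁ : Set ℕ)) (h3 : ¬ ℓ ∣ At),
        πt (B₁.H.π (heckeAlgebra.T hℓ h1 h2)) = Bt.H.π (heckeAlgebra.T hℓ h3 h2)) ∧
      ∀ x : B₁.T, πt x = 0 → ∀ m : ↥(twe_pr_prim (twe_sm_TY 𝒪 F) a),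
        ∃ m' : ↥(twe_pr_prim (twe_sm_TY 𝒪 F) a),
          twe_smod_psi B₁ hfull₁ hNS₁ F a ha hrel x m =
            twe_smod_rho d'' hd'' hdk'' F a γ m' - m' := by
  classical
  have hpP : p.Prime := Fact.out
  have hp2 : p ≠ 2 := by omega
  have hpAt : ¬ p ∣ At := fun hd => hpA (hd.trans hAtA)
  have hAtS₁ : ∀ ℓ : ℕ, ℓ.Prime → ℓ ∣ At → ℓ ∈ S₁ := fun ℓ hℓ hd => hNS₁ ℓ hℓ (hd.trans hAtA)
  -- the base package at the lower level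
  obtain ⟨θt, hθt, hct, Bt, hBt⟩ := twe_sg_base_at twe_dt_M1F p hp5 𝒪 hp𝒪 N S θ ρbar hc hirr At
    hNAt hpAt S₁ hSS₁ hpS₁ hAtS₁
  -- the compatibility of `θ₁`
  have hc₁ : twt_Compat θ₁ ρbar := twe_sg_compat_lift hNA hSS₁ θ θ₁ hθ₁ ρbar hc
  -- the transition map
  have hθ₁t : ∀ (ℓ : ℕ) (hℓ : ℓ.Prime) (h1 : ¬ ℓ ∣ A) (h2 : ℓ ∉ (↑S₁ : Set ℕ)) (h3 : ¬ ℓ ∣ At)
      (h4 : ℓ ∉ (↑S₁ : Set ℕ)), θ₁ (heckeAlgebra.T hℓ h1 h2) = θt (heckeAlgebra.T hℓ h3 h4) := by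
    intro ℓ hℓ h1 h2 h3 h4
    have h5 : ¬ ℓ ∣ N := fun hd => h1 (hd.trans hNA)
    have h6 : ℓ ∉ (↑S : Set ℕ) := fun hm => h2 (Finset.coe_subset.mpr hSS₁ hm)
    rw [hθ₁ ℓ hℓ h1 h2 h5 h6, hθt ℓ hℓ h3 h4 h5 h6]
  obtain ⟨πt, hπt, -⟩ := twe_sg_hom twe_sh_main A At S₁ S₁ θ₁ θt B₁ Bt hfull₁ hAtA
    (Finset.Subset.refl S₁) hNS₁ hθ₁t
  refine ⟨θt, Bt, πt, fun ℓ hℓ h1 h2 h3 => hπt ℓ hℓ h1 h2 h3 h2, ?_⟩
  -- the good primes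
  have hgood : ∀ ℓ : twe_sm_Idx A S₁, ¬ ℓ.1 ∣ At := fun ℓ hd => ℓ.2.2.1 (hd.trans hAtA)
  -- fullness of `B_t` for the family of the good primes of `(A, S₁)`
  have hq : ∀ i : twe_sm_Idx A S₁, pk_Good At S₁ (twe_sm_q A S₁ i) :=
    fun i => ⟨i.2.1, hgood i, i.2.2.2⟩
  have hqall : ∀ ℓ, pk_Good At S₁ ℓ → ∃ i : twe_sm_Idx A S₁, twe_sm_q A S₁ i = ℓ := by
    intro ℓ hℓ
    exact ⟨⟨ℓ, hℓ.1, fun hd => hℓ.2.2 (Finset.mem_coe.mpr (hNS₁ ℓ hℓ.1 hd)), hℓ.2.2⟩, rfl⟩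
  have hfullt : ∀ x ∈ twe_pr_prim (twe_sm_TX 𝒪 At (twe_sm_q A S₁)) a,
      x ∈ LinearMap.range Bt.ι := by
    intro x hx
    refine (twe_sc_prim_iff (p := p) hp5 hp𝒪 hpAt hpS₁ hAtS₁ ρbar hct hirr Bt hBt S₁
      (Finset.Subset.refl S₁) (twe_sm_q A S₁) hq hqall a (fun i => ?_) x).mp hx
    rw [ha i]
    exact hθ₁t _ _ _ _ _ _
  -- the non-Eisenstein prime
  have hpk : ((p : ℕ) : ResidueField 𝒪) = 0 := by
    have h1 : residue 𝒪 (p : 𝒪) = 0 := (residue_eq_zero_iff _).mpr hp𝒪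
    rwa [map_natCast] at h1
  haveI : CharP (ResidueField 𝒪) p := (CharP.charP_iff_prime_eq_zero hpP).2 hpk
  obtain ⟨ℓ₀, hℓ₀, hℓ₀A, hℓ₀S, -, -, -, hne₀⟩ := twe_ne_main_eis hp2 θ₁ ρbar hc₁ hirr p hpP.pos
    dvd_rfl ∅
  have hne : residue 𝒪 (a ⟨ℓ₀, hℓ₀, hℓ₀A, hℓ₀S⟩) ≠
      ((twe_sm_q A S₁ ⟨ℓ₀, hℓ₀, hℓ₀A, hℓ₀S⟩ + 1 : ℕ) : ResidueField 𝒪) := by
    rw [ha ⟨ℓ₀, hℓ₀, hℓ₀A, hℓ₀S⟩, Nat.cast_add, Nat.cast_one]
    exact hne₀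
  -- representatives
  haveI : Fintype ↥(twe_rr_idx d'' H') := Fintype.ofFinite _
  haveI := F.hq
  have hker := (twe_fkr_main (𝒪 := 𝒪) h hneg h12 d'' hd'' hdk'' d' hd' hdk' hpP hp2 hp𝒪 hΔ'' hΔ'
    (twe_sm_q A S₁) F.hM Subtype.val_injective F.s F.hs a ⟨ℓ₀, hℓ₀, hℓ₀A, hℓ₀S⟩ hne
    (twe_sd_reps_mem d' hd') (twe_sd_reps_bij d' hd' hdk')
    (twe_rr_rep_mem d'') (twe_rr_rep_bij d'' hdk'')).2
  intro x hx m
  exact twe_sok_kills B₁ hfull₁ hNS₁ h F a ha hrel d'' hd'' hdk'' γ hcyc Bt hgood hfullt hrelt πt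
    (fun ℓ => hπt ℓ.1 ℓ.2.1 ℓ.2.2.1 ℓ.2.2.2 (hgood ℓ) ℓ.2.2.2)
    (twe_rr_rep_mem d'') (twe_rr_rep_bij d'' hdk'') hker x hx m

end gen

section big

variable {𝒪 : Type} [CommRing 𝒪] [IsDomain 𝒪] [IsDiscreteValuationRing 𝒪]
  [IsAdicComplete (maximalIdeal 𝒪) 𝒪] [Finite (ResidueField 𝒪)] [CharZero 𝒪]
  {N : ℕ} [NeZero N] {S : Finset ℕ} {θ : heckeAlgebra N 2 (↑S : Set ℕ) →+* ResidueField 𝒪}
  {B : twe_Base 𝒪 N S θ} {p : ℕ} {Q : Finset ℕ} [NeZero (twe_Nbal N Q ∅)]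
  (D' : twe_mk_LevelData B p Q) {Th : Finset ℕ} [NeZero (twe_Nbal N Q Th)]
  {θ'' : heckeAlgebra (twe_Nbal N Q Th) 2 (↑(S ∪ Q) : Set ℕ) →+* ResidueField 𝒪}
  (B'' : twe_Base 𝒪 (twe_Nbal N Q Th) (S ∪ Q) θ'') (hfull'' : B''.IsFull)
  (hNS'' : ∀ ℓ : ℕ, ℓ.Prime → ℓ ∣ twe_Nbal N Q Th → ℓ ∈ S ∪ Q)
  (π1 : B''.T →ₐ[𝒪] D'.B'.T)
  (hπ1 : ∀ (ℓ : ℕ) (hℓ : ℓ.Prime) (h1 : ¬ ℓ ∣ twe_Nbal N Q Th) (h2 : ℓ ∉ (↑(S ∪ Q) : Set ℕ))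
    (h3 : ¬ ℓ ∣ twe_Nbal N Q ∅),
    π1 (B''.H.π (heckeAlgebra.T hℓ h1 h2)) = D'.B'.H.π (heckeAlgebra.T hℓ h3 h2))
  {M : ℕ} [NeZero M] (hQp : ∀ t ∈ Q, t.Prime) (hQM : ∀ t ∈ Q, t ∣ M)
  (hThp : ∀ t ∈ Th, t.Prime) (hThM : ∀ t ∈ Th, t ∣ M) (hdisj : Disjoint Q Th)
  (hp : p.Prime) (hp5 : 5 ≤ p) (hpM : ¬ p ∣ M) (hpO : (p : 𝒪) ∈ maximalIdeal 𝒪)
  (F'' : twe_sm_Frame M (twe_di_pair p Q Th M hQp hQM hThp hThM).ker
    (twe_sm_q (twe_Nbal N Q Th) (S ∪ Q)))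
  (a'' : twe_sm_Idx (twe_Nbal N Q Th) (S ∪ Q) → 𝒪) (ha'' : twe_sm_IsLift θ'' a'')
  (hrel'' : twe_at_Rel (twe_sm_TX 𝒪 (twe_Nbal N Q Th) (twe_sm_q (twe_Nbal N Q Th) (S ∪ Q)))
    (twe_sm_TY 𝒪 F''))
  (i₀ : twe_sm_Idx (twe_Nbal N Q Th) (S ∪ Q))
  (hne : residue 𝒪 (a'' i₀) ≠ ((i₀.1 + 1 : ℕ) : ResidueField 𝒪))
  (κ : ↥(twe_pr_prim (twe_sm_TY 𝒪 (twe_sbc_F' hQp hQM hThp hThM F'')) a'') ≃ₗ[𝒪] D'.P)
  (hκψ : ∀ (ℓ'' : twe_sm_Idx (twe_Nbal N Q Th) (S ∪ Q))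
    (ℓ' : twe_sm_Idx (twe_Nbal N Q ∅) (S ∪ Q)), ℓ'.1 = ℓ''.1 →
    ∀ y y' : ↥(twe_pr_prim (twe_sm_TY 𝒪 (twe_sbc_F' hQp hQM hThp hThM F'')) a''),
      (y' : ↥(twe_wl_V 𝒪 𝒪 (twe_GamH M (twe_di_hom p Q M hQp hQM).ker))) =
        twe_sm_TY 𝒪 (twe_sbc_F' hQp hQM hThp hThM F'') ℓ'' y.1 →
      κ y' = D'.ψ (twe_sa_tau D'.B' ℓ') (κ y))
  (hκρ : ∀ (δ₁ : twe_Delta p Q)
    (y : ↥(twe_pr_prim (twe_sm_TY 𝒪 (twe_sbc_F' hQp hQM hThp hThM F'')) a'')),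
    κ (twe_sbc_rho' hQp hQM hThp hThM F'' a'' δ₁ y) = D'.ρ δ₁ (κ y))
  (hθ'' : ∀ (ℓ : ℕ) (hℓ : ℓ.Prime) (h1 : ¬ ℓ ∣ twe_Nbal N Q Th)
    (h2 : ℓ ∉ (↑(S ∪ Q) : Set ℕ)) (h3 : ¬ ℓ ∣ N) (h4 : ℓ ∉ (↑S : Set ℕ)),
    θ'' (heckeAlgebra.T hℓ h1 h2) = θ (heckeAlgebra.T hℓ h3 h4))
  (hsq : Squarefree N) (hQ : ∀ t ∈ Q, t.Prime ∧ ¬ t ∣ N) (hTh : ∀ ℓ ∈ Th, ℓ.Prime ∧ ℓ ∣ N)
  (hM : M = N * ∏ t ∈ Q, t)
  (hpS : p ∈ S) (ρbar : ResidualGaloisRep (ResidueField 𝒪))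
  (hc : twt_Compat θ ρbar) (hirr : ρbar.IsAbsolutelyIrreducible)

include hQp hQM hThp hThM hp hpM hM in
/-- `p` does not divide the balanced level. -/
theorem twe_soi_not_dvd_Nbal : ¬ p ∣ twe_Nbal N Q Th := by
  intro hd
  unfold twe_Nbal at hd
  rcases (Nat.Prime.dvd_mul hp).mp hd with h1 | h1
  · rcases (Nat.Prime.dvd_mul hp).mp h1 with h2 | h2
    · exact hpM (hM ▸ Dvd.dvd.mul_right h2 _)
    · obtain ⟨t, ht, h3⟩ := (Prime.dvd_finsetProd_iff hp.prime _).mp h2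
      exact hpM ((hp.dvd_of_dvd_pow h3).trans (hQM t ht))
  · obtain ⟨t, ht, h3⟩ := (Prime.dvd_finsetProd_iff hp.prime _).mp h1
    exact hpM (h3.trans (hThM t ht))

include hsq hQ hTh hM hpS hc hirr in
/-- **OLD-AT-`t`, `t ∈ Q`**, for the big system `(twe_sbc_data …).toBig`. -/
theorem twe_soi_bigQ (t : ℕ) (ht : t ∈ Q) :
    ∃ _ : NeZero (twe_Nbal N Q Th / t),
      Nonempty (twe_OldAt (twe_sbc_data D' B'' hfull'' hNS'' π1 hπ1 hQp hQM hThp hThM hdisj hp hp5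
          hpM hpO F'' a'' ha'' hrel'' i₀ hne κ hκψ hκρ hθ'').toBig.H''
        ((twe_sbc_data D' B'' hfull'' hNS'' π1 hπ1 hQp hQM hThp hThM hdisj hp hp5 hpM hpO
          F'' a'' ha'' hrel'' i₀ hne κ hκψ hκρ hθ'').toBig.diaQ t ht) t) := by
  classical
  haveI : Fact p.Prime := ⟨hp⟩
  have hp2 : p ≠ 2 := by omega
  have hodd : Odd p := hp.odd_of_ne_two hp2
  have htp : t.Prime := hQp t ht
  have htA : t ∣ twe_Nbal N Q Th := twe_di_dvd_Nbal_Q N Q Th ht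
  have hA0 : twe_Nbal N Q Th ≠ 0 := NeZero.ne _
  haveI hne0 : NeZero (twe_Nbal N Q Th / t) :=
    ⟨(Nat.div_pos (Nat.le_of_dvd (Nat.pos_of_ne_zero hA0) htA) htp.pos).ne'⟩
  refine ⟨hne0, ?_⟩
  have hNA : N ∣ twe_Nbal N Q Th := by
    unfold twe_Nbal
    exact Dvd.dvd.mul_right (Dvd.intro _ rfl) _
  have htN : t * N ∣ twe_Nbal N Q Th := by
    unfold twe_Nbal
    rw [mul_comm t N]
    exact Dvd.dvd.mul_right (mul_dvd_mul_left N ((dvd_pow_self t two_ne_zero).trans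
      (Finset.dvd_prod_of_mem (fun t => t ^ 2) ht))) _
  have hNAt : N ∣ twe_Nbal N Q Th / t := Nat.dvd_div_of_mul_dvd htN
  have hAtA : twe_Nbal N Q Th / t ∣ twe_Nbal N Q Th := Nat.div_dvd_of_dvd htA
  have hpA : ¬ p ∣ twe_Nbal N Q Th := twe_soi_not_dvd_Nbal hQp hQM hThp hThM hp hpM hM
  haveI : Finite (twe_Delta p Q) := twe_chi_delta_finite p Q
  haveI : Finite (twe_Delta p Th) := twe_chi_delta_finite p Th
  haveI : Finite (twe_Delta p (Q.erase t)) := twe_chi_delta_finite p (Q.erase t)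
  haveI : Fintype (twe_Delta p Q) := Fintype.ofFinite _
  haveI : Fintype (twe_Delta p Th) := Fintype.ofFinite _
  haveI : Fintype (twe_Delta p (Q.erase t)) := Fintype.ofFinite _
  have hQp' : ∀ t' ∈ Q.erase t, t'.Prime := fun t' ht' => hQp t' (Finset.mem_of_mem_erase ht')
  have hQM' : ∀ t' ∈ Q.erase t, t' ∣ M := fun t' ht' => hQM t' (Finset.mem_of_mem_erase ht')
  have hle := twe_di_pair_eraseQ_le p Q Th M hQp hQM hThp hThM t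
  have hrelt := twe_sri_oldBigQ 𝒪 p hsq hQ hTh hM hodd t ht hQp' hQM' hThp hThM
    (twe_sm_q (twe_Nbal N Q Th) (S ∪ Q)) (fun i hd => i.2.2.1 (hd.trans hAtA))
    (twe_fx_frame_mono hle F'')
  have hcyc : ∀ g : Gamma0 M, (g : SL(2, ℤ)) ∈
      twe_GamH M (twe_di_pair p (Q.erase t) Th M hQp' hQM' hThp hThM).ker →
      ∃ k : ℕ, twe_di_d p Q Th M hQp hQM hThp hThM g =
        ((twe_gen p Q t ht, 1) : twe_Delta p Q × twe_Delta p Th) ^ k := by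
    intro g hg
    rw [twe_mem_GamH] at hg
    exact twe_di_pair_eraseQ_cyclic p Q Th M hQp hQM hThp hThM t ht (twe_dUnit M g) hg.2
  have key := twe_soi_gen (p := p) hp5 hpO θ ρbar hc hirr hNA hpA
    (Finset.subset_union_left (s₁ := S) (s₂ := Q)) (Finset.mem_union_left Q hpS) hNS'' hθ'' B''
    hfull'' hNAt hAtA hle F'' a'' ha'' hrel'' hrelt
    (twe_di_neg_one_mem_GamH p Q Th M hQp hQM hThp hThM hodd)
    (twe_di_pair_parEll' p Q Th M hQp hQM hThp hThM hp hp5 hpM)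
    (twe_di_d p Q Th M hQp hQM hThp hThM)
    (twe_di_d_surjective p Q Th M hQp hQM hThp hThM hdisj)
    (twe_di_d_eq_one_iff p Q Th M hQp hQM hThp hThM)
    (twe_di_d p (Q.erase t) Th M hQp' hQM' hThp hThM)
    (twe_di_d_surjective p (Q.erase t) Th M hQp' hQM' hThp hThM
      (hdisj.mono_left (Finset.erase_subset t Q)))
    (twe_di_d_eq_one_iff p (Q.erase t) Th M hQp' hQM' hThp hThM)
    (n := max (twe_di_exp p Q) (twe_di_exp p Th))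
    (twe_di_pair_delta_pow_exp p Q Th)
    (twe_di_pair_delta_pow p (Q.erase t) Th _
      (fun t' ht' => (twe_di_le_exp p Q (Finset.mem_of_mem_erase ht')).trans (le_max_left _ _))
      (fun t' ht' => (twe_di_le_exp p Th ht').trans (le_max_right _ _)))
    ((twe_gen p Q t ht, 1) : twe_Delta p Q × twe_Delta p Th) hcyc
  obtain ⟨θt, Bt, πt, hπt, hk⟩ := key
  exact twe_sok_oldAt_bigQ (twe_sbc_data D' B'' hfull'' hNS'' π1 hπ1 hQp hQM hThp hThM hdisj hp hp5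
    hpM hpO F'' a'' ha'' hrel'' i₀ hne κ hκψ hκρ hθ'') t ht Bt πt hπt hk

include hsq hQ hTh hM hpS hc hirr in
/-- **OLD-AT-`t`, `t ∈ Th`**, for the big system `(twe_sbc_data …).toBig`. -/
theorem twe_soi_bigTh (t : ℕ) (ht : t ∈ Th) :
    ∃ _ : NeZero (twe_Nbal N Q Th / t),
      Nonempty (twe_OldAt (twe_sbc_data D' B'' hfull'' hNS'' π1 hπ1 hQp hQM hThp hThM hdisj hp hp5
          hpM hpO F'' a'' ha'' hrel'' i₀ hne κ hκψ hκρ hθ'').toBig.H''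
        ((twe_sbc_data D' B'' hfull'' hNS'' π1 hπ1 hQp hQM hThp hThM hdisj hp hp5 hpM hpO
          F'' a'' ha'' hrel'' i₀ hne κ hκψ hκρ hθ'').toBig.diaTh t ht) t) := by
  classical
  haveI : Fact p.Prime := ⟨hp⟩
  have hp2 : p ≠ 2 := by omega
  have hodd : Odd p := hp.odd_of_ne_two hp2
  have htp : t.Prime := hThp t ht
  have htA : t ∣ twe_Nbal N Q Th := twe_di_dvd_Nbal_Th N Q Th ht
  have hA0 : twe_Nbal N Q Th ≠ 0 := NeZero.ne _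
  haveI hne0 : NeZero (twe_Nbal N Q Th / t) :=
    ⟨(Nat.div_pos (Nat.le_of_dvd (Nat.pos_of_ne_zero hA0) htA) htp.pos).ne'⟩
  refine ⟨hne0, ?_⟩
  have hNA : N ∣ twe_Nbal N Q Th := by
    unfold twe_Nbal
    exact Dvd.dvd.mul_right (Dvd.intro _ rfl) _
  have htN : t * N ∣ twe_Nbal N Q Th := by
    unfold twe_Nbal
    rw [mul_comm t N, mul_assoc]
    exact mul_dvd_mul_left N (Dvd.dvd.mul_left (Finset.dvd_prod_of_mem (fun t => t) ht) _)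
  have hNAt : N ∣ twe_Nbal N Q Th / t := Nat.dvd_div_of_mul_dvd htN
  have hAtA : twe_Nbal N Q Th / t ∣ twe_Nbal N Q Th := Nat.div_dvd_of_dvd htA
  have hpA : ¬ p ∣ twe_Nbal N Q Th := twe_soi_not_dvd_Nbal hQp hQM hThp hThM hp hpM hM
  haveI : Finite (twe_Delta p Q) := twe_chi_delta_finite p Q
  haveI : Finite (twe_Delta p Th) := twe_chi_delta_finite p Th
  haveI : Finite (twe_Delta p (Th.erase t)) := twe_chi_delta_finite p (Th.erase t)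
  haveI : Fintype (twe_Delta p Q) := Fintype.ofFinite _
  haveI : Fintype (twe_Delta p Th) := Fintype.ofFinite _
  haveI : Fintype (twe_Delta p (Th.erase t)) := Fintype.ofFinite _
  have hThp' : ∀ t' ∈ Th.erase t, t'.Prime := fun t' ht' => hThp t' (Finset.mem_of_mem_erase ht')
  have hThM' : ∀ t' ∈ Th.erase t, t' ∣ M := fun t' ht' => hThM t' (Finset.mem_of_mem_erase ht')
  have hle := twe_di_pair_eraseTh_le p Q Th M hQp hQM hThp hThM t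
  have hrelt := twe_sri_oldBigTh 𝒪 p hsq hQ hTh hM hodd t ht hQp hQM hThp' hThM'
    (twe_sm_q (twe_Nbal N Q Th) (S ∪ Q)) (fun i hd => i.2.2.1 (hd.trans hAtA))
    (twe_fx_frame_mono hle F'')
  have hcyc : ∀ g : Gamma0 M, (g : SL(2, ℤ)) ∈
      twe_GamH M (twe_di_pair p Q (Th.erase t) M hQp hQM hThp' hThM').ker →
      ∃ k : ℕ, twe_di_d p Q Th M hQp hQM hThp hThM g =
        ((1, twe_gen p Th t ht) : twe_Delta p Q × twe_Delta p Th) ^ k := by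
    intro g hg
    rw [twe_mem_GamH] at hg
    exact twe_di_pair_eraseTh_cyclic p Q Th M hQp hQM hThp hThM t ht (twe_dUnit M g) hg.2
  have key := twe_soi_gen (p := p) hp5 hpO θ ρbar hc hirr hNA hpA
    (Finset.subset_union_left (s₁ := S) (s₂ := Q)) (Finset.mem_union_left Q hpS) hNS'' hθ'' B''
    hfull'' hNAt hAtA hle F'' a'' ha'' hrel'' hrelt
    (twe_di_neg_one_mem_GamH p Q Th M hQp hQM hThp hThM hodd)
    (twe_di_pair_parEll' p Q Th M hQp hQM hThp hThM hp hp5 hpM)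
    (twe_di_d p Q Th M hQp hQM hThp hThM)
    (twe_di_d_surjective p Q Th M hQp hQM hThp hThM hdisj)
    (twe_di_d_eq_one_iff p Q Th M hQp hQM hThp hThM)
    (twe_di_d p Q (Th.erase t) M hQp hQM hThp' hThM')
    (twe_di_d_surjective p Q (Th.erase t) M hQp hQM hThp' hThM'
      (hdisj.mono_right (Finset.erase_subset t Th)))
    (twe_di_d_eq_one_iff p Q (Th.erase t) M hQp hQM hThp' hThM')
    (n := max (twe_di_exp p Q) (twe_di_exp p Th))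
    (twe_di_pair_delta_pow_exp p Q Th)
    (twe_di_pair_delta_pow p Q (Th.erase t) _
      (fun t' ht' => (twe_di_le_exp p Q ht').trans (le_max_left _ _))
      (fun t' ht' => (twe_di_le_exp p Th (Finset.mem_of_mem_erase ht')).trans
        (le_max_right _ _)))
    ((1, twe_gen p Th t ht) : twe_Delta p Q × twe_Delta p Th) hcyc
  obtain ⟨θt, Bt, πt, hπt, hk⟩ := key
  exact twe_sok_oldAt_bigTh (twe_sbc_data D' B'' hfull'' hNS'' π1 hπ1 hQp hQM hThp hThM hdisj hp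
    hp5 hpM hpO F'' a'' ha'' hrel'' i₀ hne κ hκψ hκρ hθ'') t ht Bt πt hπt hk

end big

end

end Fermat.Agent.TW
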