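import Mathlib
import Fermat.Agent.TW.Aut.SeamLevelInst
import Fermat.Agent.TW.Aut.DatumM1
import Fermat.Agent.TW.Aut.FrameExists

/-!
# ONE MACHINE / block [E] AUT, E/Seam: the unipotent half of (M2), end to end (helper14)

Prefix `twe_slf_`.  INTEGRATION of the Level side: every hypothesis of `twe_sli_data`
(`SeamLevelInst.lean`) is produced from the binders of `twe_M2LG*_stmt`.

* `twe_slf_not_dvd_Nbal` : `p ∤ twe_Nbal N Q ∅`;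
* `twe_slf_exists_lift`  : lifts `a` of an eigensystem exist (any level);
* `twe_slf_base`         : (C1) at the balanced level `(twe_Nbal N Q ∅, S ∪ Q)`;
* `twe_slf_exists_frame` : a Hecke frame on `ker ((ℤ/M)ˣ → Δ_Q)`, `M = N ∏ Q`;
* `twe_slf_level`        : `∃ B full, ∀ Q, Nonempty (twe_Level B p Q)`.
-/

set_option autoImplicit false
set_option linter.unusedSectionVars false
set_option linter.unusedVariables false
set_option linter.overlappingInstances false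
set_option maxHeartbeats 1000000

noncomputable section

namespace Fermat.Agent.TW

open IsLocalRing Polynomial CuspForm Fermat.Agent.JT3 Fermat.Agent.LR CongruenceSubgroup
open scoped MatrixGroups

/-- `p` does not divide the balanced level. -/
theorem twe_slf_not_dvd_Nbal {k : Type} [Field k] {N : ℕ} [NeZero N] {S : Finset ℕ}
    {θ : heckeAlgebra N 2 (↑S : Set ℕ) →+* k} {p : ℕ} (hp : p.Prime) {Q : Finset ℕ}
    (hpN : ¬ p ∣ N) (hpS : p ∈ S) (hQS : ∀ t ∈ Q, t ∉ S) (hTW : twe_IsTWSet θ p Q) :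
    ¬ p ∣ twe_Nbal N Q ∅ := by
  intro h
  unfold twe_Nbal at h
  rw [Finset.prod_empty, mul_one] at h
  rcases (Nat.Prime.dvd_mul hp).1 h with h3 | h3
  · exact hpN h3
  · obtain ⟨t, ht, hdvd⟩ := (Prime.dvd_finsetProd_iff (Nat.Prime.prime hp) _).1 h3
    have h4 : p ∣ t := Nat.Prime.dvd_of_dvd_pow hp hdvd
    have h5 : p = t := (Nat.prime_dvd_prime_iff_eq hp (hTW t ht).1).1 h4
    exact hQS t ht (h5 ▸ hpS)

/-- lifts of an eigensystem exist. -/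
theorem twe_slf_exists_lift {𝒪 : Type} [CommRing 𝒪] [IsDomain 𝒪] [IsDiscreteValuationRing 𝒪]
    [IsAdicComplete (maximalIdeal 𝒪) 𝒪] {A : ℕ} [NeZero A] {S₁ : Finset ℕ}
    (θ₁ : heckeAlgebra A 2 (↑S₁ : Set ℕ) →+* ResidueField 𝒪) :
    ∃ a : twe_sm_Idx A S₁ → 𝒪, twe_sm_IsLift θ₁ a := by
  choose a ha using fun ℓ : twe_sm_Idx A S₁ =>
    residue_surjective (θ₁ (heckeAlgebra.T ℓ.2.1 ℓ.2.2.1 ℓ.2.2.2))
  exact ⟨a, ha⟩

section main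

variable {p : ℕ} [Fact p.Prime]
  {𝒪 : Type} [CommRing 𝒪] [IsDomain 𝒪] [IsDiscreteValuationRing 𝒪]
  [IsAdicComplete (maximalIdeal 𝒪) 𝒪] [Finite (ResidueField 𝒪)] [CharZero 𝒪]
  {N : ℕ} [NeZero N] {S : Finset ℕ} {θ : heckeAlgebra N 2 (↑S : Set ℕ) →+* ResidueField 𝒪}

/-- **(C1) at the balanced level** `(twe_Nbal N Q ∅, S ∪ Q)`. -/
theorem twe_slf_base (hp5 : 5 ≤ p) (hp𝒪 : (p : 𝒪) ∈ maximalIdeal 𝒪)
    (hpN : ¬ p ∣ N) (hpS : p ∈ S) (hNS : ∀ ℓ : ℕ, ℓ.Prime → ℓ ∣ N → ℓ ∈ S)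
    (ρbar : ResidualGaloisRep (ResidueField 𝒪)) (hcompat : twt_Compat θ ρbar)
    (hirr : ρbar.IsAbsolutelyIrreducible)
    (Q : Finset ℕ) [NeZero (twe_Nbal N Q ∅)] (hQS : ∀ t ∈ Q, t ∉ S) (hTW : twe_IsTWSet θ p Q) :
    ∃ θ' : heckeAlgebra (twe_Nbal N Q ∅) 2 (↑(S ∪ Q) : Set ℕ) →+* ResidueField 𝒪,
      (∀ (ℓ : ℕ) (hℓ : ℓ.Prime) (h1 : ¬ ℓ ∣ twe_Nbal N Q ∅) (h2 : ℓ ∉ (↑(S ∪ Q) : Set ℕ))
        (h3 : ¬ ℓ ∣ N) (h4 : ℓ ∉ (↑S : Set ℕ)),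
        θ' (heckeAlgebra.T hℓ h1 h2) = θ (heckeAlgebra.T hℓ h3 h4)) ∧
      twt_Compat θ' ρbar ∧ ∃ B' : twe_Base 𝒪 (twe_Nbal N Q ∅) (S ∪ Q) θ', B'.IsFull :=
  twe_sg_base_at twe_dt_M1F p hp5 𝒪 hp𝒪 N S θ ρbar hcompat hirr (twe_Nbal N Q ∅)
    (twe_sli_dvd_Nbal N Q) (twe_slf_not_dvd_Nbal Fact.out hpN hpS hQS hTW) (S ∪ Q)
    Finset.subset_union_left (Finset.mem_union_left _ hpS)
    (twe_sli_hNS' hNS fun t ht => (hTW t ht).1)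

/-- **a Hecke frame** on `H' = ker ((ℤ/M)ˣ → Δ_Q)` over the good primes of the balanced level. -/
theorem twe_slf_exists_frame (hp5 : 5 ≤ p) (Q : Finset ℕ) {M : ℕ} (hM : M = N * ∏ t ∈ Q, t)
    (hQp : ∀ t ∈ Q, t.Prime) (hQM : ∀ t ∈ Q, t ∣ M) :
    Nonempty (twe_sm_Frame M (twe_di_hom p Q M hQp hQM).ker
      (twe_sm_q (twe_Nbal N Q ∅) (S ∪ Q))) :=
  twe_fx_frame_pow M (twe_di_hom p Q M hQp hQM).ker
    (twe_sm_q (twe_Nbal N Q ∅) (S ∪ Q)) (fun i => i.2.1)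
    (fun i => twe_slc_not_dvd i.2 hM) (p := p) (n := twe_di_exp p Q)
    ((Fact.out : p.Prime).odd_of_ne_two (by omega))
    (fun u => MonoidHom.mem_ker.2 (twe_di_hom_pow_exp_mem p Q M hQp hQM u))

end main

/-- **the unipotent half of (M2)**: ONE full base package, and over it the unipotent system at every
Taylor–Wiles set. -/
theorem twe_slf_level :
    ∀ (p : ℕ) [Fact p.Prime], 5 ≤ p →
    ∀ (𝒪 : Type) [CommRing 𝒪] [IsDomain 𝒪] [IsDiscreteValuationRing 𝒪]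
      [IsAdicComplete (maximalIdeal 𝒪) 𝒪] [Finite (ResidueField 𝒪)] [CharZero 𝒪],
      (p : 𝒪) ∈ maximalIdeal 𝒪 →
    ∀ (N : ℕ) [NeZero N], Squarefree N → ¬ p ∣ N →
    ∀ (S : Finset ℕ), p ∈ S → (∀ ℓ : ℕ, ℓ.Prime → ℓ ∣ N → ℓ ∈ S) →
    ∀ (θ : heckeAlgebra N 2 (↑S : Set ℕ) →+* ResidueField 𝒪)
      (ρbar : ResidualGaloisRep (ResidueField 𝒪)),
      twt_Compat θ ρbar → ρbar.IsAbsolutelyIrreducible →
      ∃ B : twe_Base 𝒪 N S θ, B.IsFull ∧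
        ∀ (Q : Finset ℕ) [NeZero (twe_Nbal N Q ∅)], (∀ t ∈ Q, t ∉ S) → twe_IsTWSet θ p Q →
          Nonempty (twe_Level B p Q) := by
  intro p _ hp5 𝒪 _ _ _ _ _ _ hp𝒪 N _ hsq hpN S hpS hNS θ ρbar hcompat hirr
  obtain ⟨B, hfull⟩ := twe_dt_M1F p hp5 𝒪 hp𝒪 N hpN S hpS hNS θ ρbar hcompat hirr
  refine ⟨B, hfull, fun Q _ hQS hTW => ?_⟩
  have hQp : ∀ t ∈ Q, t.Prime := fun t ht => (hTW t ht).1
  obtain ⟨θ', θ'_eq, -, B', hfull'⟩ := twe_slf_base hp5 hp𝒪 hpN hpS hNS ρbar hcompat hirr Q hQS hTW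
  have hM0 : N * ∏ t ∈ Q, t ≠ 0 :=
    mul_ne_zero (NeZero.ne N) (Finset.prod_ne_zero_iff.2 fun t ht => (hQp t ht).ne_zero)
  have : NeZero (N * ∏ t ∈ Q, t) := ⟨hM0⟩
  have hM : N * ∏ t ∈ Q, t = N * ∏ t ∈ Q, t := rfl
  have hQM := twe_sli_dvd_M hM
  obtain ⟨F⟩ := twe_slf_exists_frame (p := p) (N := N) (S := S) hp5 Q hM hQp hQM
  obtain ⟨a, ha⟩ := twe_slf_exists_lift θ'
  exact ⟨(twe_sli_data hp5 hp𝒪 hsq hpN hpS hNS ρbar hcompat hirr B hfull Q hQS hTW θ' θ'_eq B'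
    hfull' hM hQp hQM F a ha).toLevel⟩

end Fermat.Agent.TW
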