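import Mathlib
import Fermat.Agent.TW.Aut.SeamDefs
import Fermat.Agent.TW.Aut.HeckeIndep
import Fermat.Agent.TW.Aut.FrameExists

/-!
# ONE MACHINE / block [E] AUT, E/Seam: the `θ`-primary part does not depend on the index family,
on the lifts, or on the Hecke frame (helper6)

Prefix `twe_pif_`.  In `twe_M2LG2_stmt` the unipotent system `L` is chosen BEFORE the set `Th`, so
the module `L.M = prim (twe_sm_TY 𝒪 F_L) a_L` (index family `twe_sm_q (Nbal N Q ∅) (S ∪ Q)`, frame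
`F_L`, lifts `a_L`) has to be recognised as the target `prim (twe_sm_TY 𝒪 (mono F_B)) a_B` of the
relative transfer of the big system (index family `twe_sm_q (Nbal N Q Th) (S ∪ Q)`).

* `twe_pif_shift`     : topological nilpotence of `N` at `x` gives that of `N + δ`, `δ ∈ J`;
* `twe_pif_le/_eq`    : ABSTRACT: `prim T₁ a₁ ≤ prim T₂ a₂` as soon as every `T₂ i₂` is some `T₁ i₁`
                        with `a₁ i₁ ≡ a₂ i₂` modulo `𝔪`;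
* (FI) = helper24's `twe_hi_TY_indep` (`TW/Aut/HeckeIndep.lean`);
* `twe_pif_comap`     : reindexing of a frame along a map of index families, `twe_pif_comap_TY`,
                        `twe_pif_comap_prim`;
* `twe_pif_frame_le/_eq` : the frame form;
* `twe_pif_seam`      : the seam instance (two balanced levels with the same good primes);
* `twe_pif_seamEquiv` : the corresponding `LinearEquiv`, with its coercion lemma.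
-/

set_option autoImplicit false
set_option linter.unusedSectionVars false
set_option linter.unusedVariables false

noncomputable section

namespace Fermat.Agent.TW

open IsLocalRing CuspForm CongruenceSubgroup Fermat.Agent.JT3
open scoped MatrixGroups

section abs

variable {𝒪 : Type*} [CommRing 𝒪] {X : Type*} [AddCommGroup X] [Module 𝒪 X]

/-- shift of the eigenvalue inside an ideal. -/
theorem twe_pif_shift (J : Ideal 𝒪) (N : Module.End 𝒪 X) (δ : 𝒪) (hδ : δ ∈ J) (x : X) (k n₀ : ℕ)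
    (hx : (N ^ n₀) x ∈ (J ^ k) • (⊤ : Submodule 𝒪 X)) :
    ((N + δ • (1 : Module.End 𝒪 X)) ^ (n₀ + k)) x ∈ (J ^ k) • (⊤ : Submodule 𝒪 X) := by
  have hc : Commute N (δ • (1 : Module.End 𝒪 X)) := (Commute.one_right N).smul_right δ
  rw [hc.add_pow, LinearMap.sum_apply]
  refine Submodule.sum_mem _ fun m hm => ?_
  have h1 : (N ^ m * (δ • (1 : Module.End 𝒪 X)) ^ (n₀ + k - m) *
      (((n₀ + k).choose m : ℕ) : Module.End 𝒪 X)) x =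
      δ ^ (n₀ + k - m) • ((n₀ + k).choose m • (N ^ m) x) := by
    rw [Module.End.mul_apply, Module.End.mul_apply, _root_.smul_pow, one_pow, LinearMap.smul_apply,
      Module.End.one_apply, Module.End.natCast_apply, map_smul, map_nsmul]
  rw [h1]
  by_cases hmn : n₀ ≤ m
  · refine Submodule.smul_mem _ _ (Submodule.smul_of_tower_mem _ _ ?_)
    have h2 : (N ^ m) x = (N ^ (m - n₀)) ((N ^ n₀) x) := by
      rw [← Module.End.mul_apply, ← pow_add, Nat.sub_add_cancel hmn]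
    rw [h2]
    refine Submodule.smul_induction_on hx (fun r hr y _ => ?_) (fun u v hu hv => ?_)
    · rw [map_smul]
      exact Submodule.smul_mem_smul hr Submodule.mem_top
    · rw [map_add]
      exact Submodule.add_mem _ hu hv
  · have h3 : δ ^ (n₀ + k - m) ∈ J ^ k :=
      Ideal.pow_le_pow_right (by omega) (Ideal.pow_mem_pow hδ _)
    exact Submodule.smul_mem_smul h3 Submodule.mem_top

variable [IsLocalRing 𝒪] {L₁ L₂ : Type*}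

/-- **(PI), abstract form**: the primary part only depends on the SET of operators and on the
lifts modulo `𝔪`. -/
theorem twe_pif_le (T₁ : L₁ → Module.End 𝒪 X) (T₂ : L₂ → Module.End 𝒪 X)
    (a₁ : L₁ → 𝒪) (a₂ : L₂ → 𝒪)
    (h : ∀ i₂, ∃ i₁, T₁ i₁ = T₂ i₂ ∧ a₁ i₁ - a₂ i₂ ∈ maximalIdeal 𝒪) :
    twe_pr_prim T₁ a₁ ≤ twe_pr_prim T₂ a₂ := by
  intro x hx i₂ k
  obtain ⟨i₁, hT, ha⟩ := h i₂
  obtain ⟨n₀, hn₀⟩ := hx i₁ k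
  refine ⟨n₀ + k, ?_⟩
  have e : T₂ i₂ - a₂ i₂ • (1 : Module.End 𝒪 X) =
      (T₁ i₁ - a₁ i₁ • (1 : Module.End 𝒪 X)) + (a₁ i₁ - a₂ i₂) • (1 : Module.End 𝒪 X) := by
    rw [hT, sub_smul]
    abel
  rw [e]
  exact twe_pif_shift _ _ _ ha x k n₀ hn₀

theorem twe_pif_eq (T₁ : L₁ → Module.End 𝒪 X) (T₂ : L₂ → Module.End 𝒪 X)
    (a₁ : L₁ → 𝒪) (a₂ : L₂ → 𝒪)
    (h12 : ∀ i₂, ∃ i₁, T₁ i₁ = T₂ i₂ ∧ a₁ i₁ - a₂ i₂ ∈ maximalIdeal 𝒪)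
    (h21 : ∀ i₁, ∃ i₂, T₂ i₂ = T₁ i₁ ∧ a₂ i₂ - a₁ i₁ ∈ maximalIdeal 𝒪) :
    twe_pr_prim T₁ a₁ = twe_pr_prim T₂ a₂ :=
  le_antisymm (twe_pif_le T₁ T₂ a₁ a₂ h12) (twe_pif_le T₂ T₁ a₂ a₁ h21)

/-- the primary part does not depend on the lifts (same index family). -/
theorem twe_pif_lifts (T : L₁ → Module.End 𝒪 X) (a a' : L₁ → 𝒪)
    (h : ∀ i, a i - a' i ∈ maximalIdeal 𝒪) : twe_pr_prim T a = twe_pr_prim T a' :=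
  twe_pif_eq T T a a' (fun i => ⟨i, rfl, h i⟩) (fun i => ⟨i, rfl, by
    have := neg_mem (h i)
    rwa [neg_sub] at this⟩)

end abs

section frame

variable {𝒪 : Type*} [CommRing 𝒪] [IsLocalRing 𝒪] {M : ℕ} {H : Subgroup (ZMod M)ˣ}
  {I₁ I₂ : Type*} {q₁ : I₁ → ℕ} {q₂ : I₂ → ℕ}

/-- **(PI), frame form**. -/
theorem twe_pif_frame_le (F₁ : twe_sm_Frame M H q₁) (F₂ : twe_sm_Frame M H q₂) {m : ℕ}
    (hm : Odd m) (hH : ∀ u : (ZMod M)ˣ, u ^ m ∈ H) (a₁ : I₁ → 𝒪) (a₂ : I₂ → 𝒪)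
    (h : ∀ i₂, ∃ i₁, q₁ i₁ = q₂ i₂ ∧ a₁ i₁ - a₂ i₂ ∈ maximalIdeal 𝒪) :
    twe_pr_prim (twe_sm_TY 𝒪 F₁) a₁ ≤ twe_pr_prim (twe_sm_TY 𝒪 F₂) a₂ :=
  twe_pif_le _ _ a₁ a₂ fun i₂ => by
    obtain ⟨i₁, hq, ha⟩ := h i₂
    exact ⟨i₁, twe_hi_TY_indep 𝒪 F₁ F₂ hm hH i₁ i₂ hq, ha⟩

theorem twe_pif_frame_eq (F₁ : twe_sm_Frame M H q₁) (F₂ : twe_sm_Frame M H q₂) {m : ℕ}
    (hm : Odd m) (hH : ∀ u : (ZMod M)ˣ, u ^ m ∈ H) (a₁ : I₁ → 𝒪) (a₂ : I₂ → 𝒪)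
    (h12 : ∀ i₂, ∃ i₁, q₁ i₁ = q₂ i₂ ∧ a₁ i₁ - a₂ i₂ ∈ maximalIdeal 𝒪)
    (h21 : ∀ i₁, ∃ i₂, q₂ i₂ = q₁ i₁ ∧ a₂ i₂ - a₁ i₁ ∈ maximalIdeal 𝒪) :
    twe_pr_prim (twe_sm_TY 𝒪 F₁) a₁ = twe_pr_prim (twe_sm_TY 𝒪 F₂) a₂ :=
  le_antisymm (twe_pif_frame_le F₁ F₂ hm hH a₁ a₂ h12) (twe_pif_frame_le F₂ F₁ hm hH a₂ a₁ h21)

end frame

section comap

variable {M : ℕ} {H : Subgroup (ZMod M)ˣ} {I₁ I₂ : Type*} {q₁ : I₁ → ℕ} {q₂ : I₂ → ℕ}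

/-- transport of the frame condition along an equality of primes. -/
theorem twe_pif_hs_cast {ℓ ℓ' : ℕ} (h : ℓ' = ℓ) (i : Fact ℓ.Prime) (i' : Fact ℓ'.Prime)
    (hM : ¬ ℓ ∣ M) (hM' : ¬ ℓ' ∣ M) (s : Gamma0 M)
    (hs : twe_dUnit M s * twe_dUnit M s * (@twe_hk_lU M ℓ' i' hM')⁻¹ ∈ H) :
    twe_dUnit M s * twe_dUnit M s * (@twe_hk_lU M ℓ i hM)⁻¹ ∈ H := by
  subst h
  exact hs

/-- **reindexing of a frame** along a map `f` of index families with `q₂ ∘ f = q₁` (the same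
square roots `s`). -/
def twe_pif_comap (F₂ : twe_sm_Frame M H q₂) (f : I₁ → I₂) (hf : ∀ i, q₂ (f i) = q₁ i) :
    twe_sm_Frame M H q₁ where
  hq i := hf i ▸ F₂.hq (f i)
  hM i := hf i ▸ F₂.hM (f i)
  s i := F₂.s (f i)
  hs i := twe_pif_hs_cast (hf i) _ _ _ _ _ (F₂.hs (f i))

@[simp] theorem twe_pif_comap_s (F₂ : twe_sm_Frame M H q₂) (f : I₁ → I₂)
    (hf : ∀ i, q₂ (f i) = q₁ i) (i : I₁) : (twe_pif_comap F₂ f hf).s i = F₂.s (f i) := rfl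

/-- the operators of the reindexed frame. -/
theorem twe_pif_comap_TY (𝒪 : Type*) [CommRing 𝒪] (F₂ : twe_sm_Frame M H q₂) (f : I₁ → I₂)
    (hf : ∀ i, q₂ (f i) = q₁ i) (i : I₁) :
    twe_sm_TY 𝒪 (twe_pif_comap F₂ f hf) i = twe_sm_TY 𝒪 F₂ (f i) := by
  unfold twe_sm_TY
  have key : ∀ (ℓ ℓ' : ℕ) (hℓ : Fact ℓ.Prime) (hℓ' : Fact ℓ'.Prime) (hM : ¬ ℓ ∣ M)
      (hM' : ¬ ℓ' ∣ M) (s : Gamma0 M)
      (hs : twe_dUnit M s * twe_dUnit M s * (@twe_hk_lU M ℓ hℓ hM)⁻¹ ∈ H)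
      (hs' : twe_dUnit M s * twe_dUnit M s * (@twe_hk_lU M ℓ' hℓ' hM')⁻¹ ∈ H), ℓ = ℓ' →
      @twe_wl_T 𝒪 _ 𝒪 _ _ M ℓ hℓ hM H s hs = @twe_wl_T 𝒪 _ 𝒪 _ _ M ℓ' hℓ' hM' H s hs' := by
    intro ℓ ℓ' hℓ hℓ' hM hM' s hs hs' hll
    subst hll
    rfl
  exact key _ _ _ _ _ _ _ _ _ (hf i).symm

/-- **the primary part of the reindexed frame** (`f` surjective, lifts congruent modulo `𝔪`). -/
theorem twe_pif_comap_prim {𝒪 : Type*} [CommRing 𝒪] [IsLocalRing 𝒪] (F₂ : twe_sm_Frame M H q₂)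
    (f : I₁ → I₂) (hf : ∀ i, q₂ (f i) = q₁ i) (hsurj : Function.Surjective f)
    (a₁ : I₁ → 𝒪) (a₂ : I₂ → 𝒪) (ha : ∀ i, a₁ i - a₂ (f i) ∈ maximalIdeal 𝒪) :
    twe_pr_prim (twe_sm_TY 𝒪 (twe_pif_comap F₂ f hf)) a₁ = twe_pr_prim (twe_sm_TY 𝒪 F₂) a₂ := by
  refine twe_pif_eq _ _ a₁ a₂ (fun i₂ => ?_) (fun i₁ => ?_)
  · obtain ⟨i₁, rfl⟩ := hsurj i₂
    exact ⟨i₁, twe_pif_comap_TY 𝒪 F₂ f hf i₁, ha i₁⟩
  · refine ⟨f i₁, (twe_pif_comap_TY 𝒪 F₂ f hf i₁).symm, ?_⟩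
    have := neg_mem (ha i₁)
    rwa [neg_sub] at this

end comap

section seam

variable {𝒪 : Type} [CommRing 𝒪] [IsDomain 𝒪] [IsDiscreteValuationRing 𝒪]
  [IsAdicComplete (maximalIdeal 𝒪) 𝒪]
  {A' A'' : ℕ} [NeZero A'] [NeZero A''] {S₁ : Finset ℕ}
  {θ' : heckeAlgebra A' 2 (↑S₁ : Set ℕ) →+* ResidueField 𝒪}
  {θ'' : heckeAlgebra A'' 2 (↑S₁ : Set ℕ) →+* ResidueField 𝒪}
  {M : ℕ} {H : Subgroup (ZMod M)ˣ}

/-- **(PI), the seam instance**: two balanced levels `A'`, `A''` with the same good primes, eigen-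
systems agreeing on the common `T_ℓ`, two frames at the same `(M, H)` and two families of lifts:
the two `θ`-primary parts of `W(Γ_H, 𝒪)` coincide. -/
theorem twe_pif_seam (hgood : ∀ ℓ, pk_Good A' S₁ ℓ ↔ pk_Good A'' S₁ ℓ)
    (hθ : ∀ (ℓ : ℕ) (hℓ : ℓ.Prime) (h1 : ¬ ℓ ∣ A'') (h2 : ℓ ∉ (↑S₁ : Set ℕ)) (h3 : ¬ ℓ ∣ A'),
      θ'' (heckeAlgebra.T hℓ h1 h2) = θ' (heckeAlgebra.T hℓ h3 h2))
    (F' : twe_sm_Frame M H (twe_sm_q A' S₁)) (F'' : twe_sm_Frame M H (twe_sm_q A'' S₁)) {m : ℕ}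
    (hm : Odd m) (hH : ∀ u : (ZMod M)ˣ, u ^ m ∈ H)
    (a' : twe_sm_Idx A' S₁ → 𝒪) (ha' : twe_sm_IsLift θ' a')
    (a'' : twe_sm_Idx A'' S₁ → 𝒪) (ha'' : twe_sm_IsLift θ'' a'') :
    twe_pr_prim (twe_sm_TY 𝒪 F'') a'' = twe_pr_prim (twe_sm_TY 𝒪 F') a' := by
  have key : ∀ (i' : twe_sm_Idx A' S₁) (i'' : twe_sm_Idx A'' S₁), i''.1 = i'.1 →
      a'' i'' - a' i' ∈ maximalIdeal 𝒪 := by
    rintro ⟨ℓ, hℓ⟩ ⟨ℓ', hℓ'⟩ (rfl : ℓ' = ℓ)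
    rw [← residue_eq_zero_iff, map_sub, sub_eq_zero, ha'' ⟨ℓ', hℓ'⟩, ha' ⟨ℓ', hℓ⟩]
    exact hθ ℓ' hℓ'.1 hℓ'.2.1 hℓ'.2.2 hℓ.2.1
  refine twe_pif_frame_eq F'' F' hm hH a'' a' (fun i' => ?_) (fun i'' => ?_)
  · exact ⟨⟨i'.1, (hgood i'.1).1 i'.2⟩, rfl, key i' ⟨i'.1, (hgood i'.1).1 i'.2⟩ rfl⟩
  · refine ⟨⟨i''.1, (hgood i''.1).2 i''.2⟩, rfl, ?_⟩
    have := neg_mem (key ⟨i''.1, (hgood i''.1).2 i''.2⟩ i'' rfl)
    rwa [neg_sub] at this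

/-- the corresponding linear equivalence (the identity on `W(Γ_H, 𝒪)`). -/
def twe_pif_seamEquiv (hgood : ∀ ℓ, pk_Good A' S₁ ℓ ↔ pk_Good A'' S₁ ℓ)
    (hθ : ∀ (ℓ : ℕ) (hℓ : ℓ.Prime) (h1 : ¬ ℓ ∣ A'') (h2 : ℓ ∉ (↑S₁ : Set ℕ)) (h3 : ¬ ℓ ∣ A'),
      θ'' (heckeAlgebra.T hℓ h1 h2) = θ' (heckeAlgebra.T hℓ h3 h2))
    (F' : twe_sm_Frame M H (twe_sm_q A' S₁)) (F'' : twe_sm_Frame M H (twe_sm_q A'' S₁)) {m : ℕ}
    (hm : Odd m) (hH : ∀ u : (ZMod M)ˣ, u ^ m ∈ H)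
    (a' : twe_sm_Idx A' S₁ → 𝒪) (ha' : twe_sm_IsLift θ' a')
    (a'' : twe_sm_Idx A'' S₁ → 𝒪) (ha'' : twe_sm_IsLift θ'' a'') :
    ↥(twe_pr_prim (twe_sm_TY 𝒪 F'') a'') ≃ₗ[𝒪] ↥(twe_pr_prim (twe_sm_TY 𝒪 F') a') :=
  LinearEquiv.ofEq _ _ (twe_pif_seam hgood hθ F' F'' hm hH a' ha' a'' ha'')

@[simp] theorem twe_pif_seamEquiv_coe (hgood : ∀ ℓ, pk_Good A' S₁ ℓ ↔ pk_Good A'' S₁ ℓ)
    (hθ : ∀ (ℓ : ℕ) (hℓ : ℓ.Prime) (h1 : ¬ ℓ ∣ A'') (h2 : ℓ ∉ (↑S₁ : Set ℕ)) (h3 : ¬ ℓ ∣ A'),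
      θ'' (heckeAlgebra.T hℓ h1 h2) = θ' (heckeAlgebra.T hℓ h3 h2))
    (F' : twe_sm_Frame M H (twe_sm_q A' S₁)) (F'' : twe_sm_Frame M H (twe_sm_q A'' S₁)) {m : ℕ}
    (hm : Odd m) (hH : ∀ u : (ZMod M)ˣ, u ^ m ∈ H)
    (a' : twe_sm_Idx A' S₁ → 𝒪) (ha' : twe_sm_IsLift θ' a')
    (a'' : twe_sm_Idx A'' S₁ → 𝒪) (ha'' : twe_sm_IsLift θ'' a'')
    (y : ↥(twe_pr_prim (twe_sm_TY 𝒪 F'') a'')) :
    ((twe_pif_seamEquiv hgood hθ F' F'' hm hH a' ha' a'' ha'' y :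
      ↥(twe_pr_prim (twe_sm_TY 𝒪 F') a')) : ↥(twe_wl_V 𝒪 𝒪 (twe_GamH M H))) = y := rfl

/-- the seam equivalence intertwines the operators at the same prime. -/
theorem twe_pif_seam_TY (F' : twe_sm_Frame M H (twe_sm_q A' S₁))
    (F'' : twe_sm_Frame M H (twe_sm_q A'' S₁)) {m : ℕ}
    (hm : Odd m) (hH : ∀ u : (ZMod M)ˣ, u ^ m ∈ H)
    (i' : twe_sm_Idx A' S₁) (i'' : twe_sm_Idx A'' S₁) (h : i''.1 = i'.1)
    (z : ↥(twe_wl_V 𝒪 𝒪 (twe_GamH M H))) :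
    twe_sm_TY 𝒪 F'' i'' z = twe_sm_TY 𝒪 F' i' z := by
  rw [twe_hi_TY_indep 𝒪 F'' F' hm hH i'' i' h]

/-- the index map between the good primes of two levels. -/
def twe_pif_idx (hgood : ∀ ℓ, pk_Good A' S₁ ℓ ↔ pk_Good A'' S₁ ℓ) :
    twe_sm_Idx A' S₁ → twe_sm_Idx A'' S₁ := fun i => ⟨i.1, (hgood i.1).1 i.2⟩

@[simp] theorem twe_pif_idx_val (hgood : ∀ ℓ, pk_Good A' S₁ ℓ ↔ pk_Good A'' S₁ ℓ)
    (i : twe_sm_Idx A' S₁) : (twe_pif_idx hgood i).1 = i.1 := rfl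

theorem twe_pif_idx_surjective (hgood : ∀ ℓ, pk_Good A' S₁ ℓ ↔ pk_Good A'' S₁ ℓ) :
    Function.Surjective (twe_pif_idx hgood) :=
  fun i => ⟨⟨i.1, (hgood i.1).2 i.2⟩, rfl⟩

theorem twe_pif_idx_injective (hgood : ∀ ℓ, pk_Good A' S₁ ℓ ↔ pk_Good A'' S₁ ℓ) :
    Function.Injective (twe_pif_idx hgood) := by
  intro i j h
  have h1 : (twe_pif_idx hgood i).1 = (twe_pif_idx hgood j).1 := by rw [h]
  exact Subtype.ext h1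

/-- **ONE frame for both levels**: a frame over the good primes of `(A'', S₁)` reindexed over the
good primes of `(A', S₁)` (the same square roots). -/
def twe_pif_seamFrame (hgood : ∀ ℓ, pk_Good A' S₁ ℓ ↔ pk_Good A'' S₁ ℓ)
    (F'' : twe_sm_Frame M H (twe_sm_q A'' S₁)) : twe_sm_Frame M H (twe_sm_q A' S₁) :=
  twe_pif_comap F'' (twe_pif_idx hgood) (fun _ => rfl)

theorem twe_pif_seamFrame_TY (hgood : ∀ ℓ, pk_Good A' S₁ ℓ ↔ pk_Good A'' S₁ ℓ)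
    (F'' : twe_sm_Frame M H (twe_sm_q A'' S₁)) (i : twe_sm_Idx A' S₁) :
    twe_sm_TY 𝒪 (twe_pif_seamFrame hgood F'') i = twe_sm_TY 𝒪 F'' (twe_pif_idx hgood i) :=
  twe_pif_comap_TY 𝒪 F'' _ _ i

/-- the lifts at `(A', S₁)` induced by lifts at `(A'', S₁)`. -/
theorem twe_pif_isLift_comp (hgood : ∀ ℓ, pk_Good A' S₁ ℓ ↔ pk_Good A'' S₁ ℓ)
    (hθ : ∀ (ℓ : ℕ) (hℓ : ℓ.Prime) (h1 : ¬ ℓ ∣ A'') (h2 : ℓ ∉ (↑S₁ : Set ℕ)) (h3 : ¬ ℓ ∣ A'),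
      θ'' (heckeAlgebra.T hℓ h1 h2) = θ' (heckeAlgebra.T hℓ h3 h2))
    (a'' : twe_sm_Idx A'' S₁ → 𝒪) (ha'' : twe_sm_IsLift θ'' a'') :
    twe_sm_IsLift θ' (a'' ∘ twe_pif_idx hgood) := by
  rintro ⟨ℓ, hℓ⟩
  rw [Function.comp_apply, ha'' (twe_pif_idx hgood ⟨ℓ, hℓ⟩)]
  exact hθ ℓ _ _ _ _

/-- **ONE frame, ONE family of lifts**: with the reindexed frame and the composed lifts the two
primary parts coincide (no hypothesis on `H`). -/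
theorem twe_pif_seamFrame_prim (hgood : ∀ ℓ, pk_Good A' S₁ ℓ ↔ pk_Good A'' S₁ ℓ)
    (F'' : twe_sm_Frame M H (twe_sm_q A'' S₁)) (a'' : twe_sm_Idx A'' S₁ → 𝒪) :
    twe_pr_prim (twe_sm_TY 𝒪 (twe_pif_seamFrame hgood F'')) (a'' ∘ twe_pif_idx hgood) =
      twe_pr_prim (twe_sm_TY 𝒪 F'') a'' :=
  twe_pif_comap_prim F'' _ _ (twe_pif_idx_surjective hgood) _ a''
    (fun i => by rw [Function.comp_apply, sub_self]; exact zero_mem _)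

end seam

end Fermat.Agent.TW
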