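import Mathlib
import Fermat.Agent.TW.Aut.SeamLevelFinal
import Fermat.Agent.TW.Aut.SeamBigC
import Fermat.Agent.TW.Aut.PrimIndepFrame
import Fermat.Agent.TW.Aut.SeamRelInst

/-!
# ONE MACHINE / block [E] AUT, E/Seam: the level data and the big data for the concrete
Taylor–Wiles data, ONE frame at the big level (helper14)

Prefix `twe_sbi_`.  Inputs: the TW data `(B full, Q, Th)`, the full base packages `B'`, `B''` of the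
two balanced levels with their eigensystems, ONE Hecke frame `F''` on
`H'' = ker ((ℤ/M)ˣ → Δ_Q × Δ_Th)` over the good primes of the big level, lifts `a''` of `θ''`.

* `twe_sbi_level` : the level data (`twe_sli_data` on the frame `F''` viewed at `H'` and reindexed);
* `twe_sbi_data`  : the big data over `(twe_sbi_level …).toLevel` (`twe_sbc_data`, every side
  condition discharged).
-/

set_option autoImplicit false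
set_option linter.unusedSectionVars false
set_option linter.unusedVariables false
set_option linter.overlappingInstances false
set_option linter.style.haveILetI false
set_option synthInstance.maxHeartbeats 400000
set_option maxHeartbeats 1000000

noncomputable section

namespace Fermat.Agent.TW

open IsLocalRing Polynomial CuspForm Fermat.Agent.JT3 Fermat.Agent.LR CongruenceSubgroup
open Fermat.Agent.S56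
open scoped MatrixGroups

section arith

variable {N : ℕ} {S Q Th : Finset ℕ}

theorem twe_sbi_Nbal_eq (N : ℕ) (Q Th : Finset ℕ) :
    twe_Nbal N Q Th = twe_Nbal N Q ∅ * ∏ ℓ ∈ Th, ℓ := by
  unfold twe_Nbal
  rw [Finset.prod_empty, mul_one]

theorem twe_sbi_dvd (N : ℕ) (Q Th : Finset ℕ) : twe_Nbal N Q ∅ ∣ twe_Nbal N Q Th :=
  ⟨∏ ℓ ∈ Th, ℓ, twe_sbi_Nbal_eq N Q Th⟩

theorem twe_sbi_dvd_N (N : ℕ) (Q Th : Finset ℕ) : N ∣ twe_Nbal N Q Th :=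
  dvd_trans (twe_sli_dvd_Nbal N Q) (twe_sbi_dvd N Q Th)

/-- a prime dividing the big balanced level divides the small one or lies in `Th`. -/
theorem twe_sbi_prime_dvd {ℓ : ℕ} (hℓ : ℓ.Prime) (hThp : ∀ t ∈ Th, t.Prime)
    (h : ℓ ∣ twe_Nbal N Q Th) : ℓ ∣ twe_Nbal N Q ∅ ∨ ℓ ∈ Th := by
  rw [twe_sbi_Nbal_eq] at h
  rcases (Nat.Prime.dvd_mul hℓ).1 h with h1 | h1
  · exact Or.inl h1
  · obtain ⟨t, ht, hdvd⟩ := (Prime.dvd_finsetProd_iff (Nat.Prime.prime hℓ) _).1 h1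
    have h3 : ℓ = t := (Nat.prime_dvd_prime_iff_eq hℓ (hThp t ht)).1 hdvd
    exact Or.inr (h3 ▸ ht)

/-- the primes of the big balanced level lie in `S ∪ Q`. -/
theorem twe_sbi_hNS'' (hNS : ∀ ℓ : ℕ, ℓ.Prime → ℓ ∣ N → ℓ ∈ S) (hQp : ∀ t ∈ Q, t.Prime)
    (hTh : ∀ ℓ ∈ Th, ℓ.Prime ∧ ℓ ∣ N) :
    ∀ ℓ : ℕ, ℓ.Prime → ℓ ∣ twe_Nbal N Q Th → ℓ ∈ S ∪ Q := by
  intro ℓ hℓ h
  rcases twe_sbi_prime_dvd hℓ (fun t ht => (hTh t ht).1) h with h1 | h1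
  · exact twe_sli_hNS' hNS hQp ℓ hℓ h1
  · exact Finset.mem_union_left _ (hNS ℓ hℓ (hTh ℓ h1).2)

/-- the two balanced levels have the same good primes. -/
theorem twe_sbi_hgood (hNS : ∀ ℓ : ℕ, ℓ.Prime → ℓ ∣ N → ℓ ∈ S)
    (hTh : ∀ ℓ ∈ Th, ℓ.Prime ∧ ℓ ∣ N) :
    ∀ ℓ, pk_Good (twe_Nbal N Q ∅) (S ∪ Q) ℓ ↔ pk_Good (twe_Nbal N Q Th) (S ∪ Q) ℓ := by
  intro ℓ
  constructor
  · intro h
    refine ⟨h.1, fun hd => ?_, h.2.2⟩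
    rcases twe_sbi_prime_dvd h.1 (fun t ht => (hTh t ht).1) hd with h1 | h1
    · exact h.2.1 h1
    · exact h.2.2 (Finset.mem_coe.2 (Finset.mem_union_left _ (hNS ℓ h.1 (hTh ℓ h1).2)))
  · intro h
    exact ⟨h.1, fun hd => h.2.1 (dvd_trans hd (twe_sbi_dvd N Q Th)), h.2.2⟩

/-- `Q` and `Th` are disjoint. -/
theorem twe_sbi_disjoint (hQ : ∀ t ∈ Q, t.Prime ∧ ¬ t ∣ N) (hTh : ∀ ℓ ∈ Th, ℓ.Prime ∧ ℓ ∣ N) :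
    Disjoint Q Th :=
  Finset.disjoint_left.2 fun t h1 h2 => (hQ t h1).2 (hTh t h2).2

theorem twe_sbi_dvd_M_Th (hTh : ∀ ℓ ∈ Th, ℓ.Prime ∧ ℓ ∣ N) {M : ℕ} (hM : M = N * ∏ t ∈ Q, t) :
    ∀ t ∈ Th, t ∣ M := by
  intro t ht
  rw [hM]
  exact Dvd.dvd.mul_right (hTh t ht).2 _

/-- `p` does not divide the big balanced level. -/
theorem twe_sbi_not_dvd_Nbal {k : Type} [Field k] [NeZero N]
    {θ : heckeAlgebra N 2 (↑S : Set ℕ) →+* k} {p : ℕ} (hp : p.Prime)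
    (hpN : ¬ p ∣ N) (hpS : p ∈ S) (hQS : ∀ t ∈ Q, t ∉ S) (hTW : twe_IsTWSet θ p Q)
    (hTh : ∀ ℓ ∈ Th, ℓ.Prime ∧ ℓ ∣ N) : ¬ p ∣ twe_Nbal N Q Th := by
  intro h
  rcases twe_sbi_prime_dvd hp (fun t ht => (hTh t ht).1) h with h1 | h1
  · exact twe_slf_not_dvd_Nbal hp hpN hpS hQS hTW h1
  · exact hpN (hTh p h1).2

end arith

section exist

variable {p : ℕ} [Fact p.Prime]
  {𝒪 : Type} [CommRing 𝒪] [IsDomain 𝒪] [IsDiscreteValuationRing 𝒪]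
  [IsAdicComplete (maximalIdeal 𝒪) 𝒪] [Finite (ResidueField 𝒪)] [CharZero 𝒪]

/-- a non-Eisenstein good prime, at any level. -/
theorem twe_sbi_exists_i0 (hp5 : 5 ≤ p) (hp𝒪 : (p : 𝒪) ∈ maximalIdeal 𝒪)
    {A : ℕ} [NeZero A] {S₁ : Finset ℕ}
    (θ₁ : heckeAlgebra A 2 (↑S₁ : Set ℕ) →+* ResidueField 𝒪)
    (ρbar : ResidualGaloisRep (ResidueField 𝒪)) (hc₁ : twt_Compat θ₁ ρbar)
    (hirr : ρbar.IsAbsolutelyIrreducible)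
    (a : twe_sm_Idx A S₁ → 𝒪) (ha : twe_sm_IsLift θ₁ a) :
    ∃ i₀ : twe_sm_Idx A S₁, residue 𝒪 (a i₀) ≠ ((i₀.1 + 1 : ℕ) : ResidueField 𝒪) := by
  haveI : CharP (ResidueField 𝒪) p := s56a_charP p hp𝒪
  have hp : p.Prime := Fact.out
  have hp2 : p ≠ 2 := by omega
  obtain ⟨ℓ, hℓ, hℓN, hℓS, -, -, h1, h2⟩ := twe_ne_main_eis (p := p) hp2 θ₁ ρbar hc₁ hirr p hp.pos
    (dvd_refl p) ∅
  refine ⟨⟨ℓ, hℓ, hℓN, hℓS⟩, ?_⟩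
  rw [ha ⟨ℓ, hℓ, hℓN, hℓS⟩]
  intro h3
  apply h2
  rw [h3]
  push_cast
  rfl

variable {N : ℕ} [NeZero N] {S : Finset ℕ} {θ : heckeAlgebra N 2 (↑S : Set ℕ) →+* ResidueField 𝒪}

/-- **(C1) at the big balanced level** `(twe_Nbal N Q Th, S ∪ Q)`. -/
theorem twe_sbi_base (hp5 : 5 ≤ p) (hp𝒪 : (p : 𝒪) ∈ maximalIdeal 𝒪)
    (hpN : ¬ p ∣ N) (hpS : p ∈ S) (hNS : ∀ ℓ : ℕ, ℓ.Prime → ℓ ∣ N → ℓ ∈ S)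
    (ρbar : ResidualGaloisRep (ResidueField 𝒪)) (hcompat : twt_Compat θ ρbar)
    (hirr : ρbar.IsAbsolutelyIrreducible)
    (Q : Finset ℕ) (hQS : ∀ t ∈ Q, t ∉ S) (hTW : twe_IsTWSet θ p Q)
    (Th : Finset ℕ) [NeZero (twe_Nbal N Q Th)] (hTh : ∀ ℓ ∈ Th, ℓ.Prime ∧ ℓ ∣ N) :
    ∃ θ'' : heckeAlgebra (twe_Nbal N Q Th) 2 (↑(S ∪ Q) : Set ℕ) →+* ResidueField 𝒪,
      (∀ (ℓ : ℕ) (hℓ : ℓ.Prime) (h1 : ¬ ℓ ∣ twe_Nbal N Q Th) (h2 : ℓ ∉ (↑(S ∪ Q) : Set ℕ))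
        (h3 : ¬ ℓ ∣ N) (h4 : ℓ ∉ (↑S : Set ℕ)),
        θ'' (heckeAlgebra.T hℓ h1 h2) = θ (heckeAlgebra.T hℓ h3 h4)) ∧
      twt_Compat θ'' ρbar ∧ ∃ B'' : twe_Base 𝒪 (twe_Nbal N Q Th) (S ∪ Q) θ'', B''.IsFull :=
  twe_sg_base_at twe_dt_M1F p hp5 𝒪 hp𝒪 N S θ ρbar hcompat hirr (twe_Nbal N Q Th)
    (twe_sbi_dvd_N N Q Th) (twe_sbi_not_dvd_Nbal Fact.out hpN hpS hQS hTW hTh) (S ∪ Q)
    Finset.subset_union_left (Finset.mem_union_left _ hpS)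
    (twe_sbi_hNS'' hNS (fun t ht => (hTW t ht).1) hTh)

/-- the eigensystems of the two balanced levels agree on the common `T_ℓ`. -/
theorem twe_sbi_theta_eq (Q Th : Finset ℕ) [NeZero (twe_Nbal N Q ∅)] [NeZero (twe_Nbal N Q Th)]
    (θ' : heckeAlgebra (twe_Nbal N Q ∅) 2 (↑(S ∪ Q) : Set ℕ) →+* ResidueField 𝒪)
    (θ'_eq : ∀ (ℓ : ℕ) (hℓ : ℓ.Prime) (h1 : ¬ ℓ ∣ twe_Nbal N Q ∅) (h2 : ℓ ∉ (↑(S ∪ Q) : Set ℕ))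
      (h3 : ¬ ℓ ∣ N) (h4 : ℓ ∉ (↑S : Set ℕ)),
      θ' (heckeAlgebra.T hℓ h1 h2) = θ (heckeAlgebra.T hℓ h3 h4))
    (θ'' : heckeAlgebra (twe_Nbal N Q Th) 2 (↑(S ∪ Q) : Set ℕ) →+* ResidueField 𝒪)
    (θ''_eq : ∀ (ℓ : ℕ) (hℓ : ℓ.Prime) (h1 : ¬ ℓ ∣ twe_Nbal N Q Th) (h2 : ℓ ∉ (↑(S ∪ Q) : Set ℕ))
      (h3 : ¬ ℓ ∣ N) (h4 : ℓ ∉ (↑S : Set ℕ)),
      θ'' (heckeAlgebra.T hℓ h1 h2) = θ (heckeAlgebra.T hℓ h3 h4))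
    (ℓ : ℕ) (hℓ : ℓ.Prime) (h1 : ¬ ℓ ∣ twe_Nbal N Q Th) (h2 : ℓ ∉ (↑(S ∪ Q) : Set ℕ))
    (h3 : ¬ ℓ ∣ twe_Nbal N Q ∅) (h4 : ℓ ∉ (↑(S ∪ Q) : Set ℕ)) :
    θ'' (heckeAlgebra.T hℓ h1 h2) = θ' (heckeAlgebra.T hℓ h3 h4) := by
  have h5 : ¬ ℓ ∣ N := fun h => h3 (dvd_trans h (twe_sli_dvd_Nbal N Q))
  have h6 : ℓ ∉ (↑S : Set ℕ) := fun h => h2 (Finset.coe_subset.mpr Finset.subset_union_left h)
  rw [θ''_eq ℓ hℓ h1 h2 h5 h6, θ'_eq ℓ hℓ h3 h4 h5 h6]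

end exist

section kappa

variable {𝒪 : Type} [CommRing 𝒪] [IsDomain 𝒪] [IsDiscreteValuationRing 𝒪]
  [IsAdicComplete (maximalIdeal 𝒪) 𝒪] [CharZero 𝒪]
  {A' A'' : ℕ} [NeZero A'] [NeZero A''] {S₁ : Finset ℕ}
  {θ' : heckeAlgebra A' 2 (↑S₁ : Set ℕ) →+* ResidueField 𝒪}
  {M : ℕ} [NeZero M] {H : Subgroup (ZMod M)ˣ}

/-- the comparison `prim (F, a'') ≃ prim (F reindexed, a'' ∘ idx)` (an equality of submodules). -/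
def twe_sbi_kappa (hgood : ∀ ℓ, pk_Good A' S₁ ℓ ↔ pk_Good A'' S₁ ℓ)
    (F : twe_sm_Frame M H (twe_sm_q A'' S₁)) (a'' : twe_sm_Idx A'' S₁ → 𝒪) :
    ↥(twe_pr_prim (twe_sm_TY 𝒪 F) a'') ≃ₗ[𝒪]
      ↥(twe_pr_prim (twe_sm_TY 𝒪 (twe_pif_seamFrame hgood F)) (a'' ∘ twe_pif_idx hgood)) :=
  LinearEquiv.ofEq _ _ (twe_pif_seamFrame_prim hgood F a'').symm

@[simp] theorem twe_sbi_kappa_coe (hgood : ∀ ℓ, pk_Good A' S₁ ℓ ↔ pk_Good A'' S₁ ℓ)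
    (F : twe_sm_Frame M H (twe_sm_q A'' S₁)) (a'' : twe_sm_Idx A'' S₁ → 𝒪)
    (y : ↥(twe_pr_prim (twe_sm_TY 𝒪 F) a'')) :
    ((twe_sbi_kappa hgood F a'' y :
      ↥(twe_pr_prim (twe_sm_TY 𝒪 (twe_pif_seamFrame hgood F)) (a'' ∘ twe_pif_idx hgood))) :
        ↥(twe_wl_V 𝒪 𝒪 (twe_GamH M H))) = (y : ↥(twe_wl_V 𝒪 𝒪 (twe_GamH M H))) := rfl

/-- `κ` intertwines `T'_ℓ` with the Hecke action of the level package (same prime). -/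
theorem twe_sbi_kappa_psi (hgood : ∀ ℓ, pk_Good A' S₁ ℓ ↔ pk_Good A'' S₁ ℓ)
    (B' : twe_Base 𝒪 A' S₁ θ') (hfull' : B'.IsFull)
    (hNS' : ∀ ℓ : ℕ, ℓ.Prime → ℓ ∣ A' → ℓ ∈ S₁)
    (F : twe_sm_Frame M H (twe_sm_q A'' S₁)) (a'' : twe_sm_Idx A'' S₁ → 𝒪)
    (ha' : twe_sm_IsLift θ' (a'' ∘ twe_pif_idx hgood))
    (hrel' : twe_at_Rel (twe_sm_TX 𝒪 A' (twe_sm_q A' S₁))
      (twe_sm_TY 𝒪 (twe_pif_seamFrame hgood F)))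
    (ℓ'' : twe_sm_Idx A'' S₁) (ℓ' : twe_sm_Idx A' S₁) (h : ℓ'.1 = ℓ''.1)
    (y y' : ↥(twe_pr_prim (twe_sm_TY 𝒪 F) a''))
    (hy : (y' : ↥(twe_wl_V 𝒪 𝒪 (twe_GamH M H))) = twe_sm_TY 𝒪 F ℓ'' y.1) :
    twe_sbi_kappa hgood F a'' y' =
      twe_smod_psi B' hfull' hNS' (twe_pif_seamFrame hgood F) (a'' ∘ twe_pif_idx hgood) ha' hrel'
        (twe_sa_tau B' ℓ') (twe_sbi_kappa hgood F a'' y) := by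
  apply Subtype.ext
  rw [twe_smod_psi_tau, twe_sbi_kappa_coe, twe_sbi_kappa_coe, hy, twe_pif_seamFrame_TY]
  have h1 : twe_pif_idx hgood ℓ' = ℓ'' := Subtype.ext h
  rw [h1]

/-- `κ` intertwines the diamonds. -/
theorem twe_sbi_kappa_rho (hgood : ∀ ℓ, pk_Good A' S₁ ℓ ↔ pk_Good A'' S₁ ℓ)
    {Δ : Type*} [Group Δ] (d : Gamma0 M →* Δ) (hd : Function.Surjective d)
    (hdk : ∀ g, d g = 1 ↔ (g : SL(2, ℤ)) ∈ twe_GamH M H)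
    (F : twe_sm_Frame M H (twe_sm_q A'' S₁)) (a'' : twe_sm_Idx A'' S₁ → 𝒪) (δ : Δ)
    (y : ↥(twe_pr_prim (twe_sm_TY 𝒪 F) a'')) :
    twe_sbi_kappa hgood F a'' (twe_smod_rho d hd hdk F a'' δ y) =
      twe_smod_rho d hd hdk (twe_pif_seamFrame hgood F) (a'' ∘ twe_pif_idx hgood) δ
        (twe_sbi_kappa hgood F a'' y) := by
  obtain ⟨g, rfl⟩ := hd δ
  apply Subtype.ext
  rw [twe_sbi_kappa_coe, twe_smod_rho_coe, twe_smod_rho_coe, twe_sbi_kappa_coe]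

end kappa

section data

variable {p : ℕ} [Fact p.Prime]
  {𝒪 : Type} [CommRing 𝒪] [IsDomain 𝒪] [IsDiscreteValuationRing 𝒪]
  [IsAdicComplete (maximalIdeal 𝒪) 𝒪] [Finite (ResidueField 𝒪)] [CharZero 𝒪]
  {N : ℕ} [NeZero N] {S : Finset ℕ} {θ : heckeAlgebra N 2 (↑S : Set ℕ) →+* ResidueField 𝒪}

/-- the level frame: `F''` viewed at `H' = ker ((ℤ/M)ˣ → Δ_Q)` and reindexed over the good primes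
of the small balanced level. -/
def twe_sbi_F' (hNS : ∀ ℓ : ℕ, ℓ.Prime → ℓ ∣ N → ℓ ∈ S) {Q Th : Finset ℕ}
    (hTh : ∀ ℓ ∈ Th, ℓ.Prime ∧ ℓ ∣ N) {M : ℕ}
    (hQp : ∀ t ∈ Q, t.Prime) (hQM : ∀ t ∈ Q, t ∣ M)
    (hThp : ∀ t ∈ Th, t.Prime) (hThM : ∀ t ∈ Th, t ∣ M)
    (F'' : twe_sm_Frame M (twe_di_pair p Q Th M hQp hQM hThp hThM).ker
      (twe_sm_q (twe_Nbal N Q Th) (S ∪ Q))) :
    twe_sm_Frame M (twe_di_hom p Q M hQp hQM).ker (twe_sm_q (twe_Nbal N Q ∅) (S ∪ Q)) :=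
  twe_pif_seamFrame (twe_sbi_hgood hNS hTh)
    (twe_fx_frame_mono (twe_di_pair_ker_le p Q Th M hQp hQM hThp hThM) F'')

/-- the level lifts. -/
def twe_sbi_a' (hNS : ∀ ℓ : ℕ, ℓ.Prime → ℓ ∣ N → ℓ ∈ S) {Q Th : Finset ℕ}
    (hTh : ∀ ℓ ∈ Th, ℓ.Prime ∧ ℓ ∣ N)
    (a'' : twe_sm_Idx (twe_Nbal N Q Th) (S ∪ Q) → 𝒪) :
    twe_sm_Idx (twe_Nbal N Q ∅) (S ∪ Q) → 𝒪 :=
  a'' ∘ twe_pif_idx (twe_sbi_hgood hNS hTh)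

theorem twe_sbi_ha' (hNS : ∀ ℓ : ℕ, ℓ.Prime → ℓ ∣ N → ℓ ∈ S) {Q Th : Finset ℕ}
    [NeZero (twe_Nbal N Q ∅)] [NeZero (twe_Nbal N Q Th)]
    (hTh : ∀ ℓ ∈ Th, ℓ.Prime ∧ ℓ ∣ N)
    (θ' : heckeAlgebra (twe_Nbal N Q ∅) 2 (↑(S ∪ Q) : Set ℕ) →+* ResidueField 𝒪)
    (θ'_eq : ∀ (ℓ : ℕ) (hℓ : ℓ.Prime) (h1 : ¬ ℓ ∣ twe_Nbal N Q ∅) (h2 : ℓ ∉ (↑(S ∪ Q) : Set ℕ))
      (h3 : ¬ ℓ ∣ N) (h4 : ℓ ∉ (↑S : Set ℕ)),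
      θ' (heckeAlgebra.T hℓ h1 h2) = θ (heckeAlgebra.T hℓ h3 h4))
    (θ'' : heckeAlgebra (twe_Nbal N Q Th) 2 (↑(S ∪ Q) : Set ℕ) →+* ResidueField 𝒪)
    (θ''_eq : ∀ (ℓ : ℕ) (hℓ : ℓ.Prime) (h1 : ¬ ℓ ∣ twe_Nbal N Q Th) (h2 : ℓ ∉ (↑(S ∪ Q) : Set ℕ))
      (h3 : ¬ ℓ ∣ N) (h4 : ℓ ∉ (↑S : Set ℕ)),
      θ'' (heckeAlgebra.T hℓ h1 h2) = θ (heckeAlgebra.T hℓ h3 h4))
    (a'' : twe_sm_Idx (twe_Nbal N Q Th) (S ∪ Q) → 𝒪) (ha'' : twe_sm_IsLift θ'' a'') :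
    twe_sm_IsLift θ' (twe_sbi_a' hNS hTh a'') :=
  twe_pif_isLift_comp (twe_sbi_hgood hNS hTh)
    (fun ℓ hℓ h1 h2 h3 => twe_sbi_theta_eq Q Th θ' θ'_eq θ'' θ''_eq ℓ hℓ h1 h2 h3 h2) a'' ha''

/-- the transition map `B''.T → B'.T` (from `twe_sh_main`). -/
theorem twe_sbi_exists_pi1 (hNS : ∀ ℓ : ℕ, ℓ.Prime → ℓ ∣ N → ℓ ∈ S) {Q Th : Finset ℕ}
    [NeZero (twe_Nbal N Q ∅)] [NeZero (twe_Nbal N Q Th)]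
    (hQp : ∀ t ∈ Q, t.Prime) (hTh : ∀ ℓ ∈ Th, ℓ.Prime ∧ ℓ ∣ N)
    (θ' : heckeAlgebra (twe_Nbal N Q ∅) 2 (↑(S ∪ Q) : Set ℕ) →+* ResidueField 𝒪)
    (θ'_eq : ∀ (ℓ : ℕ) (hℓ : ℓ.Prime) (h1 : ¬ ℓ ∣ twe_Nbal N Q ∅) (h2 : ℓ ∉ (↑(S ∪ Q) : Set ℕ))
      (h3 : ¬ ℓ ∣ N) (h4 : ℓ ∉ (↑S : Set ℕ)),
      θ' (heckeAlgebra.T hℓ h1 h2) = θ (heckeAlgebra.T hℓ h3 h4))
    (B' : twe_Base 𝒪 (twe_Nbal N Q ∅) (S ∪ Q) θ')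
    (θ'' : heckeAlgebra (twe_Nbal N Q Th) 2 (↑(S ∪ Q) : Set ℕ) →+* ResidueField 𝒪)
    (θ''_eq : ∀ (ℓ : ℕ) (hℓ : ℓ.Prime) (h1 : ¬ ℓ ∣ twe_Nbal N Q Th) (h2 : ℓ ∉ (↑(S ∪ Q) : Set ℕ))
      (h3 : ¬ ℓ ∣ N) (h4 : ℓ ∉ (↑S : Set ℕ)),
      θ'' (heckeAlgebra.T hℓ h1 h2) = θ (heckeAlgebra.T hℓ h3 h4))
    (B'' : twe_Base 𝒪 (twe_Nbal N Q Th) (S ∪ Q) θ'') (hfull'' : B''.IsFull) :
    ∃ π1 : B''.T →ₐ[𝒪] B'.T,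
      ∀ (ℓ : ℕ) (hℓ : ℓ.Prime) (h1 : ¬ ℓ ∣ twe_Nbal N Q Th) (h2 : ℓ ∉ (↑(S ∪ Q) : Set ℕ))
        (h3 : ¬ ℓ ∣ twe_Nbal N Q ∅),
        π1 (B''.H.π (heckeAlgebra.T hℓ h1 h2)) = B'.H.π (heckeAlgebra.T hℓ h3 h2) := by
  obtain ⟨π1, hπ1⟩ := twe_sh_main 𝒪 (twe_Nbal N Q Th) (twe_Nbal N Q ∅) (S ∪ Q) (S ∪ Q) θ'' θ' B'' B'
    hfull'' (twe_sbi_dvd N Q Th) (Finset.Subset.refl _) (twe_sbi_hNS'' hNS hQp hTh)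
    (fun ℓ hℓ h1 h2 h3 h4 => twe_sbi_theta_eq Q Th θ' θ'_eq θ'' θ''_eq ℓ hℓ h1 h2 h3 h4)
  exact ⟨π1, fun ℓ hℓ h1 h2 h3 => hπ1 ℓ hℓ h1 h2 h3 h2⟩

/-- **the level data** (ONE frame at the big level). -/
def twe_sbi_level (hp5 : 5 ≤ p) (hp𝒪 : (p : 𝒪) ∈ maximalIdeal 𝒪) (hsq : Squarefree N)
    (hpN : ¬ p ∣ N) (hpS : p ∈ S) (hNS : ∀ ℓ : ℕ, ℓ.Prime → ℓ ∣ N → ℓ ∈ S)
    (ρbar : ResidualGaloisRep (ResidueField 𝒪)) (hcompat : twt_Compat θ ρbar)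
    (hirr : ρbar.IsAbsolutelyIrreducible)
    (B : twe_Base 𝒪 N S θ) (hfull : B.IsFull)
    (Q : Finset ℕ) [NeZero (twe_Nbal N Q ∅)] (hQS : ∀ t ∈ Q, t ∉ S) (hTW : twe_IsTWSet θ p Q)
    (Th : Finset ℕ) [NeZero (twe_Nbal N Q Th)] (hTh : ∀ ℓ ∈ Th, ℓ.Prime ∧ ℓ ∣ N)
    (θ' : heckeAlgebra (twe_Nbal N Q ∅) 2 (↑(S ∪ Q) : Set ℕ) →+* ResidueField 𝒪)
    (θ'_eq : ∀ (ℓ : ℕ) (hℓ : ℓ.Prime) (h1 : ¬ ℓ ∣ twe_Nbal N Q ∅) (h2 : ℓ ∉ (↑(S ∪ Q) : Set ℕ))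
      (h3 : ¬ ℓ ∣ N) (h4 : ℓ ∉ (↑S : Set ℕ)),
      θ' (heckeAlgebra.T hℓ h1 h2) = θ (heckeAlgebra.T hℓ h3 h4))
    (B' : twe_Base 𝒪 (twe_Nbal N Q ∅) (S ∪ Q) θ') (hfull' : B'.IsFull)
    (θ'' : heckeAlgebra (twe_Nbal N Q Th) 2 (↑(S ∪ Q) : Set ℕ) →+* ResidueField 𝒪)
    (θ''_eq : ∀ (ℓ : ℕ) (hℓ : ℓ.Prime) (h1 : ¬ ℓ ∣ twe_Nbal N Q Th) (h2 : ℓ ∉ (↑(S ∪ Q) : Set ℕ))
      (h3 : ¬ ℓ ∣ N) (h4 : ℓ ∉ (↑S : Set ℕ)),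
      θ'' (heckeAlgebra.T hℓ h1 h2) = θ (heckeAlgebra.T hℓ h3 h4))
    (hc'' : twt_Compat θ'' ρbar)
    (B'' : twe_Base 𝒪 (twe_Nbal N Q Th) (S ∪ Q) θ'') (hfull'' : B''.IsFull)
    {M : ℕ} [NeZero M] (hM : M = N * ∏ t ∈ Q, t)
    (hQp : ∀ t ∈ Q, t.Prime) (hQM : ∀ t ∈ Q, t ∣ M)
    (hThp : ∀ t ∈ Th, t.Prime) (hThM : ∀ t ∈ Th, t ∣ M)
    (F'' : twe_sm_Frame M (twe_di_pair p Q Th M hQp hQM hThp hThM).ker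
      (twe_sm_q (twe_Nbal N Q Th) (S ∪ Q)))
    (a'' : twe_sm_Idx (twe_Nbal N Q Th) (S ∪ Q) → 𝒪) (ha'' : twe_sm_IsLift θ'' a'') :
    twe_mk_LevelData B p Q :=
  twe_sli_data hp5 hp𝒪 hsq hpN hpS hNS ρbar hcompat hirr B hfull Q hQS hTW θ' θ'_eq B' hfull' hM
    hQp hQM (twe_sbi_F' hNS hTh hQp hQM hThp hThM F'') (twe_sbi_a' hNS hTh a'')
    (twe_sbi_ha' hNS hTh θ' θ'_eq θ'' θ''_eq a'' ha'')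

/-- **the big data** over `(twe_sbi_level …).toLevel`. -/
def twe_sbi_data (hp5 : 5 ≤ p) (hp𝒪 : (p : 𝒪) ∈ maximalIdeal 𝒪) (hsq : Squarefree N)
    (hpN : ¬ p ∣ N) (hpS : p ∈ S) (hNS : ∀ ℓ : ℕ, ℓ.Prime → ℓ ∣ N → ℓ ∈ S)
    (ρbar : ResidualGaloisRep (ResidueField 𝒪)) (hcompat : twt_Compat θ ρbar)
    (hirr : ρbar.IsAbsolutelyIrreducible)
    (B : twe_Base 𝒪 N S θ) (hfull : B.IsFull)
    (Q : Finset ℕ) [NeZero (twe_Nbal N Q ∅)] (hQS : ∀ t ∈ Q, t ∉ S) (hTW : twe_IsTWSet θ p Q)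
    (Th : Finset ℕ) [NeZero (twe_Nbal N Q Th)] (hTh : ∀ ℓ ∈ Th, ℓ.Prime ∧ ℓ ∣ N)
    (θ' : heckeAlgebra (twe_Nbal N Q ∅) 2 (↑(S ∪ Q) : Set ℕ) →+* ResidueField 𝒪)
    (θ'_eq : ∀ (ℓ : ℕ) (hℓ : ℓ.Prime) (h1 : ¬ ℓ ∣ twe_Nbal N Q ∅) (h2 : ℓ ∉ (↑(S ∪ Q) : Set ℕ))
      (h3 : ¬ ℓ ∣ N) (h4 : ℓ ∉ (↑S : Set ℕ)),
      θ' (heckeAlgebra.T hℓ h1 h2) = θ (heckeAlgebra.T hℓ h3 h4))
    (B' : twe_Base 𝒪 (twe_Nbal N Q ∅) (S ∪ Q) θ') (hfull' : B'.IsFull)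
    (θ'' : heckeAlgebra (twe_Nbal N Q Th) 2 (↑(S ∪ Q) : Set ℕ) →+* ResidueField 𝒪)
    (θ''_eq : ∀ (ℓ : ℕ) (hℓ : ℓ.Prime) (h1 : ¬ ℓ ∣ twe_Nbal N Q Th) (h2 : ℓ ∉ (↑(S ∪ Q) : Set ℕ))
      (h3 : ¬ ℓ ∣ N) (h4 : ℓ ∉ (↑S : Set ℕ)),
      θ'' (heckeAlgebra.T hℓ h1 h2) = θ (heckeAlgebra.T hℓ h3 h4))
    (hc'' : twt_Compat θ'' ρbar)
    (B'' : twe_Base 𝒪 (twe_Nbal N Q Th) (S ∪ Q) θ'') (hfull'' : B''.IsFull)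
    {M : ℕ} [NeZero M] (hM : M = N * ∏ t ∈ Q, t)
    (hQp : ∀ t ∈ Q, t.Prime) (hQM : ∀ t ∈ Q, t ∣ M)
    (hThp : ∀ t ∈ Th, t.Prime) (hThM : ∀ t ∈ Th, t ∣ M)
    (F'' : twe_sm_Frame M (twe_di_pair p Q Th M hQp hQM hThp hThM).ker
      (twe_sm_q (twe_Nbal N Q Th) (S ∪ Q)))
    (a'' : twe_sm_Idx (twe_Nbal N Q Th) (S ∪ Q) → 𝒪) (ha'' : twe_sm_IsLift θ'' a'') :
    twe_mk_BigData (twe_sbi_level hp5 hp𝒪 hsq hpN hpS hNS ρbar hcompat hirr B hfull Q hQS hTW Th hTh θ' θ'_eq B' hfull' θ'' θ''_eq hc'' B'' hfull'' hM hQp hQM hThp hThM F'' a'' ha'').toLevel Th :=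
  twe_sbc_data (twe_sbi_level hp5 hp𝒪 hsq hpN hpS hNS ρbar hcompat hirr B hfull Q hQS hTW Th hTh θ' θ'_eq B' hfull' θ'' θ''_eq hc'' B'' hfull'' hM hQp hQM hThp hThM F'' a'' ha'') B'' hfull''
    (twe_sbi_hNS'' hNS hQp hTh)
    (twe_sbi_exists_pi1 hNS hQp hTh θ' θ'_eq B' θ'' θ''_eq B'' hfull'').choose
    (twe_sbi_exists_pi1 hNS hQp hTh θ' θ'_eq B' θ'' θ''_eq B'' hfull'').choose_spec
    hQp hQM hThp hThM (twe_sbi_disjoint (twe_sli_hQ hNS hQS hTW) hTh) Fact.out hp5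
    (twe_sli_not_dvd_M Fact.out hpN hTW hM) hp𝒪 F'' a'' ha''
    (twe_sri_big 𝒪 p hsq (twe_sli_hQ hNS hQS hTW) hTh hM
      ((Fact.out : p.Prime).odd_of_ne_two (by omega)) hQp hQM hThp hThM
      (twe_sm_q (twe_Nbal N Q Th) (S ∪ Q)) (fun i => i.2.2.1) F'')
    (twe_sbi_exists_i0 hp5 hp𝒪 θ'' ρbar hc'' hirr a'' ha'').choose
    (twe_sbi_exists_i0 hp5 hp𝒪 θ'' ρbar hc'' hirr a'' ha'').choose_spec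
    (twe_sbi_kappa (twe_sbi_hgood hNS hTh)
      (twe_fx_frame_mono (twe_di_pair_ker_le p Q Th M hQp hQM hThp hThM) F'') a'')
    (fun ℓ'' ℓ' h y y' hy => twe_sbi_kappa_psi (twe_sbi_hgood hNS hTh) B' hfull'
      (twe_sli_hNS' hNS hQp)
      (twe_fx_frame_mono (twe_di_pair_ker_le p Q Th M hQp hQM hThp hThM) F'') a'' _ _ ℓ'' ℓ' h y y' hy)
    (fun δ₁ y => twe_sbi_kappa_rho (twe_sbi_hgood hNS hTh) (twe_di_d1 p Q M hQp hQM)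
      (twe_di_d1_surjective p Q M hQp hQM) (twe_di_d1_eq_one_iff p Q M hQp hQM)
      (twe_fx_frame_mono (twe_di_pair_ker_le p Q Th M hQp hQM hThp hThM) F'') a'' δ₁ y)
    θ''_eq

end data

section final

/-- **a Hecke frame** on `H'' = ker ((ℤ/M)ˣ → Δ_Q × Δ_Th)` over the good primes of the big level. -/
theorem twe_sbi_exists_frame {p : ℕ} (hp : Odd p) {N : ℕ} {S Q Th : Finset ℕ} {M : ℕ}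
    (hM : M = N * ∏ t ∈ Q, t)
    (hQp : ∀ t ∈ Q, t.Prime) (hQM : ∀ t ∈ Q, t ∣ M)
    (hThp : ∀ t ∈ Th, t.Prime) (hThM : ∀ t ∈ Th, t ∣ M) :
    Nonempty (twe_sm_Frame M (twe_di_pair p Q Th M hQp hQM hThp hThM).ker
      (twe_sm_q (twe_Nbal N Q Th) (S ∪ Q))) := by
  obtain ⟨m, hm, hHm⟩ := twe_di_pair_exists_odd p Q Th M hQp hQM hThp hThM hp
  refine twe_fx_frame M _ (twe_sm_q (twe_Nbal N Q Th) (S ∪ Q)) (fun i => i.2.1) (fun i hd => ?_)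
    hm hHm
  refine i.2.2.1 (dvd_trans hd ?_)
  rw [hM]
  refine dvd_trans ?_ (twe_sbi_dvd N Q Th)
  unfold twe_Nbal
  rw [Finset.prod_empty, mul_one]
  refine mul_dvd_mul_left N (Finset.prod_dvd_prod_of_dvd _ _ fun t _ => ?_)
  exact dvd_pow_self t two_ne_zero

/-- **(M2), with `L` after `Th`**: ONE full base package, and over it, for every Taylor–Wiles set `Q`
and every set `Th` of primes dividing `N`, a unipotent system and a big system over it. -/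
theorem twe_sbi_big :
    ∀ (p : ℕ) [Fact p.Prime], 5 ≤ p →
    ∀ (𝒪 : Type) [CommRing 𝒪] [IsDomain 𝒪] [IsDiscreteValuationRing 𝒪]
      [IsAdicComplete (maximalIdeal 𝒪) 𝒪] [Finite (ResidueField 𝒪)] [CharZero 𝒪],
      (p : 𝒪) ∈ maximalIdeal 𝒪 →
    ∀ (N : ℕ) [NeZero N], Squarefree N → ¬ p ∣ N →
    ∀ (S : Finset ℕ), p ∈ S → (∀ ℓ : ℕ, ℓ.Prime → ℓ ∣ N → ℓ ∈ S) →
    ∀ (θ : heckeAlgebra N 2 (↑S : Set ℕ) →+* ResidueField 𝒪)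
      (ρbar : ResidualGaloisRep (ResidueField 𝒪)),
      twt_Compat θ ρbar → ρbar.IsAbsolutelyIrreducible →
      ∃ B : twe_Base 𝒪 N S θ, B.IsFull ∧
        ∀ (Q : Finset ℕ) [NeZero (twe_Nbal N Q ∅)], (∀ t ∈ Q, t ∉ S) → twe_IsTWSet θ p Q →
        ∀ (Th : Finset ℕ) [NeZero (twe_Nbal N Q Th)], (∀ ℓ ∈ Th, ℓ.Prime ∧ ℓ ∣ N) →
          ∃ L : twe_Level B p Q, Nonempty (twe_Big L Th) := by
  intro p _ hp5 𝒪 _ _ _ _ _ _ hp𝒪 N _ hsq hpN S hpS hNS θ ρbar hcompat hirr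
  obtain ⟨B, hfull⟩ := twe_dt_M1F p hp5 𝒪 hp𝒪 N hpN S hpS hNS θ ρbar hcompat hirr
  refine ⟨B, hfull, fun Q _ hQS hTW Th _ hTh => ?_⟩
  have hQp : ∀ t ∈ Q, t.Prime := fun t ht => (hTW t ht).1
  have hThp : ∀ t ∈ Th, t.Prime := fun t ht => (hTh t ht).1
  obtain ⟨θ', θ'_eq, -, B', hfull'⟩ := twe_slf_base hp5 hp𝒪 hpN hpS hNS ρbar hcompat hirr Q hQS hTW
  obtain ⟨θ'', θ''_eq, hc'', B'', hfull''⟩ := twe_sbi_base hp5 hp𝒪 hpN hpS hNS ρbar hcompat hirr Q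
    hQS hTW Th hTh
  have hM0 : N * ∏ t ∈ Q, t ≠ 0 :=
    mul_ne_zero (NeZero.ne N) (Finset.prod_ne_zero_iff.2 fun t ht => (hQp t ht).ne_zero)
  have : NeZero (N * ∏ t ∈ Q, t) := ⟨hM0⟩
  have hM : N * ∏ t ∈ Q, t = N * ∏ t ∈ Q, t := rfl
  have hQM := twe_sli_dvd_M hM
  have hThM := twe_sbi_dvd_M_Th (Q := Q) hTh hM
  have hodd : Odd p := (Fact.out : p.Prime).odd_of_ne_two (by omega)
  obtain ⟨F''⟩ := twe_sbi_exists_frame (p := p) (N := N) (S := S) hodd hM hQp hQM hThp hThM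
  obtain ⟨a'', ha''⟩ := twe_slf_exists_lift θ''
  exact ⟨_, ⟨(twe_sbi_data hp5 hp𝒪 hsq hpN hpS hNS ρbar hcompat hirr B hfull Q hQS hTW Th hTh θ'
    θ'_eq B' hfull' θ'' θ''_eq hc'' B'' hfull'' hM hQp hQM hThp hThM F'' a'' ha'').toBig⟩⟩

end final

end Fermat.Agent.TW
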