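/-
ONE MACHINE / block [E] AUT, E/SeamBigNewAt (helper24): the two NEW-AT-`t` families of `Bg.IsLG2` for
the big system `(twe_sbc_data …).toBig` of `SeamBigC.lean`.  Prefix `twe_sbn_`.
-/
import Mathlib
import Fermat.Agent.TW.Aut.SeamBigC
import Fermat.Agent.TW.Aut.SeamNewAt

set_option autoImplicit false
set_option linter.unusedSectionVars false

noncomputable section

namespace Fermat.Agent.TW

open Polynomial CuspForm IsLocalRing Fermat.Agent.JT3 CongruenceSubgroup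
open scoped MatrixGroups

section newat

variable {𝒪 : Type} [CommRing 𝒪] [IsDomain 𝒪] [IsDiscreteValuationRing 𝒪]
  [IsAdicComplete (maximalIdeal 𝒪) 𝒪] [CharZero 𝒪]
  {N : ℕ} [NeZero N] {S : Finset ℕ} {θ : heckeAlgebra N 2 (↑S : Set ℕ) →+* ResidueField 𝒪}
  {B : twe_Base 𝒪 N S θ} {p : ℕ} {Q : Finset ℕ} [NeZero (twe_Nbal N Q ∅)]
  (D' : twe_mk_LevelData B p Q) {Th : Finset ℕ} [NeZero (twe_Nbal N Q Th)]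
  {θ'' : heckeAlgebra (twe_Nbal N Q Th) 2 (↑(S ∪ Q) : Set ℕ) →+* ResidueField 𝒪}
  (B'' : twe_Base 𝒪 (twe_Nbal N Q Th) (S ∪ Q) θ'') (hfull'' : B''.IsFull)
  (hNS'' : ∀ ℓ : ℕ, ℓ.Prime → ℓ ∣ twe_Nbal N Q Th → ℓ ∈ S ∪ Q)
  (π1 : B''.T →ₐ[𝒪] D'.B'.T)
  (hπ1 : ∀ (ℓ : ℕ) (hℓ : ℓ.Prime) (h1 : ¬ ℓ ∣ twe_Nbal N Q Th) (h2 : ℓ ∉ (↑(S ∪ Q) : Set ℕ))
    (h3 : ¬ ℓ ∣ twe_Nbal N Q ∅),
    π1 (B''.H.π (heckeAlgebra.T hℓ h1 h2)) = D'.B'.H.π (heckeAlgebra.T hℓ h3 h2))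
  {M : ℕ} [NeZero M] (hQp : ∀ t ∈ Q, t.Prime) (hQM : ∀ t ∈ Q, t ∣ M)
  (hThp : ∀ t ∈ Th, t.Prime) (hThM : ∀ t ∈ Th, t ∣ M) (hdisj : Disjoint Q Th)
  (hp : p.Prime) (hp5 : 5 ≤ p) (hpM : ¬ p ∣ M) (hpO : (p : 𝒪) ∈ maximalIdeal 𝒪)
  (F'' : twe_sm_Frame M (twe_di_pair p Q Th M hQp hQM hThp hThM).ker
    (twe_sm_q (twe_Nbal N Q Th) (S ∪ Q)))
  (a'' : twe_sm_Idx (twe_Nbal N Q Th) (S ∪ Q) → 𝒪) (ha'' : twe_sm_IsLift θ'' a'')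
  (hrel'' : twe_at_Rel (twe_sm_TX 𝒪 (twe_Nbal N Q Th) (twe_sm_q (twe_Nbal N Q Th) (S ∪ Q)))
    (twe_sm_TY 𝒪 F''))
  (i₀ : twe_sm_Idx (twe_Nbal N Q Th) (S ∪ Q))
  (hne : residue 𝒪 (a'' i₀) ≠ ((i₀.1 + 1 : ℕ) : ResidueField 𝒪))
  (κ : ↥(twe_pr_prim (twe_sm_TY 𝒪 (twe_sbc_F' hQp hQM hThp hThM F'')) a'') ≃ₗ[𝒪] D'.P)
  (hκψ : ∀ (ℓ'' : twe_sm_Idx (twe_Nbal N Q Th) (S ∪ Q))
    (ℓ' : twe_sm_Idx (twe_Nbal N Q ∅) (S ∪ Q)), ℓ'.1 = ℓ''.1 →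
    ∀ y y' : ↥(twe_pr_prim (twe_sm_TY 𝒪 (twe_sbc_F' hQp hQM hThp hThM F'')) a''),
      (y' : ↥(twe_wl_V 𝒪 𝒪 (twe_GamH M (twe_di_hom p Q M hQp hQM).ker))) =
        twe_sm_TY 𝒪 (twe_sbc_F' hQp hQM hThp hThM F'') ℓ'' y.1 →
      κ y' = D'.ψ (twe_sa_tau D'.B' ℓ') (κ y))
  (hκρ : ∀ (δ₁ : twe_Delta p Q)
    (y : ↥(twe_pr_prim (twe_sm_TY 𝒪 (twe_sbc_F' hQp hQM hThp hThM F'')) a'')),
    κ (twe_sbc_rho' hQp hQM hThp hThM F'' a'' δ₁ y) = D'.ρ δ₁ (κ y))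
  (hθ'' : ∀ (ℓ : ℕ) (hℓ : ℓ.Prime) (h1 : ¬ ℓ ∣ twe_Nbal N Q Th)
    (h2 : ℓ ∉ (↑(S ∪ Q) : Set ℕ)) (h3 : ¬ ℓ ∣ N) (h4 : ℓ ∉ (↑S : Set ℕ)),
    θ'' (heckeAlgebra.T hℓ h1 h2) = θ (heckeAlgebra.T hℓ h3 h4))
  (hsq : Squarefree N) (hQ : ∀ t ∈ Q, t.Prime ∧ ¬ t ∣ N) (hTh : ∀ ℓ ∈ Th, ℓ.Prime ∧ ℓ ∣ N)
  (hM : M = N * ∏ t ∈ Q, t)

include hsq hQ hTh hM in
/-- NEW-AT-`t₀` for `twe_sbc_data`, generic `t₀ ∈ Q ∪ Th` with its diamond `δ₀ = d(g₀)`. -/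
theorem twe_sbn_gen (t₀ : ↥(Q ∪ Th)) (g₀ : Gamma0 M)
    (hg₀ : ∀ t : ↥(Q ∪ Th), (t : ℕ) ≠ (t₀ : ℕ) →
      ZMod.unitsMap (show (t : ℕ) ∣ M from by
        rcases Finset.mem_union.mp t.2 with h | h
        · exact hQM _ h
        · exact hThM _ h) (twe_dUnit M g₀) = 1)
    (δ₀ : twe_Delta p Q × twe_Delta p Th)
    (hδ₀ : twe_di_d p Q Th M hQp hQM hThp hThM g₀ = δ₀) :
    twe_NewAt (twe_sbc_data D' B'' hfull'' hNS'' π1 hπ1 hQp hQM hThp hThM hdisj hp hp5 hpM hpO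
        F'' a'' ha'' hrel'' i₀ hne κ hκψ hκρ hθ'').toBig.H''
      (Algebra.lsmul 𝒪 𝒪 (twe_sbc_data D' B'' hfull'' hNS'' π1 hπ1 hQp hQM hThp hThM hdisj hp hp5
        hpM hpO F'' a'' ha'' hrel'' i₀ hne κ hκψ hκρ hθ'').toBig.Mb
        (MonoidAlgebra.of 𝒪 (twe_Delta p Q × twe_Delta p Th) δ₀)) (t₀ : ℕ) := by
  subst hδ₀
  have htM : ∀ t : ↥(Q ∪ Th), (t : ℕ) ∣ M := fun t => by
    rcases Finset.mem_union.mp t.2 with h | h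
    · exact hQM _ h
    · exact hThM _ h
  have hodd : Odd p := hp.odd_of_ne_two (fun h => by rw [h] at hp5; exact absurd hp5 (by norm_num))
  obtain ⟨m, hm, hHm⟩ := twe_di_pair_exists_odd p Q Th M hQp hQM hThp hThM hodd
  exact twe_sna_big_gen (twe_sbc_data D' B'' hfull'' hNS'' π1 hπ1 hQp hQM hThp hThM hdisj hp hp5
      hpM hpO F'' a'' ha'' hrel'' i₀ hne κ hκψ hκρ hθ'') hsq hQ hTh hM htM
    (twe_di_pair p Q Th M hQp hQM hThp hThM).ker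
    (fun u h => twe_di_pair_mem_of_unitsMap p Q Th M hQp hQM hThp hThM u
      (fun t => h ⟨t.1, Finset.mem_union_left _ t.2⟩)
      (fun t => h ⟨t.1, Finset.mem_union_right _ t.2⟩)) hm hHm F''
    (twe_pr_prim (twe_sm_TY 𝒪 F'') a'').subtype Subtype.val_injective
    (fun ℓ y => twe_sbc_data_psi_tau D' B'' hfull'' hNS'' π1 hπ1 hQp hQM hThp hThM hdisj hp hp5
      hpM hpO F'' a'' ha'' hrel'' i₀ hne κ hκψ hκρ hθ'' ℓ y)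
    t₀ g₀ hg₀ (twe_di_d p Q Th M hQp hQM hThp hThM g₀)
    (fun y => twe_sbc_data_rho_coe D' B'' hfull'' hNS'' π1 hπ1 hQp hQM hThp hThM hdisj hp hp5
      hpM hpO F'' a'' ha'' hrel'' i₀ hne κ hκψ hκρ hθ'' g₀ y)

include hsq hQ hTh hM in
/-- **NEW-AT-`t`, `t ∈ Q`**, for the big system `(twe_sbc_data …).toBig`. -/
theorem twe_sbn_Q (t : ℕ) (ht : t ∈ Q) :
    twe_NewAt (twe_sbc_data D' B'' hfull'' hNS'' π1 hπ1 hQp hQM hThp hThM hdisj hp hp5 hpM hpO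
        F'' a'' ha'' hrel'' i₀ hne κ hκψ hκρ hθ'').toBig.H''
      ((twe_sbc_data D' B'' hfull'' hNS'' π1 hπ1 hQp hQM hThp hThM hdisj hp hp5 hpM hpO
        F'' a'' ha'' hrel'' i₀ hne κ hκψ hκρ hθ'').toBig.diaQ t ht) t := by
  have htM : ∀ t : ↥(Q ∪ Th), (t : ℕ) ∣ M := fun t => by
    rcases Finset.mem_union.mp t.2 with h | h
    · exact hQM _ h
    · exact hThM _ h
  obtain ⟨g₀, hg₀, hg₁⟩ := twe_sar_exists_g0_Q p hQ hTh htM t ht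
  exact twe_sbn_gen D' B'' hfull'' hNS'' π1 hπ1 hQp hQM hThp hThM hdisj hp hp5 hpM hpO
    F'' a'' ha'' hrel'' i₀ hne κ hκψ hκρ hθ'' hsq hQ hTh hM ⟨t, Finset.mem_union_left _ ht⟩ g₀
    hg₁ (twe_gen p Q t ht, 1) hg₀

include hsq hQ hTh hM in
/-- **NEW-AT-`t`, `t ∈ Th`**, for the big system `(twe_sbc_data …).toBig`. -/
theorem twe_sbn_Th (t : ℕ) (ht : t ∈ Th) :
    twe_NewAt (twe_sbc_data D' B'' hfull'' hNS'' π1 hπ1 hQp hQM hThp hThM hdisj hp hp5 hpM hpO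
        F'' a'' ha'' hrel'' i₀ hne κ hκψ hκρ hθ'').toBig.H''
      ((twe_sbc_data D' B'' hfull'' hNS'' π1 hπ1 hQp hQM hThp hThM hdisj hp hp5 hpM hpO
        F'' a'' ha'' hrel'' i₀ hne κ hκψ hκρ hθ'').toBig.diaTh t ht) t := by
  have htM : ∀ t : ↥(Q ∪ Th), (t : ℕ) ∣ M := fun t => by
    rcases Finset.mem_union.mp t.2 with h | h
    · exact hQM _ h
    · exact hThM _ h
  obtain ⟨g₀, hg₀, hg₁⟩ := twe_sar_exists_g0_Th p hQ hTh htM t ht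
  exact twe_sbn_gen D' B'' hfull'' hNS'' π1 hπ1 hQp hQM hThp hThM hdisj hp hp5 hpM hpO
    F'' a'' ha'' hrel'' i₀ hne κ hκψ hκρ hθ'' hsq hQ hTh hM ⟨t, Finset.mem_union_right _ ht⟩ g₀
    hg₁ (1, twe_gen p Th t ht) hg₀

end newat

end Fermat.Agent.TW
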