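import Mathlib
import Fermat.Agent.TW.Aut.SeamBigInst
import Fermat.Agent.TW.Aut.SeamBigNewAt

/-!
# ONE MACHINE / block [E] AUT, E/Seam: consumer lemmas for `twe_sbi_data` (helper14)

Prefix `twe_sbi_` (continuation of `SeamBigInst.lean`).  With `Ξ` the argument list of `twe_sbi_data`:

* `twe_sbi_data_eq`  : `twe_sbi_data Ξ` is a literal `twe_sbc_data` application (`rfl`);
* `twe_sbi_data_P / _B'' / _theta'' / _psi / _rho` : the SeamMod objects of `twe_sbi_data Ξ` (`rfl`);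
* `twe_sbi_data_psi_tau`, `twe_sbi_data_rho_coe` : the two actions in `W(Γ_{H''}, 𝒪)`;
* `twe_sbi_newQ`, `twe_sbi_newTh` : the NEW-AT-`t` halves of `Bg.IsLG2` for `Bg = (twe_sbi_data Ξ).toBig`.
-/

set_option autoImplicit false
set_option linter.unusedSectionVars false
set_option linter.unusedVariables false
set_option linter.overlappingInstances false
set_option linter.style.haveILetI false
set_option synthInstance.maxHeartbeats 400000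
set_option maxHeartbeats 1000000

noncomputable section

namespace Fermat.Agent.TW

open IsLocalRing Polynomial CuspForm Fermat.Agent.JT3 Fermat.Agent.LR CongruenceSubgroup
open Fermat.Agent.S56
open scoped MatrixGroups

/-- the relation transfer fed to `twe_sbc_data`. -/
theorem twe_sbi_hrel'' {p : ℕ} [Fact p.Prime] (hp5 : 5 ≤ p)
    {𝒪 : Type} [CommRing 𝒪] [IsDomain 𝒪] [CharZero 𝒪]
    {N : ℕ} [NeZero N] {S : Finset ℕ} {k : Type} [Field k]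
    {θ : heckeAlgebra N 2 (↑S : Set ℕ) →+* k}
    (hsq : Squarefree N) (hNS : ∀ ℓ : ℕ, ℓ.Prime → ℓ ∣ N → ℓ ∈ S)
    {Q : Finset ℕ} (hQS : ∀ t ∈ Q, t ∉ S) (hTW : twe_IsTWSet θ p Q)
    {Th : Finset ℕ} [NeZero (twe_Nbal N Q Th)] (hTh : ∀ ℓ ∈ Th, ℓ.Prime ∧ ℓ ∣ N)
    {M : ℕ} [NeZero M] (hM : M = N * ∏ t ∈ Q, t)
    (hQp : ∀ t ∈ Q, t.Prime) (hQM : ∀ t ∈ Q, t ∣ M)
    (hThp : ∀ t ∈ Th, t.Prime) (hThM : ∀ t ∈ Th, t ∣ M)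
    (F'' : twe_sm_Frame M (twe_di_pair p Q Th M hQp hQM hThp hThM).ker
      (twe_sm_q (twe_Nbal N Q Th) (S ∪ Q))) :
    twe_at_Rel (twe_sm_TX 𝒪 (twe_Nbal N Q Th) (twe_sm_q (twe_Nbal N Q Th) (S ∪ Q)))
      (twe_sm_TY 𝒪 F'') :=
  twe_sri_big 𝒪 p hsq (twe_sli_hQ hNS hQS hTW) hTh hM
    ((Fact.out : p.Prime).odd_of_ne_two (by omega)) hQp hQM hThp hThM
    (twe_sm_q (twe_Nbal N Q Th) (S ∪ Q)) (fun i => i.2.2.1) F''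

section consumer

variable {p : ℕ} [Fact p.Prime]
  {𝒪 : Type} [CommRing 𝒪] [IsDomain 𝒪] [IsDiscreteValuationRing 𝒪]
  [IsAdicComplete (maximalIdeal 𝒪) 𝒪] [Finite (ResidueField 𝒪)] [CharZero 𝒪]
  {N : ℕ} [NeZero N] {S : Finset ℕ} {θ : heckeAlgebra N 2 (↑S : Set ℕ) →+* ResidueField 𝒪}

variable (hp5 : 5 ≤ p) (hp𝒪 : (p : 𝒪) ∈ maximalIdeal 𝒪) (hsq : Squarefree N)
    (hpN : ¬ p ∣ N) (hpS : p ∈ S) (hNS : ∀ ℓ : ℕ, ℓ.Prime → ℓ ∣ N → ℓ ∈ S)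
    (ρbar : ResidualGaloisRep (ResidueField 𝒪)) (hcompat : twt_Compat θ ρbar)
    (hirr : ρbar.IsAbsolutelyIrreducible)
    (B : twe_Base 𝒪 N S θ) (hfull : B.IsFull)
    (Q : Finset ℕ) [NeZero (twe_Nbal N Q ∅)] (hQS : ∀ t ∈ Q, t ∉ S) (hTW : twe_IsTWSet θ p Q)
    (Th : Finset ℕ) [NeZero (twe_Nbal N Q Th)] (hTh : ∀ ℓ ∈ Th, ℓ.Prime ∧ ℓ ∣ N)
    (θ' : heckeAlgebra (twe_Nbal N Q ∅) 2 (↑(S ∪ Q) : Set ℕ) →+* ResidueField 𝒪)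
    (θ'_eq : ∀ (ℓ : ℕ) (hℓ : ℓ.Prime) (h1 : ¬ ℓ ∣ twe_Nbal N Q ∅) (h2 : ℓ ∉ (↑(S ∪ Q) : Set ℕ))
      (h3 : ¬ ℓ ∣ N) (h4 : ℓ ∉ (↑S : Set ℕ)),
      θ' (heckeAlgebra.T hℓ h1 h2) = θ (heckeAlgebra.T hℓ h3 h4))
    (B' : twe_Base 𝒪 (twe_Nbal N Q ∅) (S ∪ Q) θ') (hfull' : B'.IsFull)
    (θ'' : heckeAlgebra (twe_Nbal N Q Th) 2 (↑(S ∪ Q) : Set ℕ) →+* ResidueField 𝒪)
    (θ''_eq : ∀ (ℓ : ℕ) (hℓ : ℓ.Prime) (h1 : ¬ ℓ ∣ twe_Nbal N Q Th) (h2 : ℓ ∉ (↑(S ∪ Q) : Set ℕ))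
      (h3 : ¬ ℓ ∣ N) (h4 : ℓ ∉ (↑S : Set ℕ)),
      θ'' (heckeAlgebra.T hℓ h1 h2) = θ (heckeAlgebra.T hℓ h3 h4))
    (hc'' : twt_Compat θ'' ρbar)
    (B'' : twe_Base 𝒪 (twe_Nbal N Q Th) (S ∪ Q) θ'') (hfull'' : B''.IsFull)
    {M : ℕ} [NeZero M] (hM : M = N * ∏ t ∈ Q, t)
    (hQp : ∀ t ∈ Q, t.Prime) (hQM : ∀ t ∈ Q, t ∣ M)
    (hThp : ∀ t ∈ Th, t.Prime) (hThM : ∀ t ∈ Th, t ∣ M)
    (F'' : twe_sm_Frame M (twe_di_pair p Q Th M hQp hQM hThp hThM).ker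
      (twe_sm_q (twe_Nbal N Q Th) (S ∪ Q)))
    (a'' : twe_sm_Idx (twe_Nbal N Q Th) (S ∪ Q) → 𝒪) (ha'' : twe_sm_IsLift θ'' a'')

/-- shorthand for the big data. -/
local notation "𝔇" => twe_sbi_data hp5 hp𝒪 hsq hpN hpS hNS ρbar hcompat hirr B hfull Q hQS hTW Th hTh θ' θ'_eq B' hfull' θ'' θ''_eq hc'' B'' hfull'' hM hQp hQM hThp hThM F'' a'' ha''

theorem twe_sbi_data_theta'' : (𝔇).θ'' = θ'' := rfl

theorem twe_sbi_data_B'' : (𝔇).B'' = B'' := rfl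

theorem twe_sbi_data_P : (𝔇).P = ↥(twe_pr_prim (twe_sm_TY 𝒪 F'') a'') := rfl

theorem twe_sbi_data_psi : (𝔇).ψ = twe_smod_psi B'' hfull'' (twe_sbi_hNS'' hNS hQp hTh) F'' a'' ha''
    (twe_sbi_hrel'' hp5 hsq hNS hQS hTW hTh hM hQp hQM hThp hThM F'') := rfl

theorem twe_sbi_data_rho : (𝔇).ρ = twe_smod_rho (twe_di_d p Q Th M hQp hQM hThp hThM)
    (twe_di_d_surjective p Q Th M hQp hQM hThp hThM
      (twe_sbi_disjoint (twe_sli_hQ hNS hQS hTW) hTh))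
    (twe_di_d_eq_one_iff p Q Th M hQp hQM hThp hThM) F'' a'' := rfl

/-- the Hecke action of `twe_sbi_data` on generators: `T'_ℓ`. -/
theorem twe_sbi_data_psi_tau (ℓ : twe_sm_Idx (twe_Nbal N Q Th) (S ∪ Q))
    (y : ↥(twe_pr_prim (twe_sm_TY 𝒪 F'') a'')) :
    (twe_pr_prim (twe_sm_TY 𝒪 F'') a'').subtype ((𝔇).ψ (twe_sa_tau B'' ℓ) y) =
      twe_sm_TY 𝒪 F'' ℓ ((twe_pr_prim (twe_sm_TY 𝒪 F'') a'').subtype y) :=
  twe_smod_psi_tau B'' hfull'' (twe_sbi_hNS'' hNS hQp hTh) F'' a'' ha''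
    (twe_sbi_hrel'' hp5 hsq hNS hQS hTW hTh hM hQp hQM hThp hThM F'') ℓ y

/-- the diamonds of `twe_sbi_data`: conjugation. -/
theorem twe_sbi_data_rho_coe (g : Gamma0 M) (y : ↥(twe_pr_prim (twe_sm_TY 𝒪 F'') a'')) :
    (twe_pr_prim (twe_sm_TY 𝒪 F'') a'').subtype
      ((𝔇).ρ (twe_di_d p Q Th M hQp hQM hThp hThM g) y) =
      twe_wl_conj (twe_di_pair p Q Th M hQp hQM hThp hThM).ker g
        ((twe_pr_prim (twe_sm_TY 𝒪 F'') a'').subtype y) :=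
  twe_smod_rho_coe (twe_di_d p Q Th M hQp hQM hThp hThM)
    (twe_di_d_surjective p Q Th M hQp hQM hThp hThM
      (twe_sbi_disjoint (twe_sli_hQ hNS hQS hTW) hTh))
    (twe_di_d_eq_one_iff p Q Th M hQp hQM hThp hThM) F'' a'' g y

/-- **NEW-AT-`t`, `t ∈ Q`**, for the big system `(twe_sbi_data Ξ).toBig`. -/
theorem twe_sbi_newQ (t : ℕ) (ht : t ∈ Q) :
    twe_NewAt (𝔇).toBig.H'' ((𝔇).toBig.diaQ t ht) t := by
  unfold twe_sbi_data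
  exact twe_sbn_Q _ _ _ _ _ _ _ _ _ _ _ _ _ _ _ _ _ _ _ _ _ _ _ _ _ hsq
    (twe_sli_hQ hNS hQS hTW) hTh hM t ht

/-- **NEW-AT-`t`, `t ∈ Th`**, for the big system `(twe_sbi_data Ξ).toBig`. -/
theorem twe_sbi_newTh (t : ℕ) (ht : t ∈ Th) :
    twe_NewAt (𝔇).toBig.H'' ((𝔇).toBig.diaTh t ht) t := by
  unfold twe_sbi_data
  exact twe_sbn_Th _ _ _ _ _ _ _ _ _ _ _ _ _ _ _ _ _ _ _ _ _ _ _ _ _ hsq
    (twe_sli_hQ hNS hQS hTW) hTh hM t ht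

end consumer

end Fermat.Agent.TW
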