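import Mathlib
import Fermat.Agent.TW.Aut.SeamBigInst2
import Fermat.Agent.TW.Aut.SeamOldInst
import Fermat.Agent.TW.Def.PatchLvMain4

/-!
# ONE MACHINE / block [E] AUT, E/Seam: `Bg.IsLG2` for the big system of the concrete Taylor–Wiles
data, and the statement `twe_M2LG4_stmt` (helper14)

Prefix `twe_sbi_` (continuation of `SeamBigInst.lean`, `SeamBigInst2.lean`).  With `Ξ` the argument
list of `twe_sbi_data`: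

* `twe_sbi_oldQ`, `twe_sbi_oldTh` : the OLD-AT-`t` halves of `Bg.IsLG2`, `Bg = (twe_sbi_data Ξ).toBig`
  (helper26's `twe_soi_bigQ / twe_soi_bigTh`);
* `twe_sbi_isLG2`  : `(twe_sbi_data Ξ).toBig.IsLG2`;
* `twe_sbi_M2LG4`  : **`twe_M2LG4_stmt`**, the statement block [E] owes to block [C].
-/

set_option autoImplicit false
set_option linter.unusedSectionVars false
set_option linter.unusedVariables false
set_option linter.overlappingInstances false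
set_option linter.style.haveILetI false
set_option synthInstance.maxHeartbeats 400000
set_option maxHeartbeats 1000000

noncomputable section

namespace Fermat.Agent.TW

open IsLocalRing Polynomial CuspForm Fermat.Agent.JT3 Fermat.Agent.LR CongruenceSubgroup
open Fermat.Agent.S56
open scoped MatrixGroups

section islg

variable {p : ℕ} [Fact p.Prime]
  {𝒪 : Type} [CommRing 𝒪] [IsDomain 𝒪] [IsDiscreteValuationRing 𝒪]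
  [IsAdicComplete (maximalIdeal 𝒪) 𝒪] [Finite (ResidueField 𝒪)] [CharZero 𝒪]
  {N : ℕ} [NeZero N] {S : Finset ℕ} {θ : heckeAlgebra N 2 (↑S : Set ℕ) →+* ResidueField 𝒪}

variable (hp5 : 5 ≤ p) (hp𝒪 : (p : 𝒪) ∈ maximalIdeal 𝒪) (hsq : Squarefree N)
    (hpN : ¬ p ∣ N) (hpS : p ∈ S) (hNS : ∀ ℓ : ℕ, ℓ.Prime → ℓ ∣ N → ℓ ∈ S)
    (ρbar : ResidualGaloisRep (ResidueField 𝒪)) (hcompat : twt_Compat θ ρbar)
    (hirr : ρbar.IsAbsolutelyIrreducible)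
    (B : twe_Base 𝒪 N S θ) (hfull : B.IsFull)
    (Q : Finset ℕ) [NeZero (twe_Nbal N Q ∅)] (hQS : ∀ t ∈ Q, t ∉ S) (hTW : twe_IsTWSet θ p Q)
    (Th : Finset ℕ) [NeZero (twe_Nbal N Q Th)] (hTh : ∀ ℓ ∈ Th, ℓ.Prime ∧ ℓ ∣ N)
    (θ' : heckeAlgebra (twe_Nbal N Q ∅) 2 (↑(S ∪ Q) : Set ℕ) →+* ResidueField 𝒪)
    (θ'_eq : ∀ (ℓ : ℕ) (hℓ : ℓ.Prime) (h1 : ¬ ℓ ∣ twe_Nbal N Q ∅) (h2 : ℓ ∉ (↑(S ∪ Q) : Set ℕ))
      (h3 : ¬ ℓ ∣ N) (h4 : ℓ ∉ (↑S : Set ℕ)),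
      θ' (heckeAlgebra.T hℓ h1 h2) = θ (heckeAlgebra.T hℓ h3 h4))
    (B' : twe_Base 𝒪 (twe_Nbal N Q ∅) (S ∪ Q) θ') (hfull' : B'.IsFull)
    (θ'' : heckeAlgebra (twe_Nbal N Q Th) 2 (↑(S ∪ Q) : Set ℕ) →+* ResidueField 𝒪)
    (θ''_eq : ∀ (ℓ : ℕ) (hℓ : ℓ.Prime) (h1 : ¬ ℓ ∣ twe_Nbal N Q Th) (h2 : ℓ ∉ (↑(S ∪ Q) : Set ℕ))
      (h3 : ¬ ℓ ∣ N) (h4 : ℓ ∉ (↑S : Set ℕ)),
      θ'' (heckeAlgebra.T hℓ h1 h2) = θ (heckeAlgebra.T hℓ h3 h4))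
    (hc'' : twt_Compat θ'' ρbar)
    (B'' : twe_Base 𝒪 (twe_Nbal N Q Th) (S ∪ Q) θ'') (hfull'' : B''.IsFull)
    {M : ℕ} [NeZero M] (hM : M = N * ∏ t ∈ Q, t)
    (hQp : ∀ t ∈ Q, t.Prime) (hQM : ∀ t ∈ Q, t ∣ M)
    (hThp : ∀ t ∈ Th, t.Prime) (hThM : ∀ t ∈ Th, t ∣ M)
    (F'' : twe_sm_Frame M (twe_di_pair p Q Th M hQp hQM hThp hThM).ker
      (twe_sm_q (twe_Nbal N Q Th) (S ∪ Q)))
    (a'' : twe_sm_Idx (twe_Nbal N Q Th) (S ∪ Q) → 𝒪) (ha'' : twe_sm_IsLift θ'' a'')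

/-- shorthand for the big data. -/
local notation "𝔇" => twe_sbi_data hp5 hp𝒪 hsq hpN hpS hNS ρbar hcompat hirr B hfull Q hQS hTW Th hTh θ' θ'_eq B' hfull' θ'' θ''_eq hc'' B'' hfull'' hM hQp hQM hThp hThM F'' a'' ha''

/-- **OLD-AT-`t`, `t ∈ Q`**, for the big system `(twe_sbi_data Ξ).toBig`. -/
theorem twe_sbi_oldQ (t : ℕ) (ht : t ∈ Q) :
    ∃ _ : NeZero (twe_Nbal N Q Th / t),
      Nonempty (twe_OldAt (𝔇).toBig.H'' ((𝔇).toBig.diaQ t ht) t) := by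
  unfold twe_sbi_data
  exact twe_soi_bigQ _ _ _ _ _ _ _ _ _ _ _ _ _ _ _ _ _ _ _ _ _ _ _ _ _ hsq
    (twe_sli_hQ hNS hQS hTW) hTh hM hpS ρbar hcompat hirr t ht

/-- **OLD-AT-`t`, `t ∈ Th`**, for the big system `(twe_sbi_data Ξ).toBig`. -/
theorem twe_sbi_oldTh (t : ℕ) (ht : t ∈ Th) :
    ∃ _ : NeZero (twe_Nbal N Q Th / t),
      Nonempty (twe_OldAt (𝔇).toBig.H'' ((𝔇).toBig.diaTh t ht) t) := by
  unfold twe_sbi_data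
  exact twe_soi_bigTh _ _ _ _ _ _ _ _ _ _ _ _ _ _ _ _ _ _ _ _ _ _ _ _ _ hsq
    (twe_sli_hQ hNS hQS hTW) hTh hM hpS ρbar hcompat hirr t ht

/-- **the [E] → [A] clauses** for the big system `(twe_sbi_data Ξ).toBig`. -/
theorem twe_sbi_isLG2 : (𝔇).toBig.IsLG2 :=
  ⟨fun t ht =>
    ⟨twe_sbi_oldQ hp5 hp𝒪 hsq hpN hpS hNS ρbar hcompat hirr B hfull Q hQS hTW Th hTh θ' θ'_eq B' hfull' θ'' θ''_eq hc'' B'' hfull'' hM hQp hQM hThp hThM F'' a'' ha'' t ht, twe_sbi_newQ hp5 hp𝒪 hsq hpN hpS hNS ρbar hcompat hirr B hfull Q hQS hTW Th hTh θ' θ'_eq B' hfull' θ'' θ''_eq hc'' B'' hfull'' hM hQp hQM hThp hThM F'' a'' ha'' t ht⟩,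
   fun t ht =>
    ⟨twe_sbi_oldTh hp5 hp𝒪 hsq hpN hpS hNS ρbar hcompat hirr B hfull Q hQS hTW Th hTh θ' θ'_eq B' hfull' θ'' θ''_eq hc'' B'' hfull'' hM hQp hQM hThp hThM F'' a'' ha'' t ht, twe_sbi_newTh hp5 hp𝒪 hsq hpN hpS hNS ρbar hcompat hirr B hfull Q hQS hTW Th hTh θ' θ'_eq B' hfull' θ'' θ''_eq hc'' B'' hfull'' hM hQp hQM hThp hThM F'' a'' ha'' t ht⟩⟩

end islg

/-- **(M2) with the [E] → [A] seam, version 4**: ONE full base package, and over it, for every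
Taylor–Wiles set `Q` and every set `Th` of hard primes, a unipotent system `L` and a big system `Bg`
over it with `Bg.IsLG2`. -/
theorem twe_sbi_M2LG4 : twe_M2LG4_stmt := by
  intro p _ hp5 𝒪 _ _ _ _ _ _ hp𝒪 N _ hsq hpN S hpS hNS θ ρbar hcompat hirr
  obtain ⟨B, hfull⟩ := twe_dt_M1F p hp5 𝒪 hp𝒪 N hpN S hpS hNS θ ρbar hcompat hirr
  refine ⟨B, fun Q _ hQS hTW _ Th _ hTh4 _ => ?_⟩
  have hTh : ∀ ℓ ∈ Th, ℓ.Prime ∧ ℓ ∣ N := fun ℓ hℓ => ⟨(hTh4 ℓ hℓ).1, (hTh4 ℓ hℓ).2.1⟩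
  have hQp : ∀ t ∈ Q, t.Prime := fun t ht => (hTW t ht).1
  have hThp : ∀ t ∈ Th, t.Prime := fun t ht => (hTh t ht).1
  obtain ⟨θ', θ'_eq, -, B', hfull'⟩ := twe_slf_base hp5 hp𝒪 hpN hpS hNS ρbar hcompat hirr Q hQS hTW
  obtain ⟨θ'', θ''_eq, hc'', B'', hfull''⟩ := twe_sbi_base hp5 hp𝒪 hpN hpS hNS ρbar hcompat hirr Q
    hQS hTW Th hTh
  have hM0 : N * ∏ t ∈ Q, t ≠ 0 :=
    mul_ne_zero (NeZero.ne N) (Finset.prod_ne_zero_iff.2 fun t ht => (hQp t ht).ne_zero)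
  have : NeZero (N * ∏ t ∈ Q, t) := ⟨hM0⟩
  have hM : N * ∏ t ∈ Q, t = N * ∏ t ∈ Q, t := rfl
  have hQM := twe_sli_dvd_M hM
  have hThM := twe_sbi_dvd_M_Th (Q := Q) hTh hM
  have hodd : Odd p := (Fact.out : p.Prime).odd_of_ne_two (by omega)
  obtain ⟨F''⟩ := twe_sbi_exists_frame (p := p) (N := N) (S := S) hodd hM hQp hQM hThp hThM
  obtain ⟨a'', ha''⟩ := twe_slf_exists_lift θ''
  exact ⟨_, (twe_sbi_data hp5 hp𝒪 hsq hpN hpS hNS ρbar hcompat hirr B hfull Q hQS hTW Th hTh θ'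
      θ'_eq B' hfull' θ'' θ''_eq hc'' B'' hfull'' hM hQp hQM hThp hThM F'' a'' ha'').toBig,
    twe_sbi_isLG2 hp5 hp𝒪 hsq hpN hpS hNS ρbar hcompat hirr B hfull Q hQS hTW Th hTh θ'
      θ'_eq B' hfull' θ'' θ''_eq hc'' B'' hfull'' hM hQp hQM hThp hThM F'' a'' ha''⟩

end Fermat.Agent.TW
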