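import Mathlib
import Fermat.Agent.TW.Aut.ChiAbs

/-!
# TW / Aut : the `χ`-coinvariants of an `𝒪[G × H]`-module (cell E/Chi, abstract part, modules)

`Mb` an `𝒪[G × H]`-module, `χ : H →* 𝒪ˣ`.

* `twe_chi_sub G χ Mb = ker (ev χ) • Mb`; `twe_chi_sub_eq_span` : it is the `𝒪`-span of the
  `(1, δ) • m - χ δ • m` (`twe_chi_sub_one_eq_span` for `χ = 1`: the shape of `twe_Big.c1_ker`).
* `twe_chi_M G χ Mb := Mb ⧸ twe_chi_sub G χ Mb`, an `𝒪[G]`-module (`g` acts through `(g, 1)`) and an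
  `𝒪`-module; `twe_chi_mk : Mb →ₗ[𝒪] twe_chi_M G χ Mb`, semilinear for `twe_chi_ev χ`
  (`twe_chi_mk_smul`).
* `twe_chi_map χ : End_{𝒪[G × H]} Mb →+* End_{𝒪[G]} (twe_chi_M G χ Mb)`.
-/

set_option linter.unusedSectionVars false

namespace Fermat.Agent.TW

open MonoidAlgebra

noncomputable section

variable {𝒪 : Type*} [CommRing 𝒪] (G : Type*) {H : Type*} [CommGroup G] [CommGroup H]
variable (χ : H →* 𝒪ˣ) (Mb : Type*) [AddCommGroup Mb] [Module 𝒪 Mb]
  [Module (MonoidAlgebra 𝒪 (G × H)) Mb] [IsScalarTower 𝒪 (MonoidAlgebra 𝒪 (G × H)) Mb]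

/-- the submodule `ker (ev χ) • Mb` of an `𝒪[G × H]`-module. -/
def twe_chi_sub : Submodule (MonoidAlgebra 𝒪 (G × H)) Mb :=
  (RingHom.ker (twe_chi_ev (G := G) χ)) • (⊤ : Submodule (MonoidAlgebra 𝒪 (G × H)) Mb)

variable {G Mb} in
theorem twe_chi_smul_mem_sub {r : MonoidAlgebra 𝒪 (G × H)} (hr : twe_chi_ev χ r = 0) (m : Mb) :
    r • m ∈ twe_chi_sub G χ Mb :=
  Submodule.smul_mem_smul (RingHom.mem_ker.mpr hr) Submodule.mem_top

variable {G Mb} in
theorem twe_chi_gen_smul (δ : H) (m : Mb) :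
    twe_chi_gen (G := G) χ δ • m = of 𝒪 (G × H) (1, δ) • m - (χ δ : 𝒪) • m := by
  rw [twe_chi_gen, sub_smul, algebraMap_smul]

/-- `ker (ev χ) • Mb` is the `𝒪`-span of the `(1, δ) • m - χ δ • m`. -/
theorem twe_chi_sub_eq_span :
    (twe_chi_sub G χ Mb).restrictScalars 𝒪 = Submodule.span 𝒪
      {x : Mb | ∃ (δ : H) (m : Mb), x = of 𝒪 (G × H) (1, δ) • m - (χ δ : 𝒪) • m} := by
  apply le_antisymm
  · intro x hx
    rw [Submodule.restrictScalars_mem] at hx
    have key : ∀ r ∈ Ideal.span (Set.range (twe_chi_gen (G := G) χ)), ∀ m : Mb,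
        r • m ∈ Submodule.span 𝒪
          {x : Mb | ∃ (δ : H) (m : Mb), x = of 𝒪 (G × H) (1, δ) • m - (χ δ : 𝒪) • m} := by
      intro r hr
      induction hr using Submodule.span_induction with
      | mem r hr =>
        obtain ⟨δ, rfl⟩ := hr
        intro m
        exact Submodule.subset_span ⟨δ, m, twe_chi_gen_smul χ δ m⟩
      | zero => intro m; rw [zero_smul]; exact Submodule.zero_mem _
      | add a b _ _ ha hb => intro m; rw [add_smul]; exact Submodule.add_mem _ (ha m) (hb m)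
      | smul s a _ ha =>
        intro m
        rw [smul_eq_mul, mul_comm, mul_smul]
        exact ha (s • m)
    rw [twe_chi_sub, twe_chi_ker_ev] at hx
    refine Submodule.smul_induction_on hx (fun r hr m _ => key r hr m) ?_
    intro a b ha hb
    exact Submodule.add_mem _ ha hb
  · rw [Submodule.span_le]
    rintro _ ⟨δ, m, rfl⟩
    rw [SetLike.mem_coe, Submodule.restrictScalars_mem, ← twe_chi_gen_smul]
    exact twe_chi_smul_mem_sub χ (twe_chi_ev_gen χ δ) m

/-- for the trivial character: the augmentation submodule in the `H`-direction. -/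
theorem twe_chi_sub_one_eq_span :
    (twe_chi_sub G (1 : H →* 𝒪ˣ) Mb).restrictScalars 𝒪 = Submodule.span 𝒪
      {x : Mb | ∃ (δ : H) (m : Mb), x = of 𝒪 (G × H) (1, δ) • m - m} := by
  rw [twe_chi_sub_eq_span]
  congr 1
  ext x
  simp

/-- **the `χ`-coinvariants** `Mb ⧸ ker (ev χ) • Mb`. -/
def twe_chi_M : Type _ := Mb ⧸ twe_chi_sub G χ Mb

instance : AddCommGroup (twe_chi_M G χ Mb) :=
  inferInstanceAs (AddCommGroup (Mb ⧸ twe_chi_sub G χ Mb))

instance twe_chi_instModuleO : Module 𝒪 (twe_chi_M G χ Mb) :=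
  inferInstanceAs (Module 𝒪 (Mb ⧸ twe_chi_sub G χ Mb))

/-- the `𝒪[G]`-module structure: `g` acts through `(g, 1)`. -/
instance twe_chi_instModuleA : Module (MonoidAlgebra 𝒪 G) (twe_chi_M G χ Mb) :=
  Module.compHom (Mb ⧸ twe_chi_sub G χ Mb)
    ((twe_chi_sec (𝒪 := 𝒪) (G := G) (H := H)) : MonoidAlgebra 𝒪 G →+* MonoidAlgebra 𝒪 (G × H))

/-- the quotient map. -/
def twe_chi_mk : Mb →ₗ[𝒪] twe_chi_M G χ Mb :=
  ((twe_chi_sub G χ Mb).mkQ).restrictScalars 𝒪

variable {G Mb}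

theorem twe_chi_mk_surjective : Function.Surjective (twe_chi_mk G χ Mb) :=
  Submodule.mkQ_surjective _

theorem twe_chi_mk_eq_zero_iff (m : Mb) : twe_chi_mk G χ Mb m = 0 ↔ m ∈ twe_chi_sub G χ Mb :=
  Submodule.Quotient.mk_eq_zero _

theorem twe_chi_mk_eq_iff (m m' : Mb) :
    twe_chi_mk G χ Mb m = twe_chi_mk G χ Mb m' ↔ m - m' ∈ twe_chi_sub G χ Mb := by
  rw [← sub_eq_zero, ← map_sub, twe_chi_mk_eq_zero_iff]

theorem twe_chi_smul_mk (a : MonoidAlgebra 𝒪 G) (m : Mb) :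
    a • twe_chi_mk G χ Mb m = twe_chi_mk G χ Mb ((twe_chi_sec (H := H) a) • m) := rfl

/-- the quotient map is semilinear for `twe_chi_ev χ`. -/
theorem twe_chi_mk_smul (r : MonoidAlgebra 𝒪 (G × H)) (m : Mb) :
    twe_chi_mk G χ Mb (r • m) = (twe_chi_ev (G := G) χ r) • twe_chi_mk G χ Mb m := by
  rw [twe_chi_smul_mk, twe_chi_mk_eq_iff, ← sub_smul]
  apply twe_chi_smul_mem_sub
  rw [map_sub, twe_chi_ev_sec, sub_self]

instance twe_chi_instTowerA : IsScalarTower 𝒪 (MonoidAlgebra 𝒪 G) (twe_chi_M G χ Mb) where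
  smul_assoc c a x := by
    obtain ⟨m, rfl⟩ := twe_chi_mk_surjective χ x
    have h1 : (c • a) • twe_chi_mk G χ Mb m =
        twe_chi_mk G χ Mb ((twe_chi_sec (H := H) (c • a)) • m) := twe_chi_smul_mk χ _ m
    have h2 : a • twe_chi_mk G χ Mb m =
        twe_chi_mk G χ Mb ((twe_chi_sec (H := H) a) • m) := twe_chi_smul_mk χ _ m
    have h3 : (twe_chi_sec (H := H) (c • a)) • m = c • ((twe_chi_sec (H := H) a) • m) := by
      rw [map_smul, smul_assoc]
    rw [h1, h2, h3, LinearMap.map_smul]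

/-- `(g, δ)` acts on the `χ`-coinvariants as `χ δ • g`. -/
theorem twe_chi_mk_of_smul (g : G) (δ : H) (m : Mb) :
    twe_chi_mk G χ Mb (of 𝒪 (G × H) (g, δ) • m) =
      (χ δ : 𝒪) • (of 𝒪 G g • twe_chi_mk G χ Mb m) := by
  rw [twe_chi_mk_smul, twe_chi_ev_of', smul_assoc]

/-- **descent of endomorphisms** to the `χ`-coinvariants, as a ring homomorphism. -/
def twe_chi_map : Module.End (MonoidAlgebra 𝒪 (G × H)) Mb →+*
    Module.End (MonoidAlgebra 𝒪 G) (twe_chi_M G χ Mb) where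
  toFun f :=
    { toFun := (twe_chi_sub G χ Mb).mapQ (twe_chi_sub G χ Mb) f (by
        rw [twe_chi_sub, ← Submodule.map_le_iff_le_comap, Submodule.map_smul'']
        exact Submodule.smul_mono le_rfl le_top)
      map_add' := fun x y => map_add _ x y
      map_smul' := fun a x => by
        obtain ⟨m, rfl⟩ := twe_chi_mk_surjective χ x
        have h1 : a • twe_chi_mk G χ Mb m =
            twe_chi_mk G χ Mb ((twe_chi_sec (H := H) a) • m) := twe_chi_smul_mk χ _ m
        rw [h1]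
        show twe_chi_mk G χ Mb (f ((twe_chi_sec (H := H) a) • m)) =
          a • twe_chi_mk G χ Mb (f m)
        rw [LinearMap.map_smul f]
        exact (twe_chi_smul_mk χ a (f m)).symm }
  map_one' := by
    apply LinearMap.ext
    intro x
    obtain ⟨m, rfl⟩ := twe_chi_mk_surjective χ x
    rfl
  map_mul' f g := by
    apply LinearMap.ext
    intro x
    obtain ⟨m, rfl⟩ := twe_chi_mk_surjective χ x
    rfl
  map_zero' := by
    apply LinearMap.ext
    intro x
    obtain ⟨m, rfl⟩ := twe_chi_mk_surjective χ x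
    show twe_chi_mk G χ Mb ((0 : Module.End (MonoidAlgebra 𝒪 (G × H)) Mb) m) = 0
    rw [LinearMap.zero_apply, map_zero]
  map_add' f g := by
    apply LinearMap.ext
    intro x
    obtain ⟨m, rfl⟩ := twe_chi_mk_surjective χ x
    show twe_chi_mk G χ Mb ((f + g) m) = twe_chi_mk G χ Mb (f m) + twe_chi_mk G χ Mb (g m)
    rw [LinearMap.add_apply, map_add]

theorem twe_chi_map_mk (f : Module.End (MonoidAlgebra 𝒪 (G × H)) Mb) (m : Mb) :
    twe_chi_map χ f (twe_chi_mk G χ Mb m) = twe_chi_mk G χ Mb (f m) := rfl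

/-- the kernel of the quotient map, as an `𝒪`-submodule. -/
theorem twe_chi_ker_mk :
    LinearMap.ker (twe_chi_mk G χ Mb) = (twe_chi_sub G χ Mb).restrictScalars 𝒪 := by
  ext m
  rw [LinearMap.mem_ker, twe_chi_mk_eq_zero_iff, Submodule.restrictScalars_mem]

section Coinv

variable {M1 : Type*} [AddCommGroup M1] [Module 𝒪 M1] (c1 : Mb →ₗ[𝒪] M1)
  (hs : Function.Surjective c1)
  (hk : LinearMap.ker c1 = Submodule.span 𝒪
    {x : Mb | ∃ (δ : H) (m : Mb), x = of 𝒪 (G × H) (1, δ) • m - m})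

/-- **comparison with a given coinvariant map** (the shape of `twe_Big.c1`, `c1_surjective`,
`c1_ker`): the target of a surjection with kernel the `H`-augmentation submodule IS the
`1`-coinvariant module. -/
def twe_chi_equivOfCoinv : twe_chi_M G (1 : H →* 𝒪ˣ) Mb ≃ₗ[𝒪] M1 :=
  ((LinearMap.quotKerEquivOfSurjective (twe_chi_mk G (1 : H →* 𝒪ˣ) Mb)
      (twe_chi_mk_surjective 1)).symm.trans
    (Submodule.quotEquivOfEq _ _ (by
      rw [twe_chi_ker_mk, twe_chi_sub_one_eq_span, hk]))).trans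
    (LinearMap.quotKerEquivOfSurjective c1 hs)

theorem twe_chi_equivOfCoinv_mk (m : Mb) :
    twe_chi_equivOfCoinv c1 hs hk (twe_chi_mk G (1 : H →* 𝒪ˣ) Mb m) = c1 m := by
  have h1 : (LinearMap.quotKerEquivOfSurjective (twe_chi_mk G (1 : H →* 𝒪ˣ) Mb)
      (twe_chi_mk_surjective 1)).symm (twe_chi_mk G (1 : H →* 𝒪ˣ) Mb m) =
      Submodule.Quotient.mk m := by
    rw [LinearEquiv.symm_apply_eq]
    rfl
  rw [twe_chi_equivOfCoinv, LinearEquiv.trans_apply, LinearEquiv.trans_apply, h1]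
  rfl

/-- the comparison is `𝒪[G]`-linear as soon as `c1` is compatible with the `(g, 1)`. -/
theorem twe_chi_equivOfCoinv_smul [Module (MonoidAlgebra 𝒪 G) M1]
    [IsScalarTower 𝒪 (MonoidAlgebra 𝒪 G) M1]
    (hd : ∀ (g : G) (m : Mb), c1 (of 𝒪 (G × H) (g, 1) • m) = of 𝒪 G g • c1 m)
    (a : MonoidAlgebra 𝒪 G) (x : twe_chi_M G (1 : H →* 𝒪ˣ) Mb) :
    twe_chi_equivOfCoinv c1 hs hk (a • x) = a • twe_chi_equivOfCoinv c1 hs hk x := by
  obtain ⟨m, rfl⟩ := twe_chi_mk_surjective 1 x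
  have h1 : a • twe_chi_mk G (1 : H →* 𝒪ˣ) Mb m =
      twe_chi_mk G (1 : H →* 𝒪ˣ) Mb ((twe_chi_sec (H := H) a) • m) := twe_chi_smul_mk 1 _ m
  rw [h1, twe_chi_equivOfCoinv_mk, twe_chi_equivOfCoinv_mk]
  clear h1
  induction a using MonoidAlgebra.induction_on with
  | of g => rw [twe_chi_sec_of, hd]
  | add x y hx hy =>
    have h3 : (twe_chi_sec (H := H) (x + y)) • m =
        (twe_chi_sec (H := H) x) • m + (twe_chi_sec (H := H) y) • m := by
      rw [map_add, add_smul]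
    rw [h3, LinearMap.map_add, hx, hy, add_smul]
  | smul r x hx =>
    have h3 : (twe_chi_sec (H := H) (r • x)) • m = r • ((twe_chi_sec (H := H) x) • m) := by
      rw [map_smul, smul_assoc]
    rw [h3, LinearMap.map_smul, hx, smul_assoc]

end Coinv

section Hecke

variable {T : Type*} [CommRing T] [Module T Mb] [SMulCommClass T (MonoidAlgebra 𝒪 (G × H)) Mb]

/-- the action of a ring `T` commuting with `𝒪[G × H]` descends to the `χ`-coinvariants
(a ring homomorphism into the `𝒪[G]`-linear endomorphisms). -/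
def twe_chi_act : T →+* Module.End (MonoidAlgebra 𝒪 G) (twe_chi_M G χ Mb) :=
  (twe_chi_map χ).comp (Module.toModuleEnd (MonoidAlgebra 𝒪 (G × H)) Mb)

theorem twe_chi_act_mk (x : T) (m : Mb) :
    twe_chi_act χ x (twe_chi_mk G χ Mb m) = twe_chi_mk G χ Mb (x • m) := rfl

/-- the induced `T`-module structure on the `χ`-coinvariants (a `def`, not an instance: use
`letI`). -/
@[reducible] def twe_chi_moduleT : Module T (twe_chi_M G χ Mb) :=
  Module.compHom (twe_chi_M G χ Mb) (twe_chi_act (G := G) (Mb := Mb) (T := T) χ)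

theorem twe_chi_moduleT_smul_mk (x : T) (m : Mb) :
    letI := twe_chi_moduleT (G := G) (Mb := Mb) (T := T) χ
    x • twe_chi_mk G χ Mb m = twe_chi_mk G χ Mb (x • m) := rfl

theorem twe_chi_moduleT_smul_comm (x : T) (a : MonoidAlgebra 𝒪 G) (y : twe_chi_M G χ Mb) :
    letI := twe_chi_moduleT (G := G) (Mb := Mb) (T := T) χ
    x • a • y = a • x • y :=
  (twe_chi_act (G := G) (Mb := Mb) (T := T) χ x).map_smul a y

end Hecke

end

end Fermat.Agent.TW
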