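import Mathlib
import Fermat.Agent.TW.Aut.ChiAbsMod

/-!
# TW / Aut : bases and matrices of the `χ`-coinvariants (cell E/Chi, abstract part)

* `twe_chi_basis χ b` : a basis `b` of `Mb` over `𝒪[G × H]` induces a basis of `twe_chi_M G χ Mb`
  over `𝒪[G]` (the images of the `b i`); `twe_chi_basis_repr_mk`.
* `twe_chi_toMatrix` : the matrix of `twe_chi_map χ f` in the induced basis is the matrix of `f`
  mapped entrywise by `twe_chi_ev χ`.
* `twe_chi_toMatrix_congr` : for `χ ≡ χ' mod lam` the two matrices are congruent modulo `lam`.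
-/

set_option linter.unusedSectionVars false

namespace Fermat.Agent.TW

open MonoidAlgebra

noncomputable section

variable {𝒪 : Type*} [CommRing 𝒪] {G : Type*} {H : Type*} [CommGroup G] [CommGroup H]
variable (χ : H →* 𝒪ˣ) {Mb : Type*} [AddCommGroup Mb] [Module 𝒪 Mb]
  [Module (MonoidAlgebra 𝒪 (G × H)) Mb] [IsScalarTower 𝒪 (MonoidAlgebra 𝒪 (G × H)) Mb]
variable {ι : Type*} (b : Module.Basis ι (MonoidAlgebra 𝒪 (G × H)) Mb)

/-- the coordinates of an element of `ker (ev χ) • Mb` lie in `ker (ev χ)`. -/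
theorem twe_chi_repr_mem_of_mem_sub {m : Mb} (hm : m ∈ twe_chi_sub G χ Mb) (i : ι) :
    twe_chi_ev (G := G) χ (b.repr m i) = 0 := by
  rw [twe_chi_sub] at hm
  refine Submodule.smul_induction_on hm ?_ ?_
  · intro r hr n _
    rw [map_smul, Finsupp.smul_apply, smul_eq_mul, map_mul, RingHom.mem_ker.mp hr, zero_mul]
  · intro x y hx hy
    rw [map_add, Finsupp.add_apply, map_add, hx, hy, add_zero]

/-- conversely. -/
theorem twe_chi_mem_sub_of_repr (m : Mb)
    (h : ∀ i, twe_chi_ev (G := G) χ (b.repr m i) = 0) : m ∈ twe_chi_sub G χ Mb := by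
  rw [← b.linearCombination_repr m, Finsupp.linearCombination_apply]
  refine Submodule.sum_mem _ fun i _ => ?_
  exact twe_chi_smul_mem_sub χ (h i) (b i)

/-- the linear combination map `(ι →₀ 𝒪[G]) → M^χ`, `e_i ↦ [b i]`. -/
def twe_chi_comb : (ι →₀ MonoidAlgebra 𝒪 G) →ₗ[MonoidAlgebra 𝒪 G] twe_chi_M G χ Mb :=
  Finsupp.linearCombination (MonoidAlgebra 𝒪 G) (fun i => twe_chi_mk G χ Mb (b i))

theorem twe_chi_comb_mapRange (v : ι →₀ MonoidAlgebra 𝒪 (G × H)) :
    twe_chi_comb χ b (Finsupp.mapRange (twe_chi_ev (G := G) χ) (map_zero _) v) =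
      twe_chi_mk G χ Mb (Finsupp.linearCombination (MonoidAlgebra 𝒪 (G × H)) b v) := by
  induction v using Finsupp.induction_linear with
  | zero => simp
  | add f g hf hg =>
    rw [Finsupp.mapRange_add (by intro x y; exact map_add _ x y), map_add, map_add, map_add,
      hf, hg]
  | single i r =>
    rw [Finsupp.mapRange_single, twe_chi_comb, Finsupp.linearCombination_single,
      Finsupp.linearCombination_single, twe_chi_mk_smul]

theorem twe_chi_comb_surjective : Function.Surjective (twe_chi_comb χ b) := by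
  intro x
  obtain ⟨m, rfl⟩ := twe_chi_mk_surjective χ x
  refine ⟨Finsupp.mapRange (twe_chi_ev (G := G) χ) (map_zero _) (b.repr m), ?_⟩
  rw [twe_chi_comb_mapRange, b.linearCombination_repr]

theorem twe_chi_comb_injective : Function.Injective (twe_chi_comb χ b) := by
  rw [← LinearMap.ker_eq_bot, LinearMap.ker_eq_bot']
  intro v hv
  have h1 : v = Finsupp.mapRange (twe_chi_ev (G := G) χ) (map_zero _)
      (Finsupp.mapRange (twe_chi_sec (G := G) (H := H)) (map_zero _) v) := by
    ext1 i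
    rw [Finsupp.mapRange_apply, Finsupp.mapRange_apply, twe_chi_ev_sec]
  rw [h1, twe_chi_comb_mapRange, twe_chi_mk_eq_zero_iff] at hv
  ext1 i
  have h2 := twe_chi_repr_mem_of_mem_sub χ b hv i
  rw [b.repr_linearCombination, Finsupp.mapRange_apply, twe_chi_ev_sec] at h2
  rw [h2, Finsupp.zero_apply]

/-- **the induced basis** of the `χ`-coinvariants over `𝒪[G]`. -/
def twe_chi_basis : Module.Basis ι (MonoidAlgebra 𝒪 G) (twe_chi_M G χ Mb) :=
  Module.Basis.ofRepr (LinearEquiv.ofBijective (twe_chi_comb χ b)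
    ⟨twe_chi_comb_injective χ b, twe_chi_comb_surjective χ b⟩).symm

theorem twe_chi_basis_apply (i : ι) : twe_chi_basis χ b i = twe_chi_mk G χ Mb (b i) := by
  rw [twe_chi_basis, Module.Basis.coe_ofRepr, LinearEquiv.symm_symm]
  show twe_chi_comb χ b (Finsupp.single i 1) = _
  rw [twe_chi_comb, Finsupp.linearCombination_single, one_smul]

theorem twe_chi_basis_repr_mk (m : Mb) :
    (twe_chi_basis χ b).repr (twe_chi_mk G χ Mb m) =
      Finsupp.mapRange (twe_chi_ev (G := G) χ) (map_zero _) (b.repr m) := by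
  show (LinearEquiv.ofBijective (twe_chi_comb χ b)
    ⟨twe_chi_comb_injective χ b, twe_chi_comb_surjective χ b⟩).symm (twe_chi_mk G χ Mb m) = _
  rw [LinearEquiv.symm_apply_eq]
  show _ = twe_chi_comb χ b _
  rw [twe_chi_comb_mapRange, b.linearCombination_repr]

instance twe_chi_free [Module.Free (MonoidAlgebra 𝒪 (G × H)) Mb] :
    Module.Free (MonoidAlgebra 𝒪 G) (twe_chi_M G χ Mb) :=
  Module.Free.of_basis (twe_chi_basis χ (Module.Free.chooseBasis (MonoidAlgebra 𝒪 (G × H)) Mb))

variable [Fintype ι] [DecidableEq ι]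

/-- **matrices are mapped entrywise by `twe_chi_ev χ`.** -/
theorem twe_chi_toMatrix (f : Module.End (MonoidAlgebra 𝒪 (G × H)) Mb) :
    LinearMap.toMatrix (twe_chi_basis χ b) (twe_chi_basis χ b) (twe_chi_map χ f) =
      (LinearMap.toMatrix b b f).map (twe_chi_ev (G := G) χ) := by
  ext i j
  rw [LinearMap.toMatrix_apply, Matrix.map_apply, LinearMap.toMatrix_apply, twe_chi_basis_apply,
    twe_chi_map_mk, twe_chi_basis_repr_mk, Finsupp.mapRange_apply]

/-- **congruent characters give congruent matrices** in the induced bases. -/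
theorem twe_chi_toMatrix_congr (χ' : H →* 𝒪ˣ) (lam : 𝒪)
    (h : ∀ δ, (χ δ : 𝒪) - (χ' δ : 𝒪) ∈ Ideal.span {lam})
    (f : Module.End (MonoidAlgebra 𝒪 (G × H)) Mb) (i j : ι) :
    LinearMap.toMatrix (twe_chi_basis χ b) (twe_chi_basis χ b) (twe_chi_map χ f) i j -
      LinearMap.toMatrix (twe_chi_basis χ' b) (twe_chi_basis χ' b) (twe_chi_map χ' f) i j ∈
        Ideal.span {algebraMap 𝒪 (MonoidAlgebra 𝒪 G) lam} := by
  rw [twe_chi_toMatrix, twe_chi_toMatrix, Matrix.map_apply, Matrix.map_apply]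
  exact twe_chi_ev_congr χ χ' lam h _

end

end Fermat.Agent.TW
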