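/-
ONE MACHINE / block [E] AUT: TRANSITIVITY OF THE TRANSFER (helper22).
Namespace `Fermat.Agent.TW`, prefix `twe_ct_`.  Mathlib + `TW/Aut/ResCor.lean`.

`Γ'' ≤ Γ' ≤ Γ` subgroups of a group `𝔾`, `ρ' : ι' → 𝔾` a system of left coset representatives of
`Γ'` in `Γ`, `ρ'' : ι'' → 𝔾` one of `Γ''` in `Γ'`.  Then `(i, j) ↦ ρ' i * ρ'' j` is a system of
representatives of `Γ''` in `Γ` (`twe_ct_mem`, `twe_ct_bij`) and

  `twe_ct_cor_trans : cor_{ρ' ρ''} = cor_{ρ'} ∘ cor_{ρ''}`.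
-/
import Mathlib
import Fermat.Agent.TW.Aut.ResCor

set_option autoImplicit false
set_option linter.unusedSectionVars false
set_option linter.unusedVariables false

noncomputable section

namespace Fermat.Agent.TW

section trans

variable {𝔾 : Type*} [Group 𝔾] {Γ Γ' Γ'' : Subgroup 𝔾}
  {ι' ι'' : Type*} {ρ' : ι' → 𝔾} {ρ'' : ι'' → 𝔾}
  (hle' : Γ' ≤ Γ) (hle'' : Γ'' ≤ Γ')
  (hρ' : ∀ i, ρ' i ∈ Γ) (hbij' : ∀ γ ∈ Γ, ∃! i, (ρ' i)⁻¹ * γ ∈ Γ')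
  (hρ'' : ∀ j, ρ'' j ∈ Γ') (hbij'' : ∀ γ ∈ Γ', ∃! j, (ρ'' j)⁻¹ * γ ∈ Γ'')

include hle' hρ' hρ'' in
/-- the composite representatives lie in `Γ`. -/
theorem twe_ct_mem (x : ι' × ι'') : ρ' x.1 * ρ'' x.2 ∈ Γ :=
  mul_mem (hρ' x.1) (hle' (hρ'' x.2))

include hle'' hρ' hbij' hρ'' hbij'' in
/-- the composite representatives form a system of left coset representatives of `Γ''` in `Γ`. -/
theorem twe_ct_bij : ∀ γ ∈ Γ, ∃! x : ι' × ι'', (ρ' x.1 * ρ'' x.2)⁻¹ * γ ∈ Γ'' := by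
  intro γ hγ
  obtain ⟨i, hi, hiu⟩ := hbij' γ hγ
  obtain ⟨j, hj, hju⟩ := hbij'' ((ρ' i)⁻¹ * γ) hi
  refine ⟨(i, j), ?_, ?_⟩
  · show (ρ' i * ρ'' j)⁻¹ * γ ∈ Γ''
    rw [mul_inv_rev, mul_assoc]
    exact hj
  · rintro ⟨i', j'⟩ h
    have h1 : (ρ'' j')⁻¹ * ((ρ' i')⁻¹ * γ) ∈ Γ'' := by
      have : (ρ' i' * ρ'' j')⁻¹ * γ ∈ Γ'' := h
      rwa [mul_inv_rev, mul_assoc] at this
    have h2 : (ρ' i')⁻¹ * γ ∈ Γ' := by
      have h3 := mul_mem (hρ'' j') (hle'' h1)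
      rwa [mul_inv_cancel_left] at h3
    have hi' : i' = i := hiu i' h2
    subst hi'
    have hj' : j' = j := hju j' h1
    subst hj'
    rfl

variable [Fintype ι'] [Fintype ι''] {A : Type*} [AddCommGroup A]

/-- **transitivity of the transfer.** -/
theorem twe_ct_cor_trans (z : Additive Γ'' →+ A) :
    twe_rc_cor (ρ := fun x : ι' × ι'' => ρ' x.1 * ρ'' x.2) (twe_ct_mem hle' hρ' hρ'')
      (twe_ct_bij hle'' hρ' hbij' hρ'' hbij'') z =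
      twe_rc_cor hρ' hbij' (twe_rc_cor hρ'' hbij'' z) := by
  refine AddMonoidHom.ext fun γ => ?_
  obtain ⟨γ, rfl⟩ := Additive.ofMul.surjective γ
  rw [twe_rc_cor_apply, twe_rc_cor_apply, Fintype.sum_prod_type]
  refine Finset.sum_congr rfl fun i _ => ?_
  rw [twe_rc_cor_apply]
  refine Finset.sum_congr rfl fun j _ => ?_
  congr 2
  -- the index of the composite system
  have hsig : twe_rc_sig (ρ := fun x : ι' × ι'' => ρ' x.1 * ρ'' x.2) (twe_ct_mem hle' hρ' hρ'')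
      (twe_ct_bij hle'' hρ' hbij' hρ'' hbij'') γ (i, j) =
      (twe_rc_sig hρ' hbij' γ i, twe_rc_sig hρ'' hbij'' (twe_rc_term hρ' hbij' γ i) j) := by
    symm
    refine twe_rc_sig_unique (ρ := fun x : ι' × ι'' => ρ' x.1 * ρ'' x.2) _ _ γ (i, j) ?_
    have h1 := twe_rc_sig_spec hρ'' hbij'' (twe_rc_term hρ' hbij' γ i) j
    rw [twe_rc_term_coe] at h1
    have h2 : (ρ' (twe_rc_sig hρ' hbij' γ i) *
        ρ'' (twe_rc_sig hρ'' hbij'' (twe_rc_term hρ' hbij' γ i) j))⁻¹ * (γ : 𝔾) *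
        (ρ' i * ρ'' j) =
        (ρ'' (twe_rc_sig hρ'' hbij'' (twe_rc_term hρ' hbij' γ i) j))⁻¹ *
          ((ρ' (twe_rc_sig hρ' hbij' γ i))⁻¹ * (γ : 𝔾) * ρ' i) * ρ'' j := by
      group
    show (ρ' (twe_rc_sig hρ' hbij' γ i) *
        ρ'' (twe_rc_sig hρ'' hbij'' (twe_rc_term hρ' hbij' γ i) j))⁻¹ * (γ : 𝔾) *
        (ρ' i * ρ'' j) ∈ Γ''
    rw [h2]
    exact h1
  apply Subtype.ext
  rw [twe_rc_term_coe, twe_rc_term_coe, twe_rc_term_coe, hsig]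
  show (ρ' (twe_rc_sig hρ' hbij' γ i) *
      ρ'' (twe_rc_sig hρ'' hbij'' (twe_rc_term hρ' hbij' γ i) j))⁻¹ * (γ : 𝔾) *
      (ρ' i * ρ'' j) = _
  group

end trans

end Fermat.Agent.TW
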