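/-
Project ONE MACHINE (S43), block [E] AUT, cell (C1), fullness part (helper2; prefix `twe_dtf_`).

From the full output `twe_dt_Full 𝒪 N S θ` of E/Datum (`TW/Aut/DatumAbs.lean`, helper7) to the
fullness clause `twe_Base.IsFull` of `TW/Aut/SeamDefs.lean` (helper3): the module `M_∅ = range ι`
is `e · Hom(gh_H N, 𝒪)`, which is the WHOLE `θ`-primary part (`twe_pr_iff`), for every lift `a`.

* `twe_dtf_isFull`  : `F.base.IsFull` for `F : twe_dt_Full 𝒪 N S θ`;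
* `twe_dtf_M1F_of`  : `twe_M1F_stmt` from "E/Datum produces a `twe_dt_Full`".
-/
import Mathlib
import Fermat.Agent.TW.Aut.DatumAbs
import Fermat.Agent.TW.Aut.SeamDefs
import Fermat.Agent.JT3.Tate.Continuous

set_option autoImplicit false
set_option linter.unusedSectionVars false
set_option linter.unusedVariables false
set_option linter.style.haveILetI false

noncomputable section

namespace Fermat.Agent.TW

open Polynomial CuspForm IsLocalRing Fermat.Agent.JT3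

variable {𝒪 : Type} [CommRing 𝒪] [IsDomain 𝒪] [IsDiscreteValuationRing 𝒪]
  [IsAdicComplete (maximalIdeal 𝒪) 𝒪]
  {N : ℕ} [NeZero N] {S : Finset ℕ} {θ : heckeAlgebra N 2 (↑S : Set ℕ) →+* ResidueField 𝒪}

/-- **fullness of the E/Datum package**: `M_∅ = e · Hom(gh_H N, 𝒪)` is the whole `θ`-primary
part. -/
theorem twe_dtf_isFull (F : twe_dt_Full 𝒪 N S θ) : F.base.IsFull := by
  intro a ha x hx
  -- `X = Hom(gh_H N, 𝒪)` as a `B`-module through `act`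
  letI instMod : Module F.B (gh_H N →+ 𝒪) :=
    Module.compHom (gh_H N →+ 𝒪) (F.act : F.B →+* Module.End 𝒪 (gh_H N →+ 𝒪))
  have hsmul : ∀ (b : F.B) (y : gh_H N →+ 𝒪), b • y = F.act b y := fun _ _ => rfl
  haveI : IsScalarTower 𝒪 F.B (gh_H N →+ 𝒪) := ⟨fun c b y => by
    rw [hsmul, hsmul, map_smul]
    rfl⟩
  haveI : Module.Finite 𝒪 (gh_H N →+ 𝒪) := tm_hom_finite (gh_H N) 𝒪
  -- the operators agree
  have hop : twe_pr_op 𝒪 (gh_H N →+ 𝒪) F.τ = twe_sm_TX 𝒪 N (twe_sm_q N S) := by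
    funext i
    refine LinearMap.ext fun y => ?_
    rw [twe_pr_op_apply, hsmul, F.act_τ]
    rfl
  -- `ker θB = 𝔪 B + (τ ℓ - a ℓ)`
  have hθ : ∀ i, F.θB (F.τ i) = residue 𝒪 (a i) := by
    intro i
    rw [F.θB_τ, ha i]
    rfl
  have hker := twe_lam_ker_eq F.τ a F.adjoin_τ F.θB hθ
  have h1 : ∀ b ∈ twe_lam_n F.τ a, ∃ n, 0 < n ∧ (F.e * b) ^ n ∈ twe_la_J 𝒪 F.B := by
    intro b hb
    rw [← hker] at hb
    exact F.e_nil b hb
  have h2 : 1 - F.e ∈ twe_lam_n F.τ a := by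
    rw [← hker, RingHom.mem_ker]
    change F.θB (1 - F.e) = 0
    rw [map_sub, map_one, F.θB_e, sub_self]
  have hx' : x ∈ twe_pr_prim (twe_pr_op 𝒪 (gh_H N →+ 𝒪) F.τ) a := by
    rw [hop]
    exact hx
  have hfix : F.e • x = x := (twe_pr_iff F.τ a F.e_idem h1 h2 x).mpr hx'
  rw [F.range_ι]
  exact ⟨x, (hsmul F.e x).symm.trans hfix⟩

/-- **(M1F) from E/Datum**: if E/Datum produces a `twe_dt_Full` package under the hypotheses of
`twe_M1F_stmt`, then `twe_M1F_stmt` holds. -/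
theorem twe_dtf_M1F_of
    (h : ∀ (p : ℕ) [Fact p.Prime], 5 ≤ p →
      ∀ (𝒪 : Type) [CommRing 𝒪] [IsDomain 𝒪] [IsDiscreteValuationRing 𝒪]
        [IsAdicComplete (maximalIdeal 𝒪) 𝒪] [Finite (ResidueField 𝒪)] [CharZero 𝒪],
        (p : 𝒪) ∈ maximalIdeal 𝒪 →
      ∀ (N : ℕ) [NeZero N], ¬ p ∣ N →
      ∀ (S : Finset ℕ), p ∈ S → (∀ ℓ : ℕ, ℓ.Prime → ℓ ∣ N → ℓ ∈ S) →
      ∀ (θ : heckeAlgebra N 2 (↑S : Set ℕ) →+* ResidueField 𝒪)
        (ρbar : ResidualGaloisRep (ResidueField 𝒪)),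
        twt_Compat θ ρbar → ρbar.IsAbsolutelyIrreducible →
        Nonempty (twe_dt_Full 𝒪 N S θ)) :
    twe_M1F_stmt := by
  intro p _ hp5 𝒪 _ _ _ _ _ _ hp𝒪 N _ hpN S hpS hNS θ ρbar hc hirr
  obtain ⟨F⟩ := h p hp5 𝒪 hp𝒪 N hpN S hpS hNS θ ρbar hc hirr
  exact ⟨F.base, twe_dtf_isFull F⟩

end Fermat.Agent.TW
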