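import Mathlib
import Fermat.Agent.LR.PD.Pairs
import Fermat.Agent.LR.PD.Adapt
import Fermat.Agent.LR.MTX.Level
import Fermat.Agent.LR.MTX.Homology

/-!
# ONE MACHINE / block [E] AUT, cell E/HeckeAdj (helper14).  Prefix `twe_ha_`.

`T_ℓ` (`ℓ ∤ M`) is self-adjoint for the Poincaré pairing at the TOP level `Γ₀(M)`:

* `twe_ha_pair` : pair-level form, for any `lrpd_ad_Theory k Om`:
  `Om (T_ℓ x) y = Om x (T_ℓ y)` on `gh_parEllHoms M k`;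
* `twe_ha_Om_eq` : `lrpd_pa_Om S (Γ₀(M)) subtype x y = S.Om (Γ₀(M)) x y` ((S4) along
  `(Γ₀(M)).subtype.range ≃* Γ₀(M)`);
* **`twe_ha_main`** : for `S : lrpd_SFam k` and `x y : Additive ↥(Gamma0 M) →+ k` PE-killing:
  `S.Om (Gamma0 M) (t2c_Tadd hℓM x) y = S.Om (Gamma0 M) x (t2c_Tadd hℓM y)`.

Route: `T_ℓ = B_* A^* = A_* B^*` (`lrm_corB_resA`, `lrm_corA_resB`), adjointness of `A^*, A_*` and
`B^*, B_*` (`lrpd_ad_adjA`, `lrpd_ad_adjB`) and skew-symmetry twice.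
-/

set_option autoImplicit false

noncomputable section

namespace Fermat.Agent.TW

open CongruenceSubgroup Matrix.SpecialLinearGroup
open scoped MatrixGroups
open Fermat.Agent.LR Fermat.Agent.JT3

variable {k : Type} [Field k] {M ℓ : ℕ} [NeZero M] [Fact ℓ.Prime]

/-- pair-level self-adjointness of `T_ℓ` at level `Γ₀(M)`. -/
theorem twe_ha_pair {Om : lrpd_ad_Form k} (hOm : lrpd_ad_Theory k Om) (hℓM : ¬ ℓ ∣ M)
    (x y : Additive (Gamma0 M) →+ k) (hx : x ∈ gh_parEllHoms M k) (hy : y ∈ gh_parEllHoms M k) :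
    Om (Gamma0 M) (Gamma0 M).subtype (t2c_Tadd hℓM x) y =
      Om (Gamma0 M) (Gamma0 M).subtype x (t2c_Tadd hℓM y) := by
  have hℓ0 : ℓ ≠ 0 := (Fact.out : ℓ.Prime).ne_zero
  have : NeZero (M * ℓ) := ⟨mul_ne_zero (NeZero.ne M) hℓ0⟩
  have hA := lrpd_ad_Adm_Gamma0 M
  have hA' := lrpd_ad_Adm_Gamma0 (M * ℓ)
  have hrAx : lrm_resA M ℓ x ∈ gh_parEllHoms (M * ℓ) k := lrh_resA_mem hx
  have hrBy : lrm_resB hℓM y ∈ gh_parEllHoms (M * ℓ) k := lrh_resB_mem hℓM hy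
  have hcB : lrm_corB hℓM (lrm_resA M ℓ x) ∈ gh_parEllHoms M k := lrh_corB_mem hℓM hrAx
  rw [← lrm_corB_resA hℓM x, hOm.skew _ _ hA _ _ hcB hy,
    ← lrpd_ad_adjB hOm hℓM y (lrm_resA M ℓ x) hy hrAx,
    hOm.skew _ _ hA' _ _ hrBy hrAx, neg_neg,
    lrpd_ad_adjA hOm hℓM x (lrm_resB hℓM y) hx hrBy, lrm_corA_resB]

omit [NeZero M] in
/-- `lrpd_PE` at the subgroup `Γ₀(M)` is membership in `gh_parEllHoms`. -/
theorem twe_ha_PE_iff {F : Type*} [AddCommGroup F] (x : Additive (Gamma0 M) →+ F) :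
    lrpd_PE (Gamma0 M) x ↔ x ∈ gh_parEllHoms M F := by
  rw [← lrpd_ad_PE_Gamma0, lrpd_ad_mem_PE]
  unfold lrpd_PE lrpd_ad_IsParEll
  constructor
  · intro h γ hγ
    apply h
    rw [← lrpd_pa_tr]
    exact hγ
  · intro h γ hγ
    apply h
    rw [← lrpd_pa_tr] at hγ
    exact hγ

/-- (S4) along `(Γ₀(M)).subtype.range ≃* Γ₀(M)`: the pair-level form at `Γ₀(M)` is the
subgroup-level form. -/
theorem twe_ha_Om_eq (S : lrpd_SFam k) (x y : Additive (Gamma0 M) →+ k)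
    (hx : lrpd_PE (Gamma0 M) x) (hy : lrpd_PE (Gamma0 M) y) :
    lrpd_pa_Om S (Gamma0 M) (Gamma0 M).subtype x y = S.Om (Gamma0 M) x y := by
  have hinj : Function.Injective (Gamma0 M).subtype := Subtype.val_injective
  rw [lrpd_pa_Om_eq S _ hinj]
  have hA := lrpd_ad_Adm_Gamma0 M
  have := hA.fin
  have hneg1 : (-1 : SL(2, ℤ)) ∈ (Gamma0 M).subtype.range := hA.neg
  have hneg2 : (-1 : SL(2, ℤ)) ∈ Gamma0 M := by
    rw [Gamma0_mem]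
    simp
  have hco : ∀ γ : (Gamma0 M).subtype.range,
      ((((lrpd_pa_e (Gamma0 M).subtype hinj).symm γ : Gamma0 M)) : SL(2, ℤ)) = (γ : SL(2, ℤ)) :=
    fun γ => lrpd_pa_e_symm (Gamma0 M).subtype hinj γ
  exact S.transport _ _ hneg1 hneg2 (lrpd_pa_e (Gamma0 M).subtype hinj).symm
    (fun γ => by rw [hco]) (fun γ _ => by rw [hco]) x y hx hy

/-- **E/HeckeAdj**: `T_ℓ` is self-adjoint for `S.Om (Γ₀(M))`. -/
theorem twe_ha_main (S : lrpd_SFam k) (hℓM : ¬ ℓ ∣ M) (x y : Additive (Gamma0 M) →+ k)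
    (hx : lrpd_PE (Gamma0 M) x) (hy : lrpd_PE (Gamma0 M) y) :
    S.Om (Gamma0 M) (t2c_Tadd hℓM x) y = S.Om (Gamma0 M) x (t2c_Tadd hℓM y) := by
  have hx' := (twe_ha_PE_iff x).mp hx
  have hy' := (twe_ha_PE_iff y).mp hy
  have hℓ0 : ℓ ≠ 0 := (Fact.out : ℓ.Prime).ne_zero
  have : NeZero (M * ℓ) := ⟨mul_ne_zero (NeZero.ne M) hℓ0⟩
  have hTx : t2c_Tadd hℓM x ∈ gh_parEllHoms M k := by
    rw [← lrm_corB_resA hℓM x]
    exact lrh_corB_mem hℓM (lrh_resA_mem hx')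
  have hTy : t2c_Tadd hℓM y ∈ gh_parEllHoms M k := by
    rw [← lrm_corB_resA hℓM y]
    exact lrh_corB_mem hℓM (lrh_resA_mem hy')
  rw [← twe_ha_Om_eq S _ _ ((twe_ha_PE_iff _).mpr hTx) hy,
    ← twe_ha_Om_eq S _ _ hx ((twe_ha_PE_iff _).mpr hTy)]
  exact twe_ha_pair (lrpd_pa_theory S) hℓM x y hx' hy'

/-- `T_ℓ` preserves the PE-killing characters of `Γ₀(M)`. -/
theorem twe_ha_T_PE {F : Type*} [AddCommGroup F] (hℓM : ¬ ℓ ∣ M) (x : Additive (Gamma0 M) →+ F)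
    (hx : lrpd_PE (Gamma0 M) x) : lrpd_PE (Gamma0 M) (t2c_Tadd hℓM x) := by
  have hℓ0 : ℓ ≠ 0 := (Fact.out : ℓ.Prime).ne_zero
  have : NeZero (M * ℓ) := ⟨mul_ne_zero (NeZero.ne M) hℓ0⟩
  rw [twe_ha_PE_iff] at hx ⊢
  rw [← lrm_corB_resA hℓM x]
  exact lrh_corB_mem hℓM (lrh_resA_mem hx)

end Fermat.Agent.TW
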