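/-
Project ONE MACHINE (S43), block [E] AUT, cell (C5), auxiliary part (helper2; prefix `twe_oia_`).

The cheap hypotheses of `twe_old_split` (`TW/Aut/OldSplit.lean`) for the `θ`-primary parts
`PA := twe_oim_P pr a M₁`, `PB := twe_oim_P pr a (M₁ t)` of `TW/Aut/OldIterMain.lean`:

* `twe_oia_idag_mem` (`hj`) : `i†(P(M₁ t)) ⊆ P(M₁)²`;
* `twe_oia_Tt_mem`   (`hT`) : `P(M₁)` is stable under `ψ ↦ ψ ∘ T_t`;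
* `twe_oia_split`          : `twe_old_split` in this vocabulary: from an inverse `D'` of
  `T_t² - (t+1)²` on `P(M₁)` and the injectivity `(N)` of `i†` on `P(M₁ t)` to the two clauses
  (`lrh_i` injective on `P(M₁)²`, onto `P(M₁ t)`) consumed by `twe_oim_main` / `twe_ois_One_stmt`.
-/
import Mathlib
import Fermat.Agent.TW.Aut.OldIterMain
import Fermat.Agent.TW.Aut.OldSplit

set_option autoImplicit false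
set_option linter.unusedSectionVars false
set_option linter.unusedVariables false
set_option linter.style.haveILetI false

noncomputable section

namespace Fermat.Agent.TW

open IsLocalRing Fermat.Agent.JT3 Fermat.Agent.LR

universe u

variable {𝒪 : Type u} [CommRing 𝒪] [IsLocalRing 𝒪] {L : Type*} (pr : L → ℕ) (a : L → 𝒪)
  {M₁ t : ℕ} [NeZero M₁] [Fact t.Prime] (htM : ¬ t ∣ M₁) [NeZero (M₁ * t)]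

/-- `φ ↦ φ ∘ Aᵗ`, `𝒪`-linear. -/
def twe_oia_preAt (𝒪 : Type u) [CommRing 𝒪] {M₁ t : ℕ} [Fact t.Prime] (htM : ¬ t ∣ M₁) :
    (gh_H (M₁ * t) →+ 𝒪) →ₗ[𝒪] (gh_H M₁ →+ 𝒪) where
  toFun φ := φ.comp (lrh_At htM)
  map_add' _ _ := rfl
  map_smul' _ _ := rfl

/-- `φ ↦ φ ∘ Bᵗ`, `𝒪`-linear. -/
def twe_oia_preBt (𝒪 : Type u) [CommRing 𝒪] {M₁ t : ℕ} [Fact t.Prime] (htM : ¬ t ∣ M₁) :
    (gh_H (M₁ * t) →+ 𝒪) →ₗ[𝒪] (gh_H M₁ →+ 𝒪) where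
  toFun φ := φ.comp (lrh_Bt htM)
  map_add' _ _ := rfl
  map_smul' _ _ := rfl

theorem twe_oia_idag_eq (φ : gh_H (M₁ * t) →+ 𝒪) :
    lrh_idag htM 𝒪 φ = (twe_oia_preAt 𝒪 htM φ, twe_oia_preBt 𝒪 htM φ) := rfl

variable (hpr : ∀ ℓ, (pr ℓ).Prime) (hprM : ∀ ℓ, ¬ pr ℓ ∣ M₁ * t)

include hpr hprM

theorem twe_oia_preAt_T (ℓ : L) (φ : gh_H (M₁ * t) →+ 𝒪) :
    twe_oia_preAt 𝒪 htM (twe_oim_T 𝒪 pr (M₁ * t) ℓ φ) =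
      twe_oim_T 𝒪 pr M₁ ℓ (twe_oia_preAt 𝒪 htM φ) := by
  haveI : Fact (pr ℓ).Prime := ⟨hpr ℓ⟩
  have h1 : twe_oim_T 𝒪 pr (M₁ * t) ℓ φ = φ.comp (t2e_TH (hprM ℓ)) :=
    lrtop_ha_pre_eq_TH 𝒪 (hprM ℓ) φ
  have h2 : twe_oim_T 𝒪 pr M₁ ℓ (twe_oia_preAt 𝒪 htM φ) =
      (twe_oia_preAt 𝒪 htM φ).comp (t2e_TH (twe_oim_not_dvd (hprM ℓ))) :=
    lrtop_ha_pre_eq_TH 𝒪 (twe_oim_not_dvd (hprM ℓ)) _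
  rw [h1, h2]
  show (φ.comp (t2e_TH _)).comp (lrh_At htM) = (φ.comp (lrh_At htM)).comp (t2e_TH _)
  rw [AddMonoidHom.comp_assoc, AddMonoidHom.comp_assoc,
    lre_At_TH htM (twe_oim_not_dvd (hprM ℓ)) (hprM ℓ)]

theorem twe_oia_preBt_T (ℓ : L) (φ : gh_H (M₁ * t) →+ 𝒪) :
    twe_oia_preBt 𝒪 htM (twe_oim_T 𝒪 pr (M₁ * t) ℓ φ) =
      twe_oim_T 𝒪 pr M₁ ℓ (twe_oia_preBt 𝒪 htM φ) := by
  haveI : Fact (pr ℓ).Prime := ⟨hpr ℓ⟩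
  have h1 : twe_oim_T 𝒪 pr (M₁ * t) ℓ φ = φ.comp (t2e_TH (hprM ℓ)) :=
    lrtop_ha_pre_eq_TH 𝒪 (hprM ℓ) φ
  have h2 : twe_oim_T 𝒪 pr M₁ ℓ (twe_oia_preBt 𝒪 htM φ) =
      (twe_oia_preBt 𝒪 htM φ).comp (t2e_TH (twe_oim_not_dvd (hprM ℓ))) :=
    lrtop_ha_pre_eq_TH 𝒪 (twe_oim_not_dvd (hprM ℓ)) _
  rw [h1, h2]
  show (φ.comp (t2e_TH _)).comp (lrh_Bt htM) = (φ.comp (lrh_Bt htM)).comp (t2e_TH _)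
  rw [AddMonoidHom.comp_assoc, AddMonoidHom.comp_assoc,
    lre_Bt_TH htM (twe_oim_not_dvd (hprM ℓ)) (hprM ℓ)]

/-- **`hj`**: `i†` maps `P(M₁ t)` into `P(M₁)²`. -/
theorem twe_oia_idag_mem {φ : gh_H (M₁ * t) →+ 𝒪} (hφ : φ ∈ twe_oim_P pr a (M₁ * t)) :
    (lrh_idag htM 𝒪 φ).1 ∈ twe_oim_P pr a M₁ ∧ (lrh_idag htM 𝒪 φ).2 ∈ twe_oim_P pr a M₁ := by
  rw [twe_oia_idag_eq]
  exact ⟨twe_pr_map_prim (twe_oia_preAt 𝒪 htM) (twe_oim_T 𝒪 pr (M₁ * t)) (twe_oim_T 𝒪 pr M₁)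
      (fun ℓ x => twe_oia_preAt_T pr htM hpr hprM ℓ x) a hφ,
    twe_pr_map_prim (twe_oia_preBt 𝒪 htM) (twe_oim_T 𝒪 pr (M₁ * t)) (twe_oim_T 𝒪 pr M₁)
      (fun ℓ x => twe_oia_preBt_T pr htM hpr hprM ℓ x) a hφ⟩

omit hpr hprM [NeZero (M₁ * t)] in
/-- **`hT`**: `P(M₁)` is stable under `ψ ↦ ψ ∘ T_t`. -/
theorem twe_oia_Tt_mem [NoZeroSMulDivisors ℕ 𝒪] {ψ : gh_H M₁ →+ 𝒪}
    (hψ : ψ ∈ twe_oim_P pr a M₁) : ψ.comp (t2e_TH htM) ∈ twe_oim_P pr a M₁ := by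
  have h1 : lrtop_ha_preLin M₁ 𝒪 𝒪 t ψ = ψ.comp (t2e_TH htM) := lrtop_ha_pre_eq_TH 𝒪 htM ψ
  rw [← h1]
  exact twe_pr_prim_stable _ a (lrtop_ha_preLin M₁ 𝒪 𝒪 t)
    (fun ℓ => LinearMap.ext fun χ => lrtop_ha_pre_comm t (pr ℓ) χ) hψ

/-- **`twe_old_split` for the primary parts.** -/
theorem twe_oia_split [NoZeroSMulDivisors ℕ 𝒪]
    (D' : (gh_H M₁ →+ 𝒪) →+ (gh_H M₁ →+ 𝒪))
    (hD'P : ∀ ψ ∈ twe_oim_P pr a M₁, D' ψ ∈ twe_oim_P pr a M₁)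
    (hD'T : ∀ ψ : gh_H M₁ →+ 𝒪, D' (ψ.comp (t2e_TH htM)) = (D' ψ).comp (t2e_TH htM))
    (hD' : ∀ ψ ∈ twe_oim_P pr a M₁,
      D' ((ψ.comp (t2e_TH htM)).comp (t2e_TH htM) - ((t + 1) * (t + 1)) • ψ) = ψ)
    (hN : ∀ φ ∈ twe_oim_P pr a (M₁ * t), lrh_idag htM 𝒪 φ = 0 → φ = 0) :
    (∀ ψ₁ ∈ twe_oim_P pr a M₁, ∀ ψ₂ ∈ twe_oim_P pr a M₁,
      lrh_i htM 𝒪 (ψ₁, ψ₂) = 0 → ψ₁ = 0 ∧ ψ₂ = 0) ∧
    ∀ φ ∈ twe_oim_P pr a (M₁ * t), ∃ ψ₁ ∈ twe_oim_P pr a M₁, ∃ ψ₂ ∈ twe_oim_P pr a M₁,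
      lrh_i htM 𝒪 (ψ₁, ψ₂) = φ :=
  twe_old_split htM (twe_oim_P pr a M₁).toAddSubgroup (twe_oim_P pr a (M₁ * t)).toAddSubgroup
    (fun ψ₁ h1 ψ₂ h2 => twe_oim_i_mem pr a htM hpr hprM h1 h2)
    (fun φ hφ => twe_oia_idag_mem pr a htM hpr hprM hφ)
    (fun ψ hψ => twe_oia_Tt_mem pr a htM hψ)
    D' hD'P hD'T hD' hN

end Fermat.Agent.TW
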