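import Mathlib
import Fermat.Agent.TW.Aut.SeamDefs
import Fermat.Agent.JT3.T2.Comm
import Fermat.Agent.JT3.Algebra.CycloAdic

/-!
# Project ONE MACHINE, block [E] AUT, cell (C2): `twe_sm_PrimIndep_stmt` (helper25)

Namespace `Fermat.Agent.TW`, prefix `twe_pi_`.

`twe_pi_main : twe_M1_stmt → twe_sm_PrimIndep_stmt`  (and `twe_pi_main' : twe_M1F_stmt → …`).

On `X = Hom(gh_H N, 𝒪)` the `θ`-primary part for the operators outside a bigger finite set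
`S' ⊇ S` is already `θ`-primary for ALL the good operators of `(N, S)`.  PURE ALGEBRA on top of
* helper6's ring form of E/IndepS (`twe_is_coeff_mem`): `T_t ∈ B' := 𝒪[T_ℓ : ℓ good for S']`;
* ANY base package `B₀ : twe_Base 𝒪 N S θ` (cell (M1)): its faithful module `𝒪^d ↪ X` realises
  `θ` at ALL the good primes of `(N, S)`.
Route: every `b ∈ B'` is a constant modulo `(T_ℓ - a_ℓ)_{ℓ good for S'}` (`twe_lam_exists_const`);
the elements of that ideal act on `B₀.ι(𝒪^d)` through `𝔪_{B₀.T}`, and `T_t` acts through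
`π(T_t) ≡ a_t`; faithfulness gives `T_t - a_t ∈ 𝔫' := 𝔪 B' + (T_ℓ - a_ℓ)_ℓ`; the elements of `𝔫'`
are topologically nilpotent on the `S'`-primary part (radical of an ideal).
-/

set_option autoImplicit false
set_option linter.unusedSectionVars false
set_option linter.unusedVariables false
set_option linter.style.haveILetI false

noncomputable section

namespace Fermat.Agent.TW

open IsLocalRing CuspForm Fermat.Agent.JT3

universe u v

section abstract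

variable {𝒪 : Type u} [CommRing 𝒪] [IsLocalRing 𝒪]
  {R : Type u} [CommRing R] [Algebra 𝒪 R] {L : Type*}
  {X : Type v} [AddCommGroup X] [Module 𝒪 X] [Module R X] [IsScalarTower 𝒪 R X]

/-- the elements of `𝔫 = 𝔪 R + (τ ℓ - a ℓ)_ℓ` are topologically nilpotent on the primary part. -/
theorem twe_pi_pow_mem (τ : L → R) (a : L → 𝒪) {x : X}
    (hx : x ∈ twe_pr_prim (twe_pr_op 𝒪 X τ) a) {w : R} (hw : w ∈ twe_lam_n τ a) (k : ℕ) :
    ∃ m : ℕ, w ^ m • x ∈ (maximalIdeal 𝒪) ^ k • (⊤ : Submodule 𝒪 X) := by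
  let Ik : Ideal R :=
    { carrier := {b | b • x ∈ (maximalIdeal 𝒪) ^ k • (⊤ : Submodule 𝒪 X)}
      add_mem' := fun {b c} hb hc => by
        change (b + c) • x ∈ (maximalIdeal 𝒪) ^ k • (⊤ : Submodule 𝒪 X)
        rw [add_smul]
        exact Submodule.add_mem _ hb hc
      zero_mem' := by
        change (0 : R) • x ∈ (maximalIdeal 𝒪) ^ k • (⊤ : Submodule 𝒪 X)
        rw [zero_smul]
        exact Submodule.zero_mem _
      smul_mem' := fun c b hb => by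
        change (c * b) • x ∈ (maximalIdeal 𝒪) ^ k • (⊤ : Submodule 𝒪 X)
        rw [mul_smul]
        exact twe_pr_map_mem _ (Algebra.lsmul 𝒪 𝒪 X c) hb }
  have hle : twe_lam_n τ a ≤ Ik.radical := by
    refine sup_le ?_ ?_
    · intro j hj
      refine ⟨k, ?_⟩
      change j ^ k • x ∈ (maximalIdeal 𝒪) ^ k • (⊤ : Submodule 𝒪 X)
      apply twe_pr_smul_mem
      rw [Ideal.map_pow]
      exact Ideal.pow_mem_pow hj k
    · rw [Ideal.span_le]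
      rintro _ ⟨ℓ, rfl⟩
      obtain ⟨n, hn⟩ := hx ℓ k
      rw [twe_pr_op_pow] at hn
      exact ⟨n, hn⟩
  obtain ⟨m, hm⟩ := hle hw
  exact ⟨m, hm⟩

/-- **the key membership**: if `R = 𝒪[τ ℓ]` acts on a faithful module `V ↪ X` of a local
`𝒪`-algebra `T₀` through elements `s ℓ ≡ a ℓ`, then an element `r` acting through `sr ≡ c` is
`≡ c` modulo `𝔫 = 𝔪 R + (τ ℓ - a ℓ)_ℓ`. -/
theorem twe_pi_mem_n (τ : L → R) (a : L → 𝒪) (hgen : Algebra.adjoin 𝒪 (Set.range τ) = ⊤)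
    {T₀ : Type*} [CommRing T₀] [IsLocalRing T₀] [Algebra 𝒪 T₀] [IsLocalHom (algebraMap 𝒪 T₀)]
    {V : Type*} [AddCommGroup V] [Module 𝒪 V]
    (act : T₀ →ₐ[𝒪] Module.End 𝒪 V) (hact : Function.Injective act)
    (ι : V →ₗ[𝒪] X) (hι : Function.Injective ι)
    (s : L → T₀) (hs : ∀ ℓ v, τ ℓ • ι v = ι (act (s ℓ) v))
    (hsa : ∀ ℓ, s ℓ - algebraMap 𝒪 T₀ (a ℓ) ∈ maximalIdeal T₀)
    (r : R) (sr : T₀) (hr : ∀ v, r • ι v = ι (act sr v)) (c : 𝒪)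
    (hc : sr - algebraMap 𝒪 T₀ c ∈ maximalIdeal T₀) :
    r - algebraMap 𝒪 R c ∈ twe_lam_n τ a := by
  -- (i) every element of `R` acts through `T₀`
  have hall : ∀ b : R, ∃ t : T₀, ∀ v, b • ι v = ι (act t v) := by
    intro b
    have hb : b ∈ Algebra.adjoin 𝒪 (Set.range τ) := by rw [hgen]; exact Algebra.mem_top
    induction hb using Algebra.adjoin_induction with
    | mem x hx =>
      obtain ⟨ℓ, rfl⟩ := hx
      exact ⟨s ℓ, hs ℓ⟩
    | algebraMap o =>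
      refine ⟨algebraMap 𝒪 T₀ o, fun v => ?_⟩
      rw [algebraMap_smul, AlgHom.commutes, Module.algebraMap_end_apply, map_smul]
    | add x y _ _ hx hy =>
      obtain ⟨t, ht⟩ := hx
      obtain ⟨t', ht'⟩ := hy
      refine ⟨t + t', fun v => ?_⟩
      rw [add_smul, ht, ht', map_add, LinearMap.add_apply, map_add]
    | mul x y _ _ hx hy =>
      obtain ⟨t, ht⟩ := hx
      obtain ⟨t', ht'⟩ := hy
      refine ⟨t * t', fun v => ?_⟩
      rw [mul_smul, ht', ht, map_mul, Module.End.mul_apply]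
  -- (ii) the elements of `(τ ℓ - a ℓ)_ℓ` act through `𝔪_{T₀}`
  have hI : ∀ n ∈ Ideal.span (Set.range fun ℓ => τ ℓ - algebraMap 𝒪 R (a ℓ)),
      ∃ t ∈ maximalIdeal T₀, ∀ v, n • ι v = ι (act t v) := by
    intro n hn
    induction hn using Submodule.span_induction with
    | mem x hx =>
      obtain ⟨ℓ, rfl⟩ := hx
      refine ⟨s ℓ - algebraMap 𝒪 T₀ (a ℓ), hsa ℓ, fun v => ?_⟩
      rw [sub_smul, hs, algebraMap_smul, map_sub, LinearMap.sub_apply, map_sub, AlgHom.commutes,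
        Module.algebraMap_end_apply, map_smul]
    | zero =>
      exact ⟨0, Ideal.zero_mem _, fun v => by
        rw [zero_smul, map_zero, LinearMap.zero_apply, map_zero]⟩
    | add x y _ _ hx hy =>
      obtain ⟨t, htm, ht⟩ := hx
      obtain ⟨t', htm', ht'⟩ := hy
      refine ⟨t + t', Ideal.add_mem _ htm htm', fun v => ?_⟩
      rw [add_smul, ht, ht', map_add, LinearMap.add_apply, map_add]
    | smul b x _ hx =>
      obtain ⟨t, htm, ht⟩ := hx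
      obtain ⟨tb, htb⟩ := hall b
      refine ⟨tb * t, Ideal.mul_mem_left _ _ htm, fun v => ?_⟩
      rw [smul_eq_mul, mul_smul, ht, htb, map_mul, Module.End.mul_apply]
  -- (iii) uniqueness
  have huniq : ∀ t t' : T₀, (∀ v, ι (act t v) = ι (act t' v)) → t = t' :=
    fun t t' h => hact (LinearMap.ext fun v => hι (h v))
  obtain ⟨c', hc'⟩ := twe_lam_exists_const τ a hgen r
  obtain ⟨tn, htn, hn⟩ := hI _ hc'
  have h1 : sr = tn + algebraMap 𝒪 T₀ c' := by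
    apply huniq
    intro v
    rw [← hr v]
    have h2 : r = (r - algebraMap 𝒪 R c') + algebraMap 𝒪 R c' := by ring
    rw [h2, add_smul, hn, algebraMap_smul, map_add, LinearMap.add_apply, map_add,
      AlgHom.commutes, Module.algebraMap_end_apply, map_smul]
  have h3 : algebraMap 𝒪 T₀ (c' - c) ∈ maximalIdeal T₀ := by
    have h4 : algebraMap 𝒪 T₀ (c' - c) = (sr - algebraMap 𝒪 T₀ c) - tn := by
      rw [h1, map_sub]; ring
    rw [h4]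
    exact Ideal.sub_mem _ hc htn
  have h5 : c' - c ∈ maximalIdeal 𝒪 := by
    rw [mem_maximalIdeal] at h3 ⊢
    exact (map_mem_nonunits_iff (algebraMap 𝒪 T₀) (c' - c)).mp h3
  have h6 : r - algebraMap 𝒪 R c = (r - algebraMap 𝒪 R c') + algebraMap 𝒪 R (c' - c) := by
    rw [map_sub]; ring
  rw [h6]
  exact Ideal.add_mem _ (Ideal.mem_sup_right hc') (Ideal.mem_sup_left (Ideal.mem_map_of_mem _ h5))

end abstract

section concrete

variable {𝒪 : Type} [CommRing 𝒪] [IsDomain 𝒪] [IsDiscreteValuationRing 𝒪]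
  [IsAdicComplete (maximalIdeal 𝒪) 𝒪]
  {N : ℕ} [NeZero N] {S : Finset ℕ} {θ : heckeAlgebra N 2 (↑S : Set ℕ) →+* ResidueField 𝒪}

/-- the Hecke operators at the good primes commute on `Hom(gh_H N, 𝒪)`. -/
theorem twe_pi_TX_commute (S' : Finset ℕ) (ℓ ℓ' : twe_sm_Idx N S') :
    Commute (twe_sm_TX 𝒪 N (twe_sm_q N S') ℓ) (twe_sm_TX 𝒪 N (twe_sm_q N S') ℓ') := by
  haveI : Fact (ℓ.1).Prime := ⟨ℓ.2.1⟩
  haveI : Fact (ℓ'.1).Prime := ⟨ℓ'.2.1⟩
  refine LinearMap.ext fun ψ => AddMonoidHom.ext fun h => ?_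
  show ψ (t2f_TH N ℓ'.1 (t2f_TH N ℓ.1 h)) = ψ (t2f_TH N ℓ.1 (t2f_TH N ℓ'.1 h))
  congr 1
  rw [t2f_TH_apply ℓ.2.1 ℓ.2.2.1, t2f_TH_apply ℓ'.2.1 ℓ'.2.2.1, t2f_TH_apply ℓ'.2.1 ℓ'.2.2.1,
    t2f_TH_apply ℓ.2.1 ℓ.2.2.1]
  exact DFunLike.congr_fun (t2k_TH_comm ℓ'.2.2.1 ℓ.2.2.1) h

/-- the residue condition: `π(T_ℓ) ≡ a ℓ` in the Hecke ring of a base package. -/
theorem twe_pi_sub_mem (B₀ : twe_Base 𝒪 N S θ) (a : twe_sm_Idx N S → 𝒪)
    (ha : twe_sm_IsLift θ a) (ℓ : twe_sm_Idx N S) :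
    B₀.H.π (heckeAlgebra.T ℓ.2.1 ℓ.2.2.1 ℓ.2.2.2) - algebraMap 𝒪 B₀.T (a ℓ) ∈
      maximalIdeal B₀.T := by
  rw [← residue_eq_zero_iff, map_sub, B₀.H.residue_π, ← ha ℓ, ResidueField.map_residue, sub_self]

/-- **(C2) from a base package**: on `Hom(gh_H N, 𝒪)` the primary part for the good operators of
`(N, S')`, `S ⊆ S'`, is primary for all the good operators of `(N, S)`. -/
theorem twe_pi_of_base (p : ℕ) [Fact p.Prime] (hp𝒪 : (p : 𝒪) ∈ maximalIdeal 𝒪)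
    (hpS : p ∈ S) (hNS : ∀ ℓ : ℕ, ℓ.Prime → ℓ ∣ N → ℓ ∈ S)
    (B₀ : twe_Base 𝒪 N S θ) (S' : Finset ℕ) (hSS' : S ⊆ S') (a : twe_sm_Idx N S → 𝒪)
    (ha : twe_sm_IsLift θ a) :
    twe_pr_prim (twe_sm_TX 𝒪 N (twe_sm_q N S'))
        (fun ℓ => a ⟨ℓ.1, ℓ.2.1, ℓ.2.2.1, fun h => ℓ.2.2.2 (Finset.coe_subset.mpr hSS' h)⟩) ≤
      twe_pr_prim (twe_sm_TX 𝒪 N (twe_sm_q N S)) a := by
  classical
  letI : Algebra ℤ_[p] 𝒪 := (cya_padicHom p 𝒪 hp𝒪).toAlgebra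
  set T' : twe_sm_Idx N S' → Module.End 𝒪 (gh_H N →+ 𝒪) := twe_sm_TX 𝒪 N (twe_sm_q N S') with hT'
  -- the good primes of `S'` as good primes of `S`
  let up : twe_sm_Idx N S' → twe_sm_Idx N S := fun ℓ =>
    ⟨ℓ.1, ℓ.2.1, ℓ.2.2.1, fun h => ℓ.2.2.2 (Finset.coe_subset.mpr hSS' h)⟩
  -- the commutative Hecke algebra away from `S'`
  have hc : ∀ x ∈ Set.range T', ∀ y ∈ Set.range T', x * y = y * x := by
    rintro _ ⟨ℓ, rfl⟩ _ ⟨ℓ', rfl⟩
    exact twe_pi_TX_commute S' ℓ ℓ'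
  have hmc := Algebra.isMulCommutative_adjoin 𝒪 hc
  letI instR : Ring (Algebra.adjoin 𝒪 (Set.range T')) :=
    @Subalgebra.toRing 𝒪 (Module.End 𝒪 (gh_H N →+ 𝒪)) _ _ _ (Algebra.adjoin 𝒪 (Set.range T'))
  letI : CommRing (Algebra.adjoin 𝒪 (Set.range T')) := @IsMulCommutative.instCommRing _ instR hmc
  let τ : twe_sm_Idx N S' → Algebra.adjoin 𝒪 (Set.range T') :=
    fun ℓ => ⟨T' ℓ, Algebra.subset_adjoin ⟨ℓ, rfl⟩⟩
  have hgen : Algebra.adjoin 𝒪 (Set.range τ) = ⊤ := by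
    have h1 : Set.range τ = ((↑) : Algebra.adjoin 𝒪 (Set.range T') → _) ⁻¹' (Set.range T') := by
      ext b
      constructor
      · rintro ⟨ℓ, rfl⟩
        exact ⟨ℓ, rfl⟩
      · rintro ⟨ℓ, hℓ⟩
        exact ⟨ℓ, Subtype.ext hℓ⟩
    rw [h1]
    exact Algebra.adjoin_adjoin_coe_preimage
  have hop : twe_pr_op 𝒪 (gh_H N →+ 𝒪) τ = T' := by
    funext ℓ
    exact LinearMap.ext fun x => rfl
  -- the faithful module of the base package
  let act : B₀.T →ₐ[𝒪] Module.End 𝒪 (Fin B₀.d → 𝒪) :=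
    (Matrix.toLinAlgEquiv' : Matrix (Fin B₀.d) (Fin B₀.d) 𝒪 ≃ₐ[𝒪] _).toAlgHom.comp B₀.j
  have hact : Function.Injective act := by
    intro t t' h
    apply B₀.j_injective
    exact (Matrix.toLinAlgEquiv' : Matrix (Fin B₀.d) (Fin B₀.d) 𝒪 ≃ₐ[𝒪] _).injective h
  have hactv : ∀ (t : B₀.T) (v : Fin B₀.d → 𝒪), act t v = (B₀.j t).mulVec v := fun t v => rfl
  intro x hx
  rw [← hop] at hx
  intro t k
  -- `T_t` lies in the Hecke algebra away from `S'`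
  have hmem : twe_sm_TX 𝒪 N (twe_sm_q N S) t ∈ Algebra.adjoin 𝒪 (Set.range T') := by
    have h1 := twe_is_coeff_mem N p 𝒪 hSS' hpS hNS t.2
    have h2 : twe_is_latSet N 𝒪 S' = Set.range T' := by
      ext b
      constructor
      · rintro ⟨ℓ, hℓ, rfl⟩
        exact ⟨⟨ℓ, hℓ⟩, rfl⟩
      · rintro ⟨ℓ, rfl⟩
        exact ⟨ℓ.1, ℓ.2, rfl⟩
    rw [h2] at h1
    exact h1
  let r : Algebra.adjoin 𝒪 (Set.range T') := ⟨twe_sm_TX 𝒪 N (twe_sm_q N S) t, hmem⟩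
  have hr_n : r - algebraMap 𝒪 _ (a t) ∈ twe_lam_n τ (fun ℓ => a (up ℓ)) := by
    refine twe_pi_mem_n (X := gh_H N →+ 𝒪) τ (fun ℓ => a (up ℓ)) hgen act hact B₀.ι B₀.ι_injective
      (fun ℓ => B₀.H.π (heckeAlgebra.T (up ℓ).2.1 (up ℓ).2.2.1 (up ℓ).2.2.2)) ?_ ?_ r
      (B₀.H.π (heckeAlgebra.T t.2.1 t.2.2.1 t.2.2.2)) ?_ (a t) (twe_pi_sub_mem B₀ a ha t)
    · intro ℓ v
      rw [hactv]
      exact (B₀.ι_hecke ℓ.1 ℓ.2.1 ℓ.2.2.1 (up ℓ).2.2.2 v).symm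
    · intro ℓ
      exact twe_pi_sub_mem B₀ a ha (up ℓ)
    · intro v
      rw [hactv]
      exact (B₀.ι_hecke t.1 t.2.1 t.2.2.1 t.2.2.2 v).symm
  obtain ⟨m, hm⟩ := twe_pi_pow_mem τ (fun ℓ => a (up ℓ)) hx hr_n k
  refine ⟨m, ?_⟩
  have h3 := twe_pr_op_pow (𝒪 := 𝒪) (X := gh_H N →+ 𝒪) (fun _ : Unit => r) (fun _ => a t) () m x
  have h4 : twe_pr_op 𝒪 (gh_H N →+ 𝒪) (fun _ : Unit => r) () =
      twe_sm_TX 𝒪 N (twe_sm_q N S) t := LinearMap.ext fun y => rfl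
  rw [h4] at h3
  rw [h3]
  exact hm

/-- **(C2) from (M1)**. -/
theorem twe_pi_main (h1 : twe_M1_stmt) : twe_sm_PrimIndep_stmt := by
  intro p _ hp5 𝒪 _ _ _ _ _ _ hp𝒪 N _ hpN S hpS hNS θ ρbar hcompat habs S' hSS' a ha
  obtain ⟨B₀⟩ := h1 p hp5 𝒪 hp𝒪 N hpN S hpS hNS θ ρbar hcompat habs
  exact twe_pi_of_base p hp𝒪 hpS hNS B₀ S' hSS' a ha

/-- **(C2) from (M1F)** (cell (C1)). -/
theorem twe_pi_main' (h1 : twe_M1F_stmt) : twe_sm_PrimIndep_stmt := by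
  intro p _ hp5 𝒪 _ _ _ _ _ _ hp𝒪 N _ hpN S hpS hNS θ ρbar hcompat habs S' hSS' a ha
  obtain ⟨B₀, -⟩ := h1 p hp5 𝒪 hp𝒪 N hpN S hpS hNS θ ρbar hcompat habs
  exact twe_pi_of_base p hp𝒪 hpS hNS B₀ S' hSS' a ha

end concrete

end Fermat.Agent.TW
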