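/-
ONE MACHINE / block [E] AUT, cell E/SeamCoinvBig (helper22).
Namespace `Fermat.Agent.TW`, prefix `twe_scb_`.  Imports `TW/Aut/FreeKRel`.

The field group `(c1, c1_surjective, c1_ker, c1_hecke` on generators`, c1_diamond)` of
`twe_mk_BigData` (SeamMk.lean), generically, from the relative E/Free theorem `twe_fkr_main`:
for a pair `H'' ≤ H'` with `Γ₀(M)/Γ_{H''} ≅ Δ₁ × Δ₂` (via `d''`) and `Γ₀(M)/Γ_{H'} ≅ Δ₁`
(via `fst ∘ d''`), ANY models `j'' : P'' ↪ W(Γ_{H''}, 𝒪)`, `j' : P' ↪ W(Γ_{H'}, 𝒪)` of the two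
primary parts and ANY representations `ρP''` of `Δ₁ × Δ₂` on `P''`, `ρP'` of `Δ₁` on `P'` that
are the diamond operators (`j'' (ρP'' (d'' g) m) = ⟨g⟩ (j'' m)`, `j' (ρP' (d'' g).1 m) = ⟨g⟩ (j' m)`):
the transfer `cor₂` induces `c₂ : P'' → P'`, onto, with kernel `⨆ δ : Δ₂, range (ρP'' (1, δ) - 1)`,
equivariant for `Δ₁ × Δ₂ → Δ₁` and for the Hecke operators `T'_i`.

* `twe_scb_ker`        : the generic kernel statement (span of `j (ρ (1,δ) u) - j u` ⟹ `⨆ range`);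
* `twe_scb_main`       : the theorem, in `(ℓ, hM, s, hs)` form (`twe_fo_T'`);
* `twe_scb_main_frame` : the same in `twe_sm_Frame` form (`twe_sm_TY 𝒪 F`, `twe_fx_frame_mono`).
-/
import Mathlib
import Fermat.Agent.TW.Aut.FreeKRel
import Fermat.Agent.TW.Aut.FrameExists

set_option autoImplicit false
set_option linter.unusedSectionVars false
set_option linter.unusedVariables false

noncomputable section

open scoped MatrixGroups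
open Matrix.SpecialLinearGroup CongruenceSubgroup

namespace Fermat.Agent.TW

open IsLocalRing Module Fermat.Agent.JT3 Fermat.Agent.LR

/-! ### A. the generic kernel statement -/

section generic

variable {R : Type*} [CommRing R] {X : Type*} [AddCommGroup X] [Module R X]
  {P'' : Type*} [AddCommGroup P''] [Module R P''] {P' : Type*} [AddCommGroup P'] [Module R P']
  {Δ₁ Δ₂ : Type*} [Monoid Δ₁] [Monoid Δ₂]

/-- if `c` is invariant under `1 × Δ₂` and its kernel is (after an embedding `j`) spanned by the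
`j (ρ (1, δ) u) - j u`, then `ker c = ⨆ δ : Δ₂, range (ρ (1, δ) - 1)`. -/
theorem twe_scb_ker (j : P'' →ₗ[R] X) (hj : Function.Injective j)
    (ρ : Representation R (Δ₁ × Δ₂) P'') (c : P'' →ₗ[R] P')
    (hinv : ∀ δ m, c (ρ (1, δ) m) = c m)
    (hker : ∀ m, c m = 0 →
      j m ∈ Submodule.span R {w | ∃ (δ : Δ₂) (u : P''), w = j (ρ (1, δ) u) - j u}) :
    LinearMap.ker c = ⨆ δ : Δ₂, LinearMap.range (ρ (1, δ) - 1) := by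
  apply le_antisymm
  · intro m hm
    have h1 := hker m (LinearMap.mem_ker.mp hm)
    have h2 : Submodule.span R {w | ∃ (δ : Δ₂) (u : P''), w = j (ρ (1, δ) u) - j u} ≤
        (⨆ δ : Δ₂, LinearMap.range (ρ (1, δ) - 1)).map j := by
      rw [Submodule.span_le]
      rintro _ ⟨δ, u, rfl⟩
      refine ⟨(ρ (1, δ) - 1) u, Submodule.mem_iSup_of_mem δ ⟨u, rfl⟩, ?_⟩
      rw [LinearMap.sub_apply, Module.End.one_apply, map_sub]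
    obtain ⟨m', hm', hmm⟩ := h2 h1
    rwa [← hj hmm]
  · refine iSup_le fun δ => ?_
    rintro _ ⟨m, rfl⟩
    rw [LinearMap.mem_ker, LinearMap.sub_apply, Module.End.one_apply, map_sub, hinv, sub_self]

end generic

/-! ### B. the theorem -/

section main

variable {𝒪 : Type} [CommRing 𝒪] [IsDomain 𝒪] [IsDiscreteValuationRing 𝒪]
  [IsAdicComplete (maximalIdeal 𝒪) 𝒪] [CharZero 𝒪]

/-- **E/SeamCoinvBig**: the transfer `cor₂` between the two primary parts, in any models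
`(P'', j'')`, `(P', j')` carrying diamond representations `ρP''` of `Δ₁ × Δ₂`, `ρP'` of `Δ₁`. -/
theorem twe_scb_main {M : ℕ} [NeZero M] {H'' H' : Subgroup (ZMod M)ˣ} (h : H'' ≤ H')
    (hneg : (-1 : SL(2, ℤ)) ∈ twe_GamH M H'')
    (h12 : ∀ u : (ZMod M)ˣ, u ^ (12 * M) = 1 → u ∈ H'')
    {Δ₁ Δ₂ : Type*} [CommGroup Δ₁] [Fintype Δ₁] [CommGroup Δ₂] [Fintype Δ₂]
    (d'' : Gamma0 M →* Δ₁ × Δ₂) (hd'' : Function.Surjective d'')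
    (hdk'' : ∀ g, d'' g = 1 ↔ (g : SL(2, ℤ)) ∈ twe_GamH M H'')
    (hdk' : ∀ g, (d'' g).1 = 1 ↔ (g : SL(2, ℤ)) ∈ twe_GamH M H')
    {p n : ℕ} (hp : p.Prime) (hp2 : p ≠ 2) (hpO : (p : 𝒪) ∈ maximalIdeal 𝒪)
    (hΔ : ∀ δ : Δ₁ × Δ₂, δ ^ (p ^ n) = 1)
    {L : Type*} (ℓ : L → ℕ) [hℓ : ∀ i, Fact (ℓ i).Prime] (hM : ∀ i, ¬ ℓ i ∣ M)
    (hinj : Function.Injective ℓ) (s : L → Gamma0 M)
    (hs : ∀ i, twe_dUnit M (s i) * twe_dUnit M (s i) * (twe_hk_lU (hM i))⁻¹ ∈ H'')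
    (a : L → 𝒪) (i₀ : L)
    (hne : residue 𝒪 (a i₀) ≠ ((ℓ i₀ + 1 : ℕ) : ResidueField 𝒪))
    {ι' ι'' : Type} [Fintype ι'] [Fintype ι''] {ρ' : ι' → SL(2, ℤ)} {ρ'' : ι'' → SL(2, ℤ)}
    (hρ' : ∀ i, ρ' i ∈ Gamma0 M) (hbij' : ∀ γ ∈ Gamma0 M, ∃! i, (ρ' i)⁻¹ * γ ∈ twe_GamH M H')
    (hρ'' : ∀ j, ρ'' j ∈ twe_GamH M H')
    (hbij'' : ∀ γ ∈ twe_GamH M H', ∃! j, (ρ'' j)⁻¹ * γ ∈ twe_GamH M H'')
    {P'' : Type*} [AddCommGroup P''] [Module 𝒪 P'']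
    (j'' : P'' →ₗ[𝒪] ↥(twe_wl_V 𝒪 𝒪 (twe_GamH M H''))) (hj'' : Function.Injective j'')
    (hr'' : LinearMap.range j'' = twe_pr_prim (twe_fo_T' 𝒪 𝒪 ℓ hM H'' s hs) a)
    {P' : Type*} [AddCommGroup P'] [Module 𝒪 P']
    (j' : P' →ₗ[𝒪] ↥(twe_wl_V 𝒪 𝒪 (twe_GamH M H'))) (hj' : Function.Injective j')
    (hr' : LinearMap.range j' =
      twe_pr_prim (twe_fo_T' 𝒪 𝒪 ℓ hM H' s (fun i => h (hs i))) a)
    (ρP'' : Representation 𝒪 (Δ₁ × Δ₂) P'')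
    (hρP'' : ∀ g m, j'' (ρP'' (d'' g) m) = twe_wl_conj H'' g (j'' m))
    (ρP' : Representation 𝒪 Δ₁ P')
    (hρP' : ∀ g m, j' (ρP' (d'' g).1 m) = twe_wl_conj H' g (j' m)) :
    ∃ c₂ : P'' →ₗ[𝒪] P',
      (∀ m, j' (c₂ m) = twe_wl_cor hρ'' hbij'' (j'' m)) ∧
      Function.Surjective c₂ ∧
      LinearMap.ker c₂ = ⨆ δ : Δ₂, LinearMap.range (ρP'' (1, δ) - 1) ∧
      (∀ δ m, c₂ (ρP'' δ m) = ρP' δ.1 (c₂ m)) ∧
      (∀ (i : L) (τ'' : Module.End 𝒪 P'') (τ' : Module.End 𝒪 P'),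
        (∀ m, j'' (τ'' m) = twe_fo_T' 𝒪 𝒪 ℓ hM H'' s hs i (j'' m)) →
        (∀ m, j' (τ' m) = twe_fo_T' 𝒪 𝒪 ℓ hM H' s (fun i => h (hs i)) i (j' m)) →
        ∀ m, c₂ (τ'' m) = τ' (c₂ m)) := by
  classical
  -- the quotient map `d' = fst ∘ d''`
  have hd' : Function.Surjective ((MonoidHom.fst Δ₁ Δ₂).comp d'') := by
    intro δ₁
    obtain ⟨g, hg⟩ := hd'' (δ₁, 1)
    exact ⟨g, by rw [MonoidHom.comp_apply, hg]; rfl⟩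
  have hΔ' : ∀ δ : Δ₁, δ ^ (p ^ n) = 1 := fun δ => congrArg Prod.fst (hΔ (δ, 1))
  obtain ⟨hsurj, hker⟩ := twe_fkr_main h hneg h12 d'' hd'' hdk''
    ((MonoidHom.fst Δ₁ Δ₂).comp d'') hd' hdk' hp hp2 hpO hΔ hΔ' ℓ hM hinj s hs a i₀ hne
    hρ' hbij' hρ'' hbij''
  have hc2T : ∀ i z, twe_wl_cor hρ'' hbij'' ((twe_fo_T' 𝒪 𝒪 ℓ hM H'' s hs) i z) =
      (twe_fo_T' 𝒪 𝒪 ℓ hM H' s (fun i => h (hs i))) i (twe_wl_cor hρ'' hbij'' z) :=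
    twe_for_cor_T h ℓ hM s hs hρ'' hbij''
  have hc2D : ∀ g z, twe_wl_cor hρ'' hbij'' (twe_wl_conj (R := 𝒪) H'' g z) =
      twe_wl_conj H' g (twe_wl_cor hρ'' hbij'' z) := twe_for_cor_diamond h hρ'' hbij''
  have hmem'' : ∀ m, j'' m ∈ twe_pr_prim (twe_fo_T' 𝒪 𝒪 ℓ hM H'' s hs) a := fun m => by
    rw [← hr'']; exact LinearMap.mem_range_self _ m
  have hmem' : ∀ m, j' m ∈ twe_pr_prim (twe_fo_T' 𝒪 𝒪 ℓ hM H' s (fun i => h (hs i))) a :=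
    fun m => by rw [← hr']; exact LinearMap.mem_range_self _ m
  have hcmem : ∀ m, twe_wl_cor hρ'' hbij'' (j'' m) ∈ LinearMap.range j' := fun m => by
    rw [hr']
    exact twe_pr_map_prim (twe_wl_cor hρ'' hbij'') (twe_fo_T' 𝒪 𝒪 ℓ hM H'' s hs)
      (twe_fo_T' 𝒪 𝒪 ℓ hM H' s (fun i => h (hs i))) hc2T a (hmem'' m)
  let e' : P' ≃ₗ[𝒪] ↥(LinearMap.range j') := LinearEquiv.ofInjective j' hj'
  let c₂ : P'' →ₗ[𝒪] P' := (e'.symm : ↥(LinearMap.range j') →ₗ[𝒪] P').comp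
    (((twe_wl_cor hρ'' hbij'').comp j'').codRestrict (LinearMap.range j') hcmem)
  have hc₂ : ∀ m, j' (c₂ m) = twe_wl_cor hρ'' hbij'' (j'' m) := fun m => by
    show j' ((LinearEquiv.ofInjective j' hj').symm _) = _
    rw [LinearEquiv.ofInjective_symm_apply]
    rfl
  have hg1 : ∀ g : Gamma0 M, (g : SL(2, ℤ)) ∈ twe_GamH M H' → d'' g = (1, (d'' g).2) :=
    fun g hg => Prod.ext ((hdk' g).mpr hg) rfl
  refine ⟨c₂, hc₂, ?_, ?_, ?_, ?_⟩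
  · -- surjectivity
    intro y
    obtain ⟨z, hz, hzy⟩ := hsurj (j' y) (hmem' y)
    rw [← hr''] at hz
    obtain ⟨m, rfl⟩ := hz
    exact ⟨m, hj' ((hc₂ m).trans hzy)⟩
  · -- the kernel
    refine twe_scb_ker j'' hj'' ρP'' c₂ ?_ ?_
    · intro δ m
      obtain ⟨g, hg⟩ := hd'' (1, δ)
      have hg' : (g : SL(2, ℤ)) ∈ twe_GamH M H' := (hdk' g).mp (by rw [hg])
      apply hj'
      rw [hc₂, hc₂, ← hg, hρP'', twe_for_cor_conj hρ'' hbij'' g hg']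
    · intro m hm
      have h0 : twe_wl_cor (R := 𝒪) hρ'' hbij'' (j'' m) = 0 := by
        rw [← hc₂, hm, map_zero]
      refine Submodule.span_mono ?_ (hker (j'' m) (hmem'' m) h0)
      rintro _ ⟨g, hg, u, hu, rfl⟩
      rw [← hr''] at hu
      obtain ⟨u', rfl⟩ := hu
      exact ⟨(d'' g).2, u', by rw [← hg1 g hg, hρP'']⟩
  · -- equivariance for `Δ₁ × Δ₂ → Δ₁`
    intro δ m
    obtain ⟨g, rfl⟩ := hd'' δ
    apply hj'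
    rw [hc₂, hρP'', hc2D, hρP', hc₂]
  · -- Hecke
    intro i τ'' τ' hτ'' hτ' m
    apply hj'
    rw [hc₂, hτ'', hc2T, hτ', hc₂]

/-- **E/SeamCoinvBig, frame form**: the same for a Hecke frame `F` at `(M, H'')` and its
enlargement `twe_fx_frame_mono h F` at `(M, H')`, with the operators `twe_sm_TY`. -/
theorem twe_scb_main_frame {M : ℕ} [NeZero M] {H'' H' : Subgroup (ZMod M)ˣ} (h : H'' ≤ H')
    (hneg : (-1 : SL(2, ℤ)) ∈ twe_GamH M H'')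
    (h12 : ∀ u : (ZMod M)ˣ, u ^ (12 * M) = 1 → u ∈ H'')
    {Δ₁ Δ₂ : Type*} [CommGroup Δ₁] [Fintype Δ₁] [CommGroup Δ₂] [Fintype Δ₂]
    (d'' : Gamma0 M →* Δ₁ × Δ₂) (hd'' : Function.Surjective d'')
    (hdk'' : ∀ g, d'' g = 1 ↔ (g : SL(2, ℤ)) ∈ twe_GamH M H'')
    (hdk' : ∀ g, (d'' g).1 = 1 ↔ (g : SL(2, ℤ)) ∈ twe_GamH M H')
    {p n : ℕ} (hp : p.Prime) (hp2 : p ≠ 2) (hpO : (p : 𝒪) ∈ maximalIdeal 𝒪)
    (hΔ : ∀ δ : Δ₁ × Δ₂, δ ^ (p ^ n) = 1)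
    {I : Type*} {q : I → ℕ} (hinj : Function.Injective q) (F : twe_sm_Frame M H'' q)
    (a : I → 𝒪) (i₀ : I)
    (hne : residue 𝒪 (a i₀) ≠ ((q i₀ + 1 : ℕ) : ResidueField 𝒪))
    {ι' ι'' : Type} [Fintype ι'] [Fintype ι''] {ρ' : ι' → SL(2, ℤ)} {ρ'' : ι'' → SL(2, ℤ)}
    (hρ' : ∀ i, ρ' i ∈ Gamma0 M) (hbij' : ∀ γ ∈ Gamma0 M, ∃! i, (ρ' i)⁻¹ * γ ∈ twe_GamH M H')
    (hρ'' : ∀ j, ρ'' j ∈ twe_GamH M H')
    (hbij'' : ∀ γ ∈ twe_GamH M H', ∃! j, (ρ'' j)⁻¹ * γ ∈ twe_GamH M H'')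
    {P'' : Type*} [AddCommGroup P''] [Module 𝒪 P'']
    (j'' : P'' →ₗ[𝒪] ↥(twe_wl_V 𝒪 𝒪 (twe_GamH M H''))) (hj'' : Function.Injective j'')
    (hr'' : LinearMap.range j'' = twe_pr_prim (twe_sm_TY 𝒪 F) a)
    {P' : Type*} [AddCommGroup P'] [Module 𝒪 P']
    (j' : P' →ₗ[𝒪] ↥(twe_wl_V 𝒪 𝒪 (twe_GamH M H'))) (hj' : Function.Injective j')
    (hr' : LinearMap.range j' = twe_pr_prim (twe_sm_TY 𝒪 (twe_fx_frame_mono h F)) a)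
    (ρP'' : Representation 𝒪 (Δ₁ × Δ₂) P'')
    (hρP'' : ∀ g m, j'' (ρP'' (d'' g) m) = twe_wl_conj H'' g (j'' m))
    (ρP' : Representation 𝒪 Δ₁ P')
    (hρP' : ∀ g m, j' (ρP' (d'' g).1 m) = twe_wl_conj H' g (j' m)) :
    ∃ c₂ : P'' →ₗ[𝒪] P',
      (∀ m, j' (c₂ m) = twe_wl_cor hρ'' hbij'' (j'' m)) ∧
      Function.Surjective c₂ ∧
      LinearMap.ker c₂ = ⨆ δ : Δ₂, LinearMap.range (ρP'' (1, δ) - 1) ∧
      (∀ δ m, c₂ (ρP'' δ m) = ρP' δ.1 (c₂ m)) ∧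
      (∀ (i : I) (τ'' : Module.End 𝒪 P'') (τ' : Module.End 𝒪 P'),
        (∀ m, j'' (τ'' m) = twe_sm_TY 𝒪 F i (j'' m)) →
        (∀ m, j' (τ' m) = twe_sm_TY 𝒪 (twe_fx_frame_mono h F) i (j' m)) →
        ∀ m, c₂ (τ'' m) = τ' (c₂ m)) :=
  @twe_scb_main 𝒪 _ _ _ _ _ M _ H'' H' h hneg h12 Δ₁ Δ₂ _ _ _ _ d'' hd'' hdk'' hdk' p n hp hp2
    hpO hΔ I q F.hq F.hM hinj F.s F.hs a i₀ hne ι' ι'' _ _ ρ' ρ'' hρ' hbij' hρ'' hbij''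
    P'' _ _ j'' hj'' hr'' P' _ _ j' hj' hr' ρP'' hρP'' ρP' hρP'

end main

end Fermat.Agent.TW
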