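import Mathlib
import Fermat.Agent.TW.Aut.SeamMod
import Fermat.Agent.TW.Aut.SeamMk

/-!
# Project ONE MACHINE, block [E] AUT, E/Seam: SEAM CONTEXTS and the cell statements of the final
assembly (helper3)

Prefix `twe_sx_`.  DEFINITIONS, small lemmas and `Prop`s.

A *seam context* `X : twe_sx_Ctx p 𝒪 A S₁ θ₁ M H Δ d` bundles everything needed to speak about
the module `P_X := prim W(Γ_H, 𝒪) = ↥(twe_pr_prim (twe_sm_TY 𝒪 X.F) X.a)` of the balanced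
`Γ₀`-level `A`: a FULL base package `X.B` of level `(A, S₁, θ₁)`, a Hecke frame `X.F`, lifts `X.a`,
the relation transfer `X.hrel`, the presentation `d : Γ₀(M) ↠ Δ` of the diamond group and the
hypotheses of E/Free.  Then `X.ψ : X.B.T →ₐ End P_X` (Hecke action), `X.ρ : Representation 𝒪 Δ P_X`
(diamonds), `twe_sx_Ctx.comm`, `twe_sx_Ctx.total` (orbit basis + total transfer).

Cell statements:
* `twe_sx_Rel_stmt`   : the RELATIVE transfer between two contexts `H'' ≤ H'` (levels `A' ∣ A''`);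
* `twe_sx_Abs_stmt`   : the ABSOLUTE coinvariant map `P_X → (M_∅)^{2^{|Q|}}` of the unipotent system;
* `twe_sx_NewAt_stmt` : the clause `twe_NewAt` for a module identified with `P_X`.
-/

set_option autoImplicit false
set_option linter.unusedSectionVars false

namespace Fermat.Agent.TW

open Polynomial CuspForm IsLocalRing Fermat.Agent.JT3 CongruenceSubgroup
open scoped MatrixGroups

noncomputable section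

/-- a Hecke frame for `H` is a Hecke frame for every bigger `H'` (the same `s`). -/
def twe_sm_Frame.mono {M : ℕ} {H H' : Subgroup (ZMod M)ˣ} {I : Type*} {q : I → ℕ}
    (F : twe_sm_Frame M H q) (h : H ≤ H') : twe_sm_Frame M H' q :=
  ⟨F.hq, F.hM, F.s, fun i => h (F.hs i)⟩

/-- a Hecke frame can be reindexed. -/
def twe_sm_Frame.reindex {M : ℕ} {H : Subgroup (ZMod M)ˣ} {I I' : Type*} {q : I → ℕ}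
    (F : twe_sm_Frame M H q) (e : I' → I) : twe_sm_Frame M H (fun i => q (e i)) :=
  ⟨fun i => F.hq (e i), fun i => F.hM (e i), fun i => F.s (e i), fun i => F.hs (e i)⟩

theorem twe_sx_TY_reindex {𝒪 : Type*} [CommRing 𝒪] {M : ℕ} {H : Subgroup (ZMod M)ˣ}
    {I I' : Type*} {q : I → ℕ} (F : twe_sm_Frame M H q) (e : I' → I) (i : I') :
    twe_sm_TY 𝒪 (F.reindex e) i = twe_sm_TY 𝒪 F (e i) := rfl

/-- the `θ`-primary part only depends on the SET of pairs `(T i, a i)`. -/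
theorem twe_sx_prim_reindex {𝒪 : Type*} [CommRing 𝒪] [IsLocalRing 𝒪] {X : Type*}
    [AddCommGroup X] [Module 𝒪 X] {L L' : Type*}
    (T : L → Module.End 𝒪 X) (a : L → 𝒪) (T' : L' → Module.End 𝒪 X) (a' : L' → 𝒪)
    (e : L' → L) (he : Function.Surjective e) (hT : ∀ i, T' i = T (e i))
    (ha : ∀ i, a' i = a (e i)) : twe_pr_prim T' a' = twe_pr_prim T a := by
  ext x
  rw [twe_pr_mem_prim, twe_pr_mem_prim]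
  constructor
  · intro h ℓ k
    obtain ⟨i, rfl⟩ := he ℓ
    obtain ⟨n, hn⟩ := h i k
    rw [hT, ha] at hn
    exact ⟨n, hn⟩
  · intro h i k
    obtain ⟨n, hn⟩ := h (e i) k
    rw [hT, ha]
    exact ⟨n, hn⟩

section ctx

variable (p : ℕ) (𝒪 : Type) [CommRing 𝒪] [IsDomain 𝒪] [IsDiscreteValuationRing 𝒪]
  [IsAdicComplete (maximalIdeal 𝒪) 𝒪] [CharZero 𝒪]

/-- **a seam context** at the balanced `Γ₀`-level `A`, for the group `Γ_H ≤ Γ₀(M)` and the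
presentation `d : Γ₀(M) ↠ Δ` of its diamond group. -/
structure twe_sx_Ctx (A : ℕ) [NeZero A] (S₁ : Finset ℕ)
    (θ₁ : heckeAlgebra A 2 (↑S₁ : Set ℕ) →+* ResidueField 𝒪)
    (M : ℕ) [NeZero M] (H : Subgroup (ZMod M)ˣ)
    (Δ : Type) [CommGroup Δ] [Fintype Δ] (d : Gamma0 M →* Δ) : Type 1 where
  /-- a FULL base package of the balanced level -/
  B : twe_Base 𝒪 A S₁ θ₁
  hfull : B.IsFull
  hNS : ∀ ℓ : ℕ, ℓ.Prime → ℓ ∣ A → ℓ ∈ S₁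
  /-- the Hecke frame -/
  F : twe_sm_Frame M H (twe_sm_q A S₁)
  /-- lifts of the eigen-system -/
  a : twe_sm_Idx A S₁ → 𝒪
  ha : twe_sm_IsLift θ₁ a
  hrel : twe_at_Rel (twe_sm_TX 𝒪 A (twe_sm_q A S₁)) (twe_sm_TY 𝒪 F)
  hd : Function.Surjective d
  hdk : ∀ g, d g = 1 ↔ (g : SL(2, ℤ)) ∈ twe_GamH M H
  hneg : (-1 : SL(2, ℤ)) ∈ twe_GamH M H
  h12 : ∀ u : (ZMod M)ˣ, u ^ (12 * M) = 1 → u ∈ H
  /-- the exponent of `Δ` divides `p ^ n` -/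
  n : ℕ
  hΔ : ∀ δ : Δ, δ ^ (p ^ n) = 1
  /-- a non-Eisenstein index -/
  i₀ : twe_sm_Idx A S₁
  hne : residue 𝒪 (a i₀) ≠ (((i₀ : ℕ) + 1 : ℕ) : ResidueField 𝒪)

variable {p 𝒪}
variable {A : ℕ} [NeZero A] {S₁ : Finset ℕ}
  {θ₁ : heckeAlgebra A 2 (↑S₁ : Set ℕ) →+* ResidueField 𝒪}
  {M : ℕ} [NeZero M] {H : Subgroup (ZMod M)ˣ}
  {Δ : Type} [CommGroup Δ] [Fintype Δ] {d : Gamma0 M →* Δ}

/-- the Hecke action on `P_X`. -/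
def twe_sx_Ctx.ψ (X : twe_sx_Ctx p 𝒪 A S₁ θ₁ M H Δ d) :
    X.B.T →ₐ[𝒪] Module.End 𝒪 ↥(twe_pr_prim (twe_sm_TY 𝒪 X.F) X.a) :=
  twe_smod_psi X.B X.hfull X.hNS X.F X.a X.ha X.hrel

/-- the diamond representation on `P_X`. -/
def twe_sx_Ctx.ρ (X : twe_sx_Ctx p 𝒪 A S₁ θ₁ M H Δ d) :
    Representation 𝒪 Δ ↥(twe_pr_prim (twe_sm_TY 𝒪 X.F) X.a) :=
  twe_smod_rho d X.hd X.hdk X.F X.a

theorem twe_sx_Ctx.ψ_tau (X : twe_sx_Ctx p 𝒪 A S₁ θ₁ M H Δ d) (ℓ : twe_sm_Idx A S₁)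
    (y : ↥(twe_pr_prim (twe_sm_TY 𝒪 X.F) X.a)) :
    ((X.ψ (twe_sa_tau X.B ℓ) y : ↥(twe_pr_prim (twe_sm_TY 𝒪 X.F) X.a)) :
      ↥(twe_wl_V 𝒪 𝒪 (twe_GamH M H))) =
      twe_sm_TY 𝒪 X.F ℓ (y : ↥(twe_wl_V 𝒪 𝒪 (twe_GamH M H))) :=
  twe_smod_psi_tau X.B X.hfull X.hNS X.F X.a X.ha X.hrel ℓ y

theorem twe_sx_Ctx.ρ_coe (X : twe_sx_Ctx p 𝒪 A S₁ θ₁ M H Δ d) (g : Gamma0 M)
    (y : ↥(twe_pr_prim (twe_sm_TY 𝒪 X.F) X.a)) :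
    ((X.ρ (d g) y : ↥(twe_pr_prim (twe_sm_TY 𝒪 X.F) X.a)) :
      ↥(twe_wl_V 𝒪 𝒪 (twe_GamH M H))) =
      twe_wl_conj H g (y : ↥(twe_wl_V 𝒪 𝒪 (twe_GamH M H))) :=
  twe_smod_rho_coe d X.hd X.hdk X.F X.a g y

theorem twe_sx_Ctx.comm (X : twe_sx_Ctx p 𝒪 A S₁ θ₁ M H Δ d) (x : X.B.T) (δ : Δ)
    (y : ↥(twe_pr_prim (twe_sm_TY 𝒪 X.F) X.a)) :
    X.ψ x (X.ρ δ y) = X.ρ δ (X.ψ x y) :=
  twe_smod_comm X.B X.hfull X.hNS X.F X.a X.ha X.hrel d X.hd X.hdk x δ y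

/-- E/Free for a seam context: the orbit basis and the total transfer onto `prim W(Γ₀(M), 𝒪)`. -/
theorem twe_sx_Ctx.total (X : twe_sx_Ctx p 𝒪 A S₁ θ₁ M H Δ d) (hp : p.Prime) (hp2 : p ≠ 2)
    (hpO : (p : 𝒪) ∈ maximalIdeal 𝒪) :
    ∃ (r : ℕ) (v : Fin r → ↥(twe_pr_prim (twe_sm_TY 𝒪 X.F) X.a))
      (b : Module.Basis (Δ × Fin r) 𝒪 ↥(twe_pr_prim (twe_sm_TY 𝒪 X.F) X.a))
      (cor : ↥(twe_pr_prim (twe_sm_TY 𝒪 X.F) X.a) →ₗ[𝒪]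
        ↥(twe_pr_prim (twe_br_T0fam (𝒪 := 𝒪) (twe_sm_q A S₁) X.F.hq X.F.hM) X.a)),
      (∀ δ i, b (δ, i) = X.ρ δ (v i)) ∧
      Function.Surjective cor ∧
      LinearMap.ker cor = twe_smod_aug (P := ↥(twe_pr_prim (twe_sm_TY 𝒪 X.F) X.a)) X.ρ ∧
      (∀ (i : twe_sm_Idx A S₁) (y y' : ↥(twe_pr_prim (twe_sm_TY 𝒪 X.F) X.a)),
        (y' : ↥(twe_wl_V 𝒪 𝒪 (twe_GamH M H))) = twe_sm_TY 𝒪 X.F i y →
        ((cor y' : ↥(twe_pr_prim (twe_br_T0fam (𝒪 := 𝒪) (twe_sm_q A S₁) X.F.hq X.F.hM) X.a)) :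
          ↥(twe_wl_V 𝒪 𝒪 (Gamma0 M))) =
            twe_br_T0fam (𝒪 := 𝒪) (twe_sm_q A S₁) X.F.hq X.F.hM i (cor y)) ∧
      Module.Finite 𝒪
        ↥(twe_pr_prim (twe_br_T0fam (𝒪 := 𝒪) (twe_sm_q A S₁) X.F.hq X.F.hM) X.a) ∧
      Module.Free 𝒪
        ↥(twe_pr_prim (twe_br_T0fam (𝒪 := 𝒪) (twe_sm_q A S₁) X.F.hq X.F.hM) X.a) ∧
      Module.finrank 𝒪
        ↥(twe_pr_prim (twe_br_T0fam (𝒪 := 𝒪) (twe_sm_q A S₁) X.F.hq X.F.hM) X.a) = r :=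
  twe_smod_total d X.hd X.hdk X.F Subtype.val_injective X.a X.hneg X.h12 hp hp2 hpO X.hΔ X.i₀ X.hne

end ctx

/-- **(Rel)** for seam contexts: two contexts for `Γ_{H''} ≤ Γ_{H'} ≤ Γ₀(M)` (balanced levels
`A' ∣ A''` with the same prime divisors), with the same frames and lifts, `d' = φ ∘ d''`, and a map
`π` of Hecke rings, `T_ℓ ↦ T_ℓ`: the transfer `cor : P_{X''} → P_{X'}` is onto, its kernel is the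
augmentation submodule of `ker φ`, and it is equivariant for the Hecke rings and the diamonds. -/
def twe_sx_Rel_stmt : Prop :=
  ∀ (p : ℕ), p.Prime → p ≠ 2 →
  ∀ (𝒪 : Type) [CommRing 𝒪] [IsDomain 𝒪] [IsDiscreteValuationRing 𝒪]
    [IsAdicComplete (maximalIdeal 𝒪) 𝒪] [CharZero 𝒪],
    (p : 𝒪) ∈ maximalIdeal 𝒪 →
  ∀ (M : ℕ) [NeZero M] (S₁ : Finset ℕ) (A'' A' : ℕ) [NeZero A''] [NeZero A']
    (θ'' : heckeAlgebra A'' 2 (↑S₁ : Set ℕ) →+* ResidueField 𝒪)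
    (θ' : heckeAlgebra A' 2 (↑S₁ : Set ℕ) →+* ResidueField 𝒪)
    (H'' H' : Subgroup (ZMod M)ˣ)
    (Δ'' Δ' : Type) [CommGroup Δ''] [Fintype Δ''] [CommGroup Δ'] [Fintype Δ']
    (d'' : Gamma0 M →* Δ'') (d' : Gamma0 M →* Δ')
    (X'' : twe_sx_Ctx p 𝒪 A'' S₁ θ'' M H'' Δ'' d'') (X' : twe_sx_Ctx p 𝒪 A' S₁ θ' M H' Δ' d'),
    A' ∣ A'' → (∀ ℓ : ℕ, ℓ.Prime → ℓ ∣ A'' → ℓ ∣ A') → H'' ≤ H' →
    (∀ (ℓ'' : twe_sm_Idx A'' S₁) (ℓ' : twe_sm_Idx A' S₁), (ℓ'' : ℕ) = (ℓ' : ℕ) →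
      X''.F.s ℓ'' = X'.F.s ℓ') →
    (∀ (ℓ'' : twe_sm_Idx A'' S₁) (ℓ' : twe_sm_Idx A' S₁), (ℓ'' : ℕ) = (ℓ' : ℕ) →
      X''.a ℓ'' = X'.a ℓ') →
  ∀ (φ : Δ'' →* Δ'), (∀ g, φ (d'' g) = d' g) →
  ∀ (π : X''.B.T →ₐ[𝒪] X'.B.T),
    (∀ (ℓ : ℕ) (hℓ : ℓ.Prime) (h1 : ¬ ℓ ∣ A'') (h2 : ℓ ∉ (↑S₁ : Set ℕ)) (h3 : ¬ ℓ ∣ A'),
      π (X''.B.H.π (heckeAlgebra.T hℓ h1 h2)) = X'.B.H.π (heckeAlgebra.T hℓ h3 h2)) →
    ∃ cor : ↥(twe_pr_prim (twe_sm_TY 𝒪 X''.F) X''.a) →ₗ[𝒪]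
        ↥(twe_pr_prim (twe_sm_TY 𝒪 X'.F) X'.a),
      Function.Surjective cor ∧
      LinearMap.ker cor = Submodule.span 𝒪
        {w | ∃ δ : Δ'', φ δ = 1 ∧ ∃ u : ↥(twe_pr_prim (twe_sm_TY 𝒪 X''.F) X''.a),
          w = X''.ρ δ u - u} ∧
      (∀ (x : X''.B.T) (m : ↥(twe_pr_prim (twe_sm_TY 𝒪 X''.F) X''.a)),
        cor (X''.ψ x m) = X'.ψ (π x) (cor m)) ∧
      (∀ (δ : Δ'') (m : ↥(twe_pr_prim (twe_sm_TY 𝒪 X''.F) X''.a)),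
        cor (X''.ρ δ m) = X'.ρ (φ δ) (cor m))

/-- **(Abs)**: for a context `X` of the unipotent system at `Q` (balanced level `N ∏_{t ∈ Q} t²`,
`M = N ∏_{t ∈ Q} t`) over a FULL base package `B` of level `(N, S)`: the orbit basis of `P_X` and
the coinvariant map `c : P_X → (𝒪^d)^{2^{|Q|}}`, onto, with kernel the augmentation submodule,
Hecke-equivariant through `π0 : X.B.T → B.T`. -/
def twe_sx_Abs_stmt : Prop :=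
  ∀ (p : ℕ) [Fact p.Prime], 5 ≤ p →
  ∀ (𝒪 : Type) [CommRing 𝒪] [IsDomain 𝒪] [IsDiscreteValuationRing 𝒪]
    [IsAdicComplete (maximalIdeal 𝒪) 𝒪] [Finite (ResidueField 𝒪)] [CharZero 𝒪],
    (p : 𝒪) ∈ maximalIdeal 𝒪 →
  ∀ (N : ℕ) [NeZero N], Squarefree N → ¬ p ∣ N →
  ∀ (S : Finset ℕ), p ∈ S → (∀ ℓ : ℕ, ℓ.Prime → ℓ ∣ N → ℓ ∈ S) →
  ∀ (θ : heckeAlgebra N 2 (↑S : Set ℕ) →+* ResidueField 𝒪)
    (ρbar : ResidualGaloisRep (ResidueField 𝒪)),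
    twt_Compat θ ρbar → ρbar.IsAbsolutelyIrreducible →
  ∀ (B : twe_Base 𝒪 N S θ), B.IsFull →
  ∀ (Q : Finset ℕ) [NeZero (twe_Nbal N Q ∅)], (∀ t ∈ Q, t ∉ S) → twe_IsTWSet θ p Q →
  ∀ (θ' : heckeAlgebra (twe_Nbal N Q ∅) 2 (↑(S ∪ Q) : Set ℕ) →+* ResidueField 𝒪),
    (∀ (ℓ : ℕ) (hℓ : ℓ.Prime) (h1 : ¬ ℓ ∣ twe_Nbal N Q ∅) (h2 : ℓ ∉ (↑(S ∪ Q) : Set ℕ))
      (h3 : ¬ ℓ ∣ N) (h4 : ℓ ∉ (↑S : Set ℕ)),
      θ' (heckeAlgebra.T hℓ h1 h2) = θ (heckeAlgebra.T hℓ h3 h4)) →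
  ∀ (M : ℕ) [NeZero M], M = N * ∏ t ∈ Q, t →
  ∀ (H : Subgroup (ZMod M)ˣ) (Δ : Type) [CommGroup Δ] [Fintype Δ] (d : Gamma0 M →* Δ)
    (X : twe_sx_Ctx p 𝒪 (twe_Nbal N Q ∅) (S ∪ Q) θ' M H Δ d)
    (a₀ : twe_sm_Idx N S → 𝒪), twe_sm_IsLift θ a₀ →
    (∀ (ℓ : twe_sm_Idx (twe_Nbal N Q ∅) (S ∪ Q)) (ℓ' : twe_sm_Idx N S), (ℓ : ℕ) = (ℓ' : ℕ) →
      X.a ℓ = a₀ ℓ') →
  ∀ (π0 : X.B.T →ₐ[𝒪] B.T),
    (∀ (ℓ : ℕ) (hℓ : ℓ.Prime) (h1 : ¬ ℓ ∣ twe_Nbal N Q ∅) (h2 : ℓ ∉ (↑(S ∪ Q) : Set ℕ))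
      (h3 : ¬ ℓ ∣ N) (h4 : ℓ ∉ (↑S : Set ℕ)),
      π0 (X.B.H.π (heckeAlgebra.T hℓ h1 h2)) = B.H.π (heckeAlgebra.T hℓ h3 h4)) →
    ∃ (r : ℕ) (v : Fin r → ↥(twe_pr_prim (twe_sm_TY 𝒪 X.F) X.a))
      (b : Module.Basis (Δ × Fin r) 𝒪 ↥(twe_pr_prim (twe_sm_TY 𝒪 X.F) X.a))
      (c : ↥(twe_pr_prim (twe_sm_TY 𝒪 X.F) X.a) →ₗ[𝒪] (Fin (2 ^ Q.card) → Fin B.d → 𝒪)),
      (∀ δ i, b (δ, i) = X.ρ δ (v i)) ∧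
      Function.Surjective c ∧
      LinearMap.ker c = twe_smod_aug (P := ↥(twe_pr_prim (twe_sm_TY 𝒪 X.F) X.a)) X.ρ ∧
      ∀ (x : X.B.T) (m : ↥(twe_pr_prim (twe_sm_TY 𝒪 X.F) X.a)) (i : Fin (2 ^ Q.card)),
        c (X.ψ x m) i = (B.j (π0 x)).mulVec (c m i)

/-- **(NewAt)** for a seam context: a module `MX` over the Hecke ring of `X`, with an operator `δ`,
which embeds equivariantly in `P_X` (`δ` going to the diamond of `g₀ ≡ 1 mod t`, `t ≠ t₀`)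
satisfies the clause `twe_NewAt` at `t₀`. -/
def twe_sx_NewAt_stmt : Prop :=
  ∀ (p : ℕ) (𝒪 : Type) [CommRing 𝒪] [IsDomain 𝒪] [IsDiscreteValuationRing 𝒪]
    [IsAdicComplete (maximalIdeal 𝒪) 𝒪] [CharZero 𝒪]
    (A : ℕ) [NeZero A] (S₁ : Finset ℕ)
    (θ₁ : heckeAlgebra A 2 (↑S₁ : Set ℕ) →+* ResidueField 𝒪)
    (M : ℕ) [NeZero M] (H : Subgroup (ZMod M)ˣ)
    (Δ : Type) [CommGroup Δ] [Fintype Δ] (d : Gamma0 M →* Δ)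
    (X : twe_sx_Ctx p 𝒪 A S₁ θ₁ M H Δ d)
    (N₀ : ℕ) [NeZero N₀] (P : Finset ℕ) [∀ t : ↥P, Fact (Nat.Prime (t : ℕ))]
    (_ : ∀ t : ↥P, ¬ (t : ℕ) ∣ N₀) (_ : M = N₀ * ∏ t ∈ P, t)
    (htM : ∀ t : ↥P, (t : ℕ) ∣ M)
    (_ : ∀ u : (ZMod M)ˣ, (∀ t : ↥P, ZMod.unitsMap (htM t) u = 1) → u ∈ H)
    (m : ℕ) (_ : Odd m) (_ : ∀ u : (ZMod M)ˣ, u ^ m ∈ H)
    (t₀ : ↥P) (L' : ℕ) (_ : L' = ∏ t ∈ P.erase (t₀ : ℕ), t)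
    (_ : A = N₀ * L' * L' * (t₀ : ℕ) * (t₀ : ℕ))
    (g₀ : Gamma0 M)
    (_ : ∀ t : ↥P, t ≠ t₀ → ZMod.unitsMap (htM t) (twe_dUnit M g₀) = 1)
    (MX : Type) [AddCommGroup MX] [Module 𝒪 MX] [Module X.B.T MX] [IsScalarTower 𝒪 X.B.T MX]
    (δ : MX →ₗ[𝒪] MX) (e : MX →ₗ[𝒪] ↥(twe_pr_prim (twe_sm_TY 𝒪 X.F) X.a)),
    Function.Injective e →
    (∀ (x : X.B.T) (m : MX), e (x • m) = X.ψ x (e m)) →
    (∀ m : MX, e (δ m) = X.ρ (d g₀) (e m)) →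
    twe_NewAt X.B.H δ (t₀ : ℕ)

end

end Fermat.Agent.TW
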