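import Mathlib
import Fermat.Agent.TW.Aut.SeamMk

/-!
# ONE MACHINE / block [E] AUT, E/Seam: generic constructors of `twe_OldAt` (helper14)

Prefix `twe_som_`.  Pure plumbing on top of `SeamsLG.lean` / `SeamMk.lean`.

* `twe_som_oldAt`       : **OLD-AT-`t`** from a base package `Bt` of level `Nb / t`, a map
  `πt : T_X → Bt.T` compatible on the `T_ℓ`, an `𝒪`-module `PY` with an action `ψY` of `Bt.T`, and a
  `πt`-equivariant map `cor : M_X → PY` whose kernel lies in the image of `δ - 1`;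
* `twe_som_oldAt_level` : the instance for `D.toLevel`, `δ = dia t` (hypotheses on `D.P`, `D.ψ`, `D.ρ`);
* `twe_som_oldAt_bigQ`, `twe_som_oldAt_bigTh` : the instances for `D.toBig`, `δ = diaQ t`, `diaTh t`;
* `twe_som_pow_sub`, `twe_som_cyclic` : in a representation `ρ` of a monoid, the span of the
  `ρ γ u - u`, `γ` a power of `δ₀`, lies in the range of `ρ δ₀ - 1`.
-/

set_option autoImplicit false
set_option linter.unusedSectionVars false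
set_option linter.unusedVariables false
set_option linter.style.haveILetI false

noncomputable section

namespace Fermat.Agent.TW

open Polynomial CuspForm IsLocalRing Fermat.Agent.JT3

section generic

variable {𝒪 : Type} [CommRing 𝒪] [IsDomain 𝒪] [IsDiscreteValuationRing 𝒪]
  [IsAdicComplete (maximalIdeal 𝒪) 𝒪]
  {Nb : ℕ} [NeZero Nb] {S' : Finset ℕ}
  {θX : heckeAlgebra Nb 2 (↑S' : Set ℕ) →+* ResidueField 𝒪}
  {TX : Type} [CommRing TX] [IsLocalRing TX] [IsNoetherianRing TX]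
  [IsAdicComplete (maximalIdeal TX) TX] [Algebra 𝒪 TX] [IsLocalHom (algebraMap 𝒪 TX)]
  [Module.Finite 𝒪 TX] [Module.Free 𝒪 TX]

/-- **the generic constructor of OLD-AT-`t`.** -/
theorem twe_som_oldAt (HX : HeckeGaloisRepDatum Nb (↑S' : Set ℕ) 𝒪 θX TX)
    {MX : Type} [AddCommGroup MX] [Module 𝒪 MX] [Module TX MX]
    (δ : MX →ₗ[𝒪] MX) (t : ℕ) [NeZero (Nb / t)]
    (θt : heckeAlgebra (Nb / t) 2 (↑S' : Set ℕ) →+* ResidueField 𝒪)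
    (Bt : twe_Base 𝒪 (Nb / t) S' θt) (πt : TX →ₐ[𝒪] Bt.T)
    (πt_T : ∀ (ℓ : ℕ) (hℓ : ℓ.Prime) (h1 : ¬ ℓ ∣ Nb) (h2 : ℓ ∉ (↑S' : Set ℕ))
      (h3 : ¬ ℓ ∣ Nb / t),
      πt (HX.π (heckeAlgebra.T hℓ h1 h2)) = Bt.H.π (heckeAlgebra.T hℓ h3 h2))
    {PY : Type} [AddCommGroup PY] [Module 𝒪 PY] (ψY : Bt.T →ₐ[𝒪] Module.End 𝒪 PY)
    (cor : MX →+ PY) (hcor : ∀ (x : TX) (m : MX), cor (x • m) = ψY (πt x) (cor m))
    (hker : ∀ m : MX, cor m = 0 → ∃ m' : MX, m = δ m' - m') :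
    Nonempty (twe_OldAt HX δ t) := by
  refine ⟨{ θt := θt, Tt := Bt.T, Ht := Bt.H, πt := πt, πt_T := πt_T, kills := ?_ }⟩
  intro x hx m
  refine hker (x • m) ?_
  rw [hcor, hx, map_zero, LinearMap.zero_apply]

end generic

section rep

variable {𝒪 : Type*} [CommRing 𝒪] {Δ : Type*} [Monoid Δ] {P : Type*} [AddCommGroup P] [Module 𝒪 P]

/-- `ρ (δ₀ ^ k) u - u` lies in the range of `ρ δ₀ - 1`. -/
theorem twe_som_pow_sub (ρ : Representation 𝒪 Δ P) (δ₀ : Δ) (U : Submodule 𝒪 P)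
    (hU : ∀ u ∈ U, ρ δ₀ u ∈ U) (k : ℕ) (u : P) (hu : u ∈ U) :
    ∃ m' ∈ U, ρ (δ₀ ^ k) u - u = ρ δ₀ m' - m' := by
  induction k with
  | zero => exact ⟨0, U.zero_mem, by simp⟩
  | succ k ih =>
    obtain ⟨m', hm'U, hm'⟩ := ih
    have hkU : ∀ j : ℕ, ρ (δ₀ ^ j) u ∈ U := by
      intro j
      induction j with
      | zero => simpa using hu
      | succ j ihj =>
        rw [pow_succ', map_mul, Module.End.mul_apply]
        exact hU _ ihj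
    refine ⟨ρ (δ₀ ^ k) u + m', U.add_mem (hkU k) hm'U, ?_⟩
    rw [pow_succ', map_mul, Module.End.mul_apply, map_add]
    have h1 : ρ δ₀ (ρ (δ₀ ^ k) u) - u =
        (ρ δ₀ (ρ (δ₀ ^ k) u) - ρ (δ₀ ^ k) u) + (ρ (δ₀ ^ k) u - u) := by abel
    rw [h1, hm']
    abel

/-- **cyclic quotient**: the span of the `ρ γ u - u` (`γ ∈ C` powers of `δ₀`, `u ∈ U` stable) lies in
the image of `U` under `ρ δ₀ - 1`. -/
theorem twe_som_cyclic (ρ : Representation 𝒪 Δ P) (δ₀ : Δ) (U : Submodule 𝒪 P)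
    (hU : ∀ u ∈ U, ρ δ₀ u ∈ U) (C : Set Δ) (hC : ∀ γ ∈ C, ∃ k : ℕ, γ = δ₀ ^ k) (x : P)
    (hx : x ∈ Submodule.span 𝒪 {w | ∃ γ ∈ C, ∃ u ∈ U, w = ρ γ u - u}) :
    ∃ m' ∈ U, x = ρ δ₀ m' - m' := by
  induction hx using Submodule.span_induction with
  | mem w hw =>
    obtain ⟨γ, hγ, u, hu, rfl⟩ := hw
    obtain ⟨k, rfl⟩ := hC γ hγ
    exact twe_som_pow_sub ρ δ₀ U hU k u hu
  | zero => exact ⟨0, U.zero_mem, by simp⟩
  | add v w _ _ hv hw =>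
    obtain ⟨a, haU, ha⟩ := hv
    obtain ⟨b, hbU, hb⟩ := hw
    refine ⟨a + b, U.add_mem haU hbU, ?_⟩
    rw [ha, hb, map_add]
    abel
  | smul r v _ hv =>
    obtain ⟨a, haU, ha⟩ := hv
    refine ⟨r • a, U.smul_mem r haU, ?_⟩
    rw [ha, map_smul, smul_sub]

end rep

section level

variable {𝒪 : Type} [CommRing 𝒪] [IsDomain 𝒪] [IsDiscreteValuationRing 𝒪]
  [IsAdicComplete (maximalIdeal 𝒪) 𝒪]
  {N : ℕ} [NeZero N] {S : Finset ℕ} {θ : heckeAlgebra N 2 (↑S : Set ℕ) →+* ResidueField 𝒪}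
  {B : twe_Base 𝒪 N S θ} {p : ℕ} {Q : Finset ℕ} [NeZero (twe_Nbal N Q ∅)]

/-- **OLD-AT-`t` for the unipotent system built from `twe_mk_LevelData`.** -/
theorem twe_som_oldAt_level (D : twe_mk_LevelData B p Q) (t : ℕ) (ht : t ∈ Q)
    [NeZero (twe_Nbal N Q ∅ / t)]
    (θt : heckeAlgebra (twe_Nbal N Q ∅ / t) 2 (↑(S ∪ Q) : Set ℕ) →+* ResidueField 𝒪)
    (Bt : twe_Base 𝒪 (twe_Nbal N Q ∅ / t) (S ∪ Q) θt) (πt : D.B'.T →ₐ[𝒪] Bt.T)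
    (πt_T : ∀ (ℓ : ℕ) (hℓ : ℓ.Prime) (h1 : ¬ ℓ ∣ twe_Nbal N Q ∅) (h2 : ℓ ∉ (↑(S ∪ Q) : Set ℕ))
      (h3 : ¬ ℓ ∣ twe_Nbal N Q ∅ / t),
      πt (D.B'.H.π (heckeAlgebra.T hℓ h1 h2)) = Bt.H.π (heckeAlgebra.T hℓ h3 h2))
    {PY : Type} [AddCommGroup PY] [Module 𝒪 PY] (ψY : Bt.T →ₐ[𝒪] Module.End 𝒪 PY)
    (cor : D.P →+ PY) (hcor : ∀ (x : D.B'.T) (m : D.P), cor (D.ψ x m) = ψY (πt x) (cor m))
    (hker : ∀ m : D.P, cor m = 0 → ∃ m' : D.P, m = D.ρ (twe_gen p Q t ht) m' - m') :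
    Nonempty (twe_OldAt D.toLevel.H' (D.toLevel.dia t ht) t) := by
  refine twe_som_oldAt D.toLevel.H' (D.toLevel.dia t ht) t θt Bt πt πt_T ψY
    (cor.comp (D.ρ.asModuleEquiv : D.ρ.asModule →ₗ[𝒪] D.P).toAddMonoidHom) ?_ ?_
  · intro x m
    show cor (D.ρ.asModuleEquiv (x • m)) = ψY (πt x) (cor (D.ρ.asModuleEquiv m))
    rw [twe_mk_toLevel_smul, LinearEquiv.apply_symm_apply]
    exact hcor x _
  · intro m hm
    obtain ⟨m', hm'⟩ := hker (D.ρ.asModuleEquiv m) hm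
    refine ⟨D.ρ.asModuleEquiv.symm m', ?_⟩
    have h := congrArg D.ρ.asModuleEquiv.symm hm'
    rw [LinearEquiv.symm_apply_apply, map_sub] at h
    rw [twe_mk_toLevel_dia, LinearEquiv.apply_symm_apply]
    exact h

end level

section big

variable {𝒪 : Type} [CommRing 𝒪] [IsDomain 𝒪] [IsDiscreteValuationRing 𝒪]
  [IsAdicComplete (maximalIdeal 𝒪) 𝒪]
  {N : ℕ} [NeZero N] {S : Finset ℕ} {θ : heckeAlgebra N 2 (↑S : Set ℕ) →+* ResidueField 𝒪}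
  {B : twe_Base 𝒪 N S θ} {p : ℕ} {Q : Finset ℕ} [NeZero (twe_Nbal N Q ∅)]
  {L : twe_Level B p Q} {Th : Finset ℕ} [NeZero (twe_Nbal N Q Th)]

/-- **OLD-AT-`t`, `t ∈ Q`, for the big system built from `twe_mk_BigData`.** -/
theorem twe_som_oldAt_bigQ (D : twe_mk_BigData L Th) (t : ℕ) (ht : t ∈ Q)
    [NeZero (twe_Nbal N Q Th / t)]
    (θt : heckeAlgebra (twe_Nbal N Q Th / t) 2 (↑(S ∪ Q) : Set ℕ) →+* ResidueField 𝒪)
    (Bt : twe_Base 𝒪 (twe_Nbal N Q Th / t) (S ∪ Q) θt) (πt : D.B''.T →ₐ[𝒪] Bt.T)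
    (πt_T : ∀ (ℓ : ℕ) (hℓ : ℓ.Prime) (h1 : ¬ ℓ ∣ twe_Nbal N Q Th) (h2 : ℓ ∉ (↑(S ∪ Q) : Set ℕ))
      (h3 : ¬ ℓ ∣ twe_Nbal N Q Th / t),
      πt (D.B''.H.π (heckeAlgebra.T hℓ h1 h2)) = Bt.H.π (heckeAlgebra.T hℓ h3 h2))
    {PY : Type} [AddCommGroup PY] [Module 𝒪 PY] (ψY : Bt.T →ₐ[𝒪] Module.End 𝒪 PY)
    (cor : D.P →+ PY) (hcor : ∀ (x : D.B''.T) (m : D.P), cor (D.ψ x m) = ψY (πt x) (cor m))
    (hker : ∀ m : D.P, cor m = 0 → ∃ m' : D.P, m = D.ρ (twe_gen p Q t ht, 1) m' - m') :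
    Nonempty (twe_OldAt D.toBig.H'' (D.toBig.diaQ t ht) t) := by
  refine twe_som_oldAt D.toBig.H'' (D.toBig.diaQ t ht) t θt Bt πt πt_T ψY
    (cor.comp (D.ρ.asModuleEquiv : D.ρ.asModule →ₗ[𝒪] D.P).toAddMonoidHom) ?_ ?_
  · intro x m
    show cor (D.ρ.asModuleEquiv (x • m)) = ψY (πt x) (cor (D.ρ.asModuleEquiv m))
    rw [twe_mk_toBig_smul, LinearEquiv.apply_symm_apply]
    exact hcor x _
  · intro m hm
    obtain ⟨m', hm'⟩ := hker (D.ρ.asModuleEquiv m) hm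
    refine ⟨D.ρ.asModuleEquiv.symm m', ?_⟩
    have h := congrArg D.ρ.asModuleEquiv.symm hm'
    rw [LinearEquiv.symm_apply_apply, map_sub] at h
    rw [twe_mk_toBig_diaQ, LinearEquiv.apply_symm_apply]
    exact h

/-- **OLD-AT-`t`, `t ∈ Th`, for the big system built from `twe_mk_BigData`.** -/
theorem twe_som_oldAt_bigTh (D : twe_mk_BigData L Th) (t : ℕ) (ht : t ∈ Th)
    [NeZero (twe_Nbal N Q Th / t)]
    (θt : heckeAlgebra (twe_Nbal N Q Th / t) 2 (↑(S ∪ Q) : Set ℕ) →+* ResidueField 𝒪)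
    (Bt : twe_Base 𝒪 (twe_Nbal N Q Th / t) (S ∪ Q) θt) (πt : D.B''.T →ₐ[𝒪] Bt.T)
    (πt_T : ∀ (ℓ : ℕ) (hℓ : ℓ.Prime) (h1 : ¬ ℓ ∣ twe_Nbal N Q Th) (h2 : ℓ ∉ (↑(S ∪ Q) : Set ℕ))
      (h3 : ¬ ℓ ∣ twe_Nbal N Q Th / t),
      πt (D.B''.H.π (heckeAlgebra.T hℓ h1 h2)) = Bt.H.π (heckeAlgebra.T hℓ h3 h2))
    {PY : Type} [AddCommGroup PY] [Module 𝒪 PY] (ψY : Bt.T →ₐ[𝒪] Module.End 𝒪 PY)
    (cor : D.P →+ PY) (hcor : ∀ (x : D.B''.T) (m : D.P), cor (D.ψ x m) = ψY (πt x) (cor m))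
    (hker : ∀ m : D.P, cor m = 0 → ∃ m' : D.P, m = D.ρ (1, twe_gen p Th t ht) m' - m') :
    Nonempty (twe_OldAt D.toBig.H'' (D.toBig.diaTh t ht) t) := by
  refine twe_som_oldAt D.toBig.H'' (D.toBig.diaTh t ht) t θt Bt πt πt_T ψY
    (cor.comp (D.ρ.asModuleEquiv : D.ρ.asModule →ₗ[𝒪] D.P).toAddMonoidHom) ?_ ?_
  · intro x m
    show cor (D.ρ.asModuleEquiv (x • m)) = ψY (πt x) (cor (D.ρ.asModuleEquiv m))
    rw [twe_mk_toBig_smul, LinearEquiv.apply_symm_apply]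
    exact hcor x _
  · intro m hm
    obtain ⟨m', hm'⟩ := hker (D.ρ.asModuleEquiv m) hm
    refine ⟨D.ρ.asModuleEquiv.symm m', ?_⟩
    have h := congrArg D.ρ.asModuleEquiv.symm hm'
    rw [LinearEquiv.symm_apply_apply, map_sub] at h
    rw [twe_mk_toBig_diaTh, LinearEquiv.apply_symm_apply]
    exact h

end big

end Fermat.Agent.TW
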