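/-
ONE MACHINE / block [E] AUT, LAYER 4 (abstract half), cell E/Twist (helper24).
Namespace `Fermat.Agent.TW`, prefix `twe_tw_`.

THE TWIST AT SEVERAL PRIMES, abstractly.  `G` a group acting `k`-linearly on `V`
(`ρ : G →* Module.End k V`, `k` a field of characteristic `0`), `ι t : SL(2, F t) →* G` a family of
pairwise commuting embeddings (`F t` finite fields; in use `G = ∏ₜ SL(2, 𝔽_t)`, `V = Hom(Γ0(N₀) ∩ Γ(L), k)`
with the conjugation action of `TW/Aut/Full.lean`).  For `η : (F t)ˣ →* k` the twisting operator is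

    `twe_tw_op ρ (ι t) η = ∑_{c ∈ (F t)ˣ} η(c) • ρ (ι t [[1,0],[c,1]])`.

* `twe_tw_op_apply`   : `twe_tw_op ρ ι η h = twlg_bt_W (ρ.comp ι) η h` (the twisting vector of LG/BorelTwist);
* `twe_tw_op_comm`    : the operator commutes with every endomorphism commuting with the `ρ (ι (L c))`;
* `twe_tw_op_eigen`   : if `ρ γ ∘ T = T ∘ ρ (τ γ)` (twisted commutation, `twe_fl_rho_comm`) and
  `τ (ι (L c)) = ι (L (u c))` then `T h = a • h ⟹ T (op h) = (a * η u) • op h`;
* **`twe_tw_family`** : `h ≠ 0` fixed by all `ι t (U x)` with torus characters `ψ t`; `P` a finite set of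
  indices with `(ψ t)² ≠ 1`, `(η t)² ψ t = 1` (`t ∈ P`).  Then there is `w ≠ 0` (in every `G`-stable
  submodule containing `h`) which is fixed by the tori `ι t (D a)`, `t ∈ P`, is killed by BOTH Borel
  traces `∑ₓ ρ (ι t (U x))`, `∑ₓ ρ (ι t (L x))` for every `t ∈ P`, keeps the properties of `h` at
  `t ∉ P`, keeps every eigen-property under elements commuting with the `ι t (L c)`, and satisfies
  `T w = (a₀ * ∏_{t ∈ P} η t (u t)) • w` for EVERY `T` in twisted commutation with `T h = a₀ • h`.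
-/
import Mathlib
import Fermat.Agent.TW.LG.BorelTwist

set_option autoImplicit false

open scoped BigOperators MatrixGroups
open Matrix

namespace Fermat.Agent.TW

/-! ### 1. The twisting operator at one prime -/

section one

variable {F : Type*} [Field F] [Fintype F] [DecidableEq F]
  {G : Type*} [Group G] {k V : Type*} [Field k] [AddCommGroup V] [Module k V]
  (ρ : G →* Module.End k V) (ι : SL(2, F) →* G) (η : Fˣ →* k)

/-- the twisting operator `∑_{c ∈ Fˣ} η(c) • ρ (ι [[1,0],[c,1]])`. -/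
def twe_tw_op : Module.End k V := ∑ c : Fˣ, η c • ρ (ι (twlg_bk_L (c : F)))

theorem twe_tw_op_apply' (v : V) :
    twe_tw_op ρ ι η v = ∑ c : Fˣ, η c • ρ (ι (twlg_bk_L (c : F))) v := by
  unfold twe_tw_op
  rw [LinearMap.sum_apply]
  rfl

theorem twe_tw_op_apply (v : V) : twe_tw_op ρ ι η v = twlg_bt_W (ρ.comp ι) η v := by
  rw [twe_tw_op_apply']
  rfl

/-- the twisting operator commutes with every endomorphism commuting with the `ρ (ι (L c))`. -/
theorem twe_tw_op_comm (E : Module.End k V)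
    (hE : ∀ (c : F) (v : V), E (ρ (ι (twlg_bk_L c)) v) = ρ (ι (twlg_bk_L c)) (E v)) (v : V) :
    E (twe_tw_op ρ ι η v) = twe_tw_op ρ ι η (E v) := by
  rw [twe_tw_op_apply', twe_tw_op_apply', map_sum]
  refine Finset.sum_congr rfl fun c _ => ?_
  rw [map_smul, hE]

theorem twe_tw_op_comm_of_commute (g : G) (hg : ∀ c : F, Commute g (ι (twlg_bk_L c))) (v : V) :
    ρ g (twe_tw_op ρ ι η v) = twe_tw_op ρ ι η (ρ g v) := by
  refine twe_tw_op_comm ρ ι η (ρ g) (fun c v => ?_) v
  rw [← Module.End.mul_apply, ← Module.End.mul_apply, ← map_mul, ← map_mul, (hg c).eq]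

/-- the twisting operator preserves every `G`-stable submodule. -/
theorem twe_tw_op_mem (M : Submodule k V) (hM : ∀ g, ∀ v ∈ M, ρ g v ∈ M) {v : V} (hv : v ∈ M) :
    twe_tw_op ρ ι η v ∈ M := by
  rw [twe_tw_op_apply']
  exact Submodule.sum_mem _ fun c _ => Submodule.smul_mem _ _ (hM _ _ hv)

/-- **the eigenvalue of the twisted vector**. -/
theorem twe_tw_op_eigen (T : Module.End k V) (τ : G →* G)
    (hcomm : ∀ (γ : G) (v : V), ρ γ (T v) = T (ρ (τ γ) v)) (u : Fˣ)
    (hτL : ∀ c : F, τ (ι (twlg_bk_L c)) = ι (twlg_bk_L ((u : F) * c))) {h : V} {a : k}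
    (ha : T h = a • h) : T (twe_tw_op ρ ι η h) = (a * η u) • twe_tw_op ρ ι η h := by
  rw [twe_tw_op_apply', map_sum, Finset.smul_sum]
  rw [← Equiv.sum_comp (Equiv.mulLeft u)
    (fun c : Fˣ => T (η c • ρ (ι (twlg_bk_L (c : F))) h))]
  refine Finset.sum_congr rfl fun c _ => ?_
  have h1 : T (ρ (ι (twlg_bk_L ((u : F) * (c : F)))) h) = a • ρ (ι (twlg_bk_L (c : F))) h := by
    rw [← hτL, ← hcomm, ha, map_smul]
  rw [Equiv.coe_mulLeft, map_smul, Units.val_mul, h1, map_mul, smul_smul, smul_smul]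
  congr 1
  ring

end one

/-! ### 2. The twist at a family of commuting primes -/

section family

variable {Q : Type*} [DecidableEq Q] {F : Q → Type*} [∀ t, Field (F t)] [∀ t, Fintype (F t)]
  [∀ t, DecidableEq (F t)]
  {G : Type*} [Group G] {k V : Type*} [Field k] [CharZero k] [AddCommGroup V] [Module k V]

omit [DecidableEq Q] in
theorem twe_tw_nsmul_eq_zero (k : Type*) {V : Type*} [Field k] [CharZero k] [AddCommGroup V]
    [Module k V] {n : ℕ} (hn : n ≠ 0) {v : V} (h : n • v = 0) : v = 0 := by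
  rw [← Nat.cast_smul_eq_nsmul k, smul_eq_zero] at h
  rcases h with h | h
  · exact absurd h (Nat.cast_ne_zero.mpr hn)
  · exact h

/-- **the twist at a finite set `P` of commuting primes**. -/
theorem twe_tw_family (ρ : G →* Module.End k V) (ι : ∀ t, SL(2, F t) →* G)
    (hι : ∀ t s, t ≠ s → ∀ x y, Commute (ι t x) (ι s y))
    (ψ η : ∀ t, (F t)ˣ →* k) (M : Submodule k V) (hM : ∀ g, ∀ v ∈ M, ρ g v ∈ M)
    (h : V) (hhM : h ∈ M) (h0 : h ≠ 0)
    (hN : ∀ t x, ρ (ι t (twlg_bk_Umat x)) h = h)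
    (hT : ∀ t a, ρ (ι t (twlg_bk_Dmat a)) h = ψ t a • h)
    (P : Finset Q) (hψ2 : ∀ t ∈ P, ψ t * ψ t ≠ 1)
    (hηψ : ∀ t ∈ P, ∀ a, η t a * η t a * ψ t a = 1) :
    ∃ w : V, w ≠ 0 ∧ w ∈ M ∧
      (∀ t ∈ P, ∀ a, ρ (ι t (twlg_bk_Dmat a)) w = w) ∧
      (∀ t ∉ P, (∀ x, ρ (ι t (twlg_bk_Umat x)) w = w) ∧
        ∀ a, ρ (ι t (twlg_bk_Dmat a)) w = ψ t a • w) ∧
      (∀ t ∈ P, ∑ x : F t, ρ (ι t (twlg_bk_Umat x)) w = 0 ∧
        ∑ x : F t, ρ (ι t (twlg_bk_L x)) w = 0) ∧
      (∀ (g : G), (∀ t (c : F t), Commute g (ι t (twlg_bk_L c))) → ∀ χ : k,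
        ρ g h = χ • h → ρ g w = χ • w) ∧
      (∀ (T : Module.End k V) (τ : G →* G) (u : ∀ t, (F t)ˣ) (a₀ : k),
        (∀ (γ : G) (v : V), ρ γ (T v) = T (ρ (τ γ) v)) →
        (∀ t (c : F t), τ (ι t (twlg_bk_L c)) = ι t (twlg_bk_L ((u t : F t) * c))) →
        T h = a₀ • h → T w = (a₀ * ∏ t ∈ P, η t (u t)) • w) := by
  classical
  induction P using Finset.induction_on with
  | empty =>
    refine ⟨h, h0, hhM, fun t ht => absurd ht (Finset.notMem_empty t),
      fun t _ => ⟨hN t, hT t⟩, fun t ht => absurd ht (Finset.notMem_empty t),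
      fun g _ χ hχ => hχ, fun T τ u a₀ _ _ ha => ?_⟩
    rw [Finset.prod_empty, mul_one, ha]
  | insert t₀ P ht₀ ih =>
    obtain ⟨w, hw0, hwM, hw3, hw4, hw5, hw7, hw6⟩ :=
      ih (fun t ht => hψ2 t (Finset.mem_insert_of_mem ht))
        (fun t ht => hηψ t (Finset.mem_insert_of_mem ht))
    have hN' : ∀ x : F t₀, (ρ.comp (ι t₀)) (twlg_bk_Umat x) w = w := (hw4 t₀ ht₀).1
    have hT' : ∀ a : (F t₀)ˣ, (ρ.comp (ι t₀)) (twlg_bk_Dmat a) w = ψ t₀ a • w := (hw4 t₀ ht₀).2
    have hψ2' := hψ2 t₀ (Finset.mem_insert_self t₀ P)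
    have hηψ' := hηψ t₀ (Finset.mem_insert_self t₀ P)
    have hψ1 : ψ t₀ ≠ 1 := by
      intro h1
      apply hψ2'
      rw [h1, mul_one]
    -- commutation of the operator at `t₀` with the other primes
    have hcm : ∀ t, t ≠ t₀ → ∀ (y : SL(2, F t)) (v : V),
        ρ (ι t y) (twe_tw_op ρ (ι t₀) (η t₀) v) = twe_tw_op ρ (ι t₀) (η t₀) (ρ (ι t y) v) :=
      fun t ht y v => twe_tw_op_comm_of_commute ρ (ι t₀) (η t₀) (ι t y)
        (fun c => hι t t₀ ht y _) v
    refine ⟨twe_tw_op ρ (ι t₀) (η t₀) w, ?_, twe_tw_op_mem ρ (ι t₀) (η t₀) M hM hwM, ?_, ?_, ?_,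
      ?_, ?_⟩
    · -- nonvanishing
      rw [twe_tw_op_apply]
      refine twlg_bt_W_ne_zero hψ2' hN' hT' ?_
      intro hz
      have hz1 := twe_tw_nsmul_eq_zero k Fintype.card_pos.ne' hz
      rw [smul_eq_zero] at hz1
      rcases hz1 with hz1 | hz1
      · exact absurd hz1 (Nat.cast_ne_zero.mpr Fintype.card_pos.ne')
      · exact hw0 hz1
    · -- the tori of `insert t₀ P`
      intro t ht a
      rcases Finset.mem_insert.mp ht with rfl | htP
      · rw [twe_tw_op_apply]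
        exact twlg_bt_W_torus hηψ' hT' a
      · have hne : t ≠ t₀ := fun e => ht₀ (e ▸ htP)
        rw [hcm t hne, hw3 t htP a]
    · -- the other primes
      intro t ht
      have hne : t ≠ t₀ := fun e => ht (e ▸ Finset.mem_insert_self t₀ P)
      have htP : t ∉ P := fun e => ht (Finset.mem_insert_of_mem e)
      refine ⟨fun x => ?_, fun a => ?_⟩
      · rw [hcm t hne, (hw4 t htP).1 x]
      · rw [hcm t hne, (hw4 t htP).2 a, map_smul]
    · -- the Borel traces
      intro t ht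
      rcases Finset.mem_insert.mp ht with rfl | htP
      · constructor
        · have := twlg_bt_W_upper (η := η t) hψ1 hηψ' hN' hT'
          rw [twe_tw_op_apply]
          exact twe_tw_nsmul_eq_zero k Fintype.card_pos.ne' this
        · have := twlg_bt_W_lower (η := η t) hψ1 hηψ' hN' hT'
          rw [twe_tw_op_apply]
          exact twe_tw_nsmul_eq_zero k Fintype.card_pos.ne' this
      · have hne : t ≠ t₀ := fun e => ht₀ (e ▸ htP)
        constructor
        · rw [Finset.sum_congr rfl fun x _ => hcm t hne (twlg_bk_Umat x) w, ← map_sum,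
            (hw5 t htP).1, map_zero]
        · rw [Finset.sum_congr rfl fun x _ => hcm t hne (twlg_bk_L x) w, ← map_sum,
            (hw5 t htP).2, map_zero]
    · -- commuting elements
      intro g hg χ hχ
      rw [twe_tw_op_comm_of_commute ρ (ι t₀) (η t₀) g (hg t₀), hw7 g hg χ hχ, map_smul]
    · -- the eigenvalue
      intro T τ u a₀ hcomm hτL ha
      have h1 := hw6 T τ u a₀ hcomm hτL ha
      rw [twe_tw_op_eigen ρ (ι t₀) (η t₀) T τ hcomm (u t₀) (hτL t₀) h1,
        Finset.prod_insert ht₀]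
      congr 1
      ring

end family

end Fermat.Agent.TW
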