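/-
ONE MACHINE / block [E] AUT, LAYER 4 (abstract half), cell E/Twist in OPERATOR FORM (helper24).
Namespace `Fermat.Agent.TW`, prefix `twe_to_`.

`twe_to_family` : for a family `ι t : SL(2, F t) →* G` of pairwise commuting embeddings, torus characters
`ψ t` and a finite set `P` of indices with `(ψ t)² ≠ 1`, `(η t)² ψ t = 1`, there is ONE linear operator
`W` on `V` (the product of the twisting operators `twe_tw_op` at the `t ∈ P`) such that

* `W` preserves every `G`-stable submodule;
* `T (W v) = (∏_{t ∈ P} η t (u t)) • W (T v)` for EVERY `v` and every `T` in twisted commutation;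
* on the vectors `h` fixed by the `ι t (U x)` with torus characters `ψ t`: `W` is injective, `W h` is fixed by the
  tori at `t ∈ P`, keeps the properties of `h` at `t ∉ P`, and is killed by both Borel traces at `t ∈ P`.
-/
import Mathlib
import Fermat.Agent.TW.Aut.Twist

set_option autoImplicit false

open scoped BigOperators MatrixGroups
open Matrix

namespace Fermat.Agent.TW

section one

variable {F : Type*} [Field F] [Fintype F] [DecidableEq F]
  {G : Type*} [Group G] {k V : Type*} [Field k] [AddCommGroup V] [Module k V]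
  (ρ : G →* Module.End k V) (ι : SL(2, F) →* G) (η : Fˣ →* k)

/-- **twisted commutation of the twisting operator**, operator form. -/
theorem twe_to_op_T (T : Module.End k V) (τ : G →* G)
    (hcomm : ∀ (γ : G) (v : V), ρ γ (T v) = T (ρ (τ γ) v)) (u : Fˣ)
    (hτL : ∀ c : F, τ (ι (twlg_bk_L c)) = ι (twlg_bk_L ((u : F) * c))) (v : V) :
    T (twe_tw_op ρ ι η v) = η u • twe_tw_op ρ ι η (T v) := by
  rw [twe_tw_op_apply', twe_tw_op_apply', map_sum, Finset.smul_sum]
  rw [← Equiv.sum_comp (Equiv.mulLeft u)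
    (fun c : Fˣ => T (η c • ρ (ι (twlg_bk_L (c : F))) v))]
  refine Finset.sum_congr rfl fun c _ => ?_
  have h1 : T (ρ (ι (twlg_bk_L ((u : F) * (c : F)))) v) = ρ (ι (twlg_bk_L (c : F))) (T v) := by
    rw [← hτL, ← hcomm]
  rw [Equiv.coe_mulLeft, map_smul, Units.val_mul, h1, map_mul, smul_smul]

end one

section family

variable {Q : Type*} [DecidableEq Q] {F : Q → Type*} [∀ t, Field (F t)] [∀ t, Fintype (F t)]
  [∀ t, DecidableEq (F t)]
  {G : Type*} [Group G] {k V : Type*} [Field k] [CharZero k] [AddCommGroup V] [Module k V]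

/-- **the twist at a finite set `P` of commuting primes, operator form**. -/
theorem twe_to_family (ρ : G →* Module.End k V) (ι : ∀ t, SL(2, F t) →* G)
    (hι : ∀ t s, t ≠ s → ∀ x y, Commute (ι t x) (ι s y))
    (ψ η : ∀ t, (F t)ˣ →* k)
    (P : Finset Q) (hψ2 : ∀ t ∈ P, ψ t * ψ t ≠ 1)
    (hηψ : ∀ t ∈ P, ∀ a, η t a * η t a * ψ t a = 1) :
    ∃ W : Module.End k V,
      (∀ M : Submodule k V, (∀ g, ∀ v ∈ M, ρ g v ∈ M) → ∀ v ∈ M, W v ∈ M) ∧
      (∀ (T : Module.End k V) (τ : G →* G) (u : ∀ t, (F t)ˣ),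
        (∀ (γ : G) (v : V), ρ γ (T v) = T (ρ (τ γ) v)) →
        (∀ t (c : F t), τ (ι t (twlg_bk_L c)) = ι t (twlg_bk_L ((u t : F t) * c))) →
        ∀ v, T (W v) = (∏ t ∈ P, η t (u t)) • W (T v)) ∧
      ∀ h : V, (∀ t x, ρ (ι t (twlg_bk_Umat x)) h = h) →
        (∀ t a, ρ (ι t (twlg_bk_Dmat a)) h = ψ t a • h) →
        (W h = 0 → h = 0) ∧
        (∀ t ∈ P, ∀ a, ρ (ι t (twlg_bk_Dmat a)) (W h) = W h) ∧
        (∀ t ∉ P, (∀ x, ρ (ι t (twlg_bk_Umat x)) (W h) = W h) ∧
          ∀ a, ρ (ι t (twlg_bk_Dmat a)) (W h) = ψ t a • W h) ∧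
        (∀ t ∈ P, ∑ x : F t, ρ (ι t (twlg_bk_Umat x)) (W h) = 0 ∧
          ∑ x : F t, ρ (ι t (twlg_bk_L x)) (W h) = 0) := by
  classical
  induction P using Finset.induction_on with
  | empty =>
    refine ⟨1, fun M _ v hv => hv, fun T τ u _ _ v => ?_, fun h hN hT => ?_⟩
    · rw [Finset.prod_empty, one_smul]
      rfl
    · exact ⟨fun h0 => h0, fun t ht => absurd ht (Finset.notMem_empty t),
        fun t _ => ⟨hN t, hT t⟩, fun t ht => absurd ht (Finset.notMem_empty t)⟩
  | insert t₀ P ht₀ ih =>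
    obtain ⟨W, hW1, hW2, hW3⟩ :=
      ih (fun t ht => hψ2 t (Finset.mem_insert_of_mem ht))
        (fun t ht => hηψ t (Finset.mem_insert_of_mem ht))
    have hψ2' := hψ2 t₀ (Finset.mem_insert_self t₀ P)
    have hηψ' := hηψ t₀ (Finset.mem_insert_self t₀ P)
    have hψ1 : ψ t₀ ≠ 1 := by
      intro h1
      apply hψ2'
      rw [h1, mul_one]
    have hcm : ∀ t, t ≠ t₀ → ∀ (y : SL(2, F t)) (v : V),
        ρ (ι t y) (twe_tw_op ρ (ι t₀) (η t₀) v) = twe_tw_op ρ (ι t₀) (η t₀) (ρ (ι t y) v) :=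
      fun t ht y v => twe_tw_op_comm_of_commute ρ (ι t₀) (η t₀) (ι t y)
        (fun c => hι t t₀ ht y _) v
    refine ⟨twe_tw_op ρ (ι t₀) (η t₀) * W, fun M hM v hv => ?_, fun T τ u hcomm hτL v => ?_,
      fun h hN hT => ?_⟩
    · rw [Module.End.mul_apply]
      exact twe_tw_op_mem ρ (ι t₀) (η t₀) M hM (hW1 M hM v hv)
    · rw [Module.End.mul_apply, Module.End.mul_apply,
        twe_to_op_T ρ (ι t₀) (η t₀) T τ hcomm (u t₀) (hτL t₀), hW2 T τ u hcomm hτL v, map_smul,
        smul_smul, Finset.prod_insert ht₀]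
    · obtain ⟨hw0, hw3, hw4, hw5⟩ := hW3 h hN hT
      have hN' : ∀ x : F t₀, (ρ.comp (ι t₀)) (twlg_bk_Umat x) (W h) = W h := (hw4 t₀ ht₀).1
      have hT' : ∀ a : (F t₀)ˣ, (ρ.comp (ι t₀)) (twlg_bk_Dmat a) (W h) = ψ t₀ a • W h :=
        (hw4 t₀ ht₀).2
      refine ⟨fun hz => ?_, ?_, ?_, ?_⟩
      · -- injectivity
        apply hw0
        by_contra hne
        rw [Module.End.mul_apply, twe_tw_op_apply] at hz
        refine twlg_bt_W_ne_zero hψ2' hN' hT' ?_ hz
        intro hz'
        have hz1 := twe_tw_nsmul_eq_zero k Fintype.card_pos.ne' hz'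
        rw [smul_eq_zero] at hz1
        rcases hz1 with hz1 | hz1
        · exact absurd hz1 (Nat.cast_ne_zero.mpr Fintype.card_pos.ne')
        · exact hne hz1
      · intro t ht a
        rw [Module.End.mul_apply]
        rcases Finset.mem_insert.mp ht with rfl | htP
        · rw [twe_tw_op_apply]
          exact twlg_bt_W_torus hηψ' hT' a
        · have hne : t ≠ t₀ := fun e => ht₀ (e ▸ htP)
          rw [hcm t hne, hw3 t htP a]
      · intro t ht
        have hne : t ≠ t₀ := fun e => ht (e ▸ Finset.mem_insert_self t₀ P)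
        have htP : t ∉ P := fun e => ht (Finset.mem_insert_of_mem e)
        rw [Module.End.mul_apply]
        refine ⟨fun x => ?_, fun a => ?_⟩
        · rw [hcm t hne, (hw4 t htP).1 x]
        · rw [hcm t hne, (hw4 t htP).2 a, map_smul]
      · intro t ht
        rw [Module.End.mul_apply]
        rcases Finset.mem_insert.mp ht with rfl | htP
        · constructor
          · have := twlg_bt_W_upper (η := η t) hψ1 hηψ' hN' hT'
            rw [twe_tw_op_apply]
            exact twe_tw_nsmul_eq_zero k Fintype.card_pos.ne' this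
          · have := twlg_bt_W_lower (η := η t) hψ1 hηψ' hN' hT'
            rw [twe_tw_op_apply]
            exact twe_tw_nsmul_eq_zero k Fintype.card_pos.ne' this
        · have hne : t ≠ t₀ := fun e => ht₀ (e ▸ htP)
          constructor
          · rw [Finset.sum_congr rfl fun x _ => hcm t hne (twlg_bk_Umat x) (W h), ← map_sum,
              (hw5 t htP).1, map_zero]
          · rw [Finset.sum_congr rfl fun x _ => hcm t hne (twlg_bk_L x) (W h), ← map_sum,
              (hw5 t htP).2, map_zero]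

end family

end Fermat.Agent.TW
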